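/-
Program F (S55), chapter GLOB, helper19: **Frobenius elements generate**.

For a finite abelian extension `L/K` of number fields and any `m ≠ 0`, the arithmetic Frobenius
elements at the primes `P` of `L` lying over primes `q` of `K` of prime absolute norm not
dividing `m`, unramified in `L`, generate `Gal(L/K)`.  (Consequence of the analytic
"not all primes split" theorem `CFT/NotAllSplit10.notAllSplitShape`.)
-/
import Mathlib
import Fermat.Agent.CFT.NotAllSplit10
import Fermat.Agent.CFT.FrobFunct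

set_option autoImplicit false
set_option linter.style.longLine false
set_option linter.style.haveILetI false

open NumberField
open scoped Pointwise

namespace Fermat.Agent.PT.GLOB.FrobGenerate19

section general

variable {K L : Type*} [Field K] [Field L] [NumberField K] [NumberField L] [Algebra K L]
  [IsGalois K L]

/-- A prime of `L` over a rational prime `ℓ` not dividing the discriminant of `L` is unramified
over `ℤ`. -/
theorem isUnramifiedAt_int_of_not_dvd_discr (P : Ideal (𝓞 L)) [P.IsPrime] {ℓ : ℕ} (hℓ : ℓ.Prime)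
    (hℓP : (ℓ : 𝓞 L) ∈ P) (hd : ¬ (ℓ : ℤ) ∣ discr L) : Algebra.IsUnramifiedAt ℤ P :=
  (NumberField.not_dvd_discr_iff_forall_mem L (𝓞 L) (Nat.prime_iff_prime_int.mp hℓ)).mp hd P
    inferInstance (by simpa using hℓP)

/-- A prime of `L` over a rational prime `ℓ` not dividing the discriminant of `L` has trivial
inertia group in `Gal(L/K)`. -/
theorem inertia_eq_bot_of_not_dvd_discr (P : Ideal (𝓞 L)) [P.IsPrime] {ℓ : ℕ} (hℓ : ℓ.Prime)
    (hℓP : (ℓ : 𝓞 L) ∈ P) (hd : ¬ (ℓ : ℤ) ∣ discr L) : P.inertia (L ≃ₐ[K] L) = ⊥ := by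
  have hun : Algebra.IsUnramifiedAt ℤ P := isUnramifiedAt_int_of_not_dvd_discr P hℓ hℓP hd
  have hunK : Algebra.IsUnramifiedAt (𝓞 K) P :=
    Algebra.FormallyUnramified.of_restrictScalars ℤ (𝓞 K) (Localization.AtPrime P)
  have hP0 : P ≠ ⊥ := by
    rintro rfl
    have : (ℓ : 𝓞 L) = 0 := by simpa using hℓP
    exact hℓ.ne_zero (by exact_mod_cast this)
  have he : P.ramificationIdx (𝓞 K) = 1 := Ideal.ramificationIdx_eq_one_iff.mpr hunK
  set q : Ideal (𝓞 K) := P.under (𝓞 K) with hq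
  haveI : P.LiesOver q := ⟨rfl⟩
  have hq0 : q ≠ ⊥ := fun h => hP0 (Ideal.eq_bot_of_comap_eq_bot h)
  haveI : q.IsMaximal := Ring.DimensionLEOne.maximalOfPrime hq0 inferInstance
  have h1 := Ideal.card_inertia_eq_ramificationIdxIn (G := L ≃ₐ[K] L) q P
  rw [Ideal.ramificationIdxIn_eq_ramificationIdx q P (L ≃ₐ[K] L), he] at h1
  exact Subgroup.card_eq_one.mp h1

end general


section main

variable (K L : Type) [Field K] [Field L] [NumberField K] [NumberField L] [Algebra K L]
  [IsGalois K L]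

/-- The set of arithmetic Frobenius elements of `Gal(L/K)` at primes `P` of `L` over primes `q` of
`K` of prime absolute norm not dividing `m`, with trivial inertia group. -/
def frobSet (m : ℕ) : Set (L ≃ₐ[K] L) :=
  {σ | ∃ (q : Ideal (𝓞 K)) (P : Ideal (𝓞 L)), q.IsPrime ∧ (Ideal.absNorm q).Prime ∧
    ¬ (Ideal.absNorm q ∣ m) ∧ P.IsPrime ∧ P.under (𝓞 K) = q ∧
    P.inertia (L ≃ₐ[K] L) = ⊥ ∧ IsArithFrobAt (𝓞 K) σ P}

theorem frobSet_anti {m m' : ℕ} (h : m ∣ m') : frobSet K L m' ⊆ frobSet K L m := by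
  rintro σ ⟨q, P, hq, hqn, hqm, hP, hPq, hin, hσ⟩
  exact ⟨q, P, hq, hqn, fun h' => hqm (h'.trans h), hP, hPq, hin, hσ⟩

/-- Membership of the canonical Frobenius in `frobSet`. -/
theorem arithFrobAt_mem_frobSet {m : ℕ} (P : Ideal (𝓞 L)) [P.IsPrime]
    (hqn : (Ideal.absNorm (P.under (𝓞 K))).Prime)
    (hqm : ¬ (Ideal.absNorm (P.under (𝓞 K)) ∣ m * (discr L).natAbs)) :
    ∃ σ ∈ frobSet K L m, IsArithFrobAt (𝓞 K) σ P := by
  set q : Ideal (𝓞 K) := P.under (𝓞 K) with hq
  set ℓ := Ideal.absNorm q with hℓ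
  have hℓq : (ℓ : 𝓞 K) ∈ q := Ideal.absNorm_mem q
  have hℓP : (ℓ : 𝓞 L) ∈ P := by
    have : algebraMap (𝓞 K) (𝓞 L) (ℓ : 𝓞 K) ∈ P := by
      rw [hq, Ideal.under_def, Ideal.mem_comap] at hℓq
      exact hℓq
    simpa using this
  have hd : ¬ (ℓ : ℤ) ∣ discr L := by
    intro h
    apply hqm
    have : ℓ ∣ (discr L).natAbs := by
      rw [← Int.natCast_dvd_natCast, Int.natCast_natAbs]
      exact (dvd_abs _ _).mpr h
    exact this.mul_left m
  have hP0 : P ≠ ⊥ := by
    rintro rfl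
    have : (ℓ : 𝓞 L) = 0 := by simpa using hℓP
    exact hqn.ne_zero (by exact_mod_cast this)
  have hfinL : Finite (𝓞 L ⧸ P) := Ideal.finiteQuotientOfFreeOfNeBot P hP0
  have hσ := IsArithFrobAt.arithFrobAt (𝓞 K) (L ≃ₐ[K] L) P
  refine ⟨_, ⟨q, P, Ideal.IsPrime.under (𝓞 K) P, hqn, fun h => hqm (h.mul_right _), inferInstance,
    rfl, inertia_eq_bot_of_not_dvd_discr P hqn hℓP hd, hσ⟩, hσ⟩

/-- **Frobenius elements generate**: for a finite abelian extension `L/K` of number fields and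
`m ≠ 0`, the Frobenius elements at unramified primes of prime absolute norm not dividing `m`
generate `Gal(L/K)`. -/
theorem closure_frobSet_eq_top (hab : ∀ σ τ : L ≃ₐ[K] L, σ * τ = τ * σ) (m : ℕ) (hm : m ≠ 0) :
    Subgroup.closure (frobSet K L m) = ⊤ := by
  classical
  set H : Subgroup (L ≃ₐ[K] L) := Subgroup.closure (frobSet K L m) with hH
  by_contra hne
  haveI : H.Normal := ⟨fun n hn g => by rw [hab g n, mul_inv_cancel_right]; exact hn⟩
  set F' : IntermediateField K L := IntermediateField.fixedField H with hF'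
  haveI : IsGalois K F' := IsGalois.of_fixedField_normal_subgroup H
  have hfix : F'.fixingSubgroup = H := IntermediateField.fixingSubgroup_fixedField H
  have hdeg : Module.finrank K F' ≠ 1 := by
    intro h1
    apply hne
    have hbot : F' = ⊥ := IntermediateField.finrank_eq_one_iff.mp h1
    rw [← hfix, hbot, IntermediateField.fixingSubgroup_bot]
  have hdL : (discr L).natAbs ≠ 0 := Int.natAbs_ne_zero.mpr (discr_ne_zero L)
  have hm' : m * (discr L).natAbs ≠ 0 := Nat.mul_ne_zero hm hdL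
  obtain ⟨q, P', σ', hq, hqn, hqm, hP', hP'q, hσ', hσ'1⟩ :=
    Fermat.Agent.CFT.NotAllSplit10.notAllSplitShape K F' hdeg (m * (discr L).natAbs) hm'
  haveI := hP'
  -- a prime of `L` over `P'`
  obtain ⟨P, hPprime, hPP'⟩ : ∃ P : Ideal (𝓞 L), P.IsPrime ∧ P.under (𝓞 F') = P' := by
    obtain ⟨⟨P, hP1, hP2⟩⟩ := (inferInstance : Nonempty (P'.primesOver (𝓞 L)))
    exact ⟨P, hP1, hP2.over.symm⟩
  haveI := hPprime
  have hPq : P.under (𝓞 K) = q := by
    rw [← hP'q, ← hPP', Ideal.under_under]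
  obtain ⟨σ, hσmem, hσ⟩ := arithFrobAt_mem_frobSet K L (m := m) P (by rw [hPq]; exact hqn)
    (by rw [hPq]; exact hqm)
  have hσH : σ ∈ H := Subgroup.subset_closure hσmem
  -- the restriction of `σ` to `F'` is trivial
  have hres : σ.restrictNormal F' = 1 := by
    ext x
    have h1 : algebraMap F' L (σ.restrictNormal F' x) = σ (algebraMap F' L x) :=
      AlgEquiv.restrictNormal_commutes σ F' x
    have h2 : σ (algebraMap F' L x) = algebraMap F' L x := by
      have hx : (x : L) ∈ IntermediateField.fixedField H := x.2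
      exact (IntermediateField.mem_fixedField_iff H (x : L)).mp hx σ hσH
    have h3 : algebraMap F' L (σ.restrictNormal F' x) = algebraMap F' L x := h1.trans h2
    exact_mod_cast (algebraMap F' L).injective h3
  have hfrob1 : IsArithFrobAt (𝓞 K) (1 : F' ≃ₐ[K] F') P' := by
    have := Fermat.Agent.CFT.FrobFunct.isArithFrobAt_restrictNormal (K := K) (L := F') (M := L) hσ
    rwa [hres, hPP'] at this
  -- unramifiedness of `P'`
  have hℓP' : ((Ideal.absNorm q : ℕ) : 𝓞 F') ∈ P' := by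
    have hℓq : ((Ideal.absNorm q : ℕ) : 𝓞 K) ∈ q := Ideal.absNorm_mem q
    have hmem : ((Ideal.absNorm q : ℕ) : 𝓞 K) ∈ P'.under (𝓞 K) := by
      rw [hP'q]; exact hℓq
    have : algebraMap (𝓞 K) (𝓞 F') ((Ideal.absNorm q : ℕ) : 𝓞 K) ∈ P' := by
      rw [Ideal.under_def, Ideal.mem_comap] at hmem
      exact hmem
    simpa using this
  have hdF' : ¬ ((Ideal.absNorm q : ℕ) : ℤ) ∣ discr F' := by
    intro h
    apply hqm
    have h2 : ((Ideal.absNorm q : ℕ) : ℤ) ∣ discr L := h.trans (discr_dvd_discr F' L)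
    have : Ideal.absNorm q ∣ (discr L).natAbs := by
      rw [← Int.natCast_dvd_natCast, Int.natCast_natAbs]
      exact (dvd_abs _ _).mpr h2
    exact this.mul_left m
  have hin : P'.inertia (F' ≃ₐ[K] F') = ⊥ :=
    inertia_eq_bot_of_not_dvd_discr P' hqn hℓP' hdF'
  have := IsArithFrobAt.mul_inv_mem_inertia hσ' hfrob1
  rw [hin, Subgroup.mem_bot, inv_one, mul_one] at this
  exact hσ'1 this


/-- A nontrivial Frobenius exists (any Galois `L/K` with `[L:K] ≠ 1`): an unramified prime of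
prime norm not dividing `m` with nontrivial Frobenius. -/
theorem exists_mem_frobSet_ne_one (hdeg : Module.finrank K L ≠ 1) (m : ℕ) (hm : m ≠ 0) :
    ∃ σ ∈ frobSet K L m, σ ≠ 1 := by
  have hdL : (discr L).natAbs ≠ 0 := Int.natAbs_ne_zero.mpr (discr_ne_zero L)
  have hm' : m * (discr L).natAbs ≠ 0 := Nat.mul_ne_zero hm hdL
  obtain ⟨q, P, σ, hq, hqn, hqm, hP, hPq, hσ, hσ1⟩ :=
    Fermat.Agent.CFT.NotAllSplit10.notAllSplitShape K L hdeg (m * (discr L).natAbs) hm'
  haveI := hP
  obtain ⟨σ₀, hσ₀mem, hσ₀⟩ := arithFrobAt_mem_frobSet K L (m := m) P (by rw [hPq]; exact hqn)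
    (by rw [hPq]; exact hqm)
  obtain ⟨q', P', hq', hqn', hqm', hP', hP'q', hin', hσ'⟩ := id hσ₀mem
  refine ⟨σ, ⟨q, P, hq, hqn, fun h => hqm (h.mul_right _), hP, hPq, ?_, hσ⟩, hσ1⟩
  -- the inertia group at `P` is trivial
  have hℓq : ((Ideal.absNorm q : ℕ) : 𝓞 K) ∈ q := Ideal.absNorm_mem q
  have hℓP : ((Ideal.absNorm q : ℕ) : 𝓞 L) ∈ P := by
    have hmem : ((Ideal.absNorm q : ℕ) : 𝓞 K) ∈ P.under (𝓞 K) := by
      rw [hPq]; exact hℓq
    have : algebraMap (𝓞 K) (𝓞 L) ((Ideal.absNorm q : ℕ) : 𝓞 K) ∈ P := by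
      rw [Ideal.under_def, Ideal.mem_comap] at hmem
      exact hmem
    simpa using this
  have hd : ¬ ((Ideal.absNorm q : ℕ) : ℤ) ∣ discr L := by
    intro h
    apply hqm
    have : Ideal.absNorm q ∣ (discr L).natAbs := by
      rw [← Int.natCast_dvd_natCast, Int.natCast_natAbs]
      exact (dvd_abs _ _).mpr h
    exact this.mul_left m
  exact inertia_eq_bot_of_not_dvd_discr P hqn hℓP hd

end main

section subgroup

variable (K M : Type) [Field K] [Field M] [NumberField K] [NumberField M] [Algebra K M]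
  [IsGalois K M]

/-- If `a ^ f` is prime then `a` is that prime. -/
theorem eq_of_pow_prime {a f ℓ : ℕ} (hℓ : ℓ.Prime) (h : a ^ f = ℓ) : a = ℓ := by
  have hf : f ≠ 0 := by
    rintro rfl
    rw [pow_zero] at h
    exact hℓ.one_lt.ne h
  have hdvd : a ∣ ℓ := h ▸ dvd_pow_self a hf
  rcases (Nat.dvd_prime hℓ).mp hdvd with h1 | h1
  · rw [h1, one_pow] at h
    exact absurd h hℓ.one_lt.ne
  · exact h1

/-- Frobenius elements over an intermediate field `F` at primes of prime norm are Frobenius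
elements over `K`. -/
theorem restrictScalars_mem_frobSet (F : IntermediateField K M) (m : ℕ) {τ : M ≃ₐ[F] M}
    (hτ : τ ∈ frobSet F M (m * (discr M).natAbs)) :
    τ.restrictScalars K ∈ frobSet K M m := by
  obtain ⟨w, P, hw, hwn, hwm, hP, hPw, hin, hτP⟩ := hτ
  haveI := hP
  haveI := hw
  set ℓ := Ideal.absNorm w with hℓ
  have hfinw : Finite (𝓞 F ⧸ P.under (𝓞 F)) := hτP.finite_quotient
  haveI : (P.under (𝓞 F)).IsMaximal := Fermat.Agent.CFT.FrobFunct.isMaximal_of_finite_quotient _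
  haveI : ((P.under (𝓞 F)).under (𝓞 K)).IsMaximal :=
    Ideal.isMaximal_comap_of_isIntegral_of_isMaximal (P.under (𝓞 F))
  have hw0 : P.under (𝓞 F) ≠ ⊥ := by
    rw [hPw]
    rintro rfl
    rw [hℓ, Ideal.absNorm_bot] at hwn
    exact Nat.not_prime_zero hwn
  have hq0 : (P.under (𝓞 F)).under (𝓞 K) ≠ ⊥ := fun h => hw0 (Ideal.eq_bot_of_comap_eq_bot h)
  haveI : Finite (𝓞 K ⧸ (P.under (𝓞 F)).under (𝓞 K)) :=
    Ideal.finiteQuotientOfFreeOfNeBot _ hq0
  have hcard := Fermat.Agent.CFT.FrobFunct.card_quot_eq_pow_inertiaDeg (R := 𝓞 K) (P.under (𝓞 F))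
  have hKK : (P.under (𝓞 F)).under (𝓞 K) = P.under (𝓞 K) := Ideal.under_under _
  rw [hKK] at hcard
  have hcardw : Nat.card (𝓞 F ⧸ P.under (𝓞 F)) = ℓ := by
    rw [hPw, hℓ, Fermat.Agent.CFT.NotAllSplit10.absNorm_eq_card]
  rw [hcardw] at hcard
  have hcardq : Nat.card (𝓞 K ⧸ P.under (𝓞 K)) = ℓ := eq_of_pow_prime hwn hcard.symm
  have hqn : (Ideal.absNorm (P.under (𝓞 K))).Prime := by
    rw [Fermat.Agent.CFT.NotAllSplit10.absNorm_eq_card, hcardq]; exact hwn
  have hqm : ¬ Ideal.absNorm (P.under (𝓞 K)) ∣ m * (discr M).natAbs := by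
    rw [Fermat.Agent.CFT.NotAllSplit10.absNorm_eq_card, hcardq]; exact hwm
  -- the Frobenius property over `K`
  have hfrob : IsArithFrobAt (𝓞 K) (τ.restrictScalars K) P := by
    intro x
    have h := hτP x
    change (τ.restrictScalars K) • x - x ^ Nat.card (𝓞 K ⧸ P.under (𝓞 K)) ∈ P
    rw [hcardq, Fermat.Agent.CFT.FrobFunct.restrictScalars_smul, ← hcardw]
    exact h
  -- trivial inertia over `K`
  have hℓq : ((Ideal.absNorm (P.under (𝓞 K)) : ℕ) : 𝓞 K) ∈ P.under (𝓞 K) := Ideal.absNorm_mem _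
  have hℓP : ((Ideal.absNorm (P.under (𝓞 K)) : ℕ) : 𝓞 M) ∈ P := by
    have : algebraMap (𝓞 K) (𝓞 M) ((Ideal.absNorm (P.under (𝓞 K)) : ℕ) : 𝓞 K) ∈ P := by
      rw [Ideal.under_def, Ideal.mem_comap] at hℓq
      exact hℓq
    simpa using this
  have hd : ¬ ((Ideal.absNorm (P.under (𝓞 K)) : ℕ) : ℤ) ∣ discr M := by
    intro h
    apply hqm
    have : Ideal.absNorm (P.under (𝓞 K)) ∣ (discr M).natAbs := by
      rw [← Int.natCast_dvd_natCast, Int.natCast_natAbs]
      exact (dvd_abs _ _).mpr h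
    exact this.mul_left m
  exact ⟨P.under (𝓞 K), P, Ideal.IsPrime.under (𝓞 K) P, hqn, fun h => hqm (h.mul_right _), hP, rfl,
    inertia_eq_bot_of_not_dvd_discr P hqn hℓP hd, hfrob⟩

/-- **Frobenius elements in a subgroup generate it**: for a finite abelian extension `M/K` of
number fields, a subgroup `H` of `Gal(M/K)` and `m ≠ 0`, the Frobenius elements (at unramified
primes of prime absolute norm not dividing `m`) lying in `H` generate `H`. -/
theorem closure_frobSet_inter_eq (hab : ∀ σ τ : M ≃ₐ[K] M, σ * τ = τ * σ)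
    (H : Subgroup (M ≃ₐ[K] M)) (m : ℕ) (hm : m ≠ 0) :
    Subgroup.closure (frobSet K M m ∩ (H : Set (M ≃ₐ[K] M))) = H := by
  classical
  apply le_antisymm
  · rw [Subgroup.closure_le]
    exact Set.inter_subset_right
  set F : IntermediateField K M := IntermediateField.fixedField H with hF
  have hfix : F.fixingSubgroup = H := IntermediateField.fixingSubgroup_fixedField H
  have habF : ∀ σ τ : M ≃ₐ[F] M, σ * τ = τ * σ := by
    intro σ τ
    ext x
    have := DFunLike.congr_fun (hab (σ.restrictScalars K) (τ.restrictScalars K)) x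
    exact this
  have hdM : (discr M).natAbs ≠ 0 := Int.natAbs_ne_zero.mpr (discr_ne_zero M)
  have hm' : m * (discr M).natAbs ≠ 0 := Nat.mul_ne_zero hm hdM
  have htop := closure_frobSet_eq_top F M habF (m * (discr M).natAbs) hm'
  intro h hh
  have hhF : h ∈ F.fixingSubgroup := hfix ▸ hh
  set h' : M ≃ₐ[F] M := F.fixingSubgroupEquiv ⟨h, hhF⟩ with hh'
  have hres : h'.restrictScalars K = h := by
    ext x; rfl
  have hmem : h' ∈ Subgroup.closure (frobSet F M (m * (discr M).natAbs)) := by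
    rw [htop]; exact Subgroup.mem_top _
  -- induction on the closure
  have key : ∀ g : M ≃ₐ[F] M, g ∈ Subgroup.closure (frobSet F M (m * (discr M).natAbs)) →
      g.restrictScalars K ∈ Subgroup.closure (frobSet K M m ∩ (H : Set (M ≃ₐ[K] M))) := by
    intro g hg
    induction hg using Subgroup.closure_induction with
    | mem τ hτ =>
      refine Subgroup.subset_closure ⟨restrictScalars_mem_frobSet K M F m hτ, ?_⟩
      rw [SetLike.mem_coe, ← hfix, IntermediateField.mem_fixingSubgroup_iff]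
      intro x hx
      exact τ.commutes ⟨x, hx⟩
    | one => exact Subgroup.one_mem _
    | mul a b _ _ ha hb => exact Subgroup.mul_mem _ ha hb
    | inv a _ ha => exact Subgroup.inv_mem _ ha
  rw [← hres]
  exact key h' hmem

end subgroup

end Fermat.Agent.PT.GLOB.FrobGenerate19
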