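/-
Program F (S55, Poitou–Tate), chapter GLOB, leaf (GLOB-CK) (helper15).

For a number field `K` the class group is represented by ideals supported on a finite set of
primes: after enlarging the set `T` of places, the `T`-class group is trivial, so that
`C(L) = I_T(L) / E_T(L)`.

Exports (all for a number field `K`, `R = 𝓞 K`, unless stated otherwise):
* `exists_nat_forall_class`  : `∃ N ≠ 0`, every ideal class contains an integral ideal of norm `∣ N`;
* `exists_nat_forall_ideal`  : consumer form `(x) I = (y) J`, `absNorm J ∣ N`;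
* `exists_finset_forall_ideal` : the same with a `Finset (HeightOneSpectrum (𝓞 K))`;
* `valuation_eq_exp_neg_count`, `valuationOfNeZero_eq_ofAdd_neg_count` (any Dedekind domain): the
  `v`-adic valuation of `x ≠ 0` is `exp (- count_v (x))`;
* `exists_nat_forall_finsupp`, `exists_finset_forall_finsupp` : **the `T`-class group is trivial for
  `T ⊇ T₀`**: every finitely supported `f : HeightOneSpectrum (𝓞 K) →₀ ℤ` is, away from `T₀`
  (= the primes dividing a rational integer `N`, a Galois-stable set), the divisor of some `a : Kˣ`.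
-/
import Mathlib

set_option autoImplicit false

namespace Fermat.Agent.PT.GLOB.ClassKill15

open NumberField IsDedekindDomain FractionalIdeal
open scoped nonZeroDivisors

section Dedekind

variable {R : Type*} [CommRing R] [IsDedekindDomain R] (K : Type*) [Field K] [Algebra R K]
  [IsFractionRing R K] (v : HeightOneSpectrum R)

/-- The `v`-adic valuation of a nonzero `x : K` is `exp (- count_v (x))`, where `count_v` is the
exponent of `v` in the factorisation of the principal fractional ideal `(x)`. -/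
theorem valuation_eq_exp_neg_count (x : K) (hx : x ≠ 0) :
    v.valuation K x = WithZero.exp (-(count K v (spanSingleton R⁰ x))) := by
  classical
  obtain ⟨a, b, hb, rfl⟩ := IsFractionRing.div_surjective (A := R) x
  have hb0 : b ≠ 0 := nonZeroDivisors.ne_zero hb
  have ha0 : a ≠ 0 := by
    rintro rfl
    simp at hx
  have hI : spanSingleton R⁰ (algebraMap R K a / algebraMap R K b) ≠ 0 := by
    rwa [Ne, spanSingleton_eq_zero_iff]
  have h := count_well_defined (K := K) v hI (a := b) (J := Ideal.span {a}) (by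
    rw [coeIdeal_span_singleton, spanSingleton_mul_spanSingleton, div_eq_inv_mul])
  rw [h, map_div₀, HeightOneSpectrum.valuation_of_algebraMap,
    HeightOneSpectrum.valuation_of_algebraMap, v.intValuation_if_neg ha0,
    v.intValuation_if_neg hb0, ← WithZero.exp_sub]
  congr 1
  ring

variable {K}

/-- `valuationOfNeZero` in terms of `FractionalIdeal.count`. -/
theorem valuationOfNeZero_eq_ofAdd_neg_count (x : Kˣ) :
    v.valuationOfNeZero x =
      Multiplicative.ofAdd (-(count K v (spanSingleton R⁰ (x : K)))) := by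
  apply WithZero.coe_injective
  rw [HeightOneSpectrum.valuationOfNeZero_eq, valuation_eq_exp_neg_count K v _ x.ne_zero]
  rfl

theorem toAdd_valuationOfNeZero (x : Kˣ) :
    Multiplicative.toAdd (v.valuationOfNeZero x) = -(count K v (spanSingleton R⁰ (x : K))) := by
  rw [valuationOfNeZero_eq_ofAdd_neg_count]; rfl

variable (K) in
/-- An integral ideal not divisible by `v` has `v`-count zero. -/
theorem count_coe_eq_zero_of_not_dvd {J : Ideal R} (hJ : J ≠ 0) (h : ¬ v.asIdeal ∣ J) :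
    count K v (J : FractionalIdeal R⁰ K) = 0 := by
  rw [count_coe K v hJ, Nat.cast_eq_zero]
  by_contra hne
  exact h ((Associates.count_ne_zero_iff_dvd hJ v.irreducible).mp hne)

end Dedekind

variable (K : Type*) [Field K] [NumberField K]

/-- **(CK1), rational form.**  There is a nonzero integer `N` such that every ideal class of `𝓞 K`
contains an integral ideal whose absolute norm divides `N`. -/
theorem exists_nat_forall_class :
    ∃ N : ℕ, N ≠ 0 ∧ ∀ c : ClassGroup (𝓞 K), ∃ J : (Ideal (𝓞 K))⁰,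
      ClassGroup.mk0 J = c ∧ Ideal.absNorm (J : Ideal (𝓞 K)) ∣ N := by
  classical
  have hsurj := ClassGroup.mk0_surjective (R := 𝓞 K)
  choose rep hrep using hsurj
  refine ⟨∏ c : ClassGroup (𝓞 K), Ideal.absNorm (rep c : Ideal (𝓞 K)), ?_, fun c => ?_⟩
  · rw [Finset.prod_ne_zero_iff]
    intro c _
    rw [Ne, Ideal.absNorm_eq_zero_iff]
    exact mem_nonZeroDivisors_iff_ne_zero.mp (rep c).2
  · exact ⟨rep c, hrep c, Finset.dvd_prod_of_mem _ (Finset.mem_univ c)⟩

/-- **(CK1), consumer form.**  There is a nonzero integer `N` such that every nonzero ideal `I` of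
`𝓞 K` satisfies `(x) I = (y) J` with `x, y ≠ 0` and `J` an integral ideal of norm dividing `N`
(so `J` is supported on the primes above the prime factors of `N`). -/
theorem exists_nat_forall_ideal :
    ∃ N : ℕ, N ≠ 0 ∧ ∀ I : Ideal (𝓞 K), I ≠ ⊥ → ∃ (x y : 𝓞 K) (J : Ideal (𝓞 K)),
      x ≠ 0 ∧ y ≠ 0 ∧ J ≠ ⊥ ∧ Ideal.span {x} * I = Ideal.span {y} * J ∧ Ideal.absNorm J ∣ N := by
  obtain ⟨N, hN, h⟩ := exists_nat_forall_class K
  refine ⟨N, hN, fun I hI => ?_⟩
  have hI' : I ∈ (Ideal (𝓞 K))⁰ := mem_nonZeroDivisors_iff_ne_zero.mpr hI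
  obtain ⟨J, hJ, hJN⟩ := h (ClassGroup.mk0 ⟨I, hI'⟩)
  obtain ⟨x, y, hx, hy, hxy⟩ := (ClassGroup.mk0_eq_mk0_iff (I := ⟨I, hI'⟩) (J := J)).mp hJ.symm
  exact ⟨x, y, J, hx, hy, mem_nonZeroDivisors_iff_ne_zero.mp J.2, hxy, hJN⟩

/-- If `absNorm J ∣ N` then every prime factor of `J` divides `(N)`. -/
theorem dvd_span_natCast_of_dvd {N : ℕ} {J : Ideal (𝓞 K)} (hJN : Ideal.absNorm J ∣ N)
    {P : Ideal (𝓞 K)} (hP : P ∣ J) : P ∣ Ideal.span {(N : 𝓞 K)} := by
  refine hP.trans ?_
  rw [Ideal.dvd_iff_le, Ideal.span_singleton_le_iff_mem]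
  obtain ⟨k, rfl⟩ := hJN
  rw [Nat.cast_mul]
  exact Ideal.mul_mem_right _ _ (Ideal.absNorm_mem J)

/-- The (finite) set of primes of `𝓞 K` dividing the nonzero integer `N`. -/
noncomputable def primesOver (N : ℕ) (hN : N ≠ 0) : Finset (HeightOneSpectrum (𝓞 K)) :=
  (Ideal.finite_factors (R := 𝓞 K) (I := Ideal.span {(N : 𝓞 K)}) (by
    rw [Ne, Ideal.zero_eq_bot, Ideal.span_singleton_eq_bot]
    exact_mod_cast hN)).toFinset

theorem mem_primesOver {N : ℕ} (hN : N ≠ 0) (v : HeightOneSpectrum (𝓞 K)) :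
    v ∈ primesOver K N hN ↔ v.asIdeal ∣ Ideal.span {(N : 𝓞 K)} := by
  rw [primesOver, Set.Finite.mem_toFinset, Set.mem_ofPred_eq]

/-- **(CK1), `HeightOneSpectrum` form.**  There is a finite set `T₀` of primes of `𝓞 K` such that
every nonzero ideal `I` satisfies `(x) I = (y) J` with `x, y ≠ 0` and `J` supported on `T₀`. -/
theorem exists_finset_forall_ideal :
    ∃ T₀ : Finset (HeightOneSpectrum (𝓞 K)), ∀ I : Ideal (𝓞 K), I ≠ ⊥ →
      ∃ (x y : 𝓞 K) (J : Ideal (𝓞 K)), x ≠ 0 ∧ y ≠ 0 ∧ J ≠ ⊥ ∧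
        Ideal.span {x} * I = Ideal.span {y} * J ∧
        ∀ v : HeightOneSpectrum (𝓞 K), v.asIdeal ∣ J → v ∈ T₀ := by
  obtain ⟨N, hN, h⟩ := exists_nat_forall_ideal K
  refine ⟨primesOver K N hN, fun I hI => ?_⟩
  obtain ⟨x, y, J, hx, hy, hJ, hxy, hJN⟩ := h I hI
  exact ⟨x, y, J, hx, hy, hJ, hxy, fun v hv =>
    (mem_primesOver K hN v).mpr (dvd_span_natCast_of_dvd K hJN hv)⟩

/-- **(CK1), divisor form, with an explicit integer.**  There is a nonzero integer `N` such that
every finitely supported `f : HeightOneSpectrum (𝓞 K) →₀ ℤ` is, away from the primes dividing `N`,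
the divisor of some `a : Kˣ`; i.e. the `T`-class group of `K` is trivial as soon as `T` contains all
primes dividing `N`.  (The set of primes dividing the rational integer `N` is stable under every
automorphism of `K`.)  Convention: `valuationOfNeZero a = ofAdd (- ord_v a)`. -/
theorem exists_nat_forall_finsupp :
    ∃ N : ℕ, N ≠ 0 ∧ ∀ f : HeightOneSpectrum (𝓞 K) →₀ ℤ,
      ∃ a : Kˣ, ∀ v : HeightOneSpectrum (𝓞 K), ¬ v.asIdeal ∣ Ideal.span {(N : 𝓞 K)} →
        v.valuationOfNeZero a = Multiplicative.ofAdd (f v) := by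
  classical
  obtain ⟨N, hN, h⟩ := exists_nat_forall_class K
  refine ⟨N, hN, fun f => ?_⟩
  let I : FractionalIdeal (𝓞 K)⁰ K :=
    (-f).prod (fun w k => (w.asIdeal : FractionalIdeal (𝓞 K)⁰ K) ^ k)
  have hI0 : I ≠ 0 := by
    show (-f).prod (fun w k => (w.asIdeal : FractionalIdeal (𝓞 K)⁰ K) ^ k) ≠ 0
    rw [Finsupp.prod, Finset.prod_ne_zero_iff]
    exact fun v _ ↦ zpow_ne_zero _ (coeIdeal_ne_zero.mpr v.ne_bot)
  have hIc : ∀ v, count K v I = - f v := fun v => by
    show count K v ((-f).prod (fun w k => (w.asIdeal : FractionalIdeal (𝓞 K)⁰ K) ^ k)) = _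
    rw [count_finsuppProd]; rfl
  obtain ⟨J, hJ, hJN⟩ := h (ClassGroup.mk K (Units.mk0 I hI0))
  have hJ0 : (J : Ideal (𝓞 K)) ≠ 0 := mem_nonZeroDivisors_iff_ne_zero.mp J.2
  have hJ0' : ((J : Ideal (𝓞 K)) : FractionalIdeal (𝓞 K)⁰ K) ≠ 0 := coeIdeal_ne_zero.mpr hJ0
  have h1 : ClassGroup.mk K (Units.mk0 I hI0 * (FractionalIdeal.mk0 K J)⁻¹) = 1 := by
    rw [map_mul, map_inv, ClassGroup.mk_mk0, hJ, mul_inv_cancel]
  rw [ClassGroup.mk_eq_one_iff] at h1
  obtain ⟨x, hx⟩ := h1.principal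
  have hx' : I * ((J : Ideal (𝓞 K)) : FractionalIdeal (𝓞 K)⁰ K)⁻¹ = spanSingleton (𝓞 K)⁰ x := by
    apply coeToSubmodule_injective
    show ((I * ((J : Ideal (𝓞 K)) : FractionalIdeal (𝓞 K)⁰ K)⁻¹ : FractionalIdeal (𝓞 K)⁰ K) :
      Submodule (𝓞 K) K) = ((spanSingleton (𝓞 K)⁰ x : FractionalIdeal (𝓞 K)⁰ K) : Submodule (𝓞 K) K)
    rw [coe_spanSingleton, ← hx]
    simp
  have hx0 : x ≠ 0 := by
    rintro rfl
    rw [spanSingleton_zero] at hx'
    exact mul_ne_zero hI0 (inv_ne_zero hJ0') hx'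
  refine ⟨Units.mk0 x hx0, fun v hv => ?_⟩
  have hvJ : ¬ v.asIdeal ∣ (J : Ideal (𝓞 K)) := fun hdvd =>
    hv (dvd_span_natCast_of_dvd K hJN hdvd)
  rw [valuationOfNeZero_eq_ofAdd_neg_count, Units.val_mk0, ← hx',
    count_mul K v hI0 (inv_ne_zero hJ0'), count_inv, hIc, count_coe_eq_zero_of_not_dvd K v hJ0 hvJ]
  simp

/-- **(CK1), divisor form.**  There is a finite set `T₀` of primes of `𝓞 K` such that every finitely
supported `f : HeightOneSpectrum (𝓞 K) →₀ ℤ` is, away from `T₀`, the divisor of some `a : Kˣ`: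
the `T`-class group of `K` is trivial for every `T ⊇ T₀`. -/
theorem exists_finset_forall_finsupp :
    ∃ T₀ : Finset (HeightOneSpectrum (𝓞 K)), ∀ f : HeightOneSpectrum (𝓞 K) →₀ ℤ,
      ∃ a : Kˣ, ∀ v : HeightOneSpectrum (𝓞 K), v ∉ T₀ →
        v.valuationOfNeZero a = Multiplicative.ofAdd (f v) := by
  obtain ⟨N, hN, h⟩ := exists_nat_forall_finsupp K
  refine ⟨primesOver K N hN, fun f => ?_⟩
  obtain ⟨a, ha⟩ := h f
  exact ⟨a, fun v hv => ha v fun hdvd => hv ((mem_primesOver K hN v).mpr hdvd)⟩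

end Fermat.Agent.PT.GLOB.ClassKill15
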