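/-
Program F (S55, Poitou–Tate), chapter GLOB, leaf (GLOB-SEL) (helper15).

**Finiteness of the `n`-Selmer group `K(T, n)` of a number field** (a Mathlib TODO):
for a finite set `T` of primes of `𝓞 K` and `n > 0`, the group
`{x ∈ Kˣ | n ∣ ord_v x for all v ∉ T} / (Kˣ)ⁿ` is finite.
This is the arithmetic input for the finiteness of `H¹(G_S, A)` (via Kummer theory).

The proof is self-contained over Mathlib (it uses the finiteness of the class group and the
finite generation of the unit group, but NOT the `S`-unit theorem):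
* `K(∅, n)`: `x` with `(x) = 𝔞ⁿ`; the class of `𝔞` takes finitely many values, and if `𝔞 = (y)𝔞₀`
  then `x = u · yⁿ · x₀` with `u` a unit; units modulo `n`-th powers are finite.
* `K(T, n) / K(∅, n)` embeds into `(ℤ/n)^T`.

Exports:
* `selSub T n : Subgroup Kˣ` (any Dedekind domain `R` with fraction field `K`, `T : Set _`);
* `exists_finset_cover` : `∃ Y : Finset Kˣ, ∀ x ∈ selSub T n, ∃ y ∈ Y, ∃ g, x = y * g ^ n`;
* `selmerGroup_eq_map`  : Mathlib's `selmerGroup` is the image of `selSub T n` in `Kˣ/(Kˣ)ⁿ`;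
* `finite_selmerGroup`  : `Finite (selmerGroup (R := 𝓞 K) (K := K) (S := T) (n := n))`.
-/
import Fermat.Agent.PT.GLOB.ClassKill15

set_option autoImplicit false

namespace Fermat.Agent.PT.GLOB.SelmerFinite15

open NumberField IsDedekindDomain FractionalIdeal
open scoped nonZeroDivisors
open Fermat.Agent.PT.GLOB.ClassKill15

/-! ### Two abstract covering lemmas -/

section abstract

variable {G D : Type*} [CommGroup G] [CommGroup D]

/-- If `f : G → D` has finite cokernel and its kernel is covered by finitely many classes modulo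
`n`-th powers, then so is the preimage of the `n`-th powers of `D`. -/
theorem cover_of_finite_coker (f : G →* D) (n : ℕ) [Finite (D ⧸ f.range)]
    (X : Finset G) (hX : ∀ e ∈ f.ker, ∃ x ∈ X, ∃ g : G, e = x * g ^ n) :
    ∃ Y : Finset G, ∀ g : G, (∃ d : D, f g = d ^ n) → ∃ y ∈ Y, ∃ h : G, g = y * h ^ n := by
  classical
  have := Fintype.ofFinite (D ⧸ f.range)
  let P : (D ⧸ f.range) → Prop := fun c =>
    ∃ g : G, ∃ d : D, f g = d ^ n ∧ (QuotientGroup.mk d : D ⧸ f.range) = c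
  let r : (D ⧸ f.range) → G := fun c => if h : P c then h.choose else 1
  refine ⟨(Finset.univ ×ˢ X).image (fun cx => r cx.1 * cx.2), ?_⟩
  rintro g ⟨d, hd⟩
  have hP : P (QuotientGroup.mk d) := ⟨g, d, hd, rfl⟩
  obtain ⟨dc, hdc, hdc'⟩ := hP.choose_spec
  have hr : r (QuotientGroup.mk d) = hP.choose := dif_pos hP
  rw [QuotientGroup.eq] at hdc'
  obtain ⟨k, hk⟩ := hdc'
  have hker : g * (hP.choose * k ^ n)⁻¹ ∈ f.ker := by
    rw [MonoidHom.mem_ker, map_mul, map_inv, map_mul, map_pow, hd, hdc, hk, ← mul_pow]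
    simp
  obtain ⟨x, hxX, m, hm⟩ := hX _ hker
  refine ⟨r (QuotientGroup.mk d) * x, ?_, k * m, ?_⟩
  · exact Finset.mem_image.mpr
      ⟨(QuotientGroup.mk d, x), Finset.mem_product.mpr ⟨Finset.mem_univ _, hxX⟩, rfl⟩
  · rw [hr, mul_pow]
    have : g = (g * (hP.choose * k ^ n)⁻¹) * (hP.choose * k ^ n) := by group
    rw [this, hm]
    simp only [mul_assoc, mul_comm, mul_left_comm]

/-- If `B` is covered by finitely many cosets of `P` and `A ⊓ ker φ ≤ B` for a homomorphism `φ` to a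
finite group, then `A` is covered by finitely many cosets of `P`. -/
theorem cover_of_finite_target {F : Type*} [Group F] [Finite F] (φ : G →* F) (A B P : Subgroup G)
    (hAB : A ⊓ φ.ker ≤ B) (Y : Finset G) (hY : ∀ b ∈ B, ∃ y ∈ Y, b / y ∈ P) :
    ∃ Z : Finset G, ∀ a ∈ A, ∃ z ∈ Z, a / z ∈ P := by
  classical
  have := Fintype.ofFinite F
  let Q : F → Prop := fun ρ => ∃ a ∈ A, φ a = ρ
  let r : F → G := fun ρ => if h : Q ρ then h.choose else 1
  refine ⟨(Finset.univ ×ˢ Y).image (fun cy => r cy.1 * cy.2), ?_⟩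
  intro a ha
  have hQ : Q (φ a) := ⟨a, ha, rfl⟩
  obtain ⟨hcA, hcφ⟩ := hQ.choose_spec
  have hr : r (φ a) = hQ.choose := dif_pos hQ
  have hmem : a / hQ.choose ∈ B := by
    apply hAB
    refine ⟨A.div_mem ha hcA, ?_⟩
    show a / hQ.choose ∈ φ.ker
    rw [MonoidHom.mem_ker, map_div, hcφ, div_self']
  obtain ⟨y, hyY, hy⟩ := hY _ hmem
  refine ⟨r (φ a) * y, ?_, ?_⟩
  · exact Finset.mem_image.mpr ⟨(φ a, y), Finset.mem_product.mpr ⟨Finset.mem_univ _, hyY⟩, rfl⟩
  · rw [hr]
    have : a / (hQ.choose * y) = a / hQ.choose / y := by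
      rw [div_div]
    rw [this]; exact hy

end abstract

/-! ### Dedekind domains: the subgroup `selSub`, kernel of `toPrincipalIdeal`, `n`-th roots of
fractional ideals -/

section Dedekind

variable {R : Type*} [CommRing R] [IsDedekindDomain R] {K : Type*} [Field K] [Algebra R K]
  [IsFractionRing R K]

/-- The subgroup of `Kˣ` of elements whose valuation at every `v ∉ T` is divisible by `n`. -/
def selSub (T : Set (HeightOneSpectrum R)) (n : ℕ) : Subgroup Kˣ where
  carrier := {x | ∀ v : HeightOneSpectrum R, v ∉ T →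
    (n : ℤ) ∣ Multiplicative.toAdd (v.valuationOfNeZero x)}
  one_mem' v _ := by simp
  mul_mem' hx hy v hv := by
    rw [map_mul, toAdd_mul]
    exact dvd_add (hx v hv) (hy v hv)
  inv_mem' hx v hv := by
    rw [map_inv, toAdd_inv]
    exact (dvd_neg).mpr (hx v hv)

theorem mem_selSub {T : Set (HeightOneSpectrum R)} {n : ℕ} {x : Kˣ} :
    x ∈ selSub (R := R) T n ↔ ∀ v : HeightOneSpectrum R, v ∉ T →
      (n : ℤ) ∣ Multiplicative.toAdd (v.valuationOfNeZero x) := Iff.rfl

theorem selSub_mono {T T' : Set (HeightOneSpectrum R)} (h : T ⊆ T') (n : ℕ) :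
    selSub (R := R) (K := K) T n ≤ selSub T' n := fun _ hx v hv => hx v fun hvT => hv (h hvT)

theorem pow_mem_selSub (T : Set (HeightOneSpectrum R)) (n : ℕ) (g : Kˣ) :
    g ^ n ∈ selSub (R := R) T n := fun v _ => by
  rw [map_pow, toAdd_pow]
  exact ⟨Multiplicative.toAdd (v.valuationOfNeZero g), by rw [nsmul_eq_mul]⟩

theorem range_pow_le_selSub (T : Set (HeightOneSpectrum R)) (n : ℕ) :
    (powMonoidHom n : Kˣ →* Kˣ).range ≤ selSub (R := R) T n := by
  rintro _ ⟨g, rfl⟩
  exact pow_mem_selSub T n g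

/-- The value of Mathlib's `valuationOfNeZeroMod` on a class is trivial iff `n` divides the
valuation of a representative. -/
theorem valuationOfNeZeroMod_mk_eq_one_iff (v : HeightOneSpectrum R) (n : ℕ) (x : Kˣ) :
    v.valuationOfNeZeroMod n (QuotientGroup.mk x : Kˣ ⧸ (powMonoidHom n : Kˣ →* Kˣ).range) = 1 ↔
      (n : ℤ) ∣ Multiplicative.toAdd (v.valuationOfNeZero x) := by
  change Multiplicative.ofAdd (Int.quotientZMultiplesNatEquivZMod n
    (QuotientAddGroup.mk (Multiplicative.toAdd (v.valuationOfNeZero x)))) = 1 ↔ _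
  rw [ofAdd_eq_one, map_eq_zero_iff _ (Int.quotientZMultiplesNatEquivZMod n).injective,
    QuotientAddGroup.eq_zero_iff, Int.mem_zmultiples_iff]

/-- Mathlib's Selmer group `K⟮T, n⟯` is the image of `selSub T n` in `Kˣ / (Kˣ)ⁿ`. -/
theorem selmerGroup_eq_map (T : Set (HeightOneSpectrum R)) (n : ℕ) :
    (selmerGroup (R := R) (K := K) (S := T) (n := n)) =
      (selSub (R := R) T n).map (QuotientGroup.mk' (powMonoidHom n : Kˣ →* Kˣ).range) := by
  ext q
  induction q using QuotientGroup.induction_on with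
  | H x =>
    constructor
    · intro hx
      refine ⟨x, fun v hv => ?_, rfl⟩
      exact (valuationOfNeZeroMod_mk_eq_one_iff v n x).mp (hx v hv)
    · rintro ⟨y, hy, hyx⟩ v hv
      rw [← hyx]
      exact (valuationOfNeZeroMod_mk_eq_one_iff v n y).mpr (hy v hv)

omit [IsDedekindDomain R] in
/-- The kernel of `toPrincipalIdeal` consists of the units of `R`. -/
theorem exists_unit_of_toPrincipalIdeal_eq_one (x : Kˣ) (hx : toPrincipalIdeal R K x = 1) :
    ∃ u : Rˣ, x = Units.map (algebraMap R K : R →* K) u := by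
  have h1 : spanSingleton R⁰ (x : K) = 1 := by
    rw [Units.ext_iff, coe_toPrincipalIdeal] at hx
    exact hx
  have h2 : spanSingleton R⁰ ((x⁻¹ : Kˣ) : K) = 1 := by
    have hx' : toPrincipalIdeal R K x⁻¹ = 1 := by rw [map_inv, hx, inv_one]
    rw [Units.ext_iff, coe_toPrincipalIdeal] at hx'
    exact hx'
  have m1 : (x : K) ∈ (1 : FractionalIdeal R⁰ K) := by
    rw [← h1]; exact mem_spanSingleton_self _ _
  have m2 : ((x⁻¹ : Kˣ) : K) ∈ (1 : FractionalIdeal R⁰ K) := by
    rw [← h2]; exact mem_spanSingleton_self _ _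
  rw [mem_one_iff] at m1 m2
  obtain ⟨a, ha⟩ := m1
  obtain ⟨b, hb⟩ := m2
  have hab : a * b = 1 := by
    apply FaithfulSMul.algebraMap_injective R K
    rw [map_mul, ha, hb, map_one, ← Units.val_mul, mul_inv_cancel, Units.val_one]
  refine ⟨⟨a, b, hab, by rw [mul_comm]; exact hab⟩, ?_⟩
  ext
  simp [ha]

variable (K) in
/-- Two nonzero fractional ideals with the same counts at all primes are equal. -/
theorem fractionalIdeal_eq_of_count_eq {I I' : FractionalIdeal R⁰ K} (hI : I ≠ 0) (hI' : I' ≠ 0)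
    (h : ∀ v : HeightOneSpectrum R, count K v I = count K v I') : I = I' := by
  rw [← finprod_heightOneSpectrum_factorization' K hI,
    ← finprod_heightOneSpectrum_factorization' K hI']
  exact finprod_congr fun v => by rw [h v]

variable (K) in
/-- A nonzero fractional ideal all of whose counts are divisible by `n` is an `n`-th power. -/
theorem exists_pow_eq_of_dvd_count (n : ℕ) (hn : n ≠ 0) {I : FractionalIdeal R⁰ K} (hI : I ≠ 0)
    (h : ∀ v : HeightOneSpectrum R, (n : ℤ) ∣ count K v I) :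
    ∃ J : FractionalIdeal R⁰ K, J ≠ 0 ∧ J ^ n = I := by
  classical
  choose m hm using h
  have hfin : ∀ᶠ v : HeightOneSpectrum R in Filter.cofinite, m v = 0 := by
    refine (finite_factors I).mono fun v hv => ?_
    rw [hm v] at hv
    rcases mul_eq_zero.mp hv with h0 | h0
    · exact absurd (by exact_mod_cast h0) hn
    · exact h0
  let exps : HeightOneSpectrum R →₀ ℤ :=
    Finsupp.mk hfin.toFinset m (fun _ ↦ hfin.mem_toFinset)
  let J : FractionalIdeal R⁰ K :=
    exps.prod (fun w k => (w.asIdeal : FractionalIdeal R⁰ K) ^ k)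
  have hJ0 : J ≠ 0 := by
    show exps.prod (fun w k => (w.asIdeal : FractionalIdeal R⁰ K) ^ k) ≠ 0
    rw [Finsupp.prod, Finset.prod_ne_zero_iff]
    exact fun v _ ↦ zpow_ne_zero _ (coeIdeal_ne_zero.mpr v.ne_bot)
  have hJc : ∀ v, count K v J = m v := fun v => count_finsuppProd K v exps
  refine ⟨J, hJ0, ?_⟩
  refine fractionalIdeal_eq_of_count_eq K (pow_ne_zero _ hJ0) hI fun v => ?_
  rw [count_pow, hJc, hm]

/-- If all valuations of `x` are divisible by `n ≠ 0`, the principal ideal `(x)` is an `n`-th power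
in the group of invertible fractional ideals. -/
theorem exists_pow_eq_toPrincipalIdeal {n : ℕ} (hn : n ≠ 0) {x : Kˣ}
    (hx : x ∈ selSub (R := R) (∅ : Set (HeightOneSpectrum R)) n) :
    ∃ d : (FractionalIdeal R⁰ K)ˣ, toPrincipalIdeal R K x = d ^ n := by
  have hI : spanSingleton R⁰ (x : K) ≠ 0 := by
    rw [Ne, spanSingleton_eq_zero_iff]; exact x.ne_zero
  obtain ⟨J, hJ0, hJ⟩ := exists_pow_eq_of_dvd_count K n hn hI (fun v => by
    have := hx v (Set.notMem_empty v)
    rw [toAdd_valuationOfNeZero] at this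
    exact (dvd_neg).mp this)
  refine ⟨Units.mk0 J hJ0, ?_⟩
  rw [Units.ext_iff, coe_toPrincipalIdeal, Units.val_pow_eq_pow_val, Units.val_mk0, hJ]

/-- The residues modulo `n` of the valuations at the places of a set `T`. -/
noncomputable def valMod (T : Set (HeightOneSpectrum R)) (n : ℕ) :
    Kˣ →* (T → Multiplicative (ZMod n)) :=
  MonoidHom.pi fun v : T =>
    (AddMonoidHom.toMultiplicative (Int.castAddHom (ZMod n))).comp v.1.valuationOfNeZero

theorem selSub_inf_ker_valMod_le (T : Set (HeightOneSpectrum R)) (n : ℕ) :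
    selSub (R := R) (K := K) T n ⊓ (valMod (R := R) (K := K) T n).ker ≤
      selSub (R := R) (K := K) ∅ n := by
  rintro x ⟨hx, hker⟩ v -
  by_cases hv : v ∈ T
  · have h1 := congrFun (MonoidHom.mem_ker.mp hker) ⟨v, hv⟩
    have h2 : ((Multiplicative.toAdd (v.valuationOfNeZero x) : ℤ) : ZMod n) = 0 := h1
    exact (ZMod.intCast_zmod_eq_zero_iff_dvd _ _).mp h2
  · exact hx v hv

end Dedekind

/-! ### Number fields -/

section NumberField

variable (K : Type*) [Field K] [NumberField K]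

/-- The units of `𝓞 K` are covered by finitely many classes modulo `n`-th powers. -/
theorem exists_finset_units_cover (n : ℕ) (hn : 0 < n) :
    ∃ X : Finset (𝓞 K)ˣ, ∀ u : (𝓞 K)ˣ, ∃ x ∈ X, ∃ w : (𝓞 K)ˣ, u = x * w ^ n := by
  classical
  have : Group.FG (𝓞 K)ˣ := Group.fg_iff_monoid_fg.mpr inferInstance
  have hfin : Finite ((𝓞 K)ˣ ⧸ (powMonoidHom n : (𝓞 K)ˣ →* (𝓞 K)ˣ).range) := by
    apply CommGroup.finite_of_fg_isMulTorsion
    intro q
    rw [isOfFinOrder_iff_pow_eq_one]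
    refine ⟨n, hn, ?_⟩
    induction q using QuotientGroup.induction_on with
    | H u =>
      rw [← QuotientGroup.mk_pow, QuotientGroup.eq_one_iff]
      exact ⟨u, rfl⟩
  have := Fintype.ofFinite ((𝓞 K)ˣ ⧸ (powMonoidHom n : (𝓞 K)ˣ →* (𝓞 K)ˣ).range)
  refine ⟨Finset.univ.image
    (fun q : (𝓞 K)ˣ ⧸ (powMonoidHom n : (𝓞 K)ˣ →* (𝓞 K)ˣ).range => q.out), ?_⟩
  intro u
  refine ⟨(QuotientGroup.mk u : (𝓞 K)ˣ ⧸ (powMonoidHom n : (𝓞 K)ˣ →* (𝓞 K)ˣ).range).out,
    Finset.mem_image.mpr ⟨_, Finset.mem_univ _, rfl⟩, ?_⟩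
  have h : (QuotientGroup.mk
      ((QuotientGroup.mk u : (𝓞 K)ˣ ⧸ (powMonoidHom n : (𝓞 K)ˣ →* (𝓞 K)ˣ).range).out) :
      (𝓞 K)ˣ ⧸ (powMonoidHom n : (𝓞 K)ˣ →* (𝓞 K)ˣ).range) = QuotientGroup.mk u :=
    QuotientGroup.out_eq' _
  rw [QuotientGroup.eq] at h
  obtain ⟨w, hw⟩ := h
  refine ⟨w, ?_⟩
  rw [show w ^ n = _ from hw]
  group

/-- **Finiteness of `K(∅, n)`**, covering form. -/
theorem exists_finset_cover_empty (n : ℕ) (hn : 0 < n) :
    ∃ Y : Finset Kˣ, ∀ x ∈ selSub (R := 𝓞 K) (K := K) ∅ n, ∃ y ∈ Y, ∃ g : Kˣ, x = y * g ^ n := by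
  classical
  obtain ⟨X, hX⟩ := exists_finset_units_cover K n hn
  have hfin : Finite ((FractionalIdeal (𝓞 K)⁰ K)ˣ ⧸ (toPrincipalIdeal (𝓞 K) K).range) :=
    Finite.of_equiv _ (ClassGroup.equiv (R := 𝓞 K) K).toEquiv
  obtain ⟨Y, hY⟩ := cover_of_finite_coker (toPrincipalIdeal (𝓞 K) K) n
    (X.image (Units.map (algebraMap (𝓞 K) K : 𝓞 K →* K))) (by
      intro e he
      obtain ⟨u, rfl⟩ := exists_unit_of_toPrincipalIdeal_eq_one e (MonoidHom.mem_ker.mp he)
      obtain ⟨x, hxX, w, rfl⟩ := hX u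
      exact ⟨_, Finset.mem_image.mpr ⟨x, hxX, rfl⟩,
        Units.map (algebraMap (𝓞 K) K : 𝓞 K →* K) w, by rw [map_mul, map_pow]⟩)
  exact ⟨Y, fun x hx => hY x (exists_pow_eq_toPrincipalIdeal hn.ne' hx)⟩

/-- **Finiteness of the Selmer group `K(T, n)`**, covering form: for a finite set `T` of primes of
a number field `K` and `n > 0`, finitely many elements `y` of `Kˣ` suffice to write every `x ∈ Kˣ`
with `n ∣ ord_v x` for all `v ∉ T` as `x = y gⁿ`. -/
theorem exists_finset_cover (T : Set (HeightOneSpectrum (𝓞 K))) (hT : T.Finite) (n : ℕ)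
    (hn : 0 < n) :
    ∃ Y : Finset Kˣ, ∀ x ∈ selSub (R := 𝓞 K) (K := K) T n, ∃ y ∈ Y, ∃ g : Kˣ, x = y * g ^ n := by
  classical
  obtain ⟨Y₀, hY₀⟩ := exists_finset_cover_empty K n hn
  have : NeZero n := ⟨hn.ne'⟩
  have : Finite T := hT
  obtain ⟨Z, hZ⟩ := cover_of_finite_target (valMod (R := 𝓞 K) (K := K) T n) (selSub T n)
    (selSub ∅ n) (powMonoidHom n : Kˣ →* Kˣ).range (selSub_inf_ker_valMod_le T n) Y₀ (by
      intro b hb
      obtain ⟨y, hy, g, rfl⟩ := hY₀ b hb
      exact ⟨y, hy, g, by simp⟩)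
  refine ⟨Z, fun x hx => ?_⟩
  obtain ⟨z, hz, g, hg⟩ := hZ x hx
  refine ⟨z, hz, g, ?_⟩
  rw [show g ^ n = x / z from hg]
  simp

/-- **Finiteness of the Selmer group** `K⟮T, n⟯` of a number field (`T` finite, `n > 0`). -/
theorem finite_selmerGroup (T : Set (HeightOneSpectrum (𝓞 K))) (hT : T.Finite) (n : ℕ)
    (hn : 0 < n) : Finite (selmerGroup (R := 𝓞 K) (K := K) (S := T) (n := n)) := by
  classical
  obtain ⟨Y, hY⟩ := exists_finset_cover K T hT n hn
  rw [selmerGroup_eq_map]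
  apply Set.Finite.subset (Y.image (QuotientGroup.mk' (powMonoidHom n : Kˣ →* Kˣ).range)).finite_toSet
  rintro _ ⟨x, hx, rfl⟩
  obtain ⟨y, hy, g, rfl⟩ := hY x hx
  rw [Finset.mem_coe, Finset.mem_image]
  refine ⟨y, hy, ?_⟩
  rw [QuotientGroup.mk'_apply, QuotientGroup.mk'_apply, QuotientGroup.eq]
  exact ⟨g, by simp⟩

end NumberField

end Fermat.Agent.PT.GLOB.SelmerFinite15
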