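/-
Program F (S55, Poitou–Tate), chapter GLOB, leaf (R1-Kb) (helper15).

**Unramified Kummer generators have valuation divisible by `p`.**
If `K ⊆ F`, `w` is a prime of `F` over the prime `v` of `K` with ramification index `1`, and
`α ∈ Kˣ` becomes an `n`-th power in `F`, then `n ∣ ord_v α`.

Consequently, if `F/K₀` is Galois, `K₀ ⊆ K ⊆ F`, and the inertia group in `Gal(F/K₀)` of every prime
of `F` outside a set `T` of primes of `K` is trivial, then every `α ∈ Kˣ` which is an `n`-th power in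
`F` lies in `SelmerFinite15.selSub T n`; in particular (number fields, `T` finite) `α = y gⁿ` with
`y` in the finite set of `SelmerFinite15.exists_finset_cover`.
-/
import Fermat.Agent.PT.GLOB.SelmerFinite15

set_option autoImplicit false

namespace Fermat.Agent.PT.GLOB.KummerUnram15

open NumberField IsDedekindDomain
open scoped nonZeroDivisors WithZero
open Fermat.Agent.PT.GLOB.SelmerFinite15

section Dedekind

variable {A K : Type*} (L : Type*) {B : Type*}
variable [CommRing A] [IsDedekindDomain A] [CommRing B] [IsDedekindDomain B] [Algebra A B]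
  [Module.IsTorsionFree A B]
variable [Field K] [Field L] [Algebra K L]
variable [Algebra A K] [IsFractionRing A K] [Algebra A L] [IsScalarTower A K L]
variable [Algebra B L] [IsFractionRing B L] [IsScalarTower A B L]
variable (v : HeightOneSpectrum A) (w : HeightOneSpectrum B) [w.asIdeal.LiesOver v.asIdeal]

/-- If `e(w | v) = 1` and `α ∈ Kˣ` is an `n`-th power in `L`, then `n ∣ ord_v α`. -/
theorem dvd_toAdd_valuationOfNeZero_of_pow_eq
    (he : v.asIdeal.ramificationIdx' w.asIdeal = 1) (n : ℕ) (α : Kˣ) (β : L)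
    (hβ : β ^ n = algebraMap K L α) :
    (n : ℤ) ∣ Multiplicative.toAdd (v.valuationOfNeZero α) := by
  rcases Nat.eq_zero_or_pos n with rfl | hn
  · rw [pow_zero] at hβ
    have hα : α = 1 := by
      ext
      apply (algebraMap K L).injective
      rw [← hβ, Units.val_one, map_one]
    rw [hα, map_one]
    simp
  have hβ0 : β ≠ 0 := by
    rintro rfl
    rw [zero_pow hn.ne'] at hβ
    exact (map_ne_zero (algebraMap K L)).mpr α.ne_zero hβ.symm
  have h1 := HeightOneSpectrum.valuation_liesOver L v w (α : K)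
  rw [he, pow_one, ← hβ, map_pow] at h1
  have h2 : ((v.valuationOfNeZero α : Multiplicative ℤ) : ℤᵐ⁰) =
      (((w.valuationOfNeZero (Units.mk0 β hβ0)) ^ n : Multiplicative ℤ) : ℤᵐ⁰) := by
    rw [WithZero.coe_pow, HeightOneSpectrum.valuationOfNeZero_eq,
      HeightOneSpectrum.valuationOfNeZero_eq, h1, Units.val_mk0]
  have h3 := WithZero.coe_injective h2
  rw [h3, toAdd_pow]
  exact ⟨_, by rw [nsmul_eq_mul]⟩

end Dedekind

section NumberField

variable (K₀ K F : Type*) [Field K₀] [Field K] [Field F] [NumberField K₀] [NumberField K]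
  [NumberField F] [Algebra K₀ K] [Algebra K F] [Algebra K₀ F] [IsScalarTower K₀ K F]
  [IsGalois K₀ F]

/-- In a tower `K₀ ⊆ K ⊆ F` with `F/K₀` Galois, a prime `w` of `F` with trivial inertia group in
`Gal(F/K₀)` has ramification index one over `K`. -/
theorem ramificationIdx'_eq_one_of_inertia_eq_bot (w : HeightOneSpectrum (𝓞 F))
    (hw : w.asIdeal.inertia (F ≃ₐ[K₀] F) = ⊥) (v : HeightOneSpectrum (𝓞 K))
    [w.asIdeal.LiesOver v.asIdeal] :
    v.asIdeal.ramificationIdx' w.asIdeal = 1 := by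
  have hcard : Nat.card (w.asIdeal.inertia (F ≃ₐ[K₀] F)) = 1 := by
    rw [hw]; exact Subgroup.card_bot
  have h1 : w.asIdeal.ramificationIdx (𝓞 K₀) = 1 := by
    rw [← Ideal.ramificationIdxIn_eq_ramificationIdx (w.asIdeal.under (𝓞 K₀)) w.asIdeal
      (F ≃ₐ[K₀] F), ← Ideal.card_inertia_eq_ramificationIdxIn (G := F ≃ₐ[K₀] F)
      (w.asIdeal.under (𝓞 K₀)) w.asIdeal, hcard]
  have h2 : w.asIdeal.ramificationIdx (𝓞 K) ∣ w.asIdeal.ramificationIdx (𝓞 K₀) :=
    Ideal.ramificationIdx_above_dvd (R := 𝓞 K₀) v.asIdeal w.asIdeal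
  rw [h1, Nat.dvd_one] at h2
  rw [Ideal.ramificationIdx'_eq_ramificationIdx v.asIdeal w.asIdeal v.ne_bot, h2]

/-- **(R1-Kb)**  Let `K₀ ⊆ K ⊆ F` be number fields with `F/K₀` Galois, and `T` a set of primes of `K`
such that every prime `w` of `F` whose restriction to `K` is not in `T` has trivial inertia group
in `Gal(F/K₀)`.  If `α ∈ Kˣ` is an `n`-th power in `F`, then `α ∈ selSub T n`. -/
theorem mem_selSub_of_pow_eq (T : Set (HeightOneSpectrum (𝓞 K)))
    (hur : ∀ w : HeightOneSpectrum (𝓞 F), ∀ v : HeightOneSpectrum (𝓞 K),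
      w.asIdeal.LiesOver v.asIdeal → v ∉ T → w.asIdeal.inertia (F ≃ₐ[K₀] F) = ⊥)
    (n : ℕ) (α : Kˣ) (β : F) (hβ : β ^ n = algebraMap K F α) :
    α ∈ selSub (R := 𝓞 K) (K := K) T n := by
  intro v hv
  -- a prime of `F` above `v`
  obtain ⟨⟨P, hP1, hP2⟩⟩ := (inferInstance : Nonempty (v.asIdeal.primesOver (𝓞 F)))
  have hP0 : P ≠ ⊥ := Ideal.ne_bot_of_liesOver_of_ne_bot v.ne_bot P
  let w : HeightOneSpectrum (𝓞 F) := ⟨P, hP1, hP0⟩
  have : w.asIdeal.LiesOver v.asIdeal := hP2
  exact dvd_toAdd_valuationOfNeZero_of_pow_eq F v w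
    (ramificationIdx'_eq_one_of_inertia_eq_bot K₀ K F w (hur w v hP2 hv) v) n α β hβ

/-- **(R1-Kb), finite form.**  For a finite set `T` of primes of `K` and `n > 0` there is a finite
set `Y ⊆ Kˣ` such that: whenever `K₀ ⊆ K ⊆ F` with `F/K₀` Galois and all primes of `F` not above `T`
have trivial inertia in `Gal(F/K₀)`, every `α ∈ Kˣ` which is an `n`-th power in `F` is of the form
`y gⁿ` with `y ∈ Y`, `g ∈ Kˣ`.  (`Y` depends only on `K`, `T`, `n`.) -/
theorem exists_finset_forall_pow_eq (T : Set (HeightOneSpectrum (𝓞 K))) (hT : T.Finite) (n : ℕ)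
    (hn : 0 < n) :
    ∃ Y : Finset Kˣ, ∀ (K₀ F : Type*) [Field K₀] [Field F] [NumberField K₀] [NumberField F]
      [Algebra K₀ K] [Algebra K F] [Algebra K₀ F] [IsScalarTower K₀ K F] [IsGalois K₀ F],
      (∀ w : HeightOneSpectrum (𝓞 F), ∀ v : HeightOneSpectrum (𝓞 K),
        w.asIdeal.LiesOver v.asIdeal → v ∉ T → w.asIdeal.inertia (F ≃ₐ[K₀] F) = ⊥) →
      ∀ (α : Kˣ) (β : F), β ^ n = algebraMap K F α → ∃ y ∈ Y, ∃ g : Kˣ, α = y * g ^ n := by
  obtain ⟨Y, hY⟩ := exists_finset_cover K T hT n hn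
  exact ⟨Y, fun K₀ F _ _ _ _ _ _ _ _ _ hur α β hβ =>
    hY α (mem_selSub_of_pow_eq K₀ K F T hur n α β hβ)⟩

end NumberField

end Fermat.Agent.PT.GLOB.KummerUnram15
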