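/-
Program F (S55, Poitou–Tate), chapter GLOB, leaf (R1-H1) (helper15).

**Unconditional finiteness of `H¹(G_S, ·)`** (no class field theory; Kummer theory + finiteness of
the Selmer group `SelmerFinite15` + `KummerUnram15`).

Let `F₀ ⊂ ℚ̄` be a finite extension of `ℚ` unramified outside `S` containing a primitive `p`-th root
of unity.  There is a finite extension `F₁ ⊇ F₀` such that every function `χ : Γ → ℤ/p` which is
additive on `Gal(ℚ̄/F₀)` and kills `Gal(ℚ̄/E) ∩ Gal(ℚ̄/F₀)` for SOME `E` unramified outside `S`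
kills `Gal(ℚ̄/F₁)`  (`exists_field_forall_hom`).
-/
import Mathlib
import Fermat.Agent.PT.BR.UnramBridge13
import Fermat.Agent.PT.GLOB.KummerUnram15

set_option autoImplicit false
set_option linter.style.haveILetI false

namespace Fermat.Agent.PT.GLOB.H1Finite15

open NumberField IsDedekindDomain
open Fermat.Agent.S13.UnramRam
open Fermat.Agent.PT.GLOB.SelmerFinite15 Fermat.Agent.PT.GLOB.KummerUnram15

local notation "Qbar" => AlgebraicClosure ℚ
local notation "Γ" => (AlgebraicClosure ℚ ≃ₐ[ℚ] AlgebraicClosure ℚ)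

local instance isAlgClosureQbar15 : IsAlgClosure ℚ Qbar := ⟨inferInstance, inferInstance⟩
local instance normalQbar15 : Normal ℚ Qbar := IsAlgClosure.normal ℚ Qbar
local instance isGaloisQbar15 : IsGalois ℚ Qbar := IsAlgClosure.isGalois ℚ Qbar

/-! ### The primes of a number field above a finite set of rational primes -/

section PrimesAbove

variable (S : Finset Nat.Primes) (K : Type*) [Field K] [NumberField K]

/-- The primes of `𝓞 K` above the rational primes in `S`. -/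
def primesAboveS : Set (HeightOneSpectrum (𝓞 K)) :=
  {v | ∃ q ∈ S, ((q : ℕ) : 𝓞 K) ∈ v.asIdeal}

theorem finite_primesAboveS : (primesAboveS S K).Finite := by
  have h : primesAboveS S K ⊆ ⋃ q ∈ S, {v : HeightOneSpectrum (𝓞 K) |
      v.asIdeal ∣ Ideal.span {((q : ℕ) : 𝓞 K)}} := by
    rintro v ⟨q, hq, hv⟩
    simp only [Set.mem_iUnion]
    refine ⟨q, hq, ?_⟩
    rw [Set.mem_ofPred_eq, Ideal.dvd_iff_le, Ideal.span_singleton_le_iff_mem]
    exact hv
  refine Set.Finite.subset (Set.Finite.biUnion S.finite_toSet fun q _ => ?_) h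
  apply Ideal.finite_factors
  rw [Ne, Ideal.zero_eq_bot, Ideal.span_singleton_eq_bot]
  exact_mod_cast q.2.ne_zero

end PrimesAbove

/-- A nonzero prime of the ring of integers of a number field contains a rational prime. -/
theorem exists_prime_natCast_mem' {L : Type*} [Field L] [NumberField L] (P : Ideal (𝓞 L))
    [P.IsPrime] (hP : P ≠ ⊥) : ∃ ℓ : ℕ, ℓ.Prime ∧ (ℓ : 𝓞 L) ∈ P := by
  have : Finite (𝓞 L ⧸ P) := Ideal.finiteQuotientOfFreeOfNeBot P hP
  obtain ⟨ℓ, hℓ⟩ := CharP.exists (𝓞 L ⧸ P)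
  have hprime : ℓ.Prime := by
    rcases CharP.char_is_prime_or_zero (𝓞 L ⧸ P) ℓ with h | h
    · exact h
    · exfalso; exact CharP.char_ne_zero_of_finite (𝓞 L ⧸ P) ℓ h
  refine ⟨ℓ, hprime, ?_⟩
  rw [← Ideal.Quotient.eq_zero_iff_mem, map_natCast]
  exact CharP.cast_eq_zero _ _

/-! ### `KummerUnram15` for subfields of `ℚ̄` -/

section Kb

variable (S : Finset Nat.Primes) (F₀ L : IntermediateField ℚ Qbar) [FiniteDimensional ℚ F₀]
  [FiniteDimensional ℚ L] [IsGalois ℚ L]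

/-- **(R1-Kb) inside `ℚ̄`.**  If `F₀ ≤ L`, `L/ℚ` finite Galois unramified outside `S`, and `α ∈ F₀ˣ`
is an `n`-th power in `L`, then `n ∣ ord_v α` for every prime `v` of `F₀` not above `S`. -/
theorem mem_selSub_of_pow_eq' (hle : F₀ ≤ L) (hL : L.IsUnramifiedOutside S) (n : ℕ) (α : F₀ˣ)
    (β : Qbar) (hβL : β ∈ L) (hβ : β ^ n = ((α : F₀) : Qbar)) :
    α ∈ selSub (R := 𝓞 F₀) (K := F₀) (primesAboveS S F₀) n := by
  letI : Algebra F₀ L := (IntermediateField.inclusion hle).toRingHom.toAlgebra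
  haveI : IsScalarTower ℚ F₀ L := IsScalarTower.of_algebraMap_eq (fun x => rfl)
  have hinert := (Fermat.Agent.PT.BR.UnramBridge13.isUnramifiedOutside_iff_inertia L S).mp hL
  refine mem_selSub_of_pow_eq ℚ F₀ L (primesAboveS S F₀) ?_ n α ⟨β, hβL⟩ ?_
  · intro w v hwv hv
    obtain ⟨ℓ, hℓ, hℓw⟩ := exists_prime_natCast_mem' w.asIdeal w.ne_bot
    have hℓS : (⟨ℓ, hℓ⟩ : Nat.Primes) ∉ S := by
      intro hmem
      apply hv
      refine ⟨⟨ℓ, hℓ⟩, hmem, ?_⟩
      rw [hwv.over, Ideal.under_def, Ideal.mem_comap, map_natCast]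
      exact hℓw
    exact hinert ⟨ℓ, hℓ⟩ hℓS w.asIdeal w.isPrime hℓw
  · apply Subtype.ext
    show β ^ n = ((α : F₀) : Qbar)
    exact hβ

end Kb

/-! ### The main lemma -/

section Main

variable {p : ℕ} (S : Finset Nat.Primes)
  (F₀ : IntermediateField ℚ Qbar) [FiniteDimensional ℚ F₀]

/-- The set of `p`-th roots in `ℚ̄` of the elements of a finite set `Y ⊆ F₀ˣ`. -/
def rootSet (p : ℕ) (Y : Finset F₀ˣ) : Set Qbar := {x | ∃ y ∈ Y, x ^ p = ((y : F₀) : Qbar)}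

omit [FiniteDimensional ℚ F₀] in
theorem finite_rootSet (hp : 0 < p) (Y : Finset F₀ˣ) : (rootSet F₀ p Y).Finite := by
  classical
  have h : rootSet F₀ p Y ⊆ ⋃ y ∈ Y,
      ((Polynomial.X ^ p - Polynomial.C ((y : F₀) : Qbar) : Polynomial Qbar).rootSet Qbar) := by
    rintro x ⟨y, hy, hx⟩
    simp only [Set.mem_iUnion]
    refine ⟨y, hy, ?_⟩
    rw [Polynomial.mem_rootSet]
    refine ⟨Polynomial.X_pow_sub_C_ne_zero hp _, ?_⟩
    simp [hx]
  exact Set.Finite.subset (Set.Finite.biUnion Y.finite_toSet fun y _ =>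
    Polynomial.rootSet_finite _ _) h

/-- The field `F₁ = F₀(Y^{1/p})`. -/
noncomputable def kummerLevel (p : ℕ) (Y : Finset F₀ˣ) : IntermediateField ℚ Qbar :=
  F₀ ⊔ IntermediateField.adjoin ℚ (rootSet F₀ p Y)

omit [FiniteDimensional ℚ F₀] in
theorem le_kummerLevel (Y : Finset F₀ˣ) : F₀ ≤ kummerLevel F₀ p Y := le_sup_left

theorem finiteDimensional_kummerLevel (hp : 0 < p) (Y : Finset F₀ˣ) :
    FiniteDimensional ℚ (kummerLevel F₀ p Y) := by
  haveI : Finite (rootSet F₀ p Y) := (finite_rootSet F₀ hp Y).to_subtype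
  haveI : FiniteDimensional ℚ (IntermediateField.adjoin ℚ (rootSet F₀ p Y)) :=
    IntermediateField.finiteDimensional_adjoin fun x _ =>
      (Algebra.IsAlgebraic.isAlgebraic x).isIntegral
  exact IntermediateField.finiteDimensional_sup _ _

/-- Two elements of `Gal(ℚ̄/F₀)` which agree on `L` have the same value under a function `χ` which is
additive on `Gal(ℚ̄/F₀)` and kills `Gal(ℚ̄/L)`. -/
theorem chi_eq_of_agree {χ : Γ → ZMod p} (L : IntermediateField ℚ Qbar)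
    (hadd : ∀ s ∈ F₀.fixingSubgroup, ∀ t ∈ F₀.fixingSubgroup, χ (s * t) = χ s + χ t)
    (hL0 : ∀ s ∈ L.fixingSubgroup, s ∈ F₀.fixingSubgroup → χ s = 0)
    {a b : Γ} (ha : a ∈ F₀.fixingSubgroup) (hb : b ∈ F₀.fixingSubgroup)
    (hab : ∀ x ∈ L, a x = b x) : χ a = χ b := by
  have hu : a⁻¹ * b ∈ L.fixingSubgroup := by
    rw [IntermediateField.mem_fixingSubgroup_iff]
    intro x hx
    rw [AlgEquiv.mul_apply, ← hab x hx, ← AlgEquiv.mul_apply, inv_mul_cancel, AlgEquiv.one_apply]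
  have hu0 : a⁻¹ * b ∈ F₀.fixingSubgroup := mul_mem (inv_mem ha) hb
  have : b = a * (a⁻¹ * b) := by group
  rw [this, hadd a ha _ hu0, hL0 _ hu hu0, add_zero]

end Main

section Core

variable {p : ℕ} (hp : p.Prime) (S : Finset Nat.Primes)
  (F₀ : IntermediateField ℚ Qbar) [FiniteDimensional ℚ F₀]

include hp in
/-- **Core of the finiteness of `H¹(G_S, ·)`.** -/
theorem chi_eq_zero_of_mem_fixingSubgroup {ζ : Qbar} (hζ : IsPrimitiveRoot ζ p) (hζF : ζ ∈ F₀)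
    (Y : Finset F₀ˣ)
    (hY : ∀ x ∈ selSub (R := 𝓞 F₀) (K := F₀) (primesAboveS S F₀) p,
      ∃ y ∈ Y, ∃ g : F₀ˣ, x = y * g ^ p)
    (L : IntermediateField ℚ Qbar) [FiniteDimensional ℚ L] [IsGalois ℚ L] (hle : F₀ ≤ L)
    (hL : L.IsUnramifiedOutside S) (χ : Γ → ZMod p)
    (hadd : ∀ s ∈ F₀.fixingSubgroup, ∀ t ∈ F₀.fixingSubgroup, χ (s * t) = χ s + χ t)
    (hL0 : ∀ s ∈ L.fixingSubgroup, s ∈ F₀.fixingSubgroup → χ s = 0)
    (s : Γ) (hs : s ∈ (kummerLevel F₀ p Y).fixingSubgroup) : χ s = 0 := by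
  classical
  haveI : Fact p.Prime := ⟨hp⟩
  letI : Algebra F₀ L := (IntermediateField.inclusion hle).toRingHom.toAlgebra
  haveI : IsScalarTower ℚ F₀ L := IsScalarTower.of_algebraMap_eq (fun x => rfl)
  haveI : IsScalarTower F₀ L Qbar := IsScalarTower.of_algebraMap_eq (fun x => rfl)
  haveI : FiniteDimensional F₀ L := Module.Finite.of_restrictScalars_finite ℚ F₀ L
  haveI : IsGalois F₀ L := IsGalois.tower_top_of_isGalois ℚ F₀ L
  haveI : Normal F₀ Qbar := Normal.tower_top_of_normal ℚ F₀ Qbar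
  have hsF₀ : s ∈ F₀.fixingSubgroup :=
    IntermediateField.fixingSubgroup_antitone (le_kummerLevel F₀ Y) hs
  -- lifts of elements of `Gal(L/F₀)` to `Γ`
  let lift : (L ≃ₐ[F₀] L) → Γ := fun σ => (σ.liftNormal Qbar).restrictScalars ℚ
  have hlift_apply : ∀ (σ : L ≃ₐ[F₀] L) (x : L), lift σ (x : Qbar) = ((σ x : L) : Qbar) :=
    fun σ x => AlgEquiv.liftNormal_commutes σ Qbar x
  have hlift_mem : ∀ σ : L ≃ₐ[F₀] L, lift σ ∈ F₀.fixingSubgroup := by
    intro σ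
    rw [IntermediateField.mem_fixingSubgroup_iff]
    intro x hx
    exact (σ.liftNormal Qbar).commutes ⟨x, hx⟩
  -- `χ ∘ lift` is additive
  have hχmul : ∀ σ τ : L ≃ₐ[F₀] L, χ (lift (σ * τ)) = χ (lift σ) + χ (lift τ) := by
    intro σ τ
    rw [← hadd _ (hlift_mem σ) _ (hlift_mem τ)]
    refine chi_eq_of_agree F₀ L hadd hL0 (hlift_mem _) (mul_mem (hlift_mem σ) (hlift_mem τ)) ?_
    intro x hx
    rw [AlgEquiv.mul_apply, hlift_apply (σ * τ) ⟨x, hx⟩, hlift_apply τ ⟨x, hx⟩, hlift_apply σ]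
    rfl
  -- the root of unity in `L`
  have hζ0 : ζ ≠ 0 := hζ.ne_zero hp.ne_zero
  let ζ₀ : F₀ := ⟨ζ, hζF⟩
  let ζL : Lˣ := Units.mk0 (algebraMap F₀ L ζ₀) (by
    rw [Ne, map_eq_zero]
    intro h
    exact hζ0 (congrArg Subtype.val h))
  have hζLcoe : (((ζL : Lˣ) : L) : Qbar) = ζ := rfl
  have hζLpow : ζL ^ p = 1 := by
    apply Units.ext
    apply Subtype.ext
    rw [Units.val_pow_eq_pow_val, Units.val_one]
    show (((ζL : Lˣ) : L) : Qbar) ^ p = 1
    rw [hζLcoe, hζ.pow_eq_one]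
  have hζLprim : ∀ k : ℕ, ζL ^ k = 1 → p ∣ k := by
    intro k hk
    apply (hζ.pow_eq_one_iff_dvd k).mp
    have := congrArg (fun u : Lˣ => (((u : Lˣ) : L) : Qbar)) hk
    simpa [hζLcoe] using this
  have hfix : ∀ σ : L ≃ₐ[F₀] L, ∀ k : ℕ,
      Units.map (σ : L →* L) (ζL ^ k) = ζL ^ k := by
    intro σ k
    apply Units.ext
    rw [Units.coe_map, MonoidHom.coe_coe, Units.val_pow_eq_pow_val, map_pow]
    congr 1
    exact σ.commutes ζ₀
  -- the cocycle
  let f : (L ≃ₐ[F₀] L) → Lˣ := fun σ => ζL ^ (χ (lift σ)).val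
  have hf : @groupCohomology.IsMulCocycle₁ (L ≃ₐ[F₀] L) Lˣ _ _
      (AlgEquiv.instMulDistribMulActionUnits (R := F₀) (A₁ := L)).toMulAction.toSMul f := by
    intro σ τ
    show ζL ^ (χ (lift (σ * τ))).val =
      Units.map (σ : L →* L) (ζL ^ (χ (lift τ)).val) * ζL ^ (χ (lift σ)).val
    rw [hfix, hχmul, ZMod.val_add, ← pow_add, add_comm (χ (lift τ)).val]
    exact (pow_eq_pow_mod _ hζLpow).symm
  obtain ⟨β, hβ⟩ := groupCohomology.isMulCoboundary₁_of_isMulCocycle₁_of_aut_to_units f hf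
  have hβ' : ∀ σ : L ≃ₐ[F₀] L, σ (β : L) = ((f σ : Lˣ) : L) * (β : L) := by
    intro σ
    have h := hβ σ
    rw [div_eq_iff_eq_mul] at h
    have h2 := congrArg (fun u : Lˣ => (u : L)) h
    simpa using h2
  -- `β ^ p` is fixed by `Gal(L/F₀)`, hence lies in `F₀`
  have hfpow : ∀ σ : L ≃ₐ[F₀] L, ((f σ : Lˣ) : L) ^ p = 1 := by
    intro σ
    show ((ζL ^ (χ (lift σ)).val : Lˣ) : L) ^ p = 1
    rw [← Units.val_pow_eq_pow_val, ← pow_mul, mul_comm, pow_mul, hζLpow, one_pow, Units.val_one]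
  have hβp : ∀ σ : L ≃ₐ[F₀] L, σ ((β : L) ^ p) = (β : L) ^ p := by
    intro σ
    rw [map_pow, hβ', mul_pow, hfpow, one_mul]
  obtain ⟨α₀, hα₀⟩ := (IsGalois.mem_range_algebraMap_iff_fixed ((β : L) ^ p)).mpr hβp
  have hα₀0 : α₀ ≠ 0 := by
    rintro rfl
    rw [map_zero] at hα₀
    exact pow_ne_zero p β.ne_zero hα₀.symm
  have hα₀coe : (((β : L) : Qbar)) ^ p = (α₀ : Qbar) := by
    have h := congrArg (fun x : L => (x : Qbar)) hα₀
    have h2 : ((algebraMap F₀ L α₀ : L) : Qbar) = (α₀ : Qbar) := rfl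
    rw [← h2, h]
    simp
  let α : F₀ˣ := Units.mk0 α₀ hα₀0
  have hαsel : α ∈ selSub (R := 𝓞 F₀) (K := F₀) (primesAboveS S F₀) p :=
    mem_selSub_of_pow_eq' S F₀ L hle hL p α ((β : L) : Qbar) (β : L).2 hα₀coe
  obtain ⟨y, hyY, g, hg⟩ := hY α hαsel
  have hg' : (α₀ : Qbar) = ((y : F₀) : Qbar) * ((g : F₀) : Qbar) ^ p := by
    have := congrArg (fun u : F₀ˣ => (((u : F₀ˣ) : F₀) : Qbar)) hg
    simpa [α] using this
  have hg0 : ((g : F₀) : Qbar) ≠ 0 := by
    intro h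
    exact g.ne_zero (Subtype.ext h)
  let β' : Qbar := ((β : L) : Qbar) / ((g : F₀) : Qbar)
  have hβ'p : β' ^ p = ((y : F₀) : Qbar) := by
    show (((β : L) : Qbar) / ((g : F₀) : Qbar)) ^ p = _
    rw [div_pow, hα₀coe, hg']
    field_simp
  have hβ'mem : β' ∈ kummerLevel F₀ p Y :=
    (le_sup_right : IntermediateField.adjoin ℚ (rootSet F₀ p Y) ≤ kummerLevel F₀ p Y)
      (IntermediateField.subset_adjoin ℚ _ ⟨y, hyY, hβ'p⟩)
  have hsβ' : s β' = β' := (IntermediateField.mem_fixingSubgroup_iff _ s).mp hs β' hβ'mem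
  have hsg : s ((g : F₀) : Qbar) = ((g : F₀) : Qbar) :=
    (IntermediateField.mem_fixingSubgroup_iff _ s).mp hsF₀ _ (g : F₀).2
  have hsβ : s ((β : L) : Qbar) = ((β : L) : Qbar) := by
    have : ((β : L) : Qbar) = β' * ((g : F₀) : Qbar) := by
      show _ = ((β : L) : Qbar) / ((g : F₀) : Qbar) * _
      field_simp
    rw [this, map_mul, hsβ', hsg]
  -- the restriction of `s` to `L`
  haveI : Normal F₀ L := Normal.tower_top_of_normal ℚ F₀ L
  let s' : Qbar ≃ₐ[F₀] Qbar := IntermediateField.fixingSubgroupEquiv F₀ ⟨s, hsF₀⟩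
  let σs : L ≃ₐ[F₀] L := AlgEquiv.restrictNormalHom L s'
  have hσs : ∀ x : L, ((σs x : L) : Qbar) = s x := fun x =>
    AlgEquiv.restrictNormal_commutes s' L x
  have hσβ : σs (β : L) = β := Subtype.ext (by rw [hσs, hsβ])
  have hf1 : ((f σs : Lˣ) : L) = 1 := by
    have h := hβ' σs
    rw [hσβ] at h
    exact (mul_right_cancel₀ β.ne_zero (by rw [one_mul]; exact h)).symm
  have hval : (χ (lift σs)).val = 0 := by
    have h1 : ζL ^ (χ (lift σs)).val = 1 := Units.ext hf1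
    exact Nat.eq_zero_of_dvd_of_lt (hζLprim _ h1) (ZMod.val_lt _)
  have hχ0 : χ (lift σs) = 0 := (ZMod.val_eq_zero _).mp hval
  rw [← hχ0]
  refine chi_eq_of_agree F₀ L hadd hL0 hsF₀ (hlift_mem σs) fun x hx => ?_
  rw [hlift_apply σs ⟨x, hx⟩, hσs]


include hp in
/-- **Main lemma.**  Let `F₀ ⊂ ℚ̄` be finite over `ℚ`, unramified outside `S`, containing a primitive
`p`-th root of unity.  There is a finite extension `F₁ ⊇ F₀` such that every `χ : Γ → ℤ/p` which is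
additive on `Gal(ℚ̄/F₀)` and kills `Gal(ℚ̄/E) ∩ Gal(ℚ̄/F₀)` for some `E` unramified outside `S` kills
`Gal(ℚ̄/F₁)`. -/
theorem exists_field_forall_hom (hF₀ : F₀.IsUnramifiedOutside S) {ζ : Qbar}
    (hζ : IsPrimitiveRoot ζ p) (hζF : ζ ∈ F₀) :
    ∃ F₁ : IntermediateField ℚ Qbar, F₀ ≤ F₁ ∧ FiniteDimensional ℚ F₁ ∧
      ∀ χ : Γ → ZMod p,
        (∀ s ∈ F₀.fixingSubgroup, ∀ t ∈ F₀.fixingSubgroup, χ (s * t) = χ s + χ t) →
        (∃ E : IntermediateField ℚ Qbar, E.IsUnramifiedOutside S ∧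
          ∀ s ∈ E.fixingSubgroup, s ∈ F₀.fixingSubgroup → χ s = 0) →
        ∀ s ∈ F₁.fixingSubgroup, χ s = 0 := by
  obtain ⟨Y, hY⟩ := exists_finset_cover F₀ (primesAboveS S F₀) (finite_primesAboveS S F₀) p hp.pos
  refine ⟨kummerLevel F₀ p Y, le_kummerLevel F₀ Y, finiteDimensional_kummerLevel F₀ hp.pos Y,
    fun χ hadd ⟨E, hE, hE0⟩ s hs => ?_⟩
  obtain ⟨L, hEL, hLgal, hL⟩ :=
    Fermat.Agent.PT.BR.UnramBridge13.exists_isGalois_isUnramifiedOutside (hE.sup hF₀)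
  haveI := hL.1
  haveI := hLgal
  exact chi_eq_zero_of_mem_fixingSubgroup hp S F₀ hζ hζF Y hY L (le_sup_right.trans hEL) hL χ hadd
    (fun t ht ht0 => hE0 t (IntermediateField.fixingSubgroup_antitone (le_sup_left.trans hEL) ht)
      ht0) s hs

end Core

end Fermat.Agent.PT.GLOB.H1Finite15
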