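/-
Program F (S55, Poitou–Tate), chapter GLOB, leaf (R1-H1), cohomological form (helper15).

**Finiteness of `H¹(G_S, A)`** for a finite-dimensional `𝔽_p`-representation `A` of
`Γ = Gal(ℚ̄/ℚ)`, given a finite extension `F₀/ℚ` unramified outside `S` containing `μ_p` whose
absolute Galois group acts trivially on `A`:

* `exists_field_forall_cocycle` : there is a finite `F₁ ⊇ F₀` such that EVERY level-constant-`S`
  cocycle `c : Γ → A` is constant on the cosets of `Gal(ℚ̄/F₁)`;
* `finite_continuousH1S`, `finiteDimensional_continuousH1S` : the prelude's `continuousH1S S A`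
  (the image of `H¹(G_S, A)` in `H¹(Γ, A)`) is finite;
* `exists_field_forall_monoidHom` : the same for characters of an open subgroup
  (`Hom(G_{K,S}, 𝔽_p)` is finite: the input "H¹(V; 𝔽_p) finite" of the spine (A3s)).
-/
import Fermat.Agent.PT.GLOB.H1Finite15

set_option autoImplicit false
set_option linter.style.haveILetI false

namespace Fermat.Agent.PT.GLOB.H1FiniteCoh15

open groupCohomology
open Fermat.Agent.PT.GLOB.H1Finite15

local notation "Qbar" => AlgebraicClosure ℚ
local notation "Γ" => (AlgebraicClosure ℚ ≃ₐ[ℚ] AlgebraicClosure ℚ)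

local instance isAlgClosureQbar15c : IsAlgClosure ℚ Qbar := ⟨inferInstance, inferInstance⟩
local instance normalQbar15c : Normal ℚ Qbar := IsAlgClosure.normal ℚ Qbar
local instance isGaloisQbar15c : IsGalois ℚ Qbar := IsAlgClosure.isGalois ℚ Qbar

/-! ### Functions constant on the cosets of a subgroup of finite index -/

section Level

variable {G X : Type*} [Group G]

/-- The functions on `G` which are constant on the left cosets of a subgroup of finite index, with
values in a finite set, form a finite set. -/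
theorem finite_setOf_level (H : Subgroup G) [H.FiniteIndex] [Finite X] :
    {f : G → X | ∀ g, ∀ s ∈ H, f (g * s) = f g}.Finite := by
  haveI : Finite (G ⧸ H) := Subgroup.finite_quotient_of_finiteIndex
  refine Set.Finite.subset
    (Set.finite_range (fun fbar : (G ⧸ H) → X => fun g : G => fbar (QuotientGroup.mk g))) ?_
  intro f hf
  refine ⟨fun q => f q.out, ?_⟩
  funext g
  obtain ⟨h, hh⟩ := QuotientGroup.mk_out_eq_mul H g
  show f (QuotientGroup.mk g : G ⧸ H).out = f g
  rw [hh, hf g h h.2]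

end Level

/-- The fixing subgroup of a finite extension of `ℚ` has finite index in `Γ`. -/
theorem finiteIndex_fixingSubgroup (F : IntermediateField ℚ Qbar) [FiniteDimensional ℚ F] :
    F.fixingSubgroup.FiniteIndex := by
  refine ⟨?_⟩
  rw [← IntermediateField.finrank_eq_fixingSubgroup_index]
  exact (Module.finrank_pos (R := ℚ) (M := F)).ne'

section Coh

variable {p : ℕ} [hp : Fact p.Prime] (S : Finset Nat.Primes) (A : Rep (ZMod p) Γ)
  [FiniteDimensional (ZMod p) A]

/-- **Every level-constant-`S` cocycle has level `F₁`.** -/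
theorem exists_field_forall_cocycle (F₀ : IntermediateField ℚ Qbar) [FiniteDimensional ℚ F₀]
    (hF₀ : F₀.IsUnramifiedOutside S) {ζ : Qbar} (hζ : IsPrimitiveRoot ζ p) (hζF : ζ ∈ F₀)
    (htriv : ∀ s ∈ F₀.fixingSubgroup, ∀ a : A, A.ρ s a = a) :
    ∃ F₁ : IntermediateField ℚ Qbar, F₀ ≤ F₁ ∧ FiniteDimensional ℚ F₁ ∧
      ∀ c : cocycles₁ A, IsLevelConstantS₁ S c →
        ∀ g, ∀ s ∈ F₁.fixingSubgroup, c (g * s) = c g := by
  obtain ⟨F₁, h01, hfin, hF₁⟩ := exists_field_forall_hom hp.out S F₀ hF₀ hζ hζF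
  refine ⟨F₁, h01, hfin, fun c ⟨E, hE, hcE⟩ g s hs => ?_⟩
  have hcoc := (mem_cocycles₁_iff (c : Γ → A)).mp c.2
  have hcs : c s = 0 := by
    rw [← Module.forall_dual_apply_eq_zero_iff (ZMod p)]
    intro lam
    refine hF₁ (fun g => lam (c g)) ?_ ⟨E, hE, ?_⟩ s hs
    · intro s hs t _
      show lam (c (s * t)) = lam (c s) + lam (c t)
      rw [hcoc s t, htriv s hs, map_add, add_comm]
    · intro t ht _
      show lam (c t) = 0
      have := hcE 1 t ht
      rw [one_mul, cocycles₁_map_one] at this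
      rw [this, map_zero]
  have := hcoc g s
  rw [hcs, map_zero, zero_add] at this
  exact this

/-- **Finiteness of `H¹(G_S, A)`** (as a subset of `H¹(Γ, A)`). -/
theorem finite_continuousH1S (F₀ : IntermediateField ℚ Qbar) [FiniteDimensional ℚ F₀]
    (hF₀ : F₀.IsUnramifiedOutside S) {ζ : Qbar} (hζ : IsPrimitiveRoot ζ p) (hζF : ζ ∈ F₀)
    (htriv : ∀ s ∈ F₀.fixingSubgroup, ∀ a : A, A.ρ s a = a) :
    Finite (continuousH1S S A) := by
  obtain ⟨F₁, -, hfin, hF₁⟩ := exists_field_forall_cocycle S A F₀ hF₀ hζ hζF htriv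
  haveI := hfin
  haveI := finiteIndex_fixingSubgroup F₁
  haveI : Finite A := Module.finite_of_finite (ZMod p)
  have hfin1 := finite_setOf_level (X := A) F₁.fixingSubgroup
  have hfin2 : {c : cocycles₁ A | ∀ g, ∀ s ∈ F₁.fixingSubgroup, c (g * s) = c g}.Finite :=
    Set.Finite.of_finite_image (f := fun c : cocycles₁ A => (c : Γ → A))
      (Set.Finite.subset hfin1 (by rintro _ ⟨c, hc, rfl⟩; exact hc))
      (fun c _ c' _ h => DFunLike.coe_injective h)
  apply Set.Finite.subset (hfin2.image (fun c => (H1π A).hom c))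
  intro x hx
  obtain ⟨c, hc, rfl⟩ := (mem_continuousH1S_iff S A x).1 hx
  exact ⟨c, hF₁ c hc, rfl⟩

/-- `continuousH1S S A` is finite-dimensional over `𝔽_p`. -/
theorem finiteDimensional_continuousH1S (F₀ : IntermediateField ℚ Qbar) [FiniteDimensional ℚ F₀]
    (hF₀ : F₀.IsUnramifiedOutside S) {ζ : Qbar} (hζ : IsPrimitiveRoot ζ p) (hζF : ζ ∈ F₀)
    (htriv : ∀ s ∈ F₀.fixingSubgroup, ∀ a : A, A.ρ s a = a) :
    FiniteDimensional (ZMod p) (continuousH1S S A) := by
  haveI := finite_continuousH1S S A F₀ hF₀ hζ hζF htriv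
  exact Module.Finite.of_finite

end Coh

section Characters

variable {p : ℕ} [hp : Fact p.Prime] (S : Finset Nat.Primes)

/-- **`Hom(G_{K,S}, 𝔽_p)` is finite**: for `K ⊇ μ_p` finite over `ℚ` and unramified outside `S` there
is a finite `F₁ ⊇ K` such that every homomorphism `χ : Gal(ℚ̄/K) → 𝔽_p` which kills
`Gal(ℚ̄/E) ∩ Gal(ℚ̄/K)` for some `E` unramified outside `S` kills `Gal(ℚ̄/F₁)`. -/
theorem exists_field_forall_monoidHom (K : IntermediateField ℚ Qbar) [FiniteDimensional ℚ K]
    (hK : K.IsUnramifiedOutside S) {ζ : Qbar} (hζ : IsPrimitiveRoot ζ p) (hζK : ζ ∈ K) :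
    ∃ F₁ : IntermediateField ℚ Qbar, K ≤ F₁ ∧ FiniteDimensional ℚ F₁ ∧
      ∀ χ : K.fixingSubgroup →* Multiplicative (ZMod p),
        (∃ E : IntermediateField ℚ Qbar, E.IsUnramifiedOutside S ∧
          ∀ s : K.fixingSubgroup, (s : Γ) ∈ E.fixingSubgroup → χ s = 1) →
        ∀ s : K.fixingSubgroup, (s : Γ) ∈ F₁.fixingSubgroup → χ s = 1 := by
  classical
  obtain ⟨F₁, h01, hfin, hF₁⟩ := exists_field_forall_hom hp.out S K hK hζ hζK
  refine ⟨F₁, h01, hfin, fun χ ⟨E, hE, hχE⟩ s hs => ?_⟩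
  let χ' : Γ → ZMod p := fun g =>
    if hg : g ∈ K.fixingSubgroup then Multiplicative.toAdd (χ ⟨g, hg⟩) else 0
  have h := hF₁ χ' ?_ ⟨E, hE, ?_⟩ s.1 hs
  · have : χ' s.1 = Multiplicative.toAdd (χ s) := by
      show (if hg : s.1 ∈ K.fixingSubgroup then Multiplicative.toAdd (χ ⟨s.1, hg⟩) else 0) = _
      rw [dif_pos s.2]
    rw [this] at h
    exact h
  · intro a ha b hb
    show (if hg : a * b ∈ K.fixingSubgroup then Multiplicative.toAdd (χ ⟨a * b, hg⟩) else 0) =
      (if hg : a ∈ K.fixingSubgroup then Multiplicative.toAdd (χ ⟨a, hg⟩) else 0) +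
      (if hg : b ∈ K.fixingSubgroup then Multiplicative.toAdd (χ ⟨b, hg⟩) else 0)
    rw [dif_pos ha, dif_pos hb, dif_pos (mul_mem ha hb)]
    have : (⟨a * b, mul_mem ha hb⟩ : K.fixingSubgroup) = ⟨a, ha⟩ * ⟨b, hb⟩ := rfl
    rw [this, map_mul, toAdd_mul]
  · intro t ht htK
    show (if hg : t ∈ K.fixingSubgroup then Multiplicative.toAdd (χ ⟨t, hg⟩) else 0) = 0
    rw [dif_pos htK, hχE ⟨t, htK⟩ ht]
    rfl

end Characters

end Fermat.Agent.PT.GLOB.H1FiniteCoh15
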