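/-
Program F (S55, Poitou–Tate), chapter GLOB (global class field theory, cohomological, p-primary).
INTERFACE v1 (helper23, chapter lead).  Definitions of the algebraic `T`-idele objects of a number
field and the statements that the other chapters may assume from GLOB, as `def … : Prop`.

Conventions.  `T : Finset Nat.Primes` is a finite set of RATIONAL primes.  `K`, `L` are abstract
number fields with `[Algebra K L] [IsGalois K L]`, `G := L ≃ₐ[K] L` with the Mathlib-canonical
action on `𝓞 L`.  (PRO/BR instantiate `K`, `L` with intermediate fields of `AlgebraicClosure ℚ`.)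
  `Loc L q   = L ⊗[ℚ] ℚ_[q]`                      (the semilocal algebra `∏_{w ∣ q} L_w`)
  `IT T L    = ∏_{q ∈ T} (L ⊗ ℚ_q)ˣ`               (the `T`-part of the ideles; NO archimedean part)
  `DivT T L  = free abelian group on the primes of `𝓞 L` not above `T`` (multiplicative notation)
  `JT T L    = IT T L × DivT T L`                  (= ideles modulo units outside `T` and modulo ∞)
  `CT T L    = JT T L ⧸ (image of Lˣ)`              (the `T`-idele class group)
All of them carry a `MulDistribMulAction (L ≃ₐ[K] L)`.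
-/
import Mathlib

set_option autoImplicit false
set_option linter.unusedSectionVars false

namespace Fermat.Agent.PT.GLOB.Interface23

open NumberField IsDedekindDomain
open scoped TensorProduct nonZeroDivisors Pointwise

/-- `Nat.Primes` carries the primality fact needed to form `ℚ_[q]`. -/
instance instFactPrime (q : Nat.Primes) : Fact (q : ℕ).Prime := ⟨q.2⟩

section Objects

variable (T : Finset Nat.Primes)
variable (K L : Type*) [Field K] [Field L] [NumberField K] [NumberField L] [Algebra K L]

/-- The semilocal algebra `L ⊗_ℚ ℚ_q = ∏_{w ∣ q} L_w`. -/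
abbrev Loc (L : Type*) [Field L] [NumberField L] (q : Nat.Primes) : Type _ :=
  L ⊗[ℚ] ℚ_[(q : ℕ)]

/-- The action of `Gal(L/K)` on `L ⊗_ℚ R` through the left factor. -/
noncomputable def tensorAut (R : Type*) [CommRing R] [Algebra ℚ R] (σ : L ≃ₐ[K] L) :
    (L ⊗[ℚ] R) ≃ₐ[ℚ] (L ⊗[ℚ] R) :=
  Algebra.TensorProduct.congr (σ.restrictScalars ℚ) (AlgEquiv.refl : R ≃ₐ[ℚ] R)

@[simp] theorem tensorAut_tmul (R : Type*) [CommRing R] [Algebra ℚ R] (σ : L ≃ₐ[K] L)
    (x : L) (r : R) : tensorAut K L R σ (x ⊗ₜ[ℚ] r) = (σ x) ⊗ₜ[ℚ] r := rfl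

noncomputable instance instMulSemiringActionTensor (R : Type*) [CommRing R] [Algebra ℚ R] :
    MulSemiringAction (L ≃ₐ[K] L) (L ⊗[ℚ] R) where
  smul σ z := tensorAut K L R σ z
  one_smul z := by
    change tensorAut K L R 1 z = z
    induction z using TensorProduct.induction_on with
    | zero => simp
    | tmul x r => simp
    | add a b ha hb => rw [map_add, ha, hb]
  mul_smul σ τ z := by
    change tensorAut K L R (σ * τ) z = tensorAut K L R σ (tensorAut K L R τ z)
    induction z using TensorProduct.induction_on with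
    | zero => simp
    | tmul x r => simp
    | add a b ha hb => rw [map_add, map_add, map_add, ha, hb]
  smul_zero σ := map_zero _
  smul_add σ := map_add _
  smul_one σ := map_one _
  smul_mul σ := map_mul _

theorem smul_tmul' (R : Type*) [CommRing R] [Algebra ℚ R] (σ : L ≃ₐ[K] L) (x : L) (r : R) :
    σ • (x ⊗ₜ[ℚ] r : L ⊗[ℚ] R) = (σ x) ⊗ₜ[ℚ] r := rfl

/-- The Galois action on the units of `L ⊗_ℚ R`. -/
noncomputable instance instActionUnitsTensor (R : Type*) [CommRing R] [Algebra ℚ R] :
    MulDistribMulAction (L ≃ₐ[K] L) (L ⊗[ℚ] R)ˣ := Units.mulDistribMulActionRight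

/-- The Galois action on `Lˣ`. -/
noncomputable instance instActionUnitsField : MulDistribMulAction (L ≃ₐ[K] L) Lˣ :=
  Units.mulDistribMulActionRight

theorem coe_smul_units (σ : L ≃ₐ[K] L) (x : Lˣ) : ((σ • x : Lˣ) : L) = σ (x : L) := rfl

theorem coe_smul_unitsTensor (R : Type*) [CommRing R] [Algebra ℚ R] (σ : L ≃ₐ[K] L)
    (u : (L ⊗[ℚ] R)ˣ) : ((σ • u : (L ⊗[ℚ] R)ˣ) : L ⊗[ℚ] R) = σ • (u : L ⊗[ℚ] R) := rfl

/-- The `T`-part of the idele group of `L` (no archimedean factor). -/
abbrev IT : Type _ := ∀ q : T, (Loc L q.1)ˣ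

/-- The diagonal embedding `Lˣ → IT T L`. -/
noncomputable def diagI : Lˣ →* IT T L :=
  MonoidHom.pi fun q => Units.map
    (Algebra.TensorProduct.includeLeft : L →ₐ[ℚ] Loc L q.1).toMonoidHom

/-- The finite primes of `L` not lying above a prime of `T`. -/
def PrimeAway : Type _ :=
  {P : HeightOneSpectrum (𝓞 L) // ∀ q ∈ T, (((q : ℕ) : ℤ) : 𝓞 L) ∉ P.asIdeal}

/-- The Galois action on the finite primes of `L`. -/
noncomputable instance instMulActionHeightOne : MulAction (L ≃ₐ[K] L) (HeightOneSpectrum (𝓞 L)) where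
  smul σ P :=
    { asIdeal := σ • P.asIdeal
      isPrime := by
        rw [Ideal.pointwise_smul_eq_comap]
        exact Ideal.comap_isPrime _ _
      ne_bot := by
        intro h
        apply P.ne_bot
        have h' : σ⁻¹ • (σ • P.asIdeal) = σ⁻¹ • (⊥ : Ideal (𝓞 L)) := by rw [h]
        rw [inv_smul_smul] at h'
        rw [h', Ideal.pointwise_smul_def, Ideal.map_bot] }
  one_smul P := HeightOneSpectrum.ext (one_smul _ _)
  mul_smul σ τ P := HeightOneSpectrum.ext (mul_smul _ _ _)

theorem smul_asIdeal (σ : L ≃ₐ[K] L) (P : HeightOneSpectrum (𝓞 L)) :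
    (σ • P).asIdeal = σ • P.asIdeal := rfl

theorem natCast_mem_smul_iff (σ : L ≃ₐ[K] L) (I : Ideal (𝓞 L)) (n : ℤ) :
    (n : 𝓞 L) ∈ σ • I ↔ (n : 𝓞 L) ∈ I := by
  rw [Ideal.mem_pointwise_smul_iff_inv_smul_mem]
  have h : σ⁻¹ • (n : 𝓞 L) = (n : 𝓞 L) :=
    map_intCast (MulSemiringAction.toRingHom (L ≃ₐ[K] L) (𝓞 L) σ⁻¹) n
  rw [h]

noncomputable instance instMulActionPrimeAway : MulAction (L ≃ₐ[K] L) (PrimeAway T L) where
  smul σ P := ⟨σ • P.1, fun q hq => by
    rw [smul_asIdeal, natCast_mem_smul_iff]
    exact P.2 q hq⟩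
  one_smul P := Subtype.ext (one_smul _ _)
  mul_smul σ τ P := Subtype.ext (mul_smul _ _ _)

theorem coe_smul_primeAway (σ : L ≃ₐ[K] L) (P : PrimeAway T L) :
    (σ • P : PrimeAway T L).1 = σ • P.1 := rfl

/-- The group of divisors of `L` prime to `T` (free abelian group on `PrimeAway T L`), written
multiplicatively. -/
def DivT : Type _ := Multiplicative (PrimeAway T L →₀ ℤ)

noncomputable instance instCommGroupDivT : CommGroup (DivT T L) :=
  inferInstanceAs (CommGroup (Multiplicative (PrimeAway T L →₀ ℤ)))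

/-- The underlying finitely supported function of a divisor. -/
def DivT.toFinsupp (D : DivT T L) : PrimeAway T L →₀ ℤ := Multiplicative.toAdd D

/-- The divisor of a finitely supported function. -/
def DivT.ofFinsupp (f : PrimeAway T L →₀ ℤ) : DivT T L := Multiplicative.ofAdd f

noncomputable instance instMulDistribMulActionDivT :
    MulDistribMulAction (L ≃ₐ[K] L) (DivT T L) where
  smul σ D := DivT.ofFinsupp T L (Finsupp.mapDomain (fun P => σ • P) (DivT.toFinsupp T L D))
  one_smul D := by
    change DivT.ofFinsupp T L (Finsupp.mapDomain (fun P => (1 : L ≃ₐ[K] L) • P) _) = D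
    simp only [one_smul]
    exact congrArg _ Finsupp.mapDomain_id
  mul_smul σ τ D := by
    change DivT.ofFinsupp T L (Finsupp.mapDomain (fun P => (σ * τ) • P) _) =
      DivT.ofFinsupp T L (Finsupp.mapDomain (fun P => σ • P)
        (Finsupp.mapDomain (fun P => τ • P) _))
    rw [← Finsupp.mapDomain_comp]
    congr 2
    funext P
    exact mul_smul σ τ P
  smul_mul σ D E := congrArg (DivT.ofFinsupp T L) Finsupp.mapDomain_add
  smul_one σ := congrArg (DivT.ofFinsupp T L) Finsupp.mapDomain_zero

/-- The order of `x ∈ Lˣ` at a finite prime. -/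
noncomputable def ordAt (P : HeightOneSpectrum (𝓞 L)) (x : Lˣ) : ℤ :=
  FractionalIdeal.count L P (FractionalIdeal.spanSingleton (𝓞 L)⁰ (x : L))

theorem finite_ordAt_ne_zero (x : Lˣ) : {P : PrimeAway T L | ordAt L P.1 x ≠ 0}.Finite := by
  have h := FractionalIdeal.finite_factors (R := 𝓞 L) (K := L)
    (FractionalIdeal.spanSingleton (𝓞 L)⁰ (x : L))
  rw [Filter.eventually_cofinite] at h
  exact Set.Finite.preimage (Subtype.val_injective.injOn) h

theorem ordAt_mul (P : HeightOneSpectrum (𝓞 L)) (x y : Lˣ) :
    ordAt L P (x * y) = ordAt L P x + ordAt L P y := by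
  unfold ordAt
  rw [Units.val_mul, ← FractionalIdeal.spanSingleton_mul_spanSingleton, FractionalIdeal.count_mul]
  · exact fun h => x.ne_zero (FractionalIdeal.spanSingleton_eq_zero_iff.mp h)
  · exact fun h => y.ne_zero (FractionalIdeal.spanSingleton_eq_zero_iff.mp h)

theorem ordAt_one (P : HeightOneSpectrum (𝓞 L)) : ordAt L P 1 = 0 := by
  unfold ordAt
  rw [Units.val_one, FractionalIdeal.spanSingleton_one, FractionalIdeal.count_one]

/-- The divisor (prime to `T`) of an element of `Lˣ`. -/
noncomputable def divT : Lˣ →* DivT T L where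
  toFun x := DivT.ofFinsupp T L
    (Finsupp.ofSupportFinite (fun P : PrimeAway T L => ordAt L P.1 x) (finite_ordAt_ne_zero T L x))
  map_one' := by
    apply congrArg (DivT.ofFinsupp T L)
    ext P
    simp [Finsupp.ofSupportFinite_coe, ordAt_one]
  map_mul' x y := by
    change _ = DivT.ofFinsupp T L
      (Finsupp.ofSupportFinite (fun P : PrimeAway T L => ordAt L P.1 x) (finite_ordAt_ne_zero T L x) +
        Finsupp.ofSupportFinite (fun P : PrimeAway T L => ordAt L P.1 y) (finite_ordAt_ne_zero T L y))
    apply congrArg (DivT.ofFinsupp T L)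
    ext P
    rw [Finsupp.add_apply]
    exact ordAt_mul L P.1 x y

theorem divT_apply (x : Lˣ) (P : PrimeAway T L) :
    DivT.toFinsupp T L (divT T L x) P = ordAt L P.1 x := rfl

/-- `JT T L = IT T L × DivT T L`: the ideles of `L` modulo the units outside `T` (and modulo the
archimedean components). -/
abbrev JT : Type _ := IT T L × DivT T L

/-- The diagonal embedding `Lˣ → JT T L`. -/
noncomputable def diagJ : Lˣ →* JT T L := (diagI T L).prod (divT T L)

/-- The `T`-idele class group of `L`. -/
abbrev CT : Type _ := JT T L ⧸ (diagJ T L).range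

/-- The projection `JT T L → CT T L`. -/
noncomputable def toCT : JT T L →* CT T L := QuotientGroup.mk' _

end Objects

/-! ## Galois-module structure and the elementary (idele-level) form of the statements

`CT T L` is a quotient of `JT T L`, on which `G = Gal(L/K)` acts componentwise.  The action on the
quotient needs `ordAt (σ • P) (σ • x) = ordAt P x` (leaf `GLOB-A1`); it is provided, together with
`Rep ℤ G`-structures, in a later file.  The statements below are therefore phrased on `JT T L`
modulo the subgroup `principalJ T L` of principal `T`-ideles. -/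

section Statements

variable (T : Finset Nat.Primes)
variable (K L : Type) [Field K] [Field L] [NumberField K] [NumberField L] [Algebra K L]
  [IsGalois K L]

/-- `L/K` is unramified at every finite prime of `L` not above `T`. -/
def IsUnramifiedOutside : Prop :=
  ∀ P : PrimeAway T L, (P.1.asIdeal).inertia (L ≃ₐ[K] L) = ⊥

/-- The principal `T`-ideles. -/
noncomputable def principalJ : Subgroup (JT T L) := (diagJ T L).range

/-- The norm element of `ℤ[G]` acting on `JT T L`. -/
noncomputable def normJ (j : JT T L) : JT T L := ∏ σ : L ≃ₐ[K] L, σ • j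

/-- A `T`-idele whose class is `G`-invariant. -/
def IsFixedClass (j : JT T L) : Prop := ∀ σ : L ≃ₐ[K] L, σ • j / j ∈ principalJ T L

/-- A `T`-idele whose class is a norm from `CT T L`. -/
def IsNormClass (j : JT T L) : Prop := ∃ (y : JT T L) (x : Lˣ), j = normJ T K L y * diagJ T L x

/-- **Hilbert 90 for idele classes** (`Ĥ⁻¹(G, C_T(L)) = 0`, i.e. `H¹(G, C_T(L)) = 0`) for a cyclic
layer of prime degree `p` unramified outside `T`, `p ∈ T`: a class of norm one is of the
form `σ c / c`. -/
def Hilbert90C (p : ℕ) : Prop :=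
  ∀ (T : Finset Nat.Primes) (K L : Type) [Field K] [Field L] [NumberField K] [NumberField L]
    [Algebra K L] [IsGalois K L], p.Prime → (∃ q ∈ T, (q : ℕ) = p) → Module.finrank K L = p →
    IsUnramifiedOutside T K L → ∀ σ : L ≃ₐ[K] L, σ ≠ 1 → ∀ j : JT T L,
      normJ T K L j ∈ principalJ T L → ∃ (y : JT T L) (x : Lˣ), j = (σ • y / y) * diagJ T L x

/-- **Norm index** (`#Ĥ⁰(G, C_T(L)) = p`) for a cyclic layer of prime degree `p`: the invariant
classes modulo norms form a group of order exactly `p`. -/
def NormIndexC (p : ℕ) : Prop :=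
  ∀ (T : Finset Nat.Primes) (K L : Type) [Field K] [Field L] [NumberField K] [NumberField L]
    [Algebra K L] [IsGalois K L], p.Prime → (∃ q ∈ T, (q : ℕ) = p) → Module.finrank K L = p →
    IsUnramifiedOutside T K L →
    ∃ j₀ : JT T L, IsFixedClass T K L j₀ ∧ ¬ IsNormClass T K L j₀ ∧
      ∀ j : JT T L, IsFixedClass T K L j → ∃ k : ℕ, IsNormClass T K L (j / j₀ ^ k)

end Statements

end Fermat.Agent.PT.GLOB.Interface23
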