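/-
Program F (S55), chapter GLOB, leaf A1 (helper23): the Galois action on the `T`-idele class group
`CT T L`, the `Rep ℤ G`-structures and equivariance of the diagonal embedding.
-/
import Fermat.Agent.PT.GLOB.Interface23

set_option autoImplicit false
set_option linter.unusedSectionVars false

namespace Fermat.Agent.PT.GLOB.ClassAction23

open NumberField IsDedekindDomain Fermat.Agent.PT.GLOB.Interface23
open scoped TensorProduct nonZeroDivisors Pointwise

variable {K L : Type*} [Field K] [Field L] [NumberField K] [NumberField L] [Algebra K L]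

theorem pow_dvd_iff_le_count (P : HeightOneSpectrum (𝓞 L)) {J : Ideal (𝓞 L)} (hJ : J ≠ ⊥)
    (k : ℕ) :
    P.asIdeal ^ k ∣ J ↔ (k : ℤ) ≤ FractionalIdeal.count L P (J : FractionalIdeal (𝓞 L)⁰ L) := by
  classical
  rw [FractionalIdeal.count_coe L P hJ, Nat.cast_le,
    ← Associates.prime_pow_dvd_iff_le (Associates.mk_ne_zero.mpr hJ) P.associates_irreducible,
    ← Associates.mk_pow, Associates.mk_le_mk_iff_dvd]

theorem smul_pow_dvd_smul_iff (σ : L ≃ₐ[K] L) (P J : Ideal (𝓞 L)) (k : ℕ) :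
    (σ • P) ^ k ∣ σ • J ↔ P ^ k ∣ J := by
  rw [← smul_pow', Ideal.dvd_iff_le, Ideal.dvd_iff_le, Ideal.pointwise_smul_le_pointwise_smul_iff]

theorem smul_ne_bot (σ : L ≃ₐ[K] L) {J : Ideal (𝓞 L)} (hJ : J ≠ ⊥) : σ • J ≠ ⊥ := by
  intro h
  apply hJ
  have h' : σ⁻¹ • (σ • J) = σ⁻¹ • (⊥ : Ideal (𝓞 L)) := by rw [h]
  rw [inv_smul_smul] at h'
  rw [h', Ideal.pointwise_smul_def, Ideal.map_bot]

theorem count_smul_coe (σ : L ≃ₐ[K] L) (P : HeightOneSpectrum (𝓞 L)) {J : Ideal (𝓞 L)}
    (hJ : J ≠ ⊥) :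
    FractionalIdeal.count L (σ • P) ((σ • J : Ideal (𝓞 L)) : FractionalIdeal (𝓞 L)⁰ L) =
      FractionalIdeal.count L P (J : FractionalIdeal (𝓞 L)⁰ L) := by
  have key : ∀ k : ℕ, (k : ℤ) ≤ FractionalIdeal.count L (σ • P)
      ((σ • J : Ideal (𝓞 L)) : FractionalIdeal (𝓞 L)⁰ L) ↔
      (k : ℤ) ≤ FractionalIdeal.count L P (J : FractionalIdeal (𝓞 L)⁰ L) := by
    intro k
    rw [← pow_dvd_iff_le_count _ (smul_ne_bot σ hJ), ← pow_dvd_iff_le_count _ hJ, smul_asIdeal,
      smul_pow_dvd_smul_iff]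
  have h1 := FractionalIdeal.count_coe_nonneg L (σ • P) (σ • J)
  have h2 := FractionalIdeal.count_coe_nonneg L P J
  apply le_antisymm
  · have := (key _).mp (le_of_eq (Int.toNat_of_nonneg h1))
    rwa [Int.toNat_of_nonneg h1] at this
  · have := (key _).mpr (le_of_eq (Int.toNat_of_nonneg h2))
    rwa [Int.toNat_of_nonneg h2] at this

theorem smul_span_singleton (σ : L ≃ₐ[K] L) (a : 𝓞 L) :
    σ • (Ideal.span {a} : Ideal (𝓞 L)) = Ideal.span {σ • a} := by
  rw [Ideal.pointwise_smul_def, Ideal.map_span, Set.image_singleton]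
  rfl

theorem coe_smul_int (σ : L ≃ₐ[K] L) (a : 𝓞 L) : ((σ • a : 𝓞 L) : L) = σ (a : L) := rfl

theorem count_spanSingleton_int (P : HeightOneSpectrum (𝓞 L)) (a : 𝓞 L) :
    FractionalIdeal.count L P (FractionalIdeal.spanSingleton (𝓞 L)⁰ (a : L)) =
      FractionalIdeal.count L P ((Ideal.span {a} : Ideal (𝓞 L)) : FractionalIdeal (𝓞 L)⁰ L) := by
  rw [FractionalIdeal.coeIdeal_span_singleton]

/-- The order function is Galois-equivariant. -/
theorem ordAt_smul (σ : L ≃ₐ[K] L) (P : HeightOneSpectrum (𝓞 L)) (x : Lˣ) :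
    ordAt L (σ • P) (σ • x) = ordAt L P x := by
  obtain ⟨a, b, hb, hab⟩ := IsFractionRing.div_surjective (A := 𝓞 L) (x : L)
  have hb0 : b ≠ 0 := nonZeroDivisors.ne_zero hb
  have ha0 : a ≠ 0 := by
    rintro rfl
    rw [map_zero, zero_div] at hab
    exact x.ne_zero hab.symm
  have hbL : (algebraMap (𝓞 L) L b) ≠ 0 := by
    simpa using (map_ne_zero_iff _ (IsFractionRing.injective (𝓞 L) L)).mpr hb0
  have haL : (algebraMap (𝓞 L) L a) ≠ 0 := by
    simpa using (map_ne_zero_iff _ (IsFractionRing.injective (𝓞 L) L)).mpr ha0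
  -- the general formula for a quotient
  have formula : ∀ (Q : HeightOneSpectrum (𝓞 L)) (a b : 𝓞 L), a ≠ 0 → b ≠ 0 →
      FractionalIdeal.count L Q (FractionalIdeal.spanSingleton (𝓞 L)⁰ ((a : L) / (b : L))) =
        FractionalIdeal.count L Q ((Ideal.span {a} : Ideal (𝓞 L)) : FractionalIdeal (𝓞 L)⁰ L) -
        FractionalIdeal.count L Q ((Ideal.span {b} : Ideal (𝓞 L)) : FractionalIdeal (𝓞 L)⁰ L) := by
    intro Q a b ha hb
    have haL : ((a : 𝓞 L) : L) ≠ 0 := by
      simpa using (map_ne_zero_iff _ (IsFractionRing.injective (𝓞 L) L)).mpr ha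
    have hbL : ((b : 𝓞 L) : L) ≠ 0 := by
      simpa using (map_ne_zero_iff _ (IsFractionRing.injective (𝓞 L) L)).mpr hb
    rw [div_eq_mul_inv, ← FractionalIdeal.spanSingleton_mul_spanSingleton,
      FractionalIdeal.count_mul, ← FractionalIdeal.spanSingleton_inv, FractionalIdeal.count_inv,
      count_spanSingleton_int, count_spanSingleton_int, sub_eq_add_neg]
    · exact fun h => haL (FractionalIdeal.spanSingleton_eq_zero_iff.mp h)
    · exact fun h => inv_ne_zero hbL (FractionalIdeal.spanSingleton_eq_zero_iff.mp h)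
  have hx : (x : L) = ((a : 𝓞 L) : L) / ((b : 𝓞 L) : L) := hab.symm
  have hσx : ((σ • x : Lˣ) : L) = ((σ • a : 𝓞 L) : L) / ((σ • b : 𝓞 L) : L) := by
    rw [coe_smul_units, hx, map_div₀, coe_smul_int, coe_smul_int]
  have hσa : σ • a ≠ 0 := fun h => ha0 (by
    have := congrArg (fun z => σ⁻¹ • z) h
    simpa using this)
  have hσb : σ • b ≠ 0 := fun h => hb0 (by
    have := congrArg (fun z => σ⁻¹ • z) h
    simpa using this)
  unfold ordAt
  rw [hσx, hx, formula _ _ _ hσa hσb, formula _ _ _ ha0 hb0, ← smul_span_singleton,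
    ← smul_span_singleton, count_smul_coe σ P (by simpa using ha0),
    count_smul_coe σ P (by simpa using hb0)]

variable (T : Finset Nat.Primes)

theorem smul_primeAway_injective (σ : L ≃ₐ[K] L) :
    Function.Injective (fun P : PrimeAway T L => σ • P) :=
  MulAction.injective σ

theorem toFinsupp_smul (σ : L ≃ₐ[K] L) (D : DivT T L) :
    DivT.toFinsupp T L (σ • D) =
      Finsupp.mapDomain (fun P : PrimeAway T L => σ • P) (DivT.toFinsupp T L D) := rfl

theorem toFinsupp_smul_apply (σ : L ≃ₐ[K] L) (D : DivT T L) (P : PrimeAway T L) :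
    DivT.toFinsupp T L (σ • D) (σ • P) = DivT.toFinsupp T L D P := by
  rw [toFinsupp_smul]
  exact Finsupp.mapDomain_apply (smul_primeAway_injective T σ) _ P

theorem toFinsupp_smul_apply' (σ : L ≃ₐ[K] L) (D : DivT T L) (P : PrimeAway T L) :
    DivT.toFinsupp T L (σ • D) P = DivT.toFinsupp T L D (σ⁻¹ • P) := by
  have h := toFinsupp_smul_apply T σ D (σ⁻¹ • P)
  rwa [smul_inv_smul] at h

theorem divT_ext {D E : DivT T L}
    (h : ∀ P, DivT.toFinsupp T L D P = DivT.toFinsupp T L E P) : D = E := by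
  have : DivT.toFinsupp T L D = DivT.toFinsupp T L E := Finsupp.ext h
  exact this

/-- The divisor map is Galois-equivariant. -/
theorem divT_smul (σ : L ≃ₐ[K] L) (x : Lˣ) : divT T L (σ • x) = σ • divT T L x := by
  apply divT_ext
  intro P
  rw [toFinsupp_smul_apply', divT_apply, divT_apply]
  have h := ordAt_smul σ (σ⁻¹ • P).1 x
  rw [← coe_smul_primeAway, smul_inv_smul] at h
  exact h

/-- The diagonal embedding into `IT` is Galois-equivariant. -/
theorem diagI_smul (σ : L ≃ₐ[K] L) (x : Lˣ) : diagI T L (σ • x) = σ • diagI T L x := by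
  funext q
  apply Units.ext
  rfl

/-- The diagonal embedding into `JT` is Galois-equivariant. -/
theorem diagJ_smul (σ : L ≃ₐ[K] L) (x : Lˣ) : diagJ T L (σ • x) = σ • diagJ T L x :=
  Prod.ext (diagI_smul T σ x) (divT_smul T σ x)

theorem smul_mem_range_diagJ (σ : L ≃ₐ[K] L) {j : JT T L} (hj : j ∈ (diagJ T L).range) :
    σ • j ∈ (diagJ T L).range := by
  obtain ⟨x, rfl⟩ := hj
  exact ⟨σ • x, diagJ_smul T σ x⟩

/-- The endomorphism `j ↦ σ • j` of `JT T L`. -/
noncomputable def smulHomJ (σ : L ≃ₐ[K] L) : JT T L →* JT T L :=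
  MulDistribMulAction.toMonoidHom (JT T L) σ

/-- The Galois action on the `T`-idele class group. -/
noncomputable instance instActionCT : MulDistribMulAction (L ≃ₐ[K] L) (CT T L) where
  smul σ c := QuotientGroup.map (diagJ T L).range (diagJ T L).range (smulHomJ T σ)
    (fun _ hj => Subgroup.mem_comap.mpr (smul_mem_range_diagJ T σ hj)) c
  one_smul c := by
    induction c using QuotientGroup.induction_on with
    | H j => exact congrArg _ (one_smul (L ≃ₐ[K] L) j)
  mul_smul σ τ c := by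
    induction c using QuotientGroup.induction_on with
    | H j => exact congrArg _ (mul_smul σ τ j)
  smul_mul σ c d := map_mul _ c d
  smul_one σ := map_one _

theorem smul_toCT (σ : L ≃ₐ[K] L) (j : JT T L) : σ • toCT T L j = toCT T L (σ • j) := rfl

/-! ### `Rep ℤ G`-structures (universe 0) -/

section Reps

variable (T : Finset Nat.Primes)
variable (K L : Type) [Field K] [Field L] [NumberField K] [NumberField L] [Algebra K L]

/-- `Lˣ` as a `Gal(L/K)`-module. -/
noncomputable abbrev repUnits : Rep ℤ (L ≃ₐ[K] L) := Rep.ofMulDistribMulAction (L ≃ₐ[K] L) Lˣ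

/-- `IT T L` as a `Gal(L/K)`-module. -/
noncomputable abbrev repIT : Rep ℤ (L ≃ₐ[K] L) := Rep.ofMulDistribMulAction (L ≃ₐ[K] L) (IT T L)

/-- `DivT T L` as a `Gal(L/K)`-module. -/
noncomputable abbrev repDivT : Rep ℤ (L ≃ₐ[K] L) :=
  Rep.ofMulDistribMulAction (L ≃ₐ[K] L) (DivT T L)

/-- `JT T L` as a `Gal(L/K)`-module. -/
noncomputable abbrev repJT : Rep ℤ (L ≃ₐ[K] L) := Rep.ofMulDistribMulAction (L ≃ₐ[K] L) (JT T L)

/-- The `T`-idele class group `CT T L` as a `Gal(L/K)`-module. -/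
noncomputable abbrev repCT : Rep ℤ (L ≃ₐ[K] L) := Rep.ofMulDistribMulAction (L ≃ₐ[K] L) (CT T L)

/-- The diagonal embedding as a morphism of representations. -/
noncomputable def diagRep : repUnits K L ⟶ repJT T K L :=
  Rep.ofHom ⟨(diagJ T L).toAdditive.toIntLinearMap, fun σ =>
    LinearMap.ext fun x => diagJ_smul T σ (Additive.toMul x)⟩

/-- The projection `JT → CT` as a morphism of representations. -/
noncomputable def toCTRep : repJT T K L ⟶ repCT T K L :=
  Rep.ofHom ⟨(toCT T L).toAdditive.toIntLinearMap, fun _ =>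
    LinearMap.ext fun _ => rfl⟩

end Reps

end Fermat.Agent.PT.GLOB.ClassAction23
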