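/-
Program F (S55, Poitou–Tate), chapter GLOB, leaf A3 (definitions), helper23.

Tower maps for number fields `L ⊂ L'` (`[Algebra L L']`):
  `inclI T L L'   : IT T L →* IT T L'`      (extension of scalars `L ⊗ ℚ_q → L' ⊗ ℚ_q`)
  `inclDiv T L L' : DivT T L →* DivT T L'`  (`P ↦ ∏_{P' ∣ P} P' ^ e(P'|P)`)
  `inclJ T L L'   : JT T L →* JT T L'`
  `inclJ_diagJ    : inclJ (diagJ x) = diagJ (algebraMap x)`
  `inclCT T L L'  : CT T L →* CT T L'`.
-/
import Fermat.Agent.PT.GLOB.ClassAction23
import Fermat.Agent.PT.GLOB.PrimesAbove24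
import Fermat.Agent.PT.GLOB.ClassKill15

set_option autoImplicit false
set_option linter.unusedSectionVars false

namespace Fermat.Agent.PT.GLOB.Tower23

open NumberField IsDedekindDomain
open scoped TensorProduct nonZeroDivisors
open Fermat.Agent.PT.GLOB.Interface23

variable (T : Finset Nat.Primes)
variable (L L' : Type*) [Field L] [Field L'] [NumberField L] [NumberField L'] [Algebra L L']

/-- Extension of scalars `L ⊗ ℚ_q → L' ⊗ ℚ_q`. -/
noncomputable def locMap (q : Nat.Primes) : Loc L q →ₐ[ℚ] Loc L' q :=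
  Algebra.TensorProduct.map (IsScalarTower.toAlgHom ℚ L L') (AlgHom.id ℚ ℚ_[(q : ℕ)])

@[simp] theorem locMap_tmul (q : Nat.Primes) (x : L) (r : ℚ_[(q : ℕ)]) :
    locMap L L' q (x ⊗ₜ[ℚ] r) = (algebraMap L L' x) ⊗ₜ[ℚ] r := rfl

/-- The tower map on the `T`-components of the ideles. -/
noncomputable def inclI : IT T L →* IT T L' :=
  MonoidHom.pi fun q => (Units.map (locMap L L' q.1).toMonoidHom).comp (Pi.evalMonoidHom _ q)

theorem inclI_apply (x : IT T L) (q : T) :
    ((inclI T L L' x q : (Loc L' q.1)ˣ) : Loc L' q.1) = locMap L L' q.1 (x q : Loc L q.1) := rfl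

theorem inclI_diagI (x : Lˣ) :
    inclI T L L' (diagI T L x) = diagI T L' (Units.map (algebraMap L L' : L →* L') x) := by
  funext q
  apply Units.ext
  rfl

/-- The prime of `L` below a prime of `L'` away from `T`. -/
noncomputable def underAway (P' : PrimeAway T L') : PrimeAway T L :=
  ⟨P'.1.under (𝓞 L), fun q hq h => P'.2 q hq (by
    have h' : algebraMap (𝓞 L) (𝓞 L') (((q : ℕ) : ℤ) : 𝓞 L) ∈ P'.1.asIdeal := h
    rwa [map_intCast] at h')⟩

theorem underAway_val (P' : PrimeAway T L') : (underAway T L L' P').1 = P'.1.under (𝓞 L) := rfl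

/-- The ramification index of a prime of `L'` over `L`. -/
noncomputable def ramIdx (P' : HeightOneSpectrum (𝓞 L')) : ℕ :=
  (P'.under (𝓞 L)).asIdeal.ramificationIdx' P'.asIdeal

theorem ramIdx_ne_zero (P' : HeightOneSpectrum (𝓞 L')) : ramIdx L L' P' ≠ 0 := by
  have : P'.asIdeal.LiesOver (P'.under (𝓞 L)).asIdeal := ⟨rfl⟩
  exact Ideal.IsDedekindDomain.ramificationIdx'_ne_zero_of_liesOver P'.asIdeal (P'.under (𝓞 L)).ne_bot

theorem finite_fiber_away (P : PrimeAway T L) :
    {P' : PrimeAway T L' | underAway T L L' P' = P}.Finite := by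
  have h := PrimesAbove24.finite_fiber (𝓞 L) (𝓞 L') P.1
  refine (Set.Finite.preimage (Subtype.val_injective.injOn) h).subset ?_
  intro P' hP'
  exact congrArg Subtype.val hP'

theorem finite_support_pull (f : PrimeAway T L →₀ ℤ) :
    {P' : PrimeAway T L' | (ramIdx L L' P'.1 : ℤ) * f (underAway T L L' P') ≠ 0}.Finite := by
  have h : {P' : PrimeAway T L' | (ramIdx L L' P'.1 : ℤ) * f (underAway T L L' P') ≠ 0} ⊆
      ⋃ P ∈ f.support, {P' : PrimeAway T L' | underAway T L L' P' = P} := by
    intro P' hP'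
    simp only [Set.mem_iUnion, Set.mem_ofPred_eq]
    refine ⟨underAway T L L' P', ?_, rfl⟩
    rw [Finsupp.mem_support_iff]
    intro h0
    apply hP'
    rw [h0, mul_zero]
  exact (Set.Finite.biUnion f.support.finite_toSet
    (fun P _ => finite_fiber_away T L L' P)).subset h

/-- Pull-back of divisors (additive form): coefficient at `P'` is `e(P'|P) * coefficient at P`. -/
noncomputable def pullFinsupp : (PrimeAway T L →₀ ℤ) →+ (PrimeAway T L' →₀ ℤ) where
  toFun f := Finsupp.ofSupportFinite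
    (fun P' : PrimeAway T L' => (ramIdx L L' P'.1 : ℤ) * f (underAway T L L' P'))
    (finite_support_pull T L L' f)
  map_zero' := by
    ext P'
    simp [Finsupp.ofSupportFinite_coe]
  map_add' f g := by
    ext P'
    rw [Finsupp.add_apply]
    change (ramIdx L L' P'.1 : ℤ) * (f + g) (underAway T L L' P') =
      (ramIdx L L' P'.1 : ℤ) * f (underAway T L L' P') +
        (ramIdx L L' P'.1 : ℤ) * g (underAway T L L' P')
    rw [Finsupp.add_apply, mul_add]

theorem pullFinsupp_apply (f : PrimeAway T L →₀ ℤ) (P' : PrimeAway T L') :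
    pullFinsupp T L L' f P' = (ramIdx L L' P'.1 : ℤ) * f (underAway T L L' P') := rfl

/-- The tower map on divisors prime to `T`: `P ↦ ∏_{P' ∣ P} P' ^ e(P'|P)`. -/
noncomputable def inclDiv : DivT T L →* DivT T L' :=
  AddMonoidHom.toMultiplicative (pullFinsupp T L L')

theorem inclDiv_apply (D : DivT T L) (P' : PrimeAway T L') :
    DivT.toFinsupp T L' (inclDiv T L L' D) P' =
      (ramIdx L L' P'.1 : ℤ) * DivT.toFinsupp T L D (underAway T L L' P') := rfl

/-- `ord_{P'}(x) = e(P'|P) · ord_P(x)` for `x ∈ Lˣ`. -/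
theorem ordAt_algebraMap (P' : HeightOneSpectrum (𝓞 L')) (x : Lˣ) :
    ordAt L' P' (Units.map (algebraMap L L' : L →* L') x) =
      (ramIdx L L' P' : ℤ) * ordAt L (P'.under (𝓞 L)) x := by
  have hlo : P'.asIdeal.LiesOver (P'.under (𝓞 L)).asIdeal := ⟨rfl⟩
  have h1 := HeightOneSpectrum.valuation_liesOver (K := L) L' (P'.under (𝓞 L)) P' (x : L)
  rw [ClassKill15.valuation_eq_exp_neg_count L (P'.under (𝓞 L)) (x : L) x.ne_zero,
    ClassKill15.valuation_eq_exp_neg_count L' P' (algebraMap L L' (x : L))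
      (by simp), ← WithZero.exp_nsmul, WithZero.exp_inj] at h1
  unfold ordAt ramIdx
  rw [Units.coe_map]
  change FractionalIdeal.count L' P' (FractionalIdeal.spanSingleton (𝓞 L')⁰
    (algebraMap L L' (x : L))) = _
  rw [nsmul_eq_mul] at h1
  linarith

theorem inclDiv_divT (x : Lˣ) :
    inclDiv T L L' (divT T L x) = divT T L' (Units.map (algebraMap L L' : L →* L') x) := by
  apply ClassAction23.divT_ext
  intro P'
  rw [inclDiv_apply, divT_apply, divT_apply, ordAt_algebraMap]
  rfl

/-- The tower map on `T`-ideles. -/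
noncomputable def inclJ : JT T L →* JT T L' :=
  MonoidHom.prodMap (inclI T L L') (inclDiv T L L')

theorem inclJ_fst (j : JT T L) : (inclJ T L L' j).1 = inclI T L L' j.1 := rfl

theorem inclJ_snd (j : JT T L) : (inclJ T L L' j).2 = inclDiv T L L' j.2 := rfl

/-- The tower map is compatible with the diagonal embeddings. -/
theorem inclJ_diagJ (x : Lˣ) :
    inclJ T L L' (diagJ T L x) = diagJ T L' (Units.map (algebraMap L L' : L →* L') x) :=
  Prod.ext (inclI_diagI T L L' x) (inclDiv_divT T L L' x)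

theorem range_diagJ_le_comap :
    (diagJ T L).range ≤ ((diagJ T L').range).comap (inclJ T L L') := by
  rintro _ ⟨x, rfl⟩
  exact ⟨Units.map (algebraMap L L' : L →* L') x, (inclJ_diagJ T L L' x).symm⟩

/-- The tower map on `T`-idele class groups. -/
noncomputable def inclCT : CT T L →* CT T L' :=
  QuotientGroup.map _ _ (inclJ T L L') (range_diagJ_le_comap T L L')

theorem inclCT_toCT (j : JT T L) :
    inclCT T L L' (toCT T L j) = toCT T L' (inclJ T L L' j) := rfl

end Fermat.Agent.PT.GLOB.Tower23
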