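/-
Program F (S55), chapter GLOB, helper19: **dévissage** (leaf GLOB-D1).

From cyclic layers of degree `p` to all `p`-extensions: if `H¹(Gal(L/K), C_T(L)) = 0` and
`#H²(Gal(L/K), C_T(L)) ∣ p` for all Galois `L/K` of degree `p` unramified outside `T`
(`CyclicBase p T`, the output of the two inequalities) and the tower maps
`inclCT T F L : C_T(F) → C_T(L)` satisfy Galois descent (`TowerDescentAll T`, leaf A3), then for
every Galois extension `L/K` of number fields of `p`-power degree unramified outside `T`
  `H¹(Gal(L/K), C_T(L)) = 0`,  `H²(Gal(L/K), C_T(L))` finite of order dividing `[L : K]`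
(`devissage`, `devissage'`).

Ingredients (all in this file):
* `exists_normal_index_p` : a group of order `p^(n+1)` has a normal subgroup of index `p`;
* trivial group: `h1Vanishes_of_subsingleton`, `h2_subsingleton_of_subsingleton`;
* tower `K ⊆ F ⊆ L`: `iotaHom = restrictScalarsHom`, `piHom = restrictNormalHom`,
  `range_iotaHom_eq_ker_piHom`, `psiHom` (identity of `C_T(L)`), `phiHom` (tower map),
  `TowerDescent T K F L` (injective / equivariant / descent), `tower_step`
  (uses `FG/InfResFlex19`: `h1_flex`, `card_H2_dvd_flex`);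
* unramifiedness in towers: `isUnramifiedOutside_top`, `isUnramifiedOutside_bot`.
-/
import Mathlib
import Fermat.Agent.PT.FG.InfResFlex19
import Fermat.Agent.PT.GLOB.Tower23

set_option autoImplicit false
set_option linter.style.longLine false
set_option linter.unusedSectionVars false

open CategoryTheory groupCohomology NumberField

namespace Fermat.Agent.PT.GLOB.Devissage19

open Fermat.Agent.PT.FG.InfResFlex19
open Fermat.Agent.PT.GLOB.Interface23 Fermat.Agent.PT.GLOB.ClassAction23
  Fermat.Agent.PT.GLOB.Tower23

section groups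

/-- A group of order `p ^ (n + 1)` has a normal subgroup of index `p` (and order `p ^ n`). -/
theorem exists_normal_index_p {G : Type*} [Group G] [Finite G] (p n : ℕ) (hp : p.Prime)
    (hG : Nat.card G = p ^ (n + 1)) :
    ∃ H : Subgroup G, H.Normal ∧ H.index = p ∧ Nat.card H = p ^ n := by
  haveI : Fact p.Prime := ⟨hp⟩
  obtain ⟨H, hH⟩ := Sylow.exists_subgroup_card_pow_prime (G := G) p (n := n)
    (by rw [hG]; exact pow_dvd_pow p (Nat.le_succ n))
  have hidx : H.index = p := by
    have h1 := H.card_mul_index
    rw [hH, hG, pow_succ] at h1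
    exact Nat.eq_of_mul_eq_mul_left (pow_pos hp.pos n) h1
  refine ⟨H, ?_, hidx, hH⟩
  apply Subgroup.normal_of_index_eq_minFac_card
  rw [hidx, hG, Nat.pow_minFac (Nat.succ_ne_zero n), hp.minFac_eq]

variable {k : Type} [CommRing k]

/-- For the trivial group `H¹ = 0` (cocycle form). -/
theorem h1Vanishes_of_subsingleton {G : Type} [Group G] [Subsingleton G] (A : Rep k G) :
    H1Vanishes A := by
  intro f
  refine ⟨0, fun g => ?_⟩
  have hg : g = 1 := Subsingleton.elim _ _
  have h1 : f (1 : G) = 0 := by
    have := (mem_cocycles₁_iff (f : G → A.V)).mp f.2 1 1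
    simpa using this
  rw [hg, h1, map_zero, sub_zero]

/-- For the trivial group `H² = 0`. -/
theorem h2_subsingleton_of_subsingleton {G : Type} [Group G] [Subsingleton G] (A : Rep k G) :
    Subsingleton (H2 A) := by
  refine ⟨fun x y => ?_⟩
  suffices ∀ z : H2 A, z = 0 by rw [this x, this y]
  intro z
  induction z using H2_induction_on with | @h f =>
  rw [H2π_eq_zero_iff]
  refine ⟨fun _ => f (1, 1), ?_⟩
  funext ⟨g, h⟩
  have hg : g = 1 := Subsingleton.elim _ _
  have hh : h = 1 := Subsingleton.elim _ _
  subst hg hh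
  rw [d₁₂_hom_apply]
  simp

end groups

section tower

variable (T : Finset Nat.Primes)
variable (K F L : Type) [Field K] [Field F] [Field L] [NumberField K] [NumberField F]
  [NumberField L] [Algebra K F] [Algebra F L] [Algebra K L] [IsScalarTower K F L]

/-- `ι : Gal(L/F) → Gal(L/K)`. -/
noncomputable abbrev iotaHom : (L ≃ₐ[F] L) →* (L ≃ₐ[K] L) := AlgEquiv.restrictScalarsHom K

theorem iotaHom_injective : Function.Injective (iotaHom K F L) :=
  AlgEquiv.restrictScalarsHom_injective K

variable [IsGalois K F]

/-- `π : Gal(L/K) → Gal(F/K)`. -/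
noncomputable abbrev piHom : (L ≃ₐ[K] L) →* (F ≃ₐ[K] F) := AlgEquiv.restrictNormalHom F

theorem range_iotaHom_eq_ker_piHom : (iotaHom K F L).range = (piHom K F L).ker := by
  ext σ
  constructor
  · rintro ⟨τ, rfl⟩
    rw [MonoidHom.mem_ker]
    ext x
    apply (algebraMap F L).injective
    show algebraMap F L ((AlgEquiv.restrictNormal (τ.restrictScalars K) F) x) = algebraMap F L x
    rw [AlgEquiv.restrictNormal_commutes]
    exact τ.commutes x
  · intro hσ
    rw [MonoidHom.mem_ker] at hσ
    have hfix : ∀ x : F, σ (algebraMap F L x) = algebraMap F L x := fun x => by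
      rw [← AlgEquiv.restrictNormal_commutes]
      have : AlgEquiv.restrictNormal σ F = 1 := hσ
      rw [this]
      rfl
    refine ⟨{ σ.toRingEquiv with commutes' := hfix }, ?_⟩
    ext x
    rfl

/-- The action of `Gal(L/F)` on `CT T L` is the restriction of the action of `Gal(L/K)`. -/
theorem restrictScalars_smul_CT (τ : L ≃ₐ[F] L) (a : CT T L) :
    (τ.restrictScalars K) • a = τ • a := by
  induction a using QuotientGroup.induction_on with
  | H j => rfl

/-- `ψ : res ι (C_T(L) as Gal(L/K)-module) ⟶ C_T(L) as Gal(L/F)-module`, the identity. -/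
noncomputable def psiHom : Rep.res (iotaHom K F L) (repCT T K L) ⟶ repCT T F L :=
  Rep.ofHom (ρ := (repCT T K L).ρ.comp (iotaHom K F L)) (σ := (repCT T F L).ρ)
    ⟨LinearMap.id, fun τ => LinearMap.ext fun a =>
      congrArg Additive.ofMul (restrictScalars_smul_CT T K F L τ (Additive.toMul a))⟩

theorem psiHom_apply (a : Additive (CT T L)) : (psiHom T K F L).hom a = a := rfl

theorem psiHom_bijective : Function.Bijective (psiHom T K F L).hom :=
  Function.bijective_id

/-- **Descent package** for a tower `K ⊆ F ⊆ L` (`F/K`, `L/K` Galois): the properties of the tower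
map `inclCT T F L : C_T(F) → C_T(L)` consumed by the dévissage (leaf A3). -/
structure TowerDescent : Prop where
  /-- the tower map is injective on classes -/
  inj : Function.Injective (inclCT T F L)
  /-- the tower map is equivariant for `Gal(L/K) → Gal(F/K)` -/
  equivariant : ∀ (σ : L ≃ₐ[K] L) (c : CT T F),
    σ • inclCT T F L c = inclCT T F L ((AlgEquiv.restrictNormalHom F σ) • c)
  /-- Galois descent: the `Gal(L/F)`-invariant classes come from `F` -/
  descent : ∀ a : CT T L, (∀ τ : L ≃ₐ[F] L, τ • a = a) → ∃ b : CT T F, inclCT T F L b = a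

variable {T K F L}

/-- `φ : res π (C_T(F)) ⟶ C_T(L)`, the tower map. -/
noncomputable def phiHom (h : TowerDescent T K F L) :
    Rep.res (piHom K F L) (repCT T K F) ⟶ repCT T K L :=
  Rep.ofHom (ρ := (repCT T K F).ρ.comp (piHom K F L)) (σ := (repCT T K L).ρ)
    ⟨(inclCT T F L).toAdditive.toIntLinearMap, fun σ => LinearMap.ext fun c =>
      congrArg Additive.ofMul (h.equivariant σ (Additive.toMul c)).symm⟩

theorem phiHom_apply (h : TowerDescent T K F L) (c : Additive (CT T F)) :
    (phiHom h).hom c = Additive.ofMul (inclCT T F L (Additive.toMul c)) := rfl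

theorem phiHom_injective (h : TowerDescent T K F L) : Function.Injective (phiHom h).hom := by
  intro c d hcd
  exact congrArg Additive.ofMul (h.inj (congrArg Additive.toMul hcd))

theorem phiHom_image (h : TowerDescent T K F L) (a : (repCT T K L).V)
    (ha : ∀ s : L ≃ₐ[F] L, (repCT T K L).ρ (iotaHom K F L s) a = a) :
    ∃ b : (repCT T K F).V, (phiHom h).hom b = a := by
  obtain ⟨b, hb⟩ := h.descent (Additive.toMul a) (fun τ => by
    rw [← restrictScalars_smul_CT T K F L τ]
    exact congrArg Additive.toMul (ha τ))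
  exact ⟨Additive.ofMul b, congrArg Additive.ofMul hb⟩

/-- **One step of the dévissage** for a tower `K ⊆ F ⊆ L`. -/
theorem tower_step [IsGalois K L] (h : TowerDescent T K F L)
    (hS : H1Vanishes (repCT T F L)) (hQ : H1Vanishes (repCT T K F))
    [Finite (H2 (repCT T K F))] [Finite (H2 (repCT T F L))] :
    H1Vanishes (repCT T K L) ∧ Finite (H2 (repCT T K L)) ∧
      Nat.card (H2 (repCT T K L)) ∣
        Nat.card (H2 (repCT T K F)) * Nat.card (H2 (repCT T F L)) := by
  have hπ : Function.Surjective (piHom K F L) := AlgEquiv.restrictNormalHom_surjective L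
  have hex := range_iotaHom_eq_ker_piHom K F L
  have h1 := h1_flex (iotaHom K F L) (piHom K F L) hπ hex (repCT T K F) (repCT T K L)
    (repCT T F L) (phiHom h) (psiHom T K F L) (psiHom_bijective T K F L) (phiHom_injective h)
    (phiHom_image h) hS hQ
  have h2 := card_H2_dvd_flex (iotaHom K F L) (piHom K F L) (iotaHom_injective K F L) hπ hex
    (repCT T K F) (repCT T K L) (repCT T F L) (phiHom h) (psiHom T K F L)
    (psiHom_bijective T K F L) (phiHom_injective h) (phiHom_image h) hS
  exact ⟨h1, h2.1, h2.2⟩

end tower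

section unram

open IsDedekindDomain

variable (T : Finset Nat.Primes)
variable (K F L : Type) [Field K] [Field F] [Field L] [NumberField K] [NumberField F]
  [NumberField L] [Algebra K F] [Algebra F L] [Algebra K L] [IsScalarTower K F L]

/-- If `L/K` is unramified outside `T` then so is `L/F`. -/
theorem isUnramifiedOutside_top (h : IsUnramifiedOutside T K L) : IsUnramifiedOutside T F L := by
  intro P
  rw [eq_bot_iff]
  intro τ hτ
  have h1 : τ.restrictScalars K ∈ (P.1.asIdeal).inertia (L ≃ₐ[K] L) := fun x => hτ x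
  rw [h P, Subgroup.mem_bot] at h1
  rw [Subgroup.mem_bot]
  exact iotaHom_injective K F L (h1.trans (map_one _).symm)

/-- The order of the inertia group at a prime is the ramification index
(after helper22's `CycloPLayer22.card_inertia_eq_ramificationIdx`). -/
theorem card_inertia_eq_ramificationIdx' {F M : Type} [Field F] [Field M] [NumberField F]
    [NumberField M] [Algebra F M] [IsGalois F M] (Q : Ideal (𝓞 M)) [hQ : Q.IsPrime] :
    Nat.card (Q.inertia Gal(M/F)) = Q.ramificationIdx (𝓞 F) := by
  let q : Ideal (𝓞 F) := Q.under (𝓞 F)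
  have hq : q.IsPrime := inferInstance
  have h1 : Q.LiesOver q := inferInstance
  rw [Ideal.card_inertia_eq_ramificationIdxIn q Q,
    Ideal.ramificationIdxIn_eq_ramificationIdx q Q Gal(M/F)]

variable [IsGalois K F] [IsGalois K L]

/-- If `L/K` is unramified outside `T` then so is `F/K`. -/
theorem isUnramifiedOutside_bot (h : IsUnramifiedOutside T K L) : IsUnramifiedOutside T K F := by
  intro P
  haveI := P.1.isPrime
  obtain ⟨Q', -, hQ', hQ'Q⟩ := Ideal.exists_ideal_over_prime_of_isIntegral P.1.asIdeal
    (⊥ : Ideal (𝓞 L))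
    (by simp [Ideal.comap_bot_of_injective _ (FaithfulSMul.algebraMap_injective (𝓞 F) (𝓞 L))])
  have hne : Q' ≠ ⊥ := by
    rintro rfl
    apply P.1.ne_bot
    rw [← hQ'Q]
    exact Ideal.comap_bot_of_injective _ (FaithfulSMul.algebraMap_injective (𝓞 F) (𝓞 L))
  let P' : PrimeAway T L := ⟨⟨Q', hQ', hne⟩, fun q hq hmem => P.2 q hq (by
    rw [← hQ'Q, Ideal.mem_comap, map_intCast]
    exact hmem)⟩
  have h1 : Nat.card (Q'.inertia Gal(L/K)) = 1 := by
    have := h P'
    show Nat.card ((P'.1.asIdeal).inertia Gal(L/K)) = 1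
    rw [this]
    exact Subgroup.card_bot
  have h2 : Nat.card ((Q'.under (𝓞 F)).inertia Gal(F/K)) ∣ Nat.card (Q'.inertia Gal(L/K)) := by
    rw [card_inertia_eq_ramificationIdx' (F := K) Q',
      card_inertia_eq_ramificationIdx' (F := K) (Q'.under (𝓞 F))]
    have h := Ideal.ramificationIdx_tower (R := 𝓞 K) (Q'.under (𝓞 F)) Q'
    rw [h]
    exact Dvd.intro _ rfl
  rw [h1, Nat.dvd_one] at h2
  have h3 : Q'.under (𝓞 F) = P.1.asIdeal := hQ'Q
  rw [h3] at h2
  exact Subgroup.card_eq_one.mp h2

end unram

section main

/-- **Base case of the dévissage** (output of the two inequalities for cyclic layers of degree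
`p`, in cohomological form). -/
def CyclicBase (p : ℕ) (T : Finset Nat.Primes) : Prop :=
  ∀ (K L : Type) [Field K] [Field L] [NumberField K] [NumberField L] [Algebra K L] [IsGalois K L],
    Module.finrank K L = p → IsUnramifiedOutside T K L →
    H1Vanishes (repCT T K L) ∧ Finite (H2 (repCT T K L)) ∧ Nat.card (H2 (repCT T K L)) ∣ p

/-- The descent package for all towers of number fields unramified outside `T` (leaf A3). -/
def TowerDescentAll (T : Finset Nat.Primes) : Prop :=
  ∀ (K F L : Type) [Field K] [Field F] [Field L] [NumberField K] [NumberField F] [NumberField L]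
    [Algebra K F] [Algebra F L] [Algebra K L] [IsScalarTower K F L] [IsGalois K F] [IsGalois K L],
    IsUnramifiedOutside T K L → TowerDescent T K F L

/-- **Dévissage (GLOB-D1).** If `H¹(G, C_T(L)) = 0` and `#H²(G, C_T(L)) ∣ p` for all cyclic layers
of degree `p` unramified outside `T`, then `H¹(G, C_T(L)) = 0` and `#H²(G, C_T(L)) ∣ [L : K]` for
all Galois extensions `L/K` of number fields of `p`-power degree unramified outside `T`. -/
theorem devissage (p : ℕ) (hp : p.Prime) (T : Finset Nat.Primes)
    (hbase : CyclicBase p T) (hdesc : TowerDescentAll T) (n : ℕ) :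
    ∀ (K L : Type) [Field K] [Field L] [NumberField K] [NumberField L] [Algebra K L]
      [IsGalois K L], Module.finrank K L = p ^ n → IsUnramifiedOutside T K L →
      H1Vanishes (repCT T K L) ∧ Finite (H2 (repCT T K L)) ∧
        Nat.card (H2 (repCT T K L)) ∣ p ^ n := by
  induction n with
  | zero =>
    intro K L _ _ _ _ _ _ hdeg _
    have hcard : Nat.card (L ≃ₐ[K] L) = 1 := by
      rw [IsGalois.card_aut_eq_finrank, hdeg, pow_zero]
    haveI : Subsingleton (L ≃ₐ[K] L) := (Nat.card_eq_one_iff_unique.mp hcard).1
    haveI := h2_subsingleton_of_subsingleton (repCT T K L)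
    refine ⟨h1Vanishes_of_subsingleton _, inferInstance, ?_⟩
    rw [Nat.card_eq_one_iff_unique.mpr ⟨inferInstance, ⟨0⟩⟩]
    exact one_dvd _
  | succ n ih =>
    intro K L _ _ _ _ _ _ hdeg hun
    have hcard : Nat.card (L ≃ₐ[K] L) = p ^ (n + 1) := by
      rw [IsGalois.card_aut_eq_finrank, hdeg]
    obtain ⟨H, hHn, hHidx, hHcard⟩ := exists_normal_index_p p n hp hcard
    haveI : IsGalois K (IntermediateField.fixedField H) :=
      IsGalois.of_fixedField_normal_subgroup H
    have hFL : Module.finrank (IntermediateField.fixedField H) L = p ^ n := by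
      rw [IntermediateField.finrank_fixedField_eq_card, hHcard]
    have hKF : Module.finrank K (IntermediateField.fixedField H) = p := by
      have h1 := Module.finrank_mul_finrank K (IntermediateField.fixedField H) L
      rw [hFL, hdeg, pow_succ, mul_comm] at h1
      exact Nat.eq_of_mul_eq_mul_left (pow_pos hp.pos n) h1
    have hdescent := hdesc K (IntermediateField.fixedField H) L hun
    obtain ⟨hS, hSfin, hScard⟩ := ih (IntermediateField.fixedField H) L hFL
      (isUnramifiedOutside_top T K _ L hun)
    obtain ⟨hQ, hQfin, hQcard⟩ := hbase K (IntermediateField.fixedField H) hKF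
      (isUnramifiedOutside_bot T K _ L hun)
    obtain ⟨h1, h2, h3⟩ := tower_step hdescent hS hQ
    refine ⟨h1, h2, h3.trans ?_⟩
    rw [pow_succ, mul_comm (p ^ n) p]
    exact Nat.mul_dvd_mul hQcard hScard

/-- **Dévissage, packaged form**: for every Galois extension `L/K` of number fields of `p`-power
degree unramified outside `T`: `H¹(Gal(L/K), C_T(L)) = 0`, `H²(Gal(L/K), C_T(L))` is finite of
order dividing `[L : K]`. -/
theorem devissage' (p : ℕ) (hp : p.Prime) (T : Finset Nat.Primes)
    (hbase : CyclicBase p T) (hdesc : TowerDescentAll T)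
    (K L : Type) [Field K] [Field L] [NumberField K] [NumberField L] [Algebra K L]
    [IsGalois K L] (hdeg : ∃ n : ℕ, Module.finrank K L = p ^ n)
    (hun : IsUnramifiedOutside T K L) :
    Subsingleton (H1 (repCT T K L)) ∧ Finite (H2 (repCT T K L)) ∧
      Nat.card (H2 (repCT T K L)) ∣ Module.finrank K L := by
  obtain ⟨n, hn⟩ := hdeg
  obtain ⟨h1, h2, h3⟩ := devissage p hp T hbase hdesc n K L hn hun
  exact ⟨(h1Vanishes_iff_subsingleton _).mp h1, h2, hn ▸ h3⟩

end main

end Fermat.Agent.PT.GLOB.Devissage19
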