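/-
Program F (S55, Poitou–Tate), chapter GLOB, helper23.

Galois equivariance of the tower maps of `Tower23` for `K ⊂ L ⊂ L'` with `L/K` normal:
for `σ ∈ Aut(L'/K)` and `τ = σ|_L` one has `inclJ (τ • j) = σ • inclJ j`, hence the same for
`inclCT`, and `inclCT` is a morphism of representations
`Res (Gal(L'/K) → Gal(L/K)) (CT T L) ⟶ CT T L'`.
-/
import Fermat.Agent.PT.GLOB.Tower23

set_option autoImplicit false
set_option linter.unusedSectionVars false

namespace Fermat.Agent.PT.GLOB.TowerEquiv23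

open NumberField IsDedekindDomain
open scoped TensorProduct nonZeroDivisors Pointwise
open Fermat.Agent.PT.GLOB.Interface23 Fermat.Agent.PT.GLOB.ClassAction23
  Fermat.Agent.PT.GLOB.Tower23

section Equivariance

variable (T : Finset Nat.Primes)
variable {K L L' : Type*} [Field K] [Field L] [Field L'] [NumberField K] [NumberField L]
  [NumberField L'] [Algebra K L] [Algebra K L'] [Algebra L L'] [IsScalarTower K L L']
  [Normal K L]

/-- Restriction `Aut(L'/K) → Aut(L/K)`. -/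
noncomputable abbrev rn (σ : L' ≃ₐ[K] L') : L ≃ₐ[K] L := AlgEquiv.restrictNormalHom L σ

theorem algebraMap_rn (σ : L' ≃ₐ[K] L') (x : L) :
    algebraMap L L' (rn σ x) = σ (algebraMap L L' x) :=
  AlgEquiv.restrictNormal_commutes σ L x

theorem algebraMap_rn_int (σ : L' ≃ₐ[K] L') (a : 𝓞 L) :
    algebraMap (𝓞 L) (𝓞 L') ((rn σ : L ≃ₐ[K] L) • a) = σ • algebraMap (𝓞 L) (𝓞 L') a := by
  apply RingOfIntegers.ext
  exact algebraMap_rn σ (a : L)

theorem rn_inv (σ : L' ≃ₐ[K] L') : (rn σ⁻¹ : L ≃ₐ[K] L) = (rn σ)⁻¹ :=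
  map_inv (AlgEquiv.restrictNormalHom (F := K) (K₁ := L') L) σ

theorem locMap_smul (q : Nat.Primes) (σ : L' ≃ₐ[K] L') (z : Loc L q) :
    locMap L L' q ((rn σ : L ≃ₐ[K] L) • z) = σ • locMap L L' q z := by
  induction z using TensorProduct.induction_on with
  | zero => rw [smul_zero, map_zero, smul_zero]
  | tmul x r =>
    rw [smul_tmul', locMap_tmul, locMap_tmul, smul_tmul', algebraMap_rn]
  | add a b ha hb => rw [smul_add, map_add, ha, hb, map_add, smul_add]

theorem inclI_smul (σ : L' ≃ₐ[K] L') (x : IT T L) :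
    inclI T L L' ((rn σ : L ≃ₐ[K] L) • x) = σ • inclI T L L' x := by
  funext q
  apply Units.ext
  exact locMap_smul q.1 σ (x q : Loc L q.1)

theorem under_smul (σ : L' ≃ₐ[K] L') (P' : HeightOneSpectrum (𝓞 L')) :
    (σ • P').under (𝓞 L) = (rn σ : L ≃ₐ[K] L) • P'.under (𝓞 L) := by
  apply HeightOneSpectrum.ext
  ext a
  change algebraMap (𝓞 L) (𝓞 L') a ∈ σ • P'.asIdeal ↔ a ∈ (rn σ : L ≃ₐ[K] L) • (P'.under (𝓞 L)).asIdeal
  rw [Ideal.mem_pointwise_smul_iff_inv_smul_mem, Ideal.mem_pointwise_smul_iff_inv_smul_mem,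
    ← rn_inv, ← algebraMap_rn_int]
  rfl

theorem underAway_smul (σ : L' ≃ₐ[K] L') (P' : PrimeAway T L') :
    underAway T L L' (σ • P') = (rn σ : L ≃ₐ[K] L) • underAway T L L' P' :=
  Subtype.ext (under_smul σ P'.1)

theorem map_smul_ideal (σ : L' ≃ₐ[K] L') (I : Ideal (𝓞 L)) :
    Ideal.map (algebraMap (𝓞 L) (𝓞 L')) ((rn σ : L ≃ₐ[K] L) • I) =
      σ • Ideal.map (algebraMap (𝓞 L) (𝓞 L')) I := by
  rw [Ideal.pointwise_smul_def, Ideal.pointwise_smul_def, Ideal.map_map, Ideal.map_map]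
  congr 1
  ext a
  exact congrArg (fun z : 𝓞 L' => (z : L')) (algebraMap_rn_int σ a)

theorem ramIdx_smul (σ : L' ≃ₐ[K] L') (P' : HeightOneSpectrum (𝓞 L')) :
    ramIdx L L' (σ • P') = ramIdx L L' P' := by
  unfold ramIdx Ideal.ramificationIdx'
  congr 1
  ext n
  simp only [Set.mem_ofPred_eq]
  rw [under_smul, smul_asIdeal, smul_asIdeal, map_smul_ideal, ← smul_pow',
    Ideal.pointwise_smul_le_pointwise_smul_iff]

theorem inclDiv_smul (σ : L' ≃ₐ[K] L') (D : DivT T L) :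
    inclDiv T L L' ((rn σ : L ≃ₐ[K] L) • D) = σ • inclDiv T L L' D := by
  apply divT_ext
  intro P'
  rw [inclDiv_apply, toFinsupp_smul_apply', toFinsupp_smul_apply', inclDiv_apply,
    underAway_smul, rn_inv, coe_smul_primeAway, ramIdx_smul]

/-- The tower map on `T`-ideles is Galois-equivariant. -/
theorem inclJ_smul (σ : L' ≃ₐ[K] L') (j : JT T L) :
    inclJ T L L' ((rn σ : L ≃ₐ[K] L) • j) = σ • inclJ T L L' j :=
  Prod.ext (inclI_smul T σ j.1) (inclDiv_smul T σ j.2)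

/-- The tower map on `T`-idele class groups is Galois-equivariant. -/
theorem inclCT_smul (σ : L' ≃ₐ[K] L') (c : CT T L) :
    inclCT T L L' ((rn σ : L ≃ₐ[K] L) • c) = σ • inclCT T L L' c := by
  induction c using QuotientGroup.induction_on with
  | H j =>
    change inclCT T L L' ((rn σ : L ≃ₐ[K] L) • toCT T L j) = σ • inclCT T L L' (toCT T L j)
    rw [smul_toCT, inclCT_toCT, inclCT_toCT, smul_toCT, inclJ_smul]

end Equivariance

end Fermat.Agent.PT.GLOB.TowerEquiv23
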