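/-
Program F (S55, Poitou–Tate), chapter GLOB (helper23, chapter lead).  INTERFACE v2.

The exact statements which GLOB delivers to GLUE / PRO, at FINITE LEVEL, for the `S`-idele class
groups `CT S L` of `Interface23` (`S` a finite set of rational primes, `p ∈ S`, `p` odd):

* `resH2CT`, `infH2CT` : restriction / inflation on `H²(Gal(L/K), CT S L)`;
* `ClassFamily S`, `IsPClassFormation p S u` : **(GCF)** the `p`-primary global class formation, in
  the same fundamental-class shape as LOC's `IsClassFormationCore`
  (`h1`, `card`, `order` on `p`-group layers; `res`, `inf` on all layers unramified outside `S`);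
* `GlobalClassFormation p S : Prop := ∃ u, IsPClassFormation p S u`;
* `RecNormForm p S` : **(REC)** reciprocity / existence mod `p` in norm form, for `K ⊇ μ_p`;
* `FinitenessModP p S` : **(FIN)** finitely many `ℤ/p`-layers unramified outside `S`;
* `IsLocGlobCompatible` : **(L1)** compatibility of the global classes with LOC's local classes up
  to a `p`-adic unit `λ_q` (only its reduction mod `p` is used).
-/
import Fermat.Agent.PT.GLOB.TowerEquiv23
import Fermat.Agent.PT.FG.Interface8
import Fermat.Agent.PT.LOC.Interface12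

set_option autoImplicit false
set_option linter.unusedSectionVars false

namespace Fermat.Agent.PT.GLOB.InterfaceCF23

open NumberField IsDedekindDomain CategoryTheory groupCohomology
open scoped TensorProduct nonZeroDivisors Pointwise
open Fermat.Agent.PT.GLOB.Interface23 Fermat.Agent.PT.GLOB.ClassAction23
  Fermat.Agent.PT.GLOB.Tower23 Fermat.Agent.PT.GLOB.TowerEquiv23

noncomputable section

/-! ### 1. Restriction and inflation -/

section RestrictScalars

variable (T : Finset Nat.Primes)
variable {K K' L : Type*} [Field K] [Field K'] [Field L] [NumberField K] [NumberField K']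
  [NumberField L] [Algebra K K'] [Algebra K L] [Algebra K' L] [IsScalarTower K K' L]

/-- The action of `Gal(L/K')` on `CT T L` is the restriction of the action of `Gal(L/K)`. -/
theorem restrictScalars_smul_CT (τ : L ≃ₐ[K'] L) (c : CT T L) :
    (τ.restrictScalars K : L ≃ₐ[K] L) • c = τ • c := by
  induction c using QuotientGroup.induction_on with
  | H j => rfl

end RestrictScalars

section Maps

variable (S : Finset Nat.Primes)
variable (K K' L L' : Type) [Field K] [Field K'] [Field L] [Field L'] [NumberField K]
  [NumberField K'] [NumberField L] [NumberField L']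

section Res

variable [Algebra K K'] [Algebra K L] [Algebra K' L] [IsScalarTower K K' L]

/-- `Gal(L/K') → Gal(L/K)`. -/
def galIncl : (L ≃ₐ[K'] L) →* (L ≃ₐ[K] L) :=
  MonoidHom.mk' (fun τ => τ.restrictScalars K) (fun _ _ => rfl)

/-- The morphism of representations underlying restriction. -/
def resHomCT : Rep.res (galIncl K K' L) (repCT S K L) ⟶ repCT S K' L :=
  Rep.ofHom ⟨LinearMap.id, fun τ =>
    LinearMap.ext fun c => restrictScalars_smul_CT (K := K) S τ (Additive.toMul c)⟩

/-- Restriction `H²(Gal(L/K), CT S L) → H²(Gal(L/K'), CT S L)`. -/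
def resH2CT : H2 (repCT S K L) ⟶ H2 (repCT S K' L) :=
  groupCohomology.map (galIncl K K' L) (resHomCT S K K' L) 2

end Res

section Inf

variable [Algebra K L] [Algebra K L'] [Algebra L L'] [IsScalarTower K L L'] [Normal K L]

/-- The morphism of representations underlying inflation: `inclCT : CT S L → CT S L'`. -/
def infHomCT : Rep.res (AlgEquiv.restrictNormalHom (F := K) (K₁ := L') L) (repCT S K L) ⟶
    repCT S K L' :=
  Rep.ofHom ⟨(inclCT S L L').toAdditive.toIntLinearMap, fun σ =>
    LinearMap.ext fun c => inclCT_smul S σ (Additive.toMul c)⟩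

/-- Inflation `H²(Gal(L/K), CT S L) → H²(Gal(L'/K), CT S L')`. -/
def infH2CT : H2 (repCT S K L) ⟶ H2 (repCT S K L') :=
  groupCohomology.map (AlgEquiv.restrictNormalHom (F := K) (K₁ := L') L) (infHomCT S K L L') 2

end Inf

end Maps

/-! ### 2. The local components -/

section Local

variable (S : Finset Nat.Primes)
variable {K L : Type*} [Field K] [Field L] [NumberField K] [NumberField L] [Algebra K L]

/-- The embedding of the `q`-component `(L ⊗ ℚ_q)ˣ → JT S L`. -/
def locToJT [DecidableEq S] (q : S) : (Loc L q.1)ˣ →* JT S L :=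
  MonoidHom.prod (MonoidHom.mulSingle (fun r : S => (Loc L r.1)ˣ) q) 1

/-- The map `(L ⊗ ℚ_q)ˣ → CT S L`. -/
def locToCT [DecidableEq S] (q : S) : (Loc L q.1)ˣ →* CT S L :=
  (toCT S L).comp (locToJT S q)

theorem locToJT_smul [DecidableEq S] (q : S) (σ : L ≃ₐ[K] L) (x : (Loc L q.1)ˣ) :
    locToJT S q (σ • x) = σ • locToJT S q x := by
  refine Prod.ext ?_ ?_
  · funext r
    change (Pi.mulSingle q (σ • x) : IT S L) r = σ • ((Pi.mulSingle q x : IT S L) r)
    by_cases h : r = q
    · subst h
      rw [Pi.mulSingle_eq_same, Pi.mulSingle_eq_same]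
    · rw [Pi.mulSingle_eq_of_ne h, Pi.mulSingle_eq_of_ne h, smul_one]
  · change (1 : DivT S L) = σ • (1 : DivT S L)
    rw [smul_one]

theorem locToCT_smul [DecidableEq S] (q : S) (σ : L ≃ₐ[K] L) (x : (Loc L q.1)ˣ) :
    locToCT S q (σ • x) = σ • locToCT S q x := by
  change toCT S L (locToJT S q (σ • x)) = σ • toCT S L (locToJT S q x)
  rw [locToJT_smul, smul_toCT]

/-- The norm `c ↦ ∏_{h ∈ Gal(L/K)} h • c` on `CT S L`. -/
def normCT (K L : Type*) [Field K] [Field L] [NumberField K] [NumberField L] [Algebra K L]
    (c : CT S L) : CT S L := ∏ h : L ≃ₐ[K] L, h • c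

end Local

section LocalRep

variable (S : Finset Nat.Primes)
variable (K L : Type) [Field K] [Field L] [NumberField K] [NumberField L] [Algebra K L]

/-- `(L ⊗ ℚ_q)ˣ` as a `Gal(L/K)`-module. -/
abbrev repLoc (q : Nat.Primes) : Rep ℤ (L ≃ₐ[K] L) :=
  Rep.ofMulDistribMulAction (L ≃ₐ[K] L) (Loc L q)ˣ

/-- `(L ⊗ ℚ_q)ˣ → CT S L` as a morphism of representations. -/
def locToCTRep [DecidableEq S] (q : S) : repLoc K L q.1 ⟶ repCT S K L :=
  Rep.ofHom ⟨(locToCT S q).toAdditive.toIntLinearMap, fun σ =>
    LinearMap.ext fun x => locToCT_smul S q σ (Additive.toMul x)⟩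

end LocalRep

/-! ### 3. The statements -/

section Statements

variable (p : ℕ) (S : Finset Nat.Primes)

/-- Data: a class in `H²(Gal(L/K), CT S L)` for every finite Galois extension `L/K` of number
fields. (Only the layers unramified outside `S` matter.) -/
abbrev ClassFamily : Type 1 :=
  ∀ (K L : Type) [Field K] [Field L] [NumberField K] [NumberField L] [Algebra K L] [IsGalois K L],
    H2 (repCT S K L)

/-- **(GCF) `p`-primary global class formation at finite level** for the `S`-idele class groups,
in fundamental-class form.  `u K L` is the `p`-primary component of the fundamental class of `L/K`.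
* `h1`, `card`, `order`: for `L/K` unramified outside `S` with `Gal(L/K)` a `p`-group:
  `H¹(G, CT S L) = 0`, `#H²(G, CT S L) = [L:K]`, `u_{L/K}` has order `[L:K]`;
* `res`: `Res (u_{L/K}) = u_{L/K'}` for `K ⊆ K' ⊆ L`;
* `inf`: `Inf (u_{L/K}) = [L':L] • u_{L'/K}` for `K ⊆ L ⊆ L'`, `L/K` and `L'/K` Galois. -/
structure IsPClassFormation (u : ClassFamily S) : Prop where
  h1 : ∀ (K L : Type) [Field K] [Field L] [NumberField K] [NumberField L] [Algebra K L]
    [IsGalois K L], IsUnramifiedOutside S K L → IsPGroup p (L ≃ₐ[K] L) →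
    Subsingleton (H1 (repCT S K L))
  card : ∀ (K L : Type) [Field K] [Field L] [NumberField K] [NumberField L] [Algebra K L]
    [IsGalois K L], IsUnramifiedOutside S K L → IsPGroup p (L ≃ₐ[K] L) →
    Nat.card (H2 (repCT S K L)) = Module.finrank K L
  order : ∀ (K L : Type) [Field K] [Field L] [NumberField K] [NumberField L] [Algebra K L]
    [IsGalois K L], IsUnramifiedOutside S K L → IsPGroup p (L ≃ₐ[K] L) →
    addOrderOf (u K L) = Module.finrank K L
  res : ∀ (K K' L : Type) [Field K] [Field K'] [Field L] [NumberField K] [NumberField K']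
    [NumberField L] [Algebra K K'] [Algebra K L] [Algebra K' L] [IsScalarTower K K' L]
    [IsGalois K L] [IsGalois K' L], IsUnramifiedOutside S K L →
    resH2CT S K K' L (u K L) = u K' L
  inf : ∀ (K L L' : Type) [Field K] [Field L] [Field L'] [NumberField K] [NumberField L]
    [NumberField L'] [Algebra K L] [Algebra K L'] [Algebra L L'] [IsScalarTower K L L']
    [IsGalois K L] [IsGalois K L'], IsUnramifiedOutside S K L' →
    infH2CT S K L L' (u K L) = Module.finrank L L' • u K L'

/-- **(GCF)** for an odd prime `p ∈ S` there is a `p`-primary global class formation. -/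
def GlobalClassFormation : Prop :=
  p.Prime → p ≠ 2 → (∃ q ∈ S, (q : ℕ) = p) → ∃ u : ClassFamily S, IsPClassFormation p S u

/-- **(GCF → FG)** bridge leaf: a `p`-primary class formation gives FG's `IsFundClass p` on every
layer `L/K` unramified outside `S` (identify `resSub H (repCT S K L)` with
`repCT S (fixedField H) L` for the `p`-subgroups `H ≤ Gal(L/K)`, then use `h1`, `card`, `order`
for `L / L^H` and `res`). -/
def FundClassBridge : Prop :=
  ∀ u : ClassFamily S, IsPClassFormation p S u →
    ∀ (K L : Type) [Field K] [Field L] [NumberField K] [NumberField L] [Algebra K L]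
      [IsGalois K L], IsUnramifiedOutside S K L →
      Fermat.Agent.PT.FG.Interface8.IsFundClass p (repCT S K L) (u K L)

/-- **(REC) reciprocity / existence modulo `p`, norm form.**  For `K/ℚ` Galois unramified outside
`S` with `μ_p ⊆ K` (`p ∈ S` odd) and any algebraic closure `Ω` of `K`, there is a finite extension
`M/K` inside `Ω`, Galois over `ℚ` and unramified outside `S`, such that every norm
`N_{M/K} c = ∏_{h ∈ Gal(M/K)} h • c = normCT S K M c`, `c ∈ CT S M`, is (the image of) a `p`-th power in `CT S K`.
(`M` = the maximal elementary abelian `p`-extension of `K` unramified outside `S`.) -/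
def RecNormForm : Prop :=
  p.Prime → p ≠ 2 → (∃ q ∈ S, (q : ℕ) = p) →
  ∀ (K Ω : Type) [Field K] [NumberField K] [IsGalois ℚ K] [Field Ω] [Algebra K Ω]
    [IsAlgClosure K Ω], IsUnramifiedOutside S ℚ K → (∃ ζ : K, IsPrimitiveRoot ζ p) →
    ∃ (M : IntermediateField K Ω) (_ : NumberField M) (_ : IsGalois ℚ M),
      IsUnramifiedOutside S ℚ M ∧
      ∀ c : CT S M, ∃ d : CT S K, normCT S K M c = inclCT S K M (d ^ p)

/-- **(FIN)** a number field has only finitely many cyclic extensions of degree `p` (inside a given
algebraic closure) unramified outside `S`. -/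
def FinitenessModP : Prop :=
  p.Prime →
  ∀ (K Ω : Type) [Field K] [NumberField K] [Field Ω] [Algebra K Ω] [IsAlgClosure K Ω],
    {M : IntermediateField K Ω | Module.finrank K M = p ∧
      ∃ (_ : NumberField M) (_ : IsGalois K M), IsUnramifiedOutside S K M}.Finite

/-- **(L1) local injectivity** (replaces the sum formula): for `L/ℚ` Galois unramified outside
`S` and `q ∈ S`, the map `H²(G, (L ⊗ ℚ_q)ˣ) → H²(G, CT S L)` induced by the inclusion of the
`q`-component is injective on `p`-torsion.  (With `inv'_q := INV ∘ j_q` the sum formula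
`INV (j_* x) = ∑_q inv'_q (x_q)` is a tautology, and `(L1)` says that `inv'_q` is injective on the
`p`-torsion of `H²(G, (L ⊗ ℚ_q)ˣ) = H²(D_w, L_wˣ)`, i.e. `inv'_q = λ_q · inv_q`, `λ_q` a unit.) -/
def LocalInjectivity : Prop :=
  p.Prime → p ≠ 2 → (∃ q ∈ S, (q : ℕ) = p) →
  ∀ (L : Type) [Field L] [NumberField L] [IsGalois ℚ L] [DecidableEq S],
    IsUnramifiedOutside S ℚ L → ∀ (q : S) (x : H2 (repLoc ℚ L q.1)), p • x = 0 →
      Fermat.Agent.PT.FG.Interface8.pushH 2 (locToCTRep S ℚ L q) x = 0 → x = 0

end Statements

end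

end Fermat.Agent.PT.GLOB.InterfaceCF23
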