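/-
Program F (S55, Poitou–Tate), chapter GLOB, leaf (GCF-FC) — helper6.

**`InterfaceCF23.FundClassBridge p S`**: from GLOB's `IsPClassFormation p S u` to FG's
`Interface8.IsFundClass p (repCT S K L) (u K L)` for every Galois layer `L/K` of number fields
unramified outside `S`: for a `p`-subgroup `H ≤ Gal(L/K)` with fixed field `F`,
`H¹(H, C_S(L)) = 0`, `#H²(H, C_S(L)) = #H` and `Res^G_H u_{L/K}` has order `#H`, by transport through
`eH : Gal(L/F) ≃* H` (template: helper11's `LOC/FundFull11`).

Exports: `FH`, `eH`, `coe_eH`, `downHom`, `upHom`, `down`, `up`, `down_up`, `up_down`,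
`resH2CT_eq : resH2CT S K (FH K L H) L = resMap H (repCT S K L) 2 ≫ down S K L H 2`,
`down_injective`, `downEquiv`, and `fundClassBridge p S : FundClassBridge p S`.
-/
import Fermat.Agent.PT.GLOB.InterfaceCF23
import Fermat.Agent.PT.GLOB.Devissage19

set_option autoImplicit false
set_option linter.unusedSectionVars false

open CategoryTheory groupCohomology NumberField
open Fermat.Agent.PT.GLOB.Interface23 Fermat.Agent.PT.GLOB.ClassAction23
  Fermat.Agent.PT.GLOB.InterfaceCF23 Fermat.Agent.PT.FG.Interface8

namespace Fermat.Agent.PT.GLOB.FundClassBridge6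

noncomputable section

section Generic

variable (S : Finset Nat.Primes)
variable (K L : Type) [Field K] [Field L] [NumberField K] [NumberField L] [Algebra K L]
  (H : Subgroup (L ≃ₐ[K] L))

/-- The fixed field of `H`. -/
abbrev FH : IntermediateField K L := IntermediateField.fixedField H

/-- `Gal(L/F) ≃* H` for `F` the fixed field of `H`. -/
def eH : (L ≃ₐ[FH K L H] L) ≃* H := (IntermediateField.subgroupEquivAlgEquiv H).symm

theorem coe_eH (τ : L ≃ₐ[FH K L H] L) :
    ((eH K L H τ : H) : L ≃ₐ[K] L) = galIncl K (FH K L H) L τ := rfl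

/-- The identity of `CT S L`, as a morphism `Res_{eH}(Res_H (CT S L)) ⟶ CT S L` of
`Gal(L/F)`-modules. -/
def downHom : Rep.res (eH K L H : (L ≃ₐ[FH K L H] L) →* H) (resSub H (repCT S K L)) ⟶
    repCT S (FH K L H) L :=
  Rep.ofHom ⟨LinearMap.id, fun τ =>
    LinearMap.ext fun c => restrictScalars_smul_CT (K := K) S τ (Additive.toMul c)⟩

/-- The identity of `CT S L`, as a morphism `Res_{eH⁻¹}(CT S L) ⟶ Res_H (CT S L)` of `H`-modules. -/
def upHom : Rep.res ((eH K L H).symm : H →* (L ≃ₐ[FH K L H] L)) (repCT S (FH K L H) L) ⟶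
    resSub H (repCT S K L) :=
  Rep.ofHom ⟨LinearMap.id, fun h => by
    ext x
    obtain ⟨τ, rfl⟩ := (eH K L H).surjective h
    have h1 : (eH K L H).symm (eH K L H τ) = τ := MulEquiv.symm_apply_apply _ _
    change (repCT S (FH K L H) L).ρ ((eH K L H).symm (eH K L H τ)) x =
      (repCT S K L).ρ ((eH K L H τ : H) : L ≃ₐ[K] L) x
    rw [h1]
    exact (congrArg Additive.ofMul
      (restrictScalars_smul_CT (K := K) S τ (Additive.toMul x))).symm⟩

/-- `Hⁿ(H, CT S L) → Hⁿ(Gal(L/F), CT S L)`. -/
def down (n : ℕ) : groupCohomology (resSub H (repCT S K L)) n ⟶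
    groupCohomology (repCT S (FH K L H) L) n :=
  groupCohomology.map (eH K L H : (L ≃ₐ[FH K L H] L) →* H) (downHom S K L H) n

/-- `Hⁿ(Gal(L/F), CT S L) → Hⁿ(H, CT S L)`. -/
def up (n : ℕ) : groupCohomology (repCT S (FH K L H) L) n ⟶
    groupCohomology (resSub H (repCT S K L)) n :=
  groupCohomology.map ((eH K L H).symm : H →* (L ≃ₐ[FH K L H] L)) (upHom S K L H) n

theorem down_up (n : ℕ) : down S K L H n ≫ up S K L H n = 𝟙 _ := by
  rw [down, up, ← groupCohomology.map_comp, ← groupCohomology.map_id]
  refine groupCohomology.map_congr ?_ ?_ n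
  · ext h
    simp
  · rfl

theorem up_down (n : ℕ) : up S K L H n ≫ down S K L H n = 𝟙 _ := by
  rw [down, up, ← groupCohomology.map_comp, ← groupCohomology.map_id]
  refine groupCohomology.map_congr ?_ ?_ n
  · ext τ
    simp
  · rfl

theorem resH2CT_eq :
    resH2CT S K (FH K L H) L = resMap H (repCT S K L) 2 ≫ down S K L H 2 := by
  rw [resH2CT, down, resMap, ← groupCohomology.map_comp]
  refine groupCohomology.map_congr ?_ ?_ 2
  · ext τ
    rfl
  · rfl

theorem down_injective (n : ℕ) : Function.Injective (down S K L H n) := by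
  intro x y hxy
  have h1 := congrArg (up S K L H n) hxy
  have h2 : ∀ z, (up S K L H n) ((down S K L H n) z) = z := fun z => by
    rw [← ModuleCat.comp_apply, down_up, ModuleCat.id_apply]
  rwa [h2, h2] at h1

/-- The comparison as an equivalence. -/
def downEquiv (n : ℕ) : groupCohomology (resSub H (repCT S K L)) n ≃
    groupCohomology (repCT S (FH K L H) L) n where
  toFun := down S K L H n
  invFun := up S K L H n
  left_inv z := by rw [← ModuleCat.comp_apply, down_up, ModuleCat.id_apply]
  right_inv z := by rw [← ModuleCat.comp_apply, up_down, ModuleCat.id_apply]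

end Generic

section Main

variable (p : ℕ) (S : Finset Nat.Primes)

/-- **(GCF → FG) `FundClassBridge`**: a `p`-primary global class formation gives FG's
`IsFundClass p` on every layer `L/K` unramified outside `S`. -/
theorem fundClassBridge : FundClassBridge p S := by
  intro u h K L _ _ _ _ _ _ hun
  have hcard : ∀ H : Subgroup (L ≃ₐ[K] L), Module.finrank (FH K L H) L = Nat.card H := by
    intro H
    rw [← IsGalois.card_aut_eq_finrank, Nat.card_congr (eH K L H).toEquiv]
  have hunF : ∀ H : Subgroup (L ≃ₐ[K] L), IsUnramifiedOutside S (FH K L H) L := fun H =>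
    Devissage19.isUnramifiedOutside_top S K (FH K L H) L hun
  have hP : ∀ H : Subgroup (L ≃ₐ[K] L), IsPGroup p H → IsPGroup p (L ≃ₐ[FH K L H] L) := fun H hH =>
    hH.of_equiv (eH K L H).symm
  refine ⟨fun H hH => ?_, fun H hH => ?_, fun H hH => ?_⟩
  · have : Subsingleton (groupCohomology (repCT S (FH K L H) L) 1) :=
      h.h1 (FH K L H) L (hunF H) (hP H hH)
    exact (down_injective S K L H 1).subsingleton
  · rw [← hcard H, ← h.card (FH K L H) L (hunF H) (hP H hH)]
    exact Nat.card_congr (downEquiv S K L H 2)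
  · rw [← hcard H, ← h.order (FH K L H) L (hunF H) (hP H hH), ← h.res K (FH K L H) L hun,
      resH2CT_eq]
    rw [ModuleCat.comp_apply]
    exact (addOrderOf_injective (down S K L H 2).hom.toAddMonoidHom
      (down_injective S K L H 2) _).symm

end Main

end
end Fermat.Agent.PT.GLOB.FundClassBridge6
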