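/-
Program F (S55), chapter GLOB, helper19: **base case of the dévissage**.

Translation of the idele-level statements `Interface23.Hilbert90C p` and `Interface23.NormIndexC p`
(the outputs of the two inequalities for cyclic layers of prime degree `p`) into group cohomology
(via `FG/CyclicBridge18` = Mathlib's cohomology of finite cyclic groups):

* generic (finite cyclic `G = ⟨g⟩`, `A : Rep k G`): `subsingleton_H1_of_cyclic`
  (`ker N ⊆ im (g - 1)` gives `H¹ = 0`), `card_H2_dvd_of_cyclic` (`A^G / N A` generated by one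
  element gives `#H² ∣ #G`), `nontrivial_H2_of_cyclic`, `norm_eq_card_nsmul_of_fixed`;
* `cyclicBase_of_inequalities : Hilbert90C p → NormIndexC p → Devissage19.CyclicBase p T`
  (for `p ∈ T`);
* `card_H2_eq_of_inequalities` : `#H²(Gal(L/K), C_T(L)) = p` for cyclic layers of degree `p`;
* `devissage_of_inequalities` : `H¹(Gal(L/K), C_T(L)) = 0` and `#H²(Gal(L/K), C_T(L)) ∣ [L : K]`
  for all `p`-extensions `L/K` unramified outside `T`, from `Hilbert90C p`, `NormIndexC p` and
  `Devissage19.TowerDescentAll T`.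
-/
import Mathlib
import Fermat.Agent.PT.FG.CyclicBridge18
import Fermat.Agent.PT.GLOB.Devissage19

set_option autoImplicit false
set_option linter.style.longLine false
set_option linter.unusedSectionVars false

open CategoryTheory groupCohomology NumberField

namespace Fermat.Agent.PT.GLOB.CyclicBase19

open Fermat.Agent.CFT.Herbrand
open Fermat.Agent.PT.FG.CyclicBridge18
open Fermat.Agent.PT.FG.InfResFlex19

section generic

variable {k G : Type} [CommRing k] [CommGroup G] [Fintype G] (A : Rep k G) (g : G)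
  (hg : ∀ x, x ∈ Subgroup.zpowers g)

include hg

/-- Cyclic group: if every element of norm `0` is of the form `g b - b` then `H¹ = 0`. -/
theorem subsingleton_H1_of_cyclic
    (h : ∀ a : A.V, A.ρ.norm a = 0 → ∃ b : A.V, A.ρ g b - b = a) :
    Subsingleton (H1 A) := by
  have hsub : Subsingleton (repPair A g).swap.H := by
    refine ⟨fun x y => ?_⟩
    suffices ∀ z : (repPair A g).swap.H, z = 0 by rw [this x, this y]
    intro z
    induction z using Pair.induction_H with
    | h x =>
      rw [Pair.cls_eq_zero_iff']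
      obtain ⟨b, hb⟩ := h x.1 x.2
      exact ⟨b, hb⟩
  exact (oddEquiv A g hg 1 (by decide)).symm.toEquiv.subsingleton

/-- An element fixed by the generator is fixed by the whole group. -/
theorem rho_eq_of_fixed {a : A.V} (ha : A.ρ g a = a) (x : G) : A.ρ x a = a := by
  have hinv : (A.ρ.invariants) = LinearMap.ker (A.ρ g - LinearMap.id) := by
    ext v
    rw [Representation.mem_invariants_iff_of_forall_mem_zpowers A.ρ g hg]
    simp [sub_eq_zero]
  have : a ∈ A.ρ.invariants := by
    rw [hinv]; simp [ha]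
  exact this x

/-- The norm of a fixed element is `#G • a`. -/
theorem norm_eq_card_nsmul_of_fixed {a : A.V} (ha : A.ρ g a = a) :
    A.ρ.norm a = Nat.card G • a := by
  rw [Representation.norm, LinearMap.sum_apply]
  simp only [rho_eq_of_fixed A g hg ha]
  rw [Finset.sum_const, Finset.card_univ, Nat.card_eq_fintype_card]

/-- Cyclic group: if the fixed elements modulo norms are generated by one element then
`H²` is finite of order dividing `#G`. -/
theorem card_H2_dvd_of_cyclic (a₀ : A.V) (ha₀ : A.ρ g a₀ = a₀)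
    (h : ∀ a : A.V, A.ρ g a = a → ∃ (m : ℕ) (b : A.V), a = m • a₀ + A.ρ.norm b) :
    Finite (H2 A) ∧ Nat.card (H2 A) ∣ Nat.card G := by
  set P := repPair A g with hP
  let x₀ : P.H := P.cls ⟨a₀, by rw [hP, mem_ker_repPair_f]; exact ha₀⟩
  have hgen : ∀ x : P.H, ∃ m : ℕ, x = m • x₀ := by
    intro x
    induction x using Pair.induction_H with
    | h x =>
      have hx : A.ρ g x.1 = x.1 := mem_ker_repPair_f.mp x.2
      obtain ⟨m, b, hb⟩ := h x.1 hx
      refine ⟨m, ?_⟩
      rw [← map_nsmul, Pair.cls_eq_cls_iff]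
      exact ⟨b, hb⟩
  have hkill : Nat.card G • x₀ = 0 := by
    rw [← map_nsmul, Pair.cls_eq_zero_iff']
    exact ⟨a₀, norm_eq_card_nsmul_of_fixed A g hg ha₀⟩
  have hcard0 : Nat.card G ≠ 0 := Nat.card_pos.ne'
  have htop : AddSubgroup.zmultiples x₀ = ⊤ := by
    rw [eq_top_iff]
    intro x _
    obtain ⟨m, rfl⟩ := hgen x
    exact AddSubgroup.nsmul_mem _ (AddSubgroup.mem_zmultiples x₀) m
  have hord : addOrderOf x₀ ∣ Nat.card G := addOrderOf_dvd_of_nsmul_eq_zero hkill
  have hfin : IsOfFinAddOrder x₀ := isOfFinAddOrder_iff_nsmul_eq_zero.mpr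
    ⟨Nat.card G, Nat.pos_of_ne_zero hcard0, hkill⟩
  have hcardH : Nat.card P.H = addOrderOf x₀ := by
    rw [← Nat.card_zmultiples, htop]
    exact (Nat.card_congr AddSubgroup.topEquiv.toEquiv).symm
  have hfinH : Finite P.H := by
    apply Nat.finite_of_card_ne_zero
    rw [hcardH]
    exact (addOrderOf_pos_iff.mpr hfin).ne'
  have e := evenEquiv A g hg 2 (by decide)
  refine ⟨(Equiv.finite_iff e.toEquiv).mp hfinH, ?_⟩
  rw [← Nat.card_congr e.toEquiv, hcardH]
  exact hord

/-- Cyclic group: a fixed element which is not a norm gives a nonzero class in `H²`. -/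
theorem nontrivial_H2_of_cyclic (a₀ : A.V) (ha₀ : A.ρ g a₀ = a₀)
    (h : ¬ ∃ b : A.V, A.ρ.norm b = a₀) : Nontrivial (H2 A) := by
  set P := repPair A g with hP
  let x₀ : P.H := P.cls ⟨a₀, by rw [hP, mem_ker_repPair_f]; exact ha₀⟩
  have hx₀ : x₀ ≠ 0 := by
    intro h0
    rw [Pair.cls_eq_zero_iff'] at h0
    exact h h0
  have e := evenEquiv A g hg 2 (by decide)
  exact ⟨⟨e x₀, 0, fun h0 => hx₀ (e.injective (h0.trans (map_zero e).symm))⟩⟩

end generic

/-- The norm as a sum. -/
theorem norm_apply_eq_sum {k G : Type} [CommRing k] [Group G] [Fintype G] (A : Rep k G) (a : A.V) :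
    A.ρ.norm a = ∑ g : G, A.ρ g a := by
  rw [Representation.norm, LinearMap.sum_apply]

section fields

open Fermat.Agent.PT.GLOB.Interface23 Fermat.Agent.PT.GLOB.ClassAction23
  Fermat.Agent.PT.GLOB.Devissage19

variable (T : Finset Nat.Primes)
variable (K L : Type) [Field K] [Field L] [NumberField K] [NumberField L] [Algebra K L]
  [IsGalois K L]

/-- The norm of `repCT` on classes is induced by `normJ`. -/
theorem norm_repCT (j : JT T L) :
    (repCT T K L).ρ.norm (Additive.ofMul (toCT T L j)) =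
      Additive.ofMul (toCT T L (normJ T K L j)) := by
  refine (norm_apply_eq_sum (repCT T K L) _).trans ?_
  unfold normJ
  rw [map_prod, ofMul_prod]
  rfl

theorem rho_repCT (σ : L ≃ₐ[K] L) (j : JT T L) :
    (repCT T K L).ρ σ (Additive.ofMul (toCT T L j)) = Additive.ofMul (toCT T L (σ • j)) := rfl

theorem exists_rep_repCT (a : (repCT T K L).V) : ∃ j : JT T L, Additive.ofMul (toCT T L j) = a := by
  obtain ⟨j, hj⟩ := QuotientGroup.mk'_surjective _ (Additive.toMul a)
  exact ⟨j, congrArg Additive.ofMul hj⟩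

theorem ofMul_toCT_eq_iff (j j' : JT T L) :
    (Additive.ofMul (toCT T L j) : Additive (CT T L)) = Additive.ofMul (toCT T L j') ↔
      j / j' ∈ principalJ T L := by
  rw [Additive.ofMul.injective.eq_iff]
  unfold toCT principalJ
  rw [QuotientGroup.mk'_apply, QuotientGroup.mk'_apply, QuotientGroup.eq_iff_div_mem]

set_option backward.isDefEq.respectTransparency false in
attribute [local instance] IsCyclic.commGroup in
/-- **Base case of the dévissage**: the idele-level outputs of the two inequalities give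
`H¹(Gal(L/K), C_T(L)) = 0` and `#H²(Gal(L/K), C_T(L)) ∣ p` for every cyclic layer of degree `p`
unramified outside `T ∋ p`. -/
theorem cyclicBase_of_inequalities (p : ℕ) (hp : p.Prime) (T : Finset Nat.Primes)
    (hpT : ∃ q ∈ T, (q : ℕ) = p) (h90 : Hilbert90C p) (hNI : NormIndexC p) :
    CyclicBase p T := by
  intro K L _ _ _ _ _ _ hdeg hun
  have hcard : Nat.card (L ≃ₐ[K] L) = p := by rw [IsGalois.card_aut_eq_finrank, hdeg]
  haveI : Fact p.Prime := ⟨hp⟩
  haveI : IsCyclic (L ≃ₐ[K] L) := isCyclic_of_prime_card hcard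
  obtain ⟨σ, hσ⟩ : ∃ σ : L ≃ₐ[K] L, σ ≠ 1 := by
    haveI : Nontrivial (L ≃ₐ[K] L) := by
      rw [← Finite.one_lt_card_iff_nontrivial, hcard]
      exact hp.one_lt
    exact exists_ne 1
  have hg : ∀ x, x ∈ Subgroup.zpowers σ := fun x => mem_zpowers_of_prime_card hcard hσ
  -- `H¹ = 0`
  have h1 : Subsingleton (H1 (repCT T K L)) := by
    refine subsingleton_H1_of_cyclic (repCT T K L) σ hg ?_
    intro a ha
    obtain ⟨j, rfl⟩ := exists_rep_repCT T K L a
    have hnorm : normJ T K L j ∈ principalJ T L := by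
      have h0 : (0 : Additive (CT T L)) = Additive.ofMul (toCT T L 1) := by
        rw [map_one]; rfl
      have ha' := (norm_repCT T K L j).symm.trans (ha.trans h0)
      have := (ofMul_toCT_eq_iff T L (normJ T K L j) 1).mp ha'
      rwa [div_one] at this
    obtain ⟨y, x, hyx⟩ := h90 T K L hp hpT hdeg hun σ hσ j hnorm
    refine ⟨Additive.ofMul (toCT T L y), ?_⟩
    have h3 : (σ • y / y) / j ∈ principalJ T L := by
      refine ⟨x⁻¹, ?_⟩
      rw [hyx, map_inv, div_mul_cancel_left]
    have h4 := (ofMul_toCT_eq_iff T L (σ • y / y) j).mpr h3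
    rw [map_div, ofMul_div] at h4
    exact h4
  -- `H²`
  obtain ⟨j₀, hj₀, -, hgen⟩ := hNI T K L hp hpT hdeg hun
  have h2 := card_H2_dvd_of_cyclic (repCT T K L) σ hg (Additive.ofMul (toCT T L j₀))
    ((ofMul_toCT_eq_iff T L (σ • j₀) j₀).mpr (hj₀ σ))
    (by
      intro a ha
      obtain ⟨j, rfl⟩ := exists_rep_repCT T K L a
      have hfix : IsFixedClass T K L j := by
        intro τ
        have := rho_eq_of_fixed (repCT T K L) σ hg ha τ
        exact (ofMul_toCT_eq_iff T L (τ • j) j).mp this
      obtain ⟨m, y, x, hyx⟩ := hgen j hfix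
      refine ⟨m, Additive.ofMul (toCT T L y), ?_⟩
      have h5 : j / (j₀ ^ m * normJ T K L y) ∈ principalJ T L := by
        refine ⟨x, ?_⟩
        have : j = j₀ ^ m * normJ T K L y * diagJ T L x := by
          rw [mul_assoc, ← hyx, mul_div_cancel]
        rw [this, mul_div_cancel_left]
      have h6 := (ofMul_toCT_eq_iff T L j (j₀ ^ m * normJ T K L y)).mpr h5
      rw [map_mul, map_pow, ofMul_mul, ofMul_pow] at h6
      exact h6.trans (congrArg _ (norm_repCT T K L y).symm))
  rw [hcard] at h2
  exact ⟨(h1Vanishes_iff_subsingleton _).mpr h1, h2.1, h2.2⟩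

set_option backward.isDefEq.respectTransparency false in
attribute [local instance] IsCyclic.commGroup in
/-- For a cyclic layer of degree `p` the order of `H²(Gal(L/K), C_T(L))` is exactly `p`. -/
theorem card_H2_eq_of_inequalities (p : ℕ) (hp : p.Prime) (T : Finset Nat.Primes)
    (hpT : ∃ q ∈ T, (q : ℕ) = p) (h90 : Hilbert90C p) (hNI : NormIndexC p)
    (K L : Type) [Field K] [Field L] [NumberField K] [NumberField L] [Algebra K L]
    [IsGalois K L] (hdeg : Module.finrank K L = p) (hun : IsUnramifiedOutside T K L) :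
    Nat.card (H2 (repCT T K L)) = p := by
  obtain ⟨-, hfin, hdvd⟩ := cyclicBase_of_inequalities p hp T hpT h90 hNI K L hdeg hun
  have hcard : Nat.card (L ≃ₐ[K] L) = p := by rw [IsGalois.card_aut_eq_finrank, hdeg]
  haveI : Fact p.Prime := ⟨hp⟩
  haveI : IsCyclic (L ≃ₐ[K] L) := isCyclic_of_prime_card hcard
  obtain ⟨σ, hσ⟩ : ∃ σ : L ≃ₐ[K] L, σ ≠ 1 := by
    haveI : Nontrivial (L ≃ₐ[K] L) := by
      rw [← Finite.one_lt_card_iff_nontrivial, hcard]
      exact hp.one_lt
    exact exists_ne 1
  have hg : ∀ x, x ∈ Subgroup.zpowers σ := fun x => mem_zpowers_of_prime_card hcard hσ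
  obtain ⟨j₀, hj₀, hnot, -⟩ := hNI T K L hp hpT hdeg hun
  have hnt := nontrivial_H2_of_cyclic (repCT T K L) σ hg (Additive.ofMul (toCT T L j₀))
    ((ofMul_toCT_eq_iff T L (σ • j₀) j₀).mpr (hj₀ σ))
    (by
      rintro ⟨b, hb⟩
      obtain ⟨y, rfl⟩ := exists_rep_repCT T K L b
      have h1 := (norm_repCT T K L y).symm.trans hb
      obtain ⟨x, hx⟩ := (ofMul_toCT_eq_iff T L (normJ T K L y) j₀).mp h1
      apply hnot
      refine ⟨y, x⁻¹, ?_⟩
      rw [map_inv, hx, inv_div, mul_div_cancel])
  rcases (Nat.dvd_prime hp).mp hdvd with h | h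
  · exfalso
    haveI := hfin
    have := Finite.one_lt_card_iff_nontrivial.mpr hnt
    omega
  · exact h

/-- **Dévissage from the two inequalities**: for every Galois extension `L/K` of number fields of
`p`-power degree unramified outside `T ∋ p`: `H¹(Gal(L/K), C_T(L)) = 0`, and `H²(Gal(L/K), C_T(L))`
is finite of order dividing `[L : K]`. -/
theorem devissage_of_inequalities (p : ℕ) (hp : p.Prime) (T : Finset Nat.Primes)
    (hpT : ∃ q ∈ T, (q : ℕ) = p) (h90 : Hilbert90C p) (hNI : NormIndexC p)
    (hdesc : TowerDescentAll T)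
    (K L : Type) [Field K] [Field L] [NumberField K] [NumberField L] [Algebra K L]
    [IsGalois K L] (hdeg : ∃ n : ℕ, Module.finrank K L = p ^ n)
    (hun : IsUnramifiedOutside T K L) :
    Subsingleton (H1 (repCT T K L)) ∧ Finite (H2 (repCT T K L)) ∧
      Nat.card (H2 (repCT T K L)) ∣ Module.finrank K L :=
  devissage' p hp T (cyclicBase_of_inequalities p hp T hpT h90 hNI) hdesc K L hdeg hun

end fields

end Fermat.Agent.PT.GLOB.CyclicBase19
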