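/-
Program F (S55, Poitou–Tate), chapter GLOB — helper6.

Complements to `ClassAction23` (the canonical (A1) file; this file uses ITS `instActionCT`):

* `toCT_eq_one_iff`, `toCT_eq_iff`, `toCT_surjective`;
* `diagI_injective`, `diagJ_injective` (for `T ≠ ∅`);
* `exists_fixed_mul_diagJ` (**Hilbert 90 descent**: a `T`-idele whose class is Galois-invariant is an
  invariant `T`-idele times a principal one), `exists_fixed_lift` (`(C_T)^G` is the image of
  `(J_T)^G`), `isFixedClass_iff`, `isFixedClass_iff_toCT`, `mem_principalJ_iff`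
  (unfolding `Interface23.IsFixedClass` / `principalJ`);
* `shortComplexCT` and `shortExact_shortComplexCT`: `0 → Lˣ → J_T(L) → C_T(L) → 0` is short exact in
  `Rep ℤ Gal(L/K)` (morphisms `ClassAction23.diagRep`, `ClassAction23.toCTRep`); general tool
  `shortExact_of_function`.

(`GalIdele6.lean` is an earlier, now superseded, version carrying its own copy of the action on
`CT T L`: do not import it together with `ClassAction23`.)
-/
import Fermat.Agent.PT.GLOB.ClassAction23

set_option autoImplicit false
set_option linter.unusedSectionVars false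

namespace Fermat.Agent.PT.GLOB.FixedClass6

open NumberField IsDedekindDomain CategoryTheory
open scoped TensorProduct nonZeroDivisors Pointwise
open Fermat.Agent.PT.GLOB.Interface23 Fermat.Agent.PT.GLOB.ClassAction23

section Basic

variable (T : Finset Nat.Primes)
variable (L : Type*) [Field L] [NumberField L]

theorem toCT_eq_one_iff (j : JT T L) : toCT T L j = 1 ↔ j ∈ (diagJ T L).range :=
  QuotientGroup.eq_one_iff j

theorem toCT_surjective : Function.Surjective (toCT T L) := QuotientGroup.mk'_surjective _

theorem toCT_eq_iff (j j' : JT T L) : toCT T L j = toCT T L j' ↔ j / j' ∈ (diagJ T L).range := by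
  rw [← toCT_eq_one_iff, map_div, div_eq_one]

theorem includeLeft_loc_injective (q : Nat.Primes) :
    Function.Injective (fun x : L => (x ⊗ₜ[ℚ] (1 : ℚ_[(q : ℕ)]) : Loc L q)) :=
  Algebra.TensorProduct.includeLeft_injective (R := ℚ) (S := ℚ) (A := L) (B := ℚ_[(q : ℕ)])
    (algebraMap ℚ ℚ_[(q : ℕ)]).injective

/-- For `T ≠ ∅` the diagonal embedding `Lˣ → IT T L` is injective. -/
theorem diagI_injective (hT : T.Nonempty) : Function.Injective (diagI T L) := by
  obtain ⟨q, hq⟩ := hT
  intro x y hxy
  have h := congrFun hxy ⟨q, hq⟩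
  have h' : ((x : L) ⊗ₜ[ℚ] (1 : ℚ_[(q : ℕ)]) : Loc L q) = (y : L) ⊗ₜ[ℚ] 1 :=
    congrArg Units.val h
  exact Units.ext (includeLeft_loc_injective L q h')

/-- For `T ≠ ∅` the diagonal embedding `Lˣ → JT T L` is injective. -/
theorem diagJ_injective (hT : T.Nonempty) : Function.Injective (diagJ T L) := by
  intro x y hxy
  exact diagI_injective T L hT (congrArg Prod.fst hxy)

end Basic

section Fixed

variable (T : Finset Nat.Primes)
variable (K L : Type*) [Field K] [Field L] [NumberField K] [NumberField L] [Algebra K L]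

/-- **Hilbert 90 descent on `T`-ideles.**  If the class of `j` is Galois-invariant
(i.e. `σ • j / j` is principal for all `σ`), then `j` is principal times a Galois-invariant
`T`-idele.  (`T ≠ ∅` is needed for `Lˣ → JT T L` to be injective.) -/
theorem exists_fixed_mul_diagJ (hT : T.Nonempty) (j : JT T L)
    (hj : ∀ σ : L ≃ₐ[K] L, σ • j / j ∈ (diagJ T L).range) :
    ∃ (j' : JT T L) (y : Lˣ), (∀ σ : L ≃ₐ[K] L, σ • j' = j') ∧ j = j' * diagJ T L y := by
  choose x hx using hj
  have hcoc : groupCohomology.IsMulCocycle₁ x := by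
    intro σ τ
    apply diagJ_injective T L hT
    rw [map_mul, diagJ_smul, hx, hx, hx, mul_smul, smul_div']
    rw [div_mul_div_cancel]
  obtain ⟨y, hy⟩ := groupCohomology.isMulCoboundary₁_of_isMulCocycle₁_of_aut_to_units x hcoc
  refine ⟨j / diagJ T L y, y, fun σ => ?_, (div_mul_cancel _ _).symm⟩
  have h1 : σ • j = j * diagJ T L (x σ) := by rw [hx, mul_div_cancel]
  have h2 : σ • y = y * x σ := by
    rw [← hy σ, mul_div_cancel]
    rfl
  rw [smul_div', ← diagJ_smul, h1, h2, map_mul, mul_div_mul_right_eq_div]

/-- **`(C_T)^G` is the image of `(J_T)^G`** (for `T ≠ ∅`). -/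
theorem exists_fixed_lift (hT : T.Nonempty) (c : CT T L) (hc : ∀ σ : L ≃ₐ[K] L, σ • c = c) :
    ∃ j : JT T L, (∀ σ : L ≃ₐ[K] L, σ • j = j) ∧ toCT T L j = c := by
  obtain ⟨j, rfl⟩ := toCT_surjective T L c
  have hj : ∀ σ : L ≃ₐ[K] L, σ • j / j ∈ (diagJ T L).range := by
    intro σ
    rw [← toCT_eq_iff, ← smul_toCT, hc σ]
  obtain ⟨j', y, hj', rfl⟩ := exists_fixed_mul_diagJ T K L hT j hj
  refine ⟨j', hj', ?_⟩
  symm
  rw [toCT_eq_iff, mul_div_cancel_left]
  exact ⟨y, rfl⟩

end Fixed

section ShortExactGeneral

universe w u v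

/-- A short complex of representations is short exact as soon as it is so on underlying
functions.  (Stated for a general coefficient ring: for the literal ring `ℤ` the functor
`forget₂ (Rep ℤ G) (ModuleCat ℤ)` does not elaborate directly.) -/
theorem shortExact_of_function {k : Type u} {G : Type v} [CommRing k] [Group G]
    (S : ShortComplex (Rep.{w} k G)) (hinj : Function.Injective S.f.hom)
    (hsurj : Function.Surjective S.g.hom)
    (hex : ∀ x, S.g.hom x = 0 → ∃ y, S.f.hom y = x) : S.ShortExact where
  exact := by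
    have h := ShortComplex.exact_map_iff_of_faithful S
      (forget₂ (Rep.{w} k G) (ModuleCat.{w} k))
    rw [← h, ShortComplex.moduleCat_exact_iff]
    intro j hj
    exact hex j hj
  mono_f := (Rep.mono_iff_injective _).2 hinj
  epi_g := (Rep.epi_iff_surjective _).2 hsurj

end ShortExactGeneral

section Reps

variable (T : Finset Nat.Primes)
variable (K L : Type) [Field K] [Field L] [NumberField K] [NumberField L] [Algebra K L]

theorem diagRep_apply (x : Additive Lˣ) :
    (diagRep T K L).hom x = Additive.ofMul (diagJ T L x.toMul) := rfl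

theorem toCTRep_apply (j : Additive (JT T L)) :
    (toCTRep T K L).hom j = Additive.ofMul (toCT T L j.toMul) := rfl

theorem diagRep_comp_toCTRep : diagRep T K L ≫ toCTRep T K L = 0 := by
  apply Rep.hom_ext
  apply Representation.IntertwiningMap.ext
  apply LinearMap.ext
  intro x
  change Additive.ofMul (toCT T L (diagJ T L x.toMul)) = 0
  exact congrArg Additive.ofMul ((toCT_eq_one_iff T L _).2 ⟨_, rfl⟩)

theorem diagRep_injective (hT : T.Nonempty) : Function.Injective (diagRep T K L).hom := by
  intro x y hxy
  exact congrArg Additive.ofMul (diagJ_injective T L hT (congrArg Additive.toMul hxy))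

theorem toCTRep_surjective : Function.Surjective (toCTRep T K L).hom := by
  intro c
  obtain ⟨j, hj⟩ := toCT_surjective T L c.toMul
  exact ⟨Additive.ofMul j, congrArg Additive.ofMul hj⟩

theorem toCTRep_eq_zero_iff (j : Additive (JT T L)) :
    (toCTRep T K L).hom j = 0 ↔ ∃ x, (diagRep T K L).hom x = j := by
  constructor
  · intro h
    obtain ⟨x, hx⟩ := (toCT_eq_one_iff T L j.toMul).1 (congrArg Additive.toMul h)
    exact ⟨Additive.ofMul x, congrArg Additive.ofMul hx⟩
  · rintro ⟨x, rfl⟩
    exact congrArg Additive.ofMul ((toCT_eq_one_iff T L _).2 ⟨x.toMul, rfl⟩)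

/-- The short complex `Lˣ → J_T(L) → C_T(L)` of representations of `Gal(L/K)`. -/
noncomputable def shortComplexCT : ShortComplex (Rep ℤ (L ≃ₐ[K] L)) :=
  ShortComplex.mk (diagRep T K L) (toCTRep T K L) (diagRep_comp_toCTRep T K L)

/-- `0 → Lˣ → J_T(L) → C_T(L) → 0` is a short exact sequence of representations (`T ≠ ∅`). -/
theorem shortExact_shortComplexCT (hT : T.Nonempty) : (shortComplexCT T K L).ShortExact :=
  shortExact_of_function (shortComplexCT T K L) (diagRep_injective T K L hT)
    (toCTRep_surjective T K L) (fun j hj => (toCTRep_eq_zero_iff T K L j).1 hj)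

end Reps

section FixedClass

variable (T : Finset Nat.Primes)
variable (K L : Type) [Field K] [Field L] [NumberField K] [NumberField L] [Algebra K L]
  [IsGalois K L]

/-- `Interface23.IsFixedClass` unfolded through Hilbert 90: the class of `j` is Galois-invariant iff
`j` is an invariant `T`-idele times a principal one (`T ≠ ∅`). -/
theorem isFixedClass_iff (hT : T.Nonempty) (j : JT T L) :
    IsFixedClass T K L j ↔
      ∃ (j' : JT T L) (y : Lˣ), (∀ σ : L ≃ₐ[K] L, σ • j' = j') ∧ j = j' * diagJ T L y := by
  constructor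
  · intro h
    exact exists_fixed_mul_diagJ T K L hT j h
  · rintro ⟨j', y, hj', rfl⟩ σ
    refine ⟨σ • y / y, ?_⟩
    rw [map_div, diagJ_smul, smul_mul', hj' σ, mul_div_mul_left_eq_div]

theorem isFixedClass_iff_toCT (j : JT T L) :
    IsFixedClass T K L j ↔ ∀ σ : L ≃ₐ[K] L, σ • toCT T L j = toCT T L j := by
  constructor
  · intro h σ
    rw [smul_toCT, toCT_eq_iff]
    exact h σ
  · intro h σ
    have := h σ
    rw [smul_toCT, toCT_eq_iff] at this
    exact this

theorem mem_principalJ_iff (j : JT T L) : j ∈ principalJ T L ↔ toCT T L j = 1 :=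
  (toCT_eq_one_iff T L j).symm

end FixedClass

end Fermat.Agent.PT.GLOB.FixedClass6
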