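/-
Program F (S55), chapter GLOB, inequalities (helper5).

`RayUnfold5`: the analytic unfolding for ray classes, on top of `CFT/ClassZeta`.

* `hasSum_J0_mul`, `hasSum_J_mul` : the unfolding of `CFT/ClassZeta` with a coefficient function on
  the principal ideals divisible by `J`.
* `resEquiv` : `J ≃ (𝓞 K ⧸ m) × (J * m)` for `J` prime to `m`.
* `exists_residue_sum_bound` : for a coefficient function `c` of the residue mod `m` with values in
  `[0,1]`, the sum of `c (a mod m) W(a)` over `a ∈ J` is `(∑ c) * ∑_{γ ∈ J m} W(γ) + O(1)`,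
  uniformly in `c` and `s ∈ (1,2]`.
-/
import Mathlib
import Fermat.Agent.CFT.ClassZeta

set_option autoImplicit false
set_option linter.unusedSectionVars false
set_option linter.style.haveILetI false

open NumberField NumberField.mixedEmbedding Module nonZeroDivisors
open Fermat.Agent.CFT.ClassZeta

namespace Fermat.Agent.PT.GLOB.RayUnfold5

variable {K : Type*} [Field K] [NumberField K]

/-- **Unfolding with coefficients** over the nonzero elements of `J`. -/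
theorem hasSum_J0_mul (U : WeightData K) {s : ℝ} (hs : 1 < s) (J : Ideal (𝓞 K))
    (c : PJ J → ℝ) (hc0 : ∀ t, 0 ≤ c t) (hc1 : ∀ t, c t ≤ 1)
    (hS : Summable fun t : PJ J => (Ideal.absNorm t.1 : ℝ) ^ (-s)) :
    HasSum (fun a : J0 J => c (toPJ J a) * U.F s a.1)
      (∑' t : PJ J, c t * (Ideal.absNorm t.1 : ℝ) ^ (-s)) := by
  let Gf : (Σ t : PJ J, {a : J0 J // toPJ J a = t}) → ℝ := fun p => c p.1 * U.F s p.2.1.1
  have hfib : ∀ t : PJ J, HasSum (fun a : {a : J0 J // toPJ J a = t} => c t * U.F s a.1.1)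
      (c t * (Ideal.absNorm t.1 : ℝ) ^ (-s)) := fun t => (hasSum_fiber U hs t).mul_left (c t)
  have hS' : Summable fun t : PJ J => c t * (Ideal.absNorm t.1 : ℝ) ^ (-s) := by
    refine Summable.of_nonneg_of_le (fun t => mul_nonneg (hc0 t) (by positivity)) (fun t => ?_) hS
    calc c t * (Ideal.absNorm t.1 : ℝ) ^ (-s) ≤ 1 * (Ideal.absNorm t.1 : ℝ) ^ (-s) :=
          mul_le_mul_of_nonneg_right (hc1 t) (by positivity)
      _ = _ := one_mul _
  have hG : Summable Gf := by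
    refine (summable_sigma_of_nonneg (fun p => mul_nonneg (hc0 _) (U.F_nonneg _ _))).mpr
      ⟨fun t => (hfib t).summable, ?_⟩
    refine hS'.congr (fun t => ?_)
    exact ((hfib t).tsum_eq).symm
  have h2 : HasSum Gf (∑' t : PJ J, c t * (Ideal.absNorm t.1 : ℝ) ^ (-s)) :=
    HasSum.sigma_of_hasSum hS'.hasSum (fun t => hfib t) hG
  have h3 : (fun a : J0 J => c (toPJ J a) * U.F s a.1) ∘ (Equiv.sigmaFiberEquiv (toPJ J)) = Gf := by
    funext p
    obtain ⟨t, a, ha⟩ := p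
    show c (toPJ J a) * U.F s a.1 = c t * U.F s a.1
    rw [ha]
  rw [← (Equiv.sigmaFiberEquiv (toPJ J)).hasSum_iff, h3]
  exact h2

/-- **Unfolding with coefficients** over all elements of `J`; the coefficient is given as a function
`c'` on elements. -/
theorem hasSum_J_mul (U : WeightData K) {s : ℝ} (hs : 1 < s) (J : Ideal (𝓞 K))
    (c : PJ J → ℝ) (hc0 : ∀ t, 0 ≤ c t) (hc1 : ∀ t, c t ≤ 1) (c' : 𝓞 K → ℝ)
    (hcc' : ∀ a : J0 J, c (toPJ J a) = c' a.1)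
    (hS : Summable fun t : PJ J => (Ideal.absNorm t.1 : ℝ) ^ (-s)) :
    HasSum (fun a : J => c' a.1 * U.F s a.1)
      (∑' t : PJ J, c t * (Ideal.absNorm t.1 : ℝ) ^ (-s)) := by
  let g : J0 J → J := fun a => ⟨a.1, a.2.1⟩
  have hg : Function.Injective g := by
    intro a b h
    exact Subtype.ext (congrArg (fun x : J => x.1) h)
  have h1 := hasSum_J0_mul U hs J c hc0 hc1 hS
  have h2 : (fun a : J0 J => c (toPJ J a) * U.F s a.1) =
      (fun a : J => c' a.1 * U.F s a.1) ∘ g := by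
    funext a
    show c (toPJ J a) * U.F s a.1 = c' a.1 * U.F s a.1
    rw [hcc' a]
  rw [h2] at h1
  refine (hg.hasSum_iff ?_).mp h1
  intro x hx
  have : x.1 = 0 := by
    by_contra h0
    exact hx ⟨⟨x.1, x.2, h0⟩, rfl⟩
  rw [this, U.F_zero hs, mul_zero]

/-! ### Decomposition of `J` along the residues mod `m` -/

section Residue

variable (J m : Ideal (𝓞 K))

theorem sub_rep_mem (hJm : J ⊔ m = ⊤) (r : 𝓞 K ⧸ m → 𝓞 K)
    (hr : ∀ q, r q ∈ J ∧ Ideal.Quotient.mk m (r q) = q) {a : 𝓞 K} (ha : a ∈ J) :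
    a - r (Ideal.Quotient.mk m a) ∈ J * m := by
  have h1 : a - r (Ideal.Quotient.mk m a) ∈ J := J.sub_mem ha (hr _).1
  have h2 : a - r (Ideal.Quotient.mk m a) ∈ m := by
    rw [← Ideal.Quotient.eq, (hr _).2]
  have h3 : J ⊓ m = J * m :=
    (Ideal.mul_eq_inf_of_isCoprime ((Ideal.isCoprime_iff_sup_eq).mpr hJm)).symm
  rw [← h3]
  exact ⟨h1, h2⟩

theorem mul_le_fst {γ : 𝓞 K} (hγ : γ ∈ J * m) : γ ∈ J := by
  have hle : J * m ≤ J := Ideal.mul_le_left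
  exact hle hγ

theorem mk_rep_add (r : 𝓞 K ⧸ m → 𝓞 K)
    (hr : ∀ q, r q ∈ J ∧ Ideal.Quotient.mk m (r q) = q) (q : 𝓞 K ⧸ m) {γ : 𝓞 K}
    (hγ : γ ∈ J * m) : Ideal.Quotient.mk m (r q + γ) = q := by
  have hle : J * m ≤ m := Ideal.mul_le_right
  have hγm : γ ∈ m := hle hγ
  rw [map_add, (hr q).2, Ideal.Quotient.eq_zero_iff_mem.mpr hγm, add_zero]

/-- `J ≃ (𝓞 K ⧸ m) × (J * m)` for `J` prime to `m`, given representatives `r q ∈ J` of the
residues `q`. -/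
noncomputable def resEquiv (hJm : J ⊔ m = ⊤) (r : 𝓞 K ⧸ m → 𝓞 K)
    (hr : ∀ q, r q ∈ J ∧ Ideal.Quotient.mk m (r q) = q) :
    (𝓞 K ⧸ m) × (J * m : Ideal (𝓞 K)) ≃ J where
  toFun p := ⟨r p.1 + p.2.1, J.add_mem (hr p.1).1 (mul_le_fst J m p.2.2)⟩
  invFun a := (Ideal.Quotient.mk m a.1,
    ⟨a.1 - r (Ideal.Quotient.mk m a.1), sub_rep_mem J m hJm r hr a.2⟩)
  left_inv p := by
    obtain ⟨q, γ, hγ⟩ := p
    have h2 := mk_rep_add J m r hr q hγ
    refine Prod.ext h2 (Subtype.ext ?_)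
    show r q + γ - r (Ideal.Quotient.mk m (r q + γ)) = γ
    rw [h2]; ring
  right_inv a := by
    apply Subtype.ext
    show r (Ideal.Quotient.mk m a.1) + (a.1 - r (Ideal.Quotient.mk m a.1)) = a.1
    ring

theorem resEquiv_apply (hJm : J ⊔ m = ⊤) (r : 𝓞 K ⧸ m → 𝓞 K)
    (hr : ∀ q, r q ∈ J ∧ Ideal.Quotient.mk m (r q) = q)
    (p : (𝓞 K ⧸ m) × (J * m : Ideal (𝓞 K))) :
    ((resEquiv J m hJm r hr p : J) : 𝓞 K) = r p.1 + p.2.1 := rfl

theorem mk_resEquiv (hJm : J ⊔ m = ⊤) (r : 𝓞 K ⧸ m → 𝓞 K)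
    (hr : ∀ q, r q ∈ J ∧ Ideal.Quotient.mk m (r q) = q)
    (p : (𝓞 K ⧸ m) × (J * m : Ideal (𝓞 K))) :
    Ideal.Quotient.mk m ((resEquiv J m hJm r hr p : J) : 𝓞 K) = p.1 := by
  rw [resEquiv_apply]
  exact mk_rep_add J m r hr p.1 p.2.2

theorem exists_rep (hJm : J ⊔ m = ⊤) :
    ∃ r : 𝓞 K ⧸ m → 𝓞 K, ∀ q, r q ∈ J ∧ Ideal.Quotient.mk m (r q) = q := by
  have h : ∀ q : 𝓞 K ⧸ m, ∃ x : 𝓞 K, x ∈ J ∧ Ideal.Quotient.mk m x = q := by
    intro q
    obtain ⟨a, rfl⟩ := Ideal.Quotient.mk_surjective q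
    have h1 : a ∈ J ⊔ m := by rw [hJm]; exact Submodule.mem_top
    obtain ⟨x, hx, y, hy, hxy⟩ := Submodule.mem_sup.mp h1
    refine ⟨x, hx, ?_⟩
    rw [Ideal.Quotient.eq]
    have : x - a = -y := by rw [← hxy]; ring
    rw [this]; exact neg_mem hy
  choose r hr using h
  exact ⟨r, hr⟩

end Residue

open scoped Classical in
/-- **Residue sums**: for `J` prime to `m ≠ ⊥`, and a coefficient function `c` of the residue mod
`m` with values in `[0,1]`, the sum of `c (a mod m) * W(a)` over `a ∈ J` is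
`(∑_q c q) * ∑_{γ ∈ J m} W(γ)` up to a bounded error, uniformly in `c` and `s ∈ (1,2]`. -/
theorem exists_residue_sum_bound (U : WeightData K) (J m : Ideal (𝓞 K)) [Fintype (𝓞 K ⧸ m)]
    (hJm : J ⊔ m = ⊤) :
    ∃ B : ℝ, ∀ s ∈ Set.Ioc (1:ℝ) 2, ∀ c : 𝓞 K ⧸ m → ℝ, (∀ q, 0 ≤ c q) → (∀ q, c q ≤ 1) →
      Summable (fun γ : (J * m : Ideal (𝓞 K)) => U.F s γ.1) →
      ∀ V : ℝ, HasSum (fun a : J => c (Ideal.Quotient.mk m a.1) * U.F s a.1) V →
      |V - (∑ q, c q) * ∑' γ : (J * m : Ideal (𝓞 K)), U.F s γ.1| ≤ B := by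
  obtain ⟨r, hr⟩ := exists_rep J m hJm
  set d : ℝ := ∑ q : 𝓞 K ⧸ m, ‖mixedEmbedding K ((r q : 𝓞 K) : K)‖ with hd
  obtain ⟨C, hC⟩ := U.lip d
  refine ⟨(Fintype.card (𝓞 K ⧸ m) : ℝ) * (C * majT K), ?_⟩
  intro s hs c hc0 hc1 hsum V hV
  have hs' : s ∈ Set.Icc (1:ℝ) 2 := ⟨hs.1.le, hs.2⟩
  have hq : ∀ q : 𝓞 K ⧸ m, ‖mixedEmbedding K ((r q : 𝓞 K) : K)‖ ≤ d := by
    intro q
    rw [hd]
    exact Finset.single_le_sum (f := fun q : 𝓞 K ⧸ m => ‖mixedEmbedding K ((r q : 𝓞 K) : K)‖)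
      (fun _ _ => norm_nonneg _) (Finset.mem_univ q)
  have hsh := fun q : 𝓞 K ⧸ m => shift_bound U (J * m) hs' hC (r q) (hq q) hsum
  have hCM : 0 ≤ C * majT K := by
    have := (hsh 0).2
    exact (abs_nonneg _).trans this
  -- transport along `resEquiv`
  let e := resEquiv J m hJm r hr
  have hV' : HasSum (fun p : (𝓞 K ⧸ m) × (J * m : Ideal (𝓞 K)) =>
      c p.1 * U.F s (r p.1 + p.2.1)) V := by
    have h1 := (e.hasSum_iff).mpr hV
    refine h1.congr_fun (fun p => ?_)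
    show c p.1 * U.F s (r p.1 + p.2.1) =
      c (Ideal.Quotient.mk m ((e p : J) : 𝓞 K)) * U.F s ((e p : J) : 𝓞 K)
    rw [mk_resEquiv, resEquiv_apply]
  have hVeq : V = ∑ q : 𝓞 K ⧸ m, c q * ∑' γ : (J * m : Ideal (𝓞 K)), U.F s (r q + γ.1) := by
    rw [← hV'.tsum_eq, hV'.summable.tsum_prod, tsum_fintype]
    refine Finset.sum_congr rfl (fun q _ => ?_)
    show ∑' γ : (J * m : Ideal (𝓞 K)), c q * U.F s (r q + γ.1) = _
    rw [tsum_mul_left]
  have hrw : V - (∑ q, c q) * ∑' γ : (J * m : Ideal (𝓞 K)), U.F s γ.1 =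
      ∑ q : 𝓞 K ⧸ m, (c q * ∑' γ : (J * m : Ideal (𝓞 K)), U.F s (r q + γ.1) -
        c q * ∑' γ : (J * m : Ideal (𝓞 K)), U.F s γ.1) := by
    rw [hVeq, Finset.sum_mul, Finset.sum_sub_distrib]
  rw [hrw]
  calc |∑ q : 𝓞 K ⧸ m, (c q * ∑' γ : (J * m : Ideal (𝓞 K)), U.F s (r q + γ.1) -
        c q * ∑' γ : (J * m : Ideal (𝓞 K)), U.F s γ.1)|
      ≤ ∑ q : 𝓞 K ⧸ m, |c q * ∑' γ : (J * m : Ideal (𝓞 K)), U.F s (r q + γ.1) -
        c q * ∑' γ : (J * m : Ideal (𝓞 K)), U.F s γ.1| := Finset.abs_sum_le_sum_abs _ _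
    _ ≤ ∑ _q : 𝓞 K ⧸ m, C * majT K := by
        refine Finset.sum_le_sum (fun q _ => ?_)
        rw [← mul_sub, abs_mul, abs_of_nonneg (hc0 q)]
        calc c q * |∑' γ : (J * m : Ideal (𝓞 K)), U.F s (r q + γ.1) -
              ∑' γ : (J * m : Ideal (𝓞 K)), U.F s γ.1|
            ≤ 1 * (C * majT K) := mul_le_mul (hc1 q) (hsh q).2 (abs_nonneg _) zero_le_one
          _ = C * majT K := one_mul _
    _ = _ := by rw [Finset.sum_const, nsmul_eq_mul, Finset.card_univ]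

end Fermat.Agent.PT.GLOB.RayUnfold5
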