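/-
Program F (S55), chapter GLOB, inequalities (helper5).

`RayPiece5`: the partial zeta function of the ideals prime to `m` in an ideal class `C` on which a
ray-class hom `φ` takes the value `g` is `k(C,g) * N(m)^(-s) * ζ(s, 1) + O(1)` on `(1,2]`,
where `k(C,g)` counts the residues `q` mod `m` with `θ(q) = g φ(J)` (`J` the auxiliary ideal in
the class `C⁻¹`).
-/
import Mathlib
import Fermat.Agent.CFT.ClassZeta
import Fermat.Agent.PT.GLOB.RayAlg5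
import Fermat.Agent.PT.GLOB.RayUnfold5

set_option autoImplicit false
set_option linter.unusedSectionVars false
set_option linter.style.haveILetI false

open NumberField NumberField.mixedEmbedding Module nonZeroDivisors
open Fermat.Agent.CFT.ClassZeta Fermat.Agent.CFT.C1ClassDefs Fermat.Agent.CFT.ZetaRBounds
open Fermat.Agent.PT.GLOB.RayAlg5 Fermat.Agent.PT.GLOB.RayUnfold5

namespace Fermat.Agent.PT.GLOB.RayPiece5

variable {K : Type*} [Field K] [NumberField K]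
variable {G : Type*} [CommGroup G]

open scoped Classical in
/-- partial zeta function: ideals in the class `C`, prime to `m`, with `φ = g` -/
noncomputable def rayZeta (φ : (Ideal (𝓞 K))⁰ →* G) (m : Ideal (𝓞 K)) (C : ClassGroup (𝓞 K))
    (g : G) (s : ℝ) : ℝ :=
  ∑' I : {I : (Ideal (𝓞 K))⁰ // ClassGroup.mk0 I = C},
    if ((I.1 : Ideal (𝓞 K)) ⊔ m = ⊤ ∧ φ I.1 = g) then
      (Ideal.absNorm (I.1 : Ideal (𝓞 K)) : ℝ) ^ (-s) else 0

/-- a principal ideal divisible by `J`, as a nonzero ideal -/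
def PJ.toNZD {J : Ideal (𝓞 K)} (t : PJ J) : (Ideal (𝓞 K))⁰ :=
  ⟨t.1, mem_nonZeroDivisors_of_ne_zero t.2.1⟩

open scoped Classical in
/-- the coefficient on principal ideals divisible by `J` -/
noncomputable def cofPJ (φ : (Ideal (𝓞 K))⁰ →* G) (m : Ideal (𝓞 K)) (J : Ideal (𝓞 K)) (h : G)
    (t : PJ J) : ℝ :=
  if (t.1 ⊔ m = ⊤ ∧ φ (PJ.toNZD t) = h) then 1 else 0

open scoped Classical in
/-- the coefficient on residues -/
noncomputable def cofRes (φ : (Ideal (𝓞 K))⁰ →* G) (m : Ideal (𝓞 K)) (hm : m ≠ ⊥) (h : G)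
    (q : 𝓞 K ⧸ m) : ℝ :=
  if (IsUnit q ∧ thetaFun φ m hm q = h) then 1 else 0

theorem cofPJ_nonneg (φ : (Ideal (𝓞 K))⁰ →* G) (m J : Ideal (𝓞 K)) (h : G) (t : PJ J) :
    0 ≤ cofPJ φ m J h t := by
  unfold cofPJ; split_ifs <;> norm_num

theorem cofPJ_le_one (φ : (Ideal (𝓞 K))⁰ →* G) (m J : Ideal (𝓞 K)) (h : G) (t : PJ J) :
    cofPJ φ m J h t ≤ 1 := by
  unfold cofPJ; split_ifs <;> norm_num

theorem cofRes_nonneg (φ : (Ideal (𝓞 K))⁰ →* G) (m : Ideal (𝓞 K)) (hm : m ≠ ⊥) (h : G)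
    (q : 𝓞 K ⧸ m) : 0 ≤ cofRes φ m hm h q := by
  unfold cofRes; split_ifs <;> norm_num

theorem cofRes_le_one (φ : (Ideal (𝓞 K))⁰ →* G) (m : Ideal (𝓞 K)) (hm : m ≠ ⊥) (h : G)
    (q : 𝓞 K ⧸ m) : cofRes φ m hm h q ≤ 1 := by
  unfold cofRes; split_ifs <;> norm_num

/-- the two coefficients agree -/
theorem cofPJ_toPJ {φ : (Ideal (𝓞 K))⁰ →* G} {m : Ideal (𝓞 K)} (hφ : IsRay φ m) (hm : m ≠ ⊥)
    (J : Ideal (𝓞 K)) (h : G) (a : J0 J) :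
    cofPJ φ m J h (toPJ J a) = cofRes φ m hm h (Ideal.Quotient.mk m a.1) := by
  classical
  have ha0 : a.1 ≠ 0 := a.2.2
  have h1 : (toPJ J a).1 = Ideal.span {a.1} := rfl
  have h2 : PJ.toNZD (toPJ J a) = spanI a.1 ha0 := Subtype.ext rfl
  unfold cofPJ cofRes
  rw [h1, h2]
  refine if_congr ?_ rfl rfl
  rw [← isUnit_mk_iff m]
  refine and_congr_right (fun hu => ?_)
  rw [← pphi_eq_thetaFun hφ hm ha0 hu, pphi_of_ne φ ha0]

variable (φ : (Ideal (𝓞 K))⁰ →* G) (m : Ideal (𝓞 K))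

/-- **Step (b)**: transport along `I ↦ J * I`. -/
theorem rayZeta_eq (J : (Ideal (𝓞 K))⁰) (hJm : (J : Ideal (𝓞 K)) ⊔ m = ⊤)
    (C : ClassGroup (𝓞 K)) (hJ : ClassGroup.mk0 J = C⁻¹) (g : G) (s : ℝ) :
    rayZeta φ m C g s = (Ideal.absNorm (J : Ideal (𝓞 K)) : ℝ) ^ s *
      ∑' t : PJ (J : Ideal (𝓞 K)), cofPJ φ m (J : Ideal (𝓞 K)) (g * φ J) t *
        (Ideal.absNorm t.1 : ℝ) ^ (-s) := by
  classical
  rw [rayZeta, ← tsum_mul_left, ← (Equiv.ofBijective _ (mulJ_bijective J C hJ)).tsum_eq]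
  refine tsum_congr (fun I => ?_)
  have hN : (0:ℝ) < (Ideal.absNorm (J : Ideal (𝓞 K)) : ℝ) := by
    have := absNorm_one_le J
    linarith
  have h1 : ((Equiv.ofBijective _ (mulJ_bijective J C hJ)) I).1 =
      (J : Ideal (𝓞 K)) * (I.1 : Ideal (𝓞 K)) := rfl
  have h2 : PJ.toNZD ((Equiv.ofBijective _ (mulJ_bijective J C hJ)) I) = J * I.1 :=
    Subtype.ext rfl
  have h3 : ((J : Ideal (𝓞 K)) * (I.1 : Ideal (𝓞 K)) ⊔ m = ⊤) ↔
      ((I.1 : Ideal (𝓞 K)) ⊔ m = ⊤) :=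
    ⟨fun h => Fermat.Agent.CFT.CoprimeRep.sup_eq_top_of_mul' h,
      fun h => Fermat.Agent.CFT.CoprimeRep.mul_sup_eq_top hJm h⟩
  have h4 : φ (J * I.1) = g * φ J ↔ φ I.1 = g := by
    rw [map_mul, mul_comm (φ J)]
    exact mul_left_inj _
  have h5 : cofPJ φ m (J : Ideal (𝓞 K)) (g * φ J) ((Equiv.ofBijective _ (mulJ_bijective J C hJ)) I) =
      if ((I.1 : Ideal (𝓞 K)) ⊔ m = ⊤ ∧ φ I.1 = g) then 1 else 0 := by
    unfold cofPJ
    rw [h1, h2]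
    exact if_congr (and_congr h3 h4) rfl rfl
  rw [h5, h1]
  by_cases hc : ((I.1 : Ideal (𝓞 K)) ⊔ m = ⊤ ∧ φ I.1 = g)
  · rw [if_pos hc, if_pos hc, one_mul, map_mul, Nat.cast_mul,
      Real.mul_rpow (Nat.cast_nonneg _) (Nat.cast_nonneg _), ← mul_assoc,
      ← Real.rpow_add hN, add_neg_cancel, Real.rpow_zero, one_mul]
  · rw [if_neg hc, if_neg hc, zero_mul, mul_zero]

/-- the number of residues `q` mod `m` (units) with `θ q = h`, as a real number -/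
noncomputable def kcount (hm : m ≠ ⊥) [Fintype (𝓞 K ⧸ m)] (h : G) : ℝ :=
  ∑ q : 𝓞 K ⧸ m, cofRes φ m hm h q

theorem kcount_nonneg (hm : m ≠ ⊥) [Fintype (𝓞 K ⧸ m)] (h : G) : 0 ≤ kcount φ m hm h :=
  Finset.sum_nonneg (fun q _ => cofRes_nonneg φ m hm h q)

theorem kcount_le (hm : m ≠ ⊥) [Fintype (𝓞 K ⧸ m)] (h : G) :
    kcount φ m hm h ≤ Fintype.card (𝓞 K ⧸ m) := by
  unfold kcount
  calc ∑ q : 𝓞 K ⧸ m, cofRes φ m hm h q ≤ ∑ _q : 𝓞 K ⧸ m, (1:ℝ) :=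
        Finset.sum_le_sum (fun q _ => cofRes_le_one φ m hm h q)
    _ = _ := by simp

/-- the main term -/
noncomputable def kappa (K : Type*) [Field K] [NumberField K] (m : Ideal (𝓞 K)) (s : ℝ) : ℝ :=
  (Ideal.absNorm m : ℝ) ^ (-s) * classZeta (1 : ClassGroup (𝓞 K)) s

variable {φ m}

open scoped Classical in
/-- **Steps (c)-(f)**: `rayZeta` is `k * N(m)^(-s) * ζ(s, X)` up to `O(1)`, `X` the class of
`(J m)⁻¹`. -/
theorem exists_rayZeta_approx_aux (U : WeightData K) (hφ : IsRay φ m) (hm : m ≠ ⊥)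
    [Fintype (𝓞 K ⧸ m)]
    (hS : ∀ s : ℝ, 1 < s →
      Summable fun I : (Ideal (𝓞 K))⁰ => (Ideal.absNorm (I : Ideal (𝓞 K)) : ℝ) ^ (-s))
    (J : (Ideal (𝓞 K))⁰) (hJm : (J : Ideal (𝓞 K)) ⊔ m = ⊤)
    (C : ClassGroup (𝓞 K)) (hJ : ClassGroup.mk0 J = C⁻¹) :
    ∃ X : ClassGroup (𝓞 K), ∃ B : ℝ, ∀ s ∈ Set.Ioc (1:ℝ) 2, ∀ g : G,
      |rayZeta φ m C g s - kcount φ m hm (g * φ J) *
        ((Ideal.absNorm m : ℝ) ^ (-s) * classZeta X s)| ≤ B := by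
  let m' : (Ideal (𝓞 K))⁰ := ⟨m, mem_nonZeroDivisors_of_ne_zero hm⟩
  let Jm : (Ideal (𝓞 K))⁰ := J * m'
  have hcoe : (Jm : Ideal (𝓞 K)) = (J : Ideal (𝓞 K)) * m := rfl
  obtain ⟨B₁, hB₁⟩ := exists_residue_sum_bound U (J : Ideal (𝓞 K)) m hJm
  set N : ℝ := (Ideal.absNorm (J : Ideal (𝓞 K)) : ℝ) with hN
  have hN1 : 1 ≤ N := absNorm_one_le J
  have hNpos : 0 < N := by linarith
  have hMpos : (0:ℝ) < (Ideal.absNorm m : ℝ) := by
    have := absNorm_one_le m'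
    have h2 : ((m' : (Ideal (𝓞 K))⁰) : Ideal (𝓞 K)) = m := rfl
    rw [h2] at this
    linarith
  refine ⟨(ClassGroup.mk0 Jm)⁻¹, N ^ (2:ℝ) * |B₁|, ?_⟩
  intro s hs g
  have hs1 : 1 < s := hs.1
  set h : G := g * φ J with hh
  have hsumPJ := summable_PJ J C hJ s (hS s hs1)
  have hV := hasSum_J_mul U hs1 (J : Ideal (𝓞 K)) (cofPJ φ m (J : Ideal (𝓞 K)) h)
    (cofPJ_nonneg φ m _ h) (cofPJ_le_one φ m _ h)
    (fun a => cofRes φ m hm h (Ideal.Quotient.mk m a))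
    (cofPJ_toPJ hφ hm (J : Ideal (𝓞 K)) h) hsumPJ
  have hJmsum := hasSum_ideal U hs1 Jm (ClassGroup.mk0 Jm)⁻¹ (by simp) (hS s hs1)
  have hsumc : Summable (fun γ : ((J : Ideal (𝓞 K)) * m : Ideal (𝓞 K)) => U.F s γ.1) :=
    hJmsum.summable
  have hS₀ : ∑' γ : ((J : Ideal (𝓞 K)) * m : Ideal (𝓞 K)), U.F s γ.1 =
      (Ideal.absNorm ((J : Ideal (𝓞 K)) * m) : ℝ) ^ (-s) *
        classZeta (ClassGroup.mk0 Jm)⁻¹ s := hJmsum.tsum_eq
  have hb := hB₁ s hs (cofRes φ m hm h) (cofRes_nonneg φ m hm h) (cofRes_le_one φ m hm h)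
    hsumc _ hV
  rw [rayZeta_eq φ m J hJm C hJ g s]
  set V : ℝ := ∑' t : PJ (J : Ideal (𝓞 K)), cofPJ φ m (J : Ideal (𝓞 K)) h t *
        (Ideal.absNorm t.1 : ℝ) ^ (-s) with hVdef
  have hkey : N ^ s * V - kcount φ m hm h *
      ((Ideal.absNorm m : ℝ) ^ (-s) * classZeta (ClassGroup.mk0 Jm)⁻¹ s) =
      N ^ s * (V - (∑ q, cofRes φ m hm h q) *
        ∑' γ : ((J : Ideal (𝓞 K)) * m : Ideal (𝓞 K)), U.F s γ.1) := by
    have hnm : (Ideal.absNorm ((J : Ideal (𝓞 K)) * m) : ℝ) = N * (Ideal.absNorm m : ℝ) := by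
      rw [map_mul, Nat.cast_mul]
    rw [hS₀, hnm, Real.mul_rpow hNpos.le hMpos.le]
    unfold kcount
    have : N ^ s * N ^ (-s) = 1 := by
      rw [← Real.rpow_add hNpos]; simp
    linear_combination ((∑ q, cofRes φ m hm h q) * (Ideal.absNorm m : ℝ) ^ (-s) *
      classZeta (ClassGroup.mk0 Jm)⁻¹ s) * this
  rw [hkey, abs_mul, abs_of_nonneg (by positivity : (0:ℝ) ≤ N ^ s)]
  have hNs2 : N ^ s ≤ N ^ (2:ℝ) := Real.rpow_le_rpow_of_exponent_le hN1 hs.2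
  exact mul_le_mul hNs2 (hb.trans (le_abs_self _)) (abs_nonneg _) (by positivity)

/-- **Step (g)**: `rayZeta φ m C g s = k(C,g) * κ(s) + O(1)` on `(1,2]`, uniformly in `g`. -/
theorem exists_rayZeta_approx (hφ : IsRay φ m) (hm : m ≠ ⊥) [Fintype (𝓞 K ⧸ m)]
    (J : (Ideal (𝓞 K))⁰) (hJm : (J : Ideal (𝓞 K)) ⊔ m = ⊤)
    (C : ClassGroup (𝓞 K)) (hJ : ClassGroup.mk0 J = C⁻¹) :
    ∃ B : ℝ, ∀ s ∈ Set.Ioc (1:ℝ) 2, ∀ g : G,
      |rayZeta φ m C g s - kcount φ m hm (g * φ J) * kappa K m s| ≤ B := by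
  obtain ⟨X, B, hB⟩ := exists_rayZeta_approx_aux (weightData K) hφ hm
    (fun s hs => summable_zetaR K hs) J hJm C hJ
  obtain ⟨B₂, hB₂⟩ := exists_classZeta_sub_le' K
  refine ⟨B + (Fintype.card (𝓞 K ⧸ m) : ℝ) * B₂, fun s hs g => ?_⟩
  have h1 := hB s hs g
  have h2 := hB₂ s hs X 1
  have hB₂0 : 0 ≤ B₂ := (abs_nonneg _).trans h2
  set k := kcount φ m hm (g * φ J) with hk
  have hk0 : 0 ≤ k := kcount_nonneg φ m hm _
  have hk1 : k ≤ Fintype.card (𝓞 K ⧸ m) := kcount_le φ m hm _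
  have hM1 : (1:ℝ) ≤ (Ideal.absNorm m : ℝ) := by
    have := absNorm_one_le (⟨m, mem_nonZeroDivisors_of_ne_zero hm⟩ : (Ideal (𝓞 K))⁰)
    exact this
  have hMs0 : 0 ≤ (Ideal.absNorm m : ℝ) ^ (-s) := by positivity
  have hMs1 : (Ideal.absNorm m : ℝ) ^ (-s) ≤ 1 :=
    Real.rpow_le_one_of_one_le_of_nonpos hM1 (by linarith [hs.1])
  have hdec : rayZeta φ m C g s - k * kappa K m s =
      (rayZeta φ m C g s - k * ((Ideal.absNorm m : ℝ) ^ (-s) * classZeta X s)) +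
        k * ((Ideal.absNorm m : ℝ) ^ (-s) *
          (classZeta X s - classZeta (1 : ClassGroup (𝓞 K)) s)) := by
    unfold kappa; ring
  rw [hdec]
  refine (abs_add_le _ _).trans (add_le_add h1 ?_)
  rw [abs_mul, abs_mul, abs_of_nonneg hk0, abs_of_nonneg hMs0]
  calc k * ((Ideal.absNorm m : ℝ) ^ (-s) * |classZeta X s - classZeta (1 : ClassGroup (𝓞 K)) s|)
      ≤ (Fintype.card (𝓞 K ⧸ m) : ℝ) * (1 * B₂) := by
        refine mul_le_mul hk1 (mul_le_mul hMs1 h2 (abs_nonneg _) zero_le_one)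
          (mul_nonneg hMs0 (abs_nonneg _)) (by positivity)
    _ = _ := by ring

end Fermat.Agent.PT.GLOB.RayPiece5
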