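/-
Program F (S55), chapter GLOB, inequalities (helper5).

`RayZeta5`: the analytic norm index inequality for ray-class homs (the "universal norm index
inequality", i.e. the analytic proof of the second inequality of class field theory, with
ramification). Generalises `CFT/FirstIneq.norm_index_le` from the class group to homs
`φ : (Ideal (𝓞 K))⁰ →* G` which are trivial on the principal ideals `(a)`, `a ≡ 1 mod m`.

Main results:
* `rayL_bounded`        : input (I2), `L(s, χ ∘ φ)` restricted to ideals prime to `m` is bounded on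
  `(1,2]` for `χ ≠ 1`.
* `classL_bounded_of_ray` : the same for the full `classL K φ χ` (finitely many Euler factors).
* `ray_norm_index_le`   : `Nat.card G ≤ [L : K]` if `φ` moreover kills the degree one primes of
  `L/K` outside a finite set. No Galois or ramification hypothesis on `L/K`.
-/
import Mathlib
import Fermat.Agent.CFT.ClassZeta
import Fermat.Agent.CFT.IdealEuler
import Fermat.Agent.CFT.ClassLEuler
import Fermat.Agent.CFT.FirstIneq
import Fermat.Agent.PT.GLOB.RayAlg5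
import Fermat.Agent.PT.GLOB.RayUnfold5
import Fermat.Agent.PT.GLOB.RayPiece5

set_option autoImplicit false
set_option linter.unusedSectionVars false
set_option linter.style.haveILetI false

open NumberField NumberField.mixedEmbedding Module nonZeroDivisors IsDedekindDomain
open Fermat.Agent.CFT.ClassZeta Fermat.Agent.CFT.C1ClassDefs Fermat.Agent.CFT.ZetaRBounds
open Fermat.Agent.PT.GLOB.RayAlg5 Fermat.Agent.PT.GLOB.RayUnfold5 Fermat.Agent.PT.GLOB.RayPiece5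

namespace Fermat.Agent.PT.GLOB.RayZeta5

variable {K : Type*} [Field K] [NumberField K]
variable {G : Type*} [CommGroup G]

/-! ### Sums over units of a finite monoid -/

theorem sum_ite_isUnit {M : Type*} [Monoid M] [Fintype M] [Fintype Mˣ] [DecidablePred (IsUnit : M → Prop)]
    (F : M → ℂ) : ∑ q : M, (if IsUnit q then F q else 0) = ∑ u : Mˣ, F (u : M) := by
  classical
  rw [← Finset.sum_filter]
  have h : (Finset.univ.filter (IsUnit : M → Prop)) = Finset.univ.image (Units.val : Mˣ → M) := by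
    ext q
    simp only [Finset.mem_filter, Finset.mem_univ, true_and, Finset.mem_image]
    constructor
    · rintro ⟨u, rfl⟩; exact ⟨u, rfl⟩
    · rintro ⟨u, rfl⟩; exact u.isUnit
  rw [h, Finset.sum_image (fun u _ v _ huv => Units.ext huv)]

/-! ### The counting identity -/

variable {φ : (Ideal (𝓞 K))⁰ →* G} {m : Ideal (𝓞 K)}

open scoped Classical in
theorem sum_chi_mul_kcount [Fintype G] (hφ : IsRay φ m) (hm : m ≠ ⊥) [Fintype (𝓞 K ⧸ m)]
    [Fintype (𝓞 K ⧸ m)ˣ] (χ : G →* ℂˣ) (h : G) :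
    ∑ g : G, ((χ g : ℂˣ) : ℂ) * ((kcount φ m hm (g * h) : ℝ) : ℂ) =
      (((χ h)⁻¹ : ℂˣ) : ℂ) * ∑ u : (𝓞 K ⧸ m)ˣ, ((χ (theta hφ hm u) : ℂˣ) : ℂ) := by
  unfold kcount
  have h1 : ∀ g : G, ((χ g : ℂˣ) : ℂ) * ((∑ q : 𝓞 K ⧸ m, cofRes φ m hm (g * h) q : ℝ) : ℂ) =
      ∑ q : 𝓞 K ⧸ m, ((χ g : ℂˣ) : ℂ) * ((cofRes φ m hm (g * h) q : ℝ) : ℂ) := by
    intro g
    rw [Complex.ofReal_sum, Finset.mul_sum]
  rw [Finset.sum_congr rfl (fun g _ => h1 g), Finset.sum_comm]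
  have h2 : ∀ q : 𝓞 K ⧸ m, ∑ g : G, ((χ g : ℂˣ) : ℂ) * ((cofRes φ m hm (g * h) q : ℝ) : ℂ) =
      if IsUnit q then (((χ h)⁻¹ : ℂˣ) : ℂ) * ((χ (thetaFun φ m hm q) : ℂˣ) : ℂ) else 0 := by
    intro q
    by_cases hu : IsUnit q
    · rw [if_pos hu, Finset.sum_eq_single (thetaFun φ m hm q * h⁻¹)]
      · unfold cofRes
        rw [if_pos ⟨hu, by simp⟩]
        rw [map_mul, map_inv, Units.val_mul]
        push_cast
        ring
      · intro g _ hg
        unfold cofRes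
        rw [if_neg, Complex.ofReal_zero, mul_zero]
        rintro ⟨_, h3⟩
        apply hg
        rw [h3]; simp
      · intro h3; exact absurd (Finset.mem_univ _) h3
    · rw [if_neg hu]
      refine Finset.sum_eq_zero (fun g _ => ?_)
      unfold cofRes
      rw [if_neg (fun h3 => hu h3.1), Complex.ofReal_zero, mul_zero]
  rw [Finset.sum_congr rfl (fun q _ => h2 q), sum_ite_isUnit, Finset.mul_sum]
  rfl

/-! ### The `L`-series over the ideals prime to `m` -/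

variable (φ m)

open scoped Classical in
/-- the general term of the `L`-series over ideals prime to `m` -/
noncomputable def rayTerm (χ : G →* ℂˣ) (s : ℝ) (I : (Ideal (𝓞 K))⁰) : ℂ :=
  if (I : Ideal (𝓞 K)) ⊔ m = ⊤ then
    ((χ (φ I) : ℂˣ) : ℂ) * (((Ideal.absNorm (I : Ideal (𝓞 K)) : ℝ) ^ (-s) : ℝ) : ℂ) else 0

/-- the `L`-series over ideals prime to `m` -/
noncomputable def rayL (χ : G →* ℂˣ) (s : ℝ) : ℂ := ∑' I : (Ideal (𝓞 K))⁰, rayTerm φ m χ s I

theorem norm_rayTerm_le [Finite G] (χ : G →* ℂˣ) (s : ℝ) (I : (Ideal (𝓞 K))⁰) :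
    ‖rayTerm φ m χ s I‖ ≤ (Ideal.absNorm (I : Ideal (𝓞 K)) : ℝ) ^ (-s) := by
  unfold rayTerm
  split_ifs
  · exact (norm_classL_term φ χ s I).le
  · rw [norm_zero]; positivity

theorem summable_rayTerm [Finite G] (χ : G →* ℂˣ) {s : ℝ} (hs : 1 < s) :
    Summable (rayTerm φ m χ s) :=
  Summable.of_norm_bounded (summable_zetaR K hs) (norm_rayTerm_le φ m χ s)

open scoped Classical in
/-- the real term of `rayZeta` -/
noncomputable def rzTerm (g : G) (s : ℝ) (I : (Ideal (𝓞 K))⁰) : ℝ :=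
  if ((I : Ideal (𝓞 K)) ⊔ m = ⊤ ∧ φ I = g) then
    (Ideal.absNorm (I : Ideal (𝓞 K)) : ℝ) ^ (-s) else 0

theorem rzTerm_nonneg (g : G) (s : ℝ) (I : (Ideal (𝓞 K))⁰) : 0 ≤ rzTerm φ m g s I := by
  unfold rzTerm; split_ifs <;> positivity

theorem rzTerm_le (g : G) (s : ℝ) (I : (Ideal (𝓞 K))⁰) :
    rzTerm φ m g s I ≤ (Ideal.absNorm (I : Ideal (𝓞 K)) : ℝ) ^ (-s) := by
  unfold rzTerm; split_ifs
  · exact le_rfl
  · positivity

theorem summable_rzTerm (g : G) {s : ℝ} (hs : 1 < s) : Summable (rzTerm φ m g s) :=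
  Summable.of_nonneg_of_le (rzTerm_nonneg φ m g s) (rzTerm_le φ m g s) (summable_zetaR K hs)

theorem rayZeta_eq_tsum (C : ClassGroup (𝓞 K)) (g : G) (s : ℝ) :
    rayZeta φ m C g s =
      ∑' I : {I : (Ideal (𝓞 K))⁰ // ClassGroup.mk0 I = C}, rzTerm φ m g s I.1 := rfl

open scoped Classical in
theorem rayTerm_eq_sum [Fintype G] (χ : G →* ℂˣ) (s : ℝ) (I : (Ideal (𝓞 K))⁰) :
    rayTerm φ m χ s I = ∑ g : G, ((χ g : ℂˣ) : ℂ) * ((rzTerm φ m g s I : ℝ) : ℂ) := by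
  unfold rayTerm rzTerm
  by_cases hc : (I : Ideal (𝓞 K)) ⊔ m = ⊤
  · rw [if_pos hc, Finset.sum_eq_single (φ I)]
    · rw [if_pos ⟨hc, rfl⟩]
    · intro g _ hg
      rw [if_neg (fun h => hg h.2.symm), Complex.ofReal_zero, mul_zero]
    · intro h; exact absurd (Finset.mem_univ _) h
  · rw [if_neg hc]
    symm
    refine Finset.sum_eq_zero (fun g _ => ?_)
    rw [if_neg (fun h => hc h.1), Complex.ofReal_zero, mul_zero]

open scoped Classical in
/-- decomposition of `rayL` along ideal classes and values of `φ` -/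
theorem rayL_eq_sum [Fintype G] (χ : G →* ℂˣ) {s : ℝ} (hs : 1 < s) :
    rayL φ m χ s = ∑ C : ClassGroup (𝓞 K), ∑ g : G,
      ((χ g : ℂˣ) : ℂ) * ((rayZeta φ m C g s : ℝ) : ℂ) := by
  have hsum := summable_rayTerm φ m χ hs
  rw [rayL, ← (Equiv.sigmaFiberEquiv (ClassGroup.mk0 (R := 𝓞 K))).tsum_eq]
  rw [Summable.tsum_sigma' (fun C => ?_) ?_, tsum_fintype]
  · refine Finset.sum_congr rfl (fun C _ => ?_)
    have h1 : ∀ g : G, ((χ g : ℂˣ) : ℂ) * ((rayZeta φ m C g s : ℝ) : ℂ) =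
        ∑' I : {I : (Ideal (𝓞 K))⁰ // ClassGroup.mk0 I = C},
          ((χ g : ℂˣ) : ℂ) * ((rzTerm φ m g s I.1 : ℝ) : ℂ) := by
      intro g
      rw [rayZeta_eq_tsum, Complex.ofReal_tsum, tsum_mul_left]
    rw [Finset.sum_congr rfl (fun g _ => h1 g), ← Summable.tsum_finsetSum]
    · refine tsum_congr (fun I => ?_)
      exact rayTerm_eq_sum φ m χ s I.1
    · intro g _
      refine Summable.mul_left _ ?_
      have := (summable_rzTerm φ m g hs).subtype {I : (Ideal (𝓞 K))⁰ | ClassGroup.mk0 I = C}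
      exact (Complex.summable_ofReal).mpr this
  · exact hsum.comp_injective (Equiv.sigmaFiberEquiv (ClassGroup.mk0 (R := 𝓞 K))).injective
  · exact hsum.comp_injective
      ((Equiv.sigmaFiberEquiv (ClassGroup.mk0 (R := 𝓞 K))).injective.comp sigma_mk_injective)

variable {φ m}

open scoped Classical in
/-- the vanishing of the main term -/
theorem sum_sum_chi_mul_kcount_eq_zero [Fintype G] (hφ : IsRay φ m) (hm : m ≠ ⊥)
    [Fintype (𝓞 K ⧸ m)] [Fintype (𝓞 K ⧸ m)ˣ]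
    (hsurj : ∀ g : G, ∃ I : (Ideal (𝓞 K))⁰, (I : Ideal (𝓞 K)) ⊔ m = ⊤ ∧ φ I = g)
    (χ : G →* ℂˣ) (hχ : χ ≠ 1)
    (J : ClassGroup (𝓞 K) → (Ideal (𝓞 K))⁰) (hJm : ∀ C, (J C : Ideal (𝓞 K)) ⊔ m = ⊤)
    (hJ : ∀ C, ClassGroup.mk0 (J C) = C⁻¹) :
    ∑ C : ClassGroup (𝓞 K), ∑ g : G,
      ((χ g : ℂˣ) : ℂ) * ((kcount φ m hm (g * φ (J C)) : ℝ) : ℂ) = 0 := by
  rw [Finset.sum_congr rfl (fun C _ => sum_chi_mul_kcount hφ hm χ (φ (J C))), ← Finset.sum_mul]
  by_cases hθ : ∀ u, χ (theta hφ hm u) = 1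
  · -- `χ` is trivial on the image of `θ`
    obtain ⟨g, hg⟩ : ∃ g, χ g ≠ 1 := by
      by_contra hcon
      push Not at hcon
      exact hχ (MonoidHom.ext hcon)
    obtain ⟨B, hBm, hB⟩ := hsurj g
    have := sum_chi_phi_inv_eq_zero hφ hm χ hθ J hJm hJ hBm (by rw [hB]; exact hg)
    rw [this, zero_mul]
  · -- orthogonality on `(𝓞 K ⧸ m)ˣ`
    have hne : (Units.coeHom ℂ).comp (χ.comp (theta hφ hm)) ≠ 1 := by
      intro h
      apply hθ
      intro u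
      have := DFunLike.congr_fun h u
      exact Units.ext (by simpa using this)
    have := sum_hom_units_eq_zero ((Units.coeHom ℂ).comp (χ.comp (theta hφ hm))) hne
    have h2 : ∑ u : (𝓞 K ⧸ m)ˣ, ((χ (theta hφ hm u) : ℂˣ) : ℂ) = 0 := by
      simpa using this
    rw [h2, mul_zero]

/-- **Input (I2), prime-to-`m` part**: `rayL φ m χ` is bounded on `(1,2]` for `χ ≠ 1`. -/
theorem rayL_bounded [Finite G] (hφ : IsRay φ m) (hm : m ≠ ⊥)
    (hsurj : ∀ g : G, ∃ I : (Ideal (𝓞 K))⁰, (I : Ideal (𝓞 K)) ⊔ m = ⊤ ∧ φ I = g)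
    (χ : G →* ℂˣ) (hχ : χ ≠ 1) :
    ∃ B : ℝ, ∀ s ∈ Set.Ioc (1:ℝ) 2, ‖rayL φ m χ s‖ ≤ B := by
  classical
  haveI : Fintype G := Fintype.ofFinite G
  haveI : Finite (𝓞 K ⧸ m) := Ideal.finiteQuotientOfFreeOfNeBot m hm
  haveI : Fintype (𝓞 K ⧸ m) := Fintype.ofFinite _
  haveI : Fintype (𝓞 K ⧸ m)ˣ := Fintype.ofFinite _
  choose J hJm hJ using fun C : ClassGroup (𝓞 K) =>
    Fermat.Agent.CFT.CoprimeRep.exists_coprime_rep_classGroup m hm C⁻¹
  choose B hB using fun C : ClassGroup (𝓞 K) =>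
    exists_rayZeta_approx hφ hm (J C) (hJm C) C (hJ C)
  refine ⟨∑ _C : ClassGroup (𝓞 K), ∑ _g : G, ∑ C : ClassGroup (𝓞 K), |B C|, fun s hs => ?_⟩
  have hvan := sum_sum_chi_mul_kcount_eq_zero hφ hm hsurj χ hχ J hJm hJ
  have hrw : rayL φ m χ s = ∑ C : ClassGroup (𝓞 K), ∑ g : G, ((χ g : ℂˣ) : ℂ) *
      ((rayZeta φ m C g s - kcount φ m hm (g * φ (J C)) * kappa K m s : ℝ) : ℂ) := by
    rw [rayL_eq_sum φ m χ hs.1]
    have h1 : ∀ C : ClassGroup (𝓞 K), ∀ g : G, ((χ g : ℂˣ) : ℂ) *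
        ((rayZeta φ m C g s - kcount φ m hm (g * φ (J C)) * kappa K m s : ℝ) : ℂ) =
        ((χ g : ℂˣ) : ℂ) * ((rayZeta φ m C g s : ℝ) : ℂ) -
          (((χ g : ℂˣ) : ℂ) * ((kcount φ m hm (g * φ (J C)) : ℝ) : ℂ)) *
            ((kappa K m s : ℝ) : ℂ) := by
      intro C g; push_cast; ring
    simp_rw [h1, Finset.sum_sub_distrib, ← Finset.sum_mul, hvan, zero_mul, sub_zero]
  rw [hrw]
  refine (norm_sum_le _ _).trans (Finset.sum_le_sum (fun C _ => ?_))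
  refine (norm_sum_le _ _).trans (Finset.sum_le_sum (fun g _ => ?_))
  rw [norm_mul, norm_unit_apply χ g, one_mul, Complex.norm_real, Real.norm_eq_abs]
  refine (hB C s hs g).trans ((le_abs_self _).trans ?_)
  exact Finset.single_le_sum (f := fun C => |B C|) (fun _ _ => abs_nonneg _) (Finset.mem_univ C)

/-! ### The Euler factors at the primes dividing `m` -/

open Fermat.Agent.CFT.IdealEuler Fermat.Agent.CFT.ClassLEuler

/-- the primes dividing `m` -/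
noncomputable def primesDvd (m : Ideal (𝓞 K)) (hm : m ≠ ⊥) : Finset (HeightOneSpectrum (𝓞 K)) :=
  (Ideal.finite_factors (I := m) (by rwa [Ne, Ideal.zero_eq_bot])).toFinset

theorem mem_primesDvd {m : Ideal (𝓞 K)} (hm : m ≠ ⊥) {v : HeightOneSpectrum (𝓞 K)} :
    v ∈ primesDvd m hm ↔ v.asIdeal ∣ m := by
  unfold primesDvd
  rw [Set.Finite.mem_toFinset]
  rfl

theorem mem_sieved_iff {m : Ideal (𝓞 K)} (hm : m ≠ ⊥) {𝔞 : Ideal (𝓞 K)} (h𝔞 : 𝔞 ≠ 0) :
    𝔞 ∈ sieved (primesDvd m hm) ↔ 𝔞 ⊔ m = ⊤ := by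
  rw [mem_sieved]
  constructor
  · rintro ⟨-, h⟩
    by_contra hne
    obtain ⟨M, hM, hle⟩ := Ideal.exists_le_maximal _ hne
    have h𝔞M : 𝔞 ≤ M := le_sup_left.trans hle
    have hmM : m ≤ M := le_sup_right.trans hle
    have hM0 : M ≠ ⊥ := by
      rintro rfl
      exact h𝔞 (le_bot_iff.mp h𝔞M)
    let v : HeightOneSpectrum (𝓞 K) := ⟨M, hM.isPrime, hM0⟩
    have hv : v ∈ primesDvd m hm := (mem_primesDvd hm).mpr (Ideal.dvd_iff_le.mpr hmM)
    exact h v hv (Ideal.dvd_iff_le.mpr h𝔞M)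
  · intro h
    refine ⟨h𝔞, fun v hv hdvd => ?_⟩
    have h1 : 𝔞 ≤ v.asIdeal := Ideal.le_of_dvd hdvd
    have h2 : m ≤ v.asIdeal := Ideal.le_of_dvd ((mem_primesDvd hm).mp hv)
    have h3 : 𝔞 ⊔ m ≤ v.asIdeal := sup_le h1 h2
    rw [h] at h3
    exact v.isPrime.ne_top (top_le_iff.mp h3)

variable (φ m)

open scoped Classical in
theorem tsum_sieved_eq_rayL (hm : m ≠ ⊥) (χ : G →* ℂˣ) (s : ℝ) :
    ∑' 𝔞 : Ideal (𝓞 K), (sieved (primesDvd m hm)).indicator (twist φ χ s) 𝔞 = rayL φ m χ s := by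
  have hsupp : Function.support (fun 𝔞 : Ideal (𝓞 K) =>
      (sieved (primesDvd m hm)).indicator (twist φ χ s) 𝔞) ⊆
      ((Ideal (𝓞 K))⁰ : Set (Ideal (𝓞 K))) := by
    intro 𝔞 h𝔞
    have h1 : 𝔞 ∈ sieved (primesDvd m hm) := by
      by_contra h
      exact h𝔞 (Set.indicator_of_notMem h _)
    exact mem_nonZeroDivisors_of_ne_zero h1.1
  rw [← tsum_subtype_eq_of_support_subset hsupp, rayL]
  refine tsum_congr (fun I => ?_)
  have hI0 : (I : Ideal (𝓞 K)) ≠ 0 := nonZeroDivisors.coe_ne_zero I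
  unfold rayTerm
  by_cases hc : (I : Ideal (𝓞 K)) ⊔ m = ⊤
  · rw [if_pos hc, Set.indicator_of_mem ((mem_sieved_iff hm hI0).mpr hc), twist_apply_of_mem]
  · rw [if_neg hc, Set.indicator_of_notMem (fun h => hc ((mem_sieved_iff hm hI0).mp h))]

theorem rayL_eq_prod_mul_classL [Finite G] (hm : m ≠ ⊥) (χ : G →* ℂˣ) {s : ℝ} (hs : 1 < s) :
    rayL φ m χ s =
      (∏ 𝔭 ∈ primesDvd m hm, (1 - twist φ χ s 𝔭.asIdeal)) * classL K φ χ s := by
  classical
  rw [← tsum_sieved_eq_rayL φ m hm χ s, tsum_sieved_eq (twist φ χ s) (summable_norm_twist φ χ hs),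
    classL_eq_tsum_twist]

theorem half_le_norm_one_sub_twist [Finite G] (χ : G →* ℂˣ) {s : ℝ} (hs : 1 < s)
    (𝔭 : HeightOneSpectrum (𝓞 K)) : (1:ℝ) / 2 ≤ ‖1 - twist φ χ s 𝔭.asIdeal‖ := by
  have h1 : ‖twist φ χ s 𝔭.asIdeal‖ ≤ (Ideal.absNorm 𝔭.asIdeal : ℝ) ^ (-s) :=
    norm_twist_le φ χ s _
  have h2 : (2:ℝ) ≤ (Ideal.absNorm 𝔭.asIdeal : ℝ) := by
    have h0 : Ideal.absNorm 𝔭.asIdeal ≠ 0 := by
      rw [Ne, Ideal.absNorm_eq_zero_iff]; exact 𝔭.ne_bot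
    have h1 : Ideal.absNorm 𝔭.asIdeal ≠ 1 := by
      rw [Ne, Ideal.absNorm_eq_one_iff]; exact 𝔭.isPrime.ne_top
    have : 2 ≤ Ideal.absNorm 𝔭.asIdeal := by omega
    exact_mod_cast this
  have h3 : (Ideal.absNorm 𝔭.asIdeal : ℝ) ^ (-s) ≤ (2:ℝ) ^ (-s) :=
    Real.rpow_le_rpow_of_nonpos (by norm_num) h2 (by linarith)
  have h4 : (2:ℝ) ^ (-s) ≤ (2:ℝ) ^ (-1:ℝ) :=
    Real.rpow_le_rpow_of_exponent_le (by norm_num) (by linarith)
  have h5 : (2:ℝ) ^ (-1:ℝ) = 1 / 2 := by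
    rw [Real.rpow_neg (by norm_num), Real.rpow_one]; norm_num
  have h6 : ‖(1:ℂ)‖ - ‖twist φ χ s 𝔭.asIdeal‖ ≤ ‖1 - twist φ χ s 𝔭.asIdeal‖ :=
    norm_sub_norm_le _ _
  rw [norm_one] at h6
  have h7 : ‖twist φ χ s 𝔭.asIdeal‖ ≤ 1 / 2 := h1.trans (h3.trans (h4.trans h5.le))
  linarith

variable {φ m}

/-- **Input (I2)**: `classL K φ χ` is bounded on `(1,2]` for `χ ≠ 1`, for a ray-class hom `φ`
which is surjective on the ideals prime to `m`. -/
theorem classL_bounded_of_ray [Finite G] (hφ : IsRay φ m) (hm : m ≠ ⊥)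
    (hsurj : ∀ g : G, ∃ I : (Ideal (𝓞 K))⁰, (I : Ideal (𝓞 K)) ⊔ m = ⊤ ∧ φ I = g)
    (χ : G →* ℂˣ) (hχ : χ ≠ 1) :
    ∃ B : ℝ, ∀ s ∈ Set.Ioc (1:ℝ) 2, ‖classL K φ χ s‖ ≤ B := by
  obtain ⟨B, hB⟩ := rayL_bounded hφ hm hsurj χ hχ
  refine ⟨2 ^ (primesDvd m hm).card * B, fun s hs => ?_⟩
  have h1 := rayL_eq_prod_mul_classL φ m hm χ hs.1
  have h2 := hB s hs
  rw [h1, norm_mul, norm_prod] at h2
  have h3 : ((1:ℝ) / 2) ^ (primesDvd m hm).card ≤
      ∏ 𝔭 ∈ primesDvd m hm, ‖1 - twist φ χ s 𝔭.asIdeal‖ := by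
    rw [← Finset.prod_const]
    exact Finset.prod_le_prod (fun _ _ => by norm_num)
      (fun 𝔭 _ => half_le_norm_one_sub_twist φ χ hs.1 𝔭)
  have h4 : ((1:ℝ) / 2) ^ (primesDvd m hm).card * ‖classL K φ χ s‖ ≤ B :=
    (mul_le_mul_of_nonneg_right h3 (norm_nonneg _)).trans h2
  have h5 : (2:ℝ) ^ (primesDvd m hm).card * ((1:ℝ) / 2) ^ (primesDvd m hm).card = 1 := by
    rw [← mul_pow]; norm_num
  calc ‖classL K φ χ s‖ = (2:ℝ) ^ (primesDvd m hm).card *
        (((1:ℝ) / 2) ^ (primesDvd m hm).card * ‖classL K φ χ s‖) := by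
        rw [← mul_assoc, h5, one_mul]
    _ ≤ 2 ^ (primesDvd m hm).card * B := by
        exact mul_le_mul_of_nonneg_left h4 (by positivity)

end Fermat.Agent.PT.GLOB.RayZeta5

namespace Fermat.Agent.PT.GLOB.RayZeta5

open Fermat.Agent.CFT.FirstIneqCore

/-- **The analytic norm index inequality for ray-class homs** (second inequality of class field
theory, analytic proof, with ramification). `K ⊆ L` number fields (no Galois or ramification
hypothesis), `m ≠ ⊥` an ideal of `𝓞 K`, `φ` a monoid hom from the nonzero ideals of `𝓞 K` to a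
finite commutative group `G` such that
* `φ (a) = 1` for `a ≡ 1 mod m`;
* `φ` restricted to the ideals prime to `m` is surjective;
* `φ` kills the primes of `K` of relative degree one in `L` outside a finite set `S`.
Then `Nat.card G ≤ [L : K]`. -/
theorem ray_norm_index_le (K L : Type*) [Field K] [NumberField K] [Field L] [NumberField L]
    [Algebra K L] {G : Type*} [CommGroup G] [Finite G]
    (φ : (Ideal (𝓞 K))⁰ →* G) (m : Ideal (𝓞 K)) (hm : m ≠ ⊥)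
    (hray : ∀ a : 𝓞 K, ∀ h : Ideal.span {a} ∈ (Ideal (𝓞 K))⁰, a - 1 ∈ m →
      φ ⟨Ideal.span {a}, h⟩ = 1)
    (hsurj : ∀ g : G, ∃ I : (Ideal (𝓞 K))⁰, (I : Ideal (𝓞 K)) ⊔ m = ⊤ ∧ φ I = g)
    (S : Finset (HeightOneSpectrum (𝓞 K)))
    (hsplit : ∀ p ∈ degOnePrimes K L, p ∉ S → φ (primeToIdeal0 p) = 1) :
    Nat.card G ≤ Module.finrank K L := by
  classical
  have : Fintype (G →* ℂˣ) := Fintype.ofFinite _
  have : FiniteDimensional K L := Module.Finite.of_restrictScalars_finite ℚ K L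
  have hφ : IsRay φ m := fun a ha h => hray a (spanI a ha).2 h
  exact norm_index_le_of K L φ S hsplit
    (fun s hs => Fermat.Agent.CFT.FirstIneq.summable_primes K hs)
    (fun s hs => Fermat.Agent.CFT.ClassLEuler.exp_le_norm_prod_classL _ hs)
    (fun χ hχ => classL_bounded_of_ray hφ hm hsurj χ hχ)
    (Fermat.Agent.CFT.FirstIneq.I3_holds K _)
    (Fermat.Agent.CFT.SplitPrimes.log_le_degOnePrimes K L)
    Module.finrank_pos

end Fermat.Agent.PT.GLOB.RayZeta5
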