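/-
Program F (S55), chapter GLOB, leaf (B2 PowerNearOne) (helper16).

For a number field `K`, primes `p` (odd) and `q`: an integer `a ∈ 𝓞 K` with `a ≡ 1 mod q ^ k`
(`k = 1` if `q ≠ p`, `k = 2` if `q = p`) becomes a `p`-th power in `K ⊗[ℚ] ℚ_[q]`.

Method: `Λ = ℤ_[q] ⊗[ℤ] 𝓞 K` is a finite free `ℤ_[q]`-module, hence `q`-adically complete;
Newton's method in adically complete rings (the proof of Mathlib's
`IsAdicComplete.henselianRing`, which does not use that the polynomial is monic) applied to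
`X ^ p - a` resp. `((1 + p X) ^ p - a) / p ^ 2`.
-/
import Mathlib

set_option autoImplicit false
set_option linter.unusedSectionVars false

open Polynomial TensorProduct NumberField

namespace Fermat.Agent.PT.GLOB.PowerNearOne16

/-! ### Newton's method in an adically complete ring -/

/-- Hensel's lemma for an `I`-adically complete ring, for arbitrary (not necessarily monic)
polynomials. This is the proof of Mathlib's `IsAdicComplete.henselianRing`. -/
theorem exists_isRoot_of_isAdicComplete {R : Type*} [CommRing R] (I : Ideal R)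
    [IsAdicComplete I R] (f : R[X]) (a₀ : R) (h₁ : f.eval a₀ ∈ I)
    (h₂ : IsUnit (Ideal.Quotient.mk I (f.derivative.eval a₀))) :
    ∃ a : R, f.IsRoot a ∧ a - a₀ ∈ I := by
  classical
  let f' := derivative f
  let c : ℕ → R := fun n => Nat.recOn n a₀ fun _ b => b - f.eval b * Ring.inverse (f'.eval b)
  have hc : ∀ n, c (n + 1) = c n - f.eval (c n) * Ring.inverse (f'.eval (c n)) := by
    intro n
    simp only [c]
  have hc_mod : ∀ n, c n ≡ a₀ [SMOD I] := by
    intro n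
    induction n with
    | zero => rfl
    | succ n ih => ?_
    rw [hc, sub_eq_add_neg, ← add_zero a₀]
    refine ih.add ?_
    rw [SModEq.zero, Ideal.neg_mem_iff]
    refine I.mul_mem_right _ ?_
    rw [← SModEq.zero] at h₁ ⊢
    exact (ih.eval f).trans h₁
  have hf'c : ∀ n, IsUnit (f'.eval (c n)) := by
    intro n
    have := isLocalHom_of_le_jacobson_bot I (IsAdicComplete.le_jacobson_bot I)
    apply IsUnit.of_map (Ideal.Quotient.mk I)
    convert h₂ using 1
    exact SModEq.def.mp ((hc_mod n).eval _)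
  have hfcI : ∀ n, f.eval (c n) ∈ I ^ (n + 1) := by
    intro n
    induction n with
    | zero =>
      show f.eval a₀ ∈ I ^ (0 + 1)
      rw [zero_add, pow_one]
      exact h₁
    | succ n ih => ?_
    rw [← taylor_eval_sub (c n), hc, sub_eq_add_neg, sub_eq_add_neg,
      add_neg_cancel_comm]
    rw [eval_eq_sum, sum_over_range' _ _ _ (lt_add_of_pos_right _ zero_lt_two), ←
      Finset.sum_range_add_sum_Ico _ (Nat.le_add_left _ _)]
    swap
    · intro i
      rw [zero_mul]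
    refine Ideal.add_mem _ ?_ ?_
    · rw [← one_add_one_eq_two, Finset.sum_range_succ, Finset.range_one, Finset.sum_singleton,
        taylor_coeff_zero, taylor_coeff_one, pow_zero, pow_one, mul_one, mul_neg,
        mul_left_comm, Ring.mul_inverse_cancel _ (hf'c n), mul_one, add_neg_cancel]
      exact Ideal.zero_mem _
    · refine Submodule.sum_mem _ ?_
      simp only [Finset.mem_Ico]
      rintro i ⟨h2i, _⟩
      have aux : n + 2 ≤ i * (n + 1) := by trans 2 * (n + 1) <;> nlinarith only [h2i]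
      refine Ideal.mul_mem_left _ _ (Ideal.pow_le_pow_right aux ?_)
      rw [pow_mul']
      exact Ideal.pow_mem_pow ((Ideal.neg_mem_iff _).2 <| Ideal.mul_mem_right _ _ ih) _
  have aux : ∀ m n, m ≤ n → c m ≡ c n [SMOD (I ^ m • ⊤ : Ideal R)] := by
    intro m n hmn
    rw [← Ideal.one_eq_top, Ideal.smul_eq_mul, mul_one]
    obtain ⟨k, rfl⟩ := Nat.exists_eq_add_of_le hmn
    clear hmn
    induction k with
    | zero => rw [add_zero]
    | succ k ih => ?_
    rw [← add_assoc, hc, ← add_zero (c m), sub_eq_add_neg]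
    refine ih.add ?_
    symm
    rw [SModEq.zero, Ideal.neg_mem_iff]
    refine Ideal.mul_mem_right _ _ (Ideal.pow_le_pow_right ?_ (hfcI _))
    rw [add_assoc]
    exact le_self_add
  obtain ⟨a, ha⟩ := IsPrecomplete.prec' c (aux _ _)
  refine ⟨a, ?_, ?_⟩
  · show f.IsRoot a
    suffices ∀ n, f.eval a ≡ 0 [SMOD (I ^ n • ⊤ : Ideal R)] by exact IsHausdorff.haus' _ this
    intro n
    specialize ha n
    rw [← Ideal.one_eq_top, Ideal.smul_eq_mul, mul_one] at ha ⊢
    refine (ha.symm.eval f).trans ?_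
    rw [SModEq.zero]
    exact Ideal.pow_le_pow_right le_self_add (hfcI _)
  · show a - a₀ ∈ I
    specialize ha (0 + 1)
    rw [hc, pow_one, ← Ideal.one_eq_top, Ideal.smul_eq_mul, mul_one, sub_eq_add_neg] at ha
    rw [← SModEq.sub_mem, ← add_zero a₀]
    refine ha.symm.trans (SModEq.rfl.add ?_)
    rw [SModEq.zero, Ideal.neg_mem_iff]
    exact Ideal.mul_mem_right _ _ h₁

/-! ### Adic completeness of finite free modules -/

section Complete

variable {R : Type*} [CommRing R] (I : Ideal R)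

theorem map_pow_smul_top_le {M N : Type*} [AddCommGroup M] [Module R M] [AddCommGroup N]
    [Module R N] (f : M →ₗ[R] N) (n : ℕ) :
    (I ^ n • ⊤ : Submodule R M).map f ≤ (I ^ n • ⊤ : Submodule R N) := by
  rw [Submodule.map_smul'']
  exact smul_mono_right _ le_top

/-- Adic completeness is invariant under linear equivalences. -/
theorem isAdicComplete_of_linearEquiv {M N : Type*} [AddCommGroup M] [Module R M]
    [AddCommGroup N] [Module R N] (e : M ≃ₗ[R] N) [IsAdicComplete I M] : IsAdicComplete I N where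
  haus' x hx := by
    have h : e.symm x = 0 := by
      refine IsHausdorff.haus' (I := I) _ fun n => ?_
      have := ((hx n).map e.symm.toLinearMap).mono (map_pow_smul_top_le I e.symm.toLinearMap n)
      simpa using this
    simpa using congrArg e h
  prec' f hf := by
    obtain ⟨L, hL⟩ := IsPrecomplete.prec' (I := I) (fun n => e.symm (f n)) (fun {m n} hmn =>
      ((hf hmn).map e.symm.toLinearMap).mono (map_pow_smul_top_le I e.symm.toLinearMap m))
    refine ⟨e L, fun n => ?_⟩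
    have := ((hL n).map e.toLinearMap).mono (map_pow_smul_top_le I e.toLinearMap n)
    simpa using this

theorem mem_pow_smul_top_pi_iff {ι : Type*} [Finite ι] (n : ℕ) (x : ι → R) :
    x ∈ (I ^ n • ⊤ : Submodule R (ι → R)) ↔ ∀ j, x j ∈ I ^ n := by
  classical
  cases nonempty_fintype ι
  constructor
  · intro hx j
    refine Submodule.smul_induction_on hx (fun r hr y _ => ?_) (fun y z hy hz => ?_)
    · simpa using Ideal.mul_mem_right _ _ hr
    · simpa using Ideal.add_mem _ hy hz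
  · intro hx
    rw [pi_eq_sum_univ x]
    refine Submodule.sum_mem _ fun j _ => ?_
    exact Submodule.smul_mem_smul (hx j) Submodule.mem_top

/-- A finite power of an adically complete ring is adically complete. -/
theorem isAdicComplete_pi [IsAdicComplete I R] (ι : Type*) [Finite ι] :
    IsAdicComplete I (ι → R) where
  haus' x hx := by
    funext j
    refine IsHausdorff.haus' (I := I) (x j) fun n => ?_
    have h := hx n
    rw [SModEq.zero] at h ⊢
    have := (mem_pow_smul_top_pi_iff I n x).mp h j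
    simpa using this
  prec' f hf := by
    have hcoord : ∀ j, ∃ L : R, ∀ n, f n j ≡ L [SMOD (I ^ n • ⊤ : Ideal R)] := by
      intro j
      refine IsPrecomplete.prec' (I := I) (fun n => f n j) (fun {m n} hmn => ?_)
      have h := hf hmn
      rw [SModEq.sub_mem] at h ⊢
      have := (mem_pow_smul_top_pi_iff I m (f m - f n)).mp h j
      simpa using this
    choose L hL using hcoord
    refine ⟨L, fun n => ?_⟩
    rw [SModEq.sub_mem, mem_pow_smul_top_pi_iff]
    intro j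
    have := hL j n
    rw [SModEq.sub_mem] at this
    simpa using this

/-- A finite free module over an adically complete ring is adically complete. -/
theorem isAdicComplete_of_finite_free [IsAdicComplete I R] (M : Type*) [AddCommGroup M]
    [Module R M] [Module.Free R M] [Module.Finite R M] : IsAdicComplete I M := by
  have := isAdicComplete_pi I (Module.Free.ChooseBasisIndex R M)
  exact isAdicComplete_of_linearEquiv I (Module.Free.chooseBasis R M).equivFun.symm

end Complete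

/-! ### A binomial identity -/

/-- `(1 + p z) ^ p = 1 + p² z + p³ g(z)` for an odd prime `p`. -/
theorem exists_poly_one_add_mul_pow (R : Type*) [CommRing R] {p : ℕ} (hp : p.Prime)
    (hp2 : p ≠ 2) :
    ∃ g : R[X], ∀ z : R, (1 + (p : R) * z) ^ p = 1 + (p : R) ^ 2 * z + (p : R) ^ 3 * g.eval z := by
  have hp3 : 3 ≤ p := by
    have := hp.two_le
    omega
  obtain ⟨n, hn⟩ : ∃ n, p = n + 3 := ⟨p - 3, by omega⟩
  have hodd : p % 2 = 1 := by
    rcases hp.eq_two_or_odd with h | h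
    · omega
    · exact h
  have hchoose : p.choose 2 = p * ((p - 1) / 2) := by
    rw [Nat.choose_two_right]
    have hm : p - 1 = 2 * ((p - 1) / 2) := by omega
    conv_lhs => rw [hm]
    rw [mul_left_comm, Nat.mul_div_cancel_left _ (by norm_num : 0 < 2)]
  refine ⟨C (((p - 1) / 2 : ℕ) : R) * X ^ 2 +
    ∑ i ∈ Finset.range (n + 1), C ((p ^ i * p.choose (i + 3) : ℕ) : R) * X ^ (i + 3),
    fun z => ?_⟩
  rw [add_comm (1 : R), add_pow]
  simp only [one_pow, mul_one]
  rw [show p + 1 = (n + 1) + 3 by omega, Finset.sum_range_succ', Finset.sum_range_succ',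
    Finset.sum_range_succ']
  simp only [eval_add, eval_mul, eval_C, eval_pow, eval_X, eval_finsetSum]
  have h0 : ((p : R) * z) ^ 0 * ((p.choose 0 : ℕ) : R) = 1 := by simp
  have h1 : ((p : R) * z) ^ (0 + 1) * ((p.choose (0 + 1) : ℕ) : R) = (p : R) ^ 2 * z := by
    simp only [zero_add, pow_one, Nat.choose_one_right]
    ring
  have h2 : ((p : R) * z) ^ (0 + 1 + 1) * ((p.choose (0 + 1 + 1) : ℕ) : R) =
      (p : R) ^ 3 * ((((p - 1) / 2 : ℕ) : R) * z ^ 2) := by
    simp only [zero_add, one_add_one_eq_two, hchoose]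
    rw [Nat.cast_mul]
    ring
  rw [h0, h1, h2]
  have h3 : ∀ i ∈ Finset.range (n + 1),
      ((p : R) * z) ^ (i + 1 + 1 + 1) * ((p.choose (i + 1 + 1 + 1) : ℕ) : R) =
      (p : R) ^ 3 * (((p ^ i * p.choose (i + 3) : ℕ) : R) * z ^ (i + 3)) := by
    intro i _
    rw [Nat.cast_mul, Nat.cast_pow]
    ring
  rw [Finset.sum_congr rfl h3, ← Finset.mul_sum]
  ring

/-! ### The ring `Λ = ℤ_[q] ⊗[ℤ] 𝓞 K` and the theorem -/

noncomputable section

section Lam

variable (q : ℕ) [Fact q.Prime] (K : Type*) [Field K] [NumberField K]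

/-- `Λ = ℤ_[q] ⊗[ℤ] 𝓞 K`, a finite free `ℤ_[q]`-algebra. -/
abbrev Lam : Type _ := ℤ_[q] ⊗[ℤ] (𝓞 K)

/-- The ideal `q Λ`. -/
def qIdeal : Ideal (Lam q K) :=
  (IsLocalRing.maximalIdeal ℤ_[q]).map (algebraMap ℤ_[q] (Lam q K))

instance isAdicComplete_lam : IsAdicComplete (qIdeal q K) (Lam q K) := by
  have h : IsAdicComplete (IsLocalRing.maximalIdeal ℤ_[q]) (Lam q K) :=
    isAdicComplete_of_finite_free _ _
  exact (IsAdicComplete.map_algebraMap_iff (I := IsLocalRing.maximalIdeal ℤ_[q])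
    (M := Lam q K) (S := Lam q K)).mpr h

theorem natCast_mul_mem_qIdeal (x : Lam q K) : (q : Lam q K) * x ∈ qIdeal q K := by
  refine Ideal.mul_mem_right _ _ ?_
  have h : (q : Lam q K) = algebraMap ℤ_[q] (Lam q K) (q : ℤ_[q]) := (map_natCast _ q).symm
  rw [h]
  refine Ideal.mem_map_of_mem _ ?_
  rw [PadicInt.maximalIdeal_eq_span_p]
  exact Ideal.mem_span_singleton_self _

theorem one_tmul_natCast_mul (m : ℕ) (b : 𝓞 K) :
    (1 : ℤ_[q]) ⊗ₜ[ℤ] ((m : 𝓞 K) * b) = (m : Lam q K) * ((1 : ℤ_[q]) ⊗ₜ[ℤ] b) := by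
  rw [← nsmul_eq_mul, ← nsmul_eq_mul, TensorProduct.tmul_smul]


/-- Case `q ≠ p`: `a ≡ 1 mod q` is a `p`-th power in `Λ`. -/
theorem exists_pow_eq_lam_of_ne {p : ℕ} (hqp : q ≠ p) (hp : p.Prime) (a : 𝓞 K)
    (ha : a - 1 ∈ Ideal.span {(q : 𝓞 K)}) :
    ∃ y : Lam q K, y ^ p = (1 : ℤ_[q]) ⊗ₜ[ℤ] a ∧ y - 1 ∈ qIdeal q K := by
  obtain ⟨b, hb⟩ := Ideal.mem_span_singleton'.mp ha
  have ha' : (1 : ℤ_[q]) ⊗ₜ[ℤ] a = 1 + (q : Lam q K) * ((1 : ℤ_[q]) ⊗ₜ[ℤ] b) := by
    have : a = 1 + (q : 𝓞 K) * b := by rw [mul_comm, hb]; ring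
    rw [this, TensorProduct.tmul_add, one_tmul_natCast_mul]
    rfl
  have hunit : IsUnit (p : ℤ_[q]) := by
    rw [PadicInt.isUnit_iff]
    refine le_antisymm (PadicInt.norm_le_one _) (not_lt.mp fun h => ?_)
    have hdvd : (q : ℤ) ∣ (p : ℤ) := by
      have := (PadicInt.norm_int_lt_one_iff_dvd (p := q) (p : ℤ)).mp (by simpa using h)
      exact this
    have hdvd' : q ∣ p := by exact_mod_cast hdvd
    exact hqp ((Nat.prime_dvd_prime_iff_eq Fact.out hp).mp hdvd')
  have hunitL : IsUnit (p : Lam q K) := by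
    have := hunit.map (algebraMap ℤ_[q] (Lam q K))
    rwa [map_natCast] at this
  obtain ⟨y, hy, hy1⟩ := exists_isRoot_of_isAdicComplete (qIdeal q K)
    (X ^ p - C ((1 : ℤ_[q]) ⊗ₜ[ℤ] a) : (Lam q K)[X]) 1
    (by
      rw [eval_sub, eval_pow, eval_X, eval_C, one_pow, ha']
      have : (1 : Lam q K) - (1 + (q : Lam q K) * ((1 : ℤ_[q]) ⊗ₜ[ℤ] b)) =
          (q : Lam q K) * (-((1 : ℤ_[q]) ⊗ₜ[ℤ] b)) := by ring
      rw [this]
      exact natCast_mul_mem_qIdeal q K _)
    (by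
      rw [derivative_sub, derivative_C, sub_zero, derivative_X_pow, eval_mul, eval_C, eval_pow,
        eval_X, one_pow, mul_one]
      exact hunitL.map _)
  refine ⟨y, ?_, hy1⟩
  have := hy
  rw [IsRoot.def, eval_sub, eval_pow, eval_X, eval_C, sub_eq_zero] at this
  exact this

/-- Case `q = p` odd: `a ≡ 1 mod p²` is a `p`-th power in `Λ`. -/
theorem exists_pow_eq_lam_of_eq (hq2 : q ≠ 2) (a : 𝓞 K)
    (ha : a - 1 ∈ Ideal.span {((q ^ 2 : ℕ) : 𝓞 K)}) :
    ∃ y : Lam q K, y ^ q = (1 : ℤ_[q]) ⊗ₜ[ℤ] a ∧ y - 1 ∈ qIdeal q K := by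
  obtain ⟨b, hb⟩ := Ideal.mem_span_singleton'.mp ha
  set b' : Lam q K := (1 : ℤ_[q]) ⊗ₜ[ℤ] b with hb'
  have ha' : (1 : ℤ_[q]) ⊗ₜ[ℤ] a = 1 + (q : Lam q K) ^ 2 * b' := by
    have : a = 1 + ((q ^ 2 : ℕ) : 𝓞 K) * b := by rw [mul_comm, hb]; ring
    rw [this, TensorProduct.tmul_add, one_tmul_natCast_mul, Nat.cast_pow]
    rfl
  obtain ⟨g, hg⟩ := exists_poly_one_add_mul_pow (Lam q K) (Fact.out : q.Prime) hq2
  obtain ⟨z, hz, -⟩ := exists_isRoot_of_isAdicComplete (qIdeal q K)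
    (X + C (q : Lam q K) * g - C b' : (Lam q K)[X]) b'
    (by
      rw [eval_sub, eval_add, eval_X, eval_mul, eval_C, eval_C, add_sub_cancel_left]
      exact natCast_mul_mem_qIdeal q K _)
    (by
      rw [derivative_sub, derivative_C, sub_zero, derivative_add, derivative_X, derivative_mul,
        derivative_C, zero_mul, zero_add, eval_add, eval_one, eval_mul, eval_C, map_add, map_one]
      have : Ideal.Quotient.mk (qIdeal q K) ((q : Lam q K) * eval b' (derivative g)) = 0 :=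
        Ideal.Quotient.eq_zero_iff_mem.mpr (natCast_mul_mem_qIdeal q K _)
      rw [this, add_zero]
      exact isUnit_one)
  rw [IsRoot.def, eval_sub, eval_add, eval_X, eval_mul, eval_C, eval_C, sub_eq_zero] at hz
  refine ⟨1 + (q : Lam q K) * z, ?_, ?_⟩
  · rw [hg z, ha', ← hz]
    ring
  · rw [add_sub_cancel_left]
    exact natCast_mul_mem_qIdeal q K _

/-- The canonical ring homomorphism `Λ = ℤ_[q] ⊗[ℤ] 𝓞 K → K ⊗[ℚ] ℚ_[q]`. -/
def lamToTensor : Lam q K →+* K ⊗[ℚ] ℚ_[q] :=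
  (Algebra.TensorProduct.lift
    (((Algebra.TensorProduct.includeRight : ℚ_[q] →ₐ[ℚ] K ⊗[ℚ] ℚ_[q]).toRingHom.comp
      (PadicInt.Coe.ringHom : ℤ_[q] →+* ℚ_[q])).toIntAlgHom)
    (((Algebra.TensorProduct.includeLeft : K →ₐ[ℚ] K ⊗[ℚ] ℚ_[q]).toRingHom.comp
      (algebraMap (𝓞 K) K)).toIntAlgHom)
    (fun _ _ => Commute.all _ _)).toRingHom

theorem lamToTensor_tmul (x : ℤ_[q]) (b : 𝓞 K) :
    lamToTensor q K (x ⊗ₜ[ℤ] b) = (b : K) ⊗ₜ[ℚ] (x : ℚ_[q]) := by
  show (Algebra.TensorProduct.lift _ _ _) (x ⊗ₜ[ℤ] b) = _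
  rw [Algebra.TensorProduct.lift_tmul]
  show ((1 : K) ⊗ₜ[ℚ] (x : ℚ_[q])) * ((b : K) ⊗ₜ[ℚ] (1 : ℚ_[q])) = _
  rw [Algebra.TensorProduct.tmul_mul_tmul, one_mul, mul_one]

/-- **(B2 PowerNearOne)**: for an odd prime `p` and a prime `q` there is `k` (`k = 1` if `q ≠ p`,
`k = 2` if `q = p`) such that every `a ∈ 𝓞 K` with `a ≡ 1 mod q ^ k` is a `p`-th power in
`K ⊗[ℚ] ℚ_[q]`. -/
theorem exists_pow_eq {p : ℕ} (hp : p.Prime) (hp2 : p ≠ 2) :
    ∃ k : ℕ, ∀ a : 𝓞 K, a - 1 ∈ Ideal.span {((q ^ k : ℕ) : 𝓞 K)} →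
      ∃ y : K ⊗[ℚ] ℚ_[q], y ^ p = (a : K) ⊗ₜ[ℚ] (1 : ℚ_[q]) := by
  by_cases hqp : q = p
  · subst hqp
    refine ⟨2, fun a ha => ?_⟩
    obtain ⟨y, hy, -⟩ := exists_pow_eq_lam_of_eq q K hp2 a ha
    refine ⟨lamToTensor q K y, ?_⟩
    rw [← map_pow, hy, lamToTensor_tmul]
    simp
  · refine ⟨1, fun a ha => ?_⟩
    rw [pow_one] at ha
    obtain ⟨y, hy, -⟩ := exists_pow_eq_lam_of_ne q K hqp hp a ha
    refine ⟨lamToTensor q K y, ?_⟩
    rw [← map_pow, hy, lamToTensor_tmul]
    simp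

/-- The explicit exponent in `exists_pow_eq`. -/
def nearExp (p : ℕ) : ℕ := if q = p then 2 else 1

theorem pow_eq_of_sub_one_mem {p : ℕ} (hp : p.Prime) (hp2 : p ≠ 2) (a : 𝓞 K)
    (ha : a - 1 ∈ Ideal.span {((q ^ nearExp q p : ℕ) : 𝓞 K)}) :
    ∃ y : K ⊗[ℚ] ℚ_[q], y ^ p = (a : K) ⊗ₜ[ℚ] (1 : ℚ_[q]) := by
  unfold nearExp at ha
  by_cases hqp : q = p
  · subst hqp
    rw [if_pos rfl] at ha
    obtain ⟨y, hy, -⟩ := exists_pow_eq_lam_of_eq q K hp2 a ha
    refine ⟨lamToTensor q K y, ?_⟩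
    rw [← map_pow, hy, lamToTensor_tmul]
    simp
  · rw [if_neg hqp, pow_one] at ha
    obtain ⟨y, hy, -⟩ := exists_pow_eq_lam_of_ne q K hqp hp a ha
    refine ⟨lamToTensor q K y, ?_⟩
    rw [← map_pow, hy, lamToTensor_tmul]
    simp

end Lam

end


end Fermat.Agent.PT.GLOB.PowerNearOne16
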