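/-
Program F (S55, Poitou–Tate), chapter GLOB (helper17): leaf (B1) **weak approximation** for
`∏_{q ∈ T} (K ⊗[ℚ] ℚ_[q])ˣ` modulo `1 + q ^ k • (𝓞 K ⊗[ℤ] ℤ_[q])`.

* `exists_nat_approx`, `exists_rat_approx`: simultaneous approximation of finitely many `q`-adic
  numbers (distinct primes `q`) by one rational number;
* `intToRat K q : (𝓞 K) ⊗[ℤ] ℤ_[q] →+* K ⊗[ℚ] ℚ_[q]`, characterised by `intToRat_tmul`;
* `exists_repr`, `exists_pow_mul_eq_intToRat`: coordinates in `K ⊗[ℚ] ℚ_[q]` with respect to an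
  integral basis, `K ⊗ ℚ_q = Λ_q[1/q]`;
* `weak_approx`: the weak approximation theorem.
-/
import Mathlib

set_option autoImplicit false
set_option linter.unusedSectionVars false
set_option linter.style.haveILetI false

open scoped TensorProduct NumberField

namespace Fermat.Agent.PT.GLOB.WeakApprox17

/-! ### Simultaneous approximation by rational numbers -/

section Rat

variable {ι : Type*} (T : Finset ι) (q : ι → ℕ) [hq : ∀ i, Fact (q i).Prime]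

theorem coprime_of_ne {i j : ι} (h : q i ≠ q j) : Nat.Coprime (q i) (q j) :=
  (Nat.coprime_primes (hq i).out (hq j).out).mpr h

/-- Chinese remainder theorem + density of `ℕ` in `ℤ_[q]`. -/
theorem exists_nat_approx (hinj : Set.InjOn q T) (d : ∀ i, ℤ_[q i]) (N : ℕ) :
    ∃ z : ℕ, ∀ i ∈ T, ∃ u : ℤ_[q i], (z : ℤ_[q i]) - d i = (q i : ℤ_[q i]) ^ N * u := by
  classical
  obtain ⟨z, hz⟩ := Nat.chineseRemainderOfFinset (fun i => (d i).appr N) (fun i => q i ^ N) T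
    (fun i _ => pow_ne_zero _ (hq i).out.ne_zero)
    (fun i hi j hj hij => by
      have : q i ≠ q j := fun h => hij (hinj hi hj h)
      exact Nat.Coprime.pow _ _ (coprime_of_ne q this))
  refine ⟨z, fun i hi => ?_⟩
  have h1 := hz i hi
  have h2 : ((q i ^ N : ℕ) : ℤ) ∣ (z : ℤ) - ((d i).appr N : ℤ) := by
    have := (Nat.modEq_iff_dvd.mp h1.symm)
    simpa using this
  obtain ⟨k, hk⟩ := h2
  have h3 : (z : ℤ_[q i]) - ((d i).appr N : ℤ_[q i]) = (q i : ℤ_[q i]) ^ N * (k : ℤ_[q i]) := by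
    have := congrArg (Int.cast : ℤ → ℤ_[q i]) hk
    push_cast at this
    exact this
  have h4 := PadicInt.appr_spec N (d i)
  rw [Ideal.mem_span_singleton] at h4
  obtain ⟨u, hu⟩ := h4
  refine ⟨k - u, ?_⟩
  rw [mul_sub, ← h3, ← hu]
  ring

/-- Every `p`-adic number becomes integral after multiplication by a large power of `p`. -/
theorem exists_pow_mul_mem {p : ℕ} [hp : Fact p.Prime] (c : ℚ_[p]) :
    ∃ m : ℕ, ∀ m' : ℕ, m ≤ m' → ∃ d : ℤ_[p], c * (p : ℚ_[p]) ^ m' = (d : ℚ_[p]) := by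
  have hp1 : (1 : ℝ) < p := by exact_mod_cast hp.out.one_lt
  have hp0 : (0 : ℝ) < p := by linarith
  obtain ⟨m, hm⟩ := pow_unbounded_of_one_lt ‖c‖ hp1
  refine ⟨m, fun m' hm' => ?_⟩
  have h1 : ‖c * (p : ℚ_[p]) ^ m'‖ ≤ 1 := by
    rw [norm_mul, Padic.norm_p_pow, zpow_neg, zpow_natCast]
    have h2 : (p : ℝ) ^ m ≤ (p : ℝ) ^ m' := pow_le_pow_right₀ hp1.le hm'
    have h3 : (0 : ℝ) < (p : ℝ) ^ m' := pow_pos hp0 _
    rw [← div_eq_mul_inv, div_le_one h3]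
    linarith
  exact ⟨⟨_, h1⟩, rfl⟩

theorem isUnit_natCast_of_coprime {p : ℕ} [hp : Fact p.Prime] {n : ℕ} (h : p.Coprime n) :
    IsUnit (n : ℤ_[p]) :=
  PadicInt.isUnit_iff.mpr (PadicInt.norm_natCast_eq_one_iff.mpr h)

/-- **Weak approximation for `ℚ`** at finitely many distinct primes. -/
theorem exists_rat_approx (hinj : Set.InjOn q T) (c : ∀ i, ℚ_[q i]) (N : ℕ) :
    ∃ r : ℚ, ∀ i ∈ T, ∃ u : ℤ_[q i],
      (r : ℚ_[q i]) - c i = (q i : ℚ_[q i]) ^ N * (u : ℚ_[q i]) := by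
  classical
  choose m0 hm0 using fun i => exists_pow_mul_mem (c i)
  set m := T.sup m0 with hm
  have hd : ∀ i, i ∈ T → ∃ d : ℤ_[q i], c i * (q i : ℚ_[q i]) ^ m = (d : ℚ_[q i]) :=
    fun i hi => hm0 i m (Finset.le_sup hi)
  choose d hd using hd
  -- the other primes
  set P : ι → ℕ := fun i => ∏ j ∈ T.erase i, q j with hP
  have hPu : ∀ i ∈ T, IsUnit ((P i : ℕ) : ℤ_[q i]) := by
    intro i hiT
    apply isUnit_natCast_of_coprime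
    apply Nat.Coprime.prod_right
    intro j hj
    have hji : j ≠ i := (Finset.mem_erase.mp hj).1
    have hjT : j ∈ T := (Finset.mem_erase.mp hj).2
    exact coprime_of_ne q (fun h => hji (hinj hjT hiT h.symm))
  obtain ⟨z, hz⟩ := exists_nat_approx T q hinj
    (fun i => if h : i ∈ T then ((P i : ℕ) : ℤ_[q i]) ^ m * d i h else 0) (N + m)
  refine ⟨(z : ℚ) / ((∏ j ∈ T, q j : ℕ) : ℚ) ^ m, fun i hi => ?_⟩
  obtain ⟨u, hu⟩ := hz i hi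
  rw [dif_pos hi] at hu
  obtain ⟨w, hw⟩ := (hPu i hi).pow m |>.exists_right_inv
  refine ⟨u * w, ?_⟩
  have hne1 : (q i : ℚ_[q i]) ≠ 0 := by exact_mod_cast (hq i).out.ne_zero
  have hne2 : ((P i : ℕ) : ℚ_[q i]) ≠ 0 := by
    rw [Nat.cast_ne_zero, hP]
    exact Finset.prod_ne_zero_iff.mpr fun j _ => (hq j).out.ne_zero
  have hne : (q i : ℚ_[q i]) ^ m * ((P i : ℕ) : ℚ_[q i]) ^ m ≠ 0 :=
    mul_ne_zero (pow_ne_zero _ hne1) (pow_ne_zero _ hne2)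
  have hprod : ((∏ j ∈ T, q j : ℕ) : ℚ_[q i]) ^ m =
      (q i : ℚ_[q i]) ^ m * ((P i : ℕ) : ℚ_[q i]) ^ m := by
    rw [← mul_pow, ← Nat.cast_mul, hP, Finset.mul_prod_erase T q hi]
  have hr : (((z : ℚ) / ((∏ j ∈ T, q j : ℕ) : ℚ) ^ m : ℚ) : ℚ_[q i]) =
      (z : ℚ_[q i]) / ((q i : ℚ_[q i]) ^ m * ((P i : ℕ) : ℚ_[q i]) ^ m) := by
    rw [← hprod]; push_cast; rfl
  have hu' : (z : ℚ_[q i]) - ((P i : ℕ) : ℚ_[q i]) ^ m * (d i hi : ℚ_[q i]) =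
      (q i : ℚ_[q i]) ^ (N + m) * (u : ℚ_[q i]) := by
    have := congrArg (fun x : ℤ_[q i] => (x : ℚ_[q i])) hu
    simpa using this
  have hw' : ((P i : ℕ) : ℚ_[q i]) ^ m * (w : ℚ_[q i]) = 1 := by
    have := congrArg (fun x : ℤ_[q i] => (x : ℚ_[q i])) hw
    simpa using this
  apply mul_right_cancel₀ hne
  rw [hr, sub_mul, div_mul_cancel₀ _ hne]
  calc (z : ℚ_[q i]) - c i * ((q i : ℚ_[q i]) ^ m * ((P i : ℕ) : ℚ_[q i]) ^ m)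
      = (z : ℚ_[q i]) - ((P i : ℕ) : ℚ_[q i]) ^ m * (d i hi : ℚ_[q i]) := by
        rw [← hd i hi]; ring
    _ = (q i : ℚ_[q i]) ^ (N + m) * (u : ℚ_[q i]) := hu'
    _ = (q i : ℚ_[q i]) ^ N * (u : ℚ_[q i]) * (q i : ℚ_[q i]) ^ m *
          (((P i : ℕ) : ℚ_[q i]) ^ m * (w : ℚ_[q i])) := by rw [hw', pow_add]; ring
    _ = (q i : ℚ_[q i]) ^ N * ((u * w : ℤ_[q i]) : ℚ_[q i]) *
          ((q i : ℚ_[q i]) ^ m * ((P i : ℕ) : ℚ_[q i]) ^ m) := by push_cast; ring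

end Rat

/-! ### The lattice `𝓞 K ⊗[ℤ] ℤ_[q]` in `K ⊗[ℚ] ℚ_[q]` -/

section Tensor

variable (K : Type*) [Field K] [NumberField K] (q : ℕ) [hq : Fact q.Prime]

/-- The canonical ring homomorphism `𝓞 K ⊗[ℤ] ℤ_[q] → K ⊗[ℚ] ℚ_[q]`. -/
noncomputable def intToRat : (𝓞 K) ⊗[ℤ] ℤ_[q] →+* K ⊗[ℚ] ℚ_[q] :=
  (Algebra.TensorProduct.productMap
    (((Algebra.TensorProduct.includeLeftRingHom : K →+* K ⊗[ℚ] ℚ_[q]).comp
      (algebraMap (𝓞 K) K)).toIntAlgHom)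
    (((Algebra.TensorProduct.includeRight : ℚ_[q] →ₐ[ℚ] K ⊗[ℚ] ℚ_[q]).toRingHom.comp
      (PadicInt.Coe.ringHom (p := q))).toIntAlgHom)).toRingHom

@[simp] theorem intToRat_tmul (a : 𝓞 K) (c : ℤ_[q]) :
    intToRat K q (a ⊗ₜ[ℤ] c) = (a : K) ⊗ₜ[ℚ] (c : ℚ_[q]) := by
  unfold intToRat
  change (Algebra.TensorProduct.productMap _ _) (a ⊗ₜ[ℤ] c) = _
  rw [Algebra.TensorProduct.productMap_apply_tmul]
  change ((a : K) ⊗ₜ[ℚ] (1 : ℚ_[q])) * ((1 : K) ⊗ₜ[ℚ] (c : ℚ_[q])) = _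
  rw [Algebra.TensorProduct.tmul_mul_tmul, mul_one, one_mul]

theorem natCast_eq_tmul (n : ℕ) :
    ((n : ℕ) : K ⊗[ℚ] ℚ_[q]) = (1 : K) ⊗ₜ[ℚ] ((n : ℕ) : ℚ_[q]) := by
  rw [← map_natCast (Algebra.TensorProduct.includeRight : ℚ_[q] →ₐ[ℚ] K ⊗[ℚ] ℚ_[q])]
  rfl

theorem natCast_pow_mul_tmul (n m : ℕ) (a : K) (c : ℚ_[q]) :
    ((n : ℕ) : K ⊗[ℚ] ℚ_[q]) ^ m * (a ⊗ₜ[ℚ] c) = a ⊗ₜ[ℚ] (((n : ℕ) : ℚ_[q]) ^ m * c) := by
  rw [natCast_eq_tmul, Algebra.TensorProduct.tmul_pow, one_pow,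
    Algebra.TensorProduct.tmul_mul_tmul, one_mul]

/-- Coordinates with respect to the integral basis. -/
theorem exists_repr (y : K ⊗[ℚ] ℚ_[q]) :
    ∃ c : Module.Free.ChooseBasisIndex ℤ (𝓞 K) → ℚ_[q],
      y = ∑ j, ((NumberField.RingOfIntegers.basis K j : 𝓞 K) : K) ⊗ₜ[ℚ] c j := by
  induction y using TensorProduct.induction_on with
  | zero => exact ⟨0, by simp⟩
  | tmul x c =>
    refine ⟨fun j => ((NumberField.integralBasis K).repr x j) • c, ?_⟩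
    conv_lhs => rw [← (NumberField.integralBasis K).sum_repr x]
    rw [TensorProduct.sum_tmul]
    apply Finset.sum_congr rfl
    intro j _
    rw [TensorProduct.smul_tmul, NumberField.integralBasis_apply]
  | add y y' hy hy' =>
    obtain ⟨c, rfl⟩ := hy
    obtain ⟨c', rfl⟩ := hy'
    refine ⟨c + c', ?_⟩
    rw [← Finset.sum_add_distrib]
    apply Finset.sum_congr rfl
    intro j _
    rw [Pi.add_apply, TensorProduct.tmul_add]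

/-- `K ⊗[ℚ] ℚ_[q] = Λ[1/q]` for `Λ` the image of `𝓞 K ⊗[ℤ] ℤ_[q]`. -/
theorem exists_pow_mul_eq_intToRat (y : K ⊗[ℚ] ℚ_[q]) :
    ∃ m : ℕ, ∀ m' : ℕ, m ≤ m' → ∃ z : (𝓞 K) ⊗[ℤ] ℤ_[q],
      ((q : ℕ) : K ⊗[ℚ] ℚ_[q]) ^ m' * y = intToRat K q z := by
  classical
  obtain ⟨c, rfl⟩ := exists_repr K q y
  choose m0 hm0 using fun j => exists_pow_mul_mem (c j)
  refine ⟨Finset.univ.sup m0, fun m' hm' => ?_⟩
  have hd : ∀ j, ∃ d : ℤ_[q], c j * (q : ℚ_[q]) ^ m' = (d : ℚ_[q]) :=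
    fun j => hm0 j m' (le_trans (Finset.le_sup (Finset.mem_univ j)) hm')
  choose d hd using hd
  refine ⟨∑ j, (NumberField.RingOfIntegers.basis K j) ⊗ₜ[ℤ] d j, ?_⟩
  rw [map_sum, Finset.mul_sum]
  apply Finset.sum_congr rfl
  intro j _
  rw [natCast_pow_mul_tmul, intToRat_tmul, ← hd j, mul_comm]

end Tensor

/-! ### Weak approximation -/

section Main

variable (K : Type*) [Field K] [NumberField K] {ι : Type*} (T : Finset ι) (q : ι → ℕ)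
  [hq : ∀ i, Fact (q i).Prime]

/-- If `a ⊗ 1` is `q`-adically close to `x⁻¹` then `(a ⊗ 1) * x` is in `1 + q ^ k Λ`. -/
theorem close_inv {p : ℕ} [Fact p.Prime] (x : (K ⊗[ℚ] ℚ_[p])ˣ) (k m N : ℕ) (hN : k + m ≤ N)
    (w : (𝓞 K) ⊗[ℤ] ℤ_[p])
    (hw : ((p : ℕ) : K ⊗[ℚ] ℚ_[p]) ^ m * (x : K ⊗[ℚ] ℚ_[p]) = intToRat K p w)
    (a : K) (t : (𝓞 K) ⊗[ℤ] ℤ_[p])
    (ht : a ⊗ₜ[ℚ] (1 : ℚ_[p]) - ((x⁻¹ : (K ⊗[ℚ] ℚ_[p])ˣ) : K ⊗[ℚ] ℚ_[p]) =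
      ((p : ℕ) : K ⊗[ℚ] ℚ_[p]) ^ N * intToRat K p t) :
    ∃ z : (𝓞 K) ⊗[ℤ] ℤ_[p], z - 1 ∈ Ideal.span {((p : ℕ) : (𝓞 K) ⊗[ℤ] ℤ_[p]) ^ k} ∧
      intToRat K p z = (a ⊗ₜ[ℚ] (1 : ℚ_[p])) * (x : K ⊗[ℚ] ℚ_[p]) := by
  obtain ⟨e, rfl⟩ : ∃ e, N = k + m + e := ⟨N - (k + m), by omega⟩
  refine ⟨1 + ((p : ℕ) : (𝓞 K) ⊗[ℤ] ℤ_[p]) ^ k * (((p : ℕ) : (𝓞 K) ⊗[ℤ] ℤ_[p]) ^ e * t * w),
    ?_, ?_⟩
  · rw [add_sub_cancel_left]
    exact Ideal.mul_mem_right _ _ (Ideal.mem_span_singleton_self _)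
  · have h1 : a ⊗ₜ[ℚ] (1 : ℚ_[p]) = ((x⁻¹ : (K ⊗[ℚ] ℚ_[p])ˣ) : K ⊗[ℚ] ℚ_[p]) +
        ((p : ℕ) : K ⊗[ℚ] ℚ_[p]) ^ (k + m + e) * intToRat K p t := by
      rw [← ht]; ring
    rw [h1, add_mul, Units.inv_mul, map_add, map_one, map_mul, map_mul, map_mul, map_pow,
      map_pow, map_natCast, ← hw]
    ring

/-- **Density of `K` in `∏_{i ∈ T} K ⊗[ℚ] ℚ_[q i]`**: simultaneous approximation of finitely many
elements `y i` by one element of `K`, up to `(q i) ^ N • (𝓞 K ⊗[ℤ] ℤ_[q i])`. -/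
theorem dense_approx (hinj : Set.InjOn q T) (N : ℕ) (y : ∀ i, K ⊗[ℚ] ℚ_[q i]) :
    ∃ a : K, ∀ i ∈ T, ∃ t : (𝓞 K) ⊗[ℤ] ℤ_[q i],
      a ⊗ₜ[ℚ] (1 : ℚ_[q i]) - y i = ((q i : ℕ) : K ⊗[ℚ] ℚ_[q i]) ^ N * intToRat K (q i) t := by
  classical
  choose c hc using fun i => exists_repr K (q i) (y i)
  choose r hr using fun j => exists_rat_approx T q hinj (fun i => c i j) N
  refine ⟨∑ j, (r j) • ((NumberField.RingOfIntegers.basis K j : 𝓞 K) : K), fun i hi => ?_⟩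
  choose u hu using fun j => hr j i hi
  refine ⟨∑ j, (NumberField.RingOfIntegers.basis K j) ⊗ₜ[ℤ] u j, ?_⟩
  rw [hc i, TensorProduct.sum_tmul, ← Finset.sum_sub_distrib, map_sum, Finset.mul_sum]
  apply Finset.sum_congr rfl
  intro j _
  rw [TensorProduct.smul_tmul, ← TensorProduct.tmul_sub, intToRat_tmul, natCast_pow_mul_tmul,
    ← hu j]
  congr 2
  rw [Algebra.smul_def, mul_one]
  rfl

/-- **Weak approximation**: for finitely many distinct primes `q i` (`i ∈ T`) and units `x i` of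
`K ⊗[ℚ] ℚ_[q i]` there is a single `a ∈ Kˣ` such that `(a ⊗ 1) * x i` lies in the image of
`1 + (q i) ^ k • (𝓞 K ⊗[ℤ] ℤ_[q i])` for all `i ∈ T`. -/
theorem weak_approx (hinj : Set.InjOn q T) (k : ℕ) (x : ∀ i, (K ⊗[ℚ] ℚ_[q i])ˣ) :
    ∃ a : Kˣ, ∀ i ∈ T, ∃ z : (𝓞 K) ⊗[ℤ] ℤ_[q i],
      z - 1 ∈ Ideal.span {((q i : ℕ) : (𝓞 K) ⊗[ℤ] ℤ_[q i]) ^ k} ∧
      intToRat K (q i) z = ((a : K) ⊗ₜ[ℚ] (1 : ℚ_[q i])) * (x i : K ⊗[ℚ] ℚ_[q i]) := by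
  classical
  -- denominators of the `x i`
  choose m0 hm0 using fun i => exists_pow_mul_eq_intToRat K (q i) (x i : K ⊗[ℚ] ℚ_[q i])
  set m := T.sup m0 with hm
  have hw : ∀ i ∈ T, ∃ w : (𝓞 K) ⊗[ℤ] ℤ_[q i],
      ((q i : ℕ) : K ⊗[ℚ] ℚ_[q i]) ^ m * (x i : K ⊗[ℚ] ℚ_[q i]) = intToRat K (q i) w :=
    fun i hi => hm0 i m (Finset.le_sup hi)
  set N := k + m with hN
  -- approximation of the inverses
  obtain ⟨a0, key0⟩ := dense_approx K T q hinj N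
    (fun i => (((x i)⁻¹ : (K ⊗[ℚ] ℚ_[q i])ˣ) : K ⊗[ℚ] ℚ_[q i]))
  -- the correction term `(∏ q) ^ N`
  set Pn : ℕ := (∏ j ∈ T, q j) ^ N with hPn
  have keyP : ∀ i ∈ T, ∃ t : (𝓞 K) ⊗[ℤ] ℤ_[q i],
      ((Pn : ℕ) : K) ⊗ₜ[ℚ] (1 : ℚ_[q i]) =
        ((q i : ℕ) : K ⊗[ℚ] ℚ_[q i]) ^ N * intToRat K (q i) t := by
    intro i hi
    refine ⟨(((∏ j ∈ T.erase i, q j) ^ N : ℕ) : (𝓞 K) ⊗[ℤ] ℤ_[q i]), ?_⟩
    rw [map_natCast, ← Nat.cast_pow, ← Nat.cast_mul, ← mul_pow, Finset.mul_prod_erase T q hi,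
      ← hPn, Algebra.TensorProduct.natCast_def]
  have hPn0 : ((Pn : ℕ) : K) ≠ 0 := by
    rw [Nat.cast_ne_zero, hPn]
    exact pow_ne_zero _ (Finset.prod_ne_zero_iff.mpr fun j _ => (hq j).out.ne_zero)
  -- conclusion for any `a` close to all the inverses
  have concl : ∀ a : K, (∀ i ∈ T, ∃ t : (𝓞 K) ⊗[ℤ] ℤ_[q i],
      a ⊗ₜ[ℚ] (1 : ℚ_[q i]) - (((x i)⁻¹ : (K ⊗[ℚ] ℚ_[q i])ˣ) : K ⊗[ℚ] ℚ_[q i]) =
        ((q i : ℕ) : K ⊗[ℚ] ℚ_[q i]) ^ N * intToRat K (q i) t) →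
      ∀ i ∈ T, ∃ z : (𝓞 K) ⊗[ℤ] ℤ_[q i],
        z - 1 ∈ Ideal.span {((q i : ℕ) : (𝓞 K) ⊗[ℤ] ℤ_[q i]) ^ k} ∧
        intToRat K (q i) z = (a ⊗ₜ[ℚ] (1 : ℚ_[q i])) * (x i : K ⊗[ℚ] ℚ_[q i]) := by
    intro a ha i hi
    obtain ⟨t, ht⟩ := ha i hi
    obtain ⟨w, hw⟩ := hw i hi
    exact close_inv K (x i) k m N le_rfl w hw a t ht
  by_cases h0 : a0 = 0
  · refine ⟨Units.mk0 _ hPn0, ?_⟩
    apply concl
    intro i hi
    obtain ⟨t, ht⟩ := key0 i hi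
    obtain ⟨t', ht'⟩ := keyP i hi
    refine ⟨t + t', ?_⟩
    rw [Units.val_mk0, map_add, mul_add, ← ht, ← ht', h0, TensorProduct.zero_tmul]
    ring
  · exact ⟨Units.mk0 a0 h0, concl a0 key0⟩

end Main

end Fermat.Agent.PT.GLOB.WeakApprox17
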