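/-
Program F (S55, Poitou–Tate), chapter GLOB (helper17): leaf (F2b), the **second inequality in
idelic form**, independent of the norm map of `A3`.

`K ⊆ L` number fields, `[L : K] = p` an odd prime, `T` a finite set of rational primes.
If `H ≤ JT T K` is a subgroup of finite index which contains
 (h1) the principal `T`-ideles,
 (h2) the ideles `(1, P)` for the primes `P` of `K` away from `T` having a prime of `L` above them
      of the same absolute norm (norms of degree one primes),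
 (h3) the ideles `(y ^ p at q, 1)` for `q ∈ T`, `y ∈ (K ⊗ ℚ_q)ˣ` (norms of `y ⊗ 1`),
then `[JT T K : H] ≤ p`.  Input: helper5's analytic inequality `ray_norm_index_le`, here the
explicit hypothesis `RayIneq K L`.
-/
import Mathlib
import Fermat.Agent.CFT.C1ClassDefs
import Fermat.Agent.PT.GLOB.Interface23
import Fermat.Agent.PT.GLOB.WeakApprox17
import Fermat.Agent.PT.GLOB.PowerNearOne16

set_option autoImplicit false
set_option linter.unusedSectionVars false
set_option linter.style.haveILetI false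

open scoped TensorProduct NumberField nonZeroDivisors
open IsDedekindDomain Polynomial

namespace Fermat.Agent.PT.GLOB.SecondIneqIdelic17

open Fermat.Agent.PT.GLOB.Interface23 Fermat.Agent.PT.GLOB.WeakApprox17
  Fermat.Agent.PT.GLOB.PowerNearOne16 Fermat.Agent.CFT.C1ClassDefs

/-! ### Integral form of `PowerNearOne16`: elements of `1 + q ^ k Λ` are `p`-th powers -/

section Integral

variable (q : ℕ) [Fact q.Prime] (K : Type*) [Field K] [NumberField K]

/-- Case `q ≠ p`: `z ≡ 1 mod q` in `Λ = ℤ_[q] ⊗ 𝓞 K` is a `p`-th power. -/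
theorem exists_pow_eq_lam_of_ne' {p : ℕ} (hqp : q ≠ p) (hp : p.Prime) (z b : Lam q K)
    (hz : z = 1 + (q : Lam q K) * b) : ∃ y : Lam q K, y ^ p = z := by
  have hunit : IsUnit (p : ℤ_[q]) := by
    apply isUnit_natCast_of_coprime
    exact (Nat.coprime_primes Fact.out hp).mpr hqp
  have hunitL : IsUnit (p : Lam q K) := by
    have := hunit.map (algebraMap ℤ_[q] (Lam q K))
    rwa [map_natCast] at this
  obtain ⟨y, hy, -⟩ := exists_isRoot_of_isAdicComplete (qIdeal q K)
    (X ^ p - C z : (Lam q K)[X]) 1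
    (by
      rw [eval_sub, eval_pow, eval_X, eval_C, one_pow, hz]
      have : (1 : Lam q K) - (1 + (q : Lam q K) * b) = (q : Lam q K) * (-b) := by ring
      rw [this]
      exact natCast_mul_mem_qIdeal q K _)
    (by
      rw [derivative_sub, derivative_C, sub_zero, derivative_X_pow, eval_mul, eval_C, eval_pow,
        eval_X, one_pow, mul_one]
      exact hunitL.map _)
  refine ⟨y, ?_⟩
  rw [IsRoot.def, eval_sub, eval_pow, eval_X, eval_C, sub_eq_zero] at hy
  exact hy

/-- Case `q = p` odd: `z ≡ 1 mod q²` in `Λ` is a `q`-th power. -/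
theorem exists_pow_eq_lam_of_eq' (hq2 : q ≠ 2) (z b : Lam q K)
    (hz : z = 1 + (q : Lam q K) ^ 2 * b) : ∃ y : Lam q K, y ^ q = z := by
  obtain ⟨g, hg⟩ := exists_poly_one_add_mul_pow (Lam q K) (Fact.out : q.Prime) hq2
  obtain ⟨w, hw, -⟩ := exists_isRoot_of_isAdicComplete (qIdeal q K)
    (X + C (q : Lam q K) * g - C b : (Lam q K)[X]) b
    (by
      rw [eval_sub, eval_add, eval_X, eval_mul, eval_C, eval_C, add_sub_cancel_left]
      exact natCast_mul_mem_qIdeal q K _)
    (by
      rw [derivative_sub, derivative_C, sub_zero, derivative_add, derivative_X, derivative_mul,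
        derivative_C, zero_mul, zero_add, eval_add, eval_one, eval_mul, eval_C, map_add, map_one]
      have : Ideal.Quotient.mk (qIdeal q K) ((q : Lam q K) * eval b (derivative g)) = 0 :=
        Ideal.Quotient.eq_zero_iff_mem.mpr (natCast_mul_mem_qIdeal q K _)
      rw [this, add_zero]
      exact isUnit_one)
  rw [IsRoot.def, eval_sub, eval_add, eval_X, eval_mul, eval_C, eval_C, sub_eq_zero] at hw
  refine ⟨1 + (q : Lam q K) * w, ?_⟩
  rw [hg w, hz, ← hw]
  ring

/-- Both cases: `z ≡ 1 mod q²` in `Λ` is a `p`-th power (`p` odd). -/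
theorem exists_pow_eq_lam {p : ℕ} (hp : p.Prime) (hp2 : p ≠ 2) (z b : Lam q K)
    (hz : z = 1 + (q : Lam q K) ^ 2 * b) : ∃ y : Lam q K, y ^ p = z := by
  by_cases hqp : q = p
  · subst hqp
    exact exists_pow_eq_lam_of_eq' q K hp2 z b hz
  · exact exists_pow_eq_lam_of_ne' q K hqp hp z ((q : Lam q K) * b) (by rw [hz]; ring)

/-- `lamToTensor ∘ comm = intToRat`. -/
theorem lamToTensor_comm (z : (𝓞 K) ⊗[ℤ] ℤ_[q]) :
    lamToTensor q K (Algebra.TensorProduct.comm ℤ (𝓞 K) ℤ_[q] z) = intToRat K q z := by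
  induction z using TensorProduct.induction_on with
  | zero => simp
  | tmul a c =>
    rw [Algebra.TensorProduct.comm_tmul, lamToTensor_tmul, intToRat_tmul]
  | add x y hx hy => rw [map_add, map_add, map_add, hx, hy]

/-- **Integral PowerNearOne**: the image in `K ⊗[ℚ] ℚ_[q]` of an element of
`1 + q² (𝓞 K ⊗[ℤ] ℤ_[q])` is a `p`-th power, `p` an odd prime. -/
theorem exists_pow_eq_intToRat {p : ℕ} (hp : p.Prime) (hp2 : p ≠ 2) (z : (𝓞 K) ⊗[ℤ] ℤ_[q])
    (hz : z - 1 ∈ Ideal.span {((q : ℕ) : (𝓞 K) ⊗[ℤ] ℤ_[q]) ^ 2}) :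
    ∃ y : K ⊗[ℚ] ℚ_[q], y ^ p = intToRat K q z := by
  obtain ⟨t, ht⟩ := Ideal.mem_span_singleton'.mp hz
  have hz' : Algebra.TensorProduct.comm ℤ (𝓞 K) ℤ_[q] z =
      1 + (q : Lam q K) ^ 2 * Algebra.TensorProduct.comm ℤ (𝓞 K) ℤ_[q] t := by
    have : z = 1 + ((q : ℕ) : (𝓞 K) ⊗[ℤ] ℤ_[q]) ^ 2 * t := by rw [mul_comm, ht]; ring
    conv_lhs => rw [this]
    rw [map_add, map_one, map_mul, map_pow, map_natCast]
  obtain ⟨y, hy⟩ := exists_pow_eq_lam q K hp hp2 _ _ hz'
  refine ⟨lamToTensor q K y, ?_⟩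
  rw [← map_pow, hy, lamToTensor_comm]

end Integral

/-! ### The prime-to-`T` part of an integral ideal as a divisor -/

section DivPart

variable (T : Finset Nat.Primes) (K : Type*) [Field K] [NumberField K]

/-- The order of a nonzero integral ideal at a finite prime. -/
noncomputable def ordI (P : HeightOneSpectrum (𝓞 K)) (I : (Ideal (𝓞 K))⁰) : ℤ :=
  FractionalIdeal.count K P ((I : Ideal (𝓞 K)) : FractionalIdeal (𝓞 K)⁰ K)

theorem coe_ne_zero (I : (Ideal (𝓞 K))⁰) :
    ((I : Ideal (𝓞 K)) : FractionalIdeal (𝓞 K)⁰ K) ≠ 0 :=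
  FractionalIdeal.coeIdeal_ne_zero.mpr (nonZeroDivisors.coe_ne_zero I)

theorem ordI_mul (P : HeightOneSpectrum (𝓞 K)) (I J : (Ideal (𝓞 K))⁰) :
    ordI K P (I * J) = ordI K P I + ordI K P J := by
  unfold ordI
  rw [Submonoid.coe_mul, FractionalIdeal.coeIdeal_mul,
    FractionalIdeal.count_mul K P (coe_ne_zero K I) (coe_ne_zero K J)]

theorem ordI_one (P : HeightOneSpectrum (𝓞 K)) : ordI K P 1 = 0 := by
  unfold ordI
  rw [Submonoid.coe_one, Ideal.one_eq_top, FractionalIdeal.coeIdeal_top,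
    FractionalIdeal.count_one]

theorem finite_ordI_ne_zero (I : (Ideal (𝓞 K))⁰) :
    {P : PrimeAway T K | ordI K P.1 I ≠ 0}.Finite := by
  have h := FractionalIdeal.finite_factors (R := 𝓞 K) (K := K)
    ((I : Ideal (𝓞 K)) : FractionalIdeal (𝓞 K)⁰ K)
  rw [Filter.eventually_cofinite] at h
  exact Set.Finite.preimage (Subtype.val_injective.injOn) h

/-- The prime-to-`T` part of a nonzero integral ideal, as a divisor. -/
noncomputable def divPart : (Ideal (𝓞 K))⁰ →* DivT T K where
  toFun I := DivT.ofFinsupp T K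
    (Finsupp.ofSupportFinite (fun P : PrimeAway T K => ordI K P.1 I) (finite_ordI_ne_zero T K I))
  map_one' := by
    apply congrArg (DivT.ofFinsupp T K)
    ext P
    simp [Finsupp.ofSupportFinite_coe, ordI_one]
  map_mul' I J := by
    change _ = DivT.ofFinsupp T K
      (Finsupp.ofSupportFinite (fun P : PrimeAway T K => ordI K P.1 I)
          (finite_ordI_ne_zero T K I) +
        Finsupp.ofSupportFinite (fun P : PrimeAway T K => ordI K P.1 J)
          (finite_ordI_ne_zero T K J))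
    apply congrArg (DivT.ofFinsupp T K)
    ext P
    rw [Finsupp.add_apply]
    exact ordI_mul K P.1 I J

theorem divPart_apply (I : (Ideal (𝓞 K))⁰) (P : PrimeAway T K) :
    DivT.toFinsupp T K (divPart T K I) P = ordI K P.1 I := rfl

/-- On principal ideals `divPart` is `divT`. -/
theorem divPart_span (a : 𝓞 K) (h : Ideal.span {a} ∈ (Ideal (𝓞 K))⁰) (au : Kˣ)
    (hau : (au : K) = (a : K)) : divPart T K ⟨Ideal.span {a}, h⟩ = divT T K au := by
  apply congrArg (DivT.ofFinsupp T K)
  ext P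
  change ordI K P.1 ⟨Ideal.span {a}, h⟩ = ordAt K P.1 au
  unfold ordI ordAt
  rw [FractionalIdeal.coeIdeal_span_singleton, hau]

/-- `divPart` of a prime away from `T` is the corresponding generator of `DivT`. -/
theorem divPart_prime (P : PrimeAway T K) :
    divPart T K (primeToIdeal0 P.1) = DivT.ofFinsupp T K (Finsupp.single P 1) := by
  classical
  apply congrArg (DivT.ofFinsupp T K)
  ext P'
  change ordI K P'.1 (primeToIdeal0 P.1) = _
  unfold ordI
  rw [coe_primeToIdeal0, Finsupp.single_apply]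
  split_ifs with h
  · rw [← h]; exact FractionalIdeal.count_self K P.1
  · apply FractionalIdeal.count_maximal_coprime
    intro h'
    exact h (Subtype.ext h')

end DivPart

/-! ### A group-theoretic reduction: exponent `p` quotients -/

section ExpP

/-- If `H` contains all `p`-th powers of the commutative group `G` and every subgroup of finite
index containing `H` has index at most `p`, then `H` itself has finite index at most `p`
(the quotient is an `𝔽_p`-vector space all of whose finite quotients have dimension `≤ 1`). -/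
theorem finiteIndex_and_index_le {G : Type*} [CommGroup G] (p : ℕ) [hp : Fact p.Prime]
    (H : Subgroup G) (hpow : ∀ g : G, g ^ p ∈ H)
    (hle : ∀ H' : Subgroup G, H ≤ H' → H'.FiniteIndex → H'.index ≤ p) :
    H.FiniteIndex ∧ H.index ≤ p := by
  classical
  have hnsmul : ∀ x : Additive (G ⧸ H), p • x = 0 := by
    intro x
    obtain ⟨g, hg⟩ := QuotientGroup.mk_surjective (Additive.toMul x)
    apply Additive.toMul.injective
    rw [toMul_nsmul, ← hg, ← QuotientGroup.mk_pow, toMul_zero, QuotientGroup.eq_one_iff]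
    exact hpow g
  letI : Module (ZMod p) (Additive (G ⧸ H)) := AddCommGroup.zmodModule (n := p) hnsmul
  -- any two vectors are dependent
  have key : ∀ v1 v2 : Additive (G ⧸ H), v1 ≠ 0 →
      v2 ∈ (Submodule.span (ZMod p) ({v1} : Set (Additive (G ⧸ H))) :
        Submodule (ZMod p) (Additive (G ⧸ H))) := by
    intro v1 v2 hv1
    by_contra hv2
    set W : Submodule (ZMod p) (Additive (G ⧸ H)) :=
      Submodule.span (ZMod p) ({v1, v2} : Set (Additive (G ⧸ H))) with hW
    obtain ⟨W', hW'⟩ := Submodule.exists_isCompl W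
    let π := W.projectionOnto W' hW'
    let f : G →* Multiplicative W :=
      { toFun := fun g => Multiplicative.ofAdd (π (Additive.ofMul (QuotientGroup.mk g)))
        map_one' := by
          change Multiplicative.ofAdd (π 0) = 1
          rw [map_zero]; rfl
        map_mul' := fun g g' => by
          change Multiplicative.ofAdd (π (Additive.ofMul (QuotientGroup.mk g) +
            Additive.ofMul (QuotientGroup.mk g'))) = _
          rw [map_add]; rfl }
    have hfsurj : Function.Surjective f := by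
      intro w
      obtain ⟨v, hv⟩ := Submodule.projectionOnto_surjective hW' (Multiplicative.toAdd w)
      obtain ⟨g, hg⟩ := QuotientGroup.mk_surjective (Additive.toMul v)
      refine ⟨g, ?_⟩
      change Multiplicative.ofAdd (π (Additive.ofMul (QuotientGroup.mk g))) = w
      rw [hg]
      exact congrArg Multiplicative.ofAdd hv
    have hHle : H ≤ f.ker := by
      intro g hg
      rw [MonoidHom.mem_ker]
      change Multiplicative.ofAdd (π (Additive.ofMul (QuotientGroup.mk g))) = 1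
      rw [(QuotientGroup.eq_one_iff g).mpr hg]
      change Multiplicative.ofAdd (π 0) = 1
      rw [map_zero]; rfl
    haveI : Module.Finite (ZMod p) W := Module.Finite.span_of_finite _ (Set.toFinite _)
    haveI : Finite W := Module.finite_of_finite (ZMod p)
    have hidx : f.ker.index = Nat.card W := by
      rw [Subgroup.index_ker, MonoidHom.range_eq_top.mpr hfsurj]
      rw [Nat.card_congr (Subgroup.topEquiv (G := Multiplicative W)).toEquiv]
      exact Nat.card_congr Multiplicative.toAdd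
    have hfin : f.ker.FiniteIndex := ⟨by rw [hidx]; exact Nat.card_pos.ne'⟩
    have h1 := hle f.ker hHle hfin
    rw [hidx] at h1
    -- `W` has at least `p * p` elements
    have hmem : ∀ ab : ZMod p × ZMod p, ab.1 • v1 + ab.2 • v2 ∈ W := fun ab =>
      Submodule.mem_span_pair.mpr ⟨ab.1, ab.2, rfl⟩
    have hinj : Function.Injective
        (fun ab : ZMod p × ZMod p => (⟨ab.1 • v1 + ab.2 • v2, hmem ab⟩ : W)) := by
      rintro ⟨a, b⟩ ⟨a', b'⟩ h
      have h' : a • v1 + b • v2 = a' • v1 + b' • v2 := congrArg Subtype.val h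
      have hb : b = b' := by
        by_contra hbb
        apply hv2
        rw [Submodule.mem_span_singleton]
        refine ⟨(b - b')⁻¹ * (a' - a), ?_⟩
        have h2 : (b - b') • v2 = (a' - a) • v1 := by
          rw [sub_smul, sub_smul, sub_eq_sub_iff_add_eq_add]
          rw [add_comm, h', add_comm]
        rw [mul_smul, ← h2, smul_smul, inv_mul_cancel₀ (sub_ne_zero.mpr hbb), one_smul]
      subst hb
      have h2 : (a - a') • v1 = 0 := by
        rw [sub_smul, sub_eq_zero]
        exact add_right_cancel h'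
      rcases smul_eq_zero.mp h2 with h3 | h3
      · rw [sub_eq_zero.mp h3]
      · exact absurd h3 hv1
    have h2 := Nat.card_le_card_of_injective _ hinj
    rw [Nat.card_prod, Nat.card_zmod] at h2
    have := hp.out.one_lt
    nlinarith
  -- conclusion
  have hcard : Finite (Additive (G ⧸ H)) ∧ Nat.card (Additive (G ⧸ H)) ≤ p := by
    by_cases h0 : ∀ v : Additive (G ⧸ H), v = 0
    · haveI : Subsingleton (Additive (G ⧸ H)) := ⟨fun a b => (h0 a).trans (h0 b).symm⟩
      refine ⟨inferInstance, ?_⟩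
      rw [Nat.card_unique]
      exact hp.out.one_lt.le
    · push_neg at h0
      obtain ⟨v1, hv1⟩ := h0
      have hsurj : Function.Surjective (fun a : ZMod p => a • v1) := by
        intro v2
        obtain ⟨a, ha⟩ := Submodule.mem_span_singleton.mp (key v1 v2 hv1)
        exact ⟨a, ha⟩
      haveI : Finite (Additive (G ⧸ H)) := Finite.of_surjective _ hsurj
      refine ⟨inferInstance, ?_⟩
      have := Nat.card_le_card_of_surjective _ hsurj
      rwa [Nat.card_zmod] at this
  obtain ⟨hfin, hle'⟩ := hcard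
  have hidx : H.index = Nat.card (Additive (G ⧸ H)) := rfl
  refine ⟨⟨?_⟩, hidx ▸ hle'⟩
  rw [hidx]
  exact Nat.card_pos.ne'

end ExpP

/-! ### The idelic second inequality -/

section Main

universe u v

variable (T : Finset Nat.Primes) (K : Type u) (L : Type v) [Field K] [NumberField K] [Field L]
  [NumberField L] [Algebra K L]

/-- helper5's analytic inequality (`RayZeta5.ray_norm_index_le`), as an explicit hypothesis. -/
def RayIneq : Prop :=
  ∀ (G : Type u) [CommGroup G] [Finite G] (φ : (Ideal (𝓞 K))⁰ →* G) (m : Ideal (𝓞 K)),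
    m ≠ ⊥ →
    (∀ (a : 𝓞 K) (h : Ideal.span {a} ∈ (Ideal (𝓞 K))⁰), a - 1 ∈ m →
      φ ⟨Ideal.span {a}, h⟩ = 1) →
    (∀ g : G, ∃ I : (Ideal (𝓞 K))⁰, (I : Ideal (𝓞 K)) ⊔ m = ⊤ ∧ φ I = g) →
    ∀ S : Finset (HeightOneSpectrum (𝓞 K)),
    (∀ P ∈ degOnePrimes K L, P ∉ S → φ (primeToIdeal0 P) = 1) →
    Nat.card G ≤ Module.finrank K L

variable {T K}

/-- Family version of hypothesis (h3). -/
theorem mem_of_forall_pow (p : ℕ) (H : Subgroup (JT T K))
    (h3 : ∀ (q : T) (y : (Loc K q.1)ˣ), ((Pi.mulSingle q (y ^ p) : IT T K), (1 : DivT T K)) ∈ H)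
    (f : IT T K) (hf : ∀ q : T, ∃ y : (Loc K q.1)ˣ, f q = y ^ p) :
    ((f, 1) : JT T K) ∈ H := by
  classical
  choose y hy using hf
  have h : ((f, 1) : JT T K) =
      ∏ q : T, ((Pi.mulSingle q (y q ^ p) : IT T K), (1 : DivT T K)) := by
    apply Prod.ext
    · rw [Prod.fst_prod]
      simp only
      rw [← Finset.univ_prod_mulSingle f]
      apply Finset.prod_congr rfl
      intro q _
      rw [hy q]
    · rw [Prod.snd_prod]
      simp
  rw [h]
  exact Subgroup.prod_mem _ fun q _ => h3 q (y q)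

/-- An element of `Loc K q` whose `p`-th power is a unit is a unit, packaged. -/
theorem exists_unit_pow_eq {R : Type*} [CommRing R] {p : ℕ} (hp : p ≠ 0) (u : Rˣ) (y : R)
    (hy : y ^ p = (u : R)) : ∃ yu : Rˣ, u = yu ^ p := by
  have hyu : IsUnit y := (isUnit_pow_iff hp).mp (hy ▸ u.isUnit)
  refine ⟨hyu.unit, Units.ext ?_⟩
  rw [Units.val_pow_eq_pow_val, IsUnit.unit_spec, hy]

/-- The product of the primes of `T`, as an element of `𝓞 K`, lies in no prime away from `T`. -/
theorem prod_notMem (P : PrimeAway T K) : ((∏ q ∈ T, (q : ℕ) : ℕ) : 𝓞 K) ∉ P.1.asIdeal := by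
  intro h
  rw [Nat.cast_prod] at h
  obtain ⟨q, hq, hqP⟩ := (P.1.isPrime.prod_mem_iff).mp h
  apply P.2 q hq
  simpa using hqP

theorem sup_eq_top_of_primeAway (P : PrimeAway T K) (k : ℕ) :
    P.1.asIdeal ⊔ Ideal.span {(((∏ q ∈ T, (q : ℕ)) ^ k : ℕ) : 𝓞 K)} = ⊤ := by
  by_contra hne
  have hle : P.1.asIdeal ≤ P.1.asIdeal ⊔ Ideal.span {(((∏ q ∈ T, (q : ℕ)) ^ k : ℕ) : 𝓞 K)} :=
    le_sup_left
  have heq := P.1.isMaximal.eq_of_le hne hle
  have hmem : (((∏ q ∈ T, (q : ℕ)) ^ k : ℕ) : 𝓞 K) ∈ P.1.asIdeal := by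
    rw [heq]
    exact Ideal.mem_sup_right (Ideal.mem_span_singleton_self _)
  rw [Nat.cast_pow] at hmem
  exact prod_notMem P (P.1.isPrime.mem_of_pow_mem _ hmem)

/-- **Second inequality, idelic form.** -/
theorem index_le_of_rayIneq (hRay : RayIneq K L) (p : ℕ) (hp : p.Prime) (hp2 : p ≠ 2)
    (hdeg : Module.finrank K L = p) (H : Subgroup (JT T K)) [H.FiniteIndex]
    (h1 : (diagJ T K).range ≤ H)
    (h2 : ∀ P : PrimeAway T K, P.1 ∈ degOnePrimes K L →
      ((1 : IT T K), DivT.ofFinsupp T K (Finsupp.single P 1)) ∈ H)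
    (h3 : ∀ (q : T) (y : (Loc K q.1)ˣ),
      ((Pi.mulSingle q (y ^ p) : IT T K), (1 : DivT T K)) ∈ H) :
    H.index ≤ p := by
  classical
  haveI : H.Normal := Subgroup.normal_of_isMulCommutative H
  have h3' := mem_of_forall_pow p H h3
  -- the modulus
  set N : ℕ := ∏ q ∈ T, (q : ℕ) with hN
  have hN0 : N ≠ 0 := Finset.prod_ne_zero_iff.mpr fun q _ => q.2.ne_zero
  set m : Ideal (𝓞 K) := Ideal.span {((N ^ 2 : ℕ) : 𝓞 K)} with hm
  have hm0 : m ≠ ⊥ := by
    rw [hm, Ne, Ideal.span_singleton_eq_bot, Nat.cast_eq_zero]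
    exact pow_ne_zero _ hN0
  -- the homomorphism
  let φ : (Ideal (𝓞 K))⁰ →* JT T K ⧸ H :=
    (QuotientGroup.mk' H).comp ((MonoidHom.inr (IT T K) (DivT T K)).comp (divPart T K))
  have hφ : ∀ I, φ I = QuotientGroup.mk ((1 : IT T K), divPart T K I) := fun I => rfl
  -- elements congruent to one modulo `q ^ 2` are `p`-th powers
  have hpow : ∀ (q : T) (z : (𝓞 K) ⊗[ℤ] ℤ_[(q.1 : ℕ)]) (u : (Loc K q.1)ˣ),
      z - 1 ∈ Ideal.span {(((q.1 : ℕ) : ℕ) : (𝓞 K) ⊗[ℤ] ℤ_[(q.1 : ℕ)]) ^ 2} →
      intToRat K (q.1 : ℕ) z = (u : Loc K q.1) → ∃ yu : (Loc K q.1)ˣ, u = yu ^ p := by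
    intro q z u hz hzu
    obtain ⟨y, hy⟩ := exists_pow_eq_intToRat (q.1 : ℕ) K hp hp2 z hz
    exact exists_unit_pow_eq hp.ne_zero u y (hy.trans hzu)
  -- (hray)
  have hray : ∀ (a : 𝓞 K) (h : Ideal.span {a} ∈ (Ideal (𝓞 K))⁰), a - 1 ∈ m →
      φ ⟨Ideal.span {a}, h⟩ = 1 := by
    intro a h ha
    have ha0 : a ≠ 0 := by
      rintro rfl
      have := nonZeroDivisors.coe_ne_zero ⟨_, h⟩
      simp at this
    have haK : (a : K) ≠ 0 := by
      rwa [Ne, NumberField.RingOfIntegers.coe_eq_zero_iff]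
    set au : Kˣ := Units.mk0 (a : K) haK with hau
    rw [hφ, divPart_span T K a h au rfl, QuotientGroup.eq_one_iff]
    have hd : diagJ T K au ∈ H := h1 ⟨au, rfl⟩
    have hi : ((diagI T K au, 1) : JT T K) ∈ H := by
      apply h3'
      intro q
      obtain ⟨c, hc⟩ := Ideal.mem_span_singleton'.mp ha
      refine hpow q (a ⊗ₜ[ℤ] 1) (diagI T K au q) ?_ ?_
      · rw [Ideal.mem_span_singleton']
        refine ⟨(c * (((∏ r ∈ T.erase q.1, (r : ℕ)) ^ 2 : ℕ) : 𝓞 K)) ⊗ₜ[ℤ] 1, ?_⟩
        have h1' : a - 1 = ((((q.1 : ℕ)) ^ 2 : ℕ) : 𝓞 K) *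
            (c * (((∏ r ∈ T.erase q.1, (r : ℕ)) ^ 2 : ℕ) : 𝓞 K)) := by
          rw [← hc, hN, ← Finset.mul_prod_erase T (fun r => (r : ℕ)) q.2]
          push_cast
          ring
        have h2' : (a ⊗ₜ[ℤ] (1 : ℤ_[(q.1 : ℕ)]) : (𝓞 K) ⊗[ℤ] ℤ_[(q.1 : ℕ)]) - 1 =
            (a - 1) ⊗ₜ[ℤ] (1 : ℤ_[(q.1 : ℕ)]) := by
          rw [TensorProduct.sub_tmul]; rfl
        rw [h2', h1', mul_comm, ← Nat.cast_pow,
          ← nsmul_eq_mul (((q.1 : ℕ)) ^ 2) (_ : (𝓞 K) ⊗[ℤ] ℤ_[(q.1 : ℕ)]),
          ← nsmul_eq_mul (((q.1 : ℕ)) ^ 2) (_ : 𝓞 K), TensorProduct.smul_tmul']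
      · rw [intToRat_tmul]
        rfl
    have : (((1 : IT T K), divT T K au) : JT T K) = diagJ T K au * ((diagI T K au, 1) : JT T K)⁻¹ := by
      apply Prod.ext
      · simp [diagJ]
      · simp [diagJ]
    rw [this]
    exact H.mul_mem hd (H.inv_mem hi)
  -- the classes of ideals prime to the modulus form a subgroup
  haveI : Finite (JT T K ⧸ H) := Subgroup.finite_quotient_of_finiteIndex
  have hcardpos : 0 < Nat.card (JT T K ⧸ H) := Nat.card_pos
  let R : Subgroup (JT T K ⧸ H) :=
    { carrier := {g | ∃ I : (Ideal (𝓞 K))⁰, (I : Ideal (𝓞 K)) ⊔ m = ⊤ ∧ φ I = g}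
      mul_mem' := by
        rintro _ _ ⟨I, hI, rfl⟩ ⟨J, hJ, rfl⟩
        refine ⟨I * J, ?_, map_mul φ I J⟩
        rw [Submonoid.coe_mul]
        exact (Ideal.mul_sup_eq_of_coprime_left hI).trans hJ
      one_mem' := ⟨1, by simp, map_one φ⟩
      inv_mem' := by
        rintro _ ⟨I, hI, rfl⟩
        refine ⟨I ^ (Nat.card (JT T K ⧸ H) - 1), ?_, ?_⟩
        · rw [SubmonoidClass.coe_pow]
          exact Ideal.pow_sup_eq_top hI
        · rw [map_pow]
          apply eq_inv_of_mul_eq_one_right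
          rw [← pow_succ', Nat.sub_add_cancel hcardpos, pow_card_eq_one'] }
  have hRmem : ∀ f : PrimeAway T K →₀ ℤ,
      (QuotientGroup.mk ((1 : IT T K), DivT.ofFinsupp T K f) : JT T K ⧸ H) ∈ R := by
    intro f
    induction f using Finsupp.induction_linear with
    | zero => exact R.one_mem
    | add f g hf hg =>
      have : (((1 : IT T K), DivT.ofFinsupp T K (f + g)) : JT T K) =
          ((1 : IT T K), DivT.ofFinsupp T K f) * ((1 : IT T K), DivT.ofFinsupp T K g) := by
        apply Prod.ext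
        · simp
        · rfl
      rw [this, QuotientGroup.mk_mul]
      exact R.mul_mem hf hg
    | single P n =>
      have : (((1 : IT T K), DivT.ofFinsupp T K (Finsupp.single P n)) : JT T K) =
          ((1 : IT T K), DivT.ofFinsupp T K (Finsupp.single P 1)) ^ n := by
        apply Prod.ext
        · simp
        · change DivT.ofFinsupp T K (Finsupp.single P n) =
            (DivT.ofFinsupp T K (Finsupp.single P 1)) ^ n
          have hsm : Finsupp.single P n = n • Finsupp.single P (1 : ℤ) := by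
            rw [Finsupp.smul_single, smul_eq_mul, mul_one]
          rw [hsm]
          rfl
      rw [this, QuotientGroup.mk_zpow]
      apply R.zpow_mem
      refine ⟨primeToIdeal0 P.1, ?_, ?_⟩
      · rw [coe_primeToIdeal0]
        exact sup_eq_top_of_primeAway P 2
      · rw [hφ, divPart_prime]
  -- (hsurj)
  have hsurj : ∀ g : JT T K ⧸ H, ∃ I : (Ideal (𝓞 K))⁰, (I : Ideal (𝓞 K)) ⊔ m = ⊤ ∧ φ I = g := by
    intro g
    obtain ⟨j, rfl⟩ := QuotientGroup.mk_surjective g
    obtain ⟨a, ha⟩ := weak_approx K (Finset.univ : Finset T) (fun i : T => ((i.1 : Nat.Primes) : ℕ))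
      (fun i _ i' _ h => Subtype.ext (Subtype.ext h)) 2 j.1
    have hi : ((diagI T K a * j.1, 1) : JT T K) ∈ H := by
      apply h3'
      intro q
      obtain ⟨z, hz1, hz2⟩ := ha q (Finset.mem_univ q)
      refine hpow q z ((diagI T K a * j.1) q) hz1 ?_
      rw [hz2]
      rfl
    have hd : diagJ T K a ∈ H := h1 ⟨a, rfl⟩
    have hj : (QuotientGroup.mk j : JT T K ⧸ H) =
        QuotientGroup.mk ((1 : IT T K), j.2 * divT T K a) := by
      rw [QuotientGroup.eq]
      have : j⁻¹ * ((1 : IT T K), j.2 * divT T K a) =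
          ((diagI T K a * j.1, 1) : JT T K)⁻¹ * diagJ T K a := by
        apply Prod.ext
        · simp [diagJ, mul_comm]
        · simp [diagJ]
      rw [this]
      exact H.mul_mem (H.inv_mem hi) hd
    rw [hj]
    exact hRmem (DivT.toFinsupp T K (j.2 * divT T K a))
  -- (hsplit)
  have hI0 : Ideal.span {((N : ℕ) : 𝓞 K)} ≠ 0 := by
    rw [Ne, Ideal.zero_eq_bot, Ideal.span_singleton_eq_bot, Nat.cast_eq_zero]
    exact hN0
  set S : Finset (HeightOneSpectrum (𝓞 K)) := (Ideal.finite_factors hI0).toFinset with hS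
  have hsplit : ∀ P ∈ degOnePrimes K L, P ∉ S → φ (primeToIdeal0 P) = 1 := by
    intro P hP hPS
    have hPaway : ∀ q ∈ T, ((((q : ℕ) : ℤ) : 𝓞 K)) ∉ P.asIdeal := by
      intro q hq hmem
      apply hPS
      rw [hS, Set.Finite.mem_toFinset, Set.mem_ofPred_eq, Ideal.dvd_iff_le,
        Ideal.span_singleton_le_iff_mem, hN, ← Finset.mul_prod_erase T (fun r => (r : ℕ)) hq,
        Nat.cast_mul]
      apply Ideal.mul_mem_right
      simpa using hmem
    rw [hφ, divPart_prime (T := T) (K := K) ⟨P, hPaway⟩, QuotientGroup.eq_one_iff]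
    exact h2 ⟨P, hPaway⟩ hP
  have := hRay (JT T K ⧸ H) φ m hm0 hray hsurj S hsplit
  rw [hdeg] at this
  exact this

/-- **Second inequality, idelic form, without assuming finite index**: a subgroup of `JT T K`
containing the principal ideles, the degree one primes of `L/K`, the local `p`-th powers at `T`
and all `p`-th powers has finite index at most `p`. -/
theorem finiteIndex_and_index_le_of_rayIneq (hRay : RayIneq K L) (p : ℕ) (hp : p.Prime)
    (hp2 : p ≠ 2) (hdeg : Module.finrank K L = p) (H : Subgroup (JT T K))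
    (h1 : (diagJ T K).range ≤ H)
    (h2 : ∀ P : PrimeAway T K, P.1 ∈ degOnePrimes K L →
      ((1 : IT T K), DivT.ofFinsupp T K (Finsupp.single P 1)) ∈ H)
    (h3 : ∀ (q : T) (y : (Loc K q.1)ˣ),
      ((Pi.mulSingle q (y ^ p) : IT T K), (1 : DivT T K)) ∈ H)
    (h4 : ∀ j : JT T K, j ^ p ∈ H) :
    H.FiniteIndex ∧ H.index ≤ p := by
  haveI : Fact p.Prime := ⟨hp⟩
  refine finiteIndex_and_index_le p H h4 fun H' hHH' hfin => ?_
  haveI := hfin
  exact index_le_of_rayIneq L hRay p hp hp2 hdeg H' (h1.trans hHH')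
    (fun P hP => hHH' (h2 P hP)) (fun q y => hHH' (h3 q y))

end Main

end Fermat.Agent.PT.GLOB.SecondIneqIdelic17
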