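/-
Program F (S55, Poitou–Tate), chapter GLOB (helper17): leaf (F2c), the **second inequality on
`CT T L`** for a Galois extension `L/K` of odd prime degree `p`.

Input: the idelic inequality `SecondIneqIdelic17` (fed by helper5's analytic `RayZeta5`), and the
tower maps of `Tower23` together with a norm map `N : JT T L →* JT T K`; the facts about `N`, the
Galois invariance of `inclJ` and the descent `(CT T L)^G = inclCT (CT T K)` are bundled in the
structure `NormData` (to be provided by `TowerMaps6`).

Output: `H := principalJ T K ⊔ N.range` has finite index `≤ p` in `JT T K`, and the group of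
`G`-fixed classes of `CT T L` modulo norm classes has order `≤ p`
(`card_fixed_mod_norm_le`, `exists_div_eq_norm` (pigeonhole form), `relIndex_normC_le`).
-/
import Mathlib
import Fermat.Agent.PT.GLOB.SecondIneqIdelic17
import Fermat.Agent.PT.GLOB.RayZeta5
import Fermat.Agent.PT.GLOB.Tower23
import Fermat.Agent.PT.GLOB.FixedClass6

set_option autoImplicit false
set_option linter.unusedSectionVars false
set_option linter.style.haveILetI false

open scoped TensorProduct NumberField nonZeroDivisors
open IsDedekindDomain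

namespace Fermat.Agent.PT.GLOB.SecondIneqTower17

open Fermat.Agent.PT.GLOB.Interface23 Fermat.Agent.PT.GLOB.Tower23
  Fermat.Agent.PT.GLOB.ClassAction23 Fermat.Agent.PT.GLOB.FixedClass6
  Fermat.Agent.PT.GLOB.SecondIneqIdelic17 Fermat.Agent.CFT.C1ClassDefs

/-- helper5's analytic inequality discharges the hypothesis `RayIneq`. -/
theorem rayIneq (K : Type*) (L : Type*) [Field K] [NumberField K] [Field L] [NumberField L]
    [Algebra K L] : RayIneq K L :=
  fun _ _ _ φ m hm hray hsurj S hsplit =>
    Fermat.Agent.PT.GLOB.RayZeta5.ray_norm_index_le K L φ m hm hray hsurj S hsplit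

theorem div_eq_inv_mul_inv {G : Type*} [CommGroup G] (a b : G) : a / b = (a⁻¹ * b)⁻¹ := by
  rw [mul_inv_rev, inv_inv, div_eq_mul_inv, mul_comm]

section Main

variable (T : Finset Nat.Primes) (K L : Type) [Field K] [Field L] [NumberField K] [NumberField L]
  [Algebra K L] [IsGalois K L]

/-- The facts about the norm map of the tower `L/K` used by the second inequality. -/
structure NormData (p : ℕ) where
  /-- the norm `JT T L → JT T K` -/
  N : JT T L →* JT T K
  /-- `N ∘ inclJ = (·) ^ p` -/
  N_incl : ∀ j : JT T K, N (inclJ T K L j) = j ^ p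
  /-- the norm of a prime of relative degree one -/
  N_prime : ∀ P' : PrimeAway T L,
    Ideal.absNorm P'.1.asIdeal = Ideal.absNorm (P'.1.under (𝓞 K)).asIdeal →
    N ((1 : IT T L), DivT.ofFinsupp T L (Finsupp.single P' 1)) =
      ((1 : IT T K), DivT.ofFinsupp T K (Finsupp.single (underAway T K L P') 1))
  /-- `inclJ ∘ N` is the norm element of `ℤ[G]` -/
  incl_N : ∀ j : JT T L, inclJ T K L (N j) = normJ T K L j
  /-- `inclJ` lands in the invariants -/
  incl_fixed : ∀ (σ : L ≃ₐ[K] L) (j : JT T K), σ • inclJ T K L j = inclJ T K L j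
  /-- Galois descent of idele classes -/
  descent : ∀ c : CT T L, (∀ σ : L ≃ₐ[K] L, σ • c = c) → ∃ c₀ : CT T K, inclCT T K L c₀ = c

variable {T K L}

/-- **Second inequality on `JT T K`**: `principalJ ⊔ N.range` has finite index at most `p`. -/
theorem index_sup_range_le {p : ℕ} (hp : p.Prime) (hp2 : p ≠ 2)
    (hdeg : Module.finrank K L = p) (D : NormData T K L p) :
    ((diagJ T K).range ⊔ D.N.range).FiniteIndex ∧ ((diagJ T K).range ⊔ D.N.range).index ≤ p := by
  classical
  refine finiteIndex_and_index_le_of_rayIneq L (rayIneq K L) p hp hp2 hdeg _ le_sup_left ?_ ?_ ?_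
  · -- degree one primes are norms
    rintro P ⟨P'', hP''1, hP''2⟩
    have hPaway : ∀ q ∈ T, ((((q : ℕ) : ℤ) : 𝓞 L)) ∉ P''.asIdeal := by
      intro q hq hmem
      apply P.2 q hq
      rw [← hP''1, Ideal.under_def, Ideal.mem_comap, map_intCast]
      exact hmem
    have hunder : underAway T K L ⟨P'', hPaway⟩ = P := by
      apply Subtype.ext
      apply HeightOneSpectrum.ext
      exact hP''1
    have hnorm : Ideal.absNorm P''.asIdeal = Ideal.absNorm (P''.under (𝓞 K)).asIdeal := by
      rw [hP''2]
      congr 1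
      exact hP''1.symm
    have := D.N_prime ⟨P'', hPaway⟩ hnorm
    rw [hunder] at this
    rw [← this]
    exact Subgroup.mem_sup_right ⟨_, rfl⟩
  · -- local `p`-th powers are norms
    intro q y
    have : ((Pi.mulSingle q (y ^ p) : IT T K), (1 : DivT T K)) =
        ((Pi.mulSingle q y : IT T K), (1 : DivT T K)) ^ p := by
      apply Prod.ext
      · simp [Pi.mulSingle_pow]
      · simp
    rw [this, ← D.N_incl]
    exact Subgroup.mem_sup_right ⟨_, rfl⟩
  · -- `p`-th powers are norms
    intro j
    rw [← D.N_incl]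
    exact Subgroup.mem_sup_right ⟨_, rfl⟩

variable (T K L)

/-- The norm element of `ℤ[G]` on `JT T L`, as a homomorphism. -/
noncomputable def normJHom : JT T L →* JT T L where
  toFun := normJ T K L
  map_one' := by
    unfold normJ
    simp
  map_mul' j j' := by
    unfold normJ
    rw [← Finset.prod_mul_distrib]
    exact Finset.prod_congr rfl fun σ _ => smul_mul' σ j j'

@[simp] theorem normJHom_apply (j : JT T L) : normJHom T K L j = normJ T K L j := rfl

/-- The subgroup of `G`-fixed classes of `CT T L`. -/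
noncomputable def fixC : Subgroup (CT T L) where
  carrier := {c | ∀ σ : L ≃ₐ[K] L, σ • c = c}
  mul_mem' := fun {a b} ha hb σ => by rw [smul_mul', ha σ, hb σ]
  one_mem' := fun σ => smul_one σ
  inv_mem' := fun {a} ha σ => by rw [smul_inv', ha σ]

theorem mem_fixC (c : CT T L) : c ∈ fixC T K L ↔ ∀ σ : L ≃ₐ[K] L, σ • c = c := Iff.rfl

/-- The subgroup of norm classes of `CT T L`. -/
noncomputable def normC : Subgroup (CT T L) := ((toCT T L).comp (normJHom T K L)).range

theorem mem_normC (c : CT T L) : c ∈ normC T K L ↔ ∃ y : JT T L, toCT T L (normJ T K L y) = c :=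
  Iff.rfl

theorem smul_normJ (σ : L ≃ₐ[K] L) (j : JT T L) : σ • normJ T K L j = normJ T K L j := by
  unfold normJ
  rw [Finset.smul_prod']
  exact Fintype.prod_equiv (Equiv.mulLeft σ) _ _ fun τ => (mul_smul σ τ j).symm

theorem normC_le_fixC : normC T K L ≤ fixC T K L := by
  rintro _ ⟨y, rfl⟩ σ
  change σ • toCT T L (normJ T K L y) = toCT T L (normJ T K L y)
  rw [smul_toCT, smul_normJ]

variable {T K L}

/-- **Second inequality on `CT T L`**: there is a surjection from `JT T K ⧸ (principalJ ⊔ N.range)`
onto the fixed classes modulo the norm classes. -/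
theorem card_fixed_mod_norm_le {p : ℕ} (hp : p.Prime) (hp2 : p ≠ 2)
    (hdeg : Module.finrank K L = p) (D : NormData T K L p) :
    Finite (fixC T K L ⧸ (normC T K L).subgroupOf (fixC T K L)) ∧
      Nat.card (fixC T K L ⧸ (normC T K L).subgroupOf (fixC T K L)) ≤ p := by
  classical
  obtain ⟨hfin, hle⟩ := index_sup_range_le hp hp2 hdeg D
  set H := (diagJ T K).range ⊔ D.N.range with hH
  haveI := hfin
  haveI : Finite (JT T K ⧸ H) := Subgroup.finite_quotient_of_finiteIndex
  -- the map `JT T K → fixC`
  have hfix : ∀ j : JT T K, toCT T L (inclJ T K L j) ∈ fixC T K L := by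
    intro j σ
    rw [smul_toCT, D.incl_fixed]
  let f : JT T K →* fixC T K L :=
    ((toCT T L).comp (inclJ T K L)).codRestrict (fixC T K L) hfix
  have hfH : H ≤ ((normC T K L).subgroupOf (fixC T K L)).comap f := by
    rw [hH, sup_le_iff]
    constructor
    · rintro _ ⟨x, rfl⟩
      rw [Subgroup.mem_comap, Subgroup.mem_subgroupOf]
      change toCT T L (inclJ T K L (diagJ T K x)) ∈ normC T K L
      rw [inclJ_diagJ]
      have : toCT T L (diagJ T L (Units.map (algebraMap K L : K →* L) x)) = 1 :=
        (toCT_eq_one_iff T L _).mpr ⟨_, rfl⟩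
      rw [this]
      exact (normC T K L).one_mem
    · rintro _ ⟨y, rfl⟩
      rw [Subgroup.mem_comap, Subgroup.mem_subgroupOf]
      change toCT T L (inclJ T K L (D.N y)) ∈ normC T K L
      rw [D.incl_N]
      exact ⟨y, rfl⟩
  let g : JT T K ⧸ H → fixC T K L ⧸ (normC T K L).subgroupOf (fixC T K L) :=
    Quotient.map' f (by
      intro a b hab
      rw [QuotientGroup.leftRel_apply] at hab ⊢
      have := hfH hab
      rwa [Subgroup.mem_comap, map_mul, map_inv] at this)
  have hg : Function.Surjective g := by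
    intro c
    obtain ⟨⟨c', hc'⟩, rfl⟩ := QuotientGroup.mk_surjective c
    obtain ⟨c₀, hc₀⟩ := D.descent c' hc'
    obtain ⟨j₀, rfl⟩ := toCT_surjective T K c₀
    refine ⟨QuotientGroup.mk j₀, ?_⟩
    change QuotientGroup.mk (f j₀) = _
    congr 1
    apply Subtype.ext
    change toCT T L (inclJ T K L j₀) = c'
    rw [← hc₀, inclCT_toCT]
  refine ⟨Finite.of_surjective g hg, ?_⟩
  exact (Nat.card_le_card_of_surjective g hg).trans hle

/-- Index form. -/
theorem relIndex_normC_le {p : ℕ} (hp : p.Prime) (hp2 : p ≠ 2)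
    (hdeg : Module.finrank K L = p) (D : NormData T K L p) :
    (normC T K L).relIndex (fixC T K L) ≠ 0 ∧ (normC T K L).relIndex (fixC T K L) ≤ p := by
  obtain ⟨hfin, hle⟩ := card_fixed_mod_norm_le hp hp2 hdeg D
  haveI := hfin
  exact ⟨Nat.card_pos.ne', hle⟩

/-- Pigeonhole form: among `p + 1` fixed classes two differ by a norm class. -/
theorem exists_div_eq_norm {p : ℕ} (hp : p.Prime) (hp2 : p ≠ 2)
    (hdeg : Module.finrank K L = p) (D : NormData T K L p)
    (c : Fin (p + 1) → CT T L) (hc : ∀ i (σ : L ≃ₐ[K] L), σ • c i = c i) :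
    ∃ i i', i ≠ i' ∧ ∃ y : JT T L, c i / c i' = toCT T L (normJ T K L y) := by
  classical
  obtain ⟨hfin, hle⟩ := card_fixed_mod_norm_le hp hp2 hdeg D
  haveI := hfin
  let φ : Fin (p + 1) → fixC T K L ⧸ (normC T K L).subgroupOf (fixC T K L) :=
    fun i => QuotientGroup.mk ⟨c i, hc i⟩
  have hninj : ¬ Function.Injective φ := by
    intro hinj
    have := Nat.card_le_card_of_injective φ hinj
    rw [Nat.card_fin] at this
    omega
  rw [Function.Injective] at hninj
  push Not at hninj
  obtain ⟨i, i', heq, hne⟩ := hninj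
  refine ⟨i, i', hne, ?_⟩
  have h1 : (⟨c i, hc i⟩ : fixC T K L)⁻¹ * ⟨c i', hc i'⟩ ∈
      (normC T K L).subgroupOf (fixC T K L) := QuotientGroup.leftRel_apply.mp (Quotient.exact' heq)
  rw [Subgroup.mem_subgroupOf] at h1
  have h2 : (c i)⁻¹ * c i' ∈ normC T K L := h1
  have h3 : c i / c i' ∈ normC T K L := by
    have h4 : c i / c i' = ((c i)⁻¹ * c i')⁻¹ := div_eq_inv_mul_inv (c i) (c i')
    exact h4 ▸ (normC T K L).inv_mem h2
  obtain ⟨y, hy⟩ := h3
  exact ⟨y, hy.symm⟩

end Main

end Fermat.Agent.PT.GLOB.SecondIneqTower17
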