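/-
Program F (S55, Poitou–Tate), chapter GLOB, leaf (GLOB-A3), part 1 — helper6.

**Galois properties of the tower maps** `Tower23.inclJ : JT T L →* JT T L'`,
`Tower23.inclCT : CT T L →* CT T L'` for number fields `K ⊆ L ⊆ L'`.

* (BC3) equivariance for `Gal(L'/K) → Gal(L/K)` (`L/K` normal):
  `locMap_smul`, `inclI_smul`, `under_smul`, `underAway_smul`, `ramIdx_smul`, `inclDiv_smul`,
  `inclJ_smul : inclJ T L L' (σ.restrictNormal L • j) = σ • inclJ T L L' j`,
  `inclCT_smul : inclCT T L L' (σ.restrictNormal L • c) = σ • inclCT T L L' c`;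
  relative case `smul_inclJ`, `smul_inclCT : τ • inclCT T L L' c = inclCT T L L' c` (`τ ∈ Gal(L'/L)`);
* injectivity: `locMap_injective`, `inclI_injective`, `underAway_surjective`, `inclDiv_injective`,
  `inclJ_injective`, and (BC2) `inclCT_injective` (`L'/L` Galois, `T ≠ ∅`);
* Galois descent: `exists_locMap_eq_of_fixed` (`(L' ⊗ ℚ_q)^H = L ⊗ ℚ_q`),
  `exists_units_locMap_eq_of_fixed`, `exists_inclI_eq_of_fixed`,
  `ramIdx_eq_one_of_inertia_eq_bot`, `exists_smul_eq_of_underAway_eq`,
  `exists_inclDiv_eq_of_fixed`, `exists_inclJ_eq_of_fixed` and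
  (BC4) `exists_inclCT_eq_of_fixed`, `mem_range_inclCT_iff`
  (`L'/L` Galois and unramified outside `T ≠ ∅`: `C_T(L')^{Gal(L'/L)} = C_T(L)`).
-/
import Fermat.Agent.PT.GLOB.Tower23
import Fermat.Agent.PT.GLOB.FixedClass6

set_option autoImplicit false
set_option linter.unusedSectionVars false

namespace Fermat.Agent.PT.GLOB.TowerMaps6

open NumberField IsDedekindDomain
open scoped TensorProduct nonZeroDivisors Pointwise
open Fermat.Agent.PT.GLOB.Interface23 Fermat.Agent.PT.GLOB.ClassAction23
  Fermat.Agent.PT.GLOB.Tower23 Fermat.Agent.PT.GLOB.FixedClass6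

section Equivariance

variable (T : Finset Nat.Primes)
variable (K L L' : Type*) [Field K] [Field L] [Field L'] [NumberField K] [NumberField L]
  [NumberField L'] [Algebra K L] [Algebra L L'] [Algebra K L'] [IsScalarTower K L L'] [Normal K L]

theorem locMap_smul (q : Nat.Primes) (σ : L' ≃ₐ[K] L') (z : Loc L q) :
    locMap L L' q ((σ.restrictNormal L) • z) = σ • locMap L L' q z := by
  induction z using TensorProduct.induction_on with
  | zero => rw [smul_zero, map_zero, smul_zero]
  | tmul x r =>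
    rw [smul_tmul', locMap_tmul, locMap_tmul, smul_tmul', AlgEquiv.restrictNormal_commutes]
  | add a b ha hb => rw [smul_add, map_add, map_add, smul_add, ha, hb]

theorem inclI_smul (σ : L' ≃ₐ[K] L') (x : IT T L) :
    inclI T L L' ((σ.restrictNormal L) • x) = σ • inclI T L L' x := by
  funext q
  apply Units.ext
  exact locMap_smul K L L' q.1 σ (x q : Loc L q.1)

theorem algebraMap_restrictNormal_int (σ : L' ≃ₐ[K] L') (x : 𝓞 L) :
    algebraMap (𝓞 L) (𝓞 L') ((σ.restrictNormal L) • x) = σ • algebraMap (𝓞 L) (𝓞 L') x := by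
  apply RingOfIntegers.ext
  change algebraMap L L' ((σ.restrictNormal L) (x : L)) = σ (algebraMap L L' (x : L))
  exact AlgEquiv.restrictNormal_commutes σ L (x : L)

theorem restrictNormal_inv (σ : L' ≃ₐ[K] L') :
    (σ.restrictNormal L)⁻¹ = (σ⁻¹).restrictNormal L :=
  (map_inv (AlgEquiv.restrictNormalHom (F := K) (K₁ := L') L) σ).symm

theorem under_smul (σ : L' ≃ₐ[K] L') (P' : HeightOneSpectrum (𝓞 L')) :
    (σ • P').under (𝓞 L) = (σ.restrictNormal L) • P'.under (𝓞 L) := by
  apply HeightOneSpectrum.ext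
  ext x
  rw [smul_asIdeal, HeightOneSpectrum.under_asIdeal, HeightOneSpectrum.under_asIdeal,
    Ideal.mem_pointwise_smul_iff_inv_smul_mem, Ideal.under_def, Ideal.mem_comap, Ideal.mem_comap,
    smul_asIdeal, Ideal.mem_pointwise_smul_iff_inv_smul_mem, restrictNormal_inv,
    algebraMap_restrictNormal_int]

/-- The prime of `L` below `σ • P'`, for primes away from `T`. -/
theorem underAway_smul (σ : L' ≃ₐ[K] L') (P' : PrimeAway T L') :
    underAway T L L' (σ • P') = (σ.restrictNormal L) • underAway T L L' P' :=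
  Subtype.ext (under_smul K L L' σ P'.1)

theorem map_algebraMap_smul (σ : L' ≃ₐ[K] L') (p : Ideal (𝓞 L)) :
    ((σ.restrictNormal L) • p).map (algebraMap (𝓞 L) (𝓞 L')) =
      σ • p.map (algebraMap (𝓞 L) (𝓞 L')) := by
  rw [Ideal.pointwise_smul_def, Ideal.pointwise_smul_def, Ideal.map_map, Ideal.map_map]
  congr 1
  ext x
  exact congrArg (fun y : 𝓞 L' => (y : L')) (algebraMap_restrictNormal_int K L L' σ x)

theorem ramIdx_smul (σ : L' ≃ₐ[K] L') (P' : HeightOneSpectrum (𝓞 L')) :
    ramIdx L L' (σ • P') = ramIdx L L' P' := by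
  unfold ramIdx
  rw [under_smul, smul_asIdeal, smul_asIdeal]
  unfold Ideal.ramificationIdx'
  congr 1
  ext n
  simp only [Set.mem_ofPred_eq]
  rw [map_algebraMap_smul, ← smul_pow', Ideal.pointwise_smul_le_pointwise_smul_iff]

theorem inclDiv_smul (σ : L' ≃ₐ[K] L') (D : DivT T L) :
    inclDiv T L L' ((σ.restrictNormal L) • D) = σ • inclDiv T L L' D := by
  apply divT_ext
  intro P'
  rw [toFinsupp_smul_apply', inclDiv_apply, inclDiv_apply, toFinsupp_smul_apply',
    underAway_smul, restrictNormal_inv]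
  congr 2
  have h := ramIdx_smul K L L' σ⁻¹ P'.1
  rw [← h]
  rfl

/-- **(BC3)** The tower map `JT T L → JT T L'` is equivariant for `Gal(L'/K) → Gal(L/K)`. -/
theorem inclJ_smul (σ : L' ≃ₐ[K] L') (j : JT T L) :
    inclJ T L L' ((σ.restrictNormal L) • j) = σ • inclJ T L L' j :=
  Prod.ext (inclI_smul T K L L' σ j.1) (inclDiv_smul T K L L' σ j.2)

/-- **(BC3)** The tower map `CT T L → CT T L'` is equivariant for `Gal(L'/K) → Gal(L/K)`. -/
theorem inclCT_smul (σ : L' ≃ₐ[K] L') (c : CT T L) :
    inclCT T L L' ((σ.restrictNormal L) • c) = σ • inclCT T L L' c := by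
  obtain ⟨j, rfl⟩ := toCT_surjective T L c
  rw [smul_toCT, inclCT_toCT, inclCT_toCT, smul_toCT, inclJ_smul]

end Equivariance

section Injective

variable (T : Finset Nat.Primes)
variable (L L' : Type*) [Field L] [Field L'] [NumberField L] [NumberField L'] [Algebra L L']

theorem locMap_injective (q : Nat.Primes) : Function.Injective (locMap L L' q) := by
  have h := Module.Flat.rTensor_preserves_injective_linearMap (R := ℚ) (M := ℚ_[(q : ℕ)])
    (IsScalarTower.toAlgHom ℚ L L').toLinearMap (algebraMap L L').injective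
  intro a b hab
  apply h
  have key : ∀ z : Loc L q, (IsScalarTower.toAlgHom ℚ L L').toLinearMap.rTensor ℚ_[(q : ℕ)] z =
      locMap L L' q z := by
    intro z
    induction z using TensorProduct.induction_on with
    | zero => rw [map_zero, map_zero]
    | tmul x r => rfl
    | add a b ha hb => rw [map_add, map_add, ha, hb]
  rw [key, key, hab]

theorem inclI_injective : Function.Injective (inclI T L L') := by
  intro x y hxy
  funext q
  apply Units.ext
  apply locMap_injective L L' q.1
  have := congrFun hxy q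
  exact congrArg Units.val this

/-- Every prime of `L` away from `T` has a prime of `L'` (away from `T`) above it. -/
theorem underAway_surjective : Function.Surjective (underAway T L L') := by
  intro P
  have := P.1.isMaximal
  obtain ⟨Q, hQ, hQv⟩ := Ideal.exists_maximal_ideal_liesOver_of_isIntegral (S := 𝓞 L') P.1.asIdeal
  have hne : Q ≠ ⊥ := by
    intro h
    apply P.1.ne_bot
    rw [hQv.over, h]
    exact Ideal.under_bot _ _
  have hunder : (⟨Q, hQ.isPrime, hne⟩ : HeightOneSpectrum (𝓞 L')).under (𝓞 L) = P.1 := by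
    apply HeightOneSpectrum.ext
    simp only [HeightOneSpectrum.under_asIdeal]
    exact hQv.over.symm
  refine ⟨⟨⟨Q, hQ.isPrime, hne⟩, fun q hq hmem => P.2 q hq ?_⟩, Subtype.ext hunder⟩
  rw [← hunder, HeightOneSpectrum.under_asIdeal, Ideal.under_def, Ideal.mem_comap, map_intCast]
  exact hmem

theorem inclDiv_injective : Function.Injective (inclDiv T L L') := by
  rw [injective_iff_map_eq_one]
  intro D hD
  apply divT_ext
  intro P
  obtain ⟨P', rfl⟩ := underAway_surjective T L L' P
  have h := inclDiv_apply T L L' D P'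
  rw [hD] at h
  have h0 : DivT.toFinsupp T L' (1 : DivT T L') P' = 0 := rfl
  rw [h0] at h
  have h1 : DivT.toFinsupp T L (1 : DivT T L) (underAway T L L' P') = 0 := rfl
  rw [h1]
  rcases mul_eq_zero.mp h.symm with h2 | h2
  · exact absurd (Nat.cast_eq_zero.mp h2) (ramIdx_ne_zero L L' P'.1)
  · exact h2

theorem inclJ_injective : Function.Injective (inclJ T L L') := by
  intro j j' h
  exact Prod.ext (inclI_injective T L L' (congrArg Prod.fst h))
    (inclDiv_injective T L L' (congrArg Prod.snd h))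

end Injective

section Relative

variable (T : Finset Nat.Primes)
variable (L L' : Type*) [Field L] [Field L'] [NumberField L] [NumberField L'] [Algebra L L']

theorem restrictNormal_self (τ : L' ≃ₐ[L] L') : τ.restrictNormal L = 1 := by
  ext x
  apply (algebraMap L L').injective
  rw [AlgEquiv.restrictNormal_commutes, AlgEquiv.commutes]
  rfl

/-- The image of the tower map is fixed by `Gal(L'/L)`. -/
theorem smul_inclJ (τ : L' ≃ₐ[L] L') (j : JT T L) : τ • inclJ T L L' j = inclJ T L L' j := by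
  rw [← inclJ_smul T L L L' τ j, restrictNormal_self, one_smul]

theorem smul_inclI (τ : L' ≃ₐ[L] L') (x : IT T L) : τ • inclI T L L' x = inclI T L L' x := by
  rw [← inclI_smul T L L L' τ x, restrictNormal_self, one_smul]

theorem smul_inclDiv (τ : L' ≃ₐ[L] L') (D : DivT T L) : τ • inclDiv T L L' D = inclDiv T L L' D := by
  rw [← inclDiv_smul T L L L' τ D, restrictNormal_self, one_smul]

theorem smul_locMap (q : Nat.Primes) (τ : L' ≃ₐ[L] L') (z : Loc L q) :
    τ • locMap L L' q z = locMap L L' q z := by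
  rw [← locMap_smul L L L' q τ z, restrictNormal_self, one_smul]

theorem smul_inclCT (τ : L' ≃ₐ[L] L') (c : CT T L) : τ • inclCT T L L' c = inclCT T L L' c := by
  rw [← inclCT_smul T L L L' τ c, restrictNormal_self, one_smul]

variable [IsGalois L L']

/-- **(BC2)** For `L'/L` Galois and `T ≠ ∅`, the tower map `C_T(L) → C_T(L')` is injective. -/
theorem inclCT_injective (hT : T.Nonempty) : Function.Injective (inclCT T L L') := by
  rw [injective_iff_map_eq_one]
  intro c hc
  obtain ⟨j, rfl⟩ := toCT_surjective T L c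
  rw [inclCT_toCT, toCT_eq_one_iff] at hc
  obtain ⟨y, hy⟩ := hc
  have hfix : ∀ τ : L' ≃ₐ[L] L', τ • y = y := by
    intro τ
    apply diagJ_injective T L' hT
    rw [diagJ_smul, hy, smul_inclJ]
  have hy' : (y : L') ∈ Set.range (algebraMap L L') := by
    rw [IsGalois.mem_range_algebraMap_iff_fixed]
    intro τ
    exact congrArg Units.val (hfix τ)
  obtain ⟨y₀, hy₀⟩ := hy'
  have hy₀0 : y₀ ≠ 0 := by
    rintro rfl
    rw [map_zero] at hy₀
    exact y.ne_zero hy₀.symm
  have hyy : Units.map (algebraMap L L' : L →* L') (Units.mk0 y₀ hy₀0) = y := Units.ext hy₀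
  rw [toCT_eq_one_iff]
  refine ⟨Units.mk0 y₀ hy₀0, ?_⟩
  apply inclJ_injective T L L'
  rw [inclJ_diagJ, hyy, hy]

end Relative

section TensorDescent

variable (L L' : Type*) [Field L] [Field L'] [NumberField L] [NumberField L'] [Algebra L L']
  [IsGalois L L']

/-- Galois descent for `L' ⊗ ℚ_q`: an element fixed by `Gal(L'/L)` comes from `L ⊗ ℚ_q`. -/
theorem exists_locMap_eq_of_fixed (q : Nat.Primes) (z : Loc L' q)
    (hz : ∀ τ : L' ≃ₐ[L] L', τ • z = z) : ∃ w : Loc L q, locMap L L' q w = z := by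
  classical
  let 𝒞 := Module.Free.chooseBasis ℚ ℚ_[(q : ℕ)]
  let e := TensorProduct.equivFinsuppOfBasisRight (M := L') 𝒞
  have hsmul : ∀ (τ : L' ≃ₐ[L] L') (z : Loc L' q) (i), e (τ • z) i = τ (e z i) := by
    intro τ z i
    induction z using TensorProduct.induction_on with
    | zero => rw [smul_zero, map_zero, Finsupp.zero_apply, map_zero]
    | tmul x r =>
      rw [smul_tmul', TensorProduct.equivFinsuppOfBasisRight_apply_tmul_apply,
        TensorProduct.equivFinsuppOfBasisRight_apply_tmul_apply, map_rat_smul]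
    | add a b ha hb => rw [smul_add, map_add, map_add, Finsupp.add_apply, Finsupp.add_apply,
        ha, hb, map_add]
  have hfix : ∀ i, e z i ∈ Set.range (algebraMap L L') := by
    intro i
    rw [IsGalois.mem_range_algebraMap_iff_fixed]
    intro τ
    rw [← hsmul, hz]
  let g : L' → L := Function.invFun (algebraMap L L')
  have hg : ∀ x, g (algebraMap L L' x) = x :=
    Function.leftInverse_invFun (algebraMap L L').injective
  have hg0 : g 0 = 0 := by
    have := hg 0
    rwa [map_zero] at this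
  have hg' : ∀ i, algebraMap L L' (g (e z i)) = e z i := by
    intro i
    obtain ⟨x, hx⟩ := hfix i
    rw [← hx, hg]
  refine ⟨((e z).mapRange g hg0).sum fun i m => m ⊗ₜ[ℚ] 𝒞 i, ?_⟩
  rw [Finsupp.sum_mapRange_index (by intro i; exact TensorProduct.zero_tmul _ _), Finsupp.sum,
    map_sum]
  have h2 : z = e.symm (e z) := (e.symm_apply_apply z).symm
  conv_rhs => rw [h2, TensorProduct.equivFinsuppOfBasisRight_symm_apply, Finsupp.sum]
  apply Finset.sum_congr rfl
  intro i _
  rw [locMap_tmul, hg']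

/-- Galois descent for the units of `L' ⊗ ℚ_q`. -/
theorem exists_units_locMap_eq_of_fixed (q : Nat.Primes) (u : (Loc L' q)ˣ)
    (hu : ∀ τ : L' ≃ₐ[L] L', τ • u = u) :
    ∃ v : (Loc L q)ˣ, Units.map (locMap L L' q).toMonoidHom v = u := by
  have h1 : ∀ τ : L' ≃ₐ[L] L', τ • (u : Loc L' q) = u := fun τ => congrArg Units.val (hu τ)
  have h2 : ∀ τ : L' ≃ₐ[L] L', τ • ((u⁻¹ : (Loc L' q)ˣ) : Loc L' q) = (u⁻¹ : (Loc L' q)ˣ) := by
    intro τ
    have h3 : τ • u⁻¹ = u⁻¹ := by rw [smul_inv', hu τ]
    exact congrArg Units.val h3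
  obtain ⟨w, hw⟩ := exists_locMap_eq_of_fixed L L' q _ h1
  obtain ⟨w', hw'⟩ := exists_locMap_eq_of_fixed L L' q _ h2
  have hww' : w * w' = 1 := by
    apply locMap_injective L L' q
    rw [map_mul, hw, hw', map_one, Units.mul_inv]
  have hw'w : w' * w = 1 := by rw [mul_comm, hww']
  exact ⟨⟨w, w', hww', hw'w⟩, Units.ext hw⟩

variable (T : Finset Nat.Primes)

theorem exists_inclI_eq_of_fixed (x : IT T L') (hx : ∀ τ : L' ≃ₐ[L] L', τ • x = x) :
    ∃ y : IT T L, inclI T L L' y = x := by
  have h : ∀ q : T, ∃ v : (Loc L q.1)ˣ, Units.map (locMap L L' q.1).toMonoidHom v = x q := by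
    intro q
    apply exists_units_locMap_eq_of_fixed L L' q.1 (x q)
    intro τ
    exact congrFun (hx τ) q
  choose y hy using h
  exact ⟨y, funext hy⟩

end TensorDescent

section DivDescent

variable (T : Finset Nat.Primes)
variable (L L' : Type*) [Field L] [Field L'] [NumberField L] [NumberField L'] [Algebra L L']
  [IsGalois L L']

/-- Trivial inertia means ramification index one. -/
theorem ramIdx_eq_one_of_inertia_eq_bot (P' : HeightOneSpectrum (𝓞 L'))
    (h : (P'.asIdeal).inertia (L' ≃ₐ[L] L') = ⊥) : ramIdx L L' P' = 1 := by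
  have hlo : P'.asIdeal.LiesOver (P'.under (𝓞 L)).asIdeal := ⟨rfl⟩
  have hprime : (P'.under (𝓞 L)).asIdeal.IsPrime := (P'.under (𝓞 L)).isPrime
  have hP' : P'.asIdeal.IsPrime := P'.isPrime
  unfold ramIdx
  rw [Ideal.ramificationIdx'_eq_ramificationIdx (P'.under (𝓞 L)).asIdeal P'.asIdeal
      (P'.under (𝓞 L)).ne_bot,
    ← Ideal.ramificationIdxIn_eq_ramificationIdx (P'.under (𝓞 L)).asIdeal P'.asIdeal
      (L' ≃ₐ[L] L'),
    ← Ideal.card_inertia_eq_ramificationIdxIn (G := L' ≃ₐ[L] L') (P'.under (𝓞 L)).asIdeal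
      P'.asIdeal, h]
  exact Subgroup.card_bot

/-- `Gal(L'/L)` acts transitively on the primes above a given prime. -/
theorem exists_smul_eq_of_underAway_eq (P' Q' : PrimeAway T L')
    (h : underAway T L L' P' = underAway T L L' Q') : ∃ τ : L' ≃ₐ[L] L', Q' = τ • P' := by
  have hP' : P'.1.asIdeal.IsPrime := P'.1.isPrime
  have hQ' : Q'.1.asIdeal.IsPrime := Q'.1.isPrime
  have h' : P'.1.asIdeal.under (𝓞 L) = Q'.1.asIdeal.under (𝓞 L) := by
    have := congrArg (fun P : PrimeAway T L => P.1.asIdeal) h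
    exact this
  obtain ⟨τ, hτ⟩ := Algebra.IsInvariant.exists_smul_of_under_eq (𝓞 L) (𝓞 L') (L' ≃ₐ[L] L')
    P'.1.asIdeal Q'.1.asIdeal h'
  exact ⟨τ, Subtype.ext (HeightOneSpectrum.ext hτ)⟩

theorem toFinsupp_smul_of_fixed (D : DivT T L') (hD : ∀ τ : L' ≃ₐ[L] L', τ • D = D)
    (τ : L' ≃ₐ[L] L') (P' : PrimeAway T L') :
    DivT.toFinsupp T L' D (τ • P') = DivT.toFinsupp T L' D P' := by
  have h := toFinsupp_smul_apply T τ D P'
  rwa [hD τ] at h

end DivDescent

section Descent

variable (T : Finset Nat.Primes)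
variable (L L' : Type) [Field L] [Field L'] [NumberField L] [NumberField L'] [Algebra L L']
  [IsGalois L L']

/-- Descent of invariant divisors along an extension unramified outside `T`. -/
theorem exists_inclDiv_eq_of_fixed (hunr : IsUnramifiedOutside T L L') (D : DivT T L')
    (hD : ∀ τ : L' ≃ₐ[L] L', τ • D = D) : ∃ D₀ : DivT T L, inclDiv T L L' D₀ = D := by
  classical
  let s : PrimeAway T L → PrimeAway T L' := Function.surjInv (underAway_surjective T L L')
  have hs : ∀ P, underAway T L L' (s P) = P := Function.surjInv_eq (underAway_surjective T L L')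
  have hsinj : Function.Injective s := Function.injective_surjInv _
  refine ⟨DivT.ofFinsupp T L (Finsupp.comapDomain s (DivT.toFinsupp T L' D) hsinj.injOn), ?_⟩
  apply divT_ext
  intro P'
  rw [inclDiv_apply, ramIdx_eq_one_of_inertia_eq_bot L L' P'.1 (hunr P'), Nat.cast_one, one_mul]
  change Finsupp.comapDomain s (DivT.toFinsupp T L' D) hsinj.injOn (underAway T L L' P') = _
  rw [Finsupp.comapDomain_apply]
  obtain ⟨τ, hτ⟩ := exists_smul_eq_of_underAway_eq T L L' (s (underAway T L L' P')) P' (hs _)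
  conv_rhs => rw [hτ]
  rw [toFinsupp_smul_of_fixed T L L' D hD]

/-- Descent of invariant `T`-ideles along a Galois extension unramified outside `T`. -/
theorem exists_inclJ_eq_of_fixed (hunr : IsUnramifiedOutside T L L') (j : JT T L')
    (hj : ∀ τ : L' ≃ₐ[L] L', τ • j = j) : ∃ j₀ : JT T L, inclJ T L L' j₀ = j := by
  obtain ⟨y, hy⟩ := exists_inclI_eq_of_fixed L L' T j.1 (fun τ => congrArg Prod.fst (hj τ))
  obtain ⟨D₀, hD₀⟩ := exists_inclDiv_eq_of_fixed T L L' hunr j.2
    (fun τ => congrArg Prod.snd (hj τ))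
  exact ⟨(y, D₀), Prod.ext hy hD₀⟩

/-- **(BC4) Galois descent for `T`-idele classes**: for `L'/L` Galois and unramified outside
`T ≠ ∅`, every `Gal(L'/L)`-invariant class of `C_T(L')` comes from `C_T(L)`. -/
theorem exists_inclCT_eq_of_fixed (hT : T.Nonempty) (hunr : IsUnramifiedOutside T L L')
    (a : CT T L') (ha : ∀ τ : L' ≃ₐ[L] L', τ • a = a) : ∃ b : CT T L, inclCT T L L' b = a := by
  obtain ⟨j, hj, rfl⟩ := exists_fixed_lift T L L' hT a ha
  obtain ⟨j₀, rfl⟩ := exists_inclJ_eq_of_fixed T L L' hunr j hj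
  exact ⟨toCT T L j₀, inclCT_toCT T L L' j₀⟩

/-- `C_T(L) ≃ C_T(L')^{Gal(L'/L)}`: the range of the tower map is exactly the invariants. -/
theorem mem_range_inclCT_iff (hT : T.Nonempty) (hunr : IsUnramifiedOutside T L L') (a : CT T L') :
    a ∈ (inclCT T L L').range ↔ ∀ τ : L' ≃ₐ[L] L', τ • a = a := by
  constructor
  · rintro ⟨b, rfl⟩ τ
    exact smul_inclCT T L L' τ b
  · intro ha
    exact exists_inclCT_eq_of_fixed T L L' hT hunr a ha

end Descent

end Fermat.Agent.PT.GLOB.TowerMaps6
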