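/-
Program F (S55, Poitou–Tate), chapter GLOB, leaf (GLOB-A3), part 2 — helper6.

**The norm map on `T`-ideles** for a Galois extension `L'/L` of number fields unramified outside
`T` (`hunr : Interface23.IsUnramifiedOutside T L L'`), defined by Galois descent
(`TowerMaps6.exists_inclJ_eq_of_fixed`):

* `normJHom`, `smul_normJ`, `normJ_mul`, `normJ_one`, `normJ_inclJ`, `normJ_diagJ`, `normJ_fst`,
  `normJ_snd` (facts on `Interface23.normJ T L L' j = ∏ τ, τ • j`);
* `normDown T L L' hunr : JT T L' →* JT T L` with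
  (C)  `inclJ_normDown : inclJ T L L' (normDown .. j) = normJ T L L' j`,
       `normDown_eq_iff : normDown .. j = j₀ ↔ inclJ T L L' j₀ = normJ T L L' j`,
  (N2) `normDown_inclJ : normDown .. (inclJ T L L' j) = j ^ finrank L L'`,
  (N1) `normDown_diagJ : normDown .. (diagJ T L' x) = diagJ T L (Units.map (Algebra.norm L) x)`,
  (N3) `normDown_single : normDown .. (1, [P']) = (1, #Stab(P') • [P])` and
       `normDown_single_of_absNorm_eq : absNorm P' = absNorm P → normDown .. (1, [P']) = (1, [P])`;
* `normCT T L L' hunr : CT T L' →* CT T L`, `normCT_toCT`, `normCT_inclCT : normCT (inclCT c) = c ^ n`,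
  `inclCT_normCT : inclCT (normCT c) = ∏ τ, τ • c`.
-/
import Fermat.Agent.PT.GLOB.TowerMaps6

set_option autoImplicit false
set_option linter.unusedSectionVars false

namespace Fermat.Agent.PT.GLOB.TowerNorm6

open NumberField IsDedekindDomain
open scoped TensorProduct nonZeroDivisors Pointwise
open Fermat.Agent.PT.GLOB.Interface23 Fermat.Agent.PT.GLOB.ClassAction23
  Fermat.Agent.PT.GLOB.Tower23 Fermat.Agent.PT.GLOB.FixedClass6
  Fermat.Agent.PT.GLOB.TowerMaps6

section NormJ

variable (T : Finset Nat.Primes)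
variable (L L' : Type) [Field L] [Field L'] [NumberField L] [NumberField L'] [Algebra L L']
  [IsGalois L L']

/-- The norm element `∏_τ τ` of `ℤ[Gal(L'/L)]` as an endomorphism of `JT T L'`. -/
noncomputable def normJHom : JT T L' →* JT T L' :=
  ∏ τ : L' ≃ₐ[L] L', MulDistribMulAction.toMonoidHom (JT T L') τ

theorem normJHom_apply (j : JT T L') : normJHom T L L' j = normJ T L L' j := by
  unfold normJHom normJ
  rw [MonoidHom.finsetProd_apply]
  rfl

theorem smul_normJ (τ : L' ≃ₐ[L] L') (j : JT T L') : τ • normJ T L L' j = normJ T L L' j := by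
  unfold normJ
  rw [Finset.smul_prod']
  simp only [← mul_smul]
  exact Fintype.prod_equiv (Equiv.mulLeft τ) _ _ (fun σ => rfl)

theorem normJ_mul (j j' : JT T L') : normJ T L L' (j * j') = normJ T L L' j * normJ T L L' j' := by
  rw [← normJHom_apply, ← normJHom_apply, ← normJHom_apply, map_mul]

theorem normJ_one : normJ T L L' (1 : JT T L') = 1 := by
  rw [← normJHom_apply, map_one]

theorem normJ_inclJ (j : JT T L) :
    normJ T L L' (inclJ T L L' j) = inclJ T L L' j ^ Module.finrank L L' := by
  unfold normJ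
  simp only [smul_inclJ]
  rw [Finset.prod_const, Finset.card_univ, ← Nat.card_eq_fintype_card,
    IsGalois.card_aut_eq_finrank]

theorem normJ_diagJ (x : L'ˣ) :
    normJ T L L' (diagJ T L' x) =
      diagJ T L' (Units.map (algebraMap L L' : L →* L') (Units.map (Algebra.norm L : L' →* L) x)) := by
  unfold normJ
  simp only [← diagJ_smul]
  rw [← map_prod]
  congr 1
  apply Units.ext
  rw [Units.coe_map, Units.coe_map, Units.coe_prod]
  simp only [coe_smul_units]
  exact (Algebra.norm_eq_prod_automorphisms L (x : L')).symm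

end NormJ

section NormDown

variable (T : Finset Nat.Primes)
variable (L L' : Type) [Field L] [Field L'] [NumberField L] [NumberField L'] [Algebra L L']
  [IsGalois L L'] (hunr : IsUnramifiedOutside T L L')

/-- **The norm map `N_{L'/L} : J_T(L') → J_T(L)`** for a Galois extension unramified outside `T`,
defined by Galois descent: `N j` is the unique `T`-idele of `L` whose image in `J_T(L')` is
`∏_τ τ • j`. -/
noncomputable def normDown : JT T L' →* JT T L where
  toFun j := Classical.choose
    (exists_inclJ_eq_of_fixed T L L' hunr (normJ T L L' j) (fun τ => smul_normJ T L L' τ j))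
  map_one' := by
    apply inclJ_injective T L L'
    rw [Classical.choose_spec (exists_inclJ_eq_of_fixed T L L' hunr (normJ T L L' 1)
      (fun τ => smul_normJ T L L' τ 1)), normJ_one, map_one]
  map_mul' j j' := by
    apply inclJ_injective T L L'
    rw [Classical.choose_spec (exists_inclJ_eq_of_fixed T L L' hunr (normJ T L L' (j * j'))
      (fun τ => smul_normJ T L L' τ (j * j'))), map_mul,
      Classical.choose_spec (exists_inclJ_eq_of_fixed T L L' hunr (normJ T L L' j)
      (fun τ => smul_normJ T L L' τ j)),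
      Classical.choose_spec (exists_inclJ_eq_of_fixed T L L' hunr (normJ T L L' j')
      (fun τ => smul_normJ T L L' τ j')), normJ_mul]

/-- **(C)** `incl ∘ N = ∏_τ τ`. -/
theorem inclJ_normDown (j : JT T L') :
    inclJ T L L' (normDown T L L' hunr j) = normJ T L L' j :=
  Classical.choose_spec (exists_inclJ_eq_of_fixed T L L' hunr (normJ T L L' j)
    (fun τ => smul_normJ T L L' τ j))

theorem normDown_eq_iff (j : JT T L') (j₀ : JT T L) :
    normDown T L L' hunr j = j₀ ↔ inclJ T L L' j₀ = normJ T L L' j := by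
  constructor
  · rintro rfl
    exact inclJ_normDown T L L' hunr j
  · intro h
    apply inclJ_injective T L L'
    rw [inclJ_normDown, h]

/-- **(N2)** `N ∘ incl = (·)^[L':L]`. -/
theorem normDown_inclJ (j : JT T L) :
    normDown T L L' hunr (inclJ T L L' j) = j ^ Module.finrank L L' := by
  rw [normDown_eq_iff, map_pow, normJ_inclJ]

/-- **(N1)** `N (diag x) = diag (N_{L'/L} x)`. -/
theorem normDown_diagJ (x : L'ˣ) :
    normDown T L L' hunr (diagJ T L' x) =
      diagJ T L (Units.map (Algebra.norm L : L' →* L) x) := by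
  rw [normDown_eq_iff, inclJ_diagJ, normJ_diagJ]

theorem normDown_mem_range_diagJ {j : JT T L'} (hj : j ∈ (diagJ T L').range) :
    normDown T L L' hunr j ∈ (diagJ T L).range := by
  obtain ⟨x, rfl⟩ := hj
  exact ⟨_, (normDown_diagJ T L L' hunr x).symm⟩

/-- The norm map on `T`-idele class groups. -/
noncomputable def normCT : CT T L' →* CT T L :=
  QuotientGroup.map _ _ (normDown T L L' hunr)
    (fun _ hj => normDown_mem_range_diagJ T L L' hunr hj)

theorem normCT_toCT (j : JT T L') :
    normCT T L L' hunr (toCT T L' j) = toCT T L (normDown T L L' hunr j) := rfl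

theorem normCT_inclCT (c : CT T L) :
    normCT T L L' hunr (inclCT T L L' c) = c ^ Module.finrank L L' := by
  obtain ⟨j, rfl⟩ := toCT_surjective T L c
  rw [inclCT_toCT, normCT_toCT, normDown_inclJ, map_pow]

theorem inclCT_normCT (c : CT T L') :
    inclCT T L L' (normCT T L L' hunr c) = ∏ τ : L' ≃ₐ[L] L', τ • c := by
  obtain ⟨j, rfl⟩ := toCT_surjective T L' c
  rw [normCT_toCT, inclCT_toCT, inclJ_normDown]
  unfold normJ
  rw [map_prod]
  rfl

end NormDown

section Single

variable (T : Finset Nat.Primes)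
variable (L L' : Type) [Field L] [Field L'] [NumberField L] [NumberField L'] [Algebra L L']
  [IsGalois L L']

/-- Evaluation of a divisor at a prime, as a homomorphism. -/
noncomputable def evalDiv (Q' : PrimeAway T L') : DivT T L' →* Multiplicative ℤ where
  toFun D := Multiplicative.ofAdd (DivT.toFinsupp T L' D Q')
  map_one' := rfl
  map_mul' D E := by
    change Multiplicative.ofAdd ((DivT.toFinsupp T L' D + DivT.toFinsupp T L' E) Q') = _
    rw [Finsupp.add_apply]
    rfl

theorem toFinsupp_prod_smul (D : DivT T L') (Q' : PrimeAway T L') :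
    DivT.toFinsupp T L' (∏ τ : L' ≃ₐ[L] L', τ • D) Q' =
      ∑ τ : L' ≃ₐ[L] L', DivT.toFinsupp T L' D (τ⁻¹ • Q') := by
  have h := map_prod (evalDiv T L' Q') (fun τ : L' ≃ₐ[L] L' => τ • D) Finset.univ
  have h' := congrArg Multiplicative.toAdd h
  rw [toAdd_prod] at h'
  refine h'.trans ?_
  apply Finset.sum_congr rfl
  intro τ _
  exact toFinsupp_smul_apply' T τ D Q'

theorem normJ_fst (j : JT T L') : (normJ T L L' j).1 = ∏ τ : L' ≃ₐ[L] L', τ • j.1 := by
  unfold normJ
  rw [Prod.fst_prod]
  rfl

theorem normJ_snd (j : JT T L') : (normJ T L L' j).2 = ∏ τ : L' ≃ₐ[L] L', τ • j.2 := by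
  unfold normJ
  rw [Prod.snd_prod]
  rfl

open scoped Classical in
/-- The number of `τ` with `τ • P' = Q'` is `#Stab(P')` if `Q'` lies over the same prime of `L` as
`P'`, and `0` otherwise. -/
theorem card_smul_eq (P' Q' : PrimeAway T L') :
    Nat.card {τ : L' ≃ₐ[L] L' // τ⁻¹ • Q' = P'} =
      if underAway T L L' Q' = underAway T L L' P' then
        Nat.card (MulAction.stabilizer (L' ≃ₐ[L] L') P') else 0 := by
  split_ifs with h
  · obtain ⟨τ₀, hτ₀⟩ := exists_smul_eq_of_underAway_eq T L L' P' Q' h.symm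
    refine Nat.card_congr ?_
    refine
      { toFun := fun t => ⟨τ₀⁻¹ * t.1, ?_⟩
        invFun := fun s => ⟨τ₀ * s.1, ?_⟩
        left_inv := fun t => Subtype.ext (mul_inv_cancel_left τ₀ t.1)
        right_inv := fun s => Subtype.ext (inv_mul_cancel_left τ₀ s.1) }
    · rw [MulAction.mem_stabilizer_iff, mul_smul]
      have h1 : t.1 • P' = Q' := by
        have h0 := t.2
        rw [inv_smul_eq_iff] at h0
        exact h0.symm
      rw [h1, hτ₀, inv_smul_smul]
    · have h2 := s.2
      rw [MulAction.mem_stabilizer_iff] at h2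
      rw [mul_inv_rev, mul_smul, hτ₀, inv_smul_smul, inv_smul_eq_iff, h2]
  · have hempty : IsEmpty {τ : L' ≃ₐ[L] L' // τ⁻¹ • Q' = P'} := by
      refine ⟨fun t => h ?_⟩
      rw [← t.2]
      have := underAway_smul T L L L' t.1⁻¹ Q'
      rw [this, restrictNormal_self, one_smul]
    exact Nat.card_of_isEmpty

open scoped Classical in
theorem toFinsupp_prod_smul_single (P' Q' : PrimeAway T L') :
    DivT.toFinsupp T L' (∏ τ : L' ≃ₐ[L] L', τ • DivT.ofFinsupp T L' (Finsupp.single P' 1)) Q' =
      if underAway T L L' Q' = underAway T L L' P' then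
        (Nat.card (MulAction.stabilizer (L' ≃ₐ[L] L') P') : ℤ) else 0 := by
  rw [toFinsupp_prod_smul]
  have h1 : ∀ τ : L' ≃ₐ[L] L',
      DivT.toFinsupp T L' (DivT.ofFinsupp T L' (Finsupp.single P' 1)) (τ⁻¹ • Q') =
        if τ⁻¹ • Q' = P' then (1 : ℤ) else 0 := by
    intro τ
    change (Finsupp.single P' (1 : ℤ)) (τ⁻¹ • Q') = _
    rw [Finsupp.single_apply]
    simp only [eq_comm]
  simp only [h1]
  rw [Finset.sum_boole, ← Fintype.card_subtype, ← Nat.card_eq_fintype_card, card_smul_eq]
  split_ifs <;> simp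

end Single

section SingleNorm

variable (T : Finset Nat.Primes)
variable (L L' : Type) [Field L] [Field L'] [NumberField L] [NumberField L'] [Algebra L L']
  [IsGalois L L'] (hunr : IsUnramifiedOutside T L L')

/-- **(N3), general form**: `N (1, [P']) = (1, #Stab(P') • [P])`, `P` the prime below `P'`
(`#Stab(P') = f(P'|P)` since `L'/L` is unramified at `P'`). -/
theorem normDown_single (P' : PrimeAway T L') :
    normDown T L L' hunr ((1 : IT T L'), DivT.ofFinsupp T L' (Finsupp.single P' 1)) =
      ((1 : IT T L), DivT.ofFinsupp T L (Finsupp.single (underAway T L L' P')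
        (Nat.card (MulAction.stabilizer (L' ≃ₐ[L] L') P') : ℤ))) := by
  classical
  rw [normDown_eq_iff]
  apply Prod.ext
  · rw [inclJ_fst, normJ_fst]
    simp only [map_one, smul_one, Finset.prod_const_one]
  · rw [inclJ_snd, normJ_snd]
    apply divT_ext
    intro Q'
    rw [toFinsupp_prod_smul_single, inclDiv_apply,
      ramIdx_eq_one_of_inertia_eq_bot L L' Q'.1 (hunr Q'), Nat.cast_one, one_mul]
    change (Finsupp.single (underAway T L L' P')
      (Nat.card (MulAction.stabilizer (L' ≃ₐ[L] L') P') : ℤ)) (underAway T L L' Q') = _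
    rw [Finsupp.single_apply]
    simp only [eq_comm]

theorem stabilizer_primeAway_eq (P' : PrimeAway T L') :
    MulAction.stabilizer (L' ≃ₐ[L] L') P' = MulAction.stabilizer (L' ≃ₐ[L] L') P'.1.asIdeal := by
  ext τ
  rw [MulAction.mem_stabilizer_iff, MulAction.mem_stabilizer_iff]
  constructor
  · intro h
    have := congrArg (fun Q : PrimeAway T L' => Q.1.asIdeal) h
    exact this
  · intro h
    exact Subtype.ext (HeightOneSpectrum.ext h)

include hunr in
/-- In an extension unramified at `P'`, the decomposition group of `P'` is trivial as soon as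
`P'` has the same absolute norm as the prime below it. -/
theorem card_stabilizer_eq_one_of_absNorm_eq (P' : PrimeAway T L')
    (h : Ideal.absNorm P'.1.asIdeal = Ideal.absNorm (P'.1.under (𝓞 L)).asIdeal) :
    Nat.card (MulAction.stabilizer (L' ≃ₐ[L] L') P') = 1 := by
  have hlo : P'.1.asIdeal.LiesOver (P'.1.under (𝓞 L)).asIdeal := ⟨rfl⟩
  have hprime : (P'.1.under (𝓞 L)).asIdeal.IsPrime := (P'.1.under (𝓞 L)).isPrime
  have hmax : (P'.1.under (𝓞 L)).asIdeal.IsMaximal := (P'.1.under (𝓞 L)).isMaximal
  have hP' : P'.1.asIdeal.IsPrime := P'.1.isPrime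
  have hP'max : P'.1.asIdeal.IsMaximal := P'.1.isMaximal
  rw [stabilizer_primeAway_eq,
    Ideal.card_stabilizer_eq_card_inertia_mul_finrank (G := L' ≃ₐ[L] L')
      (P'.1.under (𝓞 L)).asIdeal P'.1.asIdeal, hunr P', Subgroup.card_bot, one_mul,
    ← Ideal.inertiaDeg'_eq_inertiaDeg (P'.1.under (𝓞 L)).asIdeal P'.1.asIdeal]
  have hpow := Ideal.absNorm_eq_pow_inertiaDeg'_of_liesOver P'.1.asIdeal
    (P'.1.under (𝓞 L)).asIdeal hprime (P'.1.under (𝓞 L)).ne_bot
  rw [h] at hpow
  have h2 : 2 ≤ Ideal.absNorm (P'.1.under (𝓞 L)).asIdeal := by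
    have h0 : Ideal.absNorm (P'.1.under (𝓞 L)).asIdeal ≠ 0 := by
      rw [Ne, Ideal.absNorm_eq_zero_iff]
      exact (P'.1.under (𝓞 L)).ne_bot
    have h1 : Ideal.absNorm (P'.1.under (𝓞 L)).asIdeal ≠ 1 := by
      rw [Ne, Ideal.absNorm_eq_one_iff]
      exact hprime.ne_top
    omega
  have h3 := Nat.pow_right_injective h2 (hpow.symm.trans (pow_one _).symm)
  exact h3

/-- **(N3)**: if `P'` has the same absolute norm as the prime `P` of `L` below it, then
`N (1, [P']) = (1, [P])`. -/
theorem normDown_single_of_absNorm_eq (P' : PrimeAway T L')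
    (h : Ideal.absNorm P'.1.asIdeal = Ideal.absNorm (P'.1.under (𝓞 L)).asIdeal) :
    normDown T L L' hunr ((1 : IT T L'), DivT.ofFinsupp T L' (Finsupp.single P' 1)) =
      ((1 : IT T L), DivT.ofFinsupp T L (Finsupp.single (underAway T L L' P') 1)) := by
  rw [normDown_single, card_stabilizer_eq_one_of_absNorm_eq T L L' hunr P' h, Nat.cast_one]

end SingleNorm

end Fermat.Agent.PT.GLOB.TowerNorm6
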