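/-
Program F (S55, Poitou–Tate), chapter GLOB — helper6.  GLUE of leaf (A3) to its consumers.

* `towerDescent`, `towerDescentAll (hT : T.Nonempty) : Devissage19.TowerDescentAll T`
  (the descent package consumed by helper19's dévissage `Devissage19.devissage'`);
* `normData T K L hT hunr p hdeg : SecondIneqTower17.NormData T K L p` (the norm package consumed by
  helper17's second inequality), and the resulting UNCONDITIONAL second inequality for a Galois
  extension `L/K` of odd prime degree `p`, unramified outside `T ≠ ∅`: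
  `index_sup_range_normDown_le` (`[J_T(K) : Kˣ · N J_T(L)] ≤ p`),
  `card_fixC_mod_normC_le` (`#Ĥ⁰(Gal(L/K), C_T(L)) ≤ p`), `relIndex_normC_fixC_le`,
  `exists_div_eq_normJ` (pigeonhole form).
-/
import Fermat.Agent.PT.GLOB.TowerNorm6
import Fermat.Agent.PT.GLOB.Devissage19
import Fermat.Agent.PT.GLOB.SecondIneqTower17

set_option autoImplicit false
set_option linter.unusedSectionVars false

namespace Fermat.Agent.PT.GLOB.TowerGlue6

open NumberField IsDedekindDomain
open scoped TensorProduct nonZeroDivisors Pointwise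
open Fermat.Agent.PT.GLOB.Interface23 Fermat.Agent.PT.GLOB.ClassAction23
  Fermat.Agent.PT.GLOB.Tower23 Fermat.Agent.PT.GLOB.FixedClass6
  Fermat.Agent.PT.GLOB.TowerMaps6 Fermat.Agent.PT.GLOB.TowerNorm6

section Devissage

variable (T : Finset Nat.Primes)

/-- The descent package of `Devissage19` for one tower `K ⊆ F ⊆ L`. -/
theorem towerDescent (hT : T.Nonempty)
    (K F L : Type) [Field K] [Field F] [Field L] [NumberField K] [NumberField F] [NumberField L]
    [Algebra K F] [Algebra F L] [Algebra K L] [IsScalarTower K F L] [IsGalois K F] [IsGalois K L]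
    (hun : IsUnramifiedOutside T K L) : Devissage19.TowerDescent T K F L := by
  have : IsGalois F L := IsGalois.tower_top_of_isGalois K F L
  refine ⟨inclCT_injective T F L hT, fun σ c => ?_, fun a ha => ?_⟩
  · exact (inclCT_smul T K F L σ c).symm
  · exact exists_inclCT_eq_of_fixed T F L hT (Devissage19.isUnramifiedOutside_top T K F L hun) a ha

/-- **`Devissage19.TowerDescentAll T` holds for `T ≠ ∅`.** -/
theorem towerDescentAll (hT : T.Nonempty) : Devissage19.TowerDescentAll T :=
  fun K F L _ _ _ _ _ _ _ _ _ _ _ _ hun => towerDescent T hT K F L hun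

end Devissage

section SecondIneq

variable (T : Finset Nat.Primes) (K L : Type) [Field K] [Field L] [NumberField K] [NumberField L]
  [Algebra K L] [IsGalois K L]

/-- **The `NormData` of `SecondIneqTower17`** for a Galois extension `L/K` of degree `p`
unramified outside `T ≠ ∅`. -/
noncomputable def normData (hT : T.Nonempty) (hunr : IsUnramifiedOutside T K L) (p : ℕ)
    (hdeg : Module.finrank K L = p) : SecondIneqTower17.NormData T K L p where
  N := normDown T K L hunr
  N_incl j := by rw [normDown_inclJ, hdeg]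
  N_prime P' h := normDown_single_of_absNorm_eq T K L hunr P' h
  incl_N j := inclJ_normDown T K L hunr j
  incl_fixed σ j := smul_inclJ T K L σ j
  descent c hc := exists_inclCT_eq_of_fixed T K L hT hunr c hc

open SecondIneqTower17 in
/-- **Second inequality, unconditional form on `J_T(K)`**: `[J_T(K) : Kˣ · N J_T(L)] ≤ p`. -/
theorem index_sup_range_normDown_le (hT : T.Nonempty) (hunr : IsUnramifiedOutside T K L) {p : ℕ}
    (hp : p.Prime) (hp2 : p ≠ 2) (hdeg : Module.finrank K L = p) :
    ((diagJ T K).range ⊔ (normDown T K L hunr).range).FiniteIndex ∧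
      ((diagJ T K).range ⊔ (normDown T K L hunr).range).index ≤ p :=
  index_sup_range_le hp hp2 hdeg (normData T K L hT hunr p hdeg)

open SecondIneqTower17 in
/-- **Second inequality, unconditional form on `C_T(L)`**: `#Ĥ⁰(Gal(L/K), C_T(L)) ≤ p`. -/
theorem card_fixC_mod_normC_le (hT : T.Nonempty) (hunr : IsUnramifiedOutside T K L) {p : ℕ}
    (hp : p.Prime) (hp2 : p ≠ 2) (hdeg : Module.finrank K L = p) :
    Finite (fixC T K L ⧸ (normC T K L).subgroupOf (fixC T K L)) ∧
      Nat.card (fixC T K L ⧸ (normC T K L).subgroupOf (fixC T K L)) ≤ p :=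
  card_fixed_mod_norm_le hp hp2 hdeg (normData T K L hT hunr p hdeg)

open SecondIneqTower17 in
theorem relIndex_normC_fixC_le (hT : T.Nonempty) (hunr : IsUnramifiedOutside T K L) {p : ℕ}
    (hp : p.Prime) (hp2 : p ≠ 2) (hdeg : Module.finrank K L = p) :
    (normC T K L).relIndex (fixC T K L) ≠ 0 ∧ (normC T K L).relIndex (fixC T K L) ≤ p :=
  relIndex_normC_le hp hp2 hdeg (normData T K L hT hunr p hdeg)

open SecondIneqTower17 in
/-- Pigeonhole form: among `p + 1` invariant classes two differ by a norm. -/
theorem exists_div_eq_normJ (hT : T.Nonempty) (hunr : IsUnramifiedOutside T K L) {p : ℕ}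
    (hp : p.Prime) (hp2 : p ≠ 2) (hdeg : Module.finrank K L = p)
    (c : Fin (p + 1) → CT T L) (hc : ∀ i (σ : L ≃ₐ[K] L), σ • c i = c i) :
    ∃ i i', i ≠ i' ∧ ∃ y : JT T L, c i / c i' = toCT T L (normJ T K L y) :=
  exists_div_eq_norm hp hp2 hdeg (normData T K L hT hunr p hdeg) c hc

end SecondIneq

end Fermat.Agent.PT.GLOB.TowerGlue6
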