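/-
Program F (S55), chapter GLOB, helper19: **dévissage, final assembly** (leaf GLOB-D1).

Combines `Devissage19.devissage'` (induction over towers), `CyclicBase19` (base case from
`Interface23.Hilbert90C p` and `Interface23.NormIndexC p`) and helper6's
`TowerGlue6.towerDescentAll` (Galois descent for the tower maps): for a prime `p ∈ S`
and every Galois extension `L/K` of number fields unramified outside `S` whose Galois group is a
`p`-group,
  `H¹(Gal(L/K), C_S(L)) = 0`, `H²(Gal(L/K), C_S(L))` is finite of order dividing `[L : K]`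
(the fields `h1` and half of `card` of `InterfaceCF23.IsPClassFormation`).
-/
import Mathlib
import Fermat.Agent.PT.GLOB.CyclicBase19
import Fermat.Agent.PT.GLOB.TowerGlue6

set_option autoImplicit false
set_option linter.style.longLine false
set_option linter.unusedSectionVars false

open CategoryTheory groupCohomology NumberField

namespace Fermat.Agent.PT.GLOB.DevissageFinal19

open Fermat.Agent.PT.GLOB.Interface23 Fermat.Agent.PT.GLOB.ClassAction23
  Fermat.Agent.PT.GLOB.Devissage19 Fermat.Agent.PT.GLOB.CyclicBase19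

variable (p : ℕ) (S : Finset Nat.Primes)

/-- A finite Galois extension whose group is a `p`-group has `p`-power degree. -/
theorem exists_finrank_eq_pow (hp : p.Prime) (K L : Type) [Field K] [Field L] [NumberField K]
    [NumberField L] [Algebra K L] [IsGalois K L] (hG : IsPGroup p (L ≃ₐ[K] L)) :
    ∃ n : ℕ, Module.finrank K L = p ^ n := by
  haveI : Fact p.Prime := ⟨hp⟩
  obtain ⟨n, hn⟩ := IsPGroup.iff_card.mp hG
  exact ⟨n, by rw [← IsGalois.card_aut_eq_finrank, hn]⟩

/-- **GLOB-D1, final form.** -/
theorem devissage_pgroup (hp : p.Prime) (hpS : ∃ q ∈ S, (q : ℕ) = p)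
    (h90 : Hilbert90C p) (hNI : NormIndexC p)
    (K L : Type) [Field K] [Field L] [NumberField K] [NumberField L] [Algebra K L]
    [IsGalois K L] (hun : IsUnramifiedOutside S K L) (hG : IsPGroup p (L ≃ₐ[K] L)) :
    Subsingleton (H1 (repCT S K L)) ∧ Finite (H2 (repCT S K L)) ∧
      Nat.card (H2 (repCT S K L)) ∣ Module.finrank K L := by
  have hS : S.Nonempty := by
    obtain ⟨q, hq, -⟩ := hpS
    exact ⟨q, hq⟩
  exact devissage_of_inequalities p hp S hpS h90 hNI
    (Fermat.Agent.PT.GLOB.TowerGlue6.towerDescentAll S hS) K L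
    (exists_finrank_eq_pow p hp K L hG) hun

/-- The field `h1` of `InterfaceCF23.IsPClassFormation`. -/
theorem h1_pgroup (hp : p.Prime) (hpS : ∃ q ∈ S, (q : ℕ) = p)
    (h90 : Hilbert90C p) (hNI : NormIndexC p) :
    ∀ (K L : Type) [Field K] [Field L] [NumberField K] [NumberField L] [Algebra K L]
      [IsGalois K L], IsUnramifiedOutside S K L → IsPGroup p (L ≃ₐ[K] L) →
      Subsingleton (H1 (repCT S K L)) :=
  fun K L _ _ _ _ _ _ hun hG => (devissage_pgroup p S hp hpS h90 hNI K L hun hG).1

/-- The upper bound half of the field `card` of `InterfaceCF23.IsPClassFormation`. -/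
theorem card_H2_dvd_pgroup (hp : p.Prime) (hpS : ∃ q ∈ S, (q : ℕ) = p)
    (h90 : Hilbert90C p) (hNI : NormIndexC p) :
    ∀ (K L : Type) [Field K] [Field L] [NumberField K] [NumberField L] [Algebra K L]
      [IsGalois K L], IsUnramifiedOutside S K L → IsPGroup p (L ≃ₐ[K] L) →
      Finite (H2 (repCT S K L)) ∧ Nat.card (H2 (repCT S K L)) ∣ Module.finrank K L :=
  fun K L _ _ _ _ _ _ hun hG => (devissage_pgroup p S hp hpS h90 hNI K L hun hG).2

end Fermat.Agent.PT.GLOB.DevissageFinal19
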