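/-
Program F (S55, Poitou–Tate), chapter GLOB, leaf (GLOB-CK'), adapter to `Interface23` (helper15).

In the `T`-idele model of `Interface23`:  for a number field `L` there is a nonzero integer `N` such
that for every finite set `T` of rational primes containing all prime factors of `N`
* `divT T L : Lˣ →* DivT T L` is surjective (the `T`-class group of `L` is trivial);
* every `T`-idele `j ∈ JT T L = IT T L × DivT T L` is, modulo a principal idele, of the form
  `(i, 1)`; hence `CT T L = IT T L / (image of the T-units)`.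
-/
import Fermat.Agent.PT.GLOB.Interface23
import Fermat.Agent.PT.GLOB.ClassKill15

set_option autoImplicit false

namespace Fermat.Agent.PT.GLOB.ClassKillCT15

open NumberField IsDedekindDomain
open scoped nonZeroDivisors
open Fermat.Agent.PT.GLOB.Interface23 Fermat.Agent.PT.GLOB.ClassKill15

variable (L : Type*) [Field L] [NumberField L]

/-- `ordAt` of `Interface23` is minus the additive valuation `valuationOfNeZero` of Mathlib. -/
theorem ordAt_eq_neg_toAdd (P : HeightOneSpectrum (𝓞 L)) (x : Lˣ) :
    ordAt L P x = -Multiplicative.toAdd (P.valuationOfNeZero x) := by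
  rw [toAdd_valuationOfNeZero, neg_neg]; rfl

/-- A prime of `L` away from `T` does not divide an integer all of whose prime factors are in
`T`. -/
theorem not_dvd_of_primeAway {T : Finset Nat.Primes} {N : ℕ} (hN : N ≠ 0)
    (hT : ∀ q : Nat.Primes, (q : ℕ) ∣ N → q ∈ T) (P : PrimeAway T L) :
    ¬ P.1.asIdeal ∣ Ideal.span {(N : 𝓞 L)} := by
  intro hdvd
  have hmem : (N : 𝓞 L) ∈ P.1.asIdeal := by
    rw [Ideal.dvd_iff_le] at hdvd
    exact hdvd (Ideal.mem_span_singleton_self _)
  -- some prime factor of `N` lies in `P`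
  have key : ∀ n : ℕ, n ≠ 0 → (∀ q : Nat.Primes, (q : ℕ) ∣ n → q ∈ T) →
      (n : 𝓞 L) ∈ P.1.asIdeal → False := by
    intro n
    induction n using Nat.recOnMul with
    | zero => exact fun h _ _ => h rfl
    | one =>
      intro _ _ h1
      rw [Nat.cast_one] at h1
      exact P.1.isPrime.ne_top ((Ideal.eq_top_iff_one _).mpr h1)
    | prime q hq =>
      intro _ hqT hq'
      have := P.2 ⟨q, hq⟩ (hqT ⟨q, hq⟩ dvd_rfl)
      apply this
      simpa using hq'
    | mul a b iha ihb =>
      intro hab hT' hmem'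
      rw [Nat.cast_mul] at hmem'
      rcases P.1.isPrime.mem_or_mem hmem' with h | h
      · exact iha (left_ne_zero_of_mul hab) (fun q hq => hT' q (hq.mul_right b)) h
      · exact ihb (right_ne_zero_of_mul hab) (fun q hq => hT' q (hq.mul_left a)) h
  exact key N hN hT hmem

/-- **Class killing in the `T`-idele model**: there is `N ≠ 0` such that `divT T L` is surjective
for every `T` containing the prime factors of `N`. -/
theorem exists_nat_divT_surjective :
    ∃ N : ℕ, N ≠ 0 ∧ ∀ T : Finset Nat.Primes, (∀ q : Nat.Primes, (q : ℕ) ∣ N → q ∈ T) →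
      Function.Surjective (divT T L) := by
  classical
  obtain ⟨N, hN, h⟩ := exists_nat_forall_finsupp L
  refine ⟨N, hN, fun T hT D => ?_⟩
  let f' : PrimeAway T L →₀ ℤ := DivT.toFinsupp T L D
  let f : HeightOneSpectrum (𝓞 L) →₀ ℤ :=
    -(Finsupp.mapDomain (Subtype.val : PrimeAway T L → HeightOneSpectrum (𝓞 L)) f')
  obtain ⟨a, ha⟩ := h f
  refine ⟨a, ?_⟩
  have : DivT.toFinsupp T L (divT T L a) = DivT.toFinsupp T L D := by
    ext P
    rw [divT_apply, ordAt_eq_neg_toAdd, ha P.1 (not_dvd_of_primeAway L hN hT P), toAdd_ofAdd]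
    show -(-(Finsupp.mapDomain (Subtype.val : PrimeAway T L → HeightOneSpectrum (𝓞 L)) f')) P.1 = _
    rw [Finsupp.neg_apply, neg_neg, Finsupp.mapDomain_apply Subtype.val_injective]
    rfl
  exact this

/-- Every `T`-idele is congruent modulo principal ideles to one with trivial divisor component,
as soon as `T` contains the prime factors of `N`. -/
theorem exists_nat_forall_JT :
    ∃ N : ℕ, N ≠ 0 ∧ ∀ T : Finset Nat.Primes, (∀ q : Nat.Primes, (q : ℕ) ∣ N → q ∈ T) →
      ∀ j : JT T L, ∃ (i : IT T L) (x : Lˣ), j = (i, 1) * diagJ T L x := by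
  obtain ⟨N, hN, h⟩ := exists_nat_divT_surjective L
  refine ⟨N, hN, fun T hT j => ?_⟩
  obtain ⟨x, hx⟩ := h T hT j.2
  refine ⟨j.1 / diagI T L x, x, ?_⟩
  ext1
  · show j.1 = j.1 / diagI T L x * diagI T L x
    rw [div_mul_cancel]
  · show j.2 = 1 * divT T L x
    rw [one_mul, hx]

end Fermat.Agent.PT.GLOB.ClassKillCT15
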