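/-
Program F (S55), chapter GLOB (helper24): the Herbrand quotient of a finitely generated commutative
group `U` under an endomorphism `φ` with `φ^p = id` (`p` prime), in multiplicative index form.
This is `CFT/HerbrandAbstract.herbrand_main` (helper18) transported from `Module.End ℤ (Additive U)`
to honest subgroups of `U`:

  `[U^φ : N U] * p^b = [ker N : (φ/1) U] * p^a`,  `a = rank U^φ`, `rank U = a + (p-1) b`,

with `N u = ∏_{i<p} φ^i u` and `(φ/1) u = φ u / u`.
-/
import Mathlib
import Fermat.Agent.CFT.HerbrandAbstract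

set_option autoImplicit false
set_option linter.unusedSectionVars false

namespace Fermat.Agent.PT.GLOB.HerbrandGroup24

open Module Fermat.Agent.CFT.HerbrandAbstract

variable {U : Type*} [CommGroup U]

/-- The norm `u ↦ ∏_{i<p} φ^i u`. -/
def normHom (φ : U →* U) (p : ℕ) : U →* U where
  toFun u := ∏ i ∈ Finset.range p, (φ^[i]) u
  map_one' := by
    simp [iterate_map_one]
  map_mul' u v := by
    simp only [iterate_map_mul]
    rw [Finset.prod_mul_distrib]

theorem normHom_apply (φ : U →* U) (p : ℕ) (u : U) :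
    normHom φ p u = ∏ i ∈ Finset.range p, (φ^[i]) u := rfl

/-- The map `u ↦ φ u / u`. -/
def divHom (φ : U →* U) : U →* U where
  toFun u := φ u / u
  map_one' := by simp
  map_mul' u v := by
    rw [map_mul, mul_div_mul_comm]

theorem divHom_apply (φ : U →* U) (u : U) : divHom φ u = φ u / u := rfl

/-- The subgroup of fixed points of `φ`. -/
def fixedSubgroup (φ : U →* U) : Subgroup U where
  carrier := {u | φ u = u}
  one_mem' := map_one φ
  mul_mem' := by
    intro a b ha hb
    show φ (a * b) = a * b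
    rw [map_mul, ha, hb]
  inv_mem' := by
    intro a ha
    show φ a⁻¹ = a⁻¹
    rw [map_inv, ha]

theorem mem_fixedSubgroup (φ : U →* U) (u : U) : u ∈ fixedSubgroup φ ↔ φ u = u := Iff.rfl

/-- `φ` as an endomorphism of `Additive U`. -/
def toEnd (φ : U →* U) : Module.End ℤ (Additive U) :=
  (MonoidHom.toAdditive φ).toIntLinearMap

theorem toEnd_apply (φ : U →* U) (u : U) :
    toEnd φ (Additive.ofMul u) = Additive.ofMul (φ u) := rfl

theorem toEnd_pow_apply (φ : U →* U) (i : ℕ) (u : U) :
    (toEnd φ ^ i) (Additive.ofMul u) = Additive.ofMul ((φ^[i]) u) := by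
  induction i generalizing u with
  | zero => simp
  | succ i ih =>
    rw [pow_succ, Module.End.mul_apply, toEnd_apply, ih, Function.iterate_succ_apply]

theorem toEnd_sub_one_apply (φ : U →* U) (u : U) :
    (toEnd φ - 1) (Additive.ofMul u) = Additive.ofMul (divHom φ u) := by
  rw [LinearMap.sub_apply, toEnd_apply, Module.End.one_apply, divHom_apply, ofMul_div]

theorem normEnd_apply (φ : U →* U) (p : ℕ) (u : U) :
    normEnd (toEnd φ) p (Additive.ofMul u) = Additive.ofMul (normHom φ p u) := by
  rw [normEnd, LinearMap.sum_apply, normHom_apply, ofMul_prod]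
  exact Finset.sum_congr rfl fun i _ => toEnd_pow_apply φ i u

theorem toEnd_pow_eq_one (φ : U →* U) (p : ℕ) (hφ : ∀ u, (φ^[p]) u = u) : toEnd φ ^ p = 1 := by
  apply LinearMap.ext
  intro x
  obtain ⟨u, rfl⟩ := Additive.ofMul.surjective x
  rw [toEnd_pow_apply, hφ]
  rfl

theorem ker_toEnd_sub_one (φ : U →* U) :
    (LinearMap.ker (toEnd φ - 1)).toAddSubgroup = Subgroup.toAddSubgroup (fixedSubgroup φ) := by
  ext x
  obtain ⟨u, rfl⟩ := Additive.ofMul.surjective x
  show (toEnd φ - 1) (Additive.ofMul u) = 0 ↔ φ u = u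
  rw [toEnd_sub_one_apply, divHom_apply]
  constructor
  · intro h
    have h2 : φ u / u = 1 := h
    exact div_eq_one.mp h2
  · intro h
    rw [h, div_self']
    rfl

theorem range_toEnd_sub_one (φ : U →* U) :
    (LinearMap.range (toEnd φ - 1)).toAddSubgroup = Subgroup.toAddSubgroup (divHom φ).range := by
  ext x
  obtain ⟨u, rfl⟩ := Additive.ofMul.surjective x
  constructor
  · rintro ⟨y, hy⟩
    obtain ⟨w, rfl⟩ := Additive.ofMul.surjective y
    rw [toEnd_sub_one_apply] at hy
    exact ⟨w, hy⟩
  · rintro ⟨w, hw⟩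
    refine ⟨Additive.ofMul w, ?_⟩
    rw [toEnd_sub_one_apply]
    exact congrArg Additive.ofMul hw

theorem range_normEnd (φ : U →* U) (p : ℕ) :
    (LinearMap.range (normEnd (toEnd φ) p)).toAddSubgroup =
      Subgroup.toAddSubgroup (normHom φ p).range := by
  ext x
  obtain ⟨u, rfl⟩ := Additive.ofMul.surjective x
  constructor
  · rintro ⟨y, hy⟩
    obtain ⟨w, rfl⟩ := Additive.ofMul.surjective y
    rw [normEnd_apply] at hy
    exact ⟨w, hy⟩
  · rintro ⟨w, hw⟩
    refine ⟨Additive.ofMul w, ?_⟩
    rw [normEnd_apply]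
    exact congrArg Additive.ofMul hw

theorem ker_normEnd (φ : U →* U) (p : ℕ) :
    (LinearMap.ker (normEnd (toEnd φ) p)).toAddSubgroup =
      Subgroup.toAddSubgroup (normHom φ p).ker := by
  ext x
  obtain ⟨u, rfl⟩ := Additive.ofMul.surjective x
  show normEnd (toEnd φ) p (Additive.ofMul u) = 0 ↔ normHom φ p u = 1
  rw [normEnd_apply]
  rfl

/-- The fixed points, additively, as the kernel of `φ - 1`. -/
def fixedEquiv (φ : U →* U) :
    Additive (fixedSubgroup φ) ≃ₗ[ℤ] LinearMap.ker (toEnd φ - 1) :=
  AddEquiv.toIntLinearEquiv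
    { toFun := fun x => ⟨Additive.ofMul ((Additive.toMul x : fixedSubgroup φ) : U), by
        have : Additive.ofMul ((Additive.toMul x : fixedSubgroup φ) : U) ∈
            (LinearMap.ker (toEnd φ - 1)).toAddSubgroup := by
          rw [ker_toEnd_sub_one]
          exact (Additive.toMul x).2
        exact this⟩
      invFun := fun y => Additive.ofMul ⟨Additive.toMul (y : Additive U), by
        have : (y : Additive U) ∈ (LinearMap.ker (toEnd φ - 1)).toAddSubgroup := y.2
        rw [ker_toEnd_sub_one] at this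
        exact this⟩
      left_inv := fun x => rfl
      right_inv := fun y => rfl
      map_add' := fun x y => rfl }

/-- **Herbrand quotient for an automorphism of prime order**, multiplicative index form. -/
theorem herbrand_group [Module.Finite ℤ (Additive U)] (p : ℕ) [hp : Fact p.Prime] (φ : U →* U)
    (hφ : ∀ u, (φ^[p]) u = u) (a b : ℕ)
    (ha : finrank ℤ (Additive (fixedSubgroup φ)) = a)
    (hr : finrank ℤ (Additive U) = a + (p - 1) * b) :
    (normHom φ p).range.relIndex (fixedSubgroup φ) * p ^ b =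
        (divHom φ).range.relIndex (normHom φ p).ker * p ^ a ∧
      (normHom φ p).range.relIndex (fixedSubgroup φ) ≠ 0 ∧
      (divHom φ).range.relIndex (normHom φ p).ker ≠ 0 := by
  have ha' : finrank ℤ (LinearMap.ker (toEnd φ - 1)) = a := by
    rw [← (fixedEquiv φ).finrank_eq, ha]
  obtain ⟨h1, h2, h3⟩ := herbrand_main p (toEnd φ) (toEnd_pow_eq_one φ p hφ) a b ha' hr
  rw [range_normEnd, ker_toEnd_sub_one, Subgroup.relIndex_toAddSubgroup] at h1 h2
  rw [range_toEnd_sub_one, ker_normEnd, Subgroup.relIndex_toAddSubgroup] at h1 h3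
  exact ⟨h1, h2, h3⟩

end Fermat.Agent.PT.GLOB.HerbrandGroup24
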