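/-
Program F (S55), chapter GLOB (helper24): the finite set of primes of `𝓞 L` above a finite set of
primes of `𝓞 K` (generic Dedekind version), shared definition for the Galois side of the
`S`-unit computations.
-/
import Mathlib

set_option autoImplicit false
set_option linter.style.haveILetI false

namespace Fermat.Agent.PT.GLOB.PrimesAbove24

open IsDedekindDomain HeightOneSpectrum

variable (A B : Type*) [CommRing A] [IsDedekindDomain A] [CommRing B] [IsDedekindDomain B]
  [Algebra A B] [Algebra.IsIntegral A B] [Module.IsTorsionFree A B]

/-- The primes of `B` above a given prime of `A` form a finite set. -/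
theorem finite_fiber (v : HeightOneSpectrum A) :
    {w : HeightOneSpectrum B | w.under A = v}.Finite := by
  haveI := v.isMaximal
  have hfin := IsDedekindDomain.primesOver_finite v.asIdeal B
  refine Set.Finite.of_finite_image (f := HeightOneSpectrum.asIdeal) (hfin.subset ?_) ?_
  · rintro _ ⟨w, hw, rfl⟩
    refine ⟨w.isPrime, ⟨?_⟩⟩
    have := congrArg HeightOneSpectrum.asIdeal hw
    exact this.symm
  · intro w _ w' _ h
    exact HeightOneSpectrum.ext h

/-- The primes of `B` above a prime of `A`, as a `Finset`. -/
noncomputable def fiber (v : HeightOneSpectrum A) : Finset (HeightOneSpectrum B) :=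
  (finite_fiber A B v).toFinset

variable {A B} in
theorem mem_fiber {v : HeightOneSpectrum A} {w : HeightOneSpectrum B} :
    w ∈ fiber A B v ↔ w.under A = v := by
  unfold fiber
  simp

/-- The finite set of primes of `B` above a finite set `T` of primes of `A`. -/
noncomputable def above (T : Finset (HeightOneSpectrum A)) : Finset (HeightOneSpectrum B) :=
  (T.finite_toSet.biUnion fun v _ => finite_fiber A B v).toFinset

variable {A B} in
theorem mem_above {T : Finset (HeightOneSpectrum A)} {w : HeightOneSpectrum B} :
    w ∈ above A B T ↔ w.under A ∈ T := by
  unfold above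
  simp

theorem above_eq_biUnion [DecidableEq (HeightOneSpectrum B)] (T : Finset (HeightOneSpectrum A)) :
    above A B T = T.biUnion (fiber A B) := by
  ext w
  simp [mem_above, mem_fiber]

/-- The fibres over distinct primes are disjoint, so `#above T = ∑_{v ∈ T} #fiber v`. -/
theorem card_above (T : Finset (HeightOneSpectrum A)) :
    (above A B T).card = ∑ v ∈ T, (fiber A B v).card := by
  classical
  rw [above_eq_biUnion, Finset.card_biUnion]
  intro v _ v' _ hvv'
  change Disjoint (fiber A B v) (fiber A B v')
  rw [Finset.disjoint_left]
  intro w hw hw'
  rw [mem_fiber] at hw hw'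
  exact hvv' (hw.symm.trans hw')

end Fermat.Agent.PT.GLOB.PrimesAbove24
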