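/-
Program F (S55), chapter GLOB (helper24): Dirichlet's S-unit theorem.

For a Dedekind domain `R` with fraction field `K` and a finite set `T` of primes:
* `ordHom K v : Kˣ →* Multiplicative ℤ`, the `v`-adic valuation of a nonzero element;
* `sUnit K T = (T : Set _).unit K` (Mathlib's `Set.unit`), `valHom K T : sUnit K T →* (T → Multiplicative ℤ)`;
* `ker_valHom`: the kernel of `valHom` is the image of `Rˣ`;
* `card_smul_mem_range_valLin`: `h • (T → ℤ)` is contained in the image (`h` the class number);
* `finite_sUnit`, `finrank_sUnit`: finite generation and rank `= rank Rˣ + #T`;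
* for number fields: `finrank_sUnit_numberField : finrank ℤ (Additive (sUnit K T)) = Units.rank K + T.card`.
-/
import Mathlib

set_option autoImplicit false
set_option linter.unusedSectionVars false
set_option linter.style.haveILetI false

namespace Fermat.Agent.PT.GLOB.SUnits24

open NumberField IsDedekindDomain HeightOneSpectrum Module
open scoped nonZeroDivisors WithZero



section Dedekind1

variable {R : Type*} [CommRing R] [IsDedekindDomain R]
  (K : Type*) [Field K] [Algebra R K] [IsFractionRing R K]

/-- The `v`-adic valuation of a nonzero element as an element of `Multiplicative ℤ`. -/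
noncomputable def ordHom (v : HeightOneSpectrum R) : Kˣ →* Multiplicative ℤ :=
  (WithZero.unitsWithZeroEquiv (α := Multiplicative ℤ)).toMonoidHom.comp
    (Units.map (v.valuation K).toMonoidHom)

theorem coe_ordHom (v : HeightOneSpectrum R) (x : Kˣ) :
    ((ordHom K v x : Multiplicative ℤ) : ℤᵐ⁰) = v.valuation K (x : K) := by
  unfold ordHom
  simp only [MulEquiv.toMonoidHom_eq_coe, MonoidHom.coe_comp, MonoidHom.coe_coe,
    Function.comp_apply, WithZero.coe_unitsWithZeroEquiv_eq_units_val, Units.coe_map,
    MonoidHom.coe_coe]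
  rfl

theorem ordHom_eq_one_iff (v : HeightOneSpectrum R) (x : Kˣ) :
    ordHom K v x = 1 ↔ v.valuation K (x : K) = 1 := by
  rw [← coe_ordHom, ← WithZero.coe_one, WithZero.coe_inj]

/-- An element of `Kˣ` all of whose valuations are trivial comes from a unit of `R`. -/
theorem exists_unit_of_valuation_eq_one (x : Kˣ)
    (h : ∀ v : HeightOneSpectrum R, v.valuation K (x : K) = 1) :
    ∃ u : Rˣ, algebraMap R K (u : R) = (x : K) := by
  obtain ⟨r, hr⟩ := HeightOneSpectrum.mem_integers_of_valuation_le_one K (x : K)
    (fun v => (h v).le)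
  obtain ⟨s, hs⟩ := HeightOneSpectrum.mem_integers_of_valuation_le_one K ((x⁻¹ : Kˣ) : K)
    (fun v => by
      rw [Units.val_inv_eq_inv_val, map_inv₀, h v, inv_one])
  have hinj := IsFractionRing.injective R K
  have hrs : r * s = 1 := by
    apply hinj
    rw [map_mul, hr, hs, map_one, Units.mul_inv]
  have hsr : s * r = 1 := by rw [mul_comm]; exact hrs
  exact ⟨⟨r, s, hrs, hsr⟩, hr⟩

end Dedekind1



section Dedekind2

variable {R : Type*} [CommRing R] [IsDedekindDomain R]
  (K : Type*) [Field K] [Algebra R K] [IsFractionRing R K]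

theorem valuation_unit_eq_one (v : HeightOneSpectrum R) (u : Rˣ) :
    v.valuation K (algebraMap R K (u : R)) = 1 := by
  have h1 := v.valuation_le_one (K := K) (u : R)
  have h2 := v.valuation_le_one (K := K) ((u⁻¹ : Rˣ) : R)
  have h3 : v.valuation K (algebraMap R K (u : R)) * v.valuation K (algebraMap R K ((u⁻¹ : Rˣ) : R))
      = 1 := by
    rw [← map_mul, ← map_mul, Units.mul_inv, map_one, map_one]
  exact le_antisymm h1 (by
    by_contra hlt
    rw [not_le] at hlt
    have : v.valuation K (algebraMap R K (u : R)) *
        v.valuation K (algebraMap R K ((u⁻¹ : Rˣ) : R)) < 1 := by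
      calc _ ≤ v.valuation K (algebraMap R K (u : R)) * 1 := by gcongr
        _ = v.valuation K (algebraMap R K (u : R)) := mul_one _
        _ < 1 := hlt
    rw [h3] at this
    exact lt_irrefl _ this)

/-- valuation of an element generating a power of a prime: at that prime. -/
theorem valuation_of_span_eq_pow_self (w : HeightOneSpectrum R) (a : R) (h : ℕ)
    (ha : Ideal.span {a} = w.asIdeal ^ h) :
    w.valuation K (algebraMap R K a) = WithZero.exp (-(h : ℤ)) := by
  have ha0 : a ≠ 0 := by
    rintro rfl
    have : (⊥ : Ideal R) = w.asIdeal ^ h := by rw [← ha]; simp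
    exact pow_ne_zero h w.ne_bot this.symm
  rw [valuation_of_algebraMap, intValuation_eq_exp_neg_multiplicity w ha0, ha,
    multiplicity_pow_self_of_prime w.prime]

/-- valuation of an element generating a power of a prime: at the other primes. -/
theorem valuation_of_span_eq_pow_of_ne (v w : HeightOneSpectrum R) (hvw : v ≠ w) (a : R) (h : ℕ)
    (ha : Ideal.span {a} = w.asIdeal ^ h) :
    v.valuation K (algebraMap R K a) = 1 := by
  have ha0 : a ≠ 0 := by
    rintro rfl
    have : (⊥ : Ideal R) = w.asIdeal ^ h := by rw [← ha]; simp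
    exact pow_ne_zero h w.ne_bot this.symm
  rw [valuation_of_algebraMap, intValuation_eq_exp_neg_multiplicity v ha0, ha]
  have : multiplicity v.asIdeal (w.asIdeal ^ h) = 0 := by
    rw [multiplicity_eq_zero]
    intro hdvd
    have h1 := v.prime.dvd_of_dvd_pow hdvd
    rw [Ideal.dvd_iff_le] at h1
    have h2 : w.asIdeal = v.asIdeal := (w.isMaximal.eq_of_le v.isPrime.ne_top h1)
    exact hvw (HeightOneSpectrum.ext h2.symm)
  rw [this]
  simp

variable (T : Finset (HeightOneSpectrum R))

/-- The group of `T`-units of `K` (Mathlib's `Set.unit`). -/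
noncomputable abbrev sUnit : Subgroup Kˣ := (T : Set (HeightOneSpectrum R)).unit K

theorem mem_sUnit_iff (x : Kˣ) :
    x ∈ sUnit K T ↔ ∀ v : HeightOneSpectrum R, v ∉ T → v.valuation K (x : K) = 1 := by
  rfl

/-- The valuation vector of a `T`-unit. -/
noncomputable def valHom : sUnit K T →* (T → Multiplicative ℤ) :=
  MonoidHom.pi fun v : T => (ordHom K v.1).comp (sUnit K T).subtype

theorem valHom_apply (x : sUnit K T) (v : T) : valHom K T x v = ordHom K v.1 (x : Kˣ) := rfl

/-- Units of `R` as `T`-units. -/
noncomputable def unitsToSUnit : Rˣ →* sUnit K T :=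
  (Units.map (algebraMap R K).toMonoidHom).codRestrict (sUnit K T) (fun u => by
    rw [mem_sUnit_iff]
    intro v _
    exact valuation_unit_eq_one K v u)

theorem coe_unitsToSUnit (u : Rˣ) :
    (((unitsToSUnit K T u : sUnit K T) : Kˣ) : K) = algebraMap R K (u : R) := rfl

theorem unitsToSUnit_injective : Function.Injective (unitsToSUnit K T) := by
  intro u u' h
  have h1 := congrArg (fun x : sUnit K T => ((x : Kˣ) : K)) h
  simp only [coe_unitsToSUnit] at h1
  exact Units.ext (IsFractionRing.injective R K h1)

theorem ker_valHom : (valHom K T).ker = (unitsToSUnit K T).range := by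
  ext x
  rw [MonoidHom.mem_ker, MonoidHom.mem_range]
  constructor
  · intro hx
    have hall : ∀ v : HeightOneSpectrum R, v.valuation K ((x : Kˣ) : K) = 1 := by
      intro v
      by_cases hv : v ∈ T
      · have := congrFun hx ⟨v, hv⟩
        rw [valHom_apply, Pi.one_apply, ordHom_eq_one_iff] at this
        exact this
      · exact (mem_sUnit_iff K T _).mp x.2 v hv
    obtain ⟨u, hu⟩ := exists_unit_of_valuation_eq_one K (x : Kˣ) hall
    refine ⟨u, ?_⟩
    apply Subtype.ext
    apply Units.ext
    rw [coe_unitsToSUnit, hu]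
  · rintro ⟨u, rfl⟩
    funext v
    rw [valHom_apply, Pi.one_apply, ordHom_eq_one_iff, coe_unitsToSUnit]
    exact valuation_unit_eq_one K v.1 u

/-- A generator of a power of a prime in `T` is a `T`-unit with valuation vector supported at that
prime. -/
theorem exists_sUnit_of_span_eq_pow [DecidableEq T] (w : T) (a : R) (h : ℕ)
    (ha : Ideal.span {a} = w.1.asIdeal ^ h) :
    ∃ x : sUnit K T, valHom K T x = Pi.mulSingle (M := fun _ : T => Multiplicative ℤ) w (Multiplicative.ofAdd (-(h : ℤ))) := by
  have ha0 : a ≠ 0 := by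
    rintro rfl
    have : (⊥ : Ideal R) = w.1.asIdeal ^ h := by rw [← ha]; simp
    exact pow_ne_zero h w.1.ne_bot this.symm
  have hK0 : algebraMap R K a ≠ 0 := by
    rw [Ne, map_eq_zero_iff _ (IsFractionRing.injective R K)]
    exact ha0
  have hmem : Units.mk0 (algebraMap R K a) hK0 ∈ sUnit K T := by
    rw [mem_sUnit_iff]
    intro v hv
    rw [Units.val_mk0]
    refine valuation_of_span_eq_pow_of_ne K v w.1 ?_ a h ha
    rintro rfl
    exact hv w.2
  refine ⟨⟨Units.mk0 (algebraMap R K a) hK0, hmem⟩, ?_⟩
  funext v
  rw [valHom_apply]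
  apply WithZero.coe_injective
  rw [coe_ordHom, Units.val_mk0]
  by_cases hvw : v = w
  · subst hvw
    rw [Pi.mulSingle_eq_same, valuation_of_span_eq_pow_self K v.1 a h ha]
    rfl
  · rw [Pi.mulSingle_eq_of_ne hvw, valuation_of_span_eq_pow_of_ne K v.1 w.1 ?_ a h ha]
    · rfl
    · intro h'
      exact hvw (Subtype.ext h')

end Dedekind2



section Dedekind3

variable {R : Type*} [CommRing R] [IsDedekindDomain R]
  (K : Type*) [Field K] [Algebra R K] [IsFractionRing R K]
  (T : Finset (HeightOneSpectrum R))

/-- The valuation vector, additively, as a `ℤ`-linear map. -/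
noncomputable def valLin : Additive (sUnit K T) →ₗ[ℤ] (T → ℤ) :=
  AddMonoidHom.toIntLinearMap
    { toFun := fun x v => Multiplicative.toAdd (valHom K T (Additive.toMul x) v)
      map_zero' := by
        funext v
        simp
      map_add' := fun x y => by
        funext v
        simp [map_mul] }

theorem valLin_apply (x : Additive (sUnit K T)) (v : T) :
    valLin K T x v = Multiplicative.toAdd (valHom K T (Additive.toMul x) v) := rfl

/-- Units of `R` as `T`-units, additively. -/
noncomputable def unitsLin : Additive Rˣ →ₗ[ℤ] Additive (sUnit K T) :=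
  AddMonoidHom.toIntLinearMap (MonoidHom.toAdditive (unitsToSUnit K T))

theorem unitsLin_apply (u : Additive Rˣ) :
    unitsLin K T u = Additive.ofMul (unitsToSUnit K T (Additive.toMul u)) := rfl

theorem unitsLin_injective : Function.Injective (unitsLin K T) := by
  intro u u' h
  have := unitsToSUnit_injective K T (Additive.ofMul.injective h)
  exact Additive.toMul.injective this

theorem ker_valLin : LinearMap.ker (valLin K T) = LinearMap.range (unitsLin K T) := by
  ext x
  rw [LinearMap.mem_ker, LinearMap.mem_range]
  have hk := ker_valHom K T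
  constructor
  · intro hx
    have h1 : Additive.toMul x ∈ (valHom K T).ker := by
      rw [MonoidHom.mem_ker]
      funext v
      have := congrFun hx v
      rw [valLin_apply] at this
      exact Multiplicative.toAdd.injective this
    rw [hk] at h1
    obtain ⟨u, hu⟩ := h1
    exact ⟨Additive.ofMul u, by rw [unitsLin_apply]; exact congrArg Additive.ofMul hu⟩
  · rintro ⟨u, rfl⟩
    have h1 : unitsToSUnit K T (Additive.toMul u) ∈ (valHom K T).ker := by
      rw [hk]; exact ⟨_, rfl⟩
    rw [MonoidHom.mem_ker] at h1
    funext v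
    rw [valLin_apply, unitsLin_apply]
    have := congrFun h1 v
    simp only [toMul_ofMul, Pi.zero_apply]
    rw [this]
    rfl

/-- Every multiple of the class number vector is a valuation vector. -/
theorem card_smul_mem_range_valLin (f : T → ℤ) :
    (Nat.card (ClassGroup R)) • f ∈ LinearMap.range (valLin K T) := by
  classical
  set h := Nat.card (ClassGroup R) with hh
  have hsingle : ∀ w : T, Pi.single w (-(h : ℤ)) ∈ LinearMap.range (valLin K T) := by
    intro w
    have hw0 : w.1.asIdeal ∈ (Ideal R)⁰ := mem_nonZeroDivisors_iff_ne_zero.mpr w.1.ne_bot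
    have h1 : ClassGroup.mk0 ⟨w.1.asIdeal, hw0⟩ ^ h = 1 := by
      rw [hh]; exact pow_card_eq_one'
    have h2 : (⟨w.1.asIdeal, hw0⟩ : (Ideal R)⁰) ^ h = ⟨w.1.asIdeal ^ h, pow_mem hw0 h⟩ :=
      Subtype.ext (by simp)
    rw [← map_pow, h2, ClassGroup.mk0_eq_one_iff] at h1
    obtain ⟨a, ha⟩ := h1.principal
    obtain ⟨x, hx⟩ := exists_sUnit_of_span_eq_pow K T w a h (by
      rw [ha])
    refine ⟨Additive.ofMul x, ?_⟩
    funext v
    rw [valLin_apply, toMul_ofMul, hx]
    by_cases hvw : v = w
    · subst hvw
      rw [Pi.mulSingle_eq_same, Pi.single_eq_same]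
      rfl
    · rw [Pi.mulSingle_eq_of_ne hvw, Pi.single_eq_of_ne hvw]
      rfl
  have hf : h • f = ∑ w : T, (-(f w)) • Pi.single (M := fun _ : T => ℤ) w (-(h : ℤ)) := by
    funext v
    rw [Finset.sum_apply]
    simp only [Pi.smul_apply, smul_eq_mul, nsmul_eq_mul]
    rw [Finset.sum_eq_single v]
    · rw [Pi.single_eq_same]; ring
    · intro w _ hwv
      rw [Pi.single_eq_of_ne hwv.symm, mul_zero]
    · intro hv; exact absurd (Finset.mem_univ v) hv
  rw [hf]
  exact Submodule.sum_mem _ fun w _ => Submodule.smul_mem _ _ (hsingle w)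

end Dedekind3



theorem finrank_eq_of_nsmul_mem (n : ℕ) (hn : n ≠ 0) {X : Type*} [AddCommGroup X]
    [Module.Finite ℤ X] (S : Submodule ℤ X) (h : ∀ x : X, n • x ∈ S) :
    finrank ℤ S = finrank ℤ X := by
  have h1 := Submodule.finrank_quotient_add_finrank S
  have h2 : finrank ℤ (X ⧸ S) = 0 := by
    apply Module.finrank_eq_zero_of_rank_eq_zero
    rw [rank_eq_zero_iff]
    intro x
    obtain ⟨y, rfl⟩ := Submodule.Quotient.mk_surjective S x
    refine ⟨(n : ℤ), by exact_mod_cast hn, ?_⟩
    rw [← Submodule.Quotient.mk_smul, Submodule.Quotient.mk_eq_zero, natCast_zsmul]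
    exact h y
  omega

section Dedekind4

variable {R : Type*} [CommRing R] [IsDedekindDomain R]
  (K : Type*) [Field K] [Algebra R K] [IsFractionRing R K]
  (T : Finset (HeightOneSpectrum R))

/-- `T`-units are finitely generated when the units are. -/
theorem finite_sUnit [Module.Finite ℤ (Additive Rˣ)] :
    Module.Finite ℤ (Additive (sUnit K T)) := by
  haveI : Module.Finite ℤ (LinearMap.ker (valLin K T)) := by
    rw [ker_valLin]
    exact Module.Finite.range (unitsLin K T)
  haveI : Module.Finite ℤ (Additive (sUnit K T) ⧸ LinearMap.ker (valLin K T)) :=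
    Module.Finite.equiv (LinearMap.quotKerEquivRange (valLin K T)).symm
  exact Module.Finite.of_submodule_quotient (LinearMap.ker (valLin K T))

/-- **Dirichlet's `S`-unit theorem**, rank form. -/
theorem finrank_sUnit [Module.Finite ℤ (Additive Rˣ)] [Finite (ClassGroup R)] :
    finrank ℤ (Additive (sUnit K T)) = finrank ℤ (Additive Rˣ) + T.card := by
  haveI := finite_sUnit K T
  have h1 := Submodule.finrank_quotient_add_finrank (LinearMap.ker (valLin K T))
  have h2 : finrank ℤ (Additive (sUnit K T) ⧸ LinearMap.ker (valLin K T)) = T.card := by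
    rw [(LinearMap.quotKerEquivRange (valLin K T)).finrank_eq,
      finrank_eq_of_nsmul_mem (Nat.card (ClassGroup R)) Nat.card_pos.ne' _
        (card_smul_mem_range_valLin K T)]
    simp
  have h3 : finrank ℤ (LinearMap.ker (valLin K T)) = finrank ℤ (Additive Rˣ) := by
    rw [ker_valLin]
    exact (LinearEquiv.ofInjective (unitsLin K T) (unitsLin_injective K T)).finrank_eq.symm
  omega

end Dedekind4

section NumberField

variable (K : Type*) [Field K] [NumberField K] (T : Finset (HeightOneSpectrum (𝓞 K)))

instance : Module.Finite ℤ (Additive (sUnit K T)) := finite_sUnit K T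

/-- **Dirichlet's `S`-unit theorem** for number fields: the `T`-units have rank
`r₁ + r₂ - 1 + #T`. -/
theorem finrank_sUnit_numberField :
    finrank ℤ (Additive (sUnit K T)) = NumberField.Units.rank K + T.card := by
  rw [finrank_sUnit K T, NumberField.Units.finrank_eq]

end NumberField

end Fermat.Agent.PT.GLOB.SUnits24
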