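/-
Program F (S55), chapter GLOB (helper24): the Galois side of the `S`-unit computations.

`L/K` Galois extension of number fields, `T` a finite set of primes of `K`, `T_L = above T` the primes
of `L` above `T` (`PrimesAbove24`).
* `smulH σ w`: the Galois action on the primes of `𝓞 L`; `valuation_smulH`: compatibility with the
  valuations; `under_smulH`;
* `sUnitSmul σ`: the action of `σ` on the `T_L`-units; `extHom : U_{K,T} →* U_{L,T_L}` (injective);
* `exists_extHom_eq`: the Galois-fixed `T_L`-units are the `T`-units of `K`;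
* `herbrand_sUnit`, `herbrand_sUnit_count`: Herbrand quotient of the `T_L`-units for cyclic `L/K` of prime
  degree `p`: `[U_{K,T} : N U_{L,T_L}] * p = [ker N : (s-1) U_{L,T_L}] * p^nr`
  (`nr` = number of non-split primes in `T`).
-/
import Mathlib
import Fermat.Agent.PT.GLOB.SUnits24
import Fermat.Agent.PT.GLOB.PrimesAbove24
import Fermat.Agent.PT.GLOB.HerbrandGroup24

set_option autoImplicit false
set_option linter.unusedSectionVars false
set_option linter.style.haveILetI false

namespace Fermat.Agent.PT.GLOB.SUnitsGalois24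

open NumberField IsDedekindDomain HeightOneSpectrum Module
open Fermat.Agent.PT.GLOB.SUnits24 Fermat.Agent.PT.GLOB.PrimesAbove24
open Fermat.Agent.PT.GLOB.HerbrandGroup24
open scoped nonZeroDivisors WithZero Pointwise

section Part1
variable (K L : Type*) [Field K] [Field L] [NumberField K] [NumberField L] [Algebra K L]
  [IsGalois K L]

/-- The Galois action on the primes of `𝓞 L`. -/
noncomputable def smulH (σ : L ≃ₐ[K] L) (w : HeightOneSpectrum (𝓞 L)) :
    HeightOneSpectrum (𝓞 L) where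
  asIdeal := σ • w.asIdeal
  isPrime := Ideal.IsPrime.smul σ
  ne_bot := by
    intro h
    apply w.ne_bot
    have := congrArg (fun I => σ⁻¹ • I) h
    simp only [inv_smul_smul] at this
    rw [this]
    exact Ideal.smul_bot _

theorem smulH_asIdeal (σ : L ≃ₐ[K] L) (w : HeightOneSpectrum (𝓞 L)) :
    (smulH K L σ w).asIdeal = σ • w.asIdeal := rfl

theorem smulH_smulH (σ τ : L ≃ₐ[K] L) (w : HeightOneSpectrum (𝓞 L)) :
    smulH K L σ (smulH K L τ w) = smulH K L (σ * τ) w := by
  apply HeightOneSpectrum.ext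
  simp only [smulH_asIdeal, mul_smul]

theorem smulH_one (w : HeightOneSpectrum (𝓞 L)) : smulH K L 1 w = w := by
  apply HeightOneSpectrum.ext
  simp only [smulH_asIdeal, one_smul]

theorem under_smulH (σ : L ≃ₐ[K] L) (w : HeightOneSpectrum (𝓞 L)) :
    (smulH K L σ w).under (𝓞 K) = w.under (𝓞 K) := by
  apply HeightOneSpectrum.ext
  simp only [HeightOneSpectrum.under_asIdeal, smulH_asIdeal]
  haveI : w.asIdeal.LiesOver (w.asIdeal.under (𝓞 K)) := ⟨rfl⟩
  have : (σ • w.asIdeal).LiesOver (w.asIdeal.under (𝓞 K)) := inferInstance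
  exact this.over.symm

theorem smul_span_singleton (σ : L ≃ₐ[K] L) (a : 𝓞 L) :
    σ • (Ideal.span {a} : Ideal (𝓞 L)) = Ideal.span {σ • a} := by
  rw [Ideal.pointwise_smul_def, Ideal.map_span, Set.image_singleton]
  rfl

theorem intValuation_smulH (σ : L ≃ₐ[K] L) (w : HeightOneSpectrum (𝓞 L)) (a : 𝓞 L) :
    (smulH K L σ w).intValuation (σ • a) = w.intValuation a := by
  by_cases ha : a = 0
  · subst ha
    simp
  have hσa : σ • a ≠ 0 := by
    intro h
    apply ha
    have := congrArg (fun x => σ⁻¹ • x) h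
    simpa using this
  rw [intValuation_eq_exp_neg_multiplicity _ hσa, intValuation_eq_exp_neg_multiplicity _ ha,
    smulH_asIdeal, ← smul_span_singleton]
  have := multiplicity_map_eq (MulDistribMulAction.toMulEquiv (Ideal (𝓞 L)) σ)
    (a := w.asIdeal) (b := Ideal.span {a})
  simp only [MulDistribMulAction.toMulEquiv_apply] at this
  rw [this]

theorem coe_smul_integer (σ : L ≃ₐ[K] L) (a : 𝓞 L) :
    algebraMap (𝓞 L) L (σ • a) = σ (algebraMap (𝓞 L) L a) := rfl

/-- The Galois action is compatible with the valuations. -/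
theorem valuation_smulH (σ : L ≃ₐ[K] L) (w : HeightOneSpectrum (𝓞 L)) (x : L) :
    (smulH K L σ w).valuation L (σ x) = w.valuation L x := by
  obtain ⟨a, b, hb, rfl⟩ := IsFractionRing.div_surjective (A := 𝓞 L) x
  rw [map_div₀, map_div₀, map_div₀, ← coe_smul_integer, ← coe_smul_integer,
    valuation_of_algebraMap, valuation_of_algebraMap, valuation_of_algebraMap,
    valuation_of_algebraMap, intValuation_smulH, intValuation_smulH]

end Part1

section Part2
variable (K L : Type*) [Field K] [Field L] [NumberField K] [NumberField L] [Algebra K L]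
  [IsGalois K L] (T : Finset (HeightOneSpectrum (𝓞 K)))

theorem smulH_mem_above (σ : L ≃ₐ[K] L) (w : HeightOneSpectrum (𝓞 L)) :
    smulH K L σ w ∈ above (𝓞 K) (𝓞 L) T ↔ w ∈ above (𝓞 K) (𝓞 L) T := by
  rw [mem_above, mem_above, under_smulH]

theorem valuation_apply_galois (σ : L ≃ₐ[K] L) (v : HeightOneSpectrum (𝓞 L)) (x : L) :
    v.valuation L (σ x) = (smulH K L σ⁻¹ v).valuation L x := by
  have := valuation_smulH K L σ (smulH K L σ⁻¹ v) x
  rw [smulH_smulH, mul_inv_cancel, smulH_one] at this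
  exact this

/-- The action of `σ ∈ Gal(L/K)` on the `T_L`-units, `T_L` the primes above `T`. -/
noncomputable def sUnitSmul (σ : L ≃ₐ[K] L) :
    sUnit L (above (𝓞 K) (𝓞 L) T) →* sUnit L (above (𝓞 K) (𝓞 L) T) :=
  ((Units.map (σ : L →* L)).comp (sUnit L (above (𝓞 K) (𝓞 L) T)).subtype).codRestrict _
    (fun x => by
      rw [mem_sUnit_iff]
      intro v hv
      simp only [MonoidHom.coe_comp, Subgroup.coe_subtype, Function.comp_apply, Units.coe_map,
        MonoidHom.coe_coe]
      rw [valuation_apply_galois]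
      exact (mem_sUnit_iff L _ _).mp x.2 _ (by rwa [smulH_mem_above]))

theorem coe_sUnitSmul (σ : L ≃ₐ[K] L) (x : sUnit L (above (𝓞 K) (𝓞 L) T)) :
    (((sUnitSmul K L T σ x : sUnit L (above (𝓞 K) (𝓞 L) T)) : Lˣ) : L) = σ ((x : Lˣ) : L) := rfl

theorem sUnit_ext {S : Finset (HeightOneSpectrum (𝓞 L))} {x y : sUnit L S}
    (h : ((x : Lˣ) : L) = ((y : Lˣ) : L)) : x = y :=
  Subtype.ext (Units.ext h)

theorem sUnitSmul_one (x : sUnit L (above (𝓞 K) (𝓞 L) T)) : sUnitSmul K L T 1 x = x :=
  sUnit_ext L rfl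

theorem sUnitSmul_mul (σ τ : L ≃ₐ[K] L) (x : sUnit L (above (𝓞 K) (𝓞 L) T)) :
    sUnitSmul K L T (σ * τ) x = sUnitSmul K L T σ (sUnitSmul K L T τ x) :=
  sUnit_ext L rfl

/-- valuations of elements of `K` at primes of `L` not above `T`. -/
theorem valuation_algebraMap_eq_one (y : Kˣ) (hy : y ∈ sUnit K T)
    (w : HeightOneSpectrum (𝓞 L)) (hw : w ∉ above (𝓞 K) (𝓞 L) T) :
    w.valuation L (algebraMap K L (y : K)) = 1 := by
  haveI : w.asIdeal.LiesOver (w.under (𝓞 K)).asIdeal := ⟨rfl⟩
  rw [← valuation_liesOver L (w.under (𝓞 K)) w,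
    (mem_sUnit_iff K T y).mp hy _ (by rwa [mem_above] at hw), one_pow]

/-- Extension of `T`-units of `K` to `T_L`-units of `L`. -/
noncomputable def extHom : sUnit K T →* sUnit L (above (𝓞 K) (𝓞 L) T) :=
  ((Units.map (algebraMap K L : K →* L)).comp (sUnit K T).subtype).codRestrict _
    (fun y => by
      rw [mem_sUnit_iff]
      intro w hw
      exact valuation_algebraMap_eq_one K L T y y.2 w hw)

theorem coe_extHom (y : sUnit K T) :
    (((extHom K L T y : sUnit L (above (𝓞 K) (𝓞 L) T)) : Lˣ) : L) =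
      algebraMap K L ((y : Kˣ) : K) := rfl

theorem extHom_injective : Function.Injective (extHom K L T) := by
  intro y y' h
  have h1 := congrArg (fun x : sUnit L (above (𝓞 K) (𝓞 L) T) => ((x : Lˣ) : L)) h
  simp only [coe_extHom] at h1
  exact sUnit_ext K ((algebraMap K L).injective h1)

theorem sUnitSmul_extHom (σ : L ≃ₐ[K] L) (y : sUnit K T) :
    sUnitSmul K L T σ (extHom K L T y) = extHom K L T y := by
  apply sUnit_ext
  rw [coe_sUnitSmul, coe_extHom, AlgEquiv.commutes]

end Part2

section Part3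
variable (K L : Type*) [Field K] [Field L] [NumberField K] [NumberField L] [Algebra K L]
  [IsGalois K L] (T : Finset (HeightOneSpectrum (𝓞 K)))

/-- Every prime of `𝓞 K` has a prime of `𝓞 L` above it. -/
theorem exists_under_eq (v : HeightOneSpectrum (𝓞 K)) :
    ∃ w : HeightOneSpectrum (𝓞 L), w.under (𝓞 K) = v := by
  haveI := v.isMaximal
  obtain ⟨Q, hQ, hQv⟩ := Ideal.exists_maximal_ideal_liesOver_of_isIntegral (S := 𝓞 L) v.asIdeal
  have hne : Q ≠ ⊥ := by
    intro h
    apply v.ne_bot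
    rw [hQv.over, h]
    exact Ideal.under_bot _ _
  refine ⟨⟨Q, hQ.isPrime, hne⟩, ?_⟩
  apply HeightOneSpectrum.ext
  simp only [HeightOneSpectrum.under_asIdeal]
  exact hQv.over.symm

theorem withZero_pow_eq_one {x : ℤᵐ⁰} {n : ℕ} (hn : n ≠ 0) (h : x ^ n = 1) : x = 1 := by
  rcases eq_or_ne x 0 with rfl | hx
  · rw [zero_pow hn] at h
    exact absurd h zero_ne_one
  obtain ⟨m, rfl⟩ := WithZero.ne_zero_iff_exists.mp hx
  rw [← WithZero.coe_pow, ← WithZero.coe_one, WithZero.coe_inj] at h
  rw [← WithZero.coe_one, WithZero.coe_inj]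
  have h2 : n • Multiplicative.toAdd m = 0 := by
    have := congrArg Multiplicative.toAdd h
    simpa using this
  have h3 : Multiplicative.toAdd m = 0 := by
    rcases smul_eq_zero.mp h2 with h4 | h4
    · exact absurd h4 hn
    · exact h4
  exact Multiplicative.toAdd.injective h3

/-- The Galois-fixed `T_L`-units are the `T`-units of `K`. -/
theorem exists_extHom_eq {x : sUnit L (above (𝓞 K) (𝓞 L) T)}
    (h : ∀ σ : L ≃ₐ[K] L, sUnitSmul K L T σ x = x) : ∃ y : sUnit K T, extHom K L T y = x := by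
  have hfix : ∀ σ : L ≃ₐ[K] L, σ ((x : Lˣ) : L) = ((x : Lˣ) : L) := by
    intro σ
    have := congrArg (fun z : sUnit L (above (𝓞 K) (𝓞 L) T) => ((z : Lˣ) : L)) (h σ)
    simpa only [coe_sUnitSmul] using this
  obtain ⟨y, hy⟩ := (IsGalois.mem_range_algebraMap_iff_fixed ((x : Lˣ) : L)).mpr hfix
  have hy0 : y ≠ 0 := by
    rintro rfl
    rw [map_zero] at hy
    exact (x : Lˣ).ne_zero hy.symm
  have hmem : Units.mk0 y hy0 ∈ sUnit K T := by
    rw [mem_sUnit_iff]
    intro v hv
    obtain ⟨w, hw⟩ := exists_under_eq K L v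
    haveI : w.asIdeal.LiesOver v.asIdeal := ⟨by rw [← hw]; rfl⟩
    have hwT : w ∉ above (𝓞 K) (𝓞 L) T := by
      rw [mem_above, hw]; exact hv
    have h1 := (mem_sUnit_iff L _ _).mp x.2 w hwT
    rw [← hy, ← valuation_liesOver L v w] at h1
    exact withZero_pow_eq_one (Ideal.IsDedekindDomain.ramificationIdx'_ne_zero_of_liesOver w.asIdeal v.ne_bot) h1
  refine ⟨⟨Units.mk0 y hy0, hmem⟩, ?_⟩
  apply sUnit_ext
  rw [coe_extHom]
  exact hy

end Part3

section Part4
variable (K L : Type*) [Field K] [Field L] [NumberField K] [NumberField L] [Algebra K L]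
  [IsGalois K L] (T : Finset (HeightOneSpectrum (𝓞 K)))

theorem iterate_sUnitSmul (s : L ≃ₐ[K] L) (i : ℕ) (x : sUnit L (above (𝓞 K) (𝓞 L) T)) :
    ((sUnitSmul K L T s)^[i]) x = sUnitSmul K L T (s ^ i) x := by
  induction i generalizing x with
  | zero => simp [sUnitSmul_one]
  | succ i ih =>
    rw [Function.iterate_succ_apply, ih, pow_succ, sUnitSmul_mul]

/-- the stabiliser of a `T_L`-unit. -/
def fixer (x : sUnit L (above (𝓞 K) (𝓞 L) T)) : Subgroup (L ≃ₐ[K] L) where
  carrier := {τ | sUnitSmul K L T τ x = x}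
  one_mem' := sUnitSmul_one K L T x
  mul_mem' := by
    intro a b ha hb
    show sUnitSmul K L T (a * b) x = x
    rw [sUnitSmul_mul, hb, ha]
  inv_mem' := by
    intro a ha
    show sUnitSmul K L T a⁻¹ x = x
    have h1 : sUnitSmul K L T a⁻¹ (sUnitSmul K L T a x) = x := by
      rw [← sUnitSmul_mul, inv_mul_cancel, sUnitSmul_one]
    rwa [ha] at h1

/-- If `s` generates the Galois group, the fixed points of `s` are the `T`-units of `K`. -/
theorem fixedSubgroup_sUnitSmul (s : L ≃ₐ[K] L) (hs : ∀ τ : L ≃ₐ[K] L, τ ∈ Subgroup.zpowers s) :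
    fixedSubgroup (sUnitSmul K L T s) = (extHom K L T).range := by
  ext x
  rw [mem_fixedSubgroup, MonoidHom.mem_range]
  constructor
  · intro hx
    apply exists_extHom_eq
    intro σ
    have h1 : Subgroup.zpowers s ≤ fixer K L T x := by
      rw [Subgroup.zpowers_le]
      exact hx
    exact h1 (hs σ)
  · rintro ⟨y, rfl⟩
    exact sUnitSmul_extHom K L T s y

/-- the `T`-units of `K`, as the fixed points. -/
noncomputable def fixedMulEquiv (s : L ≃ₐ[K] L)
    (hs : ∀ τ : L ≃ₐ[K] L, τ ∈ Subgroup.zpowers s) :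
    sUnit K T ≃* fixedSubgroup (sUnitSmul K L T s) :=
  (MonoidHom.ofInjective (extHom_injective K L T)).trans
    (MulEquiv.subgroupCongr (fixedSubgroup_sUnitSmul K L T s hs).symm)

theorem finrank_fixedSubgroup (s : L ≃ₐ[K] L) (hs : ∀ τ : L ≃ₐ[K] L, τ ∈ Subgroup.zpowers s) :
    finrank ℤ (Additive (fixedSubgroup (sUnitSmul K L T s))) =
      finrank ℤ (Additive (sUnit K T)) :=
  ((MulEquiv.toAdditive (fixedMulEquiv K L T s hs)).toIntLinearEquiv).finrank_eq.symm

theorem iterate_card (s : L ≃ₐ[K] L) (x : sUnit L (above (𝓞 K) (𝓞 L) T)) :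
    ((sUnitSmul K L T s)^[Nat.card (L ≃ₐ[K] L)]) x = x := by
  rw [iterate_sUnitSmul, pow_card_eq_one', sUnitSmul_one]

/-- **Herbrand quotient of the `T`-units** of a cyclic extension `L/K` of prime degree `p`,
general rank form: with `a = rank U_{K,T}` and `rank U_{L,T_L} = a + (p-1) b`,
`[U_{K,T} : N U_{L,T_L}] * p^b = [ker N : (s-1) U_{L,T_L}] * p^a`. -/
theorem herbrand_sUnit (p : ℕ) [hp : Fact p.Prime] (hdeg : finrank K L = p) (s : L ≃ₐ[K] L)
    (hs : ∀ τ : L ≃ₐ[K] L, τ ∈ Subgroup.zpowers s) (a b : ℕ)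
    (ha : finrank ℤ (Additive (sUnit K T)) = a)
    (hr : finrank ℤ (Additive (sUnit L (above (𝓞 K) (𝓞 L) T))) = a + (p - 1) * b) :
    (normHom (sUnitSmul K L T s) p).range.relIndex (extHom K L T).range * p ^ b =
        (divHom (sUnitSmul K L T s)).range.relIndex (normHom (sUnitSmul K L T s) p).ker * p ^ a ∧
      (normHom (sUnitSmul K L T s) p).range.relIndex (extHom K L T).range ≠ 0 ∧
      (divHom (sUnitSmul K L T s)).range.relIndex (normHom (sUnitSmul K L T s) p).ker ≠ 0 := by
  have hcard : Nat.card (L ≃ₐ[K] L) = p := by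
    rw [IsGalois.card_aut_eq_finrank, hdeg]
  have hφ : ∀ u, ((sUnitSmul K L T s)^[p]) u = u := by
    intro u
    rw [← hcard]
    exact iterate_card K L T s u
  have := herbrand_group p (sUnitSmul K L T s) hφ a b
    (by rw [finrank_fixedSubgroup K L T s hs, ha]) hr
  rw [fixedSubgroup_sUnitSmul K L T s hs] at this
  exact this

end Part4

section Part5
variable (K L : Type*) [Field K] [Field L] [NumberField K] [NumberField L] [Algebra K L]
  [IsGalois K L] (T : Finset (HeightOneSpectrum (𝓞 K)))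

theorem finrank_sUnit_add_one :
    finrank ℤ (Additive (sUnit K T)) + 1 = Fintype.card (InfinitePlace K) + T.card := by
  rw [finrank_sUnit_numberField, NumberField.Units.rank]
  have : 0 < Fintype.card (InfinitePlace K) := Fintype.card_pos
  omega

/-- **Herbrand quotient of the `T`-units**, counting form: if `T` consists of `ns` primes with `p`
primes of `L` above them and `nr` primes with one prime above them, and every infinite place of
`K` splits into `p` places of `L` (automatic for `p` odd), then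
`[U_{K,T} : N U_{L,T_L}] * p = [ker N : (s-1) U_{L,T_L}] * p^nr`, i.e. `h(U_{L,T_L}) = p^(nr-1)`. -/
theorem herbrand_sUnit_count (p : ℕ) [hp : Fact p.Prime] (hdeg : finrank K L = p)
    (s : L ≃ₐ[K] L) (hs : ∀ τ : L ≃ₐ[K] L, τ ∈ Subgroup.zpowers s) (ns nr : ℕ)
    (hinf : Fintype.card (InfinitePlace L) = p * Fintype.card (InfinitePlace K))
    (hT : T.card = ns + nr) (habove : (above (𝓞 K) (𝓞 L) T).card = p * ns + nr) :
    (normHom (sUnitSmul K L T s) p).range.relIndex (extHom K L T).range * p =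
        (divHom (sUnitSmul K L T s)).range.relIndex (normHom (sUnitSmul K L T s) p).ker * p ^ nr ∧
      (normHom (sUnitSmul K L T s) p).range.relIndex (extHom K L T).range ≠ 0 ∧
      (divHom (sUnitSmul K L T s)).range.relIndex (normHom (sUnitSmul K L T s) p).ker ≠ 0 := by
  set c := Fintype.card (InfinitePlace K) with hc
  have hcpos : 0 < c := Fintype.card_pos
  have h1 := finrank_sUnit_add_one K T
  have h2 := finrank_sUnit_add_one L (above (𝓞 K) (𝓞 L) T)
  rw [hinf, habove] at h2
  rw [hT] at h1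
  obtain ⟨q, hq⟩ : ∃ q, p = q + 1 := ⟨p - 1, (Nat.sub_add_cancel hp.out.one_le).symm⟩
  have ha : finrank ℤ (Additive (sUnit K T)) = c - 1 + ns + nr := by omega
  have hr : finrank ℤ (Additive (sUnit L (above (𝓞 K) (𝓞 L) T))) =
      (c - 1 + ns + nr) + (p - 1) * (c + ns) := by
    have h3 : (p - 1) * (c + ns) = q * c + q * ns := by
      rw [hq, Nat.add_sub_cancel, mul_add]
    have h4 : p * c = q * c + c := by rw [hq]; ring
    have h5 : p * ns = q * ns + ns := by rw [hq]; ring
    rw [h3]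
    rw [h4, h5] at h2
    omega
  obtain ⟨e1, e2, e3⟩ := herbrand_sUnit K L T p hdeg s hs _ _ ha hr
  refine ⟨?_, e2, e3⟩
  have hpos : 0 < p ^ (c - 1 + ns) := pow_pos hp.out.pos _
  have h6 : p ^ (c + ns) = p ^ (c - 1 + ns) * p := by
    rw [← pow_succ]; congr 1; omega
  have h7 : p ^ (c - 1 + ns + nr) = p ^ (c - 1 + ns) * p ^ nr := by
    rw [← pow_add]
  rw [h6, h7] at e1
  apply Nat.eq_of_mul_eq_mul_left hpos
  calc p ^ (c - 1 + ns) * (_ * p) = _ * (p ^ (c - 1 + ns) * p) := by ring
    _ = _ := e1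
    _ = _ := by ring

end Part5

end Fermat.Agent.PT.GLOB.SUnitsGalois24
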