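/-
Program F (S55, Poitou–Tate), chapter GLOB (helper17): the **Dirichlet `S`-unit theorem**.

`K` a number field, `S` a finite set of finite places of `K` (`HeightOneSpectrum (𝓞 K)`),
`U_S := (S : Set _).unit K` (Mathlib's `Set.unit`, a subgroup of `Kˣ`).  Then `U_S` is finitely
generated of rank `r₁ + r₂ - 1 + #S`, i.e.

  `Module.finrank ℤ (Additive U_S) = NumberField.Units.rank K + S.card`.

The shape (`Module.finrank ℤ` of `Additive` groups) is chosen to feed
`CFT/HerbrandAbstract.herbrand_main`.

Main exports:
* `ordM K v : Kˣ →* Multiplicative ℤ`: the normalised valuation at `v` (general Dedekind domain);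
* `ordHom K S : S.unit K →* (S → Multiplicative ℤ)` and `unitsToSUnit K S : Rˣ →* S.unit K`, with
  `unitsToSUnit_injective`, `range_unitsToSUnit : range = ker (ordHom K S)`;
* `exists_diag`: for `v ∈ S` there is an `S`-unit `π` coming from `𝓞 K` with `ord_v π ≠ 1` and
  `ord_w π = 1` for every `w ≠ v` (a generator of `v ^ h`, `h` the class number);
* `instModuleFiniteSUnit : Module.Finite ℤ (Additive (S.unit K))`, `fg_sUnit`;
* `finrank_sUnit`.
-/
import Mathlib

set_option autoImplicit false
set_option linter.unusedSectionVars false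
set_option linter.style.haveILetI false

open IsDedekindDomain

namespace Fermat.Agent.PT.GLOB.SUnitRank17

section General

variable {R : Type*} [CommRing R] [IsDedekindDomain R] (K : Type*) [Field K] [Algebra R K]
  [IsFractionRing R K]

/-- The `v`-adic valuation as a group homomorphism `Kˣ →* Multiplicative ℤ`. -/
noncomputable def ordM (v : HeightOneSpectrum R) : Kˣ →* Multiplicative ℤ :=
  (WithZero.unitsWithZeroEquiv (α := Multiplicative ℤ)).toMonoidHom.comp
    (Units.map ((v.valuation K) : K →* WithZero (Multiplicative ℤ)))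

theorem coe_ordM (v : HeightOneSpectrum R) (x : Kˣ) :
    ((ordM K v x : Multiplicative ℤ) : WithZero (Multiplicative ℤ)) = v.valuation K (x : K) := by
  simp [ordM, WithZero.unitsWithZeroEquiv]

theorem ordM_eq_one_iff (v : HeightOneSpectrum R) (x : Kˣ) :
    ordM K v x = 1 ↔ v.valuation K (x : K) = 1 := by
  rw [← coe_ordM, ← WithZero.coe_one, WithZero.coe_inj]

theorem valuation_algebraMap_unit (v : HeightOneSpectrum R) (u : Rˣ) :
    v.valuation K (algebraMap R K (u : R)) = 1 := by
  rw [HeightOneSpectrum.valuation_eq_one_iff_notMem]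
  intro h
  exact v.isPrime.ne_top (Ideal.eq_top_of_isUnit_mem _ h u.isUnit)

variable (S : Set (HeightOneSpectrum R))

/-- The valuations at the places of `S`, on the `S`-units. -/
noncomputable def ordHom : S.unit K →* (S → Multiplicative ℤ) :=
  MonoidHom.pi fun v => (ordM K v.1).comp (S.unit K).subtype

@[simp] theorem ordHom_apply (x : S.unit K) (v : S) : ordHom K S x v = ordM K v.1 (x : Kˣ) := rfl

/-- Units of `R` are `S`-units. -/
noncomputable def unitsToSUnit : Rˣ →* S.unit K :=
  (Units.map (algebraMap R K : R →* K)).codRestrict (S.unit K) fun u v _ => by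
    simpa using valuation_algebraMap_unit K v u

@[simp] theorem coe_unitsToSUnit (u : Rˣ) :
    (((unitsToSUnit K S u : S.unit K) : Kˣ) : K) = algebraMap R K (u : R) := rfl

theorem unitsToSUnit_injective : Function.Injective (unitsToSUnit K S) := by
  intro u u' h
  have h1 : algebraMap R K (u : R) = algebraMap R K (u' : R) := by
    rw [← coe_unitsToSUnit K S u, ← coe_unitsToSUnit K S u', h]
  exact Units.ext (IsFractionRing.injective R K h1)

theorem mem_ker_ordHom_iff (x : S.unit K) :
    x ∈ (ordHom K S).ker ↔ ∀ v : HeightOneSpectrum R, v.valuation K ((x : Kˣ) : K) = 1 := by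
  rw [MonoidHom.mem_ker]
  constructor
  · intro h v
    by_cases hv : v ∈ S
    · have := congrFun h ⟨v, hv⟩
      rwa [ordHom_apply, Pi.one_apply, ordM_eq_one_iff] at this
    · exact x.2 v hv
  · intro h
    funext v
    rw [ordHom_apply, Pi.one_apply, ordM_eq_one_iff]
    exact h v.1

/-- The kernel of the valuation map on the `S`-units is the image of the units of `R`. -/
theorem range_unitsToSUnit : (unitsToSUnit K S).range = (ordHom K S).ker := by
  ext x
  rw [mem_ker_ordHom_iff]
  constructor
  · rintro ⟨u, rfl⟩ v
    rw [coe_unitsToSUnit]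
    exact valuation_algebraMap_unit K v u
  · intro h
    obtain ⟨a, ha⟩ := HeightOneSpectrum.mem_integers_of_valuation_le_one K ((x : Kˣ) : K)
      fun v => (h v).le
    obtain ⟨b, hb⟩ := HeightOneSpectrum.mem_integers_of_valuation_le_one K (((x : Kˣ)⁻¹ : Kˣ) : K)
      fun v => by
        rw [Units.val_inv_eq_inv_val, map_inv₀, h v, inv_one]
    have hab : a * b = 1 := by
      apply IsFractionRing.injective R K
      rw [map_mul, ha, hb, map_one, Units.mul_inv]
    have hba : b * a = 1 := by rw [mul_comm, hab]
    refine ⟨⟨a, b, hab, hba⟩, ?_⟩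
    apply Subtype.ext
    apply Units.ext
    rw [coe_unitsToSUnit]
    exact ha

end General

section Diag

open NumberField

variable {R : Type*} [CommRing R] [IsDedekindDomain R] (K : Type*) [Field K] [Algebra R K]
  [IsFractionRing R K]

/-- If the class group of `R` is finite, then for every place `v` there is a nonzero `π : R`
generating a positive power of `v`; it has `v`-valuation `< 1` and `w`-valuation `1` for `w ≠ v`. -/
theorem exists_generator_pow [Finite (ClassGroup R)] (v : HeightOneSpectrum R) :
    ∃ π : R, π ≠ 0 ∧ v.valuation K (algebraMap R K π) < 1 ∧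
      ∀ w : HeightOneSpectrum R, w ≠ v → w.valuation K (algebraMap R K π) = 1 := by
  classical
  haveI : Fintype (ClassGroup R) := Fintype.ofFinite _
  set h := Fintype.card (ClassGroup R) with hh
  have hpos : 0 < h := Fintype.card_pos
  have hv0 : v.asIdeal ∈ nonZeroDivisors (Ideal R) :=
    mem_nonZeroDivisors_of_ne_zero v.ne_bot
  have h1 : ClassGroup.mk0 (⟨v.asIdeal, hv0⟩ ^ h) = 1 := by
    rw [map_pow, hh, pow_card_eq_one]
  rw [ClassGroup.mk0_eq_one_iff] at h1
  obtain ⟨π, hπ⟩ := h1.principal
  have hπ' : v.asIdeal ^ h = Ideal.span {π} := by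
    simpa using hπ
  have hπ0 : π ≠ 0 := by
    rintro rfl
    have : v.asIdeal ^ h = ⊥ := by simpa using hπ'
    exact v.ne_bot (pow_eq_zero_iff hpos.ne' |>.mp this)
  have hmem : π ∈ v.asIdeal ^ h := by
    rw [hπ']; exact Ideal.mem_span_singleton_self π
  refine ⟨π, hπ0, ?_, ?_⟩
  · rw [HeightOneSpectrum.valuation_lt_one_iff_mem]
    exact Ideal.pow_le_self hpos.ne' hmem
  · intro w hw
    rw [HeightOneSpectrum.valuation_eq_one_iff_notMem]
    intro hmw
    have h2 : v.asIdeal ^ h ≤ w.asIdeal := by
      rw [hπ', Ideal.span_singleton_le_iff_mem]; exact hmw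
    have h3 : v.asIdeal ≤ w.asIdeal := w.isPrime.le_of_pow_le h2
    have h4 : v.asIdeal = w.asIdeal :=
      (v.isMaximal.eq_of_le w.isPrime.ne_top h3)
    exact hw (HeightOneSpectrum.ext h4.symm)

end Diag

section Linear

variable {R : Type*} [CommRing R] [IsDedekindDomain R] (K : Type*) [Field K] [Algebra R K]
  [IsFractionRing R K] (S : Set (HeightOneSpectrum R))

/-- The valuation map on the `S`-units, as a `ℤ`-linear map `Additive U_S → (S → ℤ)`. -/
noncomputable def ordLin : Additive (S.unit K) →ₗ[ℤ] (S → ℤ) :=
  AddMonoidHom.toIntLinearMap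
    { toFun := fun x v => Multiplicative.toAdd (ordHom K S x.toMul v)
      map_zero' := by ext v; simp
      map_add' := fun x y => by ext v; simp [toMul_add, map_mul] }

theorem ordLin_apply (x : Additive (S.unit K)) (v : S) :
    ordLin K S x v = Multiplicative.toAdd (ordM K v.1 (x.toMul : Kˣ)) := rfl

/-- The inclusion of the units of `R` into the `S`-units, as a `ℤ`-linear map. -/
noncomputable def unitsLin : Additive Rˣ →ₗ[ℤ] Additive (S.unit K) :=
  (MonoidHom.toAdditive (unitsToSUnit K S)).toIntLinearMap

theorem unitsLin_apply (u : Additive Rˣ) :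
    unitsLin K S u = Additive.ofMul (unitsToSUnit K S u.toMul) := rfl

theorem unitsLin_injective : Function.Injective (unitsLin K S) := by
  intro u u' h
  have := unitsToSUnit_injective K S (Additive.ofMul.injective h)
  exact Additive.toMul.injective this

theorem range_unitsLin : LinearMap.range (unitsLin K S) = LinearMap.ker (ordLin K S) := by
  ext x
  have h := SetLike.ext_iff.mp (range_unitsToSUnit K S) x.toMul
  rw [LinearMap.mem_range, LinearMap.mem_ker]
  constructor
  · rintro ⟨u, rfl⟩
    have h1 : unitsToSUnit K S u.toMul ∈ (ordHom K S).ker := by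
      rw [← range_unitsToSUnit]; exact ⟨_, rfl⟩
    rw [MonoidHom.mem_ker] at h1
    funext v
    change Multiplicative.toAdd (ordHom K S (unitsToSUnit K S u.toMul) v) = 0
    rw [h1]; rfl
  · intro hx
    have h1 : x.toMul ∈ (ordHom K S).ker := by
      rw [MonoidHom.mem_ker]
      funext v
      have := congrFun hx v
      exact Multiplicative.toAdd.injective this
    rw [← range_unitsToSUnit] at h1
    obtain ⟨u, hu⟩ := h1
    exact ⟨Additive.ofMul u, Additive.toMul.injective hu⟩

end Linear

section Rank

variable {R : Type*} [CommRing R] [IsDedekindDomain R] (K : Type*) [Field K] [Algebra R K]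
  [IsFractionRing R K] (S : Set (HeightOneSpectrum R))

/-- A "diagonal" `S`-unit at `v ∈ S`: nontrivial valuation at `v`, trivial valuation elsewhere. -/
theorem exists_diag [Finite (ClassGroup R)] (v : S) :
    ∃ π : S.unit K, ordM K v.1 (π : Kˣ) ≠ 1 ∧
      ∀ w : HeightOneSpectrum R, w ≠ v.1 → ordM K w (π : Kˣ) = 1 := by
  obtain ⟨π, hπ0, hv, hw⟩ := exists_generator_pow K v.1
  have h0 : algebraMap R K π ≠ 0 := by
    rwa [Ne, map_eq_zero_iff _ (IsFractionRing.injective R K)]
  refine ⟨⟨Units.mk0 _ h0, ?_⟩, ?_, ?_⟩
  · intro w hwS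
    have : w ≠ v.1 := fun h => hwS (h ▸ v.2)
    simpa using hw w this
  · rw [Ne, ordM_eq_one_iff]
    simpa using hv.ne
  · intro w hwv
    rw [ordM_eq_one_iff]
    simpa using hw w hwv

theorem finrank_range_ordLin [Finite (ClassGroup R)] [Finite S] :
    Module.finrank ℤ (LinearMap.range (ordLin K S)) = Nat.card S := by
  classical
  haveI : Fintype S := Fintype.ofFinite S
  rw [Nat.card_eq_fintype_card]
  apply le_antisymm
  · calc Module.finrank ℤ (LinearMap.range (ordLin K S))
        ≤ Module.finrank ℤ (S → ℤ) := Submodule.finrank_le _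
      _ = Fintype.card S := Module.finrank_fintype_fun_eq_card ℤ
  · choose π hπ1 hπ2 using exists_diag K S
    let b : S → (S → ℤ) := fun v => ordLin K S (Additive.ofMul (π v))
    have hb : LinearIndependent ℤ b := by
      rw [Fintype.linearIndependent_iff]
      intro g hg w
      have h1 := congrFun hg w
      rw [Finset.sum_apply, Finset.sum_eq_single w] at h1
      · have h2 : b w w ≠ 0 := by
          intro h
          apply hπ1 w
          exact Multiplicative.toAdd.injective h
        simpa [h2] using h1
      · intro v _ hvw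
        have : b v w = 0 := by
          have := hπ2 v w.1 (fun h => hvw (Subtype.ext h).symm)
          change Multiplicative.toAdd (ordM K w.1 ((π v : S.unit K) : Kˣ)) = 0
          rw [this]; rfl
        simp [this]
      · intro h; exact absurd (Finset.mem_univ w) h
    have h1 : Module.finrank ℤ (Submodule.span ℤ (Set.range b)) = Fintype.card S :=
      finrank_span_eq_card hb
    rw [← h1]
    apply Submodule.finrank_mono
    rw [Submodule.span_le]
    rintro _ ⟨v, rfl⟩
    exact ⟨_, rfl⟩

end Rank

section NumberField

open NumberField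

variable (K : Type*) [Field K] [NumberField K] (S : Set (HeightOneSpectrum (𝓞 K)))

/-- The `S`-units of a number field are finitely generated (`S` finite). -/
instance instModuleFiniteSUnit [Finite S] : Module.Finite ℤ (Additive (S.unit K)) := by
  haveI : Module.Finite ℤ (LinearMap.ker (ordLin K S)) := by
    rw [← range_unitsLin]
    exact Module.Finite.range (unitsLin K S)
  haveI : Module.Finite ℤ (Additive (S.unit K) ⧸ LinearMap.ker (ordLin K S)) :=
    Module.Finite.equiv (LinearMap.quotKerEquivRange (ordLin K S)).symm
  exact Module.Finite.of_submodule_quotient (LinearMap.ker (ordLin K S))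

theorem fg_sUnit [Finite S] : Group.FG (S.unit K) := by
  rw [Group.fg_iff_monoid_fg, Monoid.fg_iff_add_fg, ← AddGroup.fg_iff_addMonoid_fg,
    ← Module.Finite.iff_addGroup_fg]
  infer_instance

/-- **Dirichlet's `S`-unit theorem** (rank form, `S` a finite set of finite places). -/
theorem finrank_sUnit_set [Finite S] :
    Module.finrank ℤ (Additive (S.unit K)) = NumberField.Units.rank K + Nat.card S := by
  have h1 := Submodule.finrank_quotient_add_finrank (LinearMap.ker (ordLin K S))
  have h2 := LinearEquiv.finrank_eq (LinearMap.quotKerEquivRange (ordLin K S))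
  have h3 := finrank_range_ordLin K S
  have h4 : Module.finrank ℤ (LinearMap.ker (ordLin K S)) = NumberField.Units.rank K := by
    rw [← range_unitsLin, LinearMap.finrank_range_of_inj (unitsLin_injective K S)]
    exact NumberField.Units.finrank_eq K
  omega

/-- **Dirichlet's `S`-unit theorem** for a `Finset` of finite places. -/
theorem finrank_sUnit (S : Finset (HeightOneSpectrum (𝓞 K))) :
    Module.finrank ℤ (Additive ((S : Set (HeightOneSpectrum (𝓞 K))).unit K)) =
      NumberField.Units.rank K + S.card := by
  rw [finrank_sUnit_set]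
  simp

/-- In terms of the number of infinite places. -/
theorem finrank_sUnit_add_one (S : Finset (HeightOneSpectrum (𝓞 K))) :
    Module.finrank ℤ (Additive ((S : Set (HeightOneSpectrum (𝓞 K))).unit K)) + 1 =
      Fintype.card (InfinitePlace K) + S.card := by
  rw [finrank_sUnit, NumberField.Units.rank]
  have : 0 < Fintype.card (InfinitePlace K) := Fintype.card_pos
  omega

end NumberField

end Fermat.Agent.PT.GLOB.SUnitRank17
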