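/-
Program F (S55, Poitou–Tate), chapter GLOB (helper17): counting the places of a Galois extension
`L/K` of number fields of prime degree `p` above a finite set of places of `K` (leaf (G3) of the
Herbrand quotient of the `T`-units; consumer: helper24's `SUnitsGalois24`).

* `card_fiber_eq_or`: a prime `v` of `K` has exactly `p` or exactly `1` primes of `L` above it;
* `card_above_eq`: `#T_L = p * #{v ∈ T split} + #{v ∈ T non-split}`;
* `card_infinitePlace_eq`: for `p` odd, `#∞_L = p * #∞_K`;
* `finrank_sUnit_above`: the rank of the `T_L`-units of `L` equals the rank of the `T`-units of `K`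
  plus `(p - 1) * (#∞_K + #{v ∈ T split})` — the shape `a + (p - 1) * b` expected by
  `CFT/HerbrandAbstract.herbrand_main`.
-/
import Mathlib
import Fermat.Agent.PT.GLOB.PrimesAbove24
import Fermat.Agent.PT.GLOB.SUnitRank17

set_option autoImplicit false
set_option linter.unusedSectionVars false
set_option linter.style.haveILetI false

open IsDedekindDomain NumberField

namespace Fermat.Agent.PT.GLOB.SplitCount17

open Fermat.Agent.PT.GLOB.PrimesAbove24

section Fiber

variable (A B : Type*) [CommRing A] [IsDedekindDomain A] [CommRing B] [IsDedekindDomain B]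
  [Algebra A B] [Algebra.IsIntegral A B] [Module.IsTorsionFree A B]

/-- The fibre over `v` (as a `Finset` of height one primes) has the cardinality of
`Ideal.primesOver`. -/
theorem primesOver_eq_image_fiber (v : HeightOneSpectrum A) :
    v.asIdeal.primesOver B = HeightOneSpectrum.asIdeal '' (fiber A B v : Set (HeightOneSpectrum B)) := by
  ext P
  constructor
  · rintro ⟨hP1, hP2⟩
    have hP0 : P ≠ ⊥ := Ideal.ne_bot_of_mem_primesOver v.ne_bot ⟨hP1, hP2⟩
    refine ⟨⟨P, hP1, hP0⟩, ?_, rfl⟩
    rw [Finset.mem_coe, mem_fiber]
    apply HeightOneSpectrum.ext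
    exact hP2.over.symm
  · rintro ⟨w, hw, rfl⟩
    rw [Finset.mem_coe, mem_fiber] at hw
    refine ⟨w.isPrime, ⟨?_⟩⟩
    exact (congrArg HeightOneSpectrum.asIdeal hw).symm

theorem card_fiber_eq_ncard (v : HeightOneSpectrum A) :
    (fiber A B v).card = (v.asIdeal.primesOver B).ncard := by
  rw [primesOver_eq_image_fiber, Set.ncard_image_of_injective _
    (fun w w' h => HeightOneSpectrum.ext h), Set.ncard_coe_finset]

end Fiber

section NF

variable (K L : Type*) [Field K] [Field L] [NumberField K] [NumberField L] [Algebra K L]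
  [IsGalois K L] (p : ℕ) (hp : p.Prime) (hdeg : Module.finrank K L = p)

include hp hdeg in
/-- In a Galois extension of prime degree `p`, a prime of `K` has `p` or `1` primes above it. -/
theorem card_fiber_eq_or (v : HeightOneSpectrum (𝓞 K)) :
    (fiber (𝓞 K) (𝓞 L) v).card = p ∨ (fiber (𝓞 K) (𝓞 L) v).card = 1 := by
  have h1 := Ideal.ncard_primesOver_mul_ramificationIdxIn_mul_inertiaDegIn v.asIdeal (𝓞 L)
    (L ≃ₐ[K] L)
  rw [IsGalois.card_aut_eq_finrank, hdeg, ← card_fiber_eq_ncard] at h1
  have h2 : (fiber (𝓞 K) (𝓞 L) v).card ∣ p := Dvd.intro _ h1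
  rcases (Nat.dvd_prime hp).mp h2 with h | h
  · exact Or.inr h
  · exact Or.inl h

/-- The primes of `T` which split completely in `L`. -/
noncomputable def splitPart (T : Finset (HeightOneSpectrum (𝓞 K))) :
    Finset (HeightOneSpectrum (𝓞 K)) :=
  T.filter fun v => (fiber (𝓞 K) (𝓞 L) v).card = p

/-- The primes of `T` with a single prime of `L` above them. -/
noncomputable def nonsplitPart (T : Finset (HeightOneSpectrum (𝓞 K))) :
    Finset (HeightOneSpectrum (𝓞 K)) :=
  T.filter fun v => (fiber (𝓞 K) (𝓞 L) v).card = 1

include hp hdeg in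
theorem card_eq_splitPart_add_nonsplitPart (T : Finset (HeightOneSpectrum (𝓞 K))) :
    T.card = (splitPart K L p T).card + (nonsplitPart K L T).card := by
  classical
  unfold splitPart nonsplitPart
  rw [← Finset.card_filter_add_card_filter_not (s := T)
    (fun v => (fiber (𝓞 K) (𝓞 L) v).card = p)]
  congr 1
  apply congrArg Finset.card
  apply Finset.filter_congr
  intro v _
  constructor
  · intro h
    rcases card_fiber_eq_or K L p hp hdeg v with h' | h'
    · exact absurd h' h
    · exact h'
  · intro h h'
    rw [h] at h'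
    exact hp.one_lt.ne h'

include hp hdeg in
/-- `#T_L = p * #{split} + #{non-split}`. -/
theorem card_above_eq (T : Finset (HeightOneSpectrum (𝓞 K))) :
    (above (𝓞 K) (𝓞 L) T).card =
      p * (splitPart K L p T).card + (nonsplitPart K L T).card := by
  classical
  rw [card_above]
  unfold splitPart nonsplitPart
  rw [← Finset.sum_filter_add_sum_filter_not T (fun v => (fiber (𝓞 K) (𝓞 L) v).card = p)]
  congr 1
  · rw [Finset.sum_congr rfl (g := fun _ => p) (fun v hv => (Finset.mem_filter.mp hv).2)]
    rw [Finset.sum_const, smul_eq_mul, mul_comm]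
  · have : ∀ v ∈ T.filter (fun v => ¬ (fiber (𝓞 K) (𝓞 L) v).card = p),
        (fiber (𝓞 K) (𝓞 L) v).card = 1 := by
      intro v hv
      rcases card_fiber_eq_or K L p hp hdeg v with h' | h'
      · exact absurd h' (Finset.mem_filter.mp hv).2
      · exact h'
    rw [Finset.sum_congr rfl this, Finset.sum_const, smul_eq_mul, mul_one]
    apply congrArg Finset.card
    apply Finset.filter_congr
    intro v _
    constructor
    · intro h
      rcases card_fiber_eq_or K L p hp hdeg v with h' | h'
      · exact absurd h' h
      · exact h'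
    · intro h h'
      rw [h] at h'
      exact hp.one_lt.ne h'

include hp hdeg in
/-- `card_above_eq` with the filters written out (the exact shape asked for by helper24). -/
theorem card_above_eq_filter (T : Finset (HeightOneSpectrum (𝓞 K))) :
    (above (𝓞 K) (𝓞 L) T).card =
      p * (T.filter fun v => (fiber (𝓞 K) (𝓞 L) v).card = p).card +
        (T.filter fun v => (fiber (𝓞 K) (𝓞 L) v).card = 1).card :=
  card_above_eq K L p hp hdeg T

include hp hdeg in
theorem card_eq_filter_add_filter (T : Finset (HeightOneSpectrum (𝓞 K))) :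
    T.card = (T.filter fun v => (fiber (𝓞 K) (𝓞 L) v).card = p).card +
        (T.filter fun v => (fiber (𝓞 K) (𝓞 L) v).card = 1).card :=
  card_eq_splitPart_add_nonsplitPart K L p hp hdeg T

include hdeg in
/-- For `p` odd, there are exactly `p` infinite places of `L` above each infinite place of `K`. -/
theorem card_infinitePlace_eq (hodd : Odd p) :
    Fintype.card (InfinitePlace L) = p * Fintype.card (InfinitePlace K) := by
  haveI : IsUnramifiedAtInfinitePlaces K L :=
    IsUnramifiedAtInfinitePlaces_of_odd_finrank (by rw [hdeg]; exact hodd)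
  rw [IsUnramifiedAtInfinitePlaces.card_infinitePlace K L, hdeg, mul_comm]

include hp hdeg in
/-- The rank of the `T_L`-units of `L` in the shape `a + (p - 1) * b` of `herbrand_main`. -/
theorem finrank_sUnit_above (hodd : Odd p) (T : Finset (HeightOneSpectrum (𝓞 K))) :
    Module.finrank ℤ
        (Additive ((above (𝓞 K) (𝓞 L) T : Set (HeightOneSpectrum (𝓞 L))).unit L)) =
      Module.finrank ℤ (Additive ((T : Set (HeightOneSpectrum (𝓞 K))).unit K)) +
        (p - 1) * (Fintype.card (InfinitePlace K) + (splitPart K L p T).card) := by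
  have h1 := SUnitRank17.finrank_sUnit_add_one L (above (𝓞 K) (𝓞 L) T)
  have h2 := SUnitRank17.finrank_sUnit_add_one K T
  rw [card_above_eq K L p hp hdeg, card_infinitePlace_eq K L p hdeg hodd] at h1
  rw [card_eq_splitPart_add_nonsplitPart K L p hp hdeg T] at h2
  obtain ⟨q, rfl⟩ : ∃ q, p = q + 1 := ⟨p - 1, (Nat.succ_pred_eq_of_pos hp.pos).symm⟩
  simp only [add_tsub_cancel_right]
  set r := Fintype.card (InfinitePlace K)
  set s := (splitPart K L (q + 1) T).card
  set n := (nonsplitPart K L T).card
  have e1 : (q + 1) * r = q * r + r := by ring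
  have e2 : (q + 1) * s = q * s + s := by ring
  have e3 : q * (r + s) = q * r + q * s := by ring
  omega

end NF

end Fermat.Agent.PT.GLOB.SplitCount17
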