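/-
Program F (S55), chapter GLOB (helper24): the Herbrand quotient of the `T`-units in final form.

`L/K` cyclic of odd prime degree `p` (number fields), `T` a finite set of primes of `K`,
`T_L = above T`.  Combining `SUnitsGalois24.herbrand_sUnit_count` with helper17's counts
(`SplitCount17`) and helper18's Herbrand kit (`HerbrandQuot18`):

* `herbrand_sUnit_nonsplit`: `[U_{K,T} : N U_{L,T_L}] * p = [ker N : (s-1) U_{L,T_L}] * p^nr`,
  `nr = #{v ∈ T : one prime of L above v}` (no hypotheses left);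
* `isFin_hq_sUnit`: in the language of `HerbrandQuot18`: the cyclic pair
  `cyc (toEnd (sUnitSmul s)) p` on `Additive U_{L,T_L}` is `IsFin` and has `hq = p^nr / p`.
-/
import Mathlib
import Fermat.Agent.PT.GLOB.SUnitsGalois24
import Fermat.Agent.PT.GLOB.SplitCount17
import Fermat.Agent.PT.FG.HerbrandQuot18

set_option autoImplicit false
set_option linter.unusedSectionVars false

namespace Fermat.Agent.PT.GLOB.SUnitsHerbrand24

open NumberField IsDedekindDomain HeightOneSpectrum Module
open Fermat.Agent.PT.GLOB.SUnits24 Fermat.Agent.PT.GLOB.PrimesAbove24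
open Fermat.Agent.PT.GLOB.HerbrandGroup24 Fermat.Agent.PT.GLOB.SUnitsGalois24
open Fermat.Agent.PT.GLOB.SplitCount17
open Fermat.Agent.PT.FG.HerbrandQuot18

variable (K L : Type*) [Field K] [Field L] [NumberField K] [NumberField L] [Algebra K L]
  [IsGalois K L] (T : Finset (HeightOneSpectrum (𝓞 K)))

/-- **Herbrand quotient of the `T`-units**, final index form: for `L/K` cyclic of odd prime degree
`p` with generator `s`, `[U_{K,T} : N U_{L,T_L}] * p = [ker N : (s-1) U_{L,T_L}] * p^nr` where `nr` is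
the number of primes in `T` with a single prime of `L` above them. -/
theorem herbrand_sUnit_nonsplit (p : ℕ) [hp : Fact p.Prime] (hodd : Odd p)
    (hdeg : finrank K L = p) (s : L ≃ₐ[K] L) (hs : ∀ τ : L ≃ₐ[K] L, τ ∈ Subgroup.zpowers s) :
    (normHom (sUnitSmul K L T s) p).range.relIndex (extHom K L T).range * p =
        (divHom (sUnitSmul K L T s)).range.relIndex (normHom (sUnitSmul K L T s) p).ker *
          p ^ (nonsplitPart K L T).card ∧
      (normHom (sUnitSmul K L T s) p).range.relIndex (extHom K L T).range ≠ 0 ∧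
      (divHom (sUnitSmul K L T s)).range.relIndex (normHom (sUnitSmul K L T s) p).ker ≠ 0 :=
  herbrand_sUnit_count K L T p hdeg s hs (splitPart K L p T).card (nonsplitPart K L T).card
    (card_infinitePlace_eq K L p hdeg hodd)
    (card_eq_splitPart_add_nonsplitPart K L p hp.out hdeg T)
    (card_above_eq K L p hp.out hdeg T)

theorem toEnd_sUnitSmul_pow (p : ℕ) (hdeg : finrank K L = p) (s : L ≃ₐ[K] L) :
    toEnd (sUnitSmul K L T s) ^ p = 1 := by
  apply toEnd_pow_eq_one
  intro u
  have hcard : Nat.card (L ≃ₐ[K] L) = p := by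
    rw [IsGalois.card_aut_eq_finrank, hdeg]
  rw [← hcard]
  exact iterate_card K L T s u

/-- **Herbrand quotient of the `T`-units** in the language of `HerbrandQuot18`: `h = p^nr / p`. -/
theorem isFin_hq_sUnit (p : ℕ) [hp : Fact p.Prime] (hodd : Odd p)
    (hdeg : finrank K L = p) (s : L ≃ₐ[K] L) (hs : ∀ τ : L ≃ₐ[K] L, τ ∈ Subgroup.zpowers s) :
    IsFin (cyc (toEnd (sUnitSmul K L T s)) p (toEnd_sUnitSmul_pow K L T p hdeg s)) ∧
      hq (cyc (toEnd (sUnitSmul K L T s)) p (toEnd_sUnitSmul_pow K L T p hdeg s)) =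
        (p : ℚ) ^ (nonsplitPart K L T).card / p := by
  set c := Fintype.card (InfinitePlace K) with hc
  have hcpos : 0 < c := Fintype.card_pos
  set ns := (splitPart K L p T).card with hns
  set nr := (nonsplitPart K L T).card with hnr
  have h1 := SUnitsGalois24.finrank_sUnit_add_one K T
  have h2 := SUnitsGalois24.finrank_sUnit_add_one L (above (𝓞 K) (𝓞 L) T)
  rw [card_infinitePlace_eq K L p hdeg hodd, card_above_eq K L p hp.out hdeg T] at h2
  rw [card_eq_splitPart_add_nonsplitPart K L p hp.out hdeg T] at h1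
  obtain ⟨q, hq'⟩ : ∃ q, p = q + 1 := ⟨p - 1, (Nat.sub_add_cancel hp.out.one_le).symm⟩
  have ha : finrank ℤ (Additive (sUnit K T)) = c - 1 + ns + nr := by omega
  have hr : finrank ℤ (Additive (sUnit L (above (𝓞 K) (𝓞 L) T))) =
      (c - 1 + ns + nr) + (p - 1) * (c + ns) := by
    have h3 : (p - 1) * (c + ns) = q * c + q * ns := by
      rw [hq', Nat.add_sub_cancel, mul_add]
    have h4 : p * c = q * c + c := by rw [hq']; ring
    have h5 : p * ns = q * ns + ns := by rw [hq']; ring
    rw [h3]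
    rw [h4, h5] at h2
    omega
  have ha' : finrank ℤ (LinearMap.ker (toEnd (sUnitSmul K L T s) - 1)) = c - 1 + ns + nr := by
    rw [← (fixedEquiv (sUnitSmul K L T s)).finrank_eq, finrank_fixedSubgroup K L T s hs, ha]
  obtain ⟨e1, e2⟩ := hq_cyc_prime_of_finrank p (toEnd (sUnitSmul K L T s))
    (toEnd_sUnitSmul_pow K L T p hdeg s) _ _ ha' hr
  refine ⟨e1, ?_⟩
  rw [e2]
  have hp0 : (p : ℚ) ≠ 0 := by exact_mod_cast hp.out.ne_zero
  obtain ⟨m, hm⟩ : ∃ m, c - 1 + ns = m := ⟨_, rfl⟩
  have h6 : c + ns = m + 1 := by omega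
  rw [h6, hm, pow_add, pow_add, pow_one]
  have hm0 : (p : ℚ) ^ m ≠ 0 := pow_ne_zero _ hp0
  field_simp

end Fermat.Agent.PT.GLOB.SUnitsHerbrand24
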