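/-
Program F (S55), chapter GLOB (helper24): bridge between the `T`-units in the model of
`Interface23` (`T : Finset Nat.Primes` rational primes, `E_T(L) = ker (divT T L) ≤ Lˣ`) and the
`T`-units of `SUnits24` (`sUnit L S`, `S` a finite set of primes of `𝓞 L`).

* `primesOverT T L`: the finite set of primes of `𝓞 L` above the rational primes in `T`;
  `not_mem_primesOverT_iff` (= the condition defining `Interface23.PrimeAway`);
  `above_primesOverT : above (𝓞 K) (𝓞 L) (primesOverT T K) = primesOverT T L`;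
* `ker_divT : (divT T L).ker = sUnit L (primesOverT T L)`;
* `unitsTSmul σ`: the Galois action on `E_T(L)`; `isFin_hq_unitsT`: for `L/K` cyclic of odd prime
  degree `p`, `h(E_T(L)) = p^nr / p`, `nr` = number of primes of `K` above `T` with a single
  prime of `L` above them.
-/
import Mathlib
import Fermat.Agent.PT.GLOB.Interface23
import Fermat.Agent.PT.GLOB.ClassKillCT15
import Fermat.Agent.PT.GLOB.SUnitsHerbrand24

set_option autoImplicit false
set_option linter.unusedSectionVars false

namespace Fermat.Agent.PT.GLOB.UnitsBridge24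

open NumberField IsDedekindDomain HeightOneSpectrum Module
open Fermat.Agent.PT.GLOB.Interface23
open Fermat.Agent.PT.GLOB.SUnits24 Fermat.Agent.PT.GLOB.PrimesAbove24
open Fermat.Agent.PT.GLOB.HerbrandGroup24 Fermat.Agent.PT.GLOB.SUnitsGalois24
open Fermat.Agent.PT.GLOB.SplitCount17 Fermat.Agent.PT.GLOB.SUnitsHerbrand24
open Fermat.Agent.PT.FG.HerbrandQuot18
open Fermat.Agent.CFT.Herbrand
open scoped nonZeroDivisors

section Primes

variable (T : Finset Nat.Primes) (L : Type*) [Field L] [NumberField L]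

/-- The primes of `𝓞 L` above the rational primes in `T` form a finite set. -/
theorem finite_primesOverT :
    {P : HeightOneSpectrum (𝓞 L) | ∃ q ∈ T, (((q : ℕ) : ℤ) : 𝓞 L) ∈ P.asIdeal}.Finite := by
  have hN : ((∏ q ∈ T, (q : ℕ) : ℕ)) ≠ 0 := Finset.prod_ne_zero_iff.mpr fun q _ => q.2.ne_zero
  refine (ClassKill15.primesOver L _ hN).finite_toSet.subset ?_
  rintro P ⟨q, hq, hmem⟩
  rw [Finset.mem_coe, ClassKill15.mem_primesOver, Ideal.dvd_span_singleton, Nat.cast_prod]
  rw [← Finset.mul_prod_erase T _ hq]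
  apply Ideal.mul_mem_right
  simpa using hmem

/-- The finite set of primes of `𝓞 L` above the rational primes in `T`. -/
noncomputable def primesOverT : Finset (HeightOneSpectrum (𝓞 L)) :=
  (finite_primesOverT T L).toFinset

theorem mem_primesOverT (P : HeightOneSpectrum (𝓞 L)) :
    P ∈ primesOverT T L ↔ ∃ q ∈ T, (((q : ℕ) : ℤ) : 𝓞 L) ∈ P.asIdeal := by
  unfold primesOverT
  rw [Set.Finite.mem_toFinset]
  rfl

theorem not_mem_primesOverT_iff (P : HeightOneSpectrum (𝓞 L)) :
    P ∉ primesOverT T L ↔ ∀ q ∈ T, (((q : ℕ) : ℤ) : 𝓞 L) ∉ P.asIdeal := by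
  rw [mem_primesOverT]
  simp only [not_exists, not_and]

/-- A prime away from `T` in the sense of `Interface23`. -/
theorem primeAway_not_mem (P : PrimeAway T L) : P.1 ∉ primesOverT T L :=
  (not_mem_primesOverT_iff T L P.1).mpr P.2

variable (K : Type*) [Field K] [NumberField K] [Algebra K L]

theorem above_primesOverT :
    above (𝓞 K) (𝓞 L) (primesOverT T K) = primesOverT T L := by
  ext w
  rw [mem_above, mem_primesOverT, mem_primesOverT]
  refine exists_congr fun q => and_congr_right fun _ => ?_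
  have h1 : (w.under (𝓞 K)).asIdeal = w.asIdeal.comap (algebraMap (𝓞 K) (𝓞 L)) := rfl
  rw [h1, Ideal.mem_comap, map_intCast]

end Primes

section Kernel

variable (T : Finset Nat.Primes) (L : Type*) [Field L] [NumberField L]

theorem ordAt_eq_zero_iff (P : HeightOneSpectrum (𝓞 L)) (x : Lˣ) :
    ordAt L P x = 0 ↔ P.valuation L (x : L) = 1 := by
  rw [ClassKill15.valuation_eq_exp_neg_count L P (x : L) x.ne_zero]
  unfold ordAt
  rw [← WithZero.exp_zero]
  constructor
  · intro h
    rw [h, neg_zero]
  · intro h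
    have := WithZero.exp_injective h
    omega

theorem mem_ker_divT_iff (x : Lˣ) :
    x ∈ (divT T L).ker ↔ ∀ P : PrimeAway T L, ordAt L P.1 x = 0 := by
  rw [MonoidHom.mem_ker]
  constructor
  · intro h P
    rw [← divT_apply T L x P, h]
    rfl
  · intro h
    have : DivT.toFinsupp T L (divT T L x) = 0 := by
      ext P
      rw [divT_apply, h P]
      rfl
    exact this

/-- **The `T`-units of `Interface23` are the `T`-units of `SUnits24`.** -/
theorem ker_divT : (divT T L).ker = sUnit L (primesOverT T L) := by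
  ext x
  rw [mem_ker_divT_iff, mem_sUnit_iff]
  constructor
  · intro h v hv
    rw [← ordAt_eq_zero_iff]
    exact h ⟨v, (not_mem_primesOverT_iff T L v).mp hv⟩
  · intro h P
    rw [ordAt_eq_zero_iff]
    exact h P.1 (primeAway_not_mem T L P)

end Kernel

section Galois

variable (T : Finset Nat.Primes)
variable (K L : Type*) [Field K] [Field L] [NumberField K] [NumberField L] [Algebra K L]
  [IsGalois K L]

theorem ker_divT_eq_above :
    (divT T L).ker = sUnit L (above (𝓞 K) (𝓞 L) (primesOverT T K)) := by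
  rw [above_primesOverT, ker_divT]

/-- `E_T(L) ≃* U_{L, T_L}`. -/
noncomputable def unitsTEquiv :
    (divT T L).ker ≃* sUnit L (above (𝓞 K) (𝓞 L) (primesOverT T K)) :=
  MulEquiv.subgroupCongr (ker_divT_eq_above T K L)

theorem coe_unitsTEquiv (x : (divT T L).ker) : ((unitsTEquiv T K L x : _) : Lˣ) = (x : Lˣ) := rfl

theorem coe_unitsTEquiv_symm (x : sUnit L (above (𝓞 K) (𝓞 L) (primesOverT T K))) :
    (((unitsTEquiv T K L).symm x : _) : Lˣ) = (x : Lˣ) := rfl

/-- The Galois action on the `T`-units `E_T(L) = ker (divT T L)`. -/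
noncomputable def unitsTSmul (σ : L ≃ₐ[K] L) : (divT T L).ker →* (divT T L).ker :=
  ((unitsTEquiv T K L).symm.toMonoidHom.comp (sUnitSmul K L (primesOverT T K) σ)).comp
    (unitsTEquiv T K L).toMonoidHom

/-- `unitsTSmul` is the restriction of the action of `Interface23` on `Lˣ`. -/
theorem coe_unitsTSmul (σ : L ≃ₐ[K] L) (x : (divT T L).ker) :
    ((unitsTSmul T K L σ x : _) : Lˣ) = σ • (x : Lˣ) := by
  apply Units.ext
  rfl

/-- `E_T(L)` is stable under the Galois action. -/
theorem smul_mem_ker_divT (σ : L ≃ₐ[K] L) {x : Lˣ} (hx : x ∈ (divT T L).ker) :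
    σ • x ∈ (divT T L).ker := by
  rw [← coe_unitsTSmul T K L σ ⟨x, hx⟩]
  exact (unitsTSmul T K L σ ⟨x, hx⟩).2

theorem unitsTEquiv_unitsTSmul (σ : L ≃ₐ[K] L) (x : (divT T L).ker) :
    unitsTEquiv T K L (unitsTSmul T K L σ x) =
      sUnitSmul K L (primesOverT T K) σ (unitsTEquiv T K L x) := by
  unfold unitsTSmul
  simp

theorem toEnd_unitsTSmul_pow (p : ℕ) (hdeg : finrank K L = p) (s : L ≃ₐ[K] L) :
    toEnd (unitsTSmul T K L s) ^ p = 1 := by
  apply toEnd_pow_eq_one
  intro u
  apply (unitsTEquiv T K L).injective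
  have h : ∀ i : ℕ, unitsTEquiv T K L ((unitsTSmul T K L s)^[i] u) =
      (sUnitSmul K L (primesOverT T K) s)^[i] (unitsTEquiv T K L u) := by
    intro i
    induction i with
    | zero => rfl
    | succ i ih =>
      rw [Function.iterate_succ_apply', Function.iterate_succ_apply', unitsTEquiv_unitsTSmul, ih]
  rw [h]
  have hcard : Nat.card (L ≃ₐ[K] L) = p := by
    rw [IsGalois.card_aut_eq_finrank, hdeg]
  rw [← hcard]
  exact iterate_card K L (primesOverT T K) s _

/-- **Herbrand quotient of the `T`-units in the model of `Interface23`**: for `L/K` cyclic of odd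
prime degree `p` with generator `s`, the cyclic pair on `E_T(L) = ker (divT T L)` is `IsFin` with
`hq = p^nr / p`, `nr` the number of primes of `K` above `T` with a single prime of `L` above
them. -/
theorem isFin_hq_unitsT (p : ℕ) [hp : Fact p.Prime] (hodd : Odd p)
    (hdeg : finrank K L = p) (s : L ≃ₐ[K] L) (hs : ∀ τ : L ≃ₐ[K] L, τ ∈ Subgroup.zpowers s) :
    IsFin (cyc (toEnd (unitsTSmul T K L s)) p (toEnd_unitsTSmul_pow T K L p hdeg s)) ∧
      hq (cyc (toEnd (unitsTSmul T K L s)) p (toEnd_unitsTSmul_pow T K L p hdeg s)) =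
        (p : ℚ) ^ (nonsplitPart K L (primesOverT T K)).card / p := by
  obtain ⟨h1, h2⟩ := isFin_hq_sUnit K L (primesOverT T K) p hodd hdeg s hs
  let φ : Additive (divT T L).ker →+ Additive (sUnit L (above (𝓞 K) (𝓞 L) (primesOverT T K))) :=
    MonoidHom.toAdditive (unitsTEquiv T K L).toMonoidHom
  have hφ : ∀ x, φ (toEnd (unitsTSmul T K L s) x) =
      toEnd (sUnitSmul K L (primesOverT T K) s) (φ x) := by
    intro x
    obtain ⟨u, rfl⟩ := Additive.ofMul.surjective x
    exact congrArg Additive.ofMul (unitsTEquiv_unitsTSmul T K L s u)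
  let H := cycHom (toEnd_unitsTSmul_pow T K L p hdeg s)
    (toEnd_sUnitSmul_pow K L (primesOverT T K) p hdeg s) φ hφ
  have hb : Function.Bijective H.φ := (unitsTEquiv T K L).bijective
  exact ⟨(isFin_iff_of_bijective H hb).mpr h1, (hq_eq_of_bijective H hb).trans h2⟩

end Galois

end Fermat.Agent.PT.GLOB.UnitsBridge24
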