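/-
Program F (S55, Poitou–Tate), chapter GLOB, leaf F1 (helper16): the FIRST INEQUALITY in
Herbrand-quotient form, on the objects of `Interface23`.

For `L/K` cyclic of odd prime degree `p` with generator `s` and `T ≠ ∅` a finite set of rational
primes:

* `finite_classGroupT : Finite (DivT T L ⧸ (divT T L).range)` — the `T`-class group is finite, for
  EVERY `T` (from Mathlib's finite class group via `divIdeal : (FractionalIdeal)ˣ →* DivT T L`);
* `itToCT T L : IT T L →* CT T L` (`x ↦ class of (x, 1)`), `mem_ker_itToCT_iff` (kernel = image of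
  the `T`-units `E_T(L) = ker (divT T L)`), `finite_coker_itToCT` (cokernel finite);
* `smulEnd M g : Module.End ℤ (Additive M)` for a `MulDistribMulAction`, `smulEnd_pow_eq_one`;
* `isFin_hq_CT`: `IsFin (cyc σI p _) → IsFin (cyc (smulEnd (CT T L) s) p _) ∧
    hq (cyc (smulEnd (CT T L) s) p _) = hq (cyc σI p _) / (p ^ nr / p)`,
  `nr = (nonsplitPart K L (primesOverT T K)).card`  (uses `UnitsBridge24.isFin_hq_unitsT`);
* `hq_CT_eq_p`: if moreover `hq (cyc σI p _) = p ^ nr` then `hq (cyc (smulEnd (CT T L) s) p _) = p`;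
* `card_H_CT`: the same as `#Ĥ⁰ = p * #Ĥ⁻¹` with both groups finite.

The file also installs shortcut instances `CommGroup (IT T L)`, `CommGroup (JT T L)`,
`CommGroup (CT T L)`, `(diagJ T L).range.Normal`, `(itToCT T L).range.Normal`: without them the
generic instance search wanders through `IsMulCommutative`/`IsCyclic` on `(Loc L q)ˣ` and runs out
of heartbeats.
-/
import Fermat.Agent.PT.GLOB.Interface23
import Fermat.Agent.PT.GLOB.ClassAction23
import Fermat.Agent.PT.GLOB.UnitsBridge24
import Fermat.Agent.PT.FG.HerbrandQuot18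

set_option autoImplicit false
set_option linter.unusedSectionVars false

namespace Fermat.Agent.PT.GLOB.FirstIneq16

open NumberField IsDedekindDomain
open Fermat.Agent.PT.GLOB.Interface23 Fermat.Agent.PT.GLOB.ClassAction23
open scoped TensorProduct nonZeroDivisors

section Instances

variable (T : Finset Nat.Primes) (L : Type*) [Field L] [NumberField L]

/-! Shortcut instances: the generic instance search on `IT`, `JT`, `CT` wanders through
`IsMulCommutative`/`IsCyclic` and runs out of heartbeats. -/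

noncomputable instance instCommGroupIT16 : CommGroup (IT T L) := Pi.commGroup
noncomputable instance instCommGroupJT16 : CommGroup (JT T L) := Prod.instCommGroup

instance instNormalRangeDiagJ : (diagJ T L).range.Normal :=
  ⟨fun n hn g => by rwa [mul_comm g, mul_inv_cancel_right]⟩

noncomputable instance instCommGroupCT16 : CommGroup (CT T L) :=
  QuotientGroup.Quotient.commGroup _

end Instances

section ClassGroupT

variable (T : Finset Nat.Primes) (L : Type*) [Field L] [NumberField L]

theorem finite_count_ne_zero (I : FractionalIdeal (𝓞 L)⁰ L) :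
    {P : PrimeAway T L | FractionalIdeal.count L P.1 I ≠ 0}.Finite := by
  have h := FractionalIdeal.finite_factors (R := 𝓞 L) (K := L) I
  rw [Filter.eventually_cofinite] at h
  exact Set.Finite.preimage (Subtype.val_injective.injOn) h

/-- The divisor prime to `T` of an invertible fractional ideal. -/
noncomputable def divIdeal : (FractionalIdeal (𝓞 L)⁰ L)ˣ →* DivT T L where
  toFun I := DivT.ofFinsupp T L
    (Finsupp.ofSupportFinite (fun P : PrimeAway T L => FractionalIdeal.count L P.1 (I : FractionalIdeal (𝓞 L)⁰ L))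
      (finite_count_ne_zero T L I))
  map_one' := by
    apply congrArg (DivT.ofFinsupp T L)
    ext P
    simp [Finsupp.ofSupportFinite_coe, FractionalIdeal.count_one]
  map_mul' I J := by
    change _ = DivT.ofFinsupp T L
      (Finsupp.ofSupportFinite (fun P : PrimeAway T L => FractionalIdeal.count L P.1 (I : FractionalIdeal (𝓞 L)⁰ L))
        (finite_count_ne_zero T L I) +
       Finsupp.ofSupportFinite (fun P : PrimeAway T L => FractionalIdeal.count L P.1 (J : FractionalIdeal (𝓞 L)⁰ L))
        (finite_count_ne_zero T L J))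
    apply congrArg (DivT.ofFinsupp T L)
    ext P
    rw [Finsupp.add_apply]
    exact FractionalIdeal.count_mul L P.1 I.ne_zero J.ne_zero

theorem divIdeal_apply (I : (FractionalIdeal (𝓞 L)⁰ L)ˣ) (P : PrimeAway T L) :
    DivT.toFinsupp T L (divIdeal T L I) P =
      FractionalIdeal.count L P.1 (I : FractionalIdeal (𝓞 L)⁰ L) := rfl

theorem divIdeal_toPrincipalIdeal (x : Lˣ) :
    divIdeal T L (toPrincipalIdeal (𝓞 L) L x) = divT T L x := by
  apply divT_ext
  intro P
  rw [divIdeal_apply, divT_apply, coe_toPrincipalIdeal]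
  rfl

theorem divIdeal_surjective : Function.Surjective (divIdeal T L) := by
  intro D
  classical
  let e : HeightOneSpectrum (𝓞 L) →₀ ℤ :=
    Finsupp.mapDomain (Subtype.val : PrimeAway T L → HeightOneSpectrum (𝓞 L)) (DivT.toFinsupp T L D)
  let I : FractionalIdeal (𝓞 L)⁰ L :=
    e.prod (fun v n => (v.asIdeal : FractionalIdeal (𝓞 L)⁰ L) ^ n)
  have hI : I ≠ 0 := by
    rw [Finsupp.prod_ne_zero_iff]
    intro v _
    exact zpow_ne_zero _ (FractionalIdeal.coeIdeal_ne_zero.mpr v.ne_bot)
  refine ⟨Units.mk0 I hI, ?_⟩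
  apply divT_ext
  intro P
  rw [divIdeal_apply, Units.val_mk0]
  have h := FractionalIdeal.count_finsuppProd L P.1 e
  rw [h]
  exact Finsupp.mapDomain_apply Subtype.val_injective _ P

/-- The `T`-class group `DivT / div(Lˣ)` is finite, for every `T`. -/
instance finite_classGroupT : Finite (DivT T L ⧸ (divT T L).range) := by
  have hfin : Finite ((FractionalIdeal (𝓞 L)⁰ L)ˣ ⧸ (toPrincipalIdeal (𝓞 L) L).range) :=
    Finite.of_equiv _ (ClassGroup.equiv (R := 𝓞 L) L).toEquiv
  have hle : (toPrincipalIdeal (𝓞 L) L).range ≤ ((divT T L).range).comap (divIdeal T L) := by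
    rintro _ ⟨x, rfl⟩
    exact ⟨x, (divIdeal_toPrincipalIdeal T L x).symm⟩
  let f := QuotientGroup.map (toPrincipalIdeal (𝓞 L) L).range (divT T L).range (divIdeal T L) hle
  apply Finite.of_surjective f
  intro d
  induction d using QuotientGroup.induction_on with
  | H D =>
    obtain ⟨I, rfl⟩ := divIdeal_surjective T L D
    exact ⟨(I : _ ⧸ _), rfl⟩

end ClassGroupT

section ItToCT

variable (T : Finset Nat.Primes) (L : Type*) [Field L] [NumberField L]

/-- The map `IT T L → CT T L`, `x ↦ class of (x, 1)`. -/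
noncomputable def itToCT : IT T L →* CT T L :=
  (toCT T L).comp (MonoidHom.inl (IT T L) (DivT T L))

theorem itToCT_apply (x : IT T L) : itToCT T L x = toCT T L (x, 1) := rfl

/-- Shortcut instance. -/
instance instNormalRangeItToCT : (itToCT T L).range.Normal :=
  ⟨fun n hn g => by rwa [mul_comm g, mul_inv_cancel_right]⟩

theorem toCT_eq_one_iff (j : JT T L) : toCT T L j = 1 ↔ j ∈ (diagJ T L).range :=
  QuotientGroup.eq_one_iff j

/-- The kernel of `IT T L → CT T L` is the image of the `T`-units `E_T(L) = ker (divT T L)`. -/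
theorem mem_ker_itToCT_iff (x : IT T L) :
    x ∈ (itToCT T L).ker ↔ ∃ u : (divT T L).ker, diagI T L (u : Lˣ) = x := by
  rw [MonoidHom.mem_ker, itToCT_apply, toCT_eq_one_iff]
  constructor
  · rintro ⟨u, hu⟩
    have h1 : diagI T L u = x := congrArg Prod.fst hu
    have h2 : divT T L u = 1 := congrArg Prod.snd hu
    exact ⟨⟨u, h2⟩, h1⟩
  · rintro ⟨u, rfl⟩
    exact ⟨(u : Lˣ), Prod.ext rfl u.2⟩

/-- The class of `(1, D)` modulo the image of `IT T L`. -/
noncomputable def divToCoker : DivT T L →* CT T L ⧸ (itToCT T L).range :=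
  (QuotientGroup.mk' (itToCT T L).range).comp
    ((toCT T L).comp (MonoidHom.inr (IT T L) (DivT T L)))

theorem divToCoker_apply (D : DivT T L) :
    divToCoker T L D = ((toCT T L (1, D) : CT T L) : CT T L ⧸ (itToCT T L).range) := rfl

theorem divToCoker_divT (u : Lˣ) : divToCoker T L (divT T L u) = 1 := by
  rw [divToCoker_apply, QuotientGroup.eq_one_iff]
  refine ⟨(diagI T L u)⁻¹, ?_⟩
  rw [itToCT_apply]
  have h : ((1, divT T L u) : JT T L) = ((diagI T L u)⁻¹, 1) * diagJ T L u := by
    apply Prod.ext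
    · simp [diagJ]
    · simp [diagJ]
  rw [h, map_mul]
  have : toCT T L (diagJ T L u) = 1 := (toCT_eq_one_iff T L _).mpr ⟨u, rfl⟩
  rw [this, mul_one]

theorem divToCoker_surjective : Function.Surjective (divToCoker T L) := by
  intro c
  induction c using QuotientGroup.induction_on with
  | H c =>
    induction c using QuotientGroup.induction_on with
    | H j =>
      refine ⟨j.2, ?_⟩
      rw [divToCoker_apply]
      symm
      rw [QuotientGroup.eq]
      refine ⟨j.1⁻¹, ?_⟩
      rw [itToCT_apply]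
      change toCT T L (j.1⁻¹, 1) = (toCT T L j)⁻¹ * toCT T L (1, j.2)
      rw [← map_inv, ← map_mul]
      congr 1
      apply Prod.ext
      · simp
      · simp

/-- The cokernel of `IT T L → CT T L` is finite (a quotient of the `T`-class group). -/
instance finite_coker_itToCT : Finite (CT T L ⧸ (itToCT T L).range) := by
  have hle : (divT T L).range ≤ (divToCoker T L).ker := by
    rintro _ ⟨u, rfl⟩
    exact divToCoker_divT T L u
  apply Finite.of_surjective (QuotientGroup.lift (divT T L).range (divToCoker T L) hle)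
  intro c
  obtain ⟨D, rfl⟩ := divToCoker_surjective T L c
  exact ⟨(D : _ ⧸ _), rfl⟩

end ItToCT

section Generalities

theorem finite_quotient_toAdditive_range {G H : Type*} [CommGroup G] [CommGroup H] (f : G →* H)
    [Finite (H ⧸ f.range)] : Finite (Additive H ⧸ (MonoidHom.toAdditive f).range) := by
  apply Finite.of_surjective
    (fun x : H ⧸ f.range => (QuotientAddGroup.mk (Additive.ofMul x.out) : Additive H ⧸ _))
  intro y
  induction y using QuotientAddGroup.induction_on with
  | H y =>
    obtain ⟨h, rfl⟩ := Additive.ofMul.surjective y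
    refine ⟨(h : H ⧸ f.range), ?_⟩
    obtain ⟨r, hr⟩ := QuotientGroup.mk_out_eq_mul f.range h
    change (QuotientAddGroup.mk (Additive.ofMul (h : H ⧸ f.range).out) : Additive H ⧸ _) = _
    rw [hr, QuotientAddGroup.eq]
    obtain ⟨g, hg⟩ := r.2
    refine ⟨Additive.ofMul g⁻¹, ?_⟩
    change Additive.ofMul (f g⁻¹) = -(Additive.ofMul (h * r)) + Additive.ofMul h
    rw [map_inv, hg, ← ofMul_inv, ← ofMul_mul]
    congr 1
    rw [mul_inv_rev, mul_comm, ← mul_assoc, mul_comm h, mul_inv_cancel_right]

end Generalities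

section SmulEnd

open Fermat.Agent.PT.GLOB.HerbrandGroup24

variable {G : Type*} (M : Type*) [Monoid G] [CommGroup M] [MulDistribMulAction G M]

/-- The endomorphism `x ↦ g • x` of `Additive M`. -/
noncomputable def smulEnd (g : G) : Module.End ℤ (Additive M) :=
  toEnd (MulDistribMulAction.toMonoidHom M g)

theorem smulEnd_apply (g : G) (x : M) :
    smulEnd M g (Additive.ofMul x) = Additive.ofMul (g • x) := rfl

theorem smulEnd_pow_eq_one (g : G) (n : ℕ) (h : g ^ n = 1) : smulEnd M g ^ n = 1 := by
  apply toEnd_pow_eq_one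
  intro u
  have key : ∀ (i : ℕ) (u : M), ((MulDistribMulAction.toMonoidHom M g)^[i]) u = g ^ i • u := by
    intro i
    induction i with
    | zero => intro u; simp
    | succ i ih =>
      intro u
      rw [Function.iterate_succ_apply', ih, MulDistribMulAction.toMonoidHom_apply, pow_succ',
        mul_smul]
  rw [key, h, one_smul]

end SmulEnd

section Herbrand

open Module
open Fermat.Agent.PT.GLOB.HerbrandGroup24 Fermat.Agent.PT.GLOB.UnitsBridge24
open Fermat.Agent.PT.GLOB.SplitCount17
open Fermat.Agent.PT.FG.HerbrandQuot18 Fermat.Agent.CFT.Herbrand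

variable (T : Finset Nat.Primes)
variable (K L : Type*) [Field K] [Field L] [NumberField K] [NumberField L] [Algebra K L]
  [IsGalois K L]

theorem galois_pow_eq_one (p : ℕ) (hdeg : finrank K L = p) (s : L ≃ₐ[K] L) : s ^ p = 1 := by
  have hcard : Nat.card (L ≃ₐ[K] L) = p := by
    rw [IsGalois.card_aut_eq_finrank, hdeg]
  rw [← hcard]
  exact pow_card_eq_one'

/-- `c ↦ s • c` on `Additive (CT T L)` has order dividing `p = [L : K]`. -/
theorem smulEnd_CT_pow (p : ℕ) (hdeg : finrank K L = p) (s : L ≃ₐ[K] L) :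
    smulEnd (CT T L) s ^ p = 1 :=
  smulEnd_pow_eq_one (CT T L) s p (galois_pow_eq_one K L p hdeg s)

/-- `x ↦ s • x` on `Additive (IT T L)` has order dividing `p = [L : K]`. -/
theorem smulEnd_IT_pow (p : ℕ) (hdeg : finrank K L = p) (s : L ≃ₐ[K] L) :
    smulEnd (IT T L) s ^ p = 1 :=
  smulEnd_pow_eq_one (IT T L) s p (galois_pow_eq_one K L p hdeg s)

theorem diagI_injective (hT : T.Nonempty) : Function.Injective (diagI T L) := by
  obtain ⟨q, hq⟩ := hT
  intro x y hxy
  have h1 : diagI T L x ⟨q, hq⟩ = diagI T L y ⟨q, hq⟩ := congrFun hxy _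
  have h2 : ((diagI T L x ⟨q, hq⟩ : (Loc L q)ˣ) : Loc L q) = (diagI T L y ⟨q, hq⟩ : (Loc L q)ˣ) :=
    congrArg Units.val h1
  apply Units.ext
  exact (Algebra.TensorProduct.includeLeft : L →ₐ[ℚ] Loc L q).toRingHom.injective h2

/-- The diagonal embedding of the `T`-units into `IT T L`, additively. -/
noncomputable def unitsToIT : Additive (divT T L).ker →+ Additive (IT T L) :=
  MonoidHom.toAdditive ((diagI T L).comp (divT T L).ker.subtype)

theorem unitsToIT_apply (u : (divT T L).ker) :
    unitsToIT T L (Additive.ofMul u) = Additive.ofMul (diagI T L (u : Lˣ)) := rfl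

/-- **First inequality, Herbrand-quotient form.**  `L/K` cyclic of odd prime degree `p` with
generator `s`, `T` a nonempty finite set of rational primes.  If the cyclic pair of `IT T L` is
finite then so is the cyclic pair of the `T`-idele class group `CT T L`, and
`h(CT) = h(IT) / h(E_T) = h(IT) / (p ^ nr / p)`, `nr` the number of primes of `K` above `T` with a
single prime of `L` above them.  The endomorphism `σI` of `Additive (IT T L)` is a parameter
characterised by `hσI` (for instance `smulEnd (IT T L) s`). -/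
theorem isFin_hq_CT (hT : T.Nonempty) (p : ℕ) [hp : Fact p.Prime] (hodd : Odd p)
    (hdeg : finrank K L = p) (s : L ≃ₐ[K] L) (hs : ∀ τ : L ≃ₐ[K] L, τ ∈ Subgroup.zpowers s)
    (σI : Module.End ℤ (Additive (IT T L)))
    (hσI : ∀ x : IT T L, σI (Additive.ofMul x) = Additive.ofMul (s • x))
    (hIp : σI ^ p = 1) (hI : IsFin (cyc σI p hIp)) :
    IsFin (cyc (smulEnd (CT T L) s) p (smulEnd_CT_pow T K L p hdeg s)) ∧
      hq (cyc (smulEnd (CT T L) s) p (smulEnd_CT_pow T K L p hdeg s)) =
        hq (cyc σI p hIp) / ((p : ℚ) ^ (nonsplitPart K L (primesOverT T K)).card / p) := by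
  obtain ⟨hE, hEq⟩ := isFin_hq_unitsT T K L p hodd hdeg s hs
  set PE := cyc (toEnd (unitsTSmul T K L s)) p (toEnd_unitsTSmul_pow T K L p hdeg s) with hPE
  set PI := cyc σI p hIp with hPI
  set PC := cyc (smulEnd (CT T L) s) p (smulEnd_CT_pow T K L p hdeg s) with hPC
  -- the morphism `IT → CT`
  have hφ : ∀ x, (MonoidHom.toAdditive (itToCT T L)) (σI x) =
      smulEnd (CT T L) s ((MonoidHom.toAdditive (itToCT T L)) x) := by
    intro x
    obtain ⟨y, rfl⟩ := Additive.ofMul.surjective x
    rw [hσI]
    change Additive.ofMul (itToCT T L (s • y)) = Additive.ofMul (s • itToCT T L y)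
    rw [itToCT_apply, itToCT_apply, smul_toCT]
    have h1 : ((s • y, 1) : JT T L) = s • ((y, 1) : JT T L) := Prod.ext rfl (smul_one s).symm
    rw [h1]
  let HI : Hom PI PC := cycHom hIp (smulEnd_CT_pow T K L p hdeg s)
    (MonoidHom.toAdditive (itToCT T L)) hφ
  -- the morphism `E_T → IT`
  have hψ : ∀ x, unitsToIT T L (toEnd (unitsTSmul T K L s) x) = σI (unitsToIT T L x) := by
    intro x
    obtain ⟨u, rfl⟩ := Additive.ofMul.surjective x
    rw [toEnd_apply, unitsToIT_apply, unitsToIT_apply, hσI, coe_unitsTSmul, diagI_smul]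
  let HE : Hom PE PI := cycHom (toEnd_unitsTSmul_pow T K L p hdeg s) hIp (unitsToIT T L) hψ
  -- the short exact sequence `0 → E_T → IT → im → 0`
  let S : ShortExact PE PI (subPair PC HI.φ.range (stable_range HI)) :=
    { ι := HE
      π := (kerRangeShortExact HI).π
      inj := by
        intro x y hxy
        obtain ⟨u, rfl⟩ := Additive.ofMul.surjective x
        obtain ⟨v, rfl⟩ := Additive.ofMul.surjective y
        have h1 : diagI T L (u : Lˣ) = diagI T L (v : Lˣ) := hxy
        have h2 := diagI_injective T L hT h1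
        exact congrArg Additive.ofMul (Subtype.ext h2)
      surj := (kerRangeShortExact HI).surj
      exact := by
        intro b
        obtain ⟨x, rfl⟩ := Additive.ofMul.surjective b
        constructor
        · intro hb
          have h1 : itToCT T L x = 1 := congrArg Subtype.val hb
          obtain ⟨u, hu⟩ := (mem_ker_itToCT_iff T L x).mp h1
          exact ⟨Additive.ofMul u, congrArg Additive.ofMul hu⟩
        · rintro ⟨a, ha⟩
          obtain ⟨u, rfl⟩ := Additive.ofMul.surjective a
          have h1 : diagI T L (u : Lˣ) = x := ha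
          have h2 : itToCT T L x = 1 := (mem_ker_itToCT_iff T L x).mpr ⟨u, h1⟩
          exact Subtype.ext h2 }
  have hR : IsFin (subPair PC HI.φ.range (stable_range HI)) := ShortExact.isFin_right S hE hI
  have hmul : hq PI = hq PE * hq (subPair PC HI.φ.range (stable_range HI)) :=
    ShortExact.hq_mul_of_left_mid S hE hI
  -- the image has finite index
  have : Finite (Additive (CT T L) ⧸ HI.φ.range) :=
    finite_quotient_toAdditive_range (itToCT T L)
  have hC : IsFin PC := (isFin_sub_iff_of_finite_quotient PC HI.φ.range (stable_range HI)).mp hR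
  refine ⟨hC, ?_⟩
  rw [hmul, hq_sub_eq_of_finite_quotient PC HI.φ.range (stable_range HI) hC, ← hEq,
    mul_div_cancel_left₀ _ hE.hq_ne_zero]

/-- `isFin_hq_CT` for the canonical endomorphism `smulEnd (IT T L) s` of `Additive (IT T L)`. -/
theorem isFin_hq_CT_smulEnd (hT : T.Nonempty) (p : ℕ) [hp : Fact p.Prime] (hodd : Odd p)
    (hdeg : finrank K L = p) (s : L ≃ₐ[K] L) (hs : ∀ τ : L ≃ₐ[K] L, τ ∈ Subgroup.zpowers s)
    (hI : IsFin (cyc (smulEnd (IT T L) s) p (smulEnd_IT_pow T K L p hdeg s))) :
    IsFin (cyc (smulEnd (CT T L) s) p (smulEnd_CT_pow T K L p hdeg s)) ∧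
      hq (cyc (smulEnd (CT T L) s) p (smulEnd_CT_pow T K L p hdeg s)) =
        hq (cyc (smulEnd (IT T L) s) p (smulEnd_IT_pow T K L p hdeg s)) /
          ((p : ℚ) ^ (nonsplitPart K L (primesOverT T K)).card / p) :=
  isFin_hq_CT T K L hT p hodd hdeg s hs (smulEnd (IT T L) s) (fun _ => rfl)
    (smulEnd_IT_pow T K L p hdeg s) hI

/-- **First inequality**: if `h(IT T L) = p ^ nr` (local Herbrand quotients + place counting)
then `h(CT T L) = p`. -/
theorem hq_CT_eq_p (hT : T.Nonempty) (p : ℕ) [hp : Fact p.Prime] (hodd : Odd p)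
    (hdeg : finrank K L = p) (s : L ≃ₐ[K] L) (hs : ∀ τ : L ≃ₐ[K] L, τ ∈ Subgroup.zpowers s)
    (σI : Module.End ℤ (Additive (IT T L)))
    (hσI : ∀ x : IT T L, σI (Additive.ofMul x) = Additive.ofMul (s • x))
    (hIp : σI ^ p = 1) (hI : IsFin (cyc σI p hIp))
    (hIq : hq (cyc σI p hIp) = (p : ℚ) ^ (nonsplitPart K L (primesOverT T K)).card) :
    IsFin (cyc (smulEnd (CT T L) s) p (smulEnd_CT_pow T K L p hdeg s)) ∧
      hq (cyc (smulEnd (CT T L) s) p (smulEnd_CT_pow T K L p hdeg s)) = p := by
  obtain ⟨h1, h2⟩ := isFin_hq_CT T K L hT p hodd hdeg s hs σI hσI hIp hI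
  refine ⟨h1, ?_⟩
  rw [h2, hIq]
  have hp0 : (p : ℚ) ≠ 0 := by exact_mod_cast hp.out.ne_zero
  have hpn : (p : ℚ) ^ (nonsplitPart K L (primesOverT T K)).card ≠ 0 := pow_ne_zero _ hp0
  field_simp

/-- From `hq P = n` to the cardinality identity `#H(P) = n * #H(P.swap)`. -/
theorem card_H_eq_of_hq_eq {A : Type*} [AddCommGroup A] (P : Pair A) (h : IsFin P) (n : ℕ)
    (hn : hq P = n) : Nat.card P.H = n * Nat.card P.swap.H := by
  unfold hq at hn
  have h0 : (Nat.card P.swap.H : ℚ) ≠ 0 := by exact_mod_cast h.card_swap_H_ne_zero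
  rw [div_eq_iff h0] at hn
  exact_mod_cast hn

/-- **First inequality, cardinality form**: `#Ĥ⁰(G, CT) = p * #Ĥ⁻¹(G, CT)` (both finite), where
`Ĥ⁰ = ker (s - 1) / im N` is `(cyc ..).H` and `Ĥ⁻¹ = ker N / im (s - 1)` is `(cyc ..).swap.H`. -/
theorem card_H_CT (hT : T.Nonempty) (p : ℕ) [hp : Fact p.Prime] (hodd : Odd p)
    (hdeg : finrank K L = p) (s : L ≃ₐ[K] L) (hs : ∀ τ : L ≃ₐ[K] L, τ ∈ Subgroup.zpowers s)
    (σI : Module.End ℤ (Additive (IT T L)))
    (hσI : ∀ x : IT T L, σI (Additive.ofMul x) = Additive.ofMul (s • x))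
    (hIp : σI ^ p = 1) (hI : IsFin (cyc σI p hIp))
    (hIq : hq (cyc σI p hIp) = (p : ℚ) ^ (nonsplitPart K L (primesOverT T K)).card) :
    Finite (cyc (smulEnd (CT T L) s) p (smulEnd_CT_pow T K L p hdeg s)).H ∧
    Finite (cyc (smulEnd (CT T L) s) p (smulEnd_CT_pow T K L p hdeg s)).swap.H ∧
    Nat.card (cyc (smulEnd (CT T L) s) p (smulEnd_CT_pow T K L p hdeg s)).H =
      p * Nat.card (cyc (smulEnd (CT T L) s) p (smulEnd_CT_pow T K L p hdeg s)).swap.H := by
  obtain ⟨h1, h2⟩ := hq_CT_eq_p T K L hT p hodd hdeg s hs σI hσI hIp hI hIq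
  exact ⟨h1.1, h1.2, card_H_eq_of_hq_eq _ h1 p h2⟩

end Herbrand

end Fermat.Agent.PT.GLOB.FirstIneq16
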