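/-
Program F (S55, Poitou–Tate), chapter GLOB, leaf F2-d (helper16): TRANSLATION between the cyclic
Herbrand pair of the `T`-idele class group (`FirstIneq16`) and the JT-level statements
`Interface23.Hilbert90C` / `Interface23.NormIndexC`, and the final assembly
"first inequality + second inequality ⇒ Hilbert90C ∧ NormIndexC".

For `L/K` Galois of prime degree `p` with generator `s`, `pairCT T K L p hdeg s` is the cyclic pair
`cyc (smulEnd (CT T L) s) p _` on `Additive (CT T L)`:
* `normCT T K L : CT T L →* CT T L` (`c ↦ ∏_τ τ • c`), `toCT_normJ`, `fixedCT T K L`;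
  `pairCT_g_apply`, `pairCT_f_apply`, `pairCT_f_ker`, `pairCT_g_range`;
* `card_H_eq_relIndex_normCT : #Ĥ⁰ = (normCT).range.relIndex fixedCT`;
* `hilbert90_of_subsingleton` (`Ĥ⁻¹ = 0` ⇒ Hilbert 90 for idele classes of the layer);
* `normIndex_of_card_H` (`#Ĥ⁰ = p` ⇒ the norm-index statement of the layer);
* `card_eq_of_first_second`, `layer_main`;
* `FirstInput p`, `SecondInput p` (the two inputs, all layers) and
  `hilbert90C_normIndexC : Odd p → FirstInput p → SecondInput p → Hilbert90C p ∧ NormIndexC p`.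
-/
import Fermat.Agent.PT.GLOB.FirstIneq16
import Fermat.Agent.PT.GLOB.FixedClass6

set_option autoImplicit false
set_option linter.unusedSectionVars false

namespace Fermat.Agent.PT.GLOB.CycToClasses16

open NumberField IsDedekindDomain Module
open Fermat.Agent.PT.GLOB.Interface23 Fermat.Agent.PT.GLOB.ClassAction23
open Fermat.Agent.PT.GLOB.FirstIneq16 Fermat.Agent.PT.GLOB.FixedClass6
open Fermat.Agent.PT.GLOB.HerbrandGroup24
open Fermat.Agent.PT.FG.HerbrandQuot18 Fermat.Agent.CFT.Herbrand

section Generalities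

/-- In a finite cyclic group generated by `s`, a product over the group is a product over the
powers of `s`. -/
theorem prod_univ_eq_prod_range {G M : Type*} [Group G] [Fintype G] [CommMonoid M] (s : G)
    (hs : ∀ τ : G, τ ∈ Subgroup.zpowers s) (f : G → M) :
    ∏ τ : G, f τ = ∏ i ∈ Finset.range (Nat.card G), f (s ^ i) := by
  classical
  rw [← IsCyclic.image_range_card hs, Finset.prod_image]
  intro i hi j hj hij
  rw [← orderOf_eq_card_of_forall_mem_zpowers hs] at hi hj
  exact pow_injOn_Iio_orderOf (Finset.mem_range.mp hi) (Finset.mem_range.mp hj) hij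

variable {G : Type*} (M : Type*) [Monoid G] [CommGroup M] [MulDistribMulAction G M]

theorem smulEnd_pow_apply (g : G) (i : ℕ) (x : M) :
    (smulEnd M g ^ i) (Additive.ofMul x) = Additive.ofMul (g ^ i • x) := by
  induction i generalizing x with
  | zero => simp
  | succ i ih =>
    rw [pow_succ, Module.End.mul_apply, smulEnd_apply, ih, pow_succ, mul_smul]

theorem cyc_smulEnd_f_apply (g : G) (n : ℕ) (h : smulEnd M g ^ n = 1) (x : M) :
    (cyc (smulEnd M g) n h).f (Additive.ofMul x) = Additive.ofMul (g • x / x) := by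
  rw [cyc_f_apply, smulEnd_apply]
  rfl

theorem cyc_smulEnd_g_apply (g : G) (n : ℕ) (h : smulEnd M g ^ n = 1) (x : M) :
    (cyc (smulEnd M g) n h).g (Additive.ofMul x) =
      Additive.ofMul (∏ i ∈ Finset.range n, g ^ i • x) := by
  rw [cyc_g_apply, ofMul_prod]
  exact Finset.sum_congr rfl fun i _ => smulEnd_pow_apply M g i x

end Generalities

section Layer

variable (T : Finset Nat.Primes)
variable (K L : Type) [Field K] [Field L] [NumberField K] [NumberField L] [Algebra K L]
  [IsGalois K L]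

/-- The norm of a class: `∏_τ τ • c`. -/
noncomputable def normCT : CT T L →* CT T L where
  toFun c := ∏ τ : L ≃ₐ[K] L, τ • c
  map_one' := by simp
  map_mul' c d := by
    simp only [smul_mul']
    rw [Finset.prod_mul_distrib]

theorem normCT_apply (c : CT T L) : normCT T K L c = ∏ τ : L ≃ₐ[K] L, τ • c := rfl

theorem toCT_normJ (j : JT T L) : toCT T L (normJ T K L j) = normCT T K L (toCT T L j) := by
  unfold normJ
  rw [map_prod, normCT_apply]
  exact Finset.prod_congr rfl fun τ _ => (smul_toCT T τ j).symm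

variable (p : ℕ) (hdeg : finrank K L = p) (s : L ≃ₐ[K] L)
  (hs : ∀ τ : L ≃ₐ[K] L, τ ∈ Subgroup.zpowers s)

include hdeg hs in
theorem normCT_eq_prod_range (c : CT T L) :
    normCT T K L c = ∏ i ∈ Finset.range p, s ^ i • c := by
  have hcard : Nat.card (L ≃ₐ[K] L) = p := by
    rw [IsGalois.card_aut_eq_finrank, hdeg]
  rw [normCT_apply, prod_univ_eq_prod_range s hs, hcard]

include hs in
theorem smul_eq_of_generator {c : CT T L} (hc : s • c = c) (τ : L ≃ₐ[K] L) : τ • c = c := by
  obtain ⟨k, rfl⟩ := Subgroup.mem_zpowers_iff.mp (hs τ)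
  have h1 : ∀ n : ℕ, s ^ n • c = c := by
    intro n
    induction n with
    | zero => simp
    | succ n ih => rw [pow_succ, mul_smul, hc, ih]
  obtain ⟨n, rfl | rfl⟩ := Int.eq_nat_or_neg k
  · rw [zpow_natCast, h1]
  · rw [zpow_neg, zpow_natCast, inv_smul_eq_iff, h1]

/-- The cyclic pair of `CT T L`. -/
noncomputable abbrev pairCT : Pair (Additive (CT T L)) :=
  cyc (smulEnd (CT T L) s) p (smulEnd_CT_pow T K L p hdeg s)

include hs in
theorem pairCT_g_apply (c : CT T L) :
    (pairCT T K L p hdeg s).g (Additive.ofMul c) = Additive.ofMul (normCT T K L c) := by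
  rw [cyc_smulEnd_g_apply, normCT_eq_prod_range T K L p hdeg s hs]

theorem pairCT_f_apply (c : CT T L) :
    (pairCT T K L p hdeg s).f (Additive.ofMul c) = Additive.ofMul (s • c / c) :=
  cyc_smulEnd_f_apply (CT T L) s p _ c

include hs in
/-- **Hilbert 90 for the layer** from `Ĥ⁻¹ = 0`: if `(pairCT).swap.H` is trivial, every `T`-idele
whose norm is principal is `s • y / y` times a principal idele. -/
theorem hilbert90_of_subsingleton [Subsingleton (pairCT T K L p hdeg s).swap.H] (j : JT T L)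
    (hj : normJ T K L j ∈ principalJ T L) :
    ∃ (y : JT T L) (x : Lˣ), j = (s • y / y) * diagJ T L x := by
  set P := pairCT T K L p hdeg s with hP
  have h1 : normCT T K L (toCT T L j) = 1 := by
    rw [← toCT_normJ]
    exact (mem_principalJ_iff T L _).mp hj
  have h2 : P.swap.f (Additive.ofMul (toCT T L j)) = 0 := by
    change P.g (Additive.ofMul (toCT T L j)) = 0
    rw [pairCT_g_apply T K L p hdeg s hs, h1]
    rfl
  have h3 : P.swap.cls ⟨_, h2⟩ = 0 := Subsingleton.elim _ _
  obtain ⟨d, hd⟩ := (P.swap.cls_eq_zero_iff' _).mp h3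
  obtain ⟨d', rfl⟩ := Additive.ofMul.surjective d
  obtain ⟨y, rfl⟩ := toCT_surjective T L d'
  have h4 : toCT T L (s • y / y) = toCT T L j := by
    have : P.f (Additive.ofMul (toCT T L y)) = Additive.ofMul (toCT T L j) := hd
    rw [pairCT_f_apply] at this
    rw [map_div, ← smul_toCT]
    exact Additive.ofMul.injective this
  have h5 := (toCT_eq_iff T L _ _).mp h4.symm
  obtain ⟨x, hx⟩ := h5
  exact ⟨y, x, by rw [hx]; simp⟩

include hs in
/-- **Norm index for the layer** from `#Ĥ⁰ = p`: the JT-level conclusion of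
`Interface23.NormIndexC`. -/
theorem normIndex_of_card_H [hp : Fact p.Prime]
    (hH : Nat.card (pairCT T K L p hdeg s).H = p) :
    ∃ j₀ : JT T L, IsFixedClass T K L j₀ ∧ ¬ IsNormClass T K L j₀ ∧
      ∀ j : JT T L, IsFixedClass T K L j → ∃ k : ℕ, IsNormClass T K L (j / j₀ ^ k) := by
  set P := pairCT T K L p hdeg s with hP
  have hfin : Finite P.H := Nat.finite_of_card_ne_zero (hH ▸ hp.out.ne_zero)
  have hnt : Nontrivial P.H := Finite.one_lt_card_iff_nontrivial.mp (hH ▸ hp.out.one_lt)
  obtain ⟨a, ha⟩ := exists_ne (0 : P.H)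
  obtain ⟨x, rfl⟩ := P.cls_surjective a
  obtain ⟨c₀, hc₀⟩ := Additive.ofMul.surjective (x : Additive (CT T L))
  obtain ⟨j₀, rfl⟩ := toCT_surjective T L c₀
  have hfix₀ : s • toCT T L j₀ = toCT T L j₀ := by
    have h1 : P.f (x : Additive (CT T L)) = 0 := x.2
    rw [← hc₀, pairCT_f_apply] at h1
    exact div_eq_one.mp (Additive.ofMul.injective h1)
  refine ⟨j₀, ?_, ?_, ?_⟩
  · rw [isFixedClass_iff_toCT]
    exact smul_eq_of_generator T K L s hs hfix₀
  · rintro ⟨y, u, hyu⟩
    apply ha
    rw [P.cls_eq_zero_iff']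
    refine ⟨Additive.ofMul (toCT T L y), ?_⟩
    rw [pairCT_g_apply T K L p hdeg s hs, ← toCT_normJ, ← hc₀]
    congr 1
    rw [hyu, map_mul, (FixedClass6.toCT_eq_one_iff T L _).mpr ⟨u, rfl⟩, mul_one]
  · intro j hj
    have hfix : s • toCT T L j = toCT T L j := (isFixedClass_iff_toCT T K L j).mp hj s
    have hmem : Additive.ofMul (toCT T L j) ∈ P.f.ker := by
      rw [AddMonoidHom.mem_ker, pairCT_f_apply, hfix, div_self']
      rfl
    have hmul := mem_multiples_of_prime_card hH ha (g' := P.cls ⟨_, hmem⟩)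
    obtain ⟨k, hk⟩ := (AddSubmonoid.mem_multiples_iff _ _).mp hmul
    refine ⟨k, ?_⟩
    have h0 : P.cls (⟨_, hmem⟩ - k • x) = 0 := by
      rw [map_sub, map_nsmul, hk, sub_self]
    obtain ⟨d, hd⟩ := (P.cls_eq_zero_iff' _).mp h0
    obtain ⟨d', rfl⟩ := Additive.ofMul.surjective d
    obtain ⟨y, rfl⟩ := toCT_surjective T L d'
    have h1 : toCT T L (normJ T K L y) = toCT T L (j / j₀ ^ k) := by
      rw [pairCT_g_apply T K L p hdeg s hs, ← toCT_normJ] at hd
      have h2 : ((⟨_, hmem⟩ - k • x : P.f.ker) : Additive (CT T L)) =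
          Additive.ofMul (toCT T L j / toCT T L j₀ ^ k) := by
        rw [AddSubgroup.coe_sub, AddSubgroup.coe_nsmul, ← hc₀]
        rfl
      rw [h2] at hd
      rw [map_div, map_pow]
      exact Additive.ofMul.injective hd
    obtain ⟨u, hu⟩ := (toCT_eq_iff T L _ _).mp h1.symm
    exact ⟨y, u, by rw [hu]; simp⟩

/-- The subgroup of Galois-invariant classes. -/
def fixedCT : Subgroup (CT T L) where
  carrier := {c | ∀ σ : L ≃ₐ[K] L, σ • c = c}
  one_mem' := fun σ => smul_one σ
  mul_mem' := by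
    intro a b ha hb σ
    rw [smul_mul', ha σ, hb σ]
  inv_mem' := by
    intro a ha σ
    rw [smul_inv', ha σ]

theorem mem_fixedCT (c : CT T L) : c ∈ fixedCT T K L ↔ ∀ σ : L ≃ₐ[K] L, σ • c = c := Iff.rfl

include hs in
theorem pairCT_f_ker :
    (pairCT T K L p hdeg s).f.ker = Subgroup.toAddSubgroup (fixedCT T K L) := by
  ext x
  obtain ⟨c, rfl⟩ := Additive.ofMul.surjective x
  rw [AddMonoidHom.mem_ker, pairCT_f_apply]
  change Additive.ofMul (s • c / c) = 0 ↔ c ∈ fixedCT T K L
  rw [mem_fixedCT]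
  constructor
  · intro h
    exact smul_eq_of_generator T K L s hs (div_eq_one.mp (Additive.ofMul.injective h))
  · intro h
    rw [h s, div_self']
    rfl

include hs in
theorem pairCT_g_range :
    (pairCT T K L p hdeg s).g.range = Subgroup.toAddSubgroup (normCT T K L).range := by
  ext x
  obtain ⟨c, rfl⟩ := Additive.ofMul.surjective x
  constructor
  · rintro ⟨d, hd⟩
    obtain ⟨d', rfl⟩ := Additive.ofMul.surjective d
    rw [pairCT_g_apply T K L p hdeg s hs] at hd
    exact ⟨d', Additive.ofMul.injective hd⟩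
  · rintro ⟨d, hd⟩
    refine ⟨Additive.ofMul d, ?_⟩
    rw [pairCT_g_apply T K L p hdeg s hs]
    exact congrArg Additive.ofMul hd

include hs in
/-- `#Ĥ⁰(G, CT)` is the relative index of the norm classes in the invariant classes. -/
theorem card_H_eq_relIndex_normCT :
    Nat.card (pairCT T K L p hdeg s).H = (normCT T K L).range.relIndex (fixedCT T K L) := by
  rw [card_H_eq_relIndex, pairCT_f_ker T K L p hdeg s hs, pairCT_g_range T K L p hdeg s hs,
    Subgroup.relIndex_toAddSubgroup]

/-- First inequality (`#Ĥ⁰ = p * #Ĥ⁻¹`, both finite) and second inequality (`#Ĥ⁰ ≤ p`) give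
`#Ĥ⁰ = p` and `#Ĥ⁻¹ = 1`. -/
theorem card_eq_of_first_second {A : Type*} [AddCommGroup A] (P : Pair A) (hp0 : 0 < p)
    [Finite P.swap.H] (h1 : Nat.card P.H = p * Nat.card P.swap.H) (h2 : Nat.card P.H ≤ p) :
    Nat.card P.H = p ∧ Nat.card P.swap.H = 1 := by
  have h3 : 0 < Nat.card P.swap.H := Nat.card_pos
  have h4 : Nat.card P.swap.H ≤ 1 := by
    by_contra hcon
    push Not at hcon
    have : p * 2 ≤ p * Nat.card P.swap.H := Nat.mul_le_mul_left p hcon
    omega
  have h5 : Nat.card P.swap.H = 1 := le_antisymm h4 h3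
  exact ⟨by rw [h1, h5, mul_one], h5⟩

include hdeg hs in
/-- **The layer theorem.**  For `L/K` cyclic of odd prime degree `p` with generator `s`: the Herbrand
input on `IT T L` (first inequality) and the bound `[fixed classes : norm classes] ≤ p` (second
inequality) give Hilbert 90 for idele classes and the norm index statement, in the JT-level wording
of `Interface23.Hilbert90C` / `Interface23.NormIndexC`. -/
theorem layer_main (hT : T.Nonempty) [hp : Fact p.Prime] (hodd : Odd p)
    (σI : Module.End ℤ (Additive (IT T L)))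
    (hσI : ∀ x : IT T L, σI (Additive.ofMul x) = Additive.ofMul (s • x))
    (hIp : σI ^ p = 1) (hI : IsFin (cyc σI p hIp))
    (hIq : hq (cyc σI p hIp) =
      (p : ℚ) ^ (SplitCount17.nonsplitPart K L (UnitsBridge24.primesOverT T K)).card)
    (h2 : (normCT T K L).range.relIndex (fixedCT T K L) ≤ p) :
    (∀ j : JT T L, normJ T K L j ∈ principalJ T L →
      ∃ (y : JT T L) (x : Lˣ), j = (s • y / y) * diagJ T L x) ∧
    (∃ j₀ : JT T L, IsFixedClass T K L j₀ ∧ ¬ IsNormClass T K L j₀ ∧
      ∀ j : JT T L, IsFixedClass T K L j → ∃ k : ℕ, IsNormClass T K L (j / j₀ ^ k)) := by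
  obtain ⟨hf0, hf1, hcard⟩ := card_H_CT T K L hT p hodd hdeg s hs σI hσI hIp hI hIq
  have h2' : Nat.card (pairCT T K L p hdeg s).H ≤ p := by
    rw [card_H_eq_relIndex_normCT T K L p hdeg s hs]
    exact h2
  obtain ⟨hA, hB⟩ := card_eq_of_first_second p (pairCT T K L p hdeg s) hp.out.pos hcard h2'
  have hsub : Subsingleton (pairCT T K L p hdeg s).swap.H :=
    (Nat.card_eq_one_iff_unique.mp hB).1
  exact ⟨fun j hj => hilbert90_of_subsingleton T K L p hdeg s hs j hj,
    normIndex_of_card_H T K L p hdeg s hs hA⟩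

end Layer

section Final

/-- The first-inequality input for all layers: the Herbrand quotient of `IT T L` is
`p ^ #(non-split primes of K above T)`. -/
def FirstInput (p : ℕ) : Prop :=
  ∀ (T : Finset Nat.Primes) (K L : Type) [Field K] [Field L] [NumberField K] [NumberField L]
    [Algebra K L] [IsGalois K L], p.Prime → (∃ q ∈ T, (q : ℕ) = p) → finrank K L = p →
    IsUnramifiedOutside T K L → ∀ s : L ≃ₐ[K] L, (∀ τ : L ≃ₐ[K] L, τ ∈ Subgroup.zpowers s) →
      ∃ (σI : Module.End ℤ (Additive (IT T L))) (hIp : σI ^ p = 1),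
        (∀ x : IT T L, σI (Additive.ofMul x) = Additive.ofMul (s • x)) ∧ IsFin (cyc σI p hIp) ∧
        hq (cyc σI p hIp) =
          (p : ℚ) ^ (SplitCount17.nonsplitPart K L (UnitsBridge24.primesOverT T K)).card

/-- The second inequality for all layers: `[fixed classes : norm classes] ≤ p`. -/
def SecondInput (p : ℕ) : Prop :=
  ∀ (T : Finset Nat.Primes) (K L : Type) [Field K] [Field L] [NumberField K] [NumberField L]
    [Algebra K L] [IsGalois K L], p.Prime → (∃ q ∈ T, (q : ℕ) = p) → finrank K L = p →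
    IsUnramifiedOutside T K L → (normCT T K L).range.relIndex (fixedCT T K L) ≤ p

/-- **Assembly**: first and second inequality give `Hilbert90C p` and `NormIndexC p`. -/
theorem hilbert90C_normIndexC (p : ℕ) (hodd : Odd p) (h1 : FirstInput p) (h2 : SecondInput p) :
    Hilbert90C p ∧ NormIndexC p := by
  constructor
  · intro T K L _ _ _ _ _ _ hp hpT hdeg hunr σ hσ j hj
    have : Fact p.Prime := ⟨hp⟩
    have hcard : Nat.card (L ≃ₐ[K] L) = p := by
      rw [IsGalois.card_aut_eq_finrank, hdeg]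
    have hs : ∀ τ : L ≃ₐ[K] L, τ ∈ Subgroup.zpowers σ := fun τ =>
      mem_zpowers_of_prime_card hcard hσ
    have hT : T.Nonempty := by
      obtain ⟨q, hq, _⟩ := hpT
      exact ⟨q, hq⟩
    obtain ⟨σI, hIp, hσI, hI, hIq⟩ := h1 T K L hp hpT hdeg hunr σ hs
    exact (layer_main T K L p hdeg σ hs hT hodd σI hσI hIp hI hIq
      (h2 T K L hp hpT hdeg hunr)).1 j hj
  · intro T K L _ _ _ _ _ _ hp hpT hdeg hunr
    have : Fact p.Prime := ⟨hp⟩
    have hcard : Nat.card (L ≃ₐ[K] L) = p := by
      rw [IsGalois.card_aut_eq_finrank, hdeg]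
    have hfin : Finite (L ≃ₐ[K] L) := Nat.finite_of_card_ne_zero (hcard ▸ hp.ne_zero)
    have hnt : Nontrivial (L ≃ₐ[K] L) :=
      Finite.one_lt_card_iff_nontrivial.mp (hcard ▸ hp.one_lt)
    obtain ⟨σ, hσ⟩ := exists_ne (1 : L ≃ₐ[K] L)
    have hs : ∀ τ : L ≃ₐ[K] L, τ ∈ Subgroup.zpowers σ := fun τ =>
      mem_zpowers_of_prime_card hcard hσ
    have hT : T.Nonempty := by
      obtain ⟨q, hq, _⟩ := hpT
      exact ⟨q, hq⟩
    obtain ⟨σI, hIp, hσI, hI, hIq⟩ := h1 T K L hp hpT hdeg hunr σ hs
    exact (layer_main T K L p hdeg σ hs hT hodd σI hσI hIp hI hIq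
      (h2 T K L hp hpT hdeg hunr)).2

end Final

end Fermat.Agent.PT.GLOB.CycToClasses16
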