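/-
Program F (S55, Poitou–Tate), chapter GLOB (helper16): place counting for the first inequality.
For `L/K` Galois with the `Interface23` action of `Gal(L/K)` on `HeightOneSpectrum (𝓞 L)`:
* `under_smul`, `exists_smul_eq_of_under_eq` (transitivity on the fibre),
  `forall_smul_eq_iff : (∀ σ, σ • P = P) ↔ (fiber (𝓞 K) (𝓞 L) (P.under (𝓞 K))).card = 1`,
  `smul_eq_of_generator`;
* `card_fixed_primesOverT T s hs :
    ((primesOverT T L).filter fun P => s • P = P).card = (nonsplitPart K L (primesOverT T K)).card`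
  (the exponent of `FirstIneq16.isFin_hq_CT` as a count of `s`-fixed primes of `L` above `T`).
-/
import Fermat.Agent.PT.GLOB.Interface23
import Fermat.Agent.PT.GLOB.UnitsBridge24

set_option autoImplicit false
set_option linter.unusedSectionVars false

namespace Fermat.Agent.PT.GLOB.FixedPrimes16

open NumberField IsDedekindDomain HeightOneSpectrum
open Fermat.Agent.PT.GLOB.Interface23
open Fermat.Agent.PT.GLOB.PrimesAbove24 Fermat.Agent.PT.GLOB.SplitCount17
open Fermat.Agent.PT.GLOB.UnitsBridge24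
open scoped Pointwise

variable (K L : Type*) [Field K] [Field L] [NumberField K] [NumberField L] [Algebra K L]
  [IsGalois K L]

/-- The Galois action preserves the prime below. -/
theorem under_smul (σ : L ≃ₐ[K] L) (P : HeightOneSpectrum (𝓞 L)) :
    (σ • P).under (𝓞 K) = P.under (𝓞 K) := by
  apply HeightOneSpectrum.ext
  simp only [HeightOneSpectrum.under_asIdeal, smul_asIdeal]
  have : P.asIdeal.LiesOver (P.asIdeal.under (𝓞 K)) := ⟨rfl⟩
  have : (σ • P.asIdeal).LiesOver (P.asIdeal.under (𝓞 K)) := inferInstance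
  exact this.over.symm

/-- The Galois group acts transitively on the primes above a given prime. -/
theorem exists_smul_eq_of_under_eq (P Q : HeightOneSpectrum (𝓞 L))
    (h : P.under (𝓞 K) = Q.under (𝓞 K)) : ∃ τ : L ≃ₐ[K] L, Q = τ • P := by
  have hP : P.asIdeal.IsPrime := P.isPrime
  have hQ : Q.asIdeal.IsPrime := Q.isPrime
  have h' : P.asIdeal.under (𝓞 K) = Q.asIdeal.under (𝓞 K) := by
    have := congrArg (fun v : HeightOneSpectrum (𝓞 K) => v.asIdeal) h
    exact this
  obtain ⟨τ, hτ⟩ := Algebra.IsInvariant.exists_smul_of_under_eq (𝓞 K) (𝓞 L) (L ≃ₐ[K] L)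
    P.asIdeal Q.asIdeal h'
  exact ⟨τ, HeightOneSpectrum.ext hτ⟩

/-- A prime of `L` is Galois-invariant iff it is the only prime above its restriction to `K`. -/
theorem forall_smul_eq_iff (P : HeightOneSpectrum (𝓞 L)) :
    (∀ σ : L ≃ₐ[K] L, σ • P = P) ↔ (fiber (𝓞 K) (𝓞 L) (P.under (𝓞 K))).card = 1 := by
  constructor
  · intro h
    rw [Finset.card_eq_one]
    refine ⟨P, ?_⟩
    rw [Finset.eq_singleton_iff_unique_mem]
    refine ⟨mem_fiber.mpr rfl, ?_⟩
    intro w hw
    obtain ⟨τ, rfl⟩ := exists_smul_eq_of_under_eq K L P w (mem_fiber.mp hw).symm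
    exact h τ
  · intro h σ
    obtain ⟨a, ha⟩ := Finset.card_eq_one.mp h
    have h1 : P ∈ fiber (𝓞 K) (𝓞 L) (P.under (𝓞 K)) := mem_fiber.mpr rfl
    have h2 : σ • P ∈ fiber (𝓞 K) (𝓞 L) (P.under (𝓞 K)) := mem_fiber.mpr (under_smul K L σ P)
    rw [ha, Finset.mem_singleton] at h1 h2
    rw [h2, h1]

theorem smul_eq_of_generator (s : L ≃ₐ[K] L) (hs : ∀ τ : L ≃ₐ[K] L, τ ∈ Subgroup.zpowers s)
    {P : HeightOneSpectrum (𝓞 L)} (hP : s • P = P) (τ : L ≃ₐ[K] L) : τ • P = P := by
  obtain ⟨k, rfl⟩ := Subgroup.mem_zpowers_iff.mp (hs τ)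
  have h1 : ∀ n : ℕ, s ^ n • P = P := by
    intro n
    induction n with
    | zero => simp
    | succ n ih => rw [pow_succ, mul_smul, hP, ih]
  obtain ⟨n, rfl | rfl⟩ := Int.eq_nat_or_neg k
  · rw [zpow_natCast, h1]
  · rw [zpow_neg, zpow_natCast, inv_smul_eq_iff, h1]

variable (T : Finset Nat.Primes)

open scoped Classical in
/-- **Place counting for the first inequality**: the primes of `L` above `T` fixed by a generator
`s` of `Gal(L/K)` correspond to the primes of `K` above `T` with a single prime of `L` above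
them. -/
theorem card_fixed_primesOverT (s : L ≃ₐ[K] L)
    (hs : ∀ τ : L ≃ₐ[K] L, τ ∈ Subgroup.zpowers s) :
    ((primesOverT T L).filter fun P => s • P = P).card =
      (nonsplitPart K L (primesOverT T K)).card := by
  apply Finset.card_bij (fun P _ => P.under (𝓞 K))
  · intro P hP
    rw [Finset.mem_filter] at hP
    unfold nonsplitPart
    rw [Finset.mem_filter]
    refine ⟨?_, (forall_smul_eq_iff K L P).mp (smul_eq_of_generator K L s hs hP.2)⟩
    rw [← above_primesOverT T L K] at hP
    exact mem_above.mp hP.1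
  · intro P hP P' hP' h
    rw [Finset.mem_filter] at hP hP'
    obtain ⟨τ, rfl⟩ := exists_smul_eq_of_under_eq K L P P' h
    exact (smul_eq_of_generator K L s hs hP.2 τ).symm
  · intro v hv
    unfold nonsplitPart at hv
    rw [Finset.mem_filter] at hv
    obtain ⟨P, hP⟩ := Finset.card_eq_one.mp hv.2
    have hPv : P.under (𝓞 K) = v := by
      have : P ∈ fiber (𝓞 K) (𝓞 L) v := by rw [hP]; exact Finset.mem_singleton_self P
      exact mem_fiber.mp this
    refine ⟨P, ?_, hPv⟩
    rw [Finset.mem_filter]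
    constructor
    · rw [← above_primesOverT T L K, mem_above, hPv]
      exact hv.1
    · have h1 : (fiber (𝓞 K) (𝓞 L) (P.under (𝓞 K))).card = 1 := by rw [hPv]; exact hv.2
      exact (forall_smul_eq_iff K L P).mpr h1 s

end Fermat.Agent.PT.GLOB.FixedPrimes16
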