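/-
Program F (S55, Poitou–Tate), chapter GLOB (helper16): Herbrand quotients of finite products.

* `piPair P` : the product of a family of Herbrand pairs `P i` on `∀ i, M i`;
  `piHEquiv : (piPair P).H ≃+ ∀ i, (P i).H`, `card_H_piPair`, `isFin_piPair`,
  `hq_piPair : hq (piPair P) = ∏ i, hq (P i)` (finite index type);
* `isFin_hq_smulEnd_pi`: for a family of `MulDistribMulAction G (M i)` and `g ^ n = 1`, the cyclic
  pair `cyc (smulEnd (∀ i, M i) g) n _` is finite if all `cyc (smulEnd (M i) g) n _` are, and its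
  Herbrand quotient is the product;
* `isFin_hq_IT`: `h(IT T L) = ∏_{q ∈ T} h((Loc L q)ˣ)` (reduction of the first-inequality input to
  one rational prime at a time).
Also `smulEnd_pow_ofMul`, `cyc_smulEnd_f_ofMul`, `cyc_smulEnd_g_ofMul` (the two maps of the cyclic
pair of a multiplicative module, in multiplicative terms).
-/
import Fermat.Agent.PT.GLOB.FirstIneq16

set_option autoImplicit false
set_option linter.unusedSectionVars false

namespace Fermat.Agent.PT.GLOB.HerbrandPi16

open Fermat.Agent.PT.GLOB.HerbrandGroup24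
open Fermat.Agent.PT.FG.HerbrandQuot18 Fermat.Agent.CFT.Herbrand
open Fermat.Agent.PT.GLOB.FirstIneq16

section PiPair

variable {ι : Type*} {M : ι → Type*} [∀ i, AddCommGroup (M i)]

/-- The componentwise endomorphism of a product. -/
def piMapHom (f : ∀ i, M i →+ M i) : (∀ i, M i) →+ (∀ i, M i) where
  toFun x i := f i (x i)
  map_zero' := by
    funext i
    exact map_zero (f i)
  map_add' x y := by
    funext i
    exact map_add (f i) (x i) (y i)

@[simp] theorem piMapHom_apply (f : ∀ i, M i →+ M i) (x : ∀ i, M i) (i : ι) :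
    piMapHom f x i = f i (x i) := rfl

/-- The product of a family of Herbrand pairs. -/
def piPair (P : ∀ i, Pair (M i)) : Pair (∀ i, M i) where
  f := piMapHom fun i => (P i).f
  g := piMapHom fun i => (P i).g
  fg := fun a => by
    funext i
    exact (P i).fg (a i)
  gf := fun a => by
    funext i
    exact (P i).gf (a i)

theorem piPair_swap (P : ∀ i, Pair (M i)) : (piPair P).swap = piPair fun i => (P i).swap := rfl

/-- The componentwise class map `ker f → ∏ H(P i)`. -/
def piCls (P : ∀ i, Pair (M i)) : (piPair P).f.ker →+ ∀ i, (P i).H where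
  toFun x i := (P i).cls ⟨(x : ∀ i, M i) i, congrFun x.2 i⟩
  map_zero' := by
    funext i
    exact map_zero (P i).cls
  map_add' x y := by
    funext i
    exact map_add (P i).cls ⟨(x : ∀ i, M i) i, congrFun x.2 i⟩ ⟨(y : ∀ i, M i) i, congrFun y.2 i⟩

theorem piCls_surjective (P : ∀ i, Pair (M i)) : Function.Surjective (piCls P) := by
  intro y
  choose x hx using fun i => (P i).cls_surjective (y i)
  refine ⟨⟨fun i => (x i : M i), ?_⟩, ?_⟩
  · funext i
    exact (x i).2
  · funext i
    exact hx i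

theorem piCls_ker (P : ∀ i, Pair (M i)) : (piCls P).ker = (piPair P).bdry := by
  ext x
  rw [AddMonoidHom.mem_ker, Pair.mem_bdry_iff]
  constructor
  · intro h
    have h1 : ∀ i, ∃ a, (P i).g a = (x : ∀ i, M i) i := fun i =>
      ((P i).cls_eq_zero_iff' _).mp (congrFun h i)
    choose a ha using h1
    exact ⟨a, funext ha⟩
  · rintro ⟨a, ha⟩
    funext i
    exact ((P i).cls_eq_zero_iff' _).mpr ⟨a i, congrFun ha i⟩

/-- `H(∏ P i) ≃ ∏ H(P i)`. -/
noncomputable def piHEquiv (P : ∀ i, Pair (M i)) : (piPair P).H ≃+ ∀ i, (P i).H :=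
  (QuotientAddGroup.quotientAddEquivOfEq (piCls_ker P).symm).trans
    (QuotientAddGroup.quotientKerEquivOfSurjective (piCls P) (piCls_surjective P))

variable [Fintype ι]

theorem card_H_piPair (P : ∀ i, Pair (M i)) :
    Nat.card (piPair P).H = ∏ i, Nat.card (P i).H := by
  rw [Nat.card_congr (piHEquiv P).toEquiv, Nat.card_pi]

theorem isFin_piPair (P : ∀ i, Pair (M i)) (h : ∀ i, IsFin (P i)) : IsFin (piPair P) := by
  constructor
  · have : ∀ i, Finite (P i).H := fun i => (h i).1
    exact Finite.of_equiv _ (piHEquiv P).toEquiv.symm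
  · have : ∀ i, Finite (P i).swap.H := fun i => (h i).2
    rw [piPair_swap]
    exact Finite.of_equiv _ (piHEquiv fun i => (P i).swap).toEquiv.symm

theorem hq_piPair (P : ∀ i, Pair (M i)) : hq (piPair P) = ∏ i, hq (P i) := by
  unfold hq
  rw [card_H_piPair, piPair_swap, card_H_piPair, Finset.prod_div_distrib]
  push_cast
  rfl

end PiPair

section Smul

variable {G : Type*} [Monoid G]

theorem smulEnd_pow_ofMul (M : Type*) [CommGroup M] [MulDistribMulAction G M] (g : G) (k : ℕ)
    (x : M) : (smulEnd M g ^ k) (Additive.ofMul x) = Additive.ofMul (g ^ k • x) := by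
  induction k generalizing x with
  | zero => simp
  | succ k ih =>
    rw [pow_succ, Module.End.mul_apply, smulEnd_apply, ih, pow_succ, mul_smul]

theorem cyc_smulEnd_f_ofMul (M : Type*) [CommGroup M] [MulDistribMulAction G M] (g : G) (n : ℕ)
    (h : smulEnd M g ^ n = 1) (x : M) :
    (cyc (smulEnd M g) n h).f (Additive.ofMul x) = Additive.ofMul (g • x / x) := by
  rw [cyc_f_apply, smulEnd_apply]
  rfl

theorem cyc_smulEnd_g_ofMul (M : Type*) [CommGroup M] [MulDistribMulAction G M] (g : G) (n : ℕ)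
    (h : smulEnd M g ^ n = 1) (x : M) :
    (cyc (smulEnd M g) n h).g (Additive.ofMul x) =
      Additive.ofMul (∏ k ∈ Finset.range n, g ^ k • x) := by
  rw [cyc_g_apply, ofMul_prod]
  exact Finset.sum_congr rfl fun k _ => smulEnd_pow_ofMul M g k x

variable {ι : Type*} (M : ι → Type*) [∀ i, CommGroup (M i)] [∀ i, MulDistribMulAction G (M i)]

/-- `Additive (∏ M i) → ∏ Additive (M i)`. -/
def addPi : Additive (∀ i, M i) →+ ∀ i, Additive (M i) where
  toFun x i := Additive.ofMul (Additive.toMul x i)
  map_zero' := rfl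
  map_add' _ _ := rfl

theorem addPi_ofMul (x : ∀ i, M i) (i : ι) : addPi M (Additive.ofMul x) i = Additive.ofMul (x i) :=
  rfl

theorem addPi_bijective : Function.Bijective (addPi M) :=
  ⟨fun _ _ h => h, fun y => ⟨Additive.ofMul fun i => Additive.toMul (y i), rfl⟩⟩

/-- The comparison morphism between the cyclic pair of a product and the product of the cyclic
pairs. -/
noncomputable def cycPiHom (g : G) (n : ℕ) (hg : g ^ n = 1) :
    Hom (cyc (smulEnd (∀ i, M i) g) n (smulEnd_pow_eq_one _ g n hg))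
      (piPair fun i => cyc (smulEnd (M i) g) n (smulEnd_pow_eq_one (M i) g n hg)) where
  φ := addPi M
  comm_f := fun a => by
    obtain ⟨x, rfl⟩ := Additive.ofMul.surjective a
    funext i
    rw [cyc_smulEnd_f_ofMul]
    change Additive.ofMul ((g • x / x) i) =
      (cyc (smulEnd (M i) g) n (smulEnd_pow_eq_one (M i) g n hg)).f (Additive.ofMul (x i))
    rw [cyc_smulEnd_f_ofMul]
    rfl
  comm_g := fun a => by
    obtain ⟨x, rfl⟩ := Additive.ofMul.surjective a
    funext i
    rw [cyc_smulEnd_g_ofMul]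
    change Additive.ofMul ((∏ k ∈ Finset.range n, g ^ k • x) i) =
      (cyc (smulEnd (M i) g) n (smulEnd_pow_eq_one (M i) g n hg)).g (Additive.ofMul (x i))
    rw [cyc_smulEnd_g_ofMul, Finset.prod_apply]
    rfl

variable [Fintype ι]

/-- **Herbrand quotient of a finite product**: the cyclic pair of `∏ M i` is finite as soon as
all the cyclic pairs of the `M i` are, and `h(∏ M i) = ∏ h(M i)`. -/
theorem isFin_hq_smulEnd_pi (g : G) (n : ℕ) (hg : g ^ n = 1)
    (h : ∀ i, IsFin (cyc (smulEnd (M i) g) n (smulEnd_pow_eq_one (M i) g n hg))) :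
    IsFin (cyc (smulEnd (∀ i, M i) g) n (smulEnd_pow_eq_one _ g n hg)) ∧
      hq (cyc (smulEnd (∀ i, M i) g) n (smulEnd_pow_eq_one _ g n hg)) =
        ∏ i, hq (cyc (smulEnd (M i) g) n (smulEnd_pow_eq_one (M i) g n hg)) := by
  have hb := addPi_bijective M
  refine ⟨(isFin_iff_of_bijective (cycPiHom M g n hg) hb).mpr (isFin_piPair _ h), ?_⟩
  rw [hq_eq_of_bijective (cycPiHom M g n hg) hb, hq_piPair]

end Smul

section IT

open Fermat.Agent.PT.GLOB.Interface23

variable (T : Finset Nat.Primes)
variable (K L : Type*) [Field K] [Field L] [NumberField K] [NumberField L] [Algebra K L]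

/-- **The Herbrand quotient of `IT T L` is the product of the semilocal Herbrand quotients.** -/
theorem isFin_hq_IT (s : L ≃ₐ[K] L) (n : ℕ) (hs : s ^ n = 1)
    (h : ∀ q : T, IsFin (cyc (smulEnd (Loc L q.1)ˣ s) n
      (smulEnd_pow_eq_one (Loc L q.1)ˣ s n hs))) :
    IsFin (cyc (smulEnd (IT T L) s) n (smulEnd_pow_eq_one (IT T L) s n hs)) ∧
      hq (cyc (smulEnd (IT T L) s) n (smulEnd_pow_eq_one (IT T L) s n hs)) =
        ∏ q : T, hq (cyc (smulEnd (Loc L q.1)ˣ s) n (smulEnd_pow_eq_one (Loc L q.1)ˣ s n hs)) :=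
  isFin_hq_smulEnd_pi (fun q : T => (Loc L q.1)ˣ) s n hs h

end IT

end Fermat.Agent.PT.GLOB.HerbrandPi16
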