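/-
Program F (S55), chapter GLOB (helper24): Herbrand quotients and families of orthogonal idempotents.

`M` an abelian group, `σ : Module.End ℤ M` with `σ ^ p = 1` (`p` prime), `π : ι → Module.End ℤ M` a
family of orthogonal idempotents permuted by `σ` (`σ * π i = π (ρ i) * σ`, `ρ ^ p = 1`).
* `restr σ π h`, `rangePair σ π h n hσ`: the cyclic Herbrand pair (`HerbrandQuot18.cyc`) on `range π`
  for `π` commuting with `σ`; `HasHq σ n hσ π c`: it is finite with Herbrand quotient `c`;
* `HasHq.add` (orthogonal idempotents: Herbrand quotients multiply), `HasHq.zero`, `HasHq.one`;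
* `hasHq_orb_of_ne`: a free orbit of idempotents gives an induced module: Herbrand quotient `1`;
* `hasHq_piS`, `isFin_hq_of_family`: if `∑ i, π i = 1` then
  `hq (cyc σ p) = ∏ over the fixed i of hq (range (π i))`.
Used for the semilocal algebras `L ⊗ ℚ_q` (maximal ideals permuted by a cyclic Galois group) and for
finite products of modules.
-/
import Mathlib
import Fermat.Agent.PT.FG.HerbrandQuot18

set_option autoImplicit false
set_option linter.unusedSectionVars false
set_option linter.style.haveILetI false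

namespace Fermat.Agent.PT.GLOB.IdemHerbrand24

open Fermat.Agent.CFT.Herbrand Fermat.Agent.PT.FG.HerbrandQuot18

universe u

variable {M : Type u} [AddCommGroup M]

/-! ### Restriction of `σ` to the range of a commuting endomorphism -/

section Restrict

variable (σ π : Module.End ℤ M)

theorem map_mem_range (h : Commute σ π) : ∀ x ∈ LinearMap.range π, σ x ∈ LinearMap.range π := by
  rintro _ ⟨y, rfl⟩
  refine ⟨σ y, ?_⟩
  rw [← Module.End.mul_apply, ← h.eq, Module.End.mul_apply]

/-- The restriction of `σ` to the range of an endomorphism commuting with it. -/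
def restr (h : Commute σ π) : Module.End ℤ (LinearMap.range π) :=
  σ.restrict (map_mem_range σ π h)

theorem coe_restr_apply (h : Commute σ π) (x : LinearMap.range π) :
    ((restr σ π h x : LinearMap.range π) : M) = σ (x : M) := rfl

theorem coe_restr_pow_apply (h : Commute σ π) (n : ℕ) (x : LinearMap.range π) :
    (((restr σ π h ^ n) x : LinearMap.range π) : M) = (σ ^ n) (x : M) := by
  induction n generalizing x with
  | zero => rfl
  | succ n ih =>
    rw [pow_succ, pow_succ, Module.End.mul_apply, Module.End.mul_apply, ih, coe_restr_apply]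

theorem restr_pow_eq_one (h : Commute σ π) (n : ℕ) (hσ : σ ^ n = 1) : restr σ π h ^ n = 1 := by
  apply LinearMap.ext
  intro x
  apply Subtype.ext
  rw [coe_restr_pow_apply, hσ]
  rfl

/-- The cyclic Herbrand pair on the range of `π`. -/
noncomputable def rangePair (h : Commute σ π) (n : ℕ) (hσ : σ ^ n = 1) :
    Pair (LinearMap.range π) :=
  cyc (restr σ π h) n (restr_pow_eq_one σ π h n hσ)

variable {π} in
theorem mem_range_iff_of_idem (hi : π * π = π) (x : M) : x ∈ LinearMap.range π ↔ π x = x := by
  constructor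
  · rintro ⟨y, rfl⟩
    rw [← Module.End.mul_apply, hi]
  · intro h
    exact ⟨x, h⟩

end Restrict

/-! ### Additivity for orthogonal idempotents -/

section Add

variable (σ : Module.End ℤ M) (n : ℕ) (hσ : σ ^ n = 1) (π₁ π₂ : Module.End ℤ M)
  (h₁ : Commute σ π₁) (h₂ : Commute σ π₂)
  (i₁ : π₁ * π₁ = π₁) (i₂ : π₂ * π₂ = π₂) (o₁₂ : π₁ * π₂ = 0) (o₂₁ : π₂ * π₁ = 0)

include i₁ i₂ o₁₂ o₂₁ in
theorem add_idem : (π₁ + π₂) * (π₁ + π₂) = π₁ + π₂ := by
  rw [mul_add, add_mul, add_mul, i₁, i₂, o₁₂, o₂₁, add_zero, zero_add]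

include i₁ i₂ o₁₂ o₂₁ in
/-- The short exact sequence `range π₁ → range (π₁ + π₂) → range π₂` of cyclic pairs. -/
noncomputable def addShortExact :
    ShortExact (rangePair σ π₁ h₁ n hσ) (rangePair σ (π₁ + π₂) (h₁.add_right h₂) n hσ)
      (rangePair σ π₂ h₂ n hσ) := by
  have hi := add_idem π₁ π₂ i₁ i₂ o₁₂ o₂₁
  refine cycShortExact _ _ _
    { toFun := fun x => ⟨(x : M), ?_⟩
      map_zero' := rfl
      map_add' := fun _ _ => rfl }
    { toFun := fun x => ⟨π₂ (x : M), ⟨_, rfl⟩⟩
      map_zero' := by
        apply Subtype.ext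
        simp
      map_add' := fun x y => by
        apply Subtype.ext
        simp }
    ?_ ?_ ?_ ?_ ?_
  · rw [mem_range_iff_of_idem hi]
    have hx := (mem_range_iff_of_idem i₁ (x : M)).mp x.2
    rw [LinearMap.add_apply, hx, ← hx, ← Module.End.mul_apply, o₂₁]
    simp
  · intro x
    rfl
  · intro x
    apply Subtype.ext
    change π₂ (σ (x : M)) = σ (π₂ (x : M))
    rw [← Module.End.mul_apply, ← h₂.eq, Module.End.mul_apply]
  · intro x y hxy
    have hxy' : (x : M) = (y : M) := congrArg (fun z : LinearMap.range (π₁ + π₂) => (z : M)) hxy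
    exact Subtype.ext hxy'
  · intro z
    have hz := (mem_range_iff_of_idem i₂ (z : M)).mp z.2
    refine ⟨⟨(z : M), ?_⟩, Subtype.ext hz⟩
    rw [mem_range_iff_of_idem hi, LinearMap.add_apply, hz, ← hz, ← Module.End.mul_apply, o₁₂]
    simp
  · intro b
    constructor
    · intro hb
      have hb' : π₂ (b : M) = 0 := congrArg Subtype.val hb
      have hb2 := (mem_range_iff_of_idem hi (b : M)).mp b.2
      rw [LinearMap.add_apply, hb', add_zero] at hb2
      exact ⟨⟨(b : M), ⟨_, hb2⟩⟩, Subtype.ext rfl⟩
    · rintro ⟨a, rfl⟩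
      apply Subtype.ext
      change π₂ (a : M) = 0
      have ha := (mem_range_iff_of_idem i₁ (a : M)).mp a.2
      rw [← ha, ← Module.End.mul_apply, o₂₁]
      rfl

include i₁ i₂ o₁₂ o₂₁ in
theorem isFin_hq_add (F₁ : IsFin (rangePair σ π₁ h₁ n hσ)) (F₂ : IsFin (rangePair σ π₂ h₂ n hσ)) :
    IsFin (rangePair σ (π₁ + π₂) (h₁.add_right h₂) n hσ) ∧
      hq (rangePair σ (π₁ + π₂) (h₁.add_right h₂) n hσ) =
        hq (rangePair σ π₁ h₁ n hσ) * hq (rangePair σ π₂ h₂ n hσ) :=
  ⟨Fermat.Agent.PT.FG.HerbrandQuot18.ShortExact.isFin_mid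
      (addShortExact σ n hσ π₁ π₂ h₁ h₂ i₁ i₂ o₁₂ o₂₁) F₁ F₂,
    Fermat.Agent.PT.FG.HerbrandQuot18.ShortExact.hq_mul
      (addShortExact σ n hσ π₁ π₂ h₁ h₂ i₁ i₂ o₁₂ o₂₁) F₁ F₂⟩

end Add

/-! ### The predicate `HasHq` -/

section HasHq

variable (σ : Module.End ℤ M) (n : ℕ) (hσ : σ ^ n = 1)

/-- `π` commutes with `σ`, and the cyclic pair on `range π` is finite with Herbrand quotient
`c`. -/
def HasHq (π : Module.End ℤ M) (c : ℚ) : Prop :=
  ∃ h : Commute σ π, IsFin (rangePair σ π h n hσ) ∧ hq (rangePair σ π h n hσ) = c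

theorem HasHq.add {π₁ π₂ : Module.End ℤ M} {c₁ c₂ : ℚ} (H₁ : HasHq σ n hσ π₁ c₁)
    (H₂ : HasHq σ n hσ π₂ c₂) (i₁ : π₁ * π₁ = π₁) (i₂ : π₂ * π₂ = π₂) (o₁₂ : π₁ * π₂ = 0)
    (o₂₁ : π₂ * π₁ = 0) : HasHq σ n hσ (π₁ + π₂) (c₁ * c₂) := by
  obtain ⟨h₁, F₁, e₁⟩ := H₁
  obtain ⟨h₂, F₂, e₂⟩ := H₂
  obtain ⟨F, e⟩ := isFin_hq_add σ n hσ π₁ π₂ h₁ h₂ i₁ i₂ o₁₂ o₂₁ F₁ F₂
  exact ⟨h₁.add_right h₂, F, by rw [e, e₁, e₂]⟩

theorem HasHq.zero : HasHq σ n hσ 0 1 := by
  refine ⟨Commute.zero_right σ, ?_⟩
  haveI : Subsingleton (LinearMap.range (0 : Module.End ℤ M)) := by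
    constructor
    rintro ⟨x, y, rfl⟩ ⟨x', y', rfl⟩
    rfl
  haveI : Finite (LinearMap.range (0 : Module.End ℤ M)) := Finite.of_subsingleton
  exact ⟨isFin_of_finite _, hq_eq_one_of_finite _⟩

/-- Transfer to the whole module: `HasHq 1 c` is a statement about `cyc σ n`. -/
theorem HasHq.one {c : ℚ} (H : HasHq σ n hσ 1 c) : IsFin (cyc σ n hσ) ∧ hq (cyc σ n hσ) = c := by
  obtain ⟨h, F, e⟩ := H
  let φ : Hom (rangePair σ 1 h n hσ) (cyc σ n hσ) :=
    cycHom _ _ (LinearMap.range (1 : Module.End ℤ M)).subtype.toAddMonoidHom (fun x => rfl)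
  have hb : Function.Bijective φ.φ := by
    constructor
    · intro x y hxy
      exact Subtype.ext hxy
    · intro y
      exact ⟨⟨y, ⟨y, rfl⟩⟩, rfl⟩
  exact ⟨(isFin_iff_of_bijective φ hb).mp F, by rw [← hq_eq_of_bijective φ hb, e]⟩

end HasHq

/-! ### A complete family of orthogonal idempotents permuted by `σ` -/

section Family

variable {ι : Type*} [DecidableEq ι]
  (σ : Module.End ℤ M) (p : ℕ) [hp : Fact p.Prime] (hσ : σ ^ p = 1)
  (π : ι → Module.End ℤ M) (ρ : Equiv.Perm ι)
  (hidem : ∀ i, π i * π i = π i) (horth : ∀ i j, i ≠ j → π i * π j = 0)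
  (hρ : ∀ i, σ * π i = π (ρ i) * σ) (hρp : ρ ^ p = 1)

/-- The sum of the idempotents over a finite set. -/
def piS (S : Finset ι) : Module.End ℤ M := ∑ i ∈ S, π i

include horth in
theorem piS_mul_of_disjoint (S₁ S₂ : Finset ι) (h : Disjoint S₁ S₂) :
    piS π S₁ * piS π S₂ = 0 := by
  unfold piS
  rw [Finset.sum_mul_sum]
  apply Finset.sum_eq_zero
  intro i hi
  apply Finset.sum_eq_zero
  intro j hj
  exact horth i j (fun hij => Finset.disjoint_left.mp h hi (hij ▸ hj))

include hidem horth in
theorem piS_idem (S : Finset ι) : piS π S * piS π S = piS π S := by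
  unfold piS
  rw [Finset.sum_mul_sum]
  apply Finset.sum_congr rfl
  intro i hi
  rw [Finset.sum_eq_single i]
  · exact hidem i
  · intro j _ hji
    exact horth i j (Ne.symm hji)
  · intro h
    exact absurd hi h

theorem piS_union (S₁ S₂ : Finset ι) (h : Disjoint S₁ S₂) :
    piS π (S₁ ∪ S₂) = piS π S₁ + piS π S₂ := by
  unfold piS
  exact Finset.sum_union h

include hρ in
theorem pow_mul_pi (k : ℕ) (i : ι) : σ ^ k * π i = π ((ρ ^ k) i) * σ ^ k := by
  induction k with
  | zero => simp
  | succ k ih =>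
    rw [pow_succ', mul_assoc, ih, ← mul_assoc, hρ, mul_assoc, pow_succ' ρ]
    rfl

/-- The orbit of `i` under `ρ`. -/
def orb (i : ι) : Finset ι := (Finset.range p).image (fun k => (ρ ^ k) i)

theorem mem_orb_self (i : ι) : i ∈ orb p ρ i := by
  unfold orb
  rw [Finset.mem_image]
  exact ⟨0, Finset.mem_range.mpr hp.out.pos, rfl⟩

include hρp in
theorem orb_stable (i : ι) : ∀ j ∈ orb p ρ i, ρ j ∈ orb p ρ i := by
  intro j hj
  unfold orb at hj ⊢
  rw [Finset.mem_image] at hj ⊢
  obtain ⟨k, hk, rfl⟩ := hj
  rw [Finset.mem_range] at hk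
  by_cases hk' : k + 1 < p
  · refine ⟨k + 1, Finset.mem_range.mpr hk', ?_⟩
    rw [pow_succ']
    rfl
  · have : k + 1 = p := by omega
    refine ⟨0, Finset.mem_range.mpr hp.out.pos, ?_⟩
    have h2 : ρ ((ρ ^ k) i) = (ρ ^ (k + 1)) i := by rw [pow_succ']; rfl
    rw [h2, this, hρp]
    rfl

include hρp in
theorem orb_injOn (i : ι) (hi : ρ i ≠ i) :
    Set.InjOn (fun k => (ρ ^ k) i) (Finset.range p : Set ℕ) := by
  have key : ∀ a b : ℕ, a < b → b < p → (ρ ^ a) i = (ρ ^ b) i → False := by
    intro a b hab hb h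
    have h1 : (ρ ^ (b - a)) i = i := by
      have : (ρ ^ b) i = (ρ ^ a) ((ρ ^ (b - a)) i) := by
        rw [← Equiv.Perm.mul_apply, ← pow_add]
        congr 2
        omega
      rw [this] at h
      exact ((ρ ^ a).injective h).symm
    have h2 : (ρ ^ p) i = i := by rw [hρp]; rfl
    have hcop : Nat.Coprime (b - a) p := by
      rw [Nat.coprime_comm]
      exact (Nat.Prime.coprime_iff_not_dvd hp.out).mpr (Nat.not_dvd_of_pos_of_lt (by omega) (by omega))
    have hper1 : Function.IsPeriodicPt ρ (b - a) i := by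
      rw [Function.IsPeriodicPt, Function.IsFixedPt, ← Equiv.Perm.coe_pow]
      exact h1
    have hper2 : Function.IsPeriodicPt ρ p i := by
      rw [Function.IsPeriodicPt, Function.IsFixedPt, ← Equiv.Perm.coe_pow]
      exact h2
    have hper := hper1.gcd hper2
    rw [hcop] at hper
    exact hi hper.eq
  intro a ha b hb hab
  rw [Finset.coe_range, Set.mem_Iio] at ha hb
  rcases lt_trichotomy a b with h | h | h
  · exact (key a b h hb hab).elim
  · exact h
  · exact (key b a h ha hab.symm).elim

include hρ in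
theorem commute_piS (S : Finset ι) (hS : ∀ i ∈ S, ρ i ∈ S) : Commute σ (piS π S) := by
  have himg : S.image ρ = S := by
    apply Finset.eq_of_subset_of_card_le
    · intro j hj
      obtain ⟨i, hi, rfl⟩ := Finset.mem_image.mp hj
      exact hS i hi
    · rw [Finset.card_image_of_injective _ ρ.injective]
  unfold piS
  rw [Commute, SemiconjBy, Finset.mul_sum, Finset.sum_mul]
  conv_rhs => rw [← himg]
  rw [Finset.sum_image (fun a _ b _ h => ρ.injective h)]
  exact Finset.sum_congr rfl fun i _ => hρ i

include hidem horth hρ hρp in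
/-- A free orbit contributes Herbrand quotient `1` (induced module). -/
theorem hasHq_orb_of_ne (i : ι) (hi : ρ i ≠ i) : HasHq σ p hσ (piS π (orb p ρ i)) 1 := by
  have hcomm : Commute σ (piS π (orb p ρ i)) :=
    commute_piS σ π ρ hρ _ (orb_stable p ρ hρp i)
  refine ⟨hcomm, ?_⟩
  set O := orb p ρ i with hO
  have hOi : piS π O * π i = π i := by
    unfold piS
    rw [Finset.sum_mul, Finset.sum_eq_single i]
    · exact hidem i
    · intro j _ hji
      exact horth j i hji
    · intro h
      exact absurd (mem_orb_self p ρ i) h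
  have hmaps : ∀ x ∈ LinearMap.range (piS π O), π i x ∈ LinearMap.range (piS π O) := by
    intro x _
    refine ⟨π i x, ?_⟩
    rw [← Module.End.mul_apply, hOi]
  set e : Module.End ℤ (LinearMap.range (piS π O)) := (π i).restrict hmaps with he
  have hsumO : ∀ x : M, ∑ k ∈ Finset.range p, π ((ρ ^ k) i) x = piS π O x := by
    intro x
    unfold piS
    rw [hO, orb, Finset.sum_image (orb_injOn p ρ hρp i hi), LinearMap.sum_apply]
  have key : ∑ k ∈ Finset.range p, restr σ (piS π O) hcomm ^ k * e *
      restr σ (piS π O) hcomm ^ (p - k) = 1 := by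
    apply LinearMap.ext
    intro x
    apply Subtype.ext
    rw [LinearMap.sum_apply, Submodule.coe_sum, Module.End.one_apply]
    have hx : piS π O (x : M) = (x : M) :=
      (mem_range_iff_of_idem (piS_idem π hidem horth O) (x : M)).mp x.2
    rw [← hx, ← hsumO]
    apply Finset.sum_congr rfl
    intro k hk
    rw [Finset.mem_range] at hk
    rw [Module.End.mul_apply, Module.End.mul_apply, coe_restr_pow_apply]
    change (σ ^ k) (π i (((restr σ (piS π O) hcomm ^ (p - k)) x : LinearMap.range (piS π O)) : M)) = _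
    rw [coe_restr_pow_apply, ← Module.End.mul_apply (σ ^ k), pow_mul_pi σ π ρ hρ k i,
      Module.End.mul_apply, ← Module.End.mul_apply (σ ^ k), ← pow_add,
      Nat.add_sub_cancel' hk.le, hσ, Module.End.one_apply]
  exact hq_eq_one_of_norm_eq_one (restr_pow_eq_one σ (piS π O) hcomm p hσ) e key

include hidem horth hρ hρp in
/-- **Herbrand quotient for a family of orthogonal idempotents permuted by `σ`**: only the fixed
idempotents contribute. -/
theorem hasHq_piS (c : ι → ℚ) (hfix : ∀ i, ρ i = i → HasHq σ p hσ (π i) (c i)) :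
    ∀ S : Finset ι, (∀ i ∈ S, ρ i ∈ S) →
      HasHq σ p hσ (piS π S) (∏ i ∈ S.filter (fun i => ρ i = i), c i) := by
  intro S
  induction S using Finset.strongInduction with
  | H S ih =>
    intro hS
    rcases S.eq_empty_or_nonempty with rfl | ⟨i, hiS⟩
    · simp only [piS, Finset.sum_empty, Finset.filter_empty, Finset.prod_empty]
      exact HasHq.zero σ p hσ
    · set O := orb p ρ i with hO
      have hOS : O ⊆ S := by
        intro j hj
        rw [hO, orb, Finset.mem_image] at hj
        obtain ⟨k, -, rfl⟩ := hj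
        clear hO
        induction k with
        | zero => exact hiS
        | succ k ihk =>
          rw [pow_succ']
          exact hS _ ihk
      have hOstab := orb_stable p ρ hρp i
      set S' := S \ O with hS'
      have hS'stab : ∀ j ∈ S', ρ j ∈ S' := by
        intro j hj
        rw [hS', Finset.mem_sdiff] at hj ⊢
        refine ⟨hS j hj.1, fun hρj => hj.2 ?_⟩
        -- `j = ρ^(p-1) (ρ j)` lies in the orbit
        have h1 : ∀ k : ℕ, (ρ ^ k) (ρ j) ∈ O := by
          intro k
          induction k with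
          | zero => exact hρj
          | succ k ihk =>
            rw [pow_succ']
            exact hOstab _ ihk
        have h2 : (ρ ^ (p - 1)) (ρ j) = j := by
          rw [← Equiv.Perm.mul_apply, ← pow_succ, Nat.sub_add_cancel hp.out.one_le, hρp]
          rfl
        rw [← h2]
        exact h1 (p - 1)
      have hlt : S' ⊂ S := by
        rw [hS']
        refine Finset.sdiff_ssubset hOS ⟨i, mem_orb_self p ρ i⟩
      have hdisj : Disjoint S' O := Finset.sdiff_disjoint
      have hunion : S = S' ∪ O := by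
        rw [hS', Finset.sdiff_union_of_subset hOS]
      have ih' := ih S' hlt hS'stab
      have hOh : HasHq σ p hσ (piS π O) (∏ j ∈ O.filter (fun j => ρ j = j), c j) := by
        by_cases hi : ρ i = i
        · have hOeq : O = {i} := by
            rw [hO, orb]
            ext j
            rw [Finset.mem_image, Finset.mem_singleton]
            constructor
            · rintro ⟨k, -, rfl⟩
              clear hO
              induction k with
              | zero => rfl
              | succ k ihk => rw [pow_succ, Equiv.Perm.mul_apply, hi, ihk]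
            · rintro rfl
              exact ⟨0, Finset.mem_range.mpr hp.out.pos, rfl⟩
          rw [hOeq, Finset.filter_singleton, if_pos hi, Finset.prod_singleton]
          simp only [piS, Finset.sum_singleton]
          exact hfix i hi
        · have hnone : O.filter (fun j => ρ j = j) = ∅ := by
            rw [Finset.filter_eq_empty_iff]
            intro j hj hρj
            rw [hO, orb, Finset.mem_image] at hj
            obtain ⟨k, -, rfl⟩ := hj
            apply hi
            have : (ρ ^ k) (ρ i) = (ρ ^ k) i := by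
              rw [← Equiv.Perm.mul_apply, ← pow_succ, pow_succ', Equiv.Perm.mul_apply]
              exact hρj
            exact (ρ ^ k).injective this
          rw [hnone, Finset.prod_empty]
          exact hasHq_orb_of_ne σ p hσ π ρ hidem horth hρ hρp i hi
      have hadd := HasHq.add σ p hσ ih' hOh (piS_idem π hidem horth S')
        (piS_idem π hidem horth O) (piS_mul_of_disjoint π horth S' O hdisj)
        (piS_mul_of_disjoint π horth O S' hdisj.symm)
      rw [← piS_union π S' O hdisj, ← hunion] at hadd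
      have hprod : ∏ j ∈ S.filter (fun j => ρ j = j), c j =
          (∏ j ∈ S'.filter (fun j => ρ j = j), c j) * ∏ j ∈ O.filter (fun j => ρ j = j), c j := by
        conv_lhs => rw [hunion]
        rw [Finset.filter_union, Finset.prod_union]
        exact Finset.disjoint_filter_filter hdisj
      rw [hprod]
      exact hadd

include hidem horth hρ hρp in
/-- Final form: for a *complete* family, the Herbrand quotient of `cyc σ p` is the product of the
contributions of the fixed idempotents. -/
theorem isFin_hq_of_family [Fintype ι] (hsum : ∑ i, π i = 1) (c : ι → ℚ)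
    (hfix : ∀ i, ρ i = i → HasHq σ p hσ (π i) (c i)) :
    IsFin (cyc σ p hσ) ∧
      hq (cyc σ p hσ) = ∏ i ∈ Finset.univ.filter (fun i => ρ i = i), c i := by
  have h := hasHq_piS σ p hσ π ρ hidem horth hρ hρp c hfix Finset.univ
    (fun i _ => Finset.mem_univ _)
  have h1 : piS π Finset.univ = 1 := hsum
  rw [h1] at h
  exact h.one

end Family

end Fermat.Agent.PT.GLOB.IdemHerbrand24
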