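/-
Program F (S55), chapter GLOB (helper24): units of a commutative ring with a complete family of
orthogonal idempotents permuted by an automorphism.

* `projU ε hε : Rˣ →* Rˣ`, `u ↦ 1 + ε (u - 1)` (`ε` idempotent); `piE ε hε` the same as an endomorphism
  of `Additive Rˣ`; `piE_mul_piE`, `piE_idem`, `sum_piE`, `toEnd_mul_piE`;
* `isFin_hq_units`: if `s (e i) = e (ρ i)` and the automorphism `S` of `Rˣ` induced by `s` has
  `S ^ p = 1`, the Herbrand quotient of `Additive Rˣ` is the product of the Herbrand quotients of the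
  blocks `range (piE (e i))` over the FIXED `i` (free orbits are induced modules);
* `hasHq_of_bijective`: transport of `IdemHerbrand24.HasHq` along an equivariant bijection.
-/
import Mathlib
import Fermat.Agent.PT.GLOB.IdemHerbrand24
import Fermat.Agent.PT.GLOB.HerbrandGroup24

set_option autoImplicit false
set_option linter.unusedSectionVars false
set_option linter.style.haveILetI false

namespace Fermat.Agent.PT.GLOB.IdemUnits24

open Fermat.Agent.CFT.Herbrand Fermat.Agent.PT.FG.HerbrandQuot18
open Fermat.Agent.PT.GLOB.IdemHerbrand24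
open Fermat.Agent.PT.GLOB.HerbrandGroup24 (toEnd toEnd_apply toEnd_pow_eq_one)

variable {R : Type*} [CommRing R]

/-! ### The projection of the unit group attached to an idempotent -/

/-- `u ↦ 1 + ε (u - 1)` for an idempotent `ε`. -/
def projU (ε : R) (hε : ε * ε = ε) : Rˣ →* Rˣ where
  toFun u :=
    ⟨1 + ε * ((u : R) - 1), 1 + ε * (((u⁻¹ : Rˣ) : R) - 1), by
      have h : (u : R) * ((u⁻¹ : Rˣ) : R) = 1 := Units.mul_inv u
      linear_combination ((u : R) - 1) * (((u⁻¹ : Rˣ) : R) - 1) * hε + ε * h, by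
      have h : ((u⁻¹ : Rˣ) : R) * (u : R) = 1 := Units.inv_mul u
      linear_combination ((u : R) - 1) * (((u⁻¹ : Rˣ) : R) - 1) * hε + ε * h⟩
  map_one' := by
    apply Units.ext
    simp
  map_mul' u v := by
    apply Units.ext
    push_cast
    linear_combination (-((u : R) - 1) * ((v : R) - 1)) * hε

theorem coe_projU (ε : R) (hε : ε * ε = ε) (u : Rˣ) :
    ((projU ε hε u : Rˣ) : R) = 1 + ε * ((u : R) - 1) := rfl

/-- The projection as an endomorphism of `Additive Rˣ`. -/
def piE (ε : R) (hε : ε * ε = ε) : Module.End ℤ (Additive Rˣ) := toEnd (projU ε hε)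

theorem piE_apply (ε : R) (hε : ε * ε = ε) (u : Rˣ) :
    piE ε hε (Additive.ofMul u) = Additive.ofMul (projU ε hε u) := rfl

theorem piE_mul_piE (ε ε' : R) (hε : ε * ε = ε) (hε' : ε' * ε' = ε') (h : ε * ε' = 0) :
    piE ε hε * piE ε' hε' = 0 := by
  apply LinearMap.ext
  intro x
  obtain ⟨u, rfl⟩ := Additive.ofMul.surjective x
  rw [Module.End.mul_apply, piE_apply, piE_apply]
  have : projU ε hε (projU ε' hε' u) = 1 := by
    apply Units.ext
    rw [coe_projU, coe_projU, Units.val_one]
    linear_combination ((u : R) - 1) * h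
  rw [this]
  rfl

theorem piE_idem (ε : R) (hε : ε * ε = ε) : piE ε hε * piE ε hε = piE ε hε := by
  apply LinearMap.ext
  intro x
  obtain ⟨u, rfl⟩ := Additive.ofMul.surjective x
  rw [Module.End.mul_apply, piE_apply, piE_apply]
  congr 1
  apply Units.ext
  rw [coe_projU, coe_projU]
  linear_combination ((u : R) - 1) * hε

theorem prod_one_add_mul {ι : Type*} [DecidableEq ι] (e : ι → R)
    (horth : ∀ i j, i ≠ j → e i * e j = 0) (x : R) (S : Finset ι) :
    ∏ i ∈ S, (1 + e i * x) = 1 + (∑ i ∈ S, e i) * x := by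
  induction S using Finset.induction_on with
  | empty => simp
  | insert a S ha ih =>
    rw [Finset.prod_insert ha, Finset.sum_insert ha, ih]
    have h0 : e a * ∑ i ∈ S, e i = 0 := by
      rw [Finset.mul_sum]
      apply Finset.sum_eq_zero
      intro i hi
      exact horth a i (fun h => ha (h ▸ hi))
    linear_combination x * x * h0

theorem sum_piE {ι : Type*} [Fintype ι] [DecidableEq ι] (e : ι → R)
    (hidem : ∀ i, e i * e i = e i) (horth : ∀ i j, i ≠ j → e i * e j = 0)
    (hsum : ∑ i, e i = 1) : ∑ i, piE (e i) (hidem i) = 1 := by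
  apply LinearMap.ext
  intro x
  obtain ⟨u, rfl⟩ := Additive.ofMul.surjective x
  rw [LinearMap.sum_apply, Module.End.one_apply]
  simp only [piE_apply]
  rw [← ofMul_prod]
  congr 1
  apply Units.ext
  rw [Units.coe_prod]
  simp only [coe_projU]
  rw [prod_one_add_mul e horth, hsum]
  ring

/-- Compatibility with an automorphism of the unit group induced by a ring homomorphism. -/
theorem toEnd_mul_piE (s : R →+* R) (S : Rˣ →* Rˣ) (hS : ∀ u : Rˣ, ((S u : Rˣ) : R) = s (u : R))
    (ε ε' : R) (hε : ε * ε = ε) (hε' : ε' * ε' = ε') (h : s ε = ε') :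
    toEnd S * piE ε hε = piE ε' hε' * toEnd S := by
  apply LinearMap.ext
  intro x
  obtain ⟨u, rfl⟩ := Additive.ofMul.surjective x
  rw [Module.End.mul_apply, Module.End.mul_apply, piE_apply, toEnd_apply, toEnd_apply, piE_apply]
  congr 1
  apply Units.ext
  rw [hS, coe_projU, coe_projU, hS, map_add, map_one, map_mul, map_sub, map_one, h]

/-- **Herbrand quotient of the units of a ring with a complete family of orthogonal idempotents
permuted by an automorphism of prime order**: only the fixed idempotents contribute. -/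
theorem isFin_hq_units {ι : Type*} [Fintype ι] [DecidableEq ι] (s : R →+* R) (S : Rˣ →* Rˣ)
    (hS : ∀ u : Rˣ, ((S u : Rˣ) : R) = s (u : R)) (p : ℕ) [Fact p.Prime]
    (hSp : toEnd S ^ p = 1) (e : ι → R) (hidem : ∀ i, e i * e i = e i)
    (horth : ∀ i j, i ≠ j → e i * e j = 0) (hsum : ∑ i, e i = 1) (ρ : Equiv.Perm ι)
    (hρ : ∀ i, s (e i) = e (ρ i)) (hρp : ρ ^ p = 1) (c : ι → ℚ)
    (hfix : ∀ i, ρ i = i → HasHq (toEnd S) p hSp (piE (e i) (hidem i)) (c i)) :
    IsFin (cyc (toEnd S) p hSp) ∧
      hq (cyc (toEnd S) p hSp) = ∏ i ∈ Finset.univ.filter (fun i => ρ i = i), c i := by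
  apply isFin_hq_of_family (toEnd S) p hSp (fun i => piE (e i) (hidem i)) ρ
  · intro i
    exact piE_idem _ _
  · intro i j hij
    exact piE_mul_piE _ _ _ _ (horth i j hij)
  · intro i
    exact toEnd_mul_piE s S hS _ _ _ _ (hρ i)
  · exact hρp
  · exact sum_piE e hidem horth hsum
  · exact hfix

/-- Transport of `HasHq` along an equivariant bijection from the range. -/
theorem hasHq_of_bijective {M N : Type*} [AddCommGroup M] [AddCommGroup N]
    (σ : Module.End ℤ M) (n : ℕ) (hσ : σ ^ n = 1) (τ : Module.End ℤ N) (hτ : τ ^ n = 1)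
    (π : Module.End ℤ M) (hcomm : Commute σ π) (φ : LinearMap.range π →+ N)
    (hφ : ∀ x, φ (restr σ π hcomm x) = τ (φ x)) (hb : Function.Bijective φ) (c : ℚ)
    (H : IsFin (cyc τ n hτ) ∧ hq (cyc τ n hτ) = c) : HasHq σ n hσ π c := by
  let Φ : Hom (rangePair σ π hcomm n hσ) (cyc τ n hτ) :=
    cycHom (restr_pow_eq_one σ π hcomm n hσ) hτ φ hφ
  have hb' : Function.Bijective Φ.φ := hb
  exact ⟨hcomm, (isFin_iff_of_bijective Φ hb').mpr H.1, by rw [hq_eq_of_bijective Φ hb', H.2]⟩

end Fermat.Agent.PT.GLOB.IdemUnits24
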