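/-
Program F (S55), chapter GLOB, leaf GLOB-BRIDGE (helper24): the maximal ideals of the semilocal
algebra `L ⊗[ℚ] ℚ_[q]` (`= Interface23.Loc L q`) correspond bijectively and Galois-equivariantly to
the primes of `𝓞 L` above `q`.

* A *point* is a ring homomorphism `ψ : L ⊗[ℚ] ℚ_[q] →+* E` into a `q`-adic field `E` of LOC's model
  (`[Field E] [Algebra ℚ_[q] E] [FiniteDimensional ℚ_[q] E]`) with `IsPoint ψ : ψ (1 ⊗ c) = c`.
  `wval ψ : Valuation L ℤᵐ⁰` is `Structure14.valE q E` pulled back to `L`; `placeOfPoint ψ` is the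
  prime `{x ∈ 𝓞 L | wval ψ x < 1}` of `𝓞 L` (it contains `q`).
* `isEquiv_wval` (normality of `𝓞 L`): `wval ψ` is equivalent to the adic valuation of
  `placeOfPoint ψ`; `wval_le_one_iff`, `wval_lt_one_iff`, `wval_eq_one_iff`.
* `placeOfPoint_ne` (separation, uses helper17's `dense_approx`), `intToRat_injective`,
  `exists_placeOfPoint_eq` (every prime above `q` occurs).
* Canonical points: `ResField m = (L ⊗ ℚ_q) ⧸ m`, `pt m`, instances `Field`, `Algebra ℚ_[q]`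
  (through `includeRight`), `FiniteDimensional`; `IsArtinianRing (L ⊗[ℚ] ℚ_[q])`.
* `placeOf m`, `placeOf_injective`, `exists_placeOf_eq`, `range_placeOf`,
  `placeOfPoint_eq_placeOf` (any point killing `m` has prime `placeOf m`),
  `valE_le_one_iff` etc.
* `placeOf_smul`: if `Interface23.tensorAut σ` maps `m` into `m'` then `placeOf m' = σ • placeOf m`.
-/
import Mathlib
import Fermat.Agent.PT.GLOB.Interface23
import Fermat.Agent.PT.LOC.Structure14
import Fermat.Agent.PT.LOC.StructureTower27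
import Fermat.Agent.PT.GLOB.WeakApprox17

set_option autoImplicit false
set_option linter.unusedSectionVars false
set_option linter.style.haveILetI false

namespace Fermat.Agent.PT.GLOB.PlaceBridge24

open NumberField IsDedekindDomain HeightOneSpectrum
open scoped TensorProduct WithZero
open scoped Fermat.Agent.PT.LOC.Interface12
open Fermat.Agent.PT.LOC.Interface12 Fermat.Agent.PT.LOC.Structure14
open Fermat.Agent.PT.GLOB.WeakApprox17

noncomputable section

variable (L : Type) [Field L] [NumberField L] (q : ℕ) [Fact q.Prime]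

theorem coe_add' (a b : 𝓞 L) : ((a + b : 𝓞 L) : L) = (a : L) + b := map_add (algebraMap (𝓞 L) L) a b
theorem coe_sub' (a b : 𝓞 L) : ((a - b : 𝓞 L) : L) = (a : L) - b := map_sub (algebraMap (𝓞 L) L) a b
theorem coe_mul' (a b : 𝓞 L) : ((a * b : 𝓞 L) : L) = (a : L) * b := map_mul (algebraMap (𝓞 L) L) a b
theorem coe_one' : ((1 : 𝓞 L) : L) = 1 := map_one (algebraMap (𝓞 L) L)
theorem coe_zero' : ((0 : 𝓞 L) : L) = 0 := map_zero (algebraMap (𝓞 L) L)
theorem coe_natCast' (n : ℕ) : ((n : 𝓞 L) : L) = n := map_natCast (algebraMap (𝓞 L) L) n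

/-! ### Points of `L ⊗[ℚ] ℚ_[q]` -/

section Point

variable (E : Type) [Field E] [Algebra ℚ_[q] E] [FiniteDimensional ℚ_[q] E]
  (ψ : L ⊗[ℚ] ℚ_[q] →+* E)

/-- A ring homomorphism `L ⊗ ℚ_q → E` compatible with the `ℚ_q`-structures. -/
def IsPoint : Prop := ∀ c : ℚ_[q], ψ ((1 : L) ⊗ₜ[ℚ] c) = algebraMap ℚ_[q] E c

/-- The induced embedding `L → E`. -/
def toPoint : L →+* E :=
  ψ.comp (Algebra.TensorProduct.includeLeftRingHom : L →+* L ⊗[ℚ] ℚ_[q])

theorem toPoint_apply (x : L) : toPoint L q E ψ x = ψ (x ⊗ₜ[ℚ] (1 : ℚ_[q])) := rfl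

/-- The valuation on `L` induced by the point. -/
def wval : Valuation L ℤᵐ⁰ := (valE q E).comap (toPoint L q E ψ)

theorem wval_apply (x : L) : wval L q E ψ x = valE q E (ψ (x ⊗ₜ[ℚ] (1 : ℚ_[q]))) := rfl

variable {L q E ψ}

theorem isIntegral_toPoint (x : 𝓞 L) : IsIntegral ℤ_[q] (toPoint L q E ψ (x : L)) := by
  have h1 : IsIntegral ℤ (x : L) := x.2
  have h2 : IsIntegral ℤ (toPoint L q E ψ (x : L)) := h1.map (toPoint L q E ψ).toIntAlgHom
  exact h2.tower_top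

theorem wval_le_one (x : 𝓞 L) : wval L q E ψ (x : L) ≤ 1 := by
  have h : toPoint L q E ψ (x : L) ∈ intRing q E := isIntegral_toPoint x
  exact (maxIdeal q E).valuation_le_one (⟨_, h⟩ : intRing q E)

theorem valE_natCast_lt_one : valE q E (q : E) < 1 := by
  have h1 : ((q : intRing q E)) ∈ (maxIdeal q E).asIdeal := by
    have := Fermat.Agent.PT.LOC.StructureTower27.natCast_mem_maxId q E
    rw [Fermat.Agent.PT.LOC.StructureTower27.maxId_eq_maximalIdeal] at this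
    exact this
  have h2 := ((maxIdeal q E).valuation_lt_one_iff_mem (K := E) (q : intRing q E)).mpr h1
  simpa using h2

theorem wval_natCast_lt_one : wval L q E ψ (q : L) < 1 := by
  rw [wval_apply]
  have : ψ ((q : L) ⊗ₜ[ℚ] (1 : ℚ_[q])) = (q : E) := by
    have h : ((q : L) ⊗ₜ[ℚ] (1 : ℚ_[q])) = ((q : ℕ) : L ⊗[ℚ] ℚ_[q]) := by
      rw [← map_natCast (Algebra.TensorProduct.includeLeftRingHom : L →+* L ⊗[ℚ] ℚ_[q])]
      rfl
    rw [h, map_natCast]
  rw [this]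
  exact valE_natCast_lt_one

/-- The ideal of `𝓞 L` cut out by the point: elements of valuation `< 1`. -/
def placeIdeal (ψ : L ⊗[ℚ] ℚ_[q] →+* E) : Ideal (𝓞 L) where
  carrier := {x | wval L q E ψ (x : L) < 1}
  add_mem' := by
    intro a b ha hb
    show wval L q E ψ ((a + b : 𝓞 L) : L) < 1
    rw [coe_add']
    exact lt_of_le_of_lt (Valuation.map_add _ _ _) (max_lt ha hb)
  zero_mem' := by
    show wval L q E ψ ((0 : 𝓞 L) : L) < 1
    rw [coe_zero', map_zero]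
    exact zero_lt_one
  smul_mem' := by
    intro c x hx
    show wval L q E ψ ((c • x : 𝓞 L) : L) < 1
    rw [smul_eq_mul, coe_mul', map_mul]
    exact mul_lt_one_of_nonneg_of_lt_one_right (wval_le_one c) zero_le hx

theorem mem_placeIdeal {x : 𝓞 L} : x ∈ placeIdeal (q := q) (E := E) ψ ↔ wval L q E ψ (x : L) < 1 :=
  Iff.rfl

theorem natCast_mem_placeIdeal : (q : 𝓞 L) ∈ placeIdeal (q := q) (E := E) ψ := by
  rw [mem_placeIdeal]
  have := wval_natCast_lt_one (L := L) (q := q) (E := E) (ψ := ψ)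
  simpa using this

theorem placeIdeal_isPrime : (placeIdeal (q := q) (E := E) ψ).IsPrime := by
  refine ⟨?_, ?_⟩
  · intro h
    have h1 : (1 : 𝓞 L) ∈ placeIdeal (q := q) (E := E) ψ := by rw [h]; trivial
    rw [mem_placeIdeal, coe_one', map_one] at h1
    exact lt_irrefl _ h1
  · intro x y hxy
    rw [mem_placeIdeal, coe_mul', map_mul] at hxy
    by_contra hcon
    push Not at hcon
    obtain ⟨hx, hy⟩ := hcon
    rw [mem_placeIdeal, not_lt] at hx hy
    have hx1 : wval L q E ψ (x : L) = 1 := le_antisymm (wval_le_one x) hx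
    have hy1 : wval L q E ψ (y : L) = 1 := le_antisymm (wval_le_one y) hy
    rw [hx1, hy1, one_mul] at hxy
    exact lt_irrefl _ hxy

theorem placeIdeal_ne_bot : placeIdeal (q := q) (E := E) ψ ≠ ⊥ := by
  intro h
  have h1 := natCast_mem_placeIdeal (L := L) (q := q) (E := E) (ψ := ψ)
  rw [h, Ideal.mem_bot] at h1
  have : ((q : ℕ) : 𝓞 L) ≠ 0 := Nat.cast_ne_zero.mpr (Fact.out : q.Prime).ne_zero
  exact this h1

/-- The prime of `𝓞 L` attached to a point of `L ⊗ ℚ_q`. -/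
def placeOfPoint (ψ : L ⊗[ℚ] ℚ_[q] →+* E) : HeightOneSpectrum (𝓞 L) :=
  ⟨placeIdeal (q := q) (E := E) ψ, placeIdeal_isPrime, placeIdeal_ne_bot⟩

theorem mem_placeOfPoint {x : 𝓞 L} :
    x ∈ (placeOfPoint (q := q) (E := E) ψ).asIdeal ↔ wval L q E ψ (x : L) < 1 := Iff.rfl

theorem natCast_mem_placeOfPoint : (q : 𝓞 L) ∈ (placeOfPoint (q := q) (E := E) ψ).asIdeal :=
  natCast_mem_placeIdeal

/-- **Key step (normality of `𝓞 L`)**: the valuation of a point is equivalent to the adic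
valuation of its prime. -/
theorem isEquiv_wval :
    ((placeOfPoint (q := q) (E := E) ψ).valuation L).IsEquiv (wval L q E ψ) := by
  set P := placeOfPoint (q := q) (E := E) ψ with hP
  rw [Valuation.isEquiv_iff_valuationSubring, ← valuationSubringAtPrime_eq_valuationSubring]
  apply ValuationSubring.eq_of_le_of_ne_top
  · rintro x ⟨a, s, hs, rfl⟩
    show wval L q E ψ _ ≤ 1
    have hs' : wval L q E ψ ((s : 𝓞 L) : L) = 1 := by
      apply le_antisymm (wval_le_one s)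
      rw [← not_lt]
      exact hs
    rw [map_mul, map_inv₀]
    have hs'' : wval L q E ψ (algebraMap (𝓞 L) L s) = 1 := hs'
    rw [hs'', inv_one, mul_one]
    exact wval_le_one a
  · intro htop
    have hq0 : (q : L) ≠ 0 := Nat.cast_ne_zero.mpr (Fact.out : q.Prime).ne_zero
    have h1 : ((q : L)⁻¹) ∈ (wval L q E ψ).valuationSubring := by rw [htop]; trivial
    rw [Valuation.mem_valuationSubring_iff, map_inv₀] at h1
    have h2 := wval_natCast_lt_one (L := L) (q := q) (E := E) (ψ := ψ)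
    have h3 : wval L q E ψ (q : L) ≠ 0 := (Valuation.ne_zero_iff _).mpr hq0
    have h4 : (1 : ℤᵐ⁰) ≤ wval L q E ψ (q : L) := by
      have := mul_le_mul_left h1 (wval L q E ψ (q : L))
      rwa [inv_mul_cancel₀ h3, one_mul] at this
    exact absurd h2 (not_lt.mpr h4)

theorem wval_lt_one_iff (x : L) :
    wval L q E ψ x < 1 ↔ (placeOfPoint (q := q) (E := E) ψ).valuation L x < 1 :=
  (Valuation.isEquiv_iff_val_lt_one.mp isEquiv_wval).symm

theorem wval_le_one_iff (x : L) :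
    wval L q E ψ x ≤ 1 ↔ (placeOfPoint (q := q) (E := E) ψ).valuation L x ≤ 1 :=
  (Valuation.isEquiv_iff_val_le_one.mp isEquiv_wval).symm

theorem wval_eq_one_iff (x : L) :
    wval L q E ψ x = 1 ↔ (placeOfPoint (q := q) (E := E) ψ).valuation L x = 1 :=
  (Valuation.isEquiv_iff_val_eq_one.mp isEquiv_wval).symm

/-- The image of `𝓞 L ⊗ ℤ_q` under a point is integral. -/
theorem psi_intToRat_mem (hψ : IsPoint L q E ψ) (t : (𝓞 L) ⊗[ℤ] ℤ_[q]) :
    ψ (intToRat L q t) ∈ intRing q E := by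
  induction t using TensorProduct.induction_on with
  | zero => rw [map_zero, map_zero]; exact zero_mem _
  | tmul a c =>
    rw [intToRat_tmul]
    have h : ((a : L) ⊗ₜ[ℚ] (c : ℚ_[q])) =
        ((a : L) ⊗ₜ[ℚ] (1 : ℚ_[q])) * ((1 : L) ⊗ₜ[ℚ] (c : ℚ_[q])) := by
      rw [Algebra.TensorProduct.tmul_mul_tmul, mul_one, one_mul]
    rw [h, map_mul, hψ]
    apply mul_mem
    · exact isIntegral_toPoint a
    · exact (integralClosure ℤ_[q] E).algebraMap_mem c
  | add x y hx hy => rw [map_add, map_add]; exact add_mem hx hy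

theorem valE_natCast_mul_lt_one {z : E} (hz : z ∈ intRing q E) : valE q E ((q : E) * z) < 1 := by
  rw [map_mul]
  have h1 : valE q E z ≤ 1 := (maxIdeal q E).valuation_le_one (⟨z, hz⟩ : intRing q E)
  exact mul_lt_one_of_nonneg_of_lt_one_left zero_le valE_natCast_lt_one h1

variable {E' : Type} [Field E'] [Algebra ℚ_[q] E'] [FiniteDimensional ℚ_[q] E']
  {ψ' : L ⊗[ℚ] ℚ_[q] →+* E'}

/-- **Separation**: two points which are separated by an element of `L ⊗ ℚ_q` have different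
primes. -/
theorem placeOfPoint_ne (hψ : IsPoint L q E ψ) (hψ' : IsPoint L q E' ψ')
    (e : L ⊗[ℚ] ℚ_[q]) (he : ψ e = 1) (he' : ψ' e = 0) :
    placeOfPoint (q := q) (E := E) ψ ≠ placeOfPoint (q := q) (E := E') ψ' := by
  intro heq
  obtain ⟨a, ha⟩ := dense_approx L ({()} : Finset Unit) (fun _ => q)
    (hq := fun _ => inferInstance) (fun _ _ _ _ _ => rfl) 1 (fun _ => e)
  obtain ⟨t, ht⟩ := ha () (Finset.mem_singleton_self _)
  simp only [pow_one] at ht
  -- `ψ (a ⊗ 1) - 1 = q * ψ (t)`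
  have h1 : wval L q E ψ (a - 1) < 1 := by
    rw [wval_apply, TensorProduct.sub_tmul, map_sub]
    have : ψ (a ⊗ₜ[ℚ] (1 : ℚ_[q])) - ψ ((1 : L) ⊗ₜ[ℚ] (1 : ℚ_[q])) =
        (q : E) * ψ (intToRat L q t) := by
      have h := congrArg ψ ht
      rw [map_sub, he, map_mul, map_natCast] at h
      rw [← h]
      congr 1
      exact map_one ψ
    rw [this]
    exact valE_natCast_mul_lt_one (psi_intToRat_mem hψ t)
  have h2 : wval L q E' ψ' a < 1 := by
    rw [wval_apply]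
    have : ψ' (a ⊗ₜ[ℚ] (1 : ℚ_[q])) = (q : E') * ψ' (intToRat L q t) := by
      have h := congrArg ψ' ht
      rw [map_sub, he', sub_zero, map_mul, map_natCast] at h
      exact h
    rw [this]
    exact valE_natCast_mul_lt_one (psi_intToRat_mem hψ' t)
  have h3 : wval L q E ψ a < 1 := by
    rw [wval_lt_one_iff, heq, ← wval_lt_one_iff]
    exact h2
  have h4 : wval L q E ψ 1 < 1 := by
    have : (1 : L) = a - (a - 1) := by ring
    rw [this]
    exact lt_of_le_of_lt (Valuation.map_sub _ _ _) (max_lt h3 h1)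
  rw [map_one] at h4
  exact lt_irrefl _ h4

end Point

/-! ### The lattice `𝓞 L ⊗ ℤ_q` -/

section Lattice

/-- Coordinates of an element of `𝓞 L ⊗[ℤ] ℤ_[q]` in the integral basis. -/
theorem exists_repr_lam (t : (𝓞 L) ⊗[ℤ] ℤ_[q]) :
    ∃ d : Module.Free.ChooseBasisIndex ℤ (𝓞 L) → ℤ_[q],
      t = ∑ j, (NumberField.RingOfIntegers.basis L j) ⊗ₜ[ℤ] d j := by
  induction t using TensorProduct.induction_on with
  | zero => exact ⟨0, by simp⟩
  | tmul x c =>
    refine ⟨fun j => ((NumberField.RingOfIntegers.basis L).repr x j) • c, ?_⟩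
    conv_lhs => rw [← (NumberField.RingOfIntegers.basis L).sum_repr x]
    rw [TensorProduct.sum_tmul]
    apply Finset.sum_congr rfl
    intro j _
    rw [TensorProduct.smul_tmul]
  | add y y' hy hy' =>
    obtain ⟨c, rfl⟩ := hy
    obtain ⟨c', rfl⟩ := hy'
    refine ⟨c + c', ?_⟩
    rw [← Finset.sum_add_distrib]
    apply Finset.sum_congr rfl
    intro j _
    rw [Pi.add_apply, TensorProduct.tmul_add]

/-- The `i`-th coordinate functional on `L ⊗[ℚ] ℚ_[q]` with respect to the integral basis. -/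
def coordR (i : Module.Free.ChooseBasisIndex ℤ (𝓞 L)) : L ⊗[ℚ] ℚ_[q] →ₗ[ℚ] ℚ_[q] :=
  TensorProduct.lift ((LinearMap.lsmul ℚ ℚ_[q]).comp ((NumberField.integralBasis L).coord i))

theorem coordR_tmul (i : Module.Free.ChooseBasisIndex ℤ (𝓞 L)) (x : L) (c : ℚ_[q]) :
    coordR L q i (x ⊗ₜ[ℚ] c) = ((NumberField.integralBasis L).repr x i) • c := rfl

theorem coordR_basis_tmul (i j : Module.Free.ChooseBasisIndex ℤ (𝓞 L)) (c : ℚ_[q]) :
    coordR L q i (((NumberField.RingOfIntegers.basis L j : 𝓞 L) : L) ⊗ₜ[ℚ] c) =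
      if j = i then c else 0 := by
  classical
  have h : ((NumberField.RingOfIntegers.basis L j : 𝓞 L) : L) = NumberField.integralBasis L j :=
    (NumberField.integralBasis_apply L j).symm
  rw [coordR_tmul, h, Module.Basis.repr_self, Finsupp.single_apply]
  split_ifs <;> simp

/-- `𝓞 L ⊗ ℤ_q → L ⊗ ℚ_q` is injective. -/
theorem intToRat_injective : Function.Injective (intToRat L q) := by
  classical
  rw [injective_iff_map_eq_zero]
  intro t ht
  obtain ⟨d, rfl⟩ := exists_repr_lam L q t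
  rw [map_sum] at ht
  have hd : ∀ i, d i = 0 := by
    intro i
    have h := congrArg (coordR L q i) ht
    rw [map_sum, map_zero] at h
    simp only [intToRat_tmul, coordR_basis_tmul] at h
    rw [Finset.sum_ite_eq' Finset.univ i] at h
    simp only [Finset.mem_univ, if_true] at h
    exact PadicInt.coe_eq_zero.mp h
  simp [hd]

end Lattice

/-! ### Reduction modulo a prime above `q` -/

section Rho

variable {L q}
variable (P : HeightOneSpectrum (𝓞 L)) (hP : (q : 𝓞 L) ∈ P.asIdeal)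

include hP in
theorem charP_quotient : CharP (𝓞 L ⧸ P.asIdeal) q := by
  haveI : Nontrivial (𝓞 L ⧸ P.asIdeal) := Ideal.Quotient.nontrivial_iff.mpr P.isPrime.ne_top
  have h0 : ((q : ℕ) : 𝓞 L ⧸ P.asIdeal) = 0 := by
    rw [← map_natCast (Ideal.Quotient.mk P.asIdeal)]
    exact Ideal.Quotient.eq_zero_iff_mem.mpr hP
  exact ringChar.of_eq (CharP.ringChar_of_prime_eq_zero (Fact.out : q.Prime) h0)

/-- The reduction `𝓞 L ⊗ ℤ_q → 𝓞 L / P` for a prime `P` above `q`. -/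
def rho : (𝓞 L) ⊗[ℤ] ℤ_[q] →+* (𝓞 L ⧸ P.asIdeal) :=
  haveI := charP_quotient P hP
  (Algebra.TensorProduct.productMap ((Ideal.Quotient.mk P.asIdeal).toIntAlgHom)
    (((ZMod.castHom (dvd_refl q) (𝓞 L ⧸ P.asIdeal)).comp
      (PadicInt.toZMod (p := q))).toIntAlgHom)).toRingHom

theorem rho_tmul_one (y : 𝓞 L) :
    rho P hP (y ⊗ₜ[ℤ] (1 : ℤ_[q])) = Ideal.Quotient.mk P.asIdeal y := by
  haveI := charP_quotient P hP
  unfold rho
  change (Algebra.TensorProduct.productMap _ _) (y ⊗ₜ[ℤ] (1 : ℤ_[q])) = _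
  rw [Algebra.TensorProduct.productMap_apply_tmul, map_one, mul_one]
  rfl

end Rho

/-! ### `L ⊗ ℚ_q` is an Artinian ring -/

section Artinian

attribute [local instance] Algebra.TensorProduct.rightAlgebra

theorem rightSmul_tmul (c : ℚ_[q]) (x : L) (c' : ℚ_[q]) :
    c • (x ⊗ₜ[ℚ] c' : L ⊗[ℚ] ℚ_[q]) = x ⊗ₜ[ℚ] (c * c') := by
  rw [Algebra.smul_def]
  change ((1 : L) ⊗ₜ[ℚ] c) * (x ⊗ₜ[ℚ] c') = _
  rw [Algebra.TensorProduct.tmul_mul_tmul, one_mul]

instance finite_right : Module.Finite ℚ_[q] (L ⊗[ℚ] ℚ_[q]) := by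
  classical
  refine ⟨⟨Finset.univ.image (fun j : Module.Free.ChooseBasisIndex ℤ (𝓞 L) =>
    (((NumberField.RingOfIntegers.basis L j : 𝓞 L) : L) ⊗ₜ[ℚ] (1 : ℚ_[q]))), ?_⟩⟩
  rw [eq_top_iff]
  intro y _
  obtain ⟨c, rfl⟩ := exists_repr L q y
  apply Submodule.sum_mem
  intro j _
  have : (((NumberField.RingOfIntegers.basis L j : 𝓞 L) : L) ⊗ₜ[ℚ] c j) =
      c j • (((NumberField.RingOfIntegers.basis L j : 𝓞 L) : L) ⊗ₜ[ℚ] (1 : ℚ_[q])) := by
    rw [rightSmul_tmul, mul_one]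
  rw [this]
  apply Submodule.smul_mem
  apply Submodule.subset_span
  rw [Finset.coe_image]
  exact ⟨j, Finset.mem_coe.mpr (Finset.mem_univ j), rfl⟩

instance isArtinianRing_tensor : IsArtinianRing (L ⊗[ℚ] ℚ_[q]) :=
  IsArtinianRing.of_finite ℚ_[q] (L ⊗[ℚ] ℚ_[q])

end Artinian

/-! ### The canonical points: residue fields at the maximal ideals -/

section ResField

variable {L q}

/-- The residue field of `L ⊗ ℚ_q` at a maximal ideal. -/
abbrev ResField (m : MaximalSpectrum (L ⊗[ℚ] ℚ_[q])) : Type := (L ⊗[ℚ] ℚ_[q]) ⧸ m.asIdeal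

instance (m : MaximalSpectrum (L ⊗[ℚ] ℚ_[q])) : Field (ResField m) :=
  haveI := m.isMaximal
  Ideal.Quotient.field m.asIdeal

/-- The `ℚ_q`-algebra structure of the residue field (through the right factor). -/
instance algResField (m : MaximalSpectrum (L ⊗[ℚ] ℚ_[q])) : Algebra ℚ_[q] (ResField m) :=
  ((Ideal.Quotient.mk m.asIdeal).comp
    (Algebra.TensorProduct.includeRight : ℚ_[q] →ₐ[ℚ] L ⊗[ℚ] ℚ_[q]).toRingHom).toAlgebra

theorem algebraMap_resField (m : MaximalSpectrum (L ⊗[ℚ] ℚ_[q])) (c : ℚ_[q]) :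
    algebraMap ℚ_[q] (ResField m) c = Ideal.Quotient.mk m.asIdeal ((1 : L) ⊗ₜ[ℚ] c) := rfl

instance finiteDimensional_resField (m : MaximalSpectrum (L ⊗[ℚ] ℚ_[q])) :
    FiniteDimensional ℚ_[q] (ResField m) := by
  letI := Algebra.TensorProduct.rightAlgebra (R := ℚ) (A := L) (B := ℚ_[q])
  let f : (L ⊗[ℚ] ℚ_[q]) →ₗ[ℚ_[q]] ResField m :=
    { toFun := Ideal.Quotient.mk m.asIdeal
      map_add' := map_add _
      map_smul' := by
        intro c z
        rw [Algebra.smul_def, map_mul, RingHom.id_apply]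
        rfl }
  exact Module.Finite.of_surjective f Ideal.Quotient.mk_surjective

/-- The canonical point at a maximal ideal. -/
abbrev pt (m : MaximalSpectrum (L ⊗[ℚ] ℚ_[q])) : L ⊗[ℚ] ℚ_[q] →+* ResField m :=
  Ideal.Quotient.mk m.asIdeal

theorem isPoint_pt (m : MaximalSpectrum (L ⊗[ℚ] ℚ_[q])) : IsPoint L q (ResField m) (pt m) :=
  fun _ => rfl

end ResField

/-! ### Surjectivity: every prime above `q` comes from a maximal ideal -/

section Surj

variable {L q}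

open Polynomial

theorem mem_intRing_of_valE_le_one {E : Type} [Field E] [Algebra ℚ_[q] E]
    [FiniteDimensional ℚ_[q] E] {x : E} (hx : valE q E x ≤ 1) : x ∈ intRing q E := by
  obtain ⟨a, ha⟩ := IsDiscreteValuationRing.exists_lift_of_le_one hx
  rw [← ha]
  exact a.2

/-- The multiplicative set `1 + Y Λ`. -/
def oneAddMul (Y : (𝓞 L) ⊗[ℤ] ℤ_[q]) : Submonoid ((𝓞 L) ⊗[ℤ] ℤ_[q]) where
  carrier := {d | ∃ l, d = 1 + Y * l}
  one_mem' := ⟨0, by simp⟩
  mul_mem' := by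
    rintro _ _ ⟨a, rfl⟩ ⟨b, rfl⟩
    exact ⟨a + b + Y * a * b, by ring⟩

theorem exists_mem_oneAddMul (m : MaximalSpectrum (L ⊗[ℚ] ℚ_[q])) (y : 𝓞 L)
    (hy : wval L q (ResField m) (pt m) (y : L) = 1) :
    ∃ d ∈ oneAddMul (q := q) (y ⊗ₜ[ℤ] (1 : ℤ_[q])), intToRat L q d ∈ m.asIdeal := by
  set Y' : ResField m := pt m ((y : L) ⊗ₜ[ℚ] (1 : ℚ_[q])) with hY'
  have hv : valE q (ResField m) Y' = 1 := hy
  have hY0 : Y' ≠ 0 := by
    intro h
    rw [h, map_zero] at hv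
    exact zero_ne_one hv
  have hu : Y'⁻¹ ∈ intRing q (ResField m) :=
    mem_intRing_of_valE_le_one (by rw [map_inv₀, hv, inv_one])
  obtain ⟨g, hg, hg0⟩ := hu
  letI : Invertible (Y'⁻¹) := invertibleOfNonzero (inv_ne_zero hY0)
  have h1 : eval₂ (algebraMap ℤ_[q] (ResField m)) (⅟(Y'⁻¹)) (reverse g) = 0 :=
    (eval₂_reverse_eq_zero_iff _ _ _).mpr hg0
  have h2 : ⅟(Y'⁻¹) = Y' := by rw [invOf_eq_inv, inv_inv]
  rw [h2] at h1
  set incR : ℤ_[q] →+* (𝓞 L) ⊗[ℤ] ℤ_[q] :=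
    (Algebra.TensorProduct.includeRight : ℤ_[q] →ₐ[ℤ] (𝓞 L) ⊗[ℤ] ℤ_[q]).toRingHom with hincR
  refine ⟨eval₂ incR (y ⊗ₜ[ℤ] (1 : ℤ_[q])) (reverse g), ?_, ?_⟩
  · refine ⟨eval₂ incR (y ⊗ₜ[ℤ] (1 : ℤ_[q])) (divX (reverse g)), ?_⟩
    conv_lhs => rw [← divX_mul_X_add (reverse g)]
    rw [eval₂_add, eval₂_mul, eval₂_X, eval₂_C, coeff_zero_reverse, hg.leadingCoeff, map_one]
    ring
  · rw [← Ideal.Quotient.eq_zero_iff_mem]
    change (pt m) (intToRat L q _) = 0
    rw [hom_eval₂, hom_eval₂]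
    have e1 : ((pt m).comp ((intToRat L q).comp incR)) = algebraMap ℤ_[q] (ResField m) := by
      ext c
      change (pt m) (intToRat L q ((1 : 𝓞 L) ⊗ₜ[ℤ] c)) = _
      rw [intToRat_tmul, coe_one']
      rfl
    have e2 : (pt m) (intToRat L q (y ⊗ₜ[ℤ] (1 : ℤ_[q]))) = Y' := by
      rw [intToRat_tmul, PadicInt.coe_one]
    rw [e1, e2]
    exact h1

/-- **Surjectivity**: every prime of `𝓞 L` above `q` is the prime of a maximal ideal of
`L ⊗ ℚ_q`. -/
theorem exists_placeOfPoint_eq (P : HeightOneSpectrum (𝓞 L)) (hP : (q : 𝓞 L) ∈ P.asIdeal) :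
    ∃ m : MaximalSpectrum (L ⊗[ℚ] ℚ_[q]),
      placeOfPoint (q := q) (E := ResField m) (pt m) = P := by
  classical
  by_contra hcon
  push Not at hcon
  haveI : Fintype (MaximalSpectrum (L ⊗[ℚ] ℚ_[q])) := Fintype.ofFinite _
  have hy : ∃ y ∈ P.asIdeal, ∀ m : MaximalSpectrum (L ⊗[ℚ] ℚ_[q]),
      y ∉ (placeOfPoint (q := q) (E := ResField m) (pt m)).asIdeal := by
    by_contra h
    push Not at h
    rcases isEmpty_or_nonempty (MaximalSpectrum (L ⊗[ℚ] ℚ_[q])) with hemp | ⟨⟨m0⟩⟩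
    · obtain ⟨m, _⟩ := h (q : 𝓞 L) hP
      exact hemp.elim m
    · have hsub : (P.asIdeal : Set (𝓞 L)) ⊆
          ⋃ m ∈ ((Finset.univ : Finset (MaximalSpectrum (L ⊗[ℚ] ℚ_[q]))) : Set _),
            (((placeOfPoint (q := q) (E := ResField m) (pt m)).asIdeal : Ideal (𝓞 L)) :
              Set (𝓞 L)) := by
        intro y hy
        obtain ⟨m, hm⟩ := h y hy
        simp only [Finset.coe_univ, Set.mem_univ, Set.iUnion_true, Set.mem_iUnion]
        exact ⟨m, hm⟩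
      obtain ⟨m, -, hm⟩ := (Ideal.subset_union_prime m0 m0
        (fun m _ _ _ => (placeOfPoint (q := q) (E := ResField m) (pt m)).isPrime)).mp hsub
      exact hcon m (HeightOneSpectrum.ext
        (P.isMaximal.eq_of_le (placeOfPoint (q := q) (E := ResField m) (pt m)).isPrime.ne_top
          hm).symm)
  obtain ⟨y, hyP, hy⟩ := hy
  have hw : ∀ m : MaximalSpectrum (L ⊗[ℚ] ℚ_[q]),
      wval L q (ResField m) (pt m) (y : L) = 1 :=
    fun m => le_antisymm (wval_le_one y) (not_lt.mp (hy m))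
  choose d hd hdm using fun m => exists_mem_oneAddMul m y (hw m)
  have hD : (∏ m, d m) ∈ oneAddMul (q := q) (y ⊗ₜ[ℤ] (1 : ℤ_[q])) :=
    Submonoid.prod_mem _ (fun m _ => hd m)
  have hDJ : intToRat L q (∏ m, d m) ∈ Ideal.jacobson (⊥ : Ideal (L ⊗[ℚ] ℚ_[q])) := by
    rw [Ideal.jacobson, Ideal.mem_sInf]
    rintro M ⟨-, hM⟩
    rw [map_prod]
    exact Ideal.mem_of_dvd M (Finset.dvd_prod_of_mem _ (Finset.mem_univ (⟨M, hM⟩ : MaximalSpectrum _)))
      (hdm ⟨M, hM⟩)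
  obtain ⟨N, hN⟩ := IsArtinianRing.isNilpotent_jacobson_bot (R := L ⊗[ℚ] ℚ_[q])
  have h0 : intToRat L q ((∏ m, d m) ^ N) = 0 := by
    rw [map_pow]
    have := Ideal.pow_mem_pow hDJ N
    rw [hN] at this
    exact this
  have h1 : (∏ m, d m) ^ N = 0 := intToRat_injective L q (by rw [h0, map_zero])
  obtain ⟨l, hl⟩ := (oneAddMul (q := q) (y ⊗ₜ[ℤ] (1 : ℤ_[q]))).pow_mem hD N
  rw [h1] at hl
  have h2 := congrArg (rho P hP) hl
  rw [map_zero, map_add, map_one, map_mul, rho_tmul_one,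
    Ideal.Quotient.eq_zero_iff_mem.mpr hyP, zero_mul, add_zero] at h2
  haveI : Nontrivial (𝓞 L ⧸ P.asIdeal) := Ideal.Quotient.nontrivial_iff.mpr P.isPrime.ne_top
  exact zero_ne_one h2

end Surj

/-! ### The bijection `MaximalSpectrum (L ⊗ ℚ_q) ≃ {primes of 𝓞 L above q}` -/

section Bijection

variable {L q}

/-- The prime of `𝓞 L` attached to a maximal ideal of `L ⊗ ℚ_q`. -/
def placeOf (m : MaximalSpectrum (L ⊗[ℚ] ℚ_[q])) : HeightOneSpectrum (𝓞 L) :=
  placeOfPoint (q := q) (E := ResField m) (pt m)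

theorem mem_placeOf {m : MaximalSpectrum (L ⊗[ℚ] ℚ_[q])} {x : 𝓞 L} :
    x ∈ (placeOf m).asIdeal ↔
      valE q (ResField m) (Ideal.Quotient.mk m.asIdeal ((x : L) ⊗ₜ[ℚ] (1 : ℚ_[q]))) < 1 :=
  Iff.rfl

theorem natCast_mem_placeOf (m : MaximalSpectrum (L ⊗[ℚ] ℚ_[q])) :
    (q : 𝓞 L) ∈ (placeOf m).asIdeal :=
  natCast_mem_placeOfPoint

theorem exists_separating {m m' : MaximalSpectrum (L ⊗[ℚ] ℚ_[q])} (h : m ≠ m') :
    ∃ e : L ⊗[ℚ] ℚ_[q], 1 - e ∈ m.asIdeal ∧ e ∈ m'.asIdeal := by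
  have hne : m.asIdeal ≠ m'.asIdeal := fun h' => h (MaximalSpectrum.ext h')
  have hsup : m.asIdeal ⊔ m'.asIdeal = ⊤ := m.isMaximal.coprime_of_ne m'.isMaximal hne
  have h1 : (1 : L ⊗[ℚ] ℚ_[q]) ∈ m.asIdeal ⊔ m'.asIdeal := by rw [hsup]; trivial
  obtain ⟨a, ha, b, hb, hab⟩ := Submodule.mem_sup.mp h1
  refine ⟨b, ?_, hb⟩
  have : 1 - b = a := by rw [← hab]; ring
  rw [this]
  exact ha

/-- A point of `L ⊗ ℚ_q` which kills the maximal ideal `m` has prime `placeOf m`. -/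
theorem placeOfPoint_eq_placeOf {E : Type} [Field E] [Algebra ℚ_[q] E]
    [FiniteDimensional ℚ_[q] E] {ψ : L ⊗[ℚ] ℚ_[q] →+* E} (hψ : IsPoint L q E ψ)
    (m : MaximalSpectrum (L ⊗[ℚ] ℚ_[q])) (hm : ∀ z ∈ m.asIdeal, ψ z = 0) :
    placeOfPoint (q := q) (E := E) ψ = placeOf m := by
  obtain ⟨m', hm'⟩ := exists_placeOfPoint_eq (placeOfPoint (q := q) (E := E) ψ)
    natCast_mem_placeOfPoint
  by_cases h : m = m'
  · rw [h]
    exact hm'.symm
  · exfalso
    obtain ⟨e, he, he'⟩ := exists_separating h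
    have h1 : ψ e = 1 := by
      have := hm _ he
      rw [map_sub, map_one, sub_eq_zero] at this
      exact this.symm
    have h2 : pt m' e = 0 := Ideal.Quotient.eq_zero_iff_mem.mpr he'
    exact placeOfPoint_ne hψ (isPoint_pt m') e h1 h2 hm'.symm

theorem placeOf_injective :
    Function.Injective (placeOf : MaximalSpectrum (L ⊗[ℚ] ℚ_[q]) → HeightOneSpectrum (𝓞 L)) := by
  intro m m' h
  by_contra hne
  obtain ⟨e, he, he'⟩ := exists_separating hne
  have h1 : pt m e = 1 := by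
    have : pt m (1 - e) = 0 := Ideal.Quotient.eq_zero_iff_mem.mpr he
    rw [map_sub, map_one, sub_eq_zero] at this
    exact this.symm
  have h2 : pt m' e = 0 := Ideal.Quotient.eq_zero_iff_mem.mpr he'
  exact placeOfPoint_ne (isPoint_pt m) (isPoint_pt m') e h1 h2 h

theorem exists_placeOf_eq (P : HeightOneSpectrum (𝓞 L)) (hP : (q : 𝓞 L) ∈ P.asIdeal) :
    ∃ m : MaximalSpectrum (L ⊗[ℚ] ℚ_[q]), placeOf m = P :=
  exists_placeOfPoint_eq P hP

theorem range_placeOf :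
    Set.range (placeOf : MaximalSpectrum (L ⊗[ℚ] ℚ_[q]) → HeightOneSpectrum (𝓞 L)) =
      {P | (q : 𝓞 L) ∈ P.asIdeal} := by
  ext P
  constructor
  · rintro ⟨m, rfl⟩
    exact natCast_mem_placeOf m
  · intro hP
    exact exists_placeOf_eq P hP

/-- The valuation of `L` induced by a maximal ideal is equivalent to the adic valuation of its
prime: for `x : L`, `ψ_m (x ⊗ 1)` is integral iff `x` is integral at `placeOf m`. -/
theorem valE_le_one_iff (m : MaximalSpectrum (L ⊗[ℚ] ℚ_[q])) (x : L) :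
    valE q (ResField m) (Ideal.Quotient.mk m.asIdeal (x ⊗ₜ[ℚ] (1 : ℚ_[q]))) ≤ 1 ↔
      (placeOf m).valuation L x ≤ 1 :=
  wval_le_one_iff (ψ := pt m) x

theorem valE_lt_one_iff (m : MaximalSpectrum (L ⊗[ℚ] ℚ_[q])) (x : L) :
    valE q (ResField m) (Ideal.Quotient.mk m.asIdeal (x ⊗ₜ[ℚ] (1 : ℚ_[q]))) < 1 ↔
      (placeOf m).valuation L x < 1 :=
  wval_lt_one_iff (ψ := pt m) x

theorem valE_eq_one_iff (m : MaximalSpectrum (L ⊗[ℚ] ℚ_[q])) (x : L) :
    valE q (ResField m) (Ideal.Quotient.mk m.asIdeal (x ⊗ₜ[ℚ] (1 : ℚ_[q]))) = 1 ↔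
      (placeOf m).valuation L x = 1 :=
  wval_eq_one_iff (ψ := pt m) x

end Bijection

/-! ### Galois equivariance -/

section Galois

variable {L q}
variable {K : Type*} [Field K] [NumberField K] [Algebra K L]

open Fermat.Agent.PT.GLOB.Interface23

theorem coe_smul_integer (σ : L ≃ₐ[K] L) (x : 𝓞 L) : ((σ • x : 𝓞 L) : L) = σ (x : L) := rfl

/-- **Equivariance**: if `σ` maps the maximal ideal `m` into `m'` then
`placeOf m' = σ • placeOf m` (action of `Interface23`). -/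
theorem placeOf_smul (σ : L ≃ₐ[K] L) (m m' : MaximalSpectrum (L ⊗[ℚ] ℚ_[q]))
    (h : ∀ z ∈ m.asIdeal, tensorAut K L ℚ_[q] σ z ∈ m'.asIdeal) :
    placeOf m' = σ • placeOf m := by
  set ψ : L ⊗[ℚ] ℚ_[q] →+* ResField m' :=
    (pt m').comp ((tensorAut K L ℚ_[q] σ : (L ⊗[ℚ] ℚ_[q]) ≃ₐ[ℚ] (L ⊗[ℚ] ℚ_[q])) :
      (L ⊗[ℚ] ℚ_[q]) →+* (L ⊗[ℚ] ℚ_[q])) with hψdef
  have hψ : IsPoint L q (ResField m') ψ := by
    intro c
    change pt m' (tensorAut K L ℚ_[q] σ ((1 : L) ⊗ₜ[ℚ] c)) = _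
    rw [tensorAut_tmul, map_one]
    rfl
  have hker : ∀ z ∈ m.asIdeal, ψ z = 0 := fun z hz =>
    Ideal.Quotient.eq_zero_iff_mem.mpr (h z hz)
  have hP := placeOfPoint_eq_placeOf hψ m hker
  apply HeightOneSpectrum.ext
  ext x
  rw [smul_asIdeal, Ideal.mem_pointwise_smul_iff_inv_smul_mem, ← hP]
  change _ ↔ wval L q (ResField m') ψ ((σ⁻¹ • x : 𝓞 L) : L) < 1
  rw [wval_apply]
  change _ ↔ valE q (ResField m') (pt m' (tensorAut K L ℚ_[q] σ
    (((σ⁻¹ • x : 𝓞 L) : L) ⊗ₜ[ℚ] (1 : ℚ_[q])))) < 1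
  rw [tensorAut_tmul, coe_smul_integer]
  have : σ ((σ⁻¹ : L ≃ₐ[K] L) (x : L)) = (x : L) := by
    change (σ * σ⁻¹) (x : L) = _
    rw [mul_inv_cancel]
    rfl
  rw [this]
  rfl

end Galois

end

end Fermat.Agent.PT.GLOB.PlaceBridge24
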