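/-
Program F (S55), chapter GLOB, leaf L-SEMI (helper24): the Herbrand quotient of the units of the
semilocal algebra `L ⊗[ℚ] ℚ_[q]` (`= Interface23.Loc L q`) for a cyclic extension `L/K` of prime
degree `p` with generator `σ`:

  `h((L ⊗ ℚ_q)ˣ) = p ^ #{primes P of 𝓞 L above q with σ • P = P}`,

given LOC's local Herbrand quotients `LocalHerbrand14.LocalHerbrand q p` (`h(Eˣ) = p` for a cyclic
extension of `q`-adic fields of degree `p`).

* General part, for a reduced Artinian ring `A`: primitive idempotents `idem A m`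
  (`idem_mul_self`, `idem_mul_of_ne`, `sum_idem`, `idem_mem_iff`), the permutation `maxPerm s` of
  `MaximalSpectrum A` induced by `s : A ≃+* A` (`mem_maxPerm`, `apply_mem_maxPerm`, `map_idem`,
  `maxPerm_mul/one/pow`), `blockHom m : e_m-block of Additive Aˣ ≃ Additive (A ⧸ m)ˣ`, and
  `isFin_hq_units_artinian` (orbit peeling through `IdemHerbrand24` / `IdemUnits24`: free orbits
  contribute `1`, fixed maximal ideals the Herbrand quotient of their residue field).
* Tensor part: `isReduced_tensor`, `tAut q σ`, `resAut σ m hm` (the automorphism of the residue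
  field at a fixed maximal ideal, of order exactly `p`), `isFin_hq_loc` (exponent = number of fixed
  maximal ideals), `placeOf_maxPerm`, `maxPerm_eq_self_iff`, `card_fixed_eq`, and the final
  `isFin_hq_loc_primes` (exponent = number of fixed primes above `q`).
-/
import Mathlib
import Fermat.Agent.PT.GLOB.IdemUnits24
import Fermat.Agent.PT.GLOB.PlaceBridge24
import Fermat.Agent.PT.GLOB.FirstIneq16
import Fermat.Agent.PT.LOC.LocalHerbrand14
import Fermat.Agent.PT.GLOB.UnitsBridge24

set_option autoImplicit false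
set_option linter.unusedSectionVars false
set_option linter.style.haveILetI false

namespace Fermat.Agent.PT.GLOB.SemiLocalHerbrand24

open Fermat.Agent.CFT.Herbrand Fermat.Agent.PT.FG.HerbrandQuot18
open Fermat.Agent.PT.GLOB.IdemHerbrand24 Fermat.Agent.PT.GLOB.IdemUnits24
open Fermat.Agent.PT.GLOB.HerbrandGroup24 (toEnd toEnd_apply toEnd_pow_eq_one)

/-! ### Reduced Artinian rings: primitive idempotents -/

section Artinian

variable (A : Type*) [CommRing A] [IsArtinianRing A] [IsReduced A]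

open Classical in
/-- The primitive idempotent of a reduced Artinian ring at a maximal ideal. -/
noncomputable def idem (m : MaximalSpectrum A) : A :=
  (IsArtinianRing.equivPi A).symm (Pi.single m 1)

variable {A}

theorem mk_idem_self (m : MaximalSpectrum A) :
    Ideal.Quotient.mk m.asIdeal (idem A m) = 1 := by
  classical
  have h : IsArtinianRing.equivPi A (idem A m) m = 1 := by
    rw [idem, AlgEquiv.apply_symm_apply, Pi.single_eq_same]
  exact h

theorem mk_idem_of_ne {m m' : MaximalSpectrum A} (h : m' ≠ m) :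
    Ideal.Quotient.mk m'.asIdeal (idem A m) = 0 := by
  classical
  have h' : IsArtinianRing.equivPi A (idem A m) m' = 0 := by
    rw [idem, AlgEquiv.apply_symm_apply, Pi.single_eq_of_ne h]
  exact h'

theorem ext_mk {x y : A}
    (h : ∀ m : MaximalSpectrum A, Ideal.Quotient.mk m.asIdeal x = Ideal.Quotient.mk m.asIdeal y) :
    x = y := by
  apply (IsArtinianRing.equivPi A).injective
  funext m
  exact h m

theorem idem_mul_self (m : MaximalSpectrum A) : idem A m * idem A m = idem A m := by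
  apply ext_mk
  intro m'
  rw [map_mul]
  by_cases h : m' = m
  · subst h
    rw [mk_idem_self, mul_one]
  · rw [mk_idem_of_ne h, mul_zero]

theorem idem_mul_of_ne {m m' : MaximalSpectrum A} (h : m ≠ m') : idem A m * idem A m' = 0 := by
  apply ext_mk
  intro m''
  rw [map_mul, map_zero]
  by_cases h1 : m'' = m
  · subst h1
    rw [mk_idem_of_ne h, mul_zero]
  · rw [mk_idem_of_ne h1, zero_mul]

theorem sum_idem [Fintype (MaximalSpectrum A)] : ∑ m : MaximalSpectrum A, idem A m = 1 := by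
  apply ext_mk
  intro m'
  rw [map_sum, map_one, Finset.sum_eq_single m']
  · exact mk_idem_self m'
  · intro m _ hne
    exact mk_idem_of_ne hne.symm
  · intro h
    exact absurd (Finset.mem_univ m') h

theorem idem_mul_mem {m : MaximalSpectrum A} {z : A} (hz : z ∈ m.asIdeal) : idem A m * z = 0 := by
  apply ext_mk
  intro m'
  rw [map_mul, map_zero]
  by_cases h : m' = m
  · subst h
    rw [Ideal.Quotient.eq_zero_iff_mem.mpr hz, mul_zero]
  · rw [mk_idem_of_ne h, zero_mul]

theorem idem_mem_iff (m m' : MaximalSpectrum A) : idem A m ∈ m'.asIdeal ↔ m' ≠ m := by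
  constructor
  · intro h hmm
    subst hmm
    have h1 := mk_idem_self m'
    rw [Ideal.Quotient.eq_zero_iff_mem.mpr h] at h1
    haveI := m'.isMaximal
    haveI : Nontrivial (A ⧸ m'.asIdeal) := Ideal.Quotient.nontrivial_iff.mpr m'.isMaximal.ne_top
    exact zero_ne_one h1
  · intro h
    exact Ideal.Quotient.eq_zero_iff_mem.mp (mk_idem_of_ne h)

theorem one_sub_idem_mem (m : MaximalSpectrum A) : 1 - idem A m ∈ m.asIdeal := by
  rw [← Ideal.Quotient.eq_zero_iff_mem, map_sub, map_one, mk_idem_self, sub_self]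

/-! ### The permutation of the maximal ideals induced by an automorphism -/

/-- The permutation of the maximal spectrum induced by a ring automorphism: `m ↦ s(m)`. -/
noncomputable def maxPerm (s : A ≃+* A) : Equiv.Perm (MaximalSpectrum A) where
  toFun m := ⟨m.asIdeal.comap (s.symm : A →+* A),
    haveI := m.isMaximal
    Ideal.comap_isMaximal_of_surjective _ s.symm.surjective⟩
  invFun m := ⟨m.asIdeal.comap (s : A →+* A),
    haveI := m.isMaximal
    Ideal.comap_isMaximal_of_surjective _ s.surjective⟩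
  left_inv m := by
    apply MaximalSpectrum.ext
    ext z
    change s.symm (s z) ∈ m.asIdeal ↔ z ∈ m.asIdeal
    rw [RingEquiv.symm_apply_apply]
  right_inv m := by
    apply MaximalSpectrum.ext
    ext z
    change s (s.symm z) ∈ m.asIdeal ↔ z ∈ m.asIdeal
    rw [RingEquiv.apply_symm_apply]

theorem mem_maxPerm (s : A ≃+* A) (m : MaximalSpectrum A) (z : A) :
    z ∈ (maxPerm s m).asIdeal ↔ s.symm z ∈ m.asIdeal := Iff.rfl

theorem apply_mem_maxPerm (s : A ≃+* A) (m : MaximalSpectrum A) (z : A) :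
    s z ∈ (maxPerm s m).asIdeal ↔ z ∈ m.asIdeal := by
  rw [mem_maxPerm, RingEquiv.symm_apply_apply]

theorem maxPerm_eq_of_forall (s : A ≃+* A) (m m' : MaximalSpectrum A)
    (h : ∀ z ∈ m.asIdeal, s z ∈ m'.asIdeal) : maxPerm s m = m' := by
  apply MaximalSpectrum.ext
  have hle : (maxPerm s m).asIdeal ≤ m'.asIdeal := by
    intro z hz
    rw [mem_maxPerm] at hz
    have := h _ hz
    rwa [RingEquiv.apply_symm_apply] at this
  exact (maxPerm s m).isMaximal.eq_of_le m'.isMaximal.ne_top hle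

theorem map_idem (s : A ≃+* A) (m : MaximalSpectrum A) : s (idem A m) = idem A (maxPerm s m) := by
  apply ext_mk
  intro m'
  by_cases h : m' = maxPerm s m
  · subst h
    rw [mk_idem_self]
    have h1 := (apply_mem_maxPerm s m (1 - idem A m)).mpr (one_sub_idem_mem m)
    rw [map_sub, map_one, ← Ideal.Quotient.eq_zero_iff_mem, map_sub, map_one, sub_eq_zero] at h1
    exact h1.symm
  · rw [mk_idem_of_ne h, Ideal.Quotient.eq_zero_iff_mem]
    have h2 : m' = maxPerm s ((maxPerm s).symm m') := ((maxPerm s).apply_symm_apply m').symm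
    rw [h2, apply_mem_maxPerm, idem_mem_iff]
    intro h3
    apply h
    rw [← h3, Equiv.apply_symm_apply]

theorem maxPerm_mul (s t : A ≃+* A) : maxPerm (s * t) = maxPerm s * maxPerm t := by
  ext m : 1
  apply MaximalSpectrum.ext
  ext z
  rw [Equiv.Perm.mul_apply, mem_maxPerm, mem_maxPerm, mem_maxPerm]
  rfl

theorem maxPerm_one : maxPerm (1 : A ≃+* A) = 1 := by
  ext m : 1
  apply MaximalSpectrum.ext
  ext z
  rw [mem_maxPerm]
  rfl

theorem maxPerm_pow (s : A ≃+* A) (k : ℕ) : maxPerm s ^ k = maxPerm (s ^ k) := by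
  induction k with
  | zero => rw [pow_zero, pow_zero, maxPerm_one]
  | succ k ih => rw [pow_succ, pow_succ, maxPerm_mul, ih]

/-! ### The block of the unit group at a maximal ideal -/

section Block

variable (m : MaximalSpectrum A)

/-- The block `{u | u = 1 + e_m (u - 1)}` of `Aˣ` maps isomorphically onto `(A ⧸ m)ˣ`. -/
noncomputable def blockHom :
    LinearMap.range (piE (idem A m) (idem_mul_self m)) →+ Additive (A ⧸ m.asIdeal)ˣ :=
  (MonoidHom.toAdditive (Units.map ((Ideal.Quotient.mk m.asIdeal : A →+* A ⧸ m.asIdeal) :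
    A →* A ⧸ m.asIdeal))).comp
    (LinearMap.range (piE (idem A m) (idem_mul_self m))).subtype.toAddMonoidHom

theorem blockHom_apply (x : LinearMap.range (piE (idem A m) (idem_mul_self m))) :
    blockHom m x = Additive.ofMul (Units.map ((Ideal.Quotient.mk m.asIdeal : A →+* A ⧸ m.asIdeal) :
      A →* A ⧸ m.asIdeal) (Additive.toMul (x : Additive Aˣ))) := rfl

theorem coe_eq_of_mem_range {x : Additive Aˣ}
    (hx : x ∈ LinearMap.range (piE (idem A m) (idem_mul_self m))) :
    ((Additive.toMul x : Aˣ) : A) = 1 + idem A m * (((Additive.toMul x : Aˣ) : A) - 1) := by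
  have h1 := (mem_range_iff_of_idem (piE_idem (idem A m) (idem_mul_self m)) x).mp hx
  obtain ⟨u, rfl⟩ := Additive.ofMul.surjective x
  rw [piE_apply] at h1
  have h2 : projU (idem A m) (idem_mul_self m) u = u := Additive.ofMul.injective h1
  have h3 := congrArg (fun w : Aˣ => (w : A)) h2
  simp only [coe_projU] at h3
  exact h3.symm

theorem blockHom_injective : Function.Injective (blockHom m) := by
  rw [injective_iff_map_eq_zero]
  intro x hx
  rw [blockHom_apply] at hx
  have h0 : Units.map ((Ideal.Quotient.mk m.asIdeal : A →+* A ⧸ m.asIdeal) : A →* A ⧸ m.asIdeal)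
      (Additive.toMul (x : Additive Aˣ)) = 1 := hx
  set u : Aˣ := Additive.toMul (x : Additive Aˣ) with hu
  have h1 : Ideal.Quotient.mk m.asIdeal (u : A) = 1 := by
    have := congrArg (fun w : (A ⧸ m.asIdeal)ˣ => (w : A ⧸ m.asIdeal)) h0
    simpa using this
  have h2 : (u : A) - 1 ∈ m.asIdeal := by
    rw [← Ideal.Quotient.eq_zero_iff_mem, map_sub, h1, map_one, sub_self]
  have h3 := coe_eq_of_mem_range m x.2
  rw [← hu, idem_mul_mem h2, add_zero] at h3
  have h4 : u = 1 := Units.ext h3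
  apply Subtype.ext
  change (x : Additive Aˣ) = 0
  exact Additive.toMul.injective h4

theorem blockHom_surjective : Function.Surjective (blockHom m) := by
  intro y
  set ubar : (A ⧸ m.asIdeal)ˣ := Additive.toMul y with hubar
  obtain ⟨u0, hu0⟩ := Ideal.Quotient.mk_surjective (ubar : A ⧸ m.asIdeal)
  obtain ⟨v0, hv0⟩ := Ideal.Quotient.mk_surjective ((ubar⁻¹ : (A ⧸ m.asIdeal)ˣ) : A ⧸ m.asIdeal)
  have hmem : u0 * v0 - 1 ∈ m.asIdeal := by
    rw [← Ideal.Quotient.eq_zero_iff_mem, map_sub, map_mul, hu0, hv0, map_one, Units.mul_inv,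
      sub_self]
  have hmem' : v0 * u0 - 1 ∈ m.asIdeal := by
    rw [mul_comm]; exact hmem
  have he := idem_mul_self m
  have h0 := idem_mul_mem hmem
  have h0' := idem_mul_mem hmem'
  let w : Aˣ := ⟨1 + idem A m * (u0 - 1), 1 + idem A m * (v0 - 1), by
    linear_combination (u0 - 1) * (v0 - 1) * he + h0, by
    linear_combination (u0 - 1) * (v0 - 1) * he + h0'⟩
  have hw : projU (idem A m) (idem_mul_self m) w = w := by
    apply Units.ext
    rw [coe_projU]
    change 1 + idem A m * ((1 + idem A m * (u0 - 1)) - 1) = 1 + idem A m * (u0 - 1)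
    linear_combination (u0 - 1) * he
  refine ⟨⟨Additive.ofMul w, ⟨Additive.ofMul w, ?_⟩⟩, ?_⟩
  · rw [piE_apply, hw]
  · rw [blockHom_apply]
    apply Additive.toMul.injective
    apply Units.ext
    change Ideal.Quotient.mk m.asIdeal (1 + idem A m * (u0 - 1)) = (ubar : A ⧸ m.asIdeal)
    rw [map_add, map_mul, map_sub, map_one, mk_idem_self, hu0]
    ring

end Block

/-- **Herbrand quotient of the units of a reduced Artinian ring** with an automorphism of prime
order `p`: the product of the Herbrand quotients of the residue fields at the FIXED maximal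
ideals. -/
theorem isFin_hq_units_artinian [Fintype (MaximalSpectrum A)] [DecidableEq (MaximalSpectrum A)]
    (s : A ≃+* A) (S : Aˣ →* Aˣ) (hS : ∀ u : Aˣ, ((S u : Aˣ) : A) = s (u : A)) (p : ℕ)
    [Fact p.Prime] (hSp : toEnd S ^ p = 1) (hsp : s ^ p = 1) (c : ℚ)
    (hfix : ∀ m : MaximalSpectrum A, maxPerm s m = m →
      ∃ (τ' : Module.End ℤ (Additive (A ⧸ m.asIdeal)ˣ)) (hτ' : τ' ^ p = 1),
        (∀ u : Aˣ, τ' (Additive.ofMul (Units.map ((Ideal.Quotient.mk m.asIdeal :
            A →+* A ⧸ m.asIdeal) : A →* A ⧸ m.asIdeal) u)) =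
          Additive.ofMul (Units.map ((Ideal.Quotient.mk m.asIdeal :
            A →+* A ⧸ m.asIdeal) : A →* A ⧸ m.asIdeal) (S u))) ∧
        IsFin (cyc τ' p hτ') ∧ hq (cyc τ' p hτ') = c) :
    IsFin (cyc (toEnd S) p hSp) ∧
      hq (cyc (toEnd S) p hSp) =
        c ^ (Finset.univ.filter (fun m : MaximalSpectrum A => maxPerm s m = m)).card := by
  have key := isFin_hq_units (s : A →+* A) S hS p hSp (idem A) idem_mul_self
    (fun m m' h => idem_mul_of_ne h) sum_idem (maxPerm s) (fun m => map_idem s m)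
    (by rw [maxPerm_pow, hsp, maxPerm_one]) (fun _ => c) ?_
  · rw [Finset.prod_const] at key
    exact key
  · intro m hm
    obtain ⟨τ', hτ', hcompat, H⟩ := hfix m hm
    have hcomm : Commute (toEnd S) (piE (idem A m) (idem_mul_self m)) := by
      have := toEnd_mul_piE (s : A →+* A) S hS (idem A m) (idem A m) (idem_mul_self m)
        (idem_mul_self m) (by
          change s (idem A m) = idem A m
          rw [map_idem, hm])
      exact this
    refine hasHq_of_bijective (toEnd S) p hSp τ' hτ' _ hcomm (blockHom m) ?_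
      ⟨blockHom_injective m, blockHom_surjective m⟩ c H
    intro x
    rw [blockHom_apply, blockHom_apply, hcompat]
    rfl

end Artinian

/-! ### The semilocal algebra `L ⊗ ℚ_q` -/

section Tensor

open scoped TensorProduct
open NumberField Module
open Fermat.Agent.PT.GLOB.Interface23 Fermat.Agent.PT.GLOB.PlaceBridge24
open Fermat.Agent.PT.GLOB.FirstIneq16 Fermat.Agent.PT.LOC.LocalHerbrand14

variable {K L : Type} [Field K] [Field L] [NumberField K] [NumberField L] [Algebra K L]
  (q : ℕ) [Fact q.Prime]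

instance isReduced_tensor : IsReduced (L ⊗[ℚ] ℚ_[q]) := by
  haveI : Algebra.FormallyUnramified ℚ L := Algebra.FormallyUnramified.of_isSeparable ℚ L
  haveI : Algebra.FormallyUnramified ℚ_[q] (ℚ_[q] ⊗[ℚ] L) := inferInstance
  haveI : IsReduced (ℚ_[q] ⊗[ℚ] L) :=
    Algebra.FormallyUnramified.isReduced_of_field ℚ_[q] (ℚ_[q] ⊗[ℚ] L)
  exact isReduced_of_injective (Algebra.TensorProduct.comm ℚ L ℚ_[q]).toRingEquiv.toRingHom
    (Algebra.TensorProduct.comm ℚ L ℚ_[q]).injective

/-- `Interface23.tensorAut` as a ring automorphism of `L ⊗ ℚ_q`. -/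
noncomputable def tAut (σ : L ≃ₐ[K] L) : (L ⊗[ℚ] ℚ_[q]) ≃+* (L ⊗[ℚ] ℚ_[q]) :=
  (tensorAut K L ℚ_[q] σ).toRingEquiv

theorem tAut_apply (σ : L ≃ₐ[K] L) (z : L ⊗[ℚ] ℚ_[q]) : tAut q σ z = σ • z := rfl

theorem tAut_pow_apply (σ : L ≃ₐ[K] L) (k : ℕ) (z : L ⊗[ℚ] ℚ_[q]) :
    (tAut q σ ^ k) z = (σ ^ k) • z := by
  induction k generalizing z with
  | zero => rw [pow_zero, pow_zero, one_smul]; rfl
  | succ k ih =>
    rw [pow_succ, pow_succ, mul_smul, ← ih]
    rfl

theorem tAut_pow_eq_one (σ : L ≃ₐ[K] L) (p : ℕ) (h : σ ^ p = 1) : tAut q σ ^ p = 1 := by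
  ext z
  rw [tAut_pow_apply, h, one_smul]
  rfl

variable {q}

/-- The automorphism of the residue field at a fixed maximal ideal. -/
noncomputable def resAut (σ : L ≃ₐ[K] L) (m : MaximalSpectrum (L ⊗[ℚ] ℚ_[q]))
    (hm : maxPerm (tAut q σ) m = m) : ResField m ≃ₐ[ℚ_[q]] ResField m :=
  AlgEquiv.ofRingEquiv
    (f := Ideal.quotientEquiv m.asIdeal m.asIdeal (tAut q σ) (by
      have h : ∀ w, (tAut q σ).symm w ∈ m.asIdeal ↔ w ∈ m.asIdeal := by
        intro w
        rw [← mem_maxPerm, hm]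
      apply le_antisymm
      · intro z hz
        have h1 := Ideal.mem_map_of_mem (tAut q σ).toRingHom ((h z).mpr hz)
        have h2 : (tAut q σ).toRingHom ((tAut q σ).symm z) = z :=
          (tAut q σ).apply_symm_apply z
        rwa [h2] at h1
      · rw [Ideal.map_le_iff_le_comap]
        intro w hw
        rw [Ideal.mem_comap]
        apply (h _).mp
        have h2 : (tAut q σ).symm ((tAut q σ) w) = w :=
          (tAut q σ).symm_apply_apply w
        have h3 : (tAut q σ).symm ((tAut q σ) w) ∈ m.asIdeal := by rw [h2]; exact hw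
        exact h3))
    (by
      intro c
      rw [algebraMap_resField]
      change Ideal.quotientEquiv m.asIdeal m.asIdeal (tAut q σ) _
        (Ideal.Quotient.mk m.asIdeal ((1 : L) ⊗ₜ[ℚ] c)) = _
      rw [Ideal.quotientEquiv_mk]
      change Ideal.Quotient.mk m.asIdeal (tensorAut K L ℚ_[q] σ ((1 : L) ⊗ₜ[ℚ] c)) = _
      rw [tensorAut_tmul, map_one])

theorem resAut_mk (σ : L ≃ₐ[K] L) (m : MaximalSpectrum (L ⊗[ℚ] ℚ_[q]))
    (hm : maxPerm (tAut q σ) m = m) (z : L ⊗[ℚ] ℚ_[q]) :
    resAut σ m hm (Ideal.Quotient.mk m.asIdeal z) = Ideal.Quotient.mk m.asIdeal (σ • z) := rfl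

theorem resAut_pow_mk (σ : L ≃ₐ[K] L) (m : MaximalSpectrum (L ⊗[ℚ] ℚ_[q]))
    (hm : maxPerm (tAut q σ) m = m) (k : ℕ) (z : L ⊗[ℚ] ℚ_[q]) :
    (resAut σ m hm ^ k) (Ideal.Quotient.mk m.asIdeal z) =
      Ideal.Quotient.mk m.asIdeal ((σ ^ k) • z) := by
  induction k generalizing z with
  | zero => rw [pow_zero, pow_zero, one_smul]; rfl
  | succ k ih =>
    rw [pow_succ, pow_succ, AlgEquiv.mul_apply, resAut_mk, ih, mul_smul]

theorem orderOf_resAut (σ : L ≃ₐ[K] L) (m : MaximalSpectrum (L ⊗[ℚ] ℚ_[q]))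
    (hm : maxPerm (tAut q σ) m = m) (p : ℕ) [hp : Fact p.Prime] (hσp : σ ^ p = 1)
    (hσ1 : σ ≠ 1) : orderOf (resAut σ m hm) = p := by
  apply orderOf_eq_prime
  · ext y
    obtain ⟨z, rfl⟩ := Ideal.Quotient.mk_surjective y
    rw [resAut_pow_mk, hσp, one_smul]
    rfl
  · intro h
    apply hσ1
    ext x
    have h1 := congrArg (fun f : ResField m ≃ₐ[ℚ_[q]] ResField m =>
      f (Ideal.Quotient.mk m.asIdeal (x ⊗ₜ[ℚ] (1 : ℚ_[q])))) h
    simp only [AlgEquiv.one_apply] at h1
    rw [resAut_mk, smul_tmul'] at h1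
    have hinj : Function.Injective (toPoint L q (ResField m) (pt m)) :=
      (toPoint L q (ResField m) (pt m)).injective
    exact hinj h1

/-- **Herbrand quotient of `(L ⊗ ℚ_q)ˣ`** for `Gal(L/K) = ⟨σ⟩` of prime order `p`, given the local
Herbrand quotients (LOC): `p ^ #{maximal ideals fixed by σ}`. -/
theorem isFin_hq_loc [Fintype (MaximalSpectrum (L ⊗[ℚ] ℚ_[q]))]
    [DecidableEq (MaximalSpectrum (L ⊗[ℚ] ℚ_[q]))] (p : ℕ) [hp : Fact p.Prime]
    (hLH : LocalHerbrand q p) (σ : L ≃ₐ[K] L) (hσp : σ ^ p = 1) (hσ1 : σ ≠ 1)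
    (h : smulEnd (L ⊗[ℚ] ℚ_[q])ˣ σ ^ p = 1) :
    IsFin (cyc (smulEnd (L ⊗[ℚ] ℚ_[q])ˣ σ) p h) ∧
      hq (cyc (smulEnd (L ⊗[ℚ] ℚ_[q])ˣ σ) p h) =
        (p : ℚ) ^ (Finset.univ.filter
          (fun m : MaximalSpectrum (L ⊗[ℚ] ℚ_[q]) => maxPerm (tAut q σ) m = m)).card := by
  apply isFin_hq_units_artinian (tAut q σ)
    (MulDistribMulAction.toMonoidHom (L ⊗[ℚ] ℚ_[q])ˣ σ) (fun u => rfl) p h
    (tAut_pow_eq_one q σ p hσp) (p : ℚ)
  intro m hm
  have hord := orderOf_resAut σ m hm p hσp hσ1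
  have hpow : toEnd (Units.map ((resAut σ m hm : ResField m ≃ₐ[ℚ_[q]] ResField m) :
      ResField m →* ResField m)) ^ p = 1 := by
    apply toEnd_tauU_pow_eq_one
    rw [← hord]
    exact pow_orderOf_eq_one _
  refine ⟨_, hpow, ?_, hLH (ResField m) (resAut σ m hm) hord hpow⟩
  intro u
  rw [toEnd_apply]
  congr 1

/-! ### Conversion of the count to primes of `𝓞 L` -/

open IsDedekindDomain HeightOneSpectrum Fermat.Agent.PT.GLOB.UnitsBridge24

theorem placeOf_maxPerm (σ : L ≃ₐ[K] L) (m : MaximalSpectrum (L ⊗[ℚ] ℚ_[q])) :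
    placeOf (maxPerm (tAut q σ) m) = σ • placeOf m :=
  placeOf_smul σ m (maxPerm (tAut q σ) m)
    (fun z hz => (apply_mem_maxPerm (tAut q σ) m z).mpr hz)

theorem maxPerm_eq_self_iff (σ : L ≃ₐ[K] L) (m : MaximalSpectrum (L ⊗[ℚ] ℚ_[q])) :
    maxPerm (tAut q σ) m = m ↔ σ • placeOf m = placeOf m := by
  constructor
  · intro h
    rw [← placeOf_maxPerm, h]
  · intro h
    apply placeOf_injective
    rw [placeOf_maxPerm, h]

end Tensor

section Final

open scoped TensorProduct
open NumberField Module IsDedekindDomain HeightOneSpectrum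
open Fermat.Agent.PT.GLOB.Interface23 Fermat.Agent.PT.GLOB.PlaceBridge24
open Fermat.Agent.PT.GLOB.FirstIneq16 Fermat.Agent.PT.LOC.LocalHerbrand14
open Fermat.Agent.PT.GLOB.UnitsBridge24

variable {K L : Type} [Field K] [Field L] [NumberField K] [NumberField L] [Algebra K L]

open scoped Classical in
/-- The maximal ideals of `L ⊗ ℚ_q` fixed by `σ` correspond to the primes of `𝓞 L` above `q` fixed
by `σ`. -/
theorem card_fixed_eq (q : Nat.Primes) (σ : L ≃ₐ[K] L)
    [Fintype (MaximalSpectrum (L ⊗[ℚ] ℚ_[(q : ℕ)]))] :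
    (Finset.univ.filter
      (fun m : MaximalSpectrum (L ⊗[ℚ] ℚ_[(q : ℕ)]) => maxPerm (tAut (q : ℕ) σ) m = m)).card =
      ((primesOverT {q} L).filter fun P => σ • P = P).card := by
  apply Finset.card_bij (fun m _ => placeOf m)
  · intro m hm
    rw [Finset.mem_filter] at hm ⊢
    refine ⟨?_, (maxPerm_eq_self_iff σ m).mp hm.2⟩
    rw [mem_primesOverT]
    refine ⟨q, Finset.mem_singleton_self q, ?_⟩
    have := natCast_mem_placeOf (L := L) (q := (q : ℕ)) m
    rwa [Int.cast_natCast]
  · intro m _ m' _ h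
    exact placeOf_injective h
  · intro P hP
    rw [Finset.mem_filter, mem_primesOverT] at hP
    obtain ⟨⟨q', hq', hmem⟩, hfix⟩ := hP
    rw [Finset.mem_singleton] at hq'
    subst hq'
    rw [Int.cast_natCast] at hmem
    obtain ⟨m, rfl⟩ := exists_placeOf_eq (L := L) (q := (q' : ℕ)) P hmem
    refine ⟨m, ?_, rfl⟩
    rw [Finset.mem_filter]
    exact ⟨Finset.mem_univ m, (maxPerm_eq_self_iff σ m).mpr hfix⟩

open scoped Classical in
/-- **L-SEMI**: for `L/K` cyclic of prime degree `p` with generator `s`, the cyclic pair of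
`(Loc L q)ˣ = (L ⊗ ℚ_q)ˣ` is finite and its Herbrand quotient is `p ^ #{P ∣ q : s • P = P}`. -/
theorem isFin_hq_loc_primes (q : Nat.Primes) (p : ℕ) [Fact p.Prime]
    (hLH : LocalHerbrand (q : ℕ) p) (s : L ≃ₐ[K] L) (hsp : s ^ p = 1) (hs1 : s ≠ 1)
    (h : smulEnd (Loc L q)ˣ s ^ p = 1) :
    IsFin (cyc (smulEnd (Loc L q)ˣ s) p h) ∧
      hq (cyc (smulEnd (Loc L q)ˣ s) p h) =
        (p : ℚ) ^ ((primesOverT {q} L).filter fun P => s • P = P).card := by
  haveI : Fintype (MaximalSpectrum (L ⊗[ℚ] ℚ_[(q : ℕ)])) := Fintype.ofFinite _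
  have key := isFin_hq_loc (K := K) (L := L) (q := (q : ℕ)) p hLH s hsp hs1 h
  rw [card_fixed_eq q s] at key
  exact key

end Final

end Fermat.Agent.PT.GLOB.SemiLocalHerbrand24

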