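/-
Program F (S55), chapter GLOB (helper24): **the first-inequality input, unconditionally**:
`firstInput p : CycToClasses16.FirstInput p`, i.e. for every cyclic layer `L/K` of prime degree `p`
with generator `s` the cyclic pair of `IT T L = ∏_{q ∈ T} (L ⊗ ℚ_q)ˣ` is finite with Herbrand
quotient `p ^ #{primes of K above T with a single prime of L above them}`.

Glue of: `HerbrandPi16.isFin_hq_IT` (product over `q ∈ T`), `SemiLocalHerbrand24.isFin_hq_loc_primes`
(one `q`), `UnitsCohTriv27.localHerbrand` (LOC), `FixedPrimes16.card_fixed_primesOverT` and the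
disjoint-union count `card_filter_primesOverT`.
-/
import Mathlib
import Fermat.Agent.PT.GLOB.SemiLocalHerbrand24
import Fermat.Agent.PT.GLOB.HerbrandPi16
import Fermat.Agent.PT.GLOB.FixedPrimes16
import Fermat.Agent.PT.GLOB.CycToClasses16
import Fermat.Agent.PT.LOC.UnitsCohTriv27

set_option autoImplicit false
set_option linter.unusedSectionVars false

namespace Fermat.Agent.PT.GLOB.FirstInput24

open NumberField Module IsDedekindDomain HeightOneSpectrum
open Fermat.Agent.CFT.Herbrand Fermat.Agent.PT.FG.HerbrandQuot18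
open Fermat.Agent.PT.GLOB.Interface23 Fermat.Agent.PT.GLOB.FirstIneq16
open Fermat.Agent.PT.GLOB.UnitsBridge24 Fermat.Agent.PT.GLOB.SplitCount17
open Fermat.Agent.PT.GLOB.SemiLocalHerbrand24 Fermat.Agent.PT.GLOB.HerbrandPi16
open Fermat.Agent.PT.GLOB.FixedPrimes16 Fermat.Agent.PT.GLOB.CycToClasses16

section Count

variable (L : Type*) [Field L] [NumberField L]

/-- A prime of `𝓞 L` contains at most one rational prime. -/
theorem eq_of_mem_mem (P : HeightOneSpectrum (𝓞 L)) (q q' : Nat.Primes)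
    (h : (((q : ℕ) : ℤ) : 𝓞 L) ∈ P.asIdeal) (h' : (((q' : ℕ) : ℤ) : 𝓞 L) ∈ P.asIdeal) :
    q = q' := by
  by_contra hne
  have hcop : Nat.Coprime (q : ℕ) (q' : ℕ) :=
    (Nat.coprime_primes q.2 q'.2).mpr (fun h => hne (Subtype.ext h))
  have hc : IsCoprime ((q : ℕ) : ℤ) ((q' : ℕ) : ℤ) := Nat.isCoprime_iff_coprime.mpr hcop
  obtain ⟨a, b, hab⟩ := hc
  have h1 : ((a * ((q : ℕ) : ℤ) + b * ((q' : ℕ) : ℤ) : ℤ) : 𝓞 L) ∈ P.asIdeal := by
    rw [Int.cast_add, Int.cast_mul, Int.cast_mul]
    exact P.asIdeal.add_mem (P.asIdeal.mul_mem_left _ h) (P.asIdeal.mul_mem_left _ h')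
  rw [hab, Int.cast_one] at h1
  exact P.isPrime.ne_top ((Ideal.eq_top_iff_one _).mpr h1)

theorem primesOverT_eq_biUnion [DecidableEq (HeightOneSpectrum (𝓞 L))] (T : Finset Nat.Primes) :
    primesOverT T L = T.biUnion (fun q => primesOverT {q} L) := by
  ext P
  rw [Finset.mem_biUnion, mem_primesOverT]
  constructor
  · rintro ⟨q, hq, hmem⟩
    exact ⟨q, hq, (mem_primesOverT {q} L P).mpr ⟨q, Finset.mem_singleton_self q, hmem⟩⟩
  · rintro ⟨q, hq, hP⟩
    obtain ⟨q', hq', hmem⟩ := (mem_primesOverT {q} L P).mp hP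
    rw [Finset.mem_singleton] at hq'
    subst hq'
    exact ⟨q', hq, hmem⟩

open scoped Classical in
/-- The count over `T` is the sum of the counts over the single primes `q ∈ T`. -/
theorem card_filter_primesOverT (T : Finset Nat.Primes)
    (pr : HeightOneSpectrum (𝓞 L) → Prop) :
    ((primesOverT T L).filter pr).card =
      ∑ q : T, ((primesOverT {q.1} L).filter pr).card := by
  rw [primesOverT_eq_biUnion L T, Finset.filter_biUnion, Finset.card_biUnion]
  · exact (Finset.sum_coe_sort T (fun q => ((primesOverT {q} L).filter pr).card)).symm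
  · intro q _ q' _ hne
    change Disjoint ((primesOverT {q} L).filter pr) ((primesOverT {q'} L).filter pr)
    rw [Finset.disjoint_left]
    intro P hP hP'
    rw [Finset.mem_filter] at hP hP'
    obtain ⟨q₁, hq₁, hmem⟩ := (mem_primesOverT {q} L P).mp hP.1
    obtain ⟨q₂, hq₂, hmem'⟩ := (mem_primesOverT {q'} L P).mp hP'.1
    rw [Finset.mem_singleton] at hq₁ hq₂
    subst hq₁ hq₂
    exact hne (eq_of_mem_mem L P q₁ q₂ hmem hmem')

end Count

/-- **The first-inequality input for all layers**, unconditionally. -/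
theorem firstInput (p : ℕ) : FirstInput p := by
  classical
  intro T K L _ _ _ _ _ _ hp hpT hdeg hunr s hs
  have : Fact p.Prime := ⟨hp⟩
  have hsp : s ^ p = 1 := galois_pow_eq_one K L p hdeg s
  have hs1 : s ≠ 1 := by
    intro h1
    have hcard : Nat.card (L ≃ₐ[K] L) = p := by
      rw [IsGalois.card_aut_eq_finrank, hdeg]
    have hsub : Subsingleton (L ≃ₐ[K] L) := by
      refine ⟨fun a b => ?_⟩
      have ha := hs a
      have hb := hs b
      rw [h1, Subgroup.zpowers_one_eq_bot, Subgroup.mem_bot] at ha hb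
      rw [ha, hb]
    have : Nat.card (L ≃ₐ[K] L) = 1 := Nat.card_unique
    rw [this] at hcard
    exact hp.one_lt.ne hcard
  have hloc : ∀ q : T,
      IsFin (cyc (smulEnd (Loc L q.1)ˣ s) p (smulEnd_pow_eq_one (Loc L q.1)ˣ s p hsp)) ∧
        hq (cyc (smulEnd (Loc L q.1)ˣ s) p (smulEnd_pow_eq_one (Loc L q.1)ˣ s p hsp)) =
          (p : ℚ) ^ ((primesOverT {q.1} L).filter fun P => s • P = P).card :=
    fun q => isFin_hq_loc_primes q.1 p
      (Fermat.Agent.PT.LOC.UnitsCohTriv27.localHerbrand (q.1 : ℕ) p) s hsp hs1 _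
  obtain ⟨hfin, hprod⟩ := isFin_hq_IT T K L s p hsp (fun q => (hloc q).1)
  refine ⟨smulEnd (IT T L) s, smulEnd_pow_eq_one (IT T L) s p hsp, fun _ => rfl, hfin, ?_⟩
  rw [hprod, Finset.prod_congr rfl (fun q _ => (hloc q).2), Finset.prod_pow_eq_pow_sum,
    ← card_filter_primesOverT L T (fun P => s • P = P), ← card_fixed_primesOverT K L T s hs]

end Fermat.Agent.PT.GLOB.FirstInput24
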