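/-
Program F (S55, Poitou–Tate), chapter GLOB (helper16): the SECOND INEQUALITY in the shape consumed
by `CycToClasses16.hilbert90C_normIndexC`.

* `normData T K L p hdeg hT hunr`: helper17's `SecondIneqTower17.NormData`, instantiated with helper6's
  norm map `TowerNorm6.normDown` (formulas `normDown_inclJ`, `normDown_single_of_absNorm_eq`,
  `inclJ_normDown`) and descent `TowerMaps6.exists_inclCT_eq_of_fixed`;
* `fixC_eq`, `normC_eq`: helper17's subgroups are `CycToClasses16.fixedCT`, `(normCT).range`;
* `secondInput p (hodd : Odd p) : CycToClasses16.SecondInput p` (unconditional);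
* `hilbert90C_normIndexC_of_firstInput p hodd (h1 : FirstInput p) : Hilbert90C p ∧ NormIndexC p`.
-/
import Fermat.Agent.PT.GLOB.SecondIneqTower17
import Fermat.Agent.PT.GLOB.TowerNorm6
import Fermat.Agent.PT.GLOB.CycToClasses16

set_option autoImplicit false
set_option linter.unusedSectionVars false

namespace Fermat.Agent.PT.GLOB.SecondInput16

open NumberField IsDedekindDomain Module
open Fermat.Agent.PT.GLOB.Interface23 Fermat.Agent.PT.GLOB.ClassAction23
open Fermat.Agent.PT.GLOB.Tower23
open Fermat.Agent.PT.GLOB.CycToClasses16

section Layer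

variable (T : Finset Nat.Primes)
variable (K L : Type) [Field K] [Field L] [NumberField K] [NumberField L] [Algebra K L]
  [IsGalois K L]

/-- helper17's `NormData`, instantiated with helper6's norm map `TowerNorm6.normDown`. -/
noncomputable def normData (p : ℕ) (hdeg : finrank K L = p) (hT : T.Nonempty)
    (hunr : IsUnramifiedOutside T K L) : SecondIneqTower17.NormData T K L p where
  N := TowerNorm6.normDown T K L hunr
  N_incl := fun j => by rw [TowerNorm6.normDown_inclJ, hdeg]
  N_prime := fun P' h => TowerNorm6.normDown_single_of_absNorm_eq T K L hunr P' h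
  incl_N := TowerNorm6.inclJ_normDown T K L hunr
  incl_fixed := fun σ j => TowerMaps6.smul_inclJ T K L σ j
  descent := fun c hc => TowerMaps6.exists_inclCT_eq_of_fixed T K L hT hunr c hc

theorem fixC_eq : SecondIneqTower17.fixC T K L = fixedCT T K L := by
  ext c
  rfl

theorem normC_eq : SecondIneqTower17.normC T K L = (normCT T K L).range := by
  ext c
  rw [SecondIneqTower17.mem_normC]
  constructor
  · rintro ⟨y, rfl⟩
    exact ⟨toCT T L y, (toCT_normJ T K L y).symm⟩
  · rintro ⟨d, rfl⟩
    obtain ⟨y, rfl⟩ := FixedClass6.toCT_surjective T L d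
    exact ⟨y, toCT_normJ T K L y⟩

end Layer

/-- **The second inequality for all layers**, in the shape consumed by
`CycToClasses16.hilbert90C_normIndexC`. -/
theorem secondInput (p : ℕ) (hodd : Odd p) : SecondInput p := by
  intro T K L _ _ _ _ _ _ hp hpT hdeg hunr
  have hp2 : p ≠ 2 := by
    rintro rfl
    exact absurd hodd (by decide)
  have hT : T.Nonempty := by
    obtain ⟨q, hq, _⟩ := hpT
    exact ⟨q, hq⟩
  have h := (SecondIneqTower17.relIndex_normC_le hp hp2 hdeg (normData T K L p hdeg hT hunr)).2
  rw [fixC_eq, normC_eq] at h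
  exact h

/-- With the second inequality in place only the first-inequality input remains. -/
theorem hilbert90C_normIndexC_of_firstInput (p : ℕ) (hodd : Odd p) (h1 : FirstInput p) :
    Hilbert90C p ∧ NormIndexC p :=
  hilbert90C_normIndexC p hodd h1 (secondInput p hodd)

end Fermat.Agent.PT.GLOB.SecondInput16
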