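/-
Program F (S55), chapter GLOB (helper24): **both inequalities, unconditionally**, and the
unconditional forms of helper19's dévissage.  For an odd prime `p`:

* `hilbert90C p hodd : Interface23.Hilbert90C p`, `normIndexC p hodd : Interface23.NormIndexC p`
  (from `FirstInput24.firstInput` and `SecondInput16.hilbert90C_normIndexC_of_firstInput`);
* `devissage_pgroup`, `h1_pgroup`, `card_H2_dvd_pgroup`: for `p ∈ S` and `L/K` Galois, unramified
  outside `S`, with `Gal(L/K)` a `p`-group: `H¹(Gal(L/K), C_S(L)) = 0`, `H²` finite of order dividing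
  `[L : K]` (`DevissageFinal19` without the hypotheses `h90`, `hNI`).
-/
import Mathlib
import Fermat.Agent.PT.GLOB.FirstInput24
import Fermat.Agent.PT.GLOB.SecondInput16
import Fermat.Agent.PT.GLOB.DevissageFinal19

set_option autoImplicit false
set_option linter.style.longLine false
set_option linter.unusedSectionVars false

open CategoryTheory groupCohomology NumberField

namespace Fermat.Agent.PT.GLOB.InequalitiesFinal24

open Fermat.Agent.PT.GLOB.Interface23 Fermat.Agent.PT.GLOB.ClassAction23

/-- Hilbert 90 for `T`-idele classes of cyclic layers of odd prime degree `p`. -/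
theorem hilbert90C (p : ℕ) (hodd : Odd p) : Hilbert90C p :=
  (Fermat.Agent.PT.GLOB.SecondInput16.hilbert90C_normIndexC_of_firstInput p hodd
    (Fermat.Agent.PT.GLOB.FirstInput24.firstInput p)).1

/-- The norm index statement for cyclic layers of odd prime degree `p`. -/
theorem normIndexC (p : ℕ) (hodd : Odd p) : NormIndexC p :=
  (Fermat.Agent.PT.GLOB.SecondInput16.hilbert90C_normIndexC_of_firstInput p hodd
    (Fermat.Agent.PT.GLOB.FirstInput24.firstInput p)).2

variable (p : ℕ) (S : Finset Nat.Primes)

/-- **GLOB-D1, unconditional.** -/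
theorem devissage_pgroup (hp : p.Prime) (hodd : Odd p) (hpS : ∃ q ∈ S, (q : ℕ) = p)
    (K L : Type) [Field K] [Field L] [NumberField K] [NumberField L] [Algebra K L]
    [IsGalois K L] (hun : IsUnramifiedOutside S K L) (hG : IsPGroup p (L ≃ₐ[K] L)) :
    Subsingleton (H1 (repCT S K L)) ∧ Finite (H2 (repCT S K L)) ∧
      Nat.card (H2 (repCT S K L)) ∣ Module.finrank K L :=
  Fermat.Agent.PT.GLOB.DevissageFinal19.devissage_pgroup p S hp hpS (hilbert90C p hodd)
    (normIndexC p hodd) K L hun hG

/-- The field `h1` of `InterfaceCF23.IsPClassFormation`, unconditionally. -/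
theorem h1_pgroup (hp : p.Prime) (hodd : Odd p) (hpS : ∃ q ∈ S, (q : ℕ) = p) :
    ∀ (K L : Type) [Field K] [Field L] [NumberField K] [NumberField L] [Algebra K L]
      [IsGalois K L], IsUnramifiedOutside S K L → IsPGroup p (L ≃ₐ[K] L) →
      Subsingleton (H1 (repCT S K L)) :=
  fun K L _ _ _ _ _ _ hun hG => (devissage_pgroup p S hp hodd hpS K L hun hG).1

/-- The upper bound half of the field `card` of `InterfaceCF23.IsPClassFormation`,
unconditionally. -/
theorem card_H2_dvd_pgroup (hp : p.Prime) (hodd : Odd p) (hpS : ∃ q ∈ S, (q : ℕ) = p) :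
    ∀ (K L : Type) [Field K] [Field L] [NumberField K] [NumberField L] [Algebra K L]
      [IsGalois K L], IsUnramifiedOutside S K L → IsPGroup p (L ≃ₐ[K] L) →
      Finite (H2 (repCT S K L)) ∧ Nat.card (H2 (repCT S K L)) ∣ Module.finrank K L :=
  fun K L _ _ _ _ _ _ hun hG => (devissage_pgroup p S hp hodd hpS K L hun hG).2

end Fermat.Agent.PT.GLOB.InequalitiesFinal24
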