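/-
Program F (S55), chapter GLOB, helper19: inflation–restriction and the **"same image" lemma** for
the `S`-idele class groups, in the maps `infH2CT` / `resH2CT` of `InterfaceCF23`.
-/
import Mathlib
import Fermat.Agent.PT.FG.SameImage19
import Fermat.Agent.PT.GLOB.InterfaceCF23
import Fermat.Agent.PT.GLOB.TowerGlue6

set_option autoImplicit false
set_option linter.style.longLine false
set_option linter.unusedSectionVars false

open CategoryTheory groupCohomology NumberField

namespace Fermat.Agent.PT.GLOB.SameImageCT19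

open Fermat.Agent.PT.FG.InfResFlex19 Fermat.Agent.PT.FG.SameImage19
open Fermat.Agent.PT.GLOB.Interface23 Fermat.Agent.PT.GLOB.ClassAction23
  Fermat.Agent.PT.GLOB.Tower23 Fermat.Agent.PT.GLOB.InterfaceCF23
  Fermat.Agent.PT.GLOB.Devissage19

section tower

variable (S : Finset Nat.Primes)
variable (K L M : Type) [Field K] [Field L] [Field M] [NumberField K] [NumberField L]
  [NumberField M] [Algebra K L] [Algebra L M] [Algebra K M] [IsScalarTower K L M]

theorem galIncl_eq : galIncl K L M = AlgEquiv.restrictScalarsHom K := rfl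

theorem galIncl_injective : Function.Injective (galIncl K L M) :=
  AlgEquiv.restrictScalarsHom_injective K

variable [IsGalois K L] [IsGalois K M]

theorem range_galIncl :
    (galIncl K L M).range = (AlgEquiv.restrictNormalHom (F := K) (K₁ := M) L).ker :=
  range_iotaHom_eq_ker_piHom K L M

theorem restrictNormalHom_surjective' :
    Function.Surjective (AlgEquiv.restrictNormalHom (F := K) (K₁ := M) L) :=
  AlgEquiv.restrictNormalHom_surjective M

theorem resHomCT_bijective : Function.Bijective (resHomCT S K L M).hom :=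
  Function.bijective_id

variable {S K L M}

theorem infHomCT_injective (hS : S.Nonempty) (hun : IsUnramifiedOutside S K M) :
    Function.Injective (infHomCT S K L M).hom := by
  have h := Fermat.Agent.PT.GLOB.TowerGlue6.towerDescent S hS K L M hun
  intro c d hcd
  exact congrArg Additive.ofMul (h.inj (congrArg Additive.toMul hcd))

theorem infHomCT_image (hS : S.Nonempty) (hun : IsUnramifiedOutside S K M)
    (a : (repCT S K M).V) (ha : ∀ s : M ≃ₐ[L] M, (repCT S K M).ρ (galIncl K L M s) a = a) :
    ∃ b : (repCT S K L).V, (infHomCT S K L M).hom b = a := by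
  have h := Fermat.Agent.PT.GLOB.TowerGlue6.towerDescent S hS K L M hun
  obtain ⟨b, hb⟩ := h.descent (Additive.toMul a) (fun τ => by
    rw [← Devissage19.restrictScalars_smul_CT S K L M τ]
    exact congrArg Additive.toMul (ha τ))
  exact ⟨Additive.ofMul b, congrArg Additive.ofMul hb⟩

/-- **Inflation–restriction in degree 2 for `C_S`**: if `H¹(Gal(M/L), C_S(M)) = 0` then
`0 → H²(Gal(L/K), C_S(L)) → H²(Gal(M/K), C_S(M)) → H²(Gal(M/L), C_S(M))` is exact. -/
theorem infResCT (hS : S.Nonempty) (hun : IsUnramifiedOutside S K M)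
    (h1 : Subsingleton (H1 (repCT S L M))) :
    Function.Injective (infH2CT S K L M) ∧
      (∀ x : H2 (repCT S K M), resH2CT S K L M x = 0 → ∃ y, infH2CT S K L M y = x) ∧
      ∀ y : H2 (repCT S K L), resH2CT S K L M (infH2CT S K L M y) = 0 := by
  have h := infRes2_flex (galIncl K L M) (AlgEquiv.restrictNormalHom (F := K) (K₁ := M) L)
    (galIncl_injective K L M) (restrictNormalHom_surjective' K L M) (range_galIncl K L M)
    (repCT S K L) (repCT S K M) (repCT S L M) (infHomCT S K L M) (resHomCT S K L M)
    (resHomCT_bijective S K L M) (infHomCT_injective hS hun) (infHomCT_image hS hun)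
    ((h1Vanishes_iff_subsingleton _).mpr h1)
  exact ⟨h.1, h.2, fun y => res_inf_eq_zero (galIncl K L M)
    (AlgEquiv.restrictNormalHom (F := K) (K₁ := M) L) (range_galIncl K L M)
    (repCT S K L) (repCT S K M) (repCT S L M) (infHomCT S K L M) (resHomCT S K L M) y⟩

end tower

section sameImage

variable {S : Finset Nat.Primes}
variable {K L K' M : Type} [Field K] [Field L] [Field K'] [Field M] [NumberField K]
  [NumberField L] [NumberField K'] [NumberField M]
  [Algebra K L] [Algebra L M] [Algebra K M] [IsScalarTower K L M]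
  [Algebra K K'] [Algebra K' M] [IsScalarTower K K' M]
  [IsGalois K L] [IsGalois K K'] [IsGalois K M]

/-- **Same image lemma for `C_S`** (the step of the class-formation construction which produces
the lower bound `#H²(Gal(L/K), C_S(L)) = [L : K]` and defines the fundamental class of `L/K` from
that of the cyclotomic layer `K'/K`): let `K ⊆ L ⊆ M`, `K ⊆ K' ⊆ M` be Galois over `K`, `M/K`
unramified outside `S ≠ ∅`, with `H¹(Gal(M/L), C_S(M)) = 0 = H¹(Gal(M/K'), C_S(M))`.  If
`#H²(L/K) ∣ n`, `#H²(K'/K) = n` and `res_{M/L} ∘ inf_{K'/K → M/K} = 0`, then there is an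
isomorphism `e : H²(K'/K) ≃+ H²(L/K)` with `inf (e x) = inf x` in `H²(M/K)`. -/
theorem exists_equiv_infH2CT (hS : S.Nonempty) (hun : IsUnramifiedOutside S K M)
    (h1L : Subsingleton (H1 (repCT S L M))) (h1K : Subsingleton (H1 (repCT S K' M)))
    (n : ℕ) (hn : 0 < n) [Finite (H2 (repCT S K L))]
    (hLn : Nat.card (H2 (repCT S K L)) ∣ n) (hKn : Nat.card (H2 (repCT S K K')) = n)
    (hres : ∀ x : H2 (repCT S K K'), resH2CT S K L M (infH2CT S K K' M x) = 0) :
    ∃ e : H2 (repCT S K K') ≃+ H2 (repCT S K L),
      ∀ x : H2 (repCT S K K'), infH2CT S K L M (e x) = infH2CT S K K' M x :=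
  exists_equiv_of_res_inf_eq_zero (galIncl K L M)
    (AlgEquiv.restrictNormalHom (F := K) (K₁ := M) L)
    (AlgEquiv.restrictNormalHom (F := K) (K₁ := M) K')
    (galIncl_injective K L M) (restrictNormalHom_surjective' K L M) (range_galIncl K L M)
    (repCT S K L) (repCT S K K') (repCT S K M) (repCT S L M) (infHomCT S K L M)
    (infHomCT S K K' M) (resHomCT S K L M)
    (resHomCT_bijective S K L M) (infHomCT_injective hS hun) (infHomCT_image hS hun)
    ((h1Vanishes_iff_subsingleton _).mpr h1L) n hn hLn hKn
    (infResCT (L := K') hS hun h1K).1 hres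

/-- Consequence: `#H²(Gal(L/K), C_S(L)) = n`. -/
theorem card_H2_eq (hS : S.Nonempty) (hun : IsUnramifiedOutside S K M)
    (h1L : Subsingleton (H1 (repCT S L M))) (h1K : Subsingleton (H1 (repCT S K' M)))
    (n : ℕ) (hn : 0 < n) [Finite (H2 (repCT S K L))]
    (hLn : Nat.card (H2 (repCT S K L)) ∣ n) (hKn : Nat.card (H2 (repCT S K K')) = n)
    (hres : ∀ x : H2 (repCT S K K'), resH2CT S K L M (infH2CT S K K' M x) = 0) :
    Nat.card (H2 (repCT S K L)) = n := by
  obtain ⟨e, -⟩ := exists_equiv_infH2CT hS hun h1L h1K n hn hLn hKn hres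
  rw [← Nat.card_congr e.toEquiv, hKn]

end sameImage

end Fermat.Agent.PT.GLOB.SameImageCT19
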