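/-
Program F (S55, Poitou–Tate), chapter GLOB, leaf (L1-CT) of helper14's plan for
`LocalInjectivity` — helper8.

**`p`-primary flexible inflation for the `S`-idele class groups**: for a tower `K ⊆ L ⊆ M` of
number fields with `L/K`, `M/K` Galois, `M/K` unramified outside `S ∋ p` (`p` odd), the inflation
`infH2CT : H²(Gal(L/K), C_S(L)) → H²(Gal(M/K), C_S(M))` is injective on `p`-torsion — with
`Gal(M/L)` ARBITRARY (not a `p`-group), so that `H¹(Gal(M/L), C_S(M))` is only known to have no
`p`-torsion.

Route: `FG/InfResFlexPrimary8.eq_zero_of_map_inf_eq_zero_of_pPrimary` (flexible copy of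
`InfResFlex19.map_inf_injective` with helper2's `InfResPrimary2.exists_descend_of_killed`), and
`H¹(P, C_S(M)) = 0` for every `p`-subgroup `P ≤ Gal(M/K)` from `FundClassBridge6.down_injective`
and the unconditional dévissage `InequalitiesFinal24.h1_pgroup` for `M / M^P`.
-/
import Mathlib
import Fermat.Agent.PT.FG.InfResFlexPrimary8
import Fermat.Agent.PT.GLOB.FundClassBridge6
import Fermat.Agent.PT.GLOB.SameImageCT19
import Fermat.Agent.PT.GLOB.InequalitiesFinal24

set_option autoImplicit false
set_option linter.style.longLine false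
set_option linter.unusedSectionVars false

open CategoryTheory groupCohomology NumberField

namespace Fermat.Agent.PT.GLOB.InfPrimaryCT_8

open Fermat.Agent.PT.GLOB.Interface23 Fermat.Agent.PT.GLOB.ClassAction23
  Fermat.Agent.PT.GLOB.InterfaceCF23 Fermat.Agent.PT.GLOB.FundClassBridge6
  Fermat.Agent.PT.GLOB.SameImageCT19

variable (p : ℕ) (S : Finset Nat.Primes)

/-- `H¹(P, C_S(M)) = 0` for every `p`-subgroup `P` of `Gal(M/K)`, `M/K` Galois unramified outside
`S ∋ p`, `p` odd (the `h1` part of `FundClassBridge6.fundClassBridge`, unconditionally). -/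
theorem isZero_H1_res_pSubgroup (hp : p.Prime) (hp2 : p ≠ 2) (hpS : ∃ q ∈ S, (q : ℕ) = p)
    (K M : Type) [Field K] [Field M] [NumberField K] [NumberField M] [Algebra K M] [IsGalois K M]
    (hun : IsUnramifiedOutside S K M) (P : Subgroup (M ≃ₐ[K] M)) (hP : IsPGroup p P) :
    Limits.IsZero (H1 (Rep.res P.subtype (repCT S K M))) := by
  have hodd : Odd p := hp.odd_of_ne_two hp2
  have hunF : IsUnramifiedOutside S (FH K M P) M :=
    Devissage19.isUnramifiedOutside_top S K (FH K M P) M hun
  have hPF : IsPGroup p (M ≃ₐ[FH K M P] M) := hP.of_equiv (eH K M P).symm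
  have h1 : Subsingleton (H1 (repCT S (FH K M P) M)) :=
    InequalitiesFinal24.h1_pgroup p S hp hodd hpS (FH K M P) M hunF hPF
  have h2 : Subsingleton (H1 (Rep.res P.subtype (repCT S K M))) :=
    (down_injective S K M P 1).subsingleton
  exact ModuleCat.isZero_of_subsingleton _

variable (K L M : Type) [Field K] [Field L] [Field M] [NumberField K] [NumberField L]
  [NumberField M] [Algebra K L] [Algebra L M] [Algebra K M] [IsScalarTower K L M]
  [IsGalois K L] [IsGalois K M]

/-- **(L1-CT) `p`-primary flexible inflation for `C_S`**, `p^j`-torsion form. -/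
theorem eq_zero_of_infH2CT_eq_zero_of_pPrimary (hp : p.Prime) (hp2 : p ≠ 2)
    (hpS : ∃ q ∈ S, (q : ℕ) = p) (hun : IsUnramifiedOutside S K M)
    (y : H2 (repCT S K L)) (hy : ∃ j : ℕ, p ^ j • y = 0) (h0 : infH2CT S K L M y = 0) : y = 0 := by
  have : Fact p.Prime := ⟨hp⟩
  have hS : S.Nonempty := by
    obtain ⟨q, hq, -⟩ := hpS
    exact ⟨q, hq⟩
  exact Fermat.Agent.PT.FG.InfResFlexPrimary8.eq_zero_of_map_inf_eq_zero_of_pPrimary
    (galIncl K L M) (AlgEquiv.restrictNormalHom (F := K) (K₁ := M) L)
    (restrictNormalHom_surjective' K L M) (range_galIncl K L M)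
    (repCT S K L) (repCT S K M) (infHomCT S K L M)
    (infHomCT_injective hS hun) (infHomCT_image hS hun)
    (fun P _ hP => isZero_H1_res_pSubgroup p S hp hp2 hpS K M hun P hP) y hy h0

/-- **(L1-CT) `p`-primary flexible inflation for `C_S`** (helper14's shape): a class of
`H²(Gal(L/K), C_S(L))` killed by `p` whose inflation to `M/K` vanishes is zero. -/
theorem eq_zero_of_infH2CT_eq_zero (hp : p.Prime) (hp2 : p ≠ 2)
    (hpS : ∃ q ∈ S, (q : ℕ) = p) (hun : IsUnramifiedOutside S K M)
    (y : H2 (repCT S K L)) (hy : p • y = 0) (h0 : infH2CT S K L M y = 0) : y = 0 :=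
  eq_zero_of_infH2CT_eq_zero_of_pPrimary p S K L M hp hp2 hpS hun y
    ⟨1, by rw [pow_one]; exact hy⟩ h0

end Fermat.Agent.PT.GLOB.InfPrimaryCT_8
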