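/-
Program F (S55, Poitou–Tate), chapter GLOB — helper6.

**Compositum kit**: for number fields `K ⊂ L`, `K ⊂ K'` (arbitrary Types) the compositum
`Comp K L K'` (inside an algebraic closure of `K`) as a TYPE with instances
`Field`, `Algebra K`, `FiniteDimensional K`, `NumberField`, the embeddings `inclL`, `inclK'`,
SCOPED instances `Algebra L (Comp K L K')`, `Algebra K' (Comp K L K')` and the two scalar towers
(`open scoped Fermat.Agent.PT.GLOB.Compositum6`), `adjoin_range_eq_top`, `eq_one_of_fixes`,
`IsGalois K/L/K' (Comp K L K')` when `L/K`, `K'/K` are Galois, and `restrict_prod_injective`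
(`Gal(L·K'/K) → Gal(L/K) × Gal(K'/K)` is injective).
-/
import Fermat.Agent.PT.GLOB.Interface23

set_option autoImplicit false
set_option linter.unusedSectionVars false

namespace Fermat.Agent.PT.GLOB.Compositum6

open NumberField IsDedekindDomain
open Fermat.Agent.PT.GLOB.Interface23

noncomputable section

section Construction

variable (K L K' : Type) [Field K] [Field L] [Field K'] [NumberField K] [NumberField L]
  [NumberField K'] [Algebra K L] [Algebra K K']

/-- An embedding of `L` into the algebraic closure of `K`. -/
def embL : L →ₐ[K] AlgebraicClosure K := IsAlgClosed.lift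

/-- An embedding of `K'` into the algebraic closure of `K`. -/
def embK' : K' →ₐ[K] AlgebraicClosure K := IsAlgClosed.lift

/-- The compositum of `L` and `K'` inside the algebraic closure of `K`. -/
def compField : IntermediateField K (AlgebraicClosure K) :=
  (embL K L).fieldRange ⊔ (embK' K K').fieldRange

/-- **The compositum `L·K'` as a type.** -/
def Comp : Type := ↥(compField K L K')

instance : Field (Comp K L K') := inferInstanceAs (Field ↥(compField K L K'))

instance instAlgebraBase : Algebra K (Comp K L K') :=
  inferInstanceAs (Algebra K ↥(compField K L K'))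

instance : FiniteDimensional K (Comp K L K') := by
  have h1 : FiniteDimensional K (embL K L).fieldRange :=
    LinearEquiv.finiteDimensional (AlgEquiv.ofInjectiveField (embL K L)).toLinearEquiv
  have h2 : FiniteDimensional K (embK' K K').fieldRange :=
    LinearEquiv.finiteDimensional (AlgEquiv.ofInjectiveField (embK' K K')).toLinearEquiv
  exact IntermediateField.finiteDimensional_sup _ _

instance : CharZero (Comp K L K') := charZero_of_injective_algebraMap (algebraMap K _).injective

instance : NumberField (Comp K L K') where
  to_charZero := inferInstance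
  to_finiteDimensional := by
    have : FiniteDimensional ℚ K := inferInstance
    exact Module.Finite.trans K (Comp K L K')

/-- The embedding `L → L·K'`. -/
def inclL : L →ₐ[K] Comp K L K' :=
  (IntermediateField.inclusion (le_sup_left : (embL K L).fieldRange ≤ compField K L K')).comp
    (embL K L).rangeRestrict

/-- The embedding `K' → L·K'`. -/
def inclK' : K' →ₐ[K] Comp K L K' :=
  (IntermediateField.inclusion (le_sup_right : (embK' K K').fieldRange ≤ compField K L K')).comp
    (embK' K K').rangeRestrict

end Construction

section Instances

variable (K L K' : Type) [Field K] [Field L] [Field K'] [NumberField K] [NumberField L]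
  [NumberField K'] [Algebra K L] [Algebra K K']

/-- `L·K'` as an `L`-algebra (scoped instance). -/
scoped instance algebraL : Algebra L (Comp K L K') := (inclL K L K').toRingHom.toAlgebra

/-- `L·K'` as a `K'`-algebra (scoped instance). -/
scoped instance algebraK' : Algebra K' (Comp K L K') := (inclK' K L K').toRingHom.toAlgebra

theorem algebraMap_L_apply (x : L) : algebraMap L (Comp K L K') x = inclL K L K' x := rfl

theorem algebraMap_K'_apply (x : K') : algebraMap K' (Comp K L K') x = inclK' K L K' x := rfl

scoped instance towerL : IsScalarTower K L (Comp K L K') :=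
  IsScalarTower.of_algebraMap_eq (fun x => ((inclL K L K').commutes x).symm)

scoped instance towerK' : IsScalarTower K K' (Comp K L K') :=
  IsScalarTower.of_algebraMap_eq (fun x => ((inclK' K L K').commutes x).symm)

/-- The inclusion of `L·K'` into the algebraic closure of `K`. -/
def toClosure : Comp K L K' →ₐ[K] AlgebraicClosure K := (compField K L K').val

theorem toClosure_injective : Function.Injective (toClosure K L K') := Subtype.val_injective

theorem toClosure_inclL (x : L) : toClosure K L K' (inclL K L K' x) = embL K L x := rfl

theorem toClosure_inclK' (x : K') : toClosure K L K' (inclK' K L K' x) = embK' K K' x := rfl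

/-- `L·K'` is generated over `K` by the images of `L` and `K'`. -/
theorem adjoin_range_eq_top :
    IntermediateField.adjoin K
      (Set.range (inclL K L K') ∪ Set.range (inclK' K L K')) = ⊤ := by
  rw [eq_top_iff]
  rintro ⟨x, hx⟩ -
  have hx' : x ∈ IntermediateField.adjoin K
      (((embL K L).fieldRange : Set (AlgebraicClosure K)) ∪ (embK' K K').fieldRange) := by
    have : compField K L K' = IntermediateField.adjoin K
        (((embL K L).fieldRange : Set (AlgebraicClosure K)) ∪ (embK' K K').fieldRange) := by
      unfold compField
      rw [IntermediateField.sup_def]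
    rw [← this]
    exact hx
  -- transport along the inclusion `compField ↪ AlgebraicClosure K`
  have key : IntermediateField.map (compField K L K').val
      (IntermediateField.adjoin K (Set.range (inclL K L K') ∪ Set.range (inclK' K L K'))) =
      IntermediateField.adjoin K
        (((embL K L).fieldRange : Set (AlgebraicClosure K)) ∪ (embK' K K').fieldRange) := by
    rw [IntermediateField.adjoin_map]
    congr 1
    rw [Set.image_union]
    congr 1
    · ext y
      constructor
      · rintro ⟨_, ⟨a, rfl⟩, rfl⟩
        exact ⟨a, rfl⟩
      · rintro ⟨a, rfl⟩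
        exact ⟨inclL K L K' a, ⟨a, rfl⟩, rfl⟩
    · ext y
      constructor
      · rintro ⟨_, ⟨a, rfl⟩, rfl⟩
        exact ⟨a, rfl⟩
      · rintro ⟨a, rfl⟩
        exact ⟨inclK' K L K' a, ⟨a, rfl⟩, rfl⟩
  rw [← key] at hx'
  obtain ⟨y, hy, hyx⟩ := hx'
  have : y = ⟨x, hx⟩ := Subtype.ext hyx
  rw [← this]
  exact hy

end Instances

section Galois

variable (K L K' : Type) [Field K] [Field L] [Field K'] [NumberField K] [NumberField L]
  [NumberField K'] [Algebra K L] [Algebra K K']

/-- The elements fixed by an automorphism, as an intermediate field. -/
def fixedBy {M : Type} [Field M] [Algebra K M] (σ : M ≃ₐ[K] M) : IntermediateField K M where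
  carrier := {z | σ z = z}
  mul_mem' := by
    intro a b ha hb
    change σ (a * b) = a * b
    rw [map_mul, ha, hb]
  add_mem' := by
    intro a b ha hb
    change σ (a + b) = a + b
    rw [map_add, ha, hb]
  algebraMap_mem' r := σ.commutes r
  inv_mem' := by
    intro a ha
    change σ a⁻¹ = a⁻¹
    rw [map_inv₀, ha]

/-- An automorphism of `L·K'` over `K` fixing the images of `L` and `K'` is trivial. -/
theorem eq_one_of_fixes (σ : Comp K L K' ≃ₐ[K] Comp K L K')
    (hL : ∀ x : L, σ (inclL K L K' x) = inclL K L K' x)
    (hK' : ∀ y : K', σ (inclK' K L K' y) = inclK' K L K' y) : σ = 1 := by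
  have hle : IntermediateField.adjoin K
      (Set.range (inclL K L K') ∪ Set.range (inclK' K L K')) ≤ fixedBy K σ := by
    rw [IntermediateField.adjoin_le_iff]
    rintro z (⟨x, rfl⟩ | ⟨y, rfl⟩)
    · exact hL x
    · exact hK' y
  rw [adjoin_range_eq_top] at hle
  ext z
  exact hle (IntermediateField.mem_top (x := z))

variable [IsGalois K L] [IsGalois K K']

instance : IsGalois K (Comp K L K') := by
  have h1 : Normal K (embL K L).fieldRange :=
    Normal.of_algEquiv (AlgEquiv.ofInjectiveField (embL K L))
  have h2 : Normal K (embK' K K').fieldRange :=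
    Normal.of_algEquiv (AlgEquiv.ofInjectiveField (embK' K K'))
  have h3 : Normal K ↥(compField K L K') := IntermediateField.normal_sup K _ _ _
  have h4 : Normal K (Comp K L K') := h3
  exact { to_normal := h4, to_isSeparable := inferInstance }

open scoped Fermat.Agent.PT.GLOB.Compositum6 in
instance : IsGalois L (Comp K L K') := IsGalois.tower_top_of_isGalois K L (Comp K L K')

open scoped Fermat.Agent.PT.GLOB.Compositum6 in
instance : IsGalois K' (Comp K L K') := IsGalois.tower_top_of_isGalois K K' (Comp K L K')

open scoped Fermat.Agent.PT.GLOB.Compositum6 in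
/-- `Gal(L·K'/K) → Gal(L/K) × Gal(K'/K)` is injective. -/
theorem restrict_prod_injective :
    Function.Injective (fun σ : Comp K L K' ≃ₐ[K] Comp K L K' =>
      (σ.restrictNormal L, σ.restrictNormal K')) := by
  intro σ τ h
  have h1 : σ.restrictNormal L = τ.restrictNormal L := congrArg Prod.fst h
  have h2 : σ.restrictNormal K' = τ.restrictNormal K' := congrArg Prod.snd h
  have key : τ⁻¹ * σ = 1 := by
    apply eq_one_of_fixes
    · intro x
      have hσ := AlgEquiv.restrictNormal_commutes σ L x
      have hτ := AlgEquiv.restrictNormal_commutes τ L x
      rw [h1, hτ] at hσ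
      change τ⁻¹ (σ (algebraMap L (Comp K L K') x)) = algebraMap L (Comp K L K') x
      rw [← hσ]
      exact τ.symm_apply_apply _
    · intro y
      have hσ := AlgEquiv.restrictNormal_commutes σ K' y
      have hτ := AlgEquiv.restrictNormal_commutes τ K' y
      rw [h2, hτ] at hσ
      change τ⁻¹ (σ (algebraMap K' (Comp K L K') y)) = algebraMap K' (Comp K L K') y
      rw [← hσ]
      exact τ.symm_apply_apply _
  calc σ = τ * (τ⁻¹ * σ) := by rw [mul_inv_cancel_left]
    _ = τ := by rw [key, mul_one]

end Galois

end
end Fermat.Agent.PT.GLOB.Compositum6
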