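/-
Program F (S55, Poitou–Tate), chapter GLOB, leaf (GLOB-CYC), helper22.

# Enough cyclic cyclotomic extensions, `p`-primary form

For a prime `p`, a number field `K`, and `L` a number field with
`[IsCyclotomicExtension {p ^ r} K L]` (i.e. `L = K(ζ_{p^r})`):

* `isCyclic_gal` (Y1): `Gal(L/K)` is cyclic for `p` odd; `isMulCommutative_gal`: it is abelian
  (any level `n`).
* `pow_dvd_orderOf_of_le` (pure number theory): the order of an integer `a ≥ 2` in `(ℤ/p^r)ˣ` is
  divisible by `p ^ N` as soon as `r > a ^ (p ^ (N + 1))`.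
* `pow_dvd_card_stabilizer_of_notMem` (Y2): if `P0` is a nonzero prime of `𝓞 K` not containing
  `p` and `P` is a prime of `𝓞 L` over `P0`, then `p ^ N` divides the order of the decomposition
  group `MulAction.stabilizer Gal(L/K) P` once `r > (absNorm P0) ^ (p ^ (N + 1))` (the Frobenius
  acts on `μ_{p^r}` through `absNorm P0`).
* `totient_dvd_ramificationIdx`, `ramificationIdx_int_le_finrank`,
  `pow_dvd_card_inertia_of_mem`, `pow_dvd_card_stabilizer_of_mem` (Y3): if `p ∈ P` then `p ^ N`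
  divides the order of the inertia group (hence of the decomposition group) of `P` in
  `Gal(K(ζ_{p^(k+1)})/K)` once `k ≥ N + [K : ℚ]`.
* `inertia_eq_bot_of_notMem` (Y5): `K(ζ_n)/K` is unramified at all primes not containing `n`
  (trivial inertia group).
* `exists_level` (Y4): for a finite set `T` of nonzero primes of `𝓞 K` and `N`, there is `r₀ ≥ 1`
  such that for all `r ≥ r₀`, all `L = K(ζ_{p^r})` and all primes `P` of `𝓞 L` above a prime of
  `T`: `p ^ N ∣ #(decomposition group of P)`.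
* `exists_cyclotomicField` : the same packaged with `L := CyclotomicField (p ^ r) K`, Galois,
  cyclic (`p` odd), unramified outside `p`.

This is the number-theoretic input of "every `p`-primary Brauer class is split by a cyclic
cyclotomic extension" (local degrees of cyclic cyclotomic extensions at finitely many finite
places can be made divisible by any power of `p`).
-/
import Mathlib
import Fermat.Agent.CFT.CycloArtin

set_option autoImplicit false

open NumberField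
open scoped Pointwise

namespace Fermat.Agent.PT.GLOB.CycloLocalDeg22

universe u v

/-! ### (Y1) the Galois group is cyclic -/

/-- (Y1) The Galois group of `K(ζ_{p^r})/K` is cyclic for `p` odd. -/
theorem isCyclic_gal (p : ℕ) (hp : p.Prime) (hp2 : p ≠ 2) (r : ℕ) (K : Type u) (L : Type v)
    [Field K] [Field L] [Algebra K L] [IsCyclotomicExtension {p ^ r} K L] :
    IsCyclic (L ≃ₐ[K] L) := by
  have : NeZero (p ^ r) := ⟨(pow_pos hp.pos r).ne'⟩
  have hζ := IsCyclotomicExtension.zeta_spec (p ^ r) K L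
  have := ZMod.isCyclic_units_of_prime_pow p hp hp2 r
  exact isCyclic_of_injective (hζ.autToPow K) (hζ.autToPow_injective K)

/-- The Galois group of a cyclotomic extension `K(ζ_n)/K` is abelian. -/
theorem isMulCommutative_gal (n : ℕ) [NeZero n] (K : Type u) (L : Type v)
    [Field K] [Field L] [Algebra K L] [IsCyclotomicExtension {n} K L] :
    IsMulCommutative (L ≃ₐ[K] L) := by
  have hζ := IsCyclotomicExtension.zeta_spec n K L
  refine ⟨⟨fun σ τ => hζ.autToPow_injective K ?_⟩⟩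
  rw [map_mul, map_mul, mul_comm]

/-- The order of `Gal(K(ζ_n)/K)` divides `φ(n)`. -/
theorem card_gal_dvd_totient (n : ℕ) [NeZero n] (K : Type u) (L : Type v)
    [Field K] [Field L] [Algebra K L] [IsCyclotomicExtension {n} K L] :
    Nat.card (L ≃ₐ[K] L) ∣ n.totient := by
  have hζ := IsCyclotomicExtension.zeta_spec n K L
  have h := Subgroup.card_dvd_of_injective (hζ.autToPow K) (hζ.autToPow_injective K)
  rwa [Nat.card_eq_fintype_card (α := (ZMod n)ˣ), ZMod.card_units_eq_totient] at h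

/-! ### Pure number theory: orders in `(ℤ/p^r)ˣ` -/

/-- Pure number theory: if `a ≥ 2`, the order of (the class of) `a` in `(ℤ/p^r)ˣ` is divisible by
`p ^ N` as soon as `r > a ^ (p ^ (N + 1))`. -/
theorem pow_dvd_orderOf_of_le (p : ℕ) (hp : p.Prime) (a : ℕ) (ha : 2 ≤ a) (N r : ℕ)
    (hr : a ^ (p ^ (N + 1)) < r) (u : (ZMod (p ^ r))ˣ)
    (hu : (u : ZMod (p ^ r)) = (a : ZMod (p ^ r))) : p ^ N ∣ orderOf u := by
  have hp1 : 1 < p := hp.one_lt
  have hr1 : 1 ≤ r := by
    have : 0 < a ^ (p ^ (N + 1)) := by positivity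
    omega
  have : NeZero (p ^ r) := ⟨(pow_pos hp.pos r).ne'⟩
  have hcard : Nat.card (ZMod (p ^ r))ˣ = p ^ (r - 1) * (p - 1) := by
    rw [Nat.card_eq_fintype_card, ZMod.card_units_eq_totient, Nat.totient_prime_pow hp (by omega)]
  set o := orderOf u with ho
  have ho_pos : 0 < o := orderOf_pos u
  have hodvd : o ∣ p ^ (r - 1) * (p - 1) := hcard ▸ orderOf_dvd_natCard u
  -- `p ^ r ∣ a ^ o - 1`
  have h1 : ((a ^ o : ℕ) : ZMod (p ^ r)) = ((1 : ℕ) : ZMod (p ^ r)) := by
    have := congrArg (fun x : (ZMod (p ^ r))ˣ => (x : ZMod (p ^ r))) (pow_orderOf_eq_one u)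
    simp only [Units.val_pow_eq_pow_val, Units.val_one, hu] at this
    rw [Nat.cast_pow, Nat.cast_one]
    exact this
  have h2 : p ^ r ∣ a ^ o - 1 := by
    rw [ZMod.natCast_eq_natCast_iff] at h1
    exact (Nat.modEq_iff_dvd' (Nat.one_le_pow _ _ (by omega))).mp h1.symm
  have hapos : 2 ≤ a ^ o := by
    calc 2 ≤ a := ha
      _ = a ^ 1 := (pow_one a).symm
      _ ≤ a ^ o := Nat.pow_le_pow_right (by omega) ho_pos
  have h3 : p ^ r ≤ a ^ o := by
    have := Nat.le_of_dvd (by omega) h2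
    omega
  -- write `o = p ^ j * m` with `m` prime to `p`
  obtain ⟨j, m, hm, hjm⟩ := Nat.exists_eq_pow_mul_and_not_dvd ho_pos.ne' p hp.ne_one
  by_contra hN
  have hjN : j < N := by
    by_contra hjN
    rw [not_lt] at hjN
    exact hN (hjm ▸ Dvd.dvd.mul_right (pow_dvd_pow p hjN) m)
  have hmdvd : m ∣ p - 1 := by
    have hmo : m ∣ p ^ (r - 1) * (p - 1) := (Dvd.intro_left _ hjm.symm).trans hodvd
    have hcop : Nat.Coprime m (p ^ (r - 1)) :=
      Nat.Coprime.pow_right _ ((Nat.Prime.coprime_iff_not_dvd hp).mpr hm).symm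
    exact hcop.dvd_of_dvd_mul_left hmo
  have hmle : m ≤ p := by
    have := Nat.le_of_dvd (by omega) hmdvd
    omega
  have hole : o ≤ p ^ (N + 1) := by
    rw [hjm, pow_succ]
    exact Nat.mul_le_mul (Nat.pow_le_pow_right hp.pos hjN.le) hmle
  have h4 : a ^ o ≤ a ^ (p ^ (N + 1)) := Nat.pow_le_pow_right (by omega) hole
  have h5 : r < p ^ r := Nat.lt_pow_self hp1
  omega

/-- Arithmetic: if `p ^ k ∣ e0 * e1` with `0 < e0 ≤ d` and `k ≥ N + d` then `p ^ N ∣ e1`. -/
theorem pow_dvd_of_pow_dvd_mul (p : ℕ) (hp : p.Prime) (k N d e0 e1 : ℕ) (h0 : 0 < e0)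
    (hd : e0 ≤ d) (hk : N + d ≤ k) (h : p ^ k ∣ e0 * e1) : p ^ N ∣ e1 := by
  obtain ⟨j, m, hm, rfl⟩ := Nat.exists_eq_pow_mul_and_not_dvd h0.ne' p hp.ne_one
  have hm0 : 0 < m := Nat.pos_of_ne_zero (by rintro rfl; exact hm (dvd_zero p))
  have hj : j < d := by
    have h1 : j < p ^ j := Nat.lt_pow_self hp.one_lt
    have h2 : p ^ j ≤ p ^ j * m := Nat.le_mul_of_pos_right _ hm0
    omega
  have hkj : k = j + (k - j) := by omega
  rw [hkj, pow_add, mul_assoc] at h
  have h3 : p ^ (k - j) ∣ m * e1 := Nat.dvd_of_mul_dvd_mul_left (pow_pos hp.pos j) h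
  have hcop : Nat.Coprime (p ^ (k - j)) m :=
    Nat.Coprime.pow_left _ ((Nat.Prime.coprime_iff_not_dvd hp).mpr hm)
  have h4 : p ^ (k - j) ∣ e1 := hcop.dvd_of_dvd_mul_left h3
  exact (pow_dvd_pow p (by omega)).trans h4

/-! ### (Y2) primes not above `p`: Frobenius -/

theorem ne_bot_of_under_ne_bot {K : Type u} {L : Type v} [Field K] [Field L] [Algebra K L]
    {P : Ideal (𝓞 L)} (h : P.under (𝓞 K) ≠ ⊥) : P ≠ ⊥ := by
  rintro rfl
  apply h
  rw [Ideal.under_def, eq_bot_iff]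
  intro x hx
  rw [Ideal.mem_comap, Ideal.mem_bot] at hx
  rw [Ideal.mem_bot]
  exact (FaithfulSMul.algebraMap_injective (𝓞 K) (𝓞 L)) (by rw [hx, map_zero])

/-- (Y2) Unramified primes: the decomposition group at a prime `P` of `K(ζ_{p^r})` over a prime
`P0` of `K` not containing `p` has order divisible by `p ^ N` once `r` is large (explicitly:
`r > (absNorm P0) ^ (p ^ (N + 1))`). -/
theorem pow_dvd_card_stabilizer_of_notMem (p : ℕ) (hp : p.Prime) (K : Type u) (L : Type v)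
    [Field K] [Field L] [NumberField K] [NumberField L] [Algebra K L] (r N : ℕ)
    [IsCyclotomicExtension {p ^ r} K L] (P0 : Ideal (𝓞 K)) (hP0 : P0.IsPrime) (hP0' : P0 ≠ ⊥)
    (hpP0 : (p : 𝓞 K) ∉ P0) (hr : (Ideal.absNorm P0) ^ (p ^ (N + 1)) < r)
    (P : Ideal (𝓞 L)) (hP : P.IsPrime) (hPP0 : P.under (𝓞 K) = P0) :
    p ^ N ∣ Nat.card (MulAction.stabilizer (L ≃ₐ[K] L) P) := by
  have : NeZero (p ^ r) := ⟨(pow_pos hp.pos r).ne'⟩
  have : IsGalois K L := IsCyclotomicExtension.isGalois {p ^ r} K L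
  have hζ := IsCyclotomicExtension.zeta_spec (p ^ r) K L
  have hPbot : P ≠ ⊥ := ne_bot_of_under_ne_bot (K := K) (by rw [hPP0]; exact hP0')
  have : Finite (𝓞 L ⧸ P) := Ideal.finiteQuotientOfFreeOfNeBot P hPbot
  obtain ⟨σ, hσ⟩ := IsArithFrobAt.exists_of_isInvariant (𝓞 K) (L ≃ₐ[K] L) P
  have hm : ((p ^ r : ℕ) : 𝓞 L) ∉ P := by
    intro hmem
    rw [Nat.cast_pow] at hmem
    have h1 : (p : 𝓞 L) ∈ P := hP.mem_of_pow_mem r hmem
    apply hpP0
    rw [← hPP0, Ideal.under_def, Ideal.mem_comap, map_natCast]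
    exact h1
  have h2 := Fermat.Agent.CFT.CycloArtin.apply_root_of_isArithFrobAt' hσ hζ.pow_eq_one hm
  have h3 := Fermat.Agent.CFT.CycloRecip.autToPow_eq_of_apply_eq hζ σ _ h2
  rw [hPP0, ← Fermat.Agent.CFT.CycloRecip.absNorm_eq_natCard] at h3
  have ha : 2 ≤ Ideal.absNorm P0 := by
    have h0 : Ideal.absNorm P0 ≠ 0 := by
      rw [Ne, Ideal.absNorm_eq_zero_iff]; exact hP0'
    have h1 : Ideal.absNorm P0 ≠ 1 := by
      rw [Ne, Ideal.absNorm_eq_one_iff]; exact hP0.ne_top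
    omega
  have h4 := pow_dvd_orderOf_of_le p hp _ ha N r hr _ h3
  rw [orderOf_injective (hζ.autToPow K) (hζ.autToPow_injective K)] at h4
  exact h4.trans (Subgroup.orderOf_dvd_natCard _ hσ.mem_stabilizer)

/-! ### (Y3) primes above `p`: ramification -/

/-- The absolute ramification index of a prime above `p` of a number field containing a primitive
`p^(k+1)`-th root of unity is divisible by `φ(p^(k+1)) = p^k (p-1)`. -/
theorem totient_dvd_ramificationIdx (p : ℕ) [hp : Fact p.Prime] (k : ℕ) (L : Type v) [Field L]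
    [NumberField L] {ζ : L} (hζ : IsPrimitiveRoot ζ (p ^ (k + 1))) (P : Ideal (𝓞 L))
    [hP : P.IsPrime] [hPp : P.LiesOver (Ideal.span {(p : ℤ)})] :
    p ^ k * (p - 1) ∣ P.ramificationIdx ℤ := by
  have : NeZero (p ^ (k + 1)) := ⟨(pow_pos hp.out.pos _).ne'⟩
  let F := IntermediateField.adjoin ℚ {ζ}
  have hF : IsCyclotomicExtension {p ^ (k + 1)} ℚ F :=
    hζ.intermediateField_adjoin_isCyclotomicExtension ℚ
  let 𝔭 : Ideal (𝓞 F) := P.under (𝓞 F)
  have h𝔭 : 𝔭.IsPrime := inferInstance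
  have h1 : P.LiesOver 𝔭 := inferInstance
  have h2 : 𝔭.LiesOver (Ideal.span {(p : ℤ)}) := Ideal.LiesOver.tower_bot P 𝔭 _
  have h3 := IsCyclotomicExtension.Rat.ramificationIdx_eq_of_prime_pow p k F 𝔭
  have h4 := Ideal.ramificationIdx_tower (R := ℤ) 𝔭 P
  rw [h4, h3]
  exact Dvd.intro _ rfl

/-- The absolute ramification index of a prime of a number field is at most the degree. -/
theorem ramificationIdx_int_le_finrank (K : Type u) [Field K] [NumberField K] (p : ℕ)
    [hp : Fact p.Prime] (P0 : Ideal (𝓞 K)) [hP0 : P0.IsPrime]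
    [hP0p : P0.LiesOver (Ideal.span {(p : ℤ)})] :
    P0.ramificationIdx ℤ ≤ Module.finrank ℚ K := by
  have hpr : (Ideal.span {(p : ℤ)}).IsPrime :=
    (Ideal.span_singleton_prime (by exact_mod_cast hp.out.ne_zero)).mpr
      (Nat.prime_iff_prime_int.mp hp.out)
  have : Fintype ((Ideal.span {(p : ℤ)}).primesOver (𝓞 K)) :=
    (Algebra.QuasiFinite.finite_primesOver _).fintype
  have h := Ideal.sum_ramification_inertia_eq_finrank (Ideal.span {(p : ℤ)}) (𝓞 K)
  rw [RingOfIntegers.rank] at h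
  rw [← h]
  let Q : (Ideal.span {(p : ℤ)}).primesOver (𝓞 K) := ⟨P0, hP0, hP0p⟩
  have h1 : Q.1.ramificationIdx ℤ * Q.1.inertiaDeg ℤ ≤
      ∑ q : (Ideal.span {(p : ℤ)}).primesOver (𝓞 K), q.1.ramificationIdx ℤ * q.1.inertiaDeg ℤ :=
    Finset.single_le_sum (f := fun q : (Ideal.span {(p : ℤ)}).primesOver (𝓞 K) =>
      q.1.ramificationIdx ℤ * q.1.inertiaDeg ℤ) (fun _ _ => Nat.zero_le _) (Finset.mem_univ Q)
  refine le_trans ?_ h1
  have hf : 0 < P0.inertiaDeg ℤ := Ideal.inertiaDeg_pos P0 ℤ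
  exact Nat.le_mul_of_pos_right _ hf

/-- A prime of `𝓞 L` containing the rational prime `p` lies over `(p) ⊂ ℤ`. -/
theorem liesOver_span_of_mem (p : ℕ) [hp : Fact p.Prime] (L : Type v) [Field L]
    (P : Ideal (𝓞 L)) [hP : P.IsPrime] (hpP : (p : 𝓞 L) ∈ P) :
    P.LiesOver (Ideal.span {(p : ℤ)}) := by
  rw [Ideal.liesOver_iff]
  refine Ideal.IsMaximal.eq_of_le (Int.ideal_span_isMaximal_of_prime p) Ideal.IsPrime.ne_top' ?_
  rw [Ideal.span_singleton_le_iff_mem, Ideal.under_def, Ideal.mem_comap, algebraMap_int_eq,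
    map_natCast]
  exact hpP

/-- (Y3) Primes above `p`: the inertia group at a prime `P` of `K(ζ_{p^(k+1)})` containing `p`
has order divisible by `p ^ N` once `k ≥ N + [K : ℚ]`. -/
theorem pow_dvd_card_inertia_of_mem (p : ℕ) [hp : Fact p.Prime] (K : Type u) (L : Type v)
    [Field K] [Field L] [NumberField K] [NumberField L] [Algebra K L] (k N : ℕ)
    [IsCyclotomicExtension {p ^ (k + 1)} K L] (hk : N + Module.finrank ℚ K ≤ k)
    (P : Ideal (𝓞 L)) [hP : P.IsPrime] (hpP : (p : 𝓞 L) ∈ P) :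
    p ^ N ∣ Nat.card (P.inertia (L ≃ₐ[K] L)) := by
  have : NeZero (p ^ (k + 1)) := ⟨(pow_pos hp.out.pos _).ne'⟩
  have : IsGalois K L := IsCyclotomicExtension.isGalois {p ^ (k + 1)} K L
  have hζ := IsCyclotomicExtension.zeta_spec (p ^ (k + 1)) K L
  have hPp : P.LiesOver (Ideal.span {(p : ℤ)}) := liesOver_span_of_mem p L P hpP
  let P0 : Ideal (𝓞 K) := P.under (𝓞 K)
  have hP0 : P0.IsPrime := inferInstance
  have h1 : P.LiesOver P0 := inferInstance
  have h2 : P0.LiesOver (Ideal.span {(p : ℤ)}) := Ideal.LiesOver.tower_bot P P0 _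
  have h3 := Ideal.ramificationIdx_tower (R := ℤ) P0 P
  have h4 := totient_dvd_ramificationIdx p k L hζ P
  have h5 := ramificationIdx_int_le_finrank K p P0
  have h6 : 0 < P0.ramificationIdx ℤ := Ideal.ramificationIdx_pos P0 ℤ
  rw [h3] at h4
  have h7 : p ^ N ∣ P.ramificationIdx (𝓞 K) :=
    pow_dvd_of_pow_dvd_mul p hp.out k N _ _ _ h6 h5 hk ((Dvd.intro _ rfl).trans h4)
  rw [Ideal.card_inertia_eq_ramificationIdxIn P0 P,
    Ideal.ramificationIdxIn_eq_ramificationIdx P0 P (L ≃ₐ[K] L)]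
  exact h7

/-- (Y3') Same for the decomposition group. -/
theorem pow_dvd_card_stabilizer_of_mem (p : ℕ) [hp : Fact p.Prime] (K : Type u) (L : Type v)
    [Field K] [Field L] [NumberField K] [NumberField L] [Algebra K L] (k N : ℕ)
    [IsCyclotomicExtension {p ^ (k + 1)} K L] (hk : N + Module.finrank ℚ K ≤ k)
    (P : Ideal (𝓞 L)) [hP : P.IsPrime] (hpP : (p : 𝓞 L) ∈ P) :
    p ^ N ∣ Nat.card (MulAction.stabilizer (L ≃ₐ[K] L) P) :=
  (pow_dvd_card_inertia_of_mem p K L k N hk P hpP).trans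
    (Subgroup.card_dvd_of_le (Ideal.inertia_le_stabilizer P))

/-! ### (Y5) unramified outside `n` -/

/-- An automorphism of a cyclotomic extension fixing a primitive root is trivial. -/
theorem eq_one_of_apply_zeta {n : ℕ} [NeZero n] {K : Type u} {L : Type v} [Field K] [Field L]
    [Algebra K L] [IsCyclotomicExtension {n} K L] {ζ : L} (hζ : IsPrimitiveRoot ζ n)
    (σ : L ≃ₐ[K] L) (h : σ ζ = ζ) : σ = 1 := by
  have h1 : (σ : L →ₐ[K] L) = ((1 : L ≃ₐ[K] L) : L →ₐ[K] L) := by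
    apply (hζ.powerBasis K).algHom_ext
    rw [IsPrimitiveRoot.powerBasis_gen]
    simpa using h
  exact AlgEquiv.coe_toAlgHom_injective h1

/-- (Y5) `K(ζ_n)/K` is unramified at the primes not containing `n`: the inertia group is
trivial. -/
theorem inertia_eq_bot_of_notMem (n : ℕ) [NeZero n] (K : Type u) (L : Type v) [Field K] [Field L]
    [Algebra K L] [IsCyclotomicExtension {n} K L] (P : Ideal (𝓞 L))
    (hn : (n : 𝓞 L) ∉ P) : P.inertia (L ≃ₐ[K] L) = ⊥ := by
  rw [eq_bot_iff]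
  intro σ hσ
  rw [Subgroup.mem_bot]
  have hζ := IsCyclotomicExtension.zeta_spec n K L
  have hζ' := hζ.toInteger_isPrimitiveRoot
  set z : 𝓞 L := hζ.toInteger with hz
  have hn1 : 1 ≤ n := Nat.one_le_iff_ne_zero.mpr (NeZero.ne n)
  have hmem : σ • z - z ∈ P := hσ z
  have hpow : (σ • z) ^ n = 1 := by
    rw [← smul_pow', hζ'.pow_eq_one, smul_one]
  obtain ⟨i, -, hi⟩ := hζ'.eq_pow_of_pow_eq_one hpow
  rw [← hi] at hmem
  -- `ξ = z ^ (i - 1)`
  have hz1 : z ^ (n - 1) * z = 1 := by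
    rw [← pow_succ, Nat.sub_add_cancel hn1, hζ'.pow_eq_one]
  have hξn : (z ^ i * z ^ (n - 1)) ^ n = 1 := by
    rw [mul_pow, ← pow_mul, ← pow_mul, mul_comm i n, mul_comm (n - 1) n, pow_mul, pow_mul,
      hζ'.pow_eq_one, one_pow, one_pow, one_mul]
  have hξmem : z ^ i * z ^ (n - 1) - 1 ∈ P := by
    have : z ^ i * z ^ (n - 1) - 1 = z ^ (n - 1) * (z ^ i - z) := by
      rw [mul_sub, hz1, mul_comm]
    rw [this]
    exact P.mul_mem_left _ hmem
  have hξ1 : z ^ i * z ^ (n - 1) = 1 := by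
    by_contra hne
    exact hn (P.mem_of_dvd (sub_one_dvd_natCast_of_pow_eq_one hξn hne) hξmem)
  have hfix : σ • z = z := by
    rw [← hi]
    calc z ^ i = z ^ i * (z ^ (n - 1) * z) := by rw [hz1, mul_one]
      _ = (z ^ i * z ^ (n - 1)) * z := by ring
      _ = z := by rw [hξ1, one_mul]
  refine eq_one_of_apply_zeta hζ σ ?_
  exact congrArg (fun x : 𝓞 L => (x : L)) hfix

/-- (Y5') `K(ζ_{p^r})/K` is unramified at the primes not containing `p`. -/
theorem inertia_eq_bot_of_prime_notMem (p : ℕ) (hp : p.Prime) (r : ℕ) (K : Type u) (L : Type v)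
    [Field K] [Field L] [Algebra K L] [IsCyclotomicExtension {p ^ r} K L] (P : Ideal (𝓞 L))
    [hP : P.IsPrime] (hpP : (p : 𝓞 L) ∉ P) : P.inertia (L ≃ₐ[K] L) = ⊥ := by
  have : NeZero (p ^ r) := ⟨(pow_pos hp.pos r).ne'⟩
  refine inertia_eq_bot_of_notMem (p ^ r) K L P ?_
  intro hmem
  rw [Nat.cast_pow] at hmem
  exact hpP (hP.mem_of_pow_mem r hmem)

/-! ### (Y4) the packaged statement -/

/-- (Y4) **Enough cyclotomic extensions with large `p`-primary local degrees.**
For a finite set `T` of nonzero primes of `𝓞 K` and `N`, there is `r₀ ≥ 1` such that for all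
`r ≥ r₀`, every `L = K(ζ_{p^r})` and every prime `P` of `𝓞 L` above a prime of `T`, the order of
the decomposition group of `P` in `Gal(L/K)` (= the local degree at `P`) is divisible by
`p ^ N`. -/
theorem exists_level (p : ℕ) [hp : Fact p.Prime] (K : Type u) [Field K] [NumberField K]
    (T : Finset (Ideal (𝓞 K))) (hT : ∀ P0 ∈ T, P0.IsPrime ∧ P0 ≠ ⊥) (N : ℕ) :
    ∃ r₀ : ℕ, 1 ≤ r₀ ∧ ∀ r : ℕ, r₀ ≤ r → ∀ (L : Type v) [Field L] [NumberField L] [Algebra K L]
      [IsCyclotomicExtension {p ^ r} K L] (P : Ideal (𝓞 L)), P.IsPrime → P.under (𝓞 K) ∈ T →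
      p ^ N ∣ Nat.card (MulAction.stabilizer (L ≃ₐ[K] L) P) := by
  refine ⟨(T.sup fun P0 => (Ideal.absNorm P0) ^ (p ^ (N + 1)) + 1) +
    (N + Module.finrank ℚ K + 1), by omega, ?_⟩
  intro r hr L _ _ _ _ P hP hPT
  obtain ⟨hP0, hP0'⟩ := hT _ hPT
  by_cases hpP : (p : 𝓞 L) ∈ P
  · obtain ⟨k, rfl⟩ : ∃ k, r = k + 1 := ⟨r - 1, by omega⟩
    exact pow_dvd_card_stabilizer_of_mem p K L k N (by omega) P hpP
  · have hsup : (Ideal.absNorm (P.under (𝓞 K))) ^ (p ^ (N + 1)) + 1 ≤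
        T.sup fun P0 => (Ideal.absNorm P0) ^ (p ^ (N + 1)) + 1 :=
      Finset.le_sup (f := fun P0 : Ideal (𝓞 K) => (Ideal.absNorm P0) ^ (p ^ (N + 1)) + 1) hPT
    refine pow_dvd_card_stabilizer_of_notMem p hp.out K L r N (P.under (𝓞 K)) hP0 hP0' ?_
      (by omega) P hP rfl
    intro hmem
    apply hpP
    rw [Ideal.under_def, Ideal.mem_comap, map_natCast] at hmem
    exact hmem

/-- (Y4') The packaged statement for the concrete model `L := CyclotomicField (p ^ r) K`: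
`L/K` is Galois with cyclic group (`p` odd), unramified outside `p`, and all decomposition groups
above `T` have order divisible by `p ^ N`. -/
theorem exists_cyclotomicField (p : ℕ) [hp : Fact p.Prime] (hp2 : p ≠ 2) (K : Type u) [Field K]
    [NumberField K] (T : Finset (Ideal (𝓞 K))) (hT : ∀ P0 ∈ T, P0.IsPrime ∧ P0 ≠ ⊥) (N : ℕ) :
    ∃ r : ℕ, 1 ≤ r ∧ IsGalois K (CyclotomicField (p ^ r) K) ∧
      IsCyclic (CyclotomicField (p ^ r) K ≃ₐ[K] CyclotomicField (p ^ r) K) ∧
      (∀ P : Ideal (𝓞 (CyclotomicField (p ^ r) K)), P.IsPrime →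
        (p : 𝓞 (CyclotomicField (p ^ r) K)) ∉ P →
        P.inertia (CyclotomicField (p ^ r) K ≃ₐ[K] CyclotomicField (p ^ r) K) = ⊥) ∧
      ∀ P : Ideal (𝓞 (CyclotomicField (p ^ r) K)), P.IsPrime → P.under (𝓞 K) ∈ T →
        p ^ N ∣ Nat.card (MulAction.stabilizer
          (CyclotomicField (p ^ r) K ≃ₐ[K] CyclotomicField (p ^ r) K) P) := by
  obtain ⟨r₀, hr₀, h⟩ := exists_level.{u, u} p K T hT N
  have : NeZero (p ^ r₀) := ⟨(pow_pos hp.out.pos _).ne'⟩
  refine ⟨r₀, hr₀, IsCyclotomicExtension.isGalois {p ^ r₀} K _,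
    isCyclic_gal p hp.out hp2 r₀ K _, ?_, ?_⟩
  · intro P hP hpP
    exact inertia_eq_bot_of_prime_notMem p hp.out r₀ K _ P hpP
  · intro P hP hPT
    exact h r₀ le_rfl (CyclotomicField (p ^ r₀) K) P hP hPT

end Fermat.Agent.PT.GLOB.CycloLocalDeg22
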