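/-
Program F (S55, Poitou–Tate), chapter GLOB, leaf (R1-Ka) (helper15).

**Kummer extensions by Selmer elements are unramified outside `S`.**

Let `K ⊂ ℚ̄` be a finite extension of `ℚ` unramified outside `S`, `p` a prime with `p ∈ S`, and
`a ∈ Kˣ` with `p ∣ ord_v a` for every prime `v` of `K` not above `S`
(`a ∈ selSub (primesAboveS S K) p`).  Then for every `β ∈ ℚ̄` with `β ^ p = a` the field `K(β)` is
unramified outside `S` (`isUnramifiedOutside_adjoin_root`), hence so is
`kummerLevel K p Y = K(Y^{1/p})` for every finite `Y ⊆ selSub` (`isUnramifiedOutside_kummerLevel`),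
and so is its Galois closure over `ℚ` (`exists_isGalois_kummerLevel_le`).

No class field theory: for `σ` in an inertia group at `q ∉ S`, `σ β = η β` with `η ^ p = 1`;
scaling `β` to a `v`-unit `γ` one gets `η - 1 ∈ 𝔪`, and `η ≠ 1` would give `p ∈ 𝔪`.
-/
import Mathlib
import Fermat.Agent.S05.Inertia
import Fermat.Agent.PT.GLOB.H1Finite15

set_option autoImplicit false
set_option linter.style.haveILetI false
set_option linter.unusedSectionVars false

namespace Fermat.Agent.PT.GLOB.KummerUnramA15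

open NumberField IsDedekindDomain
open scoped WithZero
open Fermat.Agent.S13.UnramRam
open Fermat.Agent.PT.GLOB.SelmerFinite15 Fermat.Agent.PT.GLOB.H1Finite15

local notation "Qbar" => AlgebraicClosure ℚ
local notation "Γ" => (AlgebraicClosure ℚ ≃ₐ[ℚ] AlgebraicClosure ℚ)

local instance isAlgClosureQbar15a : IsAlgClosure ℚ Qbar := ⟨inferInstance, inferInstance⟩
local instance normalQbar15a : Normal ℚ Qbar := IsAlgClosure.normal ℚ Qbar
local instance isGaloisQbar15a : IsGalois ℚ Qbar := IsAlgClosure.isGalois ℚ Qbar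

/-! ### Scaling an element with `n ∣ ord_v a` to a `v`-unit -/

section EX

variable {R K : Type*} [CommRing R] [IsDedekindDomain R] [Field K] [Algebra R K]
  [IsFractionRing R K]

/-- If `n ∣ ord_v a` then `t ^ n * a = r / d` for some `t ∈ Kˣ` and `r, d ∈ R ∖ v`. -/
theorem exists_pow_mul_eq_div (v : HeightOneSpectrum R) (n : ℕ) (a : Kˣ)
    (h : (n : ℤ) ∣ Multiplicative.toAdd (v.valuationOfNeZero a)) :
    ∃ (t : Kˣ) (r d : R), r ∉ v.asIdeal ∧ d ∉ v.asIdeal ∧
      (t : K) ^ n * (a : K) * algebraMap R K d = algebraMap R K r := by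
  obtain ⟨m, hm⟩ := h
  obtain ⟨π, hπ⟩ := v.valuation_exists_uniformizer K
  have hπ0 : π ≠ 0 := by
    rintro rfl
    rw [map_zero] at hπ
    exact WithZero.exp_ne_zero hπ.symm
  have hva : v.valuation K (a : K) = WithZero.exp ((n : ℤ) * m) := by
    rw [← HeightOneSpectrum.valuationOfNeZero_eq, ← hm]
    rfl
  set t : Kˣ := (Units.mk0 π hπ0) ^ m with ht
  have hvt : v.valuation K (t : K) = WithZero.exp (-m) := by
    rw [ht, Units.val_zpow_eq_zpow_val, Units.val_mk0, map_zpow₀, hπ, ← WithZero.exp_zsmul]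
    congr 1
    simp
  have hvx : v.valuation K ((t : K) ^ n * (a : K)) = 1 := by
    rw [map_mul, map_pow, hvt, hva, ← WithZero.exp_nsmul, ← WithZero.exp_add, ← WithZero.exp_zero]
    congr 1
    simp
  obtain ⟨r, d, hrd⟩ := v.exists_primeCompl_mul_eq_of_integer ((t : K) ^ n * (a : K)) hvx.le
  refine ⟨t, r, d, ?_, d.2, hrd⟩
  have hd1 : v.valuation K (algebraMap R K d) = 1 := by
    rw [HeightOneSpectrum.valuation_of_algebraMap]
    exact (v.intValuation_eq_one_iff_mem_primeCompl d).mpr d.2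
  have hr1 : v.valuation K (algebraMap R K r) = 1 := by
    rw [← hrd, map_mul, hvx, hd1, one_mul]
  rw [HeightOneSpectrum.valuation_of_algebraMap] at hr1
  exact (v.intValuation_eq_one_iff_mem_primeCompl r).mp hr1

end EX

/-! ### Auxiliary facts -/

/-- An automorphism fixing a set pointwise fixes the field generated by it. -/
theorem mem_fixingSubgroup_adjoin (σ : Γ) (T : Set Qbar) (h : ∀ x ∈ T, σ x = x) :
    σ ∈ (IntermediateField.adjoin ℚ T).fixingSubgroup := by
  have hle : IntermediateField.adjoin ℚ T ≤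
      IntermediateField.fixedField (Subgroup.zpowers σ) := by
    rw [IntermediateField.adjoin_le_iff]
    intro x hx
    rw [SetLike.mem_coe, IntermediateField.mem_fixedField_iff]
    intro f hf
    have hz : Subgroup.zpowers σ ≤ MulAction.stabilizer Γ x := by
      rw [Subgroup.zpowers_le]
      exact h x hx
    exact hz hf
  exact (IntermediateField.le_iff_le _ _).mp hle (Subgroup.mem_zpowers σ)

/-- A nontrivial `p`-th root of unity congruent to `1` modulo the maximal ideal of a valuation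
subring forces `p` into the maximal ideal. -/
theorem valuation_natCast_lt_one_of_root {p : ℕ} (hp : p.Prime) (A : ValuationSubring Qbar)
    {η : Qbar} (hη : η ^ p = 1) (hη1 : η ≠ 1) (h : A.valuation (η - 1) < 1) :
    A.valuation (p : Qbar) < 1 := by
  haveI : Fact p.Prime := ⟨hp⟩
  have hprim : IsPrimitiveRoot η p := by
    have ho := orderOf_eq_prime hη hη1
    have := IsPrimitiveRoot.orderOf η
    rwa [ho] at this
  obtain ⟨n, rfl⟩ : ∃ n, p = n + 1 := ⟨p - 1, (Nat.succ_pred_eq_of_pos hp.pos).symm⟩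
  have hηA : η ∈ A :=
    Fermat.Agent.S13.UnramVal.mem_of_isIntegral_int A (hprim.isIntegral (Nat.succ_pos n))
  have hprod := hprim.prod_one_sub_pow_eq_order
  have h0 : 0 ∈ Finset.range n := by
    rw [Finset.mem_range]
    have := hp.two_le
    omega
  rw [← Finset.mul_prod_erase _ _ h0] at hprod
  have hc : (∏ x ∈ (Finset.range n).erase 0, (1 - η ^ (x + 1))) ∈ A :=
    prod_mem fun x _ => sub_mem (one_mem A) (pow_mem hηA _)
  have hc' := (ValuationSubring.valuation_le_one_iff A _).mpr hc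
  have h1 : A.valuation (1 - η ^ (0 + 1)) < 1 := by
    rw [zero_add, pow_one, ← neg_sub, Valuation.map_neg]
    exact h
  have hcast : ((n + 1 : ℕ) : Qbar) = (n : Qbar) + 1 := by push_cast; ring
  rw [hcast, ← hprod, map_mul]
  calc A.valuation (1 - η ^ (0 + 1)) * A.valuation (∏ x ∈ (Finset.range n).erase 0,
        (1 - η ^ (x + 1)))
      ≤ A.valuation (1 - η ^ (0 + 1)) * 1 := mul_le_mul_right hc' _
    _ = A.valuation (1 - η ^ (0 + 1)) := mul_one _
    _ < 1 := h1

section Below

variable (K : IntermediateField ℚ Qbar) [FiniteDimensional ℚ K]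

/-- An element of `𝓞 K` outside the prime below `A` is a unit of `A`. -/
theorem valuation_eq_one_of_notMem_primeBelow (A : ValuationSubring Qbar) (x : 𝓞 K)
    (hx : x ∉ primeBelow K A) : A.valuation (((x : K) : Qbar)) = 1 := by
  have hmem : (((x : K) : Qbar)) ∈ A :=
    Fermat.Agent.S13.UnramVal.mem_of_isIntegral_int A
      (map_isIntegral_int (algebraMap K Qbar) x.2)
  refine le_antisymm ((ValuationSubring.valuation_le_one_iff A _).mpr hmem) ?_
  rw [mem_primeBelow_iff, ValuationSubring.mem_nonunits_iff, not_lt] at hx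
  exact hx

/-- The prime of `𝓞 K` below a valuation subring of `ℚ̄` lying over the rational prime `q`. -/
noncomputable def placeBelow (A : ValuationSubring Qbar) {q : ℕ} (hq : q.Prime)
    (hA : A.LiesOverPrime q) : HeightOneSpectrum (𝓞 K) where
  asIdeal := primeBelow K A
  isPrime := inferInstance
  ne_bot := by
    intro hbot
    have hmem : ((q : ℕ) : 𝓞 K) ∈ primeBelow K A := by
      rw [mem_primeBelow_iff]
      have : ((((q : ℕ) : 𝓞 K) : K) : Qbar) = (q : Qbar) := by simp
      rw [this]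
      exact hA
    rw [hbot, Ideal.mem_bot] at hmem
    exact hq.ne_zero (by exact_mod_cast hmem)

theorem placeBelow_notMem_primesAboveS (S : Finset Nat.Primes) (A : ValuationSubring Qbar)
    (q : Nat.Primes) (hq : q ∉ S) (hA : A.LiesOverPrime (q : ℕ)) :
    placeBelow K A q.2 hA ∉ primesAboveS S K := by
  rintro ⟨ℓ, hℓS, hℓ⟩
  have hℓ' : ((ℓ : ℕ) : 𝓞 K) ∈ primeBelow K A := hℓ
  rw [mem_primeBelow_iff, ValuationSubring.mem_nonunits_iff] at hℓ'
  have hne : (q : ℕ) ≠ (ℓ : ℕ) := by
    intro h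
    apply hq
    have : q = ℓ := Subtype.ext h
    rwa [this]
  have h1 := Fermat.Agent.S05.Inertia.valuation_prime_eq_one (A := A) q.2 hA ℓ.2 hne
  have : ((((ℓ : ℕ) : 𝓞 K) : K) : Qbar) = ((ℓ : ℕ) : Qbar) := by simp
  rw [this, h1] at hℓ'
  exact lt_irrefl _ hℓ'

end Below

/-! ### The main theorem -/

section Main

variable {p : ℕ} (S : Finset Nat.Primes) (K : IntermediateField ℚ Qbar) [FiniteDimensional ℚ K]

/-- **Key step.**  Let `σ` be in the inertia group of a valuation subring `A` of `ℚ̄` over `q ∉ S`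
(`p ∈ S`), fixing `K`; let `a ∈ Kˣ` with `p ∣ ord_v a` for the prime `v` of `K` below `A`.  Then
`σ` fixes every `p`-th root `β` of `a`. -/
theorem apply_root_eq (hp : p.Prime) (hpS : (⟨p, hp⟩ : Nat.Primes) ∈ S)
    (q : Nat.Primes) (hq : q ∉ S) (A : ValuationSubring Qbar) (hA : A.LiesOverPrime (q : ℕ))
    (σ : Γ) (hσ : σ ∈ A.inertiaSubgroupIn ℚ) (hσK : σ ∈ K.fixingSubgroup)
    (a : Kˣ) (ha : a ∈ selSub (R := 𝓞 K) (K := K) (primesAboveS S K) p)
    (β : Qbar) (hβ : β ^ p = ((a : K) : Qbar)) : σ β = β := by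
  have hv := placeBelow_notMem_primesAboveS K S A q hq hA
  obtain ⟨t, r, d, hr, hd, hrd⟩ := exists_pow_mul_eq_div (placeBelow K A q.2 hA) p a (ha _ hv)
  have hr1 := valuation_eq_one_of_notMem_primeBelow K A r hr
  have hd1 := valuation_eq_one_of_notMem_primeBelow K A d hd
  have hrd' : (((t : K) : Qbar) * β) ^ p * (((d : K)) : Qbar) = (((r : K)) : Qbar) := by
    have h := congrArg (fun x : K => (x : Qbar)) hrd
    simp only [IntermediateField.coe_mul, IntermediateField.coe_pow] at h
    rw [mul_pow, hβ]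
    exact h
  set γ : Qbar := ((t : K) : Qbar) * β with hγ
  have hγ1 : A.valuation γ = 1 := by
    have h := congrArg A.valuation hrd'
    rw [map_mul, map_pow, hd1, hr1, mul_one] at h
    exact (pow_eq_one_iff_left hp.ne_zero).mp h
  have ht0 : ((t : K) : Qbar) ≠ 0 := by
    intro h
    exact t.ne_zero (by exact_mod_cast h)
  have hβ0 : β ≠ 0 := by
    intro h
    rw [h, zero_pow hp.ne_zero] at hβ
    exact a.ne_zero (by exact_mod_cast hβ.symm)
  have hσt : σ ((t : K) : Qbar) = ((t : K) : Qbar) :=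
    (IntermediateField.mem_fixingSubgroup_iff _ σ).mp hσK _ (t : K).2
  have hσa : σ ((a : K) : Qbar) = ((a : K) : Qbar) :=
    (IntermediateField.mem_fixingSubgroup_iff _ σ).mp hσK _ (a : K).2
  set η : Qbar := σ β / β with hη
  have hηp : η ^ p = 1 := by
    rw [hη, div_pow, ← map_pow, hβ, hσa, div_self]
    rw [← hβ]
    exact pow_ne_zero _ hβ0
  have hsub : σ γ - γ = (η - 1) * γ := by
    rw [hγ, map_mul, hσt, hη]
    field_simp
  have hlt : A.valuation (η - 1) < 1 := by
    have h := Fermat.Agent.S05.Inertia.valuation_sub_lt_one hσ hγ1.le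
    rwa [hsub, map_mul, hγ1, mul_one] at h
  by_contra hne
  have hη1 : η ≠ 1 := by
    intro h
    apply hne
    rw [hη, div_eq_one_iff_eq hβ0] at h
    exact h
  have hplt := valuation_natCast_lt_one_of_root hp A hηp hη1 hlt
  have hqp : (q : ℕ) ≠ p := by
    intro h
    apply hq
    have : q = ⟨p, hp⟩ := Subtype.ext h
    rwa [this]
  have hp1 := Fermat.Agent.S05.Inertia.valuation_prime_eq_one (A := A) q.2 hA hp hqp
  rw [hp1] at hplt
  exact lt_irrefl _ hplt

/-- **(R1-Ka).**  `K(β)` is unramified outside `S` for every `p`-th root `β` of a Selmer element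
`a ∈ selSub (primesAboveS S K) p` (`p ∈ S`, `K` unramified outside `S`). -/
theorem isUnramifiedOutside_adjoin_root (hp : p.Prime) (hpS : (⟨p, hp⟩ : Nat.Primes) ∈ S)
    (hK : K.IsUnramifiedOutside S)
    (a : Kˣ) (ha : a ∈ selSub (R := 𝓞 K) (K := K) (primesAboveS S K) p)
    (β : Qbar) (hβ : β ^ p = ((a : K) : Qbar)) :
    (K ⊔ IntermediateField.adjoin ℚ {β}).IsUnramifiedOutside S := by
  haveI : FiniteDimensional ℚ (IntermediateField.adjoin ℚ ({β} : Set Qbar)) :=
    IntermediateField.adjoin.finiteDimensional (Algebra.IsIntegral.isIntegral β)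
  refine ⟨IntermediateField.finiteDimensional_sup K _, fun q hq A hA σ hσ => ?_⟩
  have hσK : σ ∈ K.fixingSubgroup := hK.2 q hq A hA hσ
  rw [IntermediateField.fixingSubgroup_sup]
  refine ⟨hσK, mem_fixingSubgroup_adjoin σ _ ?_⟩
  rintro x rfl
  exact apply_root_eq S K hp hpS q hq A hA σ hσ hσK a ha x hβ

/-- **(R1-Ka), set form.**  `K(Y^{1/p})` is unramified outside `S` for every finite set `Y` of
Selmer elements. -/
theorem isUnramifiedOutside_kummerLevel (hp : p.Prime) (hpS : (⟨p, hp⟩ : Nat.Primes) ∈ S)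
    (hK : K.IsUnramifiedOutside S) (Y : Finset Kˣ)
    (hY : ∀ y ∈ Y, y ∈ selSub (R := 𝓞 K) (K := K) (primesAboveS S K) p) :
    (kummerLevel K p Y).IsUnramifiedOutside S := by
  haveI := finiteDimensional_kummerLevel K hp.pos Y
  refine ⟨inferInstance, fun q hq A hA σ hσ => ?_⟩
  have hσK : σ ∈ K.fixingSubgroup := hK.2 q hq A hA hσ
  unfold kummerLevel
  rw [IntermediateField.fixingSubgroup_sup]
  refine ⟨hσK, mem_fixingSubgroup_adjoin σ _ ?_⟩
  rintro x ⟨y, hyY, hx⟩
  exact apply_root_eq S K hp hpS q hq A hA σ hσ hσK y (hY y hyY) x hx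

/-- The Galois closure over `ℚ` of `K(Y^{1/p})`, still unramified outside `S`. -/
theorem exists_isGalois_kummerLevel_le (hp : p.Prime) (hpS : (⟨p, hp⟩ : Nat.Primes) ∈ S)
    (hK : K.IsUnramifiedOutside S) (Y : Finset Kˣ)
    (hY : ∀ y ∈ Y, y ∈ selSub (R := 𝓞 K) (K := K) (primesAboveS S K) p) :
    ∃ L : IntermediateField ℚ Qbar, kummerLevel K p Y ≤ L ∧ IsGalois ℚ L ∧
      L.IsUnramifiedOutside S :=
  Fermat.Agent.PT.BR.UnramBridge13.exists_isGalois_isUnramifiedOutside
    (isUnramifiedOutside_kummerLevel S K hp hpS hK Y hY)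

end Main

end Fermat.Agent.PT.GLOB.KummerUnramA15
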