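/-
Program F (S55, Poitou–Tate), chapter GLOB, leaf (REC-KUM), part 1 (helper15).

`Interface23.IsUnramifiedOutside` (abstract number fields):
* `isUnramifiedOutside_trans` : transitivity in a tower `F ⊆ K ⊆ L` of Galois extensions;
* `isUnramifiedOutside_of_kummer` : `L = K(D^{1/p})` is unramified outside `S` over `K` if `p ∈ S`
  and every `d ∈ D` has `p ∣ ord_v d` for all primes `v` of `K` not above `S`
  (the abstract-field form of `KummerUnramA15`).
-/
import Mathlib
import Fermat.Agent.PT.GLOB.Tower23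
import Fermat.Agent.PT.GLOB.ClassKillCT15
import Fermat.Agent.PT.GLOB.KummerUnramA15

set_option autoImplicit false
set_option linter.style.haveILetI false
set_option linter.unusedSectionVars false

namespace Fermat.Agent.PT.GLOB.UnramTower15

open NumberField IsDedekindDomain
open Fermat.Agent.PT.GLOB.Interface23 Fermat.Agent.PT.GLOB.Tower23

/-! ### Transitivity -/

section Trans

variable (S : Finset Nat.Primes)
variable (F K L : Type) [Field F] [Field K] [Field L] [NumberField F] [NumberField K]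
  [NumberField L] [Algebra F K] [Algebra K L] [Algebra F L] [IsScalarTower F K L]
  [IsGalois F K] [IsGalois F L] [IsGalois K L]

/-- If `K/F` and `L/K` are unramified outside `S` then so is `L/F`. -/
theorem isUnramifiedOutside_trans (hFK : IsUnramifiedOutside S F K)
    (hKL : IsUnramifiedOutside S K L) : IsUnramifiedOutside S F L := by
  intro P
  rw [eq_bot_iff]
  intro σ hσ
  rw [Subgroup.mem_bot]
  -- the restriction of `σ` to `K` lies in the inertia group of the prime below
  have h1 : σ.restrictNormal K ∈ ((underAway S K L P).1.asIdeal).inertia (K ≃ₐ[F] K) := by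
    intro y
    show _ ∈ (P.1.under (𝓞 K)).asIdeal
    rw [IsDedekindDomain.HeightOneSpectrum.under]
    show algebraMap (𝓞 K) (𝓞 L) ((σ.restrictNormal K) • y - y) ∈ P.1.asIdeal
    have h2 : algebraMap (𝓞 K) (𝓞 L) ((σ.restrictNormal K) • y - y) =
        σ • (algebraMap (𝓞 K) (𝓞 L) y) - algebraMap (𝓞 K) (𝓞 L) y := by
      apply Subtype.ext
      show algebraMap K L ((σ.restrictNormal K) (y : K) - (y : K)) =
        σ (algebraMap K L (y : K)) - algebraMap K L (y : K)
      rw [map_sub, AlgEquiv.restrictNormal_commutes]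
    rw [h2]
    exact hσ _
  rw [hFK (underAway S K L P), Subgroup.mem_bot] at h1
  -- so `σ` is `K`-linear
  have hfix : ∀ k : K, σ (algebraMap K L k) = algebraMap K L k := by
    intro k
    rw [← AlgEquiv.restrictNormal_commutes, h1, AlgEquiv.one_apply]
  let τ : L ≃ₐ[K] L := { σ.toRingEquiv with commutes' := hfix }
  have hτ : τ ∈ (P.1.asIdeal).inertia (L ≃ₐ[K] L) := fun x => hσ x
  rw [hKL P, Subgroup.mem_bot] at hτ
  ext x
  have := congrArg (fun t : L ≃ₐ[K] L => t x) hτ
  exact this

end Trans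

/-! ### Kummer extensions by Selmer elements -/

section Kummer

variable (S : Finset Nat.Primes)
variable (K L : Type) [Field K] [Field L] [NumberField K] [NumberField L] [Algebra K L]
  [IsGalois K L]

open Fermat.Agent.PT.GLOB.ClassKillCT15 Fermat.Agent.PT.GLOB.KummerUnramA15 in
/-- **Key step.**  An element `σ` of the inertia group of a prime `P` of `L` away from `S`
(`p ∈ S`) fixes every `p`-th root `x ∈ L` of an element `d ∈ Kˣ` with `p ∣ ord_v d`, `v = P ∩ K`. -/
theorem apply_root_eq_of_mem_inertia {p : ℕ} (hp : p.Prime) (hpS : ∃ q ∈ S, (q : ℕ) = p)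
    (P : PrimeAway S L) (σ : L ≃ₐ[K] L) (hσ : σ ∈ (P.1.asIdeal).inertia (L ≃ₐ[K] L))
    (d : Kˣ) (hd : (p : ℤ) ∣ ordAt K (underAway S K L P).1 d)
    (x : L) (hx : x ^ p = algebraMap K L d) : σ x = x := by
  haveI := P.1.isPrime
  set v := underAway S K L P with hv
  have hd' : (p : ℤ) ∣ Multiplicative.toAdd (v.1.valuationOfNeZero d) := by
    rw [ordAt_eq_neg_toAdd] at hd
    exact (dvd_neg).mp hd
  obtain ⟨t, r, e, hr, he, hre⟩ := exists_pow_mul_eq_div v.1 p d hd'
  -- membership in `v` is membership of the image in `P`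
  have hmemv : ∀ w : 𝓞 K, w ∈ v.1.asIdeal ↔ algebraMap (𝓞 K) (𝓞 L) w ∈ P.1.asIdeal := by
    intro w
    rfl
  -- the integer `w = r e^(p-1)` of `K`, a unit at `v`
  set w : 𝓞 K := r * e ^ (p - 1) with hw
  have hwv : w ∉ v.1.asIdeal := by
    intro h
    rcases (v.1.isPrime.mem_or_mem h) with h1 | h1
    · exact hr h1
    · exact he (v.1.isPrime.mem_of_pow_mem _ h1)
  -- `γ = t e x` satisfies `γ ^ p = w`
  set γ : L := algebraMap K L ((t : K) * (e : K)) * x with hγ
  have hγp : γ ^ p = algebraMap K L (w : K) := by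
    have h1 : ((t : K) * (e : K)) ^ p * (d : K) = (w : K) := by
      have h2 : (w : K) = (r : K) * (e : K) ^ (p - 1) := by
        rw [hw]; push_cast; rfl
      have h3 : (e : K) ^ p = (e : K) * (e : K) ^ (p - 1) := by
        rw [← pow_succ']
        congr 1
        have := hp.pos
        omega
      have hre' : (t : K) ^ p * (d : K) * (e : K) = (r : K) := hre
      rw [h2, ← hre', mul_pow, h3]
      ring
    rw [hγ, mul_pow, hx, ← map_pow, ← map_mul, h1]
  have hγint : IsIntegral ℤ γ := by
    refine IsIntegral.of_pow hp.pos ?_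
    rw [hγp]
    exact (algebraMap (𝓞 K) (𝓞 L) w).2
  set γ' : 𝓞 L := ⟨γ, hγint⟩ with hγ'
  have hγ'p : γ' ^ p = algebraMap (𝓞 K) (𝓞 L) w := by
    apply Subtype.ext
    show γ ^ p = algebraMap K L (w : K)
    exact hγp
  have hγ'P : γ' ∉ P.1.asIdeal := by
    intro h
    apply hwv
    rw [hmemv, ← hγ'p]
    exact Ideal.pow_mem_of_mem _ h p hp.pos
  -- the root of unity `η = σ x / x`
  have hx0 : x ≠ 0 := by
    intro h
    rw [h, zero_pow hp.ne_zero] at hx
    exact d.ne_zero ((map_eq_zero (algebraMap K L)).mp hx.symm)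
  set η : L := σ x / x with hη
  have hηp : η ^ p = 1 := by
    rw [hη, div_pow, ← map_pow, hx, σ.commutes, div_self]
    rw [← hx]
    exact pow_ne_zero _ hx0
  have hηint : IsIntegral ℤ η := by
    refine IsIntegral.of_pow hp.pos ?_
    rw [hηp]
    exact isIntegral_one
  set η' : 𝓞 L := ⟨η, hηint⟩ with hη'
  have hη'p : η' ^ p = 1 := by
    apply Subtype.ext
    show η ^ p = 1
    exact hηp
  have hsub : σ • γ' - γ' = (η' - 1) * γ' := by
    apply Subtype.ext
    show σ γ - γ = (η - 1) * γ
    rw [hγ, map_mul, σ.commutes, hη]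
    field_simp
  have hmem : (η' - 1) * γ' ∈ P.1.asIdeal := by
    rw [← hsub]
    exact hσ γ'
  have hη1 : η' - 1 ∈ P.1.asIdeal := by
    rcases P.1.isPrime.mem_or_mem hmem with h | h
    · exact h
    · exact absurd h hγ'P
  by_contra hne
  have hη'1 : η' ≠ 1 := by
    intro h
    apply hne
    have h1 : η = 1 := congrArg Subtype.val h
    rw [hη, div_eq_one_iff_eq hx0] at h1
    exact h1
  -- then `p ∈ P`
  haveI : Fact p.Prime := ⟨hp⟩
  have hprim : IsPrimitiveRoot η' p := by
    have ho := orderOf_eq_prime hη'p hη'1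
    have := IsPrimitiveRoot.orderOf η'
    rwa [ho] at this
  obtain ⟨n, rfl⟩ : ∃ n, p = n + 1 := ⟨p - 1, (Nat.succ_pred_eq_of_pos hp.pos).symm⟩
  have hprod := hprim.prod_one_sub_pow_eq_order
  have h0 : 0 ∈ Finset.range n := by
    rw [Finset.mem_range]
    have := hp.two_le
    omega
  have hdvd : (1 - η' ^ (0 + 1)) ∣ ∏ k ∈ Finset.range n, (1 - η' ^ (k + 1)) :=
    Finset.dvd_prod_of_mem _ h0
  have h1 : (1 - η' ^ (0 + 1)) ∈ P.1.asIdeal := by
    rw [zero_add, pow_one, ← neg_sub]
    exact neg_mem hη1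
  have hpP : ((n : 𝓞 L) + 1) ∈ P.1.asIdeal := by
    rw [← hprod]
    exact Ideal.mem_of_dvd _ hdvd h1
  obtain ⟨q, hqS, hqp⟩ := hpS
  apply P.2 q hqS
  rw [hqp]
  push_cast
  exact hpP

/-- **(R1-Ka), abstract-field form.**  `L = K(D^{1/p})` is unramified outside `S` over `K` if
`p ∈ S` and every `d ∈ D` has `p ∣ ord_v d` for all primes `v` of `K` not above `S`. -/
theorem isUnramifiedOutside_of_kummer {p : ℕ} (hp : p.Prime) (hpS : ∃ q ∈ S, (q : ℕ) = p)
    (D : Subgroup Kˣ) (hD : ∀ d ∈ D, ∀ v : PrimeAway S K, (p : ℤ) ∣ ordAt K v.1 d)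
    (hgen : IntermediateField.adjoin K {x : L | ∃ d ∈ D, x ^ p = algebraMap K L d} = ⊤) :
    IsUnramifiedOutside S K L := by
  intro P
  rw [eq_bot_iff]
  intro σ hσ
  rw [Subgroup.mem_bot]
  have hle : IntermediateField.adjoin K {x : L | ∃ d ∈ D, x ^ p = algebraMap K L d} ≤
      IntermediateField.fixedField (Subgroup.zpowers σ) := by
    rw [IntermediateField.adjoin_le_iff]
    rintro x ⟨d, hd, hx⟩
    rw [SetLike.mem_coe, IntermediateField.mem_fixedField_iff]
    intro f hf
    have hz : Subgroup.zpowers σ ≤ MulAction.stabilizer (L ≃ₐ[K] L) x := by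
      rw [Subgroup.zpowers_le]
      exact apply_root_eq_of_mem_inertia S K L hp hpS P σ hσ d (hD d hd _) x hx
    exact hz hf
  rw [hgen, top_le_iff] at hle
  ext x
  have hx : x ∈ IntermediateField.fixedField (Subgroup.zpowers σ) := by
    rw [hle]; trivial
  rw [IntermediateField.mem_fixedField_iff] at hx
  exact hx σ (Subgroup.mem_zpowers σ)

end Kummer

end Fermat.Agent.PT.GLOB.UnramTower15
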