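/-
Program F (S55, Poitou–Tate), chapter GLOB, leaf C3 (helper23): the big field
`Ω = L(ζ_{p^r}) := CyclotomicField (p^r) L` over a Galois layer `L/K` of number fields:
`Ω/K` is Galois, unramified outside `S ∋ p` if `L/K` is.
-/
import Fermat.Agent.PT.GLOB.UnramTower15
import Fermat.Agent.PT.GLOB.CycloLocalDeg22

set_option autoImplicit false
set_option linter.unusedSectionVars false

namespace Fermat.Agent.PT.GLOB.OmegaField23

open NumberField Polynomial
open Fermat.Agent.PT.GLOB.Interface23

noncomputable section

variable (K L : Type) [Field K] [Field L] [NumberField K] [NumberField L] [Algebra K L]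
  [IsGalois K L] (n : ℕ) [NeZero n]

/-- `L(ζ_n)/K` is Galois when `L/K` is. -/
theorem isGalois_cyclotomicField : IsGalois K (CyclotomicField n L) := by
  obtain ⟨f, hfs, hf⟩ := IsGalois.is_separable_splitting_field K L
  have hg0 : (X ^ n - C (1 : K) : K[X]) ≠ 0 :=
    X_pow_sub_C_ne_zero (Nat.pos_of_ne_zero (NeZero.ne n)) (1 : K)
  have hsp : IsSplittingField L (CyclotomicField n L)
      ((X ^ n - C (1 : K) : K[X]).map (algebraMap K L)) := by
    have h := IsCyclotomicExtension.isSplittingField_X_pow_sub_one n L (CyclotomicField n L)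
    have e : (X ^ n - C (1 : K) : K[X]).map (algebraMap K L) = (X ^ n - 1 : L[X]) := by
      rw [Polynomial.map_sub, Polynomial.map_pow, Polynomial.map_X, Polynomial.map_C, map_one,
        C_1]
    rw [e]
    exact h
  have hmul : IsSplittingField K (CyclotomicField n L) (f * (X ^ n - C (1 : K))) :=
    IsSplittingField.mul (F := K) (K := L) (CyclotomicField n L) f (X ^ n - C (1 : K))
      hfs.ne_zero hg0
  have hn : Normal K (CyclotomicField n L) := Normal.of_isSplittingField (f * (X ^ n - C (1 : K)))
  exact ⟨⟩

theorem isGalois_top : IsGalois L (CyclotomicField n L) :=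
  IsCyclotomicExtension.isGalois {n} L (CyclotomicField n L)

section Unram

variable (S : Finset Nat.Primes) (p : Nat.Primes) (r : ℕ) [NeZero ((p : ℕ) ^ r)]

theorem isUnramifiedOutside_top (hpS : p ∈ S) :
    IsUnramifiedOutside S L (CyclotomicField ((p : ℕ) ^ r) L) := by
  intro P
  have := P.1.isPrime
  apply CycloLocalDeg22.inertia_eq_bot_of_prime_notMem (p : ℕ) p.2 r L
    (CyclotomicField ((p : ℕ) ^ r) L) P.1.asIdeal
  have := P.2 p hpS
  simpa using this

theorem isUnramifiedOutside_cyclotomicField (hpS : p ∈ S) (hun : IsUnramifiedOutside S K L) :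
    IsUnramifiedOutside S K (CyclotomicField ((p : ℕ) ^ r) L) := by
  have := isGalois_cyclotomicField K L ((p : ℕ) ^ r)
  have := isGalois_top L ((p : ℕ) ^ r)
  exact UnramTower15.isUnramifiedOutside_trans S K L (CyclotomicField ((p : ℕ) ^ r) L) hun
    (isUnramifiedOutside_top L S p r hpS)

end Unram

end

end Fermat.Agent.PT.GLOB.OmegaField23
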