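/-
Program F (S55, Poitou–Tate), chapter GLOB — helper26 (delegation (D1) of helper6).

* `isUnramifiedOutside_comp` : the compositum `L·K'` (`Compositum6.Comp K L K'`) of two Galois
  extensions `L/K`, `K'/K` of number fields unramified outside `S` is unramified outside `S`.
* `isUnramifiedOutside_cyclotomicField` : `K(ζ_{p^r})/K` is unramified outside `S ∋ p`.
* `restrictNormal_mem_inertia` : the restriction of an element of the inertia group of a prime
  `P` of the top field of a tower `F ⊂ K ⊂ L` lies in the inertia group of the prime below `P`.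
-/
import Fermat.Agent.PT.GLOB.Compositum6
import Fermat.Agent.PT.GLOB.OmegaField23

set_option autoImplicit false
set_option linter.unusedSectionVars false

namespace Fermat.Agent.PT.GLOB.CompUnram26

open NumberField IsDedekindDomain
open Fermat.Agent.PT.GLOB.Interface23 Fermat.Agent.PT.GLOB.Tower23

noncomputable section

section Restrict

variable (S : Finset Nat.Primes)
variable (F K L : Type) [Field F] [Field K] [Field L] [NumberField F] [NumberField K]
  [NumberField L] [Algebra F K] [Algebra K L] [Algebra F L] [IsScalarTower F K L]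
  [IsGalois F K] [IsGalois F L]

/-- The restriction to `K` of an element of the inertia group (in `Gal(L/F)`) of a prime `P` of
`L` lies in the inertia group (in `Gal(K/F)`) of the prime of `K` below `P`. -/
theorem restrictNormal_mem_inertia (P : PrimeAway S L) (σ : L ≃ₐ[F] L)
    (hσ : σ ∈ (P.1.asIdeal).inertia (L ≃ₐ[F] L)) :
    σ.restrictNormal K ∈ ((underAway S K L P).1.asIdeal).inertia (K ≃ₐ[F] K) := by
  intro y
  show _ ∈ (P.1.under (𝓞 K)).asIdeal
  rw [IsDedekindDomain.HeightOneSpectrum.under]
  show algebraMap (𝓞 K) (𝓞 L) ((σ.restrictNormal K) • y - y) ∈ P.1.asIdeal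
  have h2 : algebraMap (𝓞 K) (𝓞 L) ((σ.restrictNormal K) • y - y) =
      σ • (algebraMap (𝓞 K) (𝓞 L) y) - algebraMap (𝓞 K) (𝓞 L) y := by
    apply Subtype.ext
    show algebraMap K L ((σ.restrictNormal K) (y : K) - (y : K)) =
      σ (algebraMap K L (y : K)) - algebraMap K L (y : K)
    rw [map_sub, AlgEquiv.restrictNormal_commutes]
  rw [h2]
  exact hσ _

/-- If `K/F` is unramified outside `S`, the elements of the inertia groups of `L/F` at primes
away from `S` restrict trivially to `K`. -/
theorem restrictNormal_eq_one_of_mem_inertia (hFK : IsUnramifiedOutside S F K)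
    (P : PrimeAway S L) (σ : L ≃ₐ[F] L) (hσ : σ ∈ (P.1.asIdeal).inertia (L ≃ₐ[F] L)) :
    σ.restrictNormal K = 1 := by
  have h1 := restrictNormal_mem_inertia S F K L P σ hσ
  rwa [hFK (underAway S K L P), Subgroup.mem_bot] at h1

end Restrict

section Comp

open scoped Fermat.Agent.PT.GLOB.Compositum6

variable (S : Finset Nat.Primes)
variable (K L K' : Type) [Field K] [Field L] [Field K'] [NumberField K] [NumberField L]
  [NumberField K'] [Algebra K L] [Algebra K K'] [IsGalois K L] [IsGalois K K']

/-- **The compositum of two extensions unramified outside `S` is unramified outside `S`.** -/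
theorem isUnramifiedOutside_comp (hL : IsUnramifiedOutside S K L)
    (hK' : IsUnramifiedOutside S K K') :
    IsUnramifiedOutside S K (Compositum6.Comp K L K') := by
  intro P
  rw [eq_bot_iff]
  intro σ hσ
  rw [Subgroup.mem_bot]
  have h1 : σ.restrictNormal L = 1 :=
    restrictNormal_eq_one_of_mem_inertia S K L (Compositum6.Comp K L K') hL P σ hσ
  have h2 : σ.restrictNormal K' = 1 :=
    restrictNormal_eq_one_of_mem_inertia S K K' (Compositum6.Comp K L K') hK' P σ hσ
  apply Compositum6.restrict_prod_injective K L K'
  show (σ.restrictNormal L, σ.restrictNormal K') =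
    ((1 : Compositum6.Comp K L K' ≃ₐ[K] Compositum6.Comp K L K').restrictNormal L,
      (1 : Compositum6.Comp K L K' ≃ₐ[K] Compositum6.Comp K L K').restrictNormal K')
  rw [h1, h2]
  have e1 : (1 : Compositum6.Comp K L K' ≃ₐ[K] Compositum6.Comp K L K').restrictNormal L = 1 :=
    map_one (AlgEquiv.restrictNormalHom (K₁ := Compositum6.Comp K L K') L)
  have e2 : (1 : Compositum6.Comp K L K' ≃ₐ[K] Compositum6.Comp K L K').restrictNormal K' = 1 :=
    map_one (AlgEquiv.restrictNormalHom (K₁ := Compositum6.Comp K L K') K')
  rw [e1, e2]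

end Comp

section Cyclo

/-- **`K(ζ_{p^r})/K` is unramified outside `S ∋ p`.** -/
theorem isUnramifiedOutside_cyclotomicField (S : Finset Nat.Primes) (p : Nat.Primes)
    (hpS : p ∈ S) (r : ℕ) [NeZero ((p : ℕ) ^ r)] (K : Type) [Field K] [NumberField K] :
    haveI := IsCyclotomicExtension.isGalois {(p : ℕ) ^ r} K (CyclotomicField ((p : ℕ) ^ r) K)
    IsUnramifiedOutside S K (CyclotomicField ((p : ℕ) ^ r) K) :=
  OmegaField23.isUnramifiedOutside_top K S p r hpS

end Cyclo

end

end Fermat.Agent.PT.GLOB.CompUnram26
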