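/-
Program F (S55), chapter GLOB, (L1-KIT) (helper14; fallback copy of helper18's leaf): the
compositum of two abstract Galois number fields over `ℚ` unramified outside `S`, as a `Type` with
algebra structures over both, Galois over `ℚ` and unramified outside `S`
(`Compositum6.Comp` + `CompUnram26.isUnramifiedOutside_comp`, `ℚ`-algebra diamond by `Subsingleton`).
-/
import Mathlib
import Fermat.Agent.PT.GLOB.CompUnram26

set_option autoImplicit false
set_option linter.unusedSectionVars false

namespace Fermat.Agent.PT.GLOB.LocalInjKit14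

open NumberField
open Fermat.Agent.PT.GLOB.Interface23
open scoped Fermat.Agent.PT.GLOB.Compositum6

theorem isGalois_rat_congr' {F : Type} [Field F] (a b : Algebra ℚ F)
    (h : @IsGalois ℚ _ F _ a) : @IsGalois ℚ _ F _ b := by
  have hab : a = b := Subsingleton.elim _ _
  subst hab
  exact h

theorem exists_compositum (S : Finset Nat.Primes) (L B : Type) [Field L] [Field B]
    [NumberField L] [NumberField B] [IsGalois ℚ L] [IsGalois ℚ B]
    (hL : IsUnramifiedOutside S ℚ L) (hB : IsUnramifiedOutside S ℚ B) :
    ∃ (N : Type) (_ : Field N) (_ : NumberField N) (_ : Algebra L N) (_ : Algebra B N)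
      (_ : IsGalois ℚ N), IsUnramifiedOutside S ℚ N := by
  have hab : (Compositum6.instAlgebraBase ℚ L B : Algebra ℚ (Compositum6.Comp ℚ L B)) =
      DivisionRing.toRatAlgebra := Subsingleton.elim _ _
  have hG : @IsGalois ℚ _ (Compositum6.Comp ℚ L B) _ (Compositum6.instAlgebraBase ℚ L B) :=
    inferInstance
  have hU := CompUnram26.isUnramifiedOutside_comp S ℚ L B hL hB
  rw [hab] at hG hU
  exact ⟨Compositum6.Comp ℚ L B, inferInstance, inferInstance, inferInstance, inferInstance,
    hG, hU⟩

end Fermat.Agent.PT.GLOB.LocalInjKit14
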