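/-
Program F (S55), chapter GLOB: **(L1) `InterfaceCF23.LocalInjectivity p S`** (helper14), assembled
from `LocalInjFinal14.localInjectivity_of`: inputs 2 and 3 are discharged here
(`p`-primary inflation for `CT`: helper8, `InfPrimaryCT_8.eq_zero_of_infH2CT_eq_zero`; compositum
kit: `LocalInjKit14.exists_compositum`); input 1 (the explicit non-norm class on a cyclic layer,
helper22's `LocalNonNorm22`) is the remaining hypothesis of `localInjectivity_of_nonNorm`.
-/
import Mathlib
import Fermat.Agent.PT.GLOB.LocalInjFinal14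
import Fermat.Agent.PT.GLOB.InfPrimaryCT_8
import Fermat.Agent.PT.GLOB.LocalInjKit14

set_option autoImplicit false
set_option linter.unusedSectionVars false

namespace Fermat.Agent.PT.GLOB.LocalInj14

open groupCohomology CategoryTheory NumberField
open Fermat.Agent.PT.GLOB.Interface23 Fermat.Agent.PT.GLOB.InterfaceCF23
open Fermat.Agent.PT.GLOB.LocalInjFinal14 Fermat.Agent.PT.GLOB.NormSubCT23

theorem infPrimaryInput (p : ℕ) (S : Finset Nat.Primes) (hp : p.Prime) (hp2 : p ≠ 2)
    (hpS : ∃ q ∈ S, (q : ℕ) = p) : InfPrimaryInput p S := by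
  intro B N _ _ _ _ _ _ _ _ hunN y hy h0
  exact InfPrimaryCT_8.eq_zero_of_infH2CT_eq_zero p S ℚ B N hp hp2 hpS hunN y hy h0

theorem compositumInput (S : Finset Nat.Primes) : CompositumInput S := by
  intro L B _ _ _ _ _ _ hL hB
  exact LocalInjKit14.exists_compositum S L B hL hB

/-- **(L1) local injectivity**, given the explicit non-norm classes (input 1). -/
theorem localInjectivity_of_nonNorm (p : ℕ) (S : Finset Nat.Primes)
    (h1 : p.Prime → p ≠ 2 → (∃ q ∈ S, (q : ℕ) = p) → ∀ [DecidableEq S], NonNormInput p S) :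
    LocalInjectivity p S := by
  intro hp hp2 hpS L _ _ _ _ hun q x hx hjx
  exact localInjectivity_of p S hp (fun {_} => h1 hp hp2 hpS)
    (infPrimaryInput p S hp hp2 hpS) (compositumInput S) L hun q x hx hjx

end Fermat.Agent.PT.GLOB.LocalInj14
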