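/-
Program F (S55, Poitou–Tate), chapter GLOB, leaf (C1), helper22.

# The explicit cyclotomic character on `T`-ideles and its product formula

`T : Finset Nat.Primes`, `p ∈ T`, `K` a number field, `U = (ZMod (p ^ r))ˣ`.  On Interface23's
`JT T K = IT T K × DivT T K` (`IT T K = ∏_{q ∈ T} (K ⊗_ℚ ℚ_q)ˣ`, `DivT T K` = divisors prime to `T`):

  `cyc T K p r hpT (x, D) = θ_r(Nm_p x_p)⁻¹ · ∏_{q ∈ T, q ≠ p} q ^ v_q(Nm_q x_q) · ∏_P (absNorm P) ^ D(P)`

where `Nm_q = locNorm K q : (K ⊗_ℚ ℚ_q)ˣ →* ℚ_qˣ` is the norm of the semilocal algebra,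
`θ_r = theta p r : ℚ_pˣ →* U` is the unit part `y ↦ y · p ^ (-v_p y)` reduced modulo `p ^ r`, and
`v_q = padicVal q`.

Main results:
* `unitOfNat`, `theta` (`theta_p`, `theta_natCast`, `theta_neg_one`, `coe_theta_of_eq`), `padicVal`,
  `locNorm0`, `locNorm`, `locNorm0_tmul_one` (`Nm_q (a ⊗ 1) = N_{K/ℚ} a`);
* `resChar`, `natCast_mem_iff`, `exists_absNorm_eq_pow`, `abs_norm_eq_prod`
  (`|N_{K/ℚ} a| = ∏_v (absNorm v) ^ ord_v a`);
* `divChar`, `qPart`, `pPart`, `cycI`, `cyc` (monoid homs), `cyc_apply`;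
* `gamma` (the idelic part on the diagonal `ℚˣ`) with its values on primes;
* `cycI_diagI`, `divChar_divT`, and the **product formula** `cyc_diagJ :
  cyc (diagJ a) = 1 ∨ cyc (diagJ a) = -1` (it is the sign of `N_{K/ℚ} a`), hence
  `cyc_diagJ_pow : cyc (diagJ a) ^ 2 = 1` and `cyc` descends to `CT T K` modulo `±1`;
* `cyc_single` : `cyc (1, [P]) = absNorm P mod p ^ r` (the value of the cyclotomic character of
  `K(ζ_{p^r})/K` on the Frobenius at `P`, see `CycloLocalDeg22` / `CFT/CycloArtin`).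
-/
import Mathlib
import Fermat.Agent.PT.GLOB.Interface23

set_option autoImplicit false
set_option linter.unusedSectionVars false
set_option linter.style.haveILetI false

open NumberField IsDedekindDomain
open scoped TensorProduct nonZeroDivisors

namespace Fermat.Agent.PT.GLOB.CycChar22

open Fermat.Agent.PT.GLOB.Interface23

/-! ### A. junk-valued units of `ZMod m` -/

/-- The class of `n` in `(ZMod m)ˣ` if `n` is prime to `m`, and `1` otherwise. -/
noncomputable def unitOfNat (m n : ℕ) : (ZMod m)ˣ :=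
  if h : Nat.Coprime n m then ZMod.unitOfCoprime n h else 1

theorem coe_unitOfNat {m n : ℕ} (h : Nat.Coprime n m) :
    ((unitOfNat m n : (ZMod m)ˣ) : ZMod m) = (n : ZMod m) := by
  rw [unitOfNat, dif_pos h, ZMod.coe_unitOfCoprime]

theorem unitOfNat_mul {m a b : ℕ} (ha : Nat.Coprime a m) (hb : Nat.Coprime b m) :
    unitOfNat m (a * b) = unitOfNat m a * unitOfNat m b := by
  apply Units.ext
  rw [Units.val_mul, coe_unitOfNat ha, coe_unitOfNat hb, coe_unitOfNat (Nat.Coprime.mul_left ha hb),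
    Nat.cast_mul]

theorem unitOfNat_pow {m a : ℕ} (ha : Nat.Coprime a m) (k : ℕ) :
    unitOfNat m (a ^ k) = unitOfNat m a ^ k := by
  apply Units.ext
  rw [Units.val_pow_eq_pow_val, coe_unitOfNat ha, coe_unitOfNat (Nat.Coprime.pow_left k ha),
    Nat.cast_pow]

theorem unitOfNat_one (m : ℕ) : unitOfNat m 1 = 1 := by
  apply Units.ext
  rw [coe_unitOfNat (Nat.coprime_one_left m), Nat.cast_one, Units.val_one]

section Theta

variable (p : ℕ) [hp : Fact p.Prime]

theorem norm_mul_zpow_valuation (y : ℚ_[p]ˣ) :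
    ‖(y : ℚ_[p]) * (p : ℚ_[p]) ^ (-(y : ℚ_[p]).valuation)‖ = 1 := by
  have hp0 : (0 : ℝ) < p := by exact_mod_cast hp.out.pos
  rw [norm_mul, Padic.norm_p_zpow, Padic.norm_eq_zpow_neg_valuation y.ne_zero, neg_neg,
    ← zpow_add₀ hp0.ne', neg_add_cancel, zpow_zero]

/-- The unit part `y ↦ y · p ^ (-v(y))` of a nonzero `p`-adic number. -/
noncomputable def unitPart : ℚ_[p]ˣ →* ℤ_[p]ˣ where
  toFun y := PadicInt.mkUnits (norm_mul_zpow_valuation p y)
  map_one' := by
    apply Units.ext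
    apply Subtype.ext
    simp [PadicInt.mkUnits, Padic.valuation_one]
  map_mul' x y := by
    apply Units.ext
    apply Subtype.ext
    show ((x * y : ℚ_[p]ˣ) : ℚ_[p]) * (p : ℚ_[p]) ^ (-((x * y : ℚ_[p]ˣ) : ℚ_[p]).valuation) =
      ((x : ℚ_[p]) * (p : ℚ_[p]) ^ (-(x : ℚ_[p]).valuation)) *
        ((y : ℚ_[p]) * (p : ℚ_[p]) ^ (-(y : ℚ_[p]).valuation))
    rw [Units.val_mul, Padic.valuation_mul x.ne_zero y.ne_zero, neg_add,
      zpow_add₀ (by exact_mod_cast hp.out.ne_zero)]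
    ring

theorem coe_unitPart (y : ℚ_[p]ˣ) :
    (((unitPart p y : ℤ_[p]ˣ) : ℤ_[p]) : ℚ_[p]) =
      (y : ℚ_[p]) * (p : ℚ_[p]) ^ (-(y : ℚ_[p]).valuation) := rfl

/-- `θ_r : ℚ_pˣ → (ℤ/p^r)ˣ`: the unit part modulo `p ^ r`. -/
noncomputable def theta (r : ℕ) : ℚ_[p]ˣ →* (ZMod (p ^ r))ˣ :=
  (Units.map (PadicInt.toZModPow r).toMonoidHom).comp (unitPart p)

theorem coe_theta (r : ℕ) (y : ℚ_[p]ˣ) :
    ((theta p r y : (ZMod (p ^ r))ˣ) : ZMod (p ^ r)) =
      PadicInt.toZModPow r ((unitPart p y : ℤ_[p]ˣ) : ℤ_[p]) := rfl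

/-- `θ` on a `p`-adic number of the form `z · p ^ k` with `z` an integral unit. -/
theorem coe_theta_of_eq (r : ℕ) (y : ℚ_[p]ˣ) (z : ℤ_[p]) (k : ℤ) (hz : ‖z‖ = 1)
    (h : (y : ℚ_[p]) = (z : ℚ_[p]) * (p : ℚ_[p]) ^ k) :
    ((theta p r y : (ZMod (p ^ r))ˣ) : ZMod (p ^ r)) = PadicInt.toZModPow r z := by
  rw [coe_theta]
  congr 1
  apply Subtype.ext
  rw [coe_unitPart, h]
  have hp0 : (p : ℚ_[p]) ≠ 0 := by exact_mod_cast hp.out.ne_zero
  have hz0 : (z : ℚ_[p]) ≠ 0 := by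
    intro h0
    have : ‖(z : ℚ_[p])‖ = 1 := hz
    rw [h0, norm_zero] at this
    exact zero_ne_one this
  have hv : (z : ℚ_[p]).valuation = 0 := by
    have h1 := Padic.norm_eq_zpow_neg_valuation hz0
    have h2 : ‖(z : ℚ_[p])‖ = 1 := hz
    rw [h2] at h1
    have hp1 : (1 : ℝ) < p := by exact_mod_cast hp.out.one_lt
    have := (zpow_right_injective₀ (by linarith) hp1.ne') (h1.symm.trans (zpow_zero _).symm)
    simpa using this
  rw [Padic.valuation_mul hz0 (zpow_ne_zero _ hp0), Padic.valuation_zpow, Padic.valuation_p, hv,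
    zero_add, mul_one, mul_assoc, ← zpow_add₀ hp0, add_neg_cancel, zpow_zero, mul_one]

theorem theta_p (r : ℕ) (h0 : (p : ℚ_[p]) ≠ 0) : theta p r (Units.mk0 (p : ℚ_[p]) h0) = 1 := by
  apply Units.ext
  rw [coe_theta_of_eq p r _ 1 1 (by simp) (by simp), map_one, Units.val_one]

theorem theta_natCast (r : ℕ) (m : ℕ) (hm : ¬ p ∣ m) (h0 : (m : ℚ_[p]) ≠ 0) :
    theta p r (Units.mk0 (m : ℚ_[p]) h0) = unitOfNat (p ^ r) m := by
  apply Units.ext
  have hcop : Nat.Coprime m (p ^ r) :=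
    Nat.Coprime.pow_right r ((Nat.Prime.coprime_iff_not_dvd hp.out).mpr hm).symm
  rw [coe_unitOfNat hcop, coe_theta_of_eq p r _ (m : ℤ_[p]) 0 ?_ (by simp), map_natCast]
  rw [PadicInt.norm_natCast_eq_one_iff]
  exact (Nat.Prime.coprime_iff_not_dvd hp.out).mpr hm

theorem theta_neg_one (r : ℕ) : theta p r (-1) = -1 := by
  apply Units.ext
  rw [coe_theta_of_eq p r _ (-1) 0 (by simp) (by simp), map_neg, map_one, Units.val_neg,
    Units.val_one]

end Theta

section Val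

variable (q : ℕ) [hq : Fact q.Prime]

/-- The `q`-adic valuation as a homomorphism `ℚ_qˣ → ℤ`. -/
noncomputable def padicVal : ℚ_[q]ˣ →* Multiplicative ℤ where
  toFun y := Multiplicative.ofAdd (y : ℚ_[q]).valuation
  map_one' := by simp [Padic.valuation_one]
  map_mul' x y := by
    rw [Units.val_mul, Padic.valuation_mul x.ne_zero y.ne_zero, ofAdd_add]

theorem toAdd_padicVal (y : ℚ_[q]ˣ) :
    Multiplicative.toAdd (padicVal q y) = (y : ℚ_[q]).valuation := rfl

end Val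

section LocNorm

variable (K : Type*) [Field K] [Algebra ℚ K] (q : ℕ) [hq : Fact q.Prime]

/-- The norm `K ⊗_ℚ ℚ_q → ℚ_q` of the semilocal algebra (defined through the commuted tensor
product `ℚ_q ⊗_ℚ K`, a `ℚ_q`-algebra by the left factor). -/
noncomputable def locNorm0 : K ⊗[ℚ] ℚ_[q] →* ℚ_[q] :=
  (Algebra.norm ℚ_[q] : (ℚ_[q] ⊗[ℚ] K) →* ℚ_[q]).comp
    (Algebra.TensorProduct.comm ℚ K ℚ_[q] : K ⊗[ℚ] ℚ_[q] →* ℚ_[q] ⊗[ℚ] K)

theorem locNorm0_tmul_one [FiniteDimensional ℚ K] (a : K) :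
    locNorm0 K q (a ⊗ₜ[ℚ] (1 : ℚ_[q])) = ((Algebra.norm ℚ a : ℚ) : ℚ_[q]) := by
  have h1 : locNorm0 K q (a ⊗ₜ[ℚ] (1 : ℚ_[q])) =
      Algebra.norm ℚ_[q] ((1 : ℚ_[q]) ⊗ₜ[ℚ] a) := rfl
  rw [h1, Algebra.norm_apply, ← Algebra.baseChange_lmul, LinearMap.det_baseChange,
    ← Algebra.norm_apply]
  rfl

/-- The norm on units. -/
noncomputable def locNorm : (K ⊗[ℚ] ℚ_[q])ˣ →* ℚ_[q]ˣ := Units.map (locNorm0 K q)

theorem coe_locNorm (x : (K ⊗[ℚ] ℚ_[q])ˣ) :
    ((locNorm K q x : ℚ_[q]ˣ) : ℚ_[q]) = locNorm0 K q (x : K ⊗[ℚ] ℚ_[q]) := rfl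

end LocNorm

section Global

variable (K : Type*) [Field K] [NumberField K]

/-- The residue characteristic of a finite prime of `K`. -/
noncomputable def resChar (v : HeightOneSpectrum (𝓞 K)) : ℕ :=
  Ideal.absNorm (Ideal.under ℤ v.asIdeal)

theorem resChar_prime (v : HeightOneSpectrum (𝓞 K)) : (resChar K v).Prime := by
  have : NeZero v.asIdeal := ⟨v.ne_bot⟩
  exact Nat.absNorm_under_prime v.asIdeal

theorem natCast_mem_iff (v : HeightOneSpectrum (𝓞 K)) (q : ℕ) (hq : q.Prime) :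
    (q : 𝓞 K) ∈ v.asIdeal ↔ q = resChar K v := by
  have h := Int.cast_mem_ideal_iff (I := v.asIdeal) (d := (q : ℤ))
  rw [Int.cast_natCast, Int.natCast_dvd_natCast] at h
  rw [h]
  constructor
  · intro hd
    exact ((Nat.prime_dvd_prime_iff_eq (resChar_prime K v) hq).mp hd).symm
  · intro he
    rw [he]
    exact dvd_rfl

theorem exists_absNorm_eq_pow (v : HeightOneSpectrum (𝓞 K)) :
    ∃ f : ℕ, Ideal.absNorm v.asIdeal = resChar K v ^ f := by
  have h : v.asIdeal.LiesOver (Ideal.span {((resChar K v : ℕ) : ℤ)}) :=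
    Int.liesOver_span_absNorm v.asIdeal
  exact ⟨_, Ideal.absNorm_eq_pow_inertiaDeg' v.asIdeal (resChar_prime K v)⟩

theorem absNorm_ne_zero (v : HeightOneSpectrum (𝓞 K)) : Ideal.absNorm v.asIdeal ≠ 0 := by
  rw [Ne, Ideal.absNorm_eq_zero_iff]
  exact v.ne_bot

/-- The factorisation of the absolute value of the norm of `a ∈ Kˣ` through the finite primes. -/
theorem abs_norm_eq_prod (a : Kˣ) :
    ∃ S : Finset (HeightOneSpectrum (𝓞 K)), (∀ v, v ∉ S → ordAt K v a = 0) ∧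
      |Algebra.norm ℚ (a : K)| = ∏ v ∈ S, (Ideal.absNorm v.asIdeal : ℚ) ^ (ordAt K v a) := by
  classical
  set I : FractionalIdeal (𝓞 K)⁰ K := FractionalIdeal.spanSingleton (𝓞 K)⁰ (a : K) with hIdef
  have hI : I ≠ 0 := by
    rw [hIdef, Ne, FractionalIdeal.spanSingleton_eq_zero_iff]
    exact a.ne_zero
  have hfin : {v : HeightOneSpectrum (𝓞 K) | FractionalIdeal.count K v I ≠ 0}.Finite := by
    have h := FractionalIdeal.finite_factors (R := 𝓞 K) (K := K) I
    rw [Filter.eventually_cofinite] at h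
    exact h
  refine ⟨hfin.toFinset, ?_, ?_⟩
  · intro v hv
    rw [Set.Finite.mem_toFinset, Set.mem_ofPred_eq, not_not] at hv
    exact hv
  · have h1 := FractionalIdeal.finprod_heightOneSpectrum_factorization' (K := K) hI
    rw [finprod_eq_prod_of_mulSupport_subset (s := hfin.toFinset)] at h1
    · have h2 := congrArg (FractionalIdeal.absNorm (R := 𝓞 K) (K := K)) h1
      rw [map_prod] at h2
      have h3 : FractionalIdeal.absNorm I = |Algebra.norm ℚ (a : K)| :=
        FractionalIdeal.absNorm_span_singleton (𝓞 K) (a : K)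
      rw [← h3, ← h2]
      refine Finset.prod_congr rfl fun v _ => ?_
      rw [map_zpow₀, FractionalIdeal.coeIdeal_absNorm]
      rfl
    · intro v hv
      rw [Function.mem_mulSupport] at hv
      rw [Finset.mem_coe, Set.Finite.mem_toFinset, Set.mem_ofPred_eq]
      intro h0
      apply hv
      rw [h0, zpow_zero]

end Global

section Gamma

variable (T : Finset Nat.Primes) (p : Nat.Primes) (r : ℕ)

/-- `ℚˣ → ℚ_qˣ`. -/
noncomputable def ratTo (q : ℕ) [Fact q.Prime] : ℚˣ →* ℚ_[q]ˣ :=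
  Units.map (Rat.castHom ℚ_[q]).toMonoidHom

theorem coe_ratTo (q : ℕ) [Fact q.Prime] (x : ℚˣ) : ((ratTo q x : ℚ_[q]ˣ) : ℚ_[q]) = ((x : ℚ) : ℚ_[q]) :=
  rfl

/-- `x ↦ q ^ v_q(x)` on `ℚˣ`. -/
noncomputable def gammaQ (q : Nat.Primes) : ℚˣ →* (ZMod ((p : ℕ) ^ r))ˣ :=
  (zpowersHom (ZMod ((p : ℕ) ^ r))ˣ (unitOfNat ((p : ℕ) ^ r) q)).comp
    ((padicVal q).comp (ratTo q))

theorem gammaQ_apply (q : Nat.Primes) (x : ℚˣ) :
    gammaQ p r q x = unitOfNat ((p : ℕ) ^ r) q ^ (padicValRat q (x : ℚ)) := by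
  show unitOfNat ((p : ℕ) ^ r) q ^ (((ratTo q x : ℚ_[(q : ℕ)]ˣ) : ℚ_[(q : ℕ)]).valuation) = _
  rw [coe_ratTo, Padic.valuation_ratCast]

/-- The restriction of the idelic part of `cyc` to the diagonal `ℚˣ`. -/
noncomputable def gamma : ℚˣ →* (ZMod ((p : ℕ) ^ r))ˣ :=
  ((theta p r).comp (ratTo p))⁻¹ * ∏ q : T, if q.1 = p then 1 else gammaQ p r q.1

theorem gamma_apply (x : ℚˣ) :
    gamma T p r x = (theta p r (ratTo p x))⁻¹ *
      ∏ q : T, if q.1 = p then 1 else gammaQ p r q.1 x := by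
  rw [gamma, MonoidHom.mul_apply, MonoidHom.inv_apply, MonoidHom.comp_apply,
    MonoidHom.finsetProd_apply]
  congr 1
  refine Finset.prod_congr rfl fun q _ => ?_
  split_ifs <;> rfl

/-- A rational prime as a unit of `ℚ`. -/
noncomputable def primeU (ℓ : ℕ) (hℓ : ℓ.Prime) : ℚˣ := Units.mk0 (ℓ : ℚ) (by exact_mod_cast hℓ.ne_zero)

theorem gammaQ_primeU_ne (q : Nat.Primes) (ℓ : ℕ) (hℓ : ℓ.Prime) (h : (q : ℕ) ≠ ℓ) :
    gammaQ p r q (primeU ℓ hℓ) = 1 := by
  rw [gammaQ_apply]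
  have : padicValRat q ((primeU ℓ hℓ : ℚˣ) : ℚ) = 0 := by
    show padicValRat q ((ℓ : ℕ) : ℚ) = 0
    rw [padicValRat.of_nat]
    have : padicValNat q ℓ = 0 := by
      apply padicValNat.eq_zero_of_not_dvd
      intro hd
      exact h ((Nat.prime_dvd_prime_iff_eq q.2 hℓ).mp hd)
    rw [this]; rfl
  rw [this, zpow_zero]

theorem gammaQ_primeU_self (q : Nat.Primes) :
    gammaQ p r q (primeU q q.2) = unitOfNat ((p : ℕ) ^ r) q := by
  rw [gammaQ_apply]
  have : padicValRat q ((primeU q q.2 : ℚˣ) : ℚ) = 1 := by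
    show padicValRat q (((q : ℕ) : ℕ) : ℚ) = 1
    rw [padicValRat.of_nat]
    haveI : Fact (q : ℕ).Prime := ⟨q.2⟩
    rw [padicValNat_self]; rfl
  rw [this, zpow_one]

/-- `gamma` of a prime not in `T`. -/
theorem gamma_primeU_of_notMem (hpT : p ∈ T) (ℓ : ℕ) (hℓ : ℓ.Prime) (hℓT : (⟨ℓ, hℓ⟩ : Nat.Primes) ∉ T) :
    gamma T p r (primeU ℓ hℓ) = (unitOfNat ((p : ℕ) ^ r) ℓ)⁻¹ := by
  have hℓp : ℓ ≠ (p : ℕ) := by
    rintro rfl
    exact hℓT hpT
  rw [gamma_apply]
  have h1 : theta p r (ratTo p (primeU ℓ hℓ)) = unitOfNat ((p : ℕ) ^ r) ℓ := by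
    have h0 : ((ℓ : ℕ) : ℚ_[(p : ℕ)]) ≠ 0 := by exact_mod_cast hℓ.ne_zero
    have : ratTo p (primeU ℓ hℓ) = Units.mk0 ((ℓ : ℕ) : ℚ_[(p : ℕ)]) h0 := by
      apply Units.ext
      rw [coe_ratTo]
      show (((ℓ : ℕ) : ℚ) : ℚ_[(p : ℕ)]) = _
      simp
    rw [this]
    apply theta_natCast
    intro hd
    exact hℓp ((Nat.prime_dvd_prime_iff_eq p.2 hℓ).mp hd).symm
  rw [h1]
  have h2 : (∏ q : T, if q.1 = p then 1 else gammaQ p r q.1 (primeU ℓ hℓ)) = 1 := by
    refine Finset.prod_eq_one fun q _ => ?_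
    split_ifs
    · rfl
    · apply gammaQ_primeU_ne
      rintro h
      apply hℓT
      have : (⟨ℓ, hℓ⟩ : Nat.Primes) = q.1 := Subtype.ext h.symm
      rw [this]
      exact q.2
  rw [h2, mul_one]

/-- `gamma` of a prime in `T` is trivial. -/
theorem gamma_primeU_of_mem (ℓ : Nat.Primes) (hℓT : ℓ ∈ T) :
    gamma T p r (primeU ℓ ℓ.2) = 1 := by
  rw [gamma_apply]
  by_cases hℓp : ℓ = p
  · subst hℓp
    have h1 : theta ℓ r (ratTo ℓ (primeU ℓ ℓ.2)) = 1 := by
      have h0 : (((ℓ : ℕ) : ℕ) : ℚ_[(ℓ : ℕ)]) ≠ 0 := by exact_mod_cast ℓ.2.ne_zero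
      have : ratTo ℓ (primeU ℓ ℓ.2) = Units.mk0 (((ℓ : ℕ) : ℕ) : ℚ_[(ℓ : ℕ)]) h0 := by
        apply Units.ext
        rw [coe_ratTo]
        show ((((ℓ : ℕ) : ℕ) : ℚ) : ℚ_[(ℓ : ℕ)]) = _
        simp
      rw [this]
      exact theta_p ℓ r h0
    rw [h1, inv_one, one_mul]
    refine Finset.prod_eq_one fun q _ => ?_
    split_ifs with h
    · rfl
    · apply gammaQ_primeU_ne
      intro hq
      exact h (Subtype.ext hq)
  · have h1 : theta p r (ratTo p (primeU ℓ ℓ.2)) = unitOfNat ((p : ℕ) ^ r) ℓ := by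
      have h0 : (((ℓ : ℕ) : ℕ) : ℚ_[(p : ℕ)]) ≠ 0 := by exact_mod_cast ℓ.2.ne_zero
      have : ratTo p (primeU ℓ ℓ.2) = Units.mk0 (((ℓ : ℕ) : ℕ) : ℚ_[(p : ℕ)]) h0 := by
        apply Units.ext
        rw [coe_ratTo]
        show ((((ℓ : ℕ) : ℕ) : ℚ) : ℚ_[(p : ℕ)]) = _
        simp
      rw [this]
      apply theta_natCast
      intro hd
      exact hℓp (Subtype.ext ((Nat.prime_dvd_prime_iff_eq p.2 ℓ.2).mp hd).symm)
    rw [h1]
    have h2 : (∏ q : T, if q.1 = p then 1 else gammaQ p r q.1 (primeU ℓ ℓ.2)) =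
        unitOfNat ((p : ℕ) ^ r) ℓ := by
      rw [Finset.prod_eq_single (⟨ℓ, hℓT⟩ : T)]
      · rw [if_neg hℓp]
        exact gammaQ_primeU_self p r ℓ
      · intro q _ hq
        split_ifs
        · rfl
        · apply gammaQ_primeU_ne
          intro h
          exact hq (Subtype.ext (Subtype.ext h))
      · intro h
        exact absurd (Finset.mem_univ _) h
    rw [h2, inv_mul_cancel]

theorem gamma_neg_one : gamma T p r (-1) = -1 := by
  rw [gamma_apply]
  have h1 : ratTo p (-1) = -1 := by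
    apply Units.ext
    rw [coe_ratTo]
    simp
  rw [h1, theta_neg_one]
  have h2 : (∏ q : T, if q.1 = p then 1 else gammaQ p r q.1 (-1)) = 1 := by
    refine Finset.prod_eq_one fun q _ => ?_
    split_ifs
    · rfl
    · rw [gammaQ_apply]
      have : padicValRat q (((-1 : ℚˣ) : ℚˣ) : ℚ) = 0 := by
        show padicValRat q (-1 : ℚ) = 0
        rw [padicValRat.neg, padicValRat.one]
      rw [this, zpow_zero]
  rw [h2, mul_one, inv_neg, inv_one]

end Gamma

section Cyc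

variable (T : Finset Nat.Primes) (K : Type*) [Field K] [NumberField K] (p : Nat.Primes) (r : ℕ)

/-- The unit `absNorm P mod p^r` attached to a finite prime (junk value `1` if `P ∣ p`). -/
noncomputable def primeUnit (P : HeightOneSpectrum (𝓞 K)) : (ZMod ((p : ℕ) ^ r))ˣ :=
  unitOfNat ((p : ℕ) ^ r) (Ideal.absNorm P.asIdeal)

/-- The divisor part of the cyclotomic character: `D ↦ ∏_P (absNorm P) ^ D(P)`. -/
noncomputable def divChar : DivT T K →* (ZMod ((p : ℕ) ^ r))ˣ where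
  toFun D := (DivT.toFinsupp T K D).prod fun P n => primeUnit K p r P.1 ^ n
  map_one' := Finsupp.prod_zero_index
  map_mul' D E := by
    show (DivT.toFinsupp T K D + DivT.toFinsupp T K E).prod _ = _
    exact Finsupp.prod_add_index' (fun _ => zpow_zero _) (fun _ _ _ => zpow_add _ _ _)

theorem divChar_apply (D : DivT T K) :
    divChar T K p r D = (DivT.toFinsupp T K D).prod fun P n => primeUnit K p r P.1 ^ n := rfl

/-- The component at `q ≠ p`: `x ↦ q ^ v_q(Nm x)`. -/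
noncomputable def qPart (q : Nat.Primes) : (Loc K q)ˣ →* (ZMod ((p : ℕ) ^ r))ˣ :=
  (zpowersHom (ZMod ((p : ℕ) ^ r))ˣ (unitOfNat ((p : ℕ) ^ r) q)).comp
    ((padicVal q).comp (locNorm K q))

theorem qPart_apply (q : Nat.Primes) (x : (Loc K q)ˣ) :
    qPart K p r q x = unitOfNat ((p : ℕ) ^ r) q ^ ((locNorm K q x : ℚ_[(q : ℕ)]ˣ) : ℚ_[(q : ℕ)]).valuation :=
  rfl

/-- The component at `p`: `x ↦ θ_r(Nm x)`. -/
noncomputable def pPart (hpT : p ∈ T) : IT T K →* (ZMod ((p : ℕ) ^ r))ˣ :=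
  ((theta p r).comp (locNorm K p)).comp
    (Pi.evalMonoidHom (fun q : T => (Loc K q.1)ˣ) ⟨p, hpT⟩)

/-- The idelic part of the cyclotomic character. -/
noncomputable def cycI (hpT : p ∈ T) : IT T K →* (ZMod ((p : ℕ) ^ r))ˣ :=
  (pPart T K p r hpT)⁻¹ * ∏ q : T, if q.1 = p then 1 else
    (qPart K p r q.1).comp (Pi.evalMonoidHom (fun q : T => (Loc K q.1)ˣ) q)

/-- **The explicit cyclotomic character** on `T`-ideles. -/
noncomputable def cyc (hpT : p ∈ T) : JT T K →* (ZMod ((p : ℕ) ^ r))ˣ :=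
  (cycI T K p r hpT).coprod (divChar T K p r)

theorem cyc_apply (hpT : p ∈ T) (x : IT T K) (D : DivT T K) :
    cyc T K p r hpT (x, D) = cycI T K p r hpT x * divChar T K p r D := rfl

end Cyc

section ProductFormula

variable (T : Finset Nat.Primes) (K : Type*) [Field K] [NumberField K] (p : Nat.Primes) (r : ℕ)

/-- The norm `Kˣ → ℚˣ`. -/
noncomputable def normU : Kˣ →* ℚˣ := Units.map (Algebra.norm ℚ : K →* ℚ)

theorem coe_normU (a : Kˣ) : ((normU K a : ℚˣ) : ℚ) = Algebra.norm ℚ (a : K) := rfl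

theorem locNorm_diagI (a : Kˣ) (q : T) :
    locNorm K q.1 (diagI T K a q) = ratTo q.1 (normU K a) := by
  apply Units.ext
  rw [coe_locNorm, coe_ratTo, coe_normU]
  exact locNorm0_tmul_one K q.1 (a : K)

/-- Lemma A: the idelic part of `cyc` on the diagonal is `gamma` of the norm. -/
theorem cycI_diagI (hpT : p ∈ T) (a : Kˣ) :
    cycI T K p r hpT (diagI T K a) = gamma T p r (normU K a) := by
  rw [gamma_apply, cycI, MonoidHom.mul_apply, MonoidHom.inv_apply, MonoidHom.finsetProd_apply]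
  congr 1
  · congr 1
    show theta p r (locNorm K p (diagI T K a ⟨p, hpT⟩)) = _
    rw [locNorm_diagI T K a ⟨p, hpT⟩]
  · refine Finset.prod_congr rfl fun q _ => ?_
    split_ifs
    · rfl
    · show (zpowersHom _ _) (padicVal q.1 (locNorm K q.1 (diagI T K a q))) = _
      rw [locNorm_diagI T K a q]
      rfl

/-- `absNorm v` as a unit of `ℚ`. -/
noncomputable def absNormU (v : HeightOneSpectrum (𝓞 K)) : ℚˣ :=
  Units.mk0 (Ideal.absNorm v.asIdeal : ℚ) (by exact_mod_cast absNorm_ne_zero K v)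

/-- The condition defining `PrimeAway T K`. -/
def IsAway (v : HeightOneSpectrum (𝓞 K)) : Prop :=
  ∀ q ∈ T, (((q : ℕ) : ℤ) : 𝓞 K) ∉ v.asIdeal

theorem isAway_iff (v : HeightOneSpectrum (𝓞 K)) :
    IsAway T K v ↔ (⟨resChar K v, resChar_prime K v⟩ : Nat.Primes) ∉ T := by
  constructor
  · intro h hmem
    have := h _ hmem
    apply this
    rw [Int.cast_natCast]
    exact (natCast_mem_iff K v _ (resChar_prime K v)).mpr rfl
  · intro h q hq hmem
    rw [Int.cast_natCast] at hmem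
    have := (natCast_mem_iff K v _ q.2).mp hmem
    apply h
    have h2 : (⟨resChar K v, resChar_prime K v⟩ : Nat.Primes) = q := Subtype.ext this.symm
    rw [h2]
    exact hq

theorem gamma_absNormU_of_isAway (hpT : p ∈ T) (v : HeightOneSpectrum (𝓞 K)) (hv : IsAway T K v) :
    gamma T p r (absNormU K v) = (primeUnit K p r v)⁻¹ := by
  obtain ⟨f, hf⟩ := exists_absNorm_eq_pow K v
  have hℓT := (isAway_iff T K v).mp hv
  have h1 : absNormU K v = primeU (resChar K v) (resChar_prime K v) ^ f := by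
    apply Units.ext
    rw [Units.val_pow_eq_pow_val]
    show ((Ideal.absNorm v.asIdeal : ℕ) : ℚ) = ((resChar K v : ℕ) : ℚ) ^ f
    rw [hf, Nat.cast_pow]
  have hcop : Nat.Coprime (resChar K v) ((p : ℕ) ^ r) := by
    apply Nat.Coprime.pow_right
    rw [Nat.coprime_primes (resChar_prime K v) p.2]
    rintro h
    apply hℓT
    have : (⟨resChar K v, resChar_prime K v⟩ : Nat.Primes) = p := Subtype.ext h
    rw [this]
    exact hpT
  rw [h1, map_pow, gamma_primeU_of_notMem T p r hpT _ _ hℓT, primeUnit, hf, unitOfNat_pow hcop,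
    inv_pow]

theorem gamma_absNormU_of_not_isAway (v : HeightOneSpectrum (𝓞 K)) (hv : ¬ IsAway T K v) :
    gamma T p r (absNormU K v) = 1 := by
  obtain ⟨f, hf⟩ := exists_absNorm_eq_pow K v
  have hℓT : (⟨resChar K v, resChar_prime K v⟩ : Nat.Primes) ∈ T := by
    by_contra h
    exact hv ((isAway_iff T K v).mpr h)
  have h1 : absNormU K v = primeU (resChar K v) (resChar_prime K v) ^ f := by
    apply Units.ext
    rw [Units.val_pow_eq_pow_val]
    show ((Ideal.absNorm v.asIdeal : ℕ) : ℚ) = ((resChar K v : ℕ) : ℚ) ^ f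
    rw [hf, Nat.cast_pow]
  rw [h1, map_pow, gamma_primeU_of_mem T p r ⟨resChar K v, resChar_prime K v⟩ hℓT, one_pow]

end ProductFormula

/-- A `Finsupp.prod` over a subtype as a conditional product over a finite set of the ambient
type. -/
theorem finsupp_subtype_prod {α G : Type*} [CommGroup G] (P : α → Prop) [DecidablePred P]
    (f : Subtype P →₀ ℤ) (S : Finset α) (F : α → ℤ) (hF : ∀ x : Subtype P, f x = F x.1)
    (hS : ∀ v, v ∉ S → F v = 0) (g : α → G) :
    (f.prod fun x n => g x.1 ^ n) = ∏ v ∈ S, if P v then g v ^ F v else 1 := by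
  have hsub : f.support ⊆ S.subtype P := by
    intro x hx
    rw [Finsupp.mem_support_iff, hF] at hx
    rw [Finset.mem_subtype]
    by_contra hxS
    exact hx (hS _ hxS)
  rw [Finsupp.prod_of_support_subset _ hsub _ (fun _ _ => zpow_zero _), ← Finset.prod_filter,
    ← Finset.prod_subtype_eq_prod_filter (p := P) (f := fun v => g v ^ F v)]
  refine Finset.prod_congr rfl fun x _ => ?_
  rw [hF]

section ProductFormula2

variable (T : Finset Nat.Primes) (K : Type*) [Field K] [NumberField K] (p : Nat.Primes) (r : ℕ)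

/-- `|N_{K/ℚ} a|` as a unit of `ℚ`. -/
noncomputable def absU (a : Kˣ) : ℚˣ :=
  Units.mk0 |Algebra.norm ℚ (a : K)| (by
    rw [Ne, abs_eq_zero, Algebra.norm_eq_zero_iff]
    exact a.ne_zero)

/-- Lemma B: the divisor part of `cyc` on a principal divisor. -/
theorem divChar_divT (hpT : p ∈ T) (a : Kˣ) :
    divChar T K p r (divT T K a) * gamma T p r (absU K a) = 1 := by
  classical
  obtain ⟨S, hS0, hS⟩ := abs_norm_eq_prod K a
  have hU : absU K a = ∏ v ∈ S, (absNormU K v) ^ (ordAt K v a) := by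
    apply Units.ext
    rw [Units.coe_prod]
    show |Algebra.norm ℚ (a : K)| = _
    rw [hS]
    refine Finset.prod_congr rfl fun v _ => ?_
    rw [Units.val_zpow_eq_zpow_val]
    rfl
  have h1 : gamma T p r (absU K a) =
      ∏ v ∈ S, if IsAway T K v then (primeUnit K p r v)⁻¹ ^ (ordAt K v a) else 1 := by
    rw [hU, map_prod]
    refine Finset.prod_congr rfl fun v _ => ?_
    rw [map_zpow]
    split_ifs with hv
    · rw [gamma_absNormU_of_isAway T K p r hpT v hv]
    · rw [gamma_absNormU_of_not_isAway T K p r v hv, one_zpow]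
  have h2 : divChar T K p r (divT T K a) =
      ∏ v ∈ S, if IsAway T K v then (primeUnit K p r v) ^ (ordAt K v a) else 1 :=
    finsupp_subtype_prod (IsAway T K) (DivT.toFinsupp T K (divT T K a)) S
      (fun v => ordAt K v a) (fun P => divT_apply T K a P) (fun v hv => hS0 v hv)
      (primeUnit K p r)
  rw [h1, h2, ← Finset.prod_mul_distrib]
  refine Finset.prod_eq_one fun v _ => ?_
  split_ifs
  · rw [inv_zpow, mul_inv_cancel]
  · rw [mul_one]

/-- **Product formula**: the cyclotomic character of a principal `T`-idele is `±1` (the sign of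
the norm). -/
theorem cyc_diagJ (hpT : p ∈ T) (a : Kˣ) :
    cyc T K p r hpT (diagJ T K a) = 1 ∨ cyc T K p r hpT (diagJ T K a) = -1 := by
  have h0 : diagJ T K a = (diagI T K a, divT T K a) := rfl
  rw [h0, cyc_apply, cycI_diagI]
  have hB := divChar_divT T K p r hpT a
  have hdiv : divChar T K p r (divT T K a) = (gamma T p r (absU K a))⁻¹ :=
    eq_inv_of_mul_eq_one_left hB
  rw [hdiv, ← map_inv, ← map_mul]
  rcases lt_or_gt_of_ne (show Algebra.norm ℚ (a : K) ≠ 0 by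
    rw [Ne, Algebra.norm_eq_zero_iff]; exact a.ne_zero) with hneg | hpos
  · right
    have : normU K a * (absU K a)⁻¹ = -1 := by
      rw [mul_inv_eq_iff_eq_mul]
      apply Units.ext
      rw [Units.val_mul, Units.val_neg, Units.val_one, coe_normU]
      show _ = -1 * |Algebra.norm ℚ (a : K)|
      rw [abs_of_neg hneg]; ring
    rw [this, gamma_neg_one]
  · left
    have : normU K a * (absU K a)⁻¹ = 1 := by
      rw [mul_inv_eq_one]
      apply Units.ext
      rw [coe_normU]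
      show _ = |Algebra.norm ℚ (a : K)|
      rw [abs_of_pos hpos]
    rw [this, map_one]

end ProductFormula2

section Values

variable (T : Finset Nat.Primes) (K : Type*) [Field K] [NumberField K] (p : Nat.Primes) (r : ℕ)

theorem cyc_diagJ_pow (hpT : p ∈ T) (a : Kˣ) : cyc T K p r hpT (diagJ T K a) ^ 2 = 1 := by
  rcases cyc_diagJ T K p r hpT a with h | h
  · rw [h, one_pow]
  · rw [h, neg_sq, one_pow]

/-- `cyc` is trivial on principal ideles after raising to an even power. -/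
theorem cyc_diagJ_pow_even (hpT : p ∈ T) (a : Kˣ) (n : ℕ) (hn : Even n) :
    cyc T K p r hpT (diagJ T K a) ^ n = 1 := by
  obtain ⟨k, rfl⟩ := hn
  rw [← two_mul, pow_mul, cyc_diagJ_pow, one_pow]

theorem cycI_one (hpT : p ∈ T) : cycI T K p r hpT 1 = 1 := map_one _

/-- The value on a prime divisor: `cyc (1, [P]^n) = (absNorm P) ^ n`. -/
theorem cyc_single (hpT : p ∈ T) (P : PrimeAway T K) (n : ℤ) :
    cyc T K p r hpT ((1 : IT T K), DivT.ofFinsupp T K (Finsupp.single P n)) =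
      primeUnit K p r P.1 ^ n := by
  rw [cyc_apply, cycI_one, one_mul, divChar_apply]
  show (Finsupp.single P n).prod _ = _
  rw [Finsupp.prod_single_index (zpow_zero _)]

/-- For a prime `v` away from `T ∋ p` the unit `primeUnit v` is the class of `absNorm v`. -/
theorem coe_primeUnit (hpT : p ∈ T) (v : HeightOneSpectrum (𝓞 K)) (hv : IsAway T K v) :
    ((primeUnit K p r v : (ZMod ((p : ℕ) ^ r))ˣ) : ZMod ((p : ℕ) ^ r)) =
      (Ideal.absNorm v.asIdeal : ZMod ((p : ℕ) ^ r)) := by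
  obtain ⟨f, hf⟩ := exists_absNorm_eq_pow K v
  have hℓT := (isAway_iff T K v).mp hv
  have hcop : Nat.Coprime (resChar K v) ((p : ℕ) ^ r) := by
    apply Nat.Coprime.pow_right
    rw [Nat.coprime_primes (resChar_prime K v) p.2]
    rintro h
    apply hℓT
    have : (⟨resChar K v, resChar_prime K v⟩ : Nat.Primes) = p := Subtype.ext h
    rw [this]
    exact hpT
  rw [primeUnit, coe_unitOfNat]
  rw [hf]
  exact Nat.Coprime.pow_left f hcop

end Values

end Fermat.Agent.PT.GLOB.CycChar22
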