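/-
Program F (S55, Poitou–Tate), chapter GLOB, leaf (L1) input 1, helper5.

# Values of the explicit cyclotomic character on local ideles

For `q ∈ S` and a local unit `u ∈ (K ⊗_ℚ ℚ_q)ˣ` placed in the `q`-component of `JT S K`:

* `cyc_locToJT_of_ne` : for `q ≠ p`, `cyc (locToJT S q u) = qPart K p r q u = q ^ v_q(Nm u)`;
* `cyc_locToJT_self`  : for `q = p`, `cyc (locToJT S p u) = θ_r(Nm u)⁻¹`;
* `ratUnit q n : (Loc ℚ q)ˣ` with value `n ⊗ 1` (`n : ℕ`, `n ≠ 0`), `locNorm_ratUnit`,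
  `qPart_ratUnit_self : qPart ℚ p r q (ratUnit q q) = unitOfNat (p^r) q`,
  `theta_locNorm_ratUnit : θ_r (Nm (ratUnit p m)) = unitOfNat (p^r) m` for `p ∤ m`
  (in particular for `m = 1 + p`).
-/
import Mathlib
import Fermat.Agent.PT.GLOB.CycChar22
import Fermat.Agent.PT.GLOB.InterfaceCF23

set_option autoImplicit false
set_option linter.unusedSectionVars false

open NumberField
open scoped TensorProduct

namespace Fermat.Agent.PT.GLOB.CycLocalValue5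

open Fermat.Agent.PT.GLOB.Interface23 Fermat.Agent.PT.GLOB.CycChar22
  Fermat.Agent.PT.GLOB.InterfaceCF23

noncomputable section

section Cyc

variable (S : Finset Nat.Primes) [DecidableEq S] (K : Type) [Field K] [NumberField K]
  (p : Nat.Primes) (r : ℕ) (hpS : p ∈ S)

theorem cyc_locToJT (q : S) (u : (Loc K q.1)ˣ) :
    cyc S K p r hpS (locToJT S q u) =
      cycI S K p r hpS (Pi.mulSingle (M := fun r : S => (Loc K r.1)ˣ) q u) := by
  change cyc S K p r hpS (Pi.mulSingle (M := fun r : S => (Loc K r.1)ˣ) q u, 1) = _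
  rw [cyc_apply, map_one, mul_one]

/-- (b1) the value of `cyc` on a local idele at `q ≠ p`. -/
theorem cyc_locToJT_of_ne (q : S) (hq : q.1 ≠ p) (u : (Loc K q.1)ˣ) :
    cyc S K p r hpS (locToJT S q u) = qPart K p r q.1 u := by
  rw [cyc_locToJT]
  have hne : (⟨p, hpS⟩ : S) ≠ q := fun h => hq (by rw [← h])
  have hp1 : pPart S K p r hpS (Pi.mulSingle (M := fun r : S => (Loc K r.1)ˣ) q u) = 1 := by
    change theta p r (locNorm K p
      ((Pi.mulSingle (M := fun r : S => (Loc K r.1)ˣ) q u) ⟨p, hpS⟩)) = 1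
    rw [Pi.mulSingle_eq_of_ne hne, map_one, map_one]
  change (pPart S K p r hpS)⁻¹ (Pi.mulSingle (M := fun r : S => (Loc K r.1)ˣ) q u) *
    (∏ q' : S, if q'.1 = p then (1 : IT S K →* (ZMod ((p : ℕ) ^ r))ˣ) else
      (qPart K p r q'.1).comp (Pi.evalMonoidHom (fun q : S => (Loc K q.1)ˣ) q'))
      (Pi.mulSingle (M := fun r : S => (Loc K r.1)ˣ) q u) = _
  rw [MonoidHom.inv_apply, hp1, inv_one, one_mul, MonoidHom.finsetProd_apply]
  rw [Finset.prod_eq_single q]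
  · rw [if_neg hq]
    change qPart K p r q.1 ((Pi.mulSingle (M := fun r : S => (Loc K r.1)ˣ) q u) q) = _
    rw [Pi.mulSingle_eq_same]
  · intro q' _ hq'
    by_cases h : q'.1 = p
    · rw [if_pos h]; rfl
    · rw [if_neg h]
      change qPart K p r q'.1 ((Pi.mulSingle (M := fun r : S => (Loc K r.1)ˣ) q u) q') = 1
      rw [Pi.mulSingle_eq_of_ne hq', map_one]
  · intro h; exact absurd (Finset.mem_univ q) h

/-- (b2) the value of `cyc` on a local idele at `p`. -/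
theorem cyc_locToJT_self (u : (Loc K p)ˣ) :
    cyc S K p r hpS (locToJT S ⟨p, hpS⟩ u) = (theta p r (locNorm K p u))⁻¹ := by
  rw [cyc_locToJT]
  have hp1 : pPart S K p r hpS
      (Pi.mulSingle (M := fun r : S => (Loc K r.1)ˣ) (⟨p, hpS⟩ : S) u) =
      theta p r (locNorm K p u) := by
    change theta p r (locNorm K p
      ((Pi.mulSingle (M := fun r : S => (Loc K r.1)ˣ) (⟨p, hpS⟩ : S) u) ⟨p, hpS⟩)) = _
    rw [Pi.mulSingle_eq_same]
  change (pPart S K p r hpS)⁻¹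
      (Pi.mulSingle (M := fun r : S => (Loc K r.1)ˣ) (⟨p, hpS⟩ : S) u) *
    (∏ q' : S, if q'.1 = p then (1 : IT S K →* (ZMod ((p : ℕ) ^ r))ˣ) else
      (qPart K p r q'.1).comp (Pi.evalMonoidHom (fun q : S => (Loc K q.1)ˣ) q'))
      (Pi.mulSingle (M := fun r : S => (Loc K r.1)ˣ) (⟨p, hpS⟩ : S) u) = _
  rw [MonoidHom.inv_apply, hp1, MonoidHom.finsetProd_apply]
  rw [Finset.prod_eq_one, mul_one]
  intro q' _
  by_cases h : q'.1 = p
  · rw [if_pos h]; rfl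
  · rw [if_neg h]
    have hq' : q' ≠ (⟨p, hpS⟩ : S) := fun h' => h (by rw [h'])
    change qPart K p r q'.1
      ((Pi.mulSingle (M := fun r : S => (Loc K r.1)ˣ) (⟨p, hpS⟩ : S) u) q') = 1
    rw [Pi.mulSingle_eq_of_ne hq', map_one]

end Cyc

section NatUnit

variable (K : Type) [Field K] [NumberField K] (q : Nat.Primes)

/-- The unit `n ⊗ 1` of `K ⊗_ℚ ℚ_q` attached to a nonzero natural number `n`. -/
def natUnit (n : ℕ) (hn : n ≠ 0) : (Loc K q)ˣ :=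
  Units.map (Algebra.TensorProduct.includeLeft : K →ₐ[ℚ] Loc K q).toMonoidHom
    (Units.mk0 (n : K) (by exact_mod_cast hn))

theorem coe_natUnit (n : ℕ) (hn : n ≠ 0) :
    ((natUnit K q n hn : (Loc K q)ˣ) : Loc K q) = (n : K) ⊗ₜ[ℚ] (1 : ℚ_[(q : ℕ)]) := rfl

/-- `Nm_q (n ⊗ 1) = n ^ [K : ℚ]`. -/
theorem locNorm_natUnit (n : ℕ) (hn : n ≠ 0) :
    locNorm K q (natUnit K q n hn) =
      Units.mk0 (n : ℚ_[(q : ℕ)]) (by exact_mod_cast hn) ^ Module.finrank ℚ K := by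
  apply Units.ext
  rw [coe_locNorm, coe_natUnit, locNorm0_tmul_one, Units.val_pow_eq_pow_val, Units.val_mk0]
  have h : (n : K) = algebraMap ℚ K (n : ℚ) := (map_natCast (algebraMap ℚ K) n).symm
  rw [h, Algebra.norm_algebraMap]
  push_cast
  rfl

theorem valuation_natCast_self :
    ((q : ℕ) : ℚ_[(q : ℕ)]).valuation = 1 := Padic.valuation_p

variable (p : Nat.Primes) (r : ℕ)

/-- `qPart K p r q (n ⊗ 1) = q ^ ([K:ℚ] · v_q(n))`. -/
theorem qPart_natUnit (n : ℕ) (hn : n ≠ 0) :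
    qPart K p r q (natUnit K q n hn) =
      (unitOfNat ((p : ℕ) ^ r) q ^ ((n : ℚ_[(q : ℕ)]).valuation)) ^ Module.finrank ℚ K := by
  have h : qPart K p r q (natUnit K q n hn) =
      (zpowersHom (ZMod ((p : ℕ) ^ r))ˣ (unitOfNat ((p : ℕ) ^ r) q))
        (padicVal q (locNorm K q (natUnit K q n hn))) := rfl
  rw [h, locNorm_natUnit, map_pow, map_pow]
  rfl

/-- `qPart K p r q (q ⊗ 1) = q ^ [K:ℚ]`. -/
theorem qPart_natUnit_self :
    qPart K p r q (natUnit K q (q : ℕ) q.2.ne_zero) =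
      unitOfNat ((p : ℕ) ^ r) q ^ Module.finrank ℚ K := by
  rw [qPart_natUnit, valuation_natCast_self, zpow_one]

/-- `θ_r(Nm_p (m ⊗ 1)) = m ^ [K:ℚ] mod p^r` for `p ∤ m`. -/
theorem theta_locNorm_natUnit (m : ℕ) (hm : ¬ (p : ℕ) ∣ m) (hm0 : m ≠ 0) :
    theta p r (locNorm K p (natUnit K p m hm0)) =
      unitOfNat ((p : ℕ) ^ r) m ^ Module.finrank ℚ K := by
  rw [locNorm_natUnit, map_pow, theta_natCast p r m hm]

theorem not_dvd_succ : ¬ (p : ℕ) ∣ 1 + p := by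
  intro h
  have h1 : (p : ℕ) ∣ 1 := (Nat.dvd_add_left (dvd_refl _)).1 h
  exact p.2.one_lt.ne' (Nat.dvd_one.1 h1)

end NatUnit

section Combined

variable (S : Finset Nat.Primes) [DecidableEq S] (K : Type) [Field K] [NumberField K]
  (p : Nat.Primes) (r : ℕ) (hpS : p ∈ S)

/-- `cyc` of the idele `n` at `q ≠ p` is `q ^ ([K:ℚ] v_q(n)) mod p^r`. -/
theorem cyc_locToJT_natUnit_of_ne (q : S) (hq : q.1 ≠ p) (n : ℕ) (hn : n ≠ 0) :
    cyc S K p r hpS (locToJT S q (natUnit K q.1 n hn)) =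
      (unitOfNat ((p : ℕ) ^ r) q.1 ^ ((n : ℚ_[(q.1 : ℕ)]).valuation)) ^ Module.finrank ℚ K := by
  rw [cyc_locToJT_of_ne S K p r hpS q hq, qPart_natUnit]

/-- `cyc` of the idele `q` at `q ≠ p` is `q ^ [K:ℚ] mod p^r`. -/
theorem cyc_locToJT_natUnit_self_of_ne (q : S) (hq : q.1 ≠ p) :
    cyc S K p r hpS (locToJT S q (natUnit K q.1 (q.1 : ℕ) q.1.2.ne_zero)) =
      unitOfNat ((p : ℕ) ^ r) q.1 ^ Module.finrank ℚ K := by
  rw [cyc_locToJT_of_ne S K p r hpS q hq, qPart_natUnit_self]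

/-- `cyc` of the idele `m` at `p` (`p ∤ m`) is `m ^ (-[K:ℚ]) mod p^r`. -/
theorem cyc_locToJT_natUnit_self (m : ℕ) (hm : ¬ (p : ℕ) ∣ m) (hm0 : m ≠ 0) :
    cyc S K p r hpS (locToJT S ⟨p, hpS⟩ (natUnit K p m hm0)) =
      (unitOfNat ((p : ℕ) ^ r) m ^ Module.finrank ℚ K)⁻¹ := by
  rw [cyc_locToJT_self S K p r hpS, theta_locNorm_natUnit K p r m hm hm0]

end Combined

section RatUnit

variable (q : Nat.Primes)

/-- The unit `n ⊗ 1` of `ℚ ⊗_ℚ ℚ_q` attached to a nonzero natural number `n`. -/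
def ratUnit (n : ℕ) (hn : n ≠ 0) : (Loc ℚ q)ˣ := natUnit ℚ q n hn

theorem coe_ratUnit (n : ℕ) (hn : n ≠ 0) :
    ((ratUnit q n hn : (Loc ℚ q)ˣ) : Loc ℚ q) = (n : ℚ) ⊗ₜ[ℚ] (1 : ℚ_[(q : ℕ)]) := rfl

theorem finrank_rat_rat :
    @Module.finrank ℚ ℚ _ _ (@Algebra.toModule ℚ ℚ _ _ DivisionRing.toRatAlgebra) = 1 :=
  Module.finrank_self ℚ

/-- `Nm_q (n ⊗ 1) = n` over `ℚ` (with the `DivisionRing.toRatAlgebra` structure on `ℚ`, the one
appearing in `Loc ℚ q`, `qPart ℚ`, `cyc S ℚ`). -/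
theorem locNorm_ratUnit (n : ℕ) (hn : n ≠ 0) :
    @locNorm ℚ _ DivisionRing.toRatAlgebra (q : ℕ) _ (ratUnit q n hn) =
      Units.mk0 (n : ℚ_[(q : ℕ)]) (by exact_mod_cast hn) := by
  rw [ratUnit, locNorm_natUnit, finrank_rat_rat, pow_one]

variable (p : Nat.Primes) (r : ℕ)

/-- `qPart ℚ p r q (n ⊗ 1) = q ^ v_q(n)`. -/
theorem qPart_ratUnit (n : ℕ) (hn : n ≠ 0) :
    qPart ℚ p r q (ratUnit q n hn) =
      unitOfNat ((p : ℕ) ^ r) q ^ ((n : ℚ_[(q : ℕ)]).valuation) := by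
  rw [ratUnit, qPart_natUnit, finrank_rat_rat, pow_one]

/-- (b3) `q ↦ q` at `q`: `qPart ℚ p r q (q ⊗ 1) = q mod p^r`. -/
theorem qPart_ratUnit_self :
    qPart ℚ p r q (ratUnit q (q : ℕ) q.2.ne_zero) = unitOfNat ((p : ℕ) ^ r) q := by
  rw [qPart_ratUnit, valuation_natCast_self, zpow_one]

/-- (b3) `θ_r(m) = m mod p^r` for `p ∤ m`. -/
theorem theta_locNorm_ratUnit (m : ℕ) (hm : ¬ (p : ℕ) ∣ m) (hm0 : m ≠ 0) :
    theta p r (@locNorm ℚ _ DivisionRing.toRatAlgebra (p : ℕ) _ (ratUnit p m hm0)) =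
      unitOfNat ((p : ℕ) ^ r) m := by
  rw [locNorm_ratUnit, theta_natCast p r m hm]

/-- (b3) `θ_r(1 + p) = 1 + p mod p^r`. -/
theorem theta_locNorm_ratUnit_succ :
    theta p r (@locNorm ℚ _ DivisionRing.toRatAlgebra (p : ℕ) _ (ratUnit p (1 + p) (by omega))) =
      unitOfNat ((p : ℕ) ^ r) (1 + p) :=
  theta_locNorm_ratUnit p r (1 + p) (not_dvd_succ p) _

end RatUnit

section RatCombined

variable (S : Finset Nat.Primes) [DecidableEq S] (p : Nat.Primes) (r : ℕ) (hpS : p ∈ S)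

/-- `cyc` of the idele `q` at `q ≠ p` (over `ℚ`) is `q mod p^r`. -/
theorem cyc_locToJT_ratUnit_self (q : S) (hq : q.1 ≠ p) :
    cyc S ℚ p r hpS (locToJT S q (ratUnit q.1 (q.1 : ℕ) q.1.2.ne_zero)) =
      unitOfNat ((p : ℕ) ^ r) q.1 := by
  rw [cyc_locToJT_of_ne S ℚ p r hpS q hq, qPart_ratUnit_self]

/-- `cyc` of the idele `n` at `q ≠ p` (over `ℚ`) is `q ^ v_q(n) mod p^r`. -/
theorem cyc_locToJT_ratUnit_of_ne (q : S) (hq : q.1 ≠ p) (n : ℕ) (hn : n ≠ 0) :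
    cyc S ℚ p r hpS (locToJT S q (ratUnit q.1 n hn)) =
      unitOfNat ((p : ℕ) ^ r) q.1 ^ ((n : ℚ_[(q.1 : ℕ)]).valuation) := by
  rw [cyc_locToJT_of_ne S ℚ p r hpS q hq, qPart_ratUnit]

/-- `cyc` of the idele `m` at `p` (over `ℚ`, `p ∤ m`) is `m⁻¹ mod p^r`. -/
theorem cyc_locToJT_ratUnit_of_not_dvd (m : ℕ) (hm : ¬ (p : ℕ) ∣ m) (hm0 : m ≠ 0) :
    cyc S ℚ p r hpS (locToJT S ⟨p, hpS⟩ (ratUnit p m hm0)) =
      (unitOfNat ((p : ℕ) ^ r) m)⁻¹ := by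
  rw [cyc_locToJT_self S ℚ p r hpS, theta_locNorm_ratUnit p r m hm hm0]

/-- `cyc` of the idele `1 + p` at `p` (over `ℚ`) is `(1 + p)⁻¹ mod p^r`. -/
theorem cyc_locToJT_ratUnit_succ :
    cyc S ℚ p r hpS (locToJT S ⟨p, hpS⟩ (ratUnit p (1 + p) (by omega))) =
      (unitOfNat ((p : ℕ) ^ r) (1 + p))⁻¹ :=
  cyc_locToJT_ratUnit_of_not_dvd S p r hpS (1 + p) (not_dvd_succ p) _

end RatCombined

end

end Fermat.Agent.PT.GLOB.CycLocalValue5
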