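/-
Program F (S55, Poitou–Tate), chapter GLOB, helper23.

Transitivity of the tower maps of `Tower23`: for `L ⊂ L' ⊂ L''`,
`inclCT L' L'' ∘ inclCT L L' = inclCT L L''`, and `inclCT L L = id`.
-/
import Fermat.Agent.PT.GLOB.Tower23

set_option autoImplicit false
set_option linter.unusedSectionVars false

namespace Fermat.Agent.PT.GLOB.TowerTrans23

open NumberField IsDedekindDomain
open scoped TensorProduct nonZeroDivisors
open Fermat.Agent.PT.GLOB.Interface23 Fermat.Agent.PT.GLOB.ClassAction23
  Fermat.Agent.PT.GLOB.Tower23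

section Trans

variable (T : Finset Nat.Primes)
variable (L L' L'' : Type*) [Field L] [Field L'] [Field L''] [NumberField L] [NumberField L']
  [NumberField L''] [Algebra L L'] [Algebra L L''] [Algebra L' L''] [IsScalarTower L L' L'']

theorem locMap_locMap (q : Nat.Primes) (z : Loc L q) :
    locMap L' L'' q (locMap L L' q z) = locMap L L'' q z := by
  induction z using TensorProduct.induction_on with
  | zero => rw [map_zero, map_zero, map_zero]
  | tmul x r =>
    rw [locMap_tmul, locMap_tmul, locMap_tmul, ← IsScalarTower.algebraMap_apply]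
  | add a b ha hb => rw [map_add, map_add, map_add, ha, hb]

theorem inclI_inclI (x : IT T L) :
    inclI T L' L'' (inclI T L L' x) = inclI T L L'' x := by
  funext q
  apply Units.ext
  exact locMap_locMap L L' L'' q.1 (x q : Loc L q.1)

theorem under_under (P'' : HeightOneSpectrum (𝓞 L'')) :
    (P''.under (𝓞 L')).under (𝓞 L) = P''.under (𝓞 L) := by
  apply HeightOneSpectrum.ext
  ext a
  change algebraMap (𝓞 L') (𝓞 L'') (algebraMap (𝓞 L) (𝓞 L') a) ∈ P''.asIdeal ↔
    algebraMap (𝓞 L) (𝓞 L'') a ∈ P''.asIdeal
  rw [← IsScalarTower.algebraMap_apply]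

theorem underAway_underAway (P'' : PrimeAway T L'') :
    underAway T L L' (underAway T L' L'' P'') = underAway T L L'' P'' :=
  Subtype.ext (under_under L L' L'' P''.1)

theorem ramIdx_tower (P'' : HeightOneSpectrum (𝓞 L'')) :
    ramIdx L L'' P'' = ramIdx L L' (P''.under (𝓞 L')) * ramIdx L' L'' P'' := by
  unfold ramIdx
  have h1 : P''.asIdeal.LiesOver (P''.under (𝓞 L')).asIdeal := ⟨rfl⟩
  have h2 : (P''.under (𝓞 L')).asIdeal.LiesOver (P''.under (𝓞 L)).asIdeal :=
    ⟨congrArg HeightOneSpectrum.asIdeal (under_under L L' L'' P'').symm⟩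
  rw [under_under L L' L'' P'']
  exact Ideal.ramificationIdx'_algebra_tower' (P''.under (𝓞 L)).asIdeal
    (P''.under (𝓞 L')).asIdeal P''.asIdeal

theorem inclDiv_inclDiv (D : DivT T L) :
    inclDiv T L' L'' (inclDiv T L L' D) = inclDiv T L L'' D := by
  apply divT_ext
  intro P''
  rw [inclDiv_apply, inclDiv_apply, inclDiv_apply, underAway_underAway, ramIdx_tower L L' L'',
    underAway_val]
  push_cast
  ring

theorem inclJ_inclJ (j : JT T L) :
    inclJ T L' L'' (inclJ T L L' j) = inclJ T L L'' j :=
  Prod.ext (inclI_inclI T L L' L'' j.1) (inclDiv_inclDiv T L L' L'' j.2)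

/-- Transitivity of the tower maps on `T`-idele class groups. -/
theorem inclCT_inclCT (c : CT T L) :
    inclCT T L' L'' (inclCT T L L' c) = inclCT T L L'' c := by
  induction c using QuotientGroup.induction_on with
  | H j =>
    change inclCT T L' L'' (inclCT T L L' (toCT T L j)) = inclCT T L L'' (toCT T L j)
    rw [inclCT_toCT, inclCT_toCT, inclCT_toCT, inclJ_inclJ]

end Trans

section Self

variable (T : Finset Nat.Primes)
variable (L : Type*) [Field L] [NumberField L]

theorem locMap_self (q : Nat.Primes) (z : Loc L q) : locMap L L q z = z := by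
  induction z using TensorProduct.induction_on with
  | zero => rw [map_zero]
  | tmul x r => rw [locMap_tmul]; rfl
  | add a b ha hb => rw [map_add, ha, hb]

theorem inclI_self (x : IT T L) : inclI T L L x = x := by
  funext q
  apply Units.ext
  exact locMap_self L q.1 (x q : Loc L q.1)

attribute [local instance 2000] NumberField.inst_ringOfIntegersAlgebra

theorem algebraMap_int_self (a : 𝓞 L) : algebraMap (𝓞 L) (𝓞 L) a = a :=
  RingOfIntegers.ext rfl

theorem underAway_self (P : PrimeAway T L) : underAway T L L P = P := by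
  apply Subtype.ext
  apply HeightOneSpectrum.ext
  ext a
  change algebraMap (𝓞 L) (𝓞 L) a ∈ P.1.asIdeal ↔ a ∈ P.1.asIdeal
  rw [algebraMap_int_self]

theorem ramIdx_self (P : HeightOneSpectrum (𝓞 L)) : ramIdx L L P = 1 := by
  have hmap : Ideal.map (algebraMap (𝓞 L) (𝓞 L)) (P.under (𝓞 L)).asIdeal = P.asIdeal := by
    apply le_antisymm
    · exact Ideal.map_comap_le
    · intro a ha
      have h1 : a ∈ (P.under (𝓞 L)).asIdeal := by
        change algebraMap (𝓞 L) (𝓞 L) a ∈ P.asIdeal
        rwa [algebraMap_int_self]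
      have h2 := Ideal.mem_map_of_mem (algebraMap (𝓞 L) (𝓞 L)) h1
      rwa [algebraMap_int_self] at h2
  unfold ramIdx
  apply Ideal.ramificationIdx'_spec
  · rw [hmap, pow_one]
  · rw [hmap]
    intro h
    have := Ideal.pow_lt_self P.asIdeal P.ne_bot P.isPrime.ne_top 2 le_rfl
    exact absurd h (not_le_of_gt this)

theorem inclDiv_self (D : DivT T L) : inclDiv T L L D = D := by
  apply divT_ext
  intro P
  rw [inclDiv_apply, underAway_self, ramIdx_self, Nat.cast_one, one_mul]

theorem inclJ_self (j : JT T L) : inclJ T L L j = j :=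
  Prod.ext (inclI_self T L j.1) (inclDiv_self T L j.2)

theorem inclCT_self (c : CT T L) : inclCT T L L c = c := by
  induction c using QuotientGroup.induction_on with
  | H j =>
    change inclCT T L L (toCT T L j) = toCT T L j
    rw [inclCT_toCT, inclJ_self]

end Self

end Fermat.Agent.PT.GLOB.TowerTrans23
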