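/-
Program F (S55, Poitou–Tate), chapter GLOB, leaf C3-1 (helper23).

Galois cohomology `H²(Gal(L/K), CT S L)` in towers of number fields (port of LOC's `TowerCoh12` to
the `S`-idele class groups): transitivity of inflation, inflation/restriction commute, cyclic
classes `gkappa σ a` of elements `a ∈ CT S K` under inflation and restriction, norm criterion.
-/
import Fermat.Agent.PT.GLOB.InterfaceCF23
import Fermat.Agent.PT.GLOB.TowerTrans23
import Fermat.Agent.PT.LOC.CyclicH2_12

set_option autoImplicit false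
set_option linter.unusedSectionVars false

open CategoryTheory groupCohomology

namespace Fermat.Agent.PT.GLOB.TowerCohCT23

open NumberField
open Fermat.Agent.PT.GLOB.Interface23 Fermat.Agent.PT.GLOB.ClassAction23
  Fermat.Agent.PT.GLOB.Tower23 Fermat.Agent.PT.GLOB.TowerEquiv23
  Fermat.Agent.PT.GLOB.TowerTrans23 Fermat.Agent.PT.GLOB.InterfaceCF23
  Fermat.Agent.PT.LOC.CyclicH2_12

noncomputable section

variable (S : Finset Nat.Primes)

/-! ### Pointwise formulas -/

section Pointwise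

variable (K K' L L' : Type) [Field K] [Field K'] [Field L] [Field L'] [NumberField K]
  [NumberField K'] [NumberField L] [NumberField L']

/-- The image of `c : CT S L` in `CT S L'`, as elements of the Galois modules. -/
def ctUp [Algebra K L] [Algebra K L'] [Algebra L L'] : repCT S K L →+ repCT S K L' :=
  (inclCT S L L').toAdditive

theorem ctUp_apply [Algebra K L] [Algebra K L'] [Algebra L L'] (a : repCT S K L) :
    ctUp S K L L' a = Additive.ofMul (inclCT S L L' (Additive.toMul a)) := rfl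

section Res

variable [Algebra K K'] [Algebra K L] [Algebra K' L] [IsScalarTower K K' L]

theorem resH2CT_H2π (x : cocycles₂ (repCT S K L)) :
    resH2CT S K K' L (H2π _ x) = H2π _ (mapCocycles₂ (galIncl K K' L) (resHomCT S K K' L) x) :=
  H2π_comp_map_apply _ _ x

theorem res_cocycle_apply (x : cocycles₂ (repCT S K L)) (σ τ : L ≃ₐ[K'] L) :
    (mapCocycles₂ (galIncl K K' L) (resHomCT S K K' L) x) (σ, τ) =
      x (galIncl K K' L σ, galIncl K K' L τ) := rfl

end Res

section Inf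

variable [Algebra K L] [Algebra K L'] [Algebra L L'] [IsScalarTower K L L'] [Normal K L]

theorem infHomCT_hom_apply (a : repCT S K L) :
    (infHomCT S K L L').hom a = ctUp S K L L' a := rfl

theorem infH2CT_H2π (x : cocycles₂ (repCT S K L)) :
    infH2CT S K L L' (H2π _ x) =
      H2π _ (mapCocycles₂ (AlgEquiv.restrictNormalHom (F := K) (K₁ := L') L)
        (infHomCT S K L L') x) :=
  H2π_comp_map_apply _ _ x

theorem inf_cocycle_apply (x : cocycles₂ (repCT S K L)) (σ τ : L' ≃ₐ[K] L') :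
    (mapCocycles₂ (AlgEquiv.restrictNormalHom (F := K) (K₁ := L') L) (infHomCT S K L L') x)
        (σ, τ) =
      ctUp S K L L' (x (AlgEquiv.restrictNormalHom L σ, AlgEquiv.restrictNormalHom L τ)) :=
  rfl

end Inf

end Pointwise

/-! ### Transitivity of inflation -/

section InfInf

variable (K L L' N : Type) [Field K] [Field L] [Field L'] [Field N] [NumberField K]
  [NumberField L] [NumberField L'] [NumberField N]
  [Algebra K L] [Algebra K L'] [Algebra K N] [Algebra L L'] [Algebra L N] [Algebra L' N]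
  [IsScalarTower K L L'] [IsScalarTower K L N] [IsScalarTower K L' N] [IsScalarTower L L' N]
  [Normal K L] [Normal K L']

theorem ctUp_ctUp (a : repCT S K L) :
    ctUp S K L' N (ctUp S K L L' a) = ctUp S K L N a :=
  congrArg Additive.ofMul (inclCT_inclCT S L L' N (Additive.toMul a))

theorem infH2CT_infH2CT (x : H2 (repCT S K L)) :
    infH2CT S K L' N (infH2CT S K L L' x) = infH2CT S K L N x := by
  induction x using H2_induction_on with
  | h x =>
    rw [infH2CT_H2π, infH2CT_H2π, infH2CT_H2π]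
    congr 1
    apply cocycles₂_ext
    intro σ τ
    rw [inf_cocycle_apply, inf_cocycle_apply, inf_cocycle_apply, ctUp_ctUp,
      ← IsScalarTower.AlgEquiv.restrictNormalHom_comp_apply L L' σ,
      ← IsScalarTower.AlgEquiv.restrictNormalHom_comp_apply L L' τ]

end InfInf

section InfSelf

variable (K L : Type) [Field K] [Field L] [NumberField K] [NumberField L] [Algebra K L]
  [Normal K L]

theorem infH2CT_self (x : H2 (repCT S K L)) : infH2CT S K L L x = x := by
  induction x using H2_induction_on with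
  | h x =>
    rw [infH2CT_H2π]
    congr 1
    apply cocycles₂_ext
    intro σ τ
    rw [inf_cocycle_apply, AlgEquiv.restrictNormalHom_id]
    exact congrArg Additive.ofMul (inclCT_self S L _)

end InfSelf

/-! ### Inflation and restriction commute -/

section ResInf

variable (K K' L N : Type) [Field K] [Field K'] [Field L] [Field N] [NumberField K]
  [NumberField K'] [NumberField L] [NumberField N]
  [Algebra K K'] [Algebra K L] [Algebra K N] [Algebra K' L] [Algebra K' N] [Algebra L N]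
  [IsScalarTower K K' L] [IsScalarTower K K' N] [IsScalarTower K L N] [IsScalarTower K' L N]
  [Normal K L] [Normal K' L]

theorem restrictNormalHom_galIncl (σ : N ≃ₐ[K'] N) :
    AlgEquiv.restrictNormalHom (F := K) (K₁ := N) L (galIncl K K' N σ) =
      galIncl K K' L (AlgEquiv.restrictNormalHom (F := K') (K₁ := N) L σ) := by
  ext x
  apply (algebraMap L N).injective
  change algebraMap L N ((galIncl K K' N σ).restrictNormal L x) =
    algebraMap L N ((σ.restrictNormal L) x)
  rw [AlgEquiv.restrictNormal_commutes, AlgEquiv.restrictNormal_commutes]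
  rfl

theorem resH2CT_infH2CT (x : H2 (repCT S K L)) :
    resH2CT S K K' N (infH2CT S K L N x) = infH2CT S K' L N (resH2CT S K K' L x) := by
  induction x using H2_induction_on with
  | h x =>
    rw [infH2CT_H2π, resH2CT_H2π, resH2CT_H2π, infH2CT_H2π]
    congr 1

end ResInf

/-! ### Cyclic classes of elements of the base field -/

theorem kappa_congr {G : Type} [Group G] [Finite G] (g : G)
    (hg : ∀ x : G, x ∈ Subgroup.zpowers g) {k : Type} [CommRing k] (A : Rep k G) {a b : A}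
    (h : a = b) (ha : A.ρ g a = a) (hb : A.ρ g b = b) :
    kappa g hg A ha = kappa g hg A hb := by
  subst h
  rfl

section BaseCT

variable (K K₁ : Type) [Field K] [Field K₁] [NumberField K] [NumberField K₁] [Algebra K K₁]

/-- The image of `a : CT S K` in the Galois module `CT S K₁`. -/
def baseCT (a : CT S K) : repCT S K K₁ := Additive.ofMul (inclCT S K K₁ a)

theorem rho_apply (σ : K₁ ≃ₐ[K] K₁) (c : repCT S K K₁) :
    (repCT S K K₁).ρ σ c = Additive.ofMul (σ • (Additive.toMul c : CT S K₁)) := rfl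

theorem smul_inclCT_base (a : CT S K) (σ : K₁ ≃ₐ[K] K₁) :
    σ • inclCT S K K₁ a = inclCT S K K₁ a := by
  have h := inclCT_smul (K := K) (L := K) (L' := K₁) S σ a
  have h1 : (rn σ : K ≃ₐ[K] K) = 1 := by
    ext x
    exact (rn σ : K ≃ₐ[K] K).commutes x
  rw [h1, one_smul] at h
  exact h.symm

theorem baseCT_fixed (a : CT S K) (σ : K₁ ≃ₐ[K] K₁) :
    (repCT S K K₁).ρ σ (baseCT S K K₁ a) = baseCT S K K₁ a :=
  congrArg Additive.ofMul (smul_inclCT_base S K K₁ a σ)

theorem baseCT_mul (a b : CT S K) :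
    baseCT S K K₁ (a * b) = baseCT S K K₁ a + baseCT S K K₁ b := by
  unfold baseCT
  rw [map_mul]
  rfl

theorem baseCT_pow (a : CT S K) (k : ℕ) : baseCT S K K₁ (a ^ k) = k • baseCT S K K₁ a := by
  unfold baseCT
  rw [map_pow]
  rfl

theorem baseCT_inv (a : CT S K) : baseCT S K K₁ a⁻¹ = - baseCT S K K₁ a := by
  unfold baseCT
  rw [map_inv]
  rfl

theorem baseCT_one : baseCT S K K₁ 1 = 0 := by
  unfold baseCT
  rw [map_one]
  rfl

variable {K K₁} in
/-- The cyclic class `κ(σ, a) ∈ H²(Gal(K₁/K), CT S K₁)` of `a ∈ CT S K`. -/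
def gkappa [Finite (K₁ ≃ₐ[K] K₁)] (σ : K₁ ≃ₐ[K] K₁) (hσ : ∀ τ, τ ∈ Subgroup.zpowers σ)
    (a : CT S K) : H2 (repCT S K K₁) :=
  kappa σ hσ (repCT S K K₁) (baseCT_fixed S K K₁ a σ)

variable {K K₁} in
theorem gkappa_mul [Finite (K₁ ≃ₐ[K] K₁)] (σ : K₁ ≃ₐ[K] K₁) (hσ : ∀ τ, τ ∈ Subgroup.zpowers σ)
    (a b : CT S K) : gkappa S σ hσ (a * b) = gkappa S σ hσ a + gkappa S σ hσ b := by
  unfold gkappa
  have hab : (repCT S K K₁).ρ σ (baseCT S K K₁ a + baseCT S K K₁ b) =
      baseCT S K K₁ a + baseCT S K K₁ b := by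
    rw [← baseCT_mul]; exact baseCT_fixed S K K₁ (a * b) σ
  rw [kappa_congr σ hσ (repCT S K K₁) (baseCT_mul S K K₁ a b) _ hab, kappa_add]

variable {K K₁} in
theorem gkappa_one [Finite (K₁ ≃ₐ[K] K₁)] (σ : K₁ ≃ₐ[K] K₁) (hσ : ∀ τ, τ ∈ Subgroup.zpowers σ) :
    gkappa S σ hσ (1 : CT S K) = 0 := by
  have h := gkappa_mul S σ hσ (1 : CT S K) 1
  have h11 : (1 : CT S K) * 1 = 1 := mul_one (1 : CT S K)
  rw [h11] at h
  exact left_eq_add.mp h

variable {K K₁} in
theorem gkappa_pow [Finite (K₁ ≃ₐ[K] K₁)] (σ : K₁ ≃ₐ[K] K₁) (hσ : ∀ τ, τ ∈ Subgroup.zpowers σ)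
    (a : CT S K) (k : ℕ) : gkappa S σ hσ (a ^ k) = k • gkappa S σ hσ a := by
  induction k with
  | zero => rw [pow_zero, zero_smul, gkappa_one]
  | succ k ih => rw [pow_succ, gkappa_mul, ih, succ_nsmul]

variable {K K₁} in
theorem gkappa_inv [Finite (K₁ ≃ₐ[K] K₁)] (σ : K₁ ≃ₐ[K] K₁) (hσ : ∀ τ, τ ∈ Subgroup.zpowers σ)
    (a : CT S K) : gkappa S σ hσ a⁻¹ = - gkappa S σ hσ a := by
  have h := gkappa_mul S σ hσ a a⁻¹
  have h11 : a * a⁻¹ = 1 := mul_inv_cancel a
  rw [h11, gkappa_one] at h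
  exact (neg_eq_of_add_eq_zero_right h.symm).symm

end BaseCT

/-! ### Inflation of cyclic classes -/

section InfKappa

variable (K K₁ K₂ : Type) [Field K] [Field K₁] [Field K₂] [NumberField K] [NumberField K₁]
  [NumberField K₂] [Algebra K K₁] [Algebra K K₂] [Algebra K₁ K₂] [IsScalarTower K K₁ K₂]
  [Normal K K₁]

theorem ctUp_baseCT (a : CT S K) : ctUp S K K₁ K₂ (baseCT S K K₁ a) = baseCT S K K₂ a :=
  congrArg Additive.ofMul (inclCT_inclCT S K K₁ K₂ a)

theorem infH2CT_gkappa (σ₁ : K₁ ≃ₐ[K] K₁) (hσ₁ : ∀ τ, τ ∈ Subgroup.zpowers σ₁)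
    (σ₂ : K₂ ≃ₐ[K] K₂) (hσ₂ : ∀ τ, τ ∈ Subgroup.zpowers σ₂)
    (hres : AlgEquiv.restrictNormalHom K₁ σ₂ = σ₁) {m : ℕ} (hm : orderOf σ₂ = m * orderOf σ₁)
    (a : CT S K) :
    infH2CT S K K₁ K₂ (gkappa S σ₁ hσ₁ a) = m • gkappa S σ₂ hσ₂ a := by
  unfold gkappa infH2CT
  have hb : (repCT S K K₂).ρ σ₂ ((infHomCT S K K₁ K₂).hom (baseCT S K K₁ a)) =
      (infHomCT S K K₁ K₂).hom (baseCT S K K₁ a) := by
    rw [infHomCT_hom_apply, ctUp_baseCT]; exact baseCT_fixed S K K₂ a σ₂
  rw [map_kappa_of_surj σ₁ hσ₁ σ₂ hσ₂ (repCT S K K₁) (repCT S K K₂) _ (infHomCT S K K₁ K₂) hres hm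
    (baseCT_fixed S K K₁ a σ₁) hb]
  congr 1
  exact kappa_congr σ₂ hσ₂ _ (by rw [infHomCT_hom_apply, ctUp_baseCT]) _ _

end InfKappa

/-! ### Restriction of inflated cyclic classes -/

section ResKappa

variable (K K' K₁ N : Type) [Field K] [Field K'] [Field K₁] [Field N] [NumberField K]
  [NumberField K'] [NumberField K₁] [NumberField N]
  [Algebra K K'] [Algebra K K₁] [Algebra K N] [Algebra K' N] [Algebra K₁ N]
  [IsScalarTower K K' N] [IsScalarTower K K₁ N] [Normal K K₁]

/-- `Gal(N/K') → Gal(K₁/K)`, `σ ↦ σ|K₁`. -/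
abbrev resToSub : (N ≃ₐ[K'] N) →* (K₁ ≃ₐ[K] K₁) :=
  (AlgEquiv.restrictNormalHom (F := K) (K₁ := N) K₁).comp (galIncl K K' N)

/-- The morphism of Galois modules `CT S K₁ → CT S N` over `resToSub`. -/
def resToSubHom : Rep.res (resToSub K K' K₁ N) (repCT S K K₁) ⟶ repCT S K' N :=
  (Rep.resFunctor (galIncl K K' N)).map (infHomCT S K K₁ N) ≫ resHomCT S K K' N

theorem resH2CT_infH2CT_eq_map (x : H2 (repCT S K K₁)) :
    resH2CT S K K' N (infH2CT S K K₁ N x) =
      groupCohomology.map (resToSub K K' K₁ N) (resToSubHom S K K' K₁ N) 2 x := by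
  have h := groupCohomology.map_comp (AlgEquiv.restrictNormalHom (F := K) (K₁ := N) K₁)
    (galIncl K K' N) (infHomCT S K K₁ N) (resHomCT S K K' N) 2
  have h2 := congrArg (fun t => (ConcreteCategory.hom t) x) h
  exact h2.symm

theorem resToSubHom_baseCT (a : CT S K) :
    (resToSubHom S K K' K₁ N).hom (baseCT S K K₁ a) =
      baseCT S K' N (inclCT S K K' a) := by
  change Additive.ofMul (inclCT S K₁ N (inclCT S K K₁ a)) =
    Additive.ofMul (inclCT S K' N (inclCT S K K' a))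
  rw [inclCT_inclCT, inclCT_inclCT]

theorem resH2CT_infH2CT_gkappa (σ₁ : K₁ ≃ₐ[K] K₁) (hσ₁ : ∀ τ, τ ∈ Subgroup.zpowers σ₁)
    (σ' : N ≃ₐ[K'] N) (hσ' : ∀ τ, τ ∈ Subgroup.zpowers σ') {d : ℕ}
    (hres : AlgEquiv.restrictNormalHom (F := K) (K₁ := N) K₁ (galIncl K K' N σ') = σ₁ ^ d)
    (hd : d * orderOf σ' = orderOf σ₁) (a : CT S K) :
    resH2CT S K K' N (infH2CT S K K₁ N (gkappa S σ₁ hσ₁ a)) =
      gkappa S σ' hσ' (inclCT S K K' a) := by
  rw [resH2CT_infH2CT_eq_map]
  unfold gkappa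
  have hb : (repCT S K' N).ρ σ' ((resToSubHom S K K' K₁ N).hom (baseCT S K K₁ a)) =
      (resToSubHom S K K' K₁ N).hom (baseCT S K K₁ a) := by
    rw [resToSubHom_baseCT]; exact baseCT_fixed S K' N _ σ'
  rw [map_kappa_of_pow σ₁ hσ₁ σ' hσ' (repCT S K K₁) (repCT S K' N) (resToSub K K' K₁ N)
    (resToSubHom S K K' K₁ N) hres hd (baseCT_fixed S K K₁ a σ₁) hb]
  exact kappa_congr σ' hσ' _ (resToSubHom_baseCT S K K' K₁ N a) _ _

end ResKappa

/-! ### The norm criterion -/

section NormCrit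

variable (K K₁ : Type) [Field K] [Field K₁] [NumberField K] [NumberField K₁] [Algebra K K₁]

theorem orderOf_gen [IsGalois K K₁] (σ : K₁ ≃ₐ[K] K₁) (hσ : ∀ τ, τ ∈ Subgroup.zpowers σ) :
    orderOf σ = Module.finrank K K₁ := by
  rw [orderOf_eq_card σ hσ, IsGalois.card_aut_eq_finrank]

theorem prod_pow_eq_normCT (σ : K₁ ≃ₐ[K] K₁) (hσ : ∀ τ, τ ∈ Subgroup.zpowers σ) (y : CT S K₁) :
    ∏ k ∈ Finset.range (orderOf σ), (σ ^ k) • y = normCT S K K₁ y := by
  classical
  unfold normCT
  refine Finset.prod_bij' (fun k _ => σ ^ k) (fun τ _ => idx σ hσ τ) ?_ ?_ ?_ ?_ ?_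
  · intro k _; exact Finset.mem_univ _
  · intro τ _; exact Finset.mem_range.mpr (idx_lt σ hσ τ)
  · intro k hk; exact idx_of_lt σ hσ (Finset.mem_range.mp hk)
  · intro τ _; exact pow_idx σ hσ τ
  · intro k _; rfl

/-- The class underlying an element of the Galois module. -/
def toC (b : repCT S K K₁) : CT S K₁ := Additive.toMul (show Additive (CT S K₁) from b)

/-- A class as an element of the Galois module. -/
def ofC (y : CT S K₁) : repCT S K K₁ := (Additive.ofMul y : Additive (CT S K₁))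

theorem toC_ofC (y : CT S K₁) : toC S K K₁ (ofC S K K₁ y) = y := rfl

theorem ofC_toC (b : repCT S K K₁) : ofC S K K₁ (toC S K K₁ b) = b := rfl

theorem toC_add (b c : repCT S K K₁) : toC S K K₁ (b + c) = toC S K K₁ b * toC S K K₁ c := rfl

theorem toC_zero : toC S K K₁ 0 = 1 := rfl

theorem toC_rho (σ : K₁ ≃ₐ[K] K₁) (b : repCT S K K₁) :
    toC S K K₁ ((repCT S K K₁).ρ σ b) = σ • toC S K K₁ b := rfl

theorem toC_baseCT (a : CT S K) : toC S K K₁ (baseCT S K K₁ a) = inclCT S K K₁ a := rfl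

theorem toC_sum {ι : Type} (s : Finset ι) (f : ι → repCT S K K₁) :
    toC S K K₁ (∑ i ∈ s, f i) = ∏ i ∈ s, toC S K K₁ (f i) := by
  classical
  induction s using Finset.induction_on with
  | empty => rw [Finset.sum_empty, Finset.prod_empty]; rfl
  | insert _ _ h ih => rw [Finset.sum_insert h, Finset.prod_insert h, toC_add, ih]

theorem toC_nrm (σ : K₁ ≃ₐ[K] K₁) (b : repCT S K K₁) :
    toC S K K₁ (nrm σ (repCT S K K₁) b) =
      ∏ k ∈ Finset.range (orderOf σ), (σ ^ k) • toC S K K₁ b := by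
  unfold nrm
  rw [toC_sum]
  exact Finset.prod_congr rfl fun k _ => toC_rho S K K₁ (σ ^ k) b

theorem gkappa_eq_zero_iff (σ : K₁ ≃ₐ[K] K₁) (hσ : ∀ τ, τ ∈ Subgroup.zpowers σ) (a : CT S K) :
    gkappa S σ hσ a = 0 ↔ ∃ y : CT S K₁, normCT S K K₁ y = inclCT S K K₁ a := by
  unfold gkappa
  rw [kappa_eq_zero_iff]
  constructor
  · rintro ⟨b, hb⟩
    refine ⟨toC S K K₁ b, ?_⟩
    rw [← prod_pow_eq_normCT S K K₁ σ hσ, ← toC_nrm, hb, toC_baseCT]
  · rintro ⟨y, hy⟩
    refine ⟨ofC S K K₁ y, ?_⟩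
    have h1 : toC S K K₁ (nrm σ (repCT S K K₁) (ofC S K K₁ y)) =
        toC S K K₁ (baseCT S K K₁ a) := by
      rw [toC_nrm, toC_ofC, prod_pow_eq_normCT S K K₁ σ hσ, hy, toC_baseCT]
    have h2 := congrArg (ofC S K K₁) h1
    rwa [ofC_toC, ofC_toC] at h2

end NormCrit

/-! ### Restriction of an inflated class, through an intermediate field -/

section ResInfVia

variable (K K' K₁ N' N : Type) [Field K] [Field K'] [Field K₁] [Field N'] [Field N]
  [NumberField K] [NumberField K'] [NumberField K₁] [NumberField N'] [NumberField N]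
  [Algebra K K'] [Algebra K K₁] [Algebra K N'] [Algebra K N] [Algebra K' N'] [Algebra K' N]
  [Algebra K₁ N'] [Algebra K₁ N] [Algebra N' N]
  [IsScalarTower K K' N'] [IsScalarTower K K' N] [IsScalarTower K K₁ N'] [IsScalarTower K K₁ N]
  [IsScalarTower K' N' N] [IsScalarTower K₁ N' N] [IsScalarTower K N' N]
  [Normal K K₁] [Normal K' N']

theorem restrictNormalHom_galIncl_via (σ : N ≃ₐ[K'] N) :
    AlgEquiv.restrictNormalHom (F := K) (K₁ := N) K₁ (galIncl K K' N σ) =
      AlgEquiv.restrictNormalHom (F := K) (K₁ := N') K₁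
        (galIncl K K' N' (AlgEquiv.restrictNormalHom (F := K') (K₁ := N) N' σ)) := by
  ext x
  apply (algebraMap K₁ N).injective
  change algebraMap K₁ N ((galIncl K K' N σ).restrictNormal K₁ x) =
    algebraMap K₁ N ((galIncl K K' N' (σ.restrictNormal N')).restrictNormal K₁ x)
  rw [AlgEquiv.restrictNormal_commutes, IsScalarTower.algebraMap_apply K₁ N' N,
    IsScalarTower.algebraMap_apply K₁ N' N, AlgEquiv.restrictNormal_commutes]
  change σ _ = algebraMap N' N ((σ.restrictNormal N') _)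
  rw [AlgEquiv.restrictNormal_commutes]

theorem resH2CT_infH2CT_via (x : H2 (repCT S K K₁)) :
    resH2CT S K K' N (infH2CT S K K₁ N x) =
      infH2CT S K' N' N (resH2CT S K K' N' (infH2CT S K K₁ N' x)) := by
  induction x using H2_induction_on with
  | h x =>
    rw [infH2CT_H2π, resH2CT_H2π, infH2CT_H2π, resH2CT_H2π, infH2CT_H2π]
    congr 1
    apply cocycles₂_ext
    intro σ τ
    rw [res_cocycle_apply, inf_cocycle_apply, inf_cocycle_apply, res_cocycle_apply,
      inf_cocycle_apply, restrictNormalHom_galIncl_via K K' K₁ N' N σ,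
      restrictNormalHom_galIncl_via K K' K₁ N' N τ]
    exact congrArg Additive.ofMul (inclCT_inclCT S K₁ N' N _).symm

end ResInfVia

end

end Fermat.Agent.PT.GLOB.TowerCohCT23
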