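/-
Program F (S55, Poitou–Tate), chapter GLOB, helper23.

The norm subgroup `normSubCT S K K₁ ≤ CT S K` of a layer `K₁/K`:
`c ∈ normSubCT S K K₁ ↔ ∃ y : CT S K₁, normCT S K K₁ y = inclCT S K K₁ c`,
and the order of the cyclic classes `gkappa σ a` in terms of it.
-/
import Fermat.Agent.PT.GLOB.TowerCohCT23

set_option autoImplicit false
set_option linter.unusedSectionVars false

open CategoryTheory groupCohomology

namespace Fermat.Agent.PT.GLOB.NormSubCT23

open NumberField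
open Fermat.Agent.PT.GLOB.Interface23 Fermat.Agent.PT.GLOB.ClassAction23
  Fermat.Agent.PT.GLOB.Tower23 Fermat.Agent.PT.GLOB.InterfaceCF23
  Fermat.Agent.PT.GLOB.TowerCohCT23

noncomputable section

variable (S : Finset Nat.Primes)

section Defs

variable (K K₁ : Type*) [Field K] [Field K₁] [NumberField K] [NumberField K₁] [Algebra K K₁]

theorem normCT_mul (y z : CT S K₁) :
    normCT S K K₁ (y * z) = normCT S K K₁ y * normCT S K K₁ z := by
  unfold normCT
  rw [← Finset.prod_mul_distrib]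
  exact Finset.prod_congr rfl fun h _ => smul_mul' h y z

theorem normCT_one : normCT S K K₁ (1 : CT S K₁) = 1 := by
  unfold normCT
  exact Finset.prod_eq_one fun h _ => smul_one h

theorem normCT_inv (y : CT S K₁) : normCT S K K₁ y⁻¹ = (normCT S K K₁ y)⁻¹ := by
  have h := normCT_mul S K K₁ y⁻¹ y
  have h1 : y⁻¹ * y = 1 := inv_mul_cancel y
  rw [h1, normCT_one] at h
  exact eq_inv_of_mul_eq_one_left h.symm

/-- The classes of `CT S K` which become norms from `CT S K₁`. -/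
def normSubCT : Subgroup (CT S K) where
  carrier := {c | ∃ y : CT S K₁, normCT S K K₁ y = inclCT S K K₁ c}
  mul_mem' := by
    rintro c d ⟨y, hy⟩ ⟨z, hz⟩
    exact ⟨y * z, by rw [normCT_mul, hy, hz, map_mul]⟩
  one_mem' := ⟨1, by rw [normCT_one, map_one]⟩
  inv_mem' := by
    rintro c ⟨y, hy⟩
    exact ⟨y⁻¹, by rw [normCT_inv, hy, map_inv]⟩

theorem mem_normSubCT (c : CT S K) :
    c ∈ normSubCT S K K₁ ↔ ∃ y : CT S K₁, normCT S K K₁ y = inclCT S K K₁ c := Iff.rfl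

end Defs

section Order

variable (K K₁ : Type) [Field K] [Field K₁] [NumberField K] [NumberField K₁] [Algebra K K₁]

theorem gkappa_eq_zero_iff_mem (σ : K₁ ≃ₐ[K] K₁) (hσ : ∀ τ, τ ∈ Subgroup.zpowers σ) (a : CT S K) :
    gkappa S σ hσ a = 0 ↔ a ∈ normSubCT S K K₁ :=
  gkappa_eq_zero_iff S K K₁ σ hσ a

theorem nsmul_gkappa_eq_zero_iff (σ : K₁ ≃ₐ[K] K₁) (hσ : ∀ τ, τ ∈ Subgroup.zpowers σ)
    (a : CT S K) (k : ℕ) :
    k • gkappa S σ hσ a = 0 ↔ a ^ k ∈ normSubCT S K K₁ := by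
  rw [← gkappa_pow, gkappa_eq_zero_iff_mem]

/-- If `a ^ k` is a norm exactly when `h ∣ k`, the class `gkappa σ a` has order `h`. -/
theorem addOrderOf_gkappa (σ : K₁ ≃ₐ[K] K₁) (hσ : ∀ τ, τ ∈ Subgroup.zpowers σ)
    (a : CT S K) (h : ℕ) (hh : ∀ k : ℕ, a ^ k ∈ normSubCT S K K₁ ↔ h ∣ k) :
    addOrderOf (gkappa S σ hσ a) = h := by
  apply Nat.dvd_antisymm
  · apply addOrderOf_dvd_of_nsmul_eq_zero
    rw [nsmul_gkappa_eq_zero_iff, hh]
  · rw [← hh, ← nsmul_gkappa_eq_zero_iff]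
    exact addOrderOf_nsmul_eq_zero _

end Order

end

end Fermat.Agent.PT.GLOB.NormSubCT23
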