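/-
Program F (S55, Poitou–Tate), chapter GLOB, leaf C3 (helper23): the exact SHAPES of the
cyclotomic-reciprocity inputs ("big Galois `Ω`" form) consumed by the final assembly of (GCF').

Context: `T` a finite set of primes, `p ∈ T`, `ζ ∈ Ω` a primitive `p^r`-th root of unity,
`χ = hζ.autToPow F : Gal(Ω/F) → (ℤ/p^r)ˣ`, `cyc T F p r hpT : JT T F → (ℤ/p^r)ˣ` (helper22).
* `CycContain`  (A1'): `cyc(j)^(p-1) ∈ χ(Gal(Ω/F))^(p-1)`;
* `CycSurj`     (SURJ): every `χ(τ)^(p-1)` is a `cyc(j)^(p-1)`;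
* `CycIncl`     (A2'): `cyc_{K'}(incl j) = cyc_K(j)^[K':K]` (no Galois hypothesis);
* `CycNormImp`  (A3'⇒), `CycNormCrit` (A3'): the norm criterion for a cyclotomic `p`-layer `F₁/F`;
* `CycGen`      (A4'): a class `a₀` of exact order `[F₁:F]` modulo norms.
-/
import Fermat.Agent.PT.GLOB.NormSubCT23
import Fermat.Agent.PT.GLOB.CycChar22

set_option autoImplicit false

namespace Fermat.Agent.PT.GLOB.CycRecShape23

open NumberField
open Fermat.Agent.PT.GLOB.Interface23 Fermat.Agent.PT.GLOB.ClassAction23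
  Fermat.Agent.PT.GLOB.Tower23 Fermat.Agent.PT.GLOB.InterfaceCF23
  Fermat.Agent.PT.GLOB.NormSubCT23 Fermat.Agent.PT.GLOB.CycChar22

noncomputable section

variable (T : Finset Nat.Primes) (p : Nat.Primes) (hpT : p ∈ T) (r : ℕ) [NeZero ((p : ℕ) ^ r)]

/-- (A1') **containment**. -/
def CycContain : Prop :=
  ∀ (F Ω : Type) [Field F] [Field Ω] [NumberField F] [NumberField Ω] [Algebra F Ω]
    [IsGalois F Ω] (ζ : Ω) (hζ : IsPrimitiveRoot ζ ((p : ℕ) ^ r)) (j : JT T F),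
    ∃ τ : Ω ≃ₐ[F] Ω,
      hζ.autToPow F τ ^ ((p : ℕ) - 1) = cyc T F p r hpT j ^ ((p : ℕ) - 1)

/-- (SURJ) **surjectivity**. -/
def CycSurj : Prop :=
  ∀ (F Ω : Type) [Field F] [Field Ω] [NumberField F] [NumberField Ω] [Algebra F Ω]
    [IsGalois F Ω] (ζ : Ω) (hζ : IsPrimitiveRoot ζ ((p : ℕ) ^ r)) (τ : Ω ≃ₐ[F] Ω),
    ∃ j : JT T F,
      cyc T F p r hpT j ^ ((p : ℕ) - 1) = hζ.autToPow F τ ^ ((p : ℕ) - 1)

/-- (A2') **compatibility with the tower map**, no Galois hypothesis. -/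
def CycIncl : Prop :=
  ∀ (K K' : Type) [Field K] [Field K'] [NumberField K] [NumberField K'] [Algebra K K']
    (j : JT T K),
    cyc T K' p r hpT (inclJ T K K' j) = cyc T K p r hpT j ^ Module.finrank K K'

/-- (A3'⇒) **norms are killed**. -/
def CycNormImp : Prop :=
  ∀ (F F₁ Ω : Type) [Field F] [Field F₁] [Field Ω] [NumberField F] [NumberField F₁]
    [NumberField Ω] [Algebra F F₁] [Algebra F₁ Ω] [Algebra F Ω] [IsScalarTower F F₁ Ω]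
    [IsGalois F F₁] [IsGalois F Ω] (ζ : Ω) (hζ : IsPrimitiveRoot ζ ((p : ℕ) ^ r))
    (_hun : IsUnramifiedOutside T F F₁) (j : JT T F),
    toCT T F j ∈ normSubCT T F F₁ → ∃ τ : Ω ≃ₐ[F₁] Ω,
      hζ.autToPow F (τ.restrictScalars F) ^ ((p : ℕ) - 1) = cyc T F p r hpT j ^ ((p : ℕ) - 1)

/-- (A3') **the cyclotomic norm criterion** for a `p`-layer `F ⊂ F₁ ⊂ F(ζ) ⊂ Ω`. -/
def CycNormCrit : Prop :=
  ∀ (F F₁ Ω : Type) [Field F] [Field F₁] [Field Ω] [NumberField F] [NumberField F₁]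
    [NumberField Ω] [Algebra F F₁] [Algebra F₁ Ω] [Algebra F Ω] [IsScalarTower F F₁ Ω]
    [IsGalois F F₁] [IsGalois F Ω] (ζ : Ω) (hζ : IsPrimitiveRoot ζ ((p : ℕ) ^ r))
    (_hcyc : ∀ τ : Ω ≃ₐ[F] Ω, hζ.autToPow F τ = 1 →
      ∀ x : F₁, τ (algebraMap F₁ Ω x) = algebraMap F₁ Ω x)
    (_hdeg : ∃ m : ℕ, Module.finrank F F₁ = (p : ℕ) ^ m)
    (_hun : IsUnramifiedOutside T F F₁)
    (_hidx : (normSubCT T F F₁).index ≠ 0 ∧ (normSubCT T F F₁).index ≤ Module.finrank F F₁)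
    (j : JT T F),
    toCT T F j ∈ normSubCT T F F₁ ↔ ∃ τ : Ω ≃ₐ[F₁] Ω,
      hζ.autToPow F (τ.restrictScalars F) ^ ((p : ℕ) - 1) = cyc T F p r hpT j ^ ((p : ℕ) - 1)

/-- (A4') **a generator modulo norms** for a cyclic cyclotomic `p`-layer. -/
def CycGen : Prop :=
  ∀ (F F₁ Ω : Type) [Field F] [Field F₁] [Field Ω] [NumberField F] [NumberField F₁]
    [NumberField Ω] [Algebra F F₁] [Algebra F₁ Ω] [Algebra F Ω] [IsScalarTower F F₁ Ω]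
    [IsGalois F F₁] [IsGalois F Ω] (ζ : Ω) (hζ : IsPrimitiveRoot ζ ((p : ℕ) ^ r))
    (_hcyc : ∀ τ : Ω ≃ₐ[F] Ω, hζ.autToPow F τ = 1 →
      ∀ x : F₁, τ (algebraMap F₁ Ω x) = algebraMap F₁ Ω x)
    (_hdeg : ∃ m : ℕ, Module.finrank F F₁ = (p : ℕ) ^ m)
    (_hun : IsUnramifiedOutside T F F₁)
    (_hidx : (normSubCT T F F₁).index ≠ 0 ∧ (normSubCT T F F₁).index ≤ Module.finrank F F₁)
    (σ : F₁ ≃ₐ[F] F₁) (_hσ : ∀ τ, τ ∈ Subgroup.zpowers σ),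
    ∃ j₀ : JT T F, ∀ k : ℕ,
      (toCT T F j₀) ^ k ∈ normSubCT T F F₁ ↔ Module.finrank F F₁ ∣ k

end

end Fermat.Agent.PT.GLOB.CycRecShape23
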