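/-
Program F (S55, Poitou–Tate), chapter GLOB, leaf (C3a), part 2 (helper17).

The results of `CyclicLayerH2_17` in the language of helper23's `TowerCohCT23.gkappa`:
for a cyclic layer `K₁/K` (generator `σ`) unramified outside `S ≠ ∅`,
every class of `H²(Gal(K₁/K), CT S K₁)` is a cyclic class `gkappa S σ hσ a`, `a ∈ CT S K`;
`gkappaHom : CT S K →* Multiplicative H²` is surjective, its kernel is the group of
`a` with `incl a ∈ N_{K₁/K} CT S K₁`.
-/
import Fermat.Agent.PT.GLOB.CyclicLayerH2_17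
import Fermat.Agent.PT.GLOB.NormSubCT23

set_option autoImplicit false
set_option linter.unusedSectionVars false

namespace Fermat.Agent.PT.GLOB.CyclicLayerGK17

open NumberField IsDedekindDomain CategoryTheory groupCohomology
open Fermat.Agent.PT.GLOB.Interface23 Fermat.Agent.PT.GLOB.ClassAction23
  Fermat.Agent.PT.GLOB.Tower23 Fermat.Agent.PT.GLOB.InterfaceCF23
  Fermat.Agent.PT.GLOB.TowerCohCT23 Fermat.Agent.PT.GLOB.NormSubCT23
  Fermat.Agent.PT.GLOB.CyclicLayerH2_17
  Fermat.Agent.PT.LOC.CyclicH2_12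

noncomputable section

variable (S : Finset Nat.Primes)
variable {K K₁ : Type} [Field K] [Field K₁] [NumberField K] [NumberField K₁] [Algebra K K₁]
  [IsGalois K K₁]
variable (σ : K₁ ≃ₐ[K] K₁) (hσ : ∀ τ, τ ∈ Subgroup.zpowers σ)

/-- `gkappa` is the additive form of `kappaCT`. -/
theorem gkappa_eq_kappaCT (a : CT S K) :
    gkappa S σ hσ a = Multiplicative.toAdd (kappaCT S K K₁ σ hσ a) := rfl

/-- **(C3a)** every class of `H²(Gal(K₁/K), CT S K₁)` of a cyclic layer unramified outside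
`S ≠ ∅` is a cyclic class `gkappa S σ hσ a`. -/
theorem exists_gkappa_eq (hS : S.Nonempty) (hun : IsUnramifiedOutside S K K₁)
    (x : H2 (repCT S K K₁)) : ∃ a : CT S K, gkappa S σ hσ a = x := by
  obtain ⟨a, ha⟩ := kappaCT_surjective S K K₁ σ hσ hS hun (Multiplicative.ofAdd x)
  exact ⟨a, by rw [gkappa_eq_kappaCT, ha]; rfl⟩

/-- The cyclic class map as a homomorphism. -/
def gkappaHom : CT S K →* Multiplicative (H2 (repCT S K K₁)) where
  toFun a := Multiplicative.ofAdd (gkappa S σ hσ a)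
  map_one' := by rw [gkappa_one]; rfl
  map_mul' a b := by rw [gkappa_mul]; rfl

theorem gkappaHom_apply (a : CT S K) :
    gkappaHom S σ hσ a = Multiplicative.ofAdd (gkappa S σ hσ a) := rfl

theorem gkappaHom_surjective (hS : S.Nonempty) (hun : IsUnramifiedOutside S K K₁) :
    Function.Surjective (gkappaHom S σ hσ) := by
  intro x
  obtain ⟨a, ha⟩ := exists_gkappa_eq S σ hσ hS hun (Multiplicative.toAdd x)
  exact ⟨a, by rw [gkappaHom_apply, ha]; rfl⟩

theorem mem_ker_gkappaHom (a : CT S K) :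
    a ∈ (gkappaHom S σ hσ).ker ↔ ∃ y : CT S K₁, normCT S K K₁ y = inclCT S K K₁ a := by
  rw [MonoidHom.mem_ker, gkappaHom_apply, ← gkappa_eq_zero_iff S K K₁ σ hσ a, ← ofAdd_zero,
    Multiplicative.ofAdd.injective.eq_iff]

theorem ker_gkappaHom : (gkappaHom S σ hσ).ker = normSubCT S K K₁ := by
  ext a
  rw [mem_ker_gkappaHom, mem_normSubCT]

instance instNormalNormSubCT17 : (normSubCT S K K₁).Normal :=
  ⟨fun n hn g => by rwa [mul_comm g, mul_inv_cancel_right]⟩

/-- **(C3a)** `CT S K ⧸ normSubCT S K K₁ ≃* H²(Gal(K₁/K), CT S K₁)` for a cyclic layer `K₁/K`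
unramified outside `S ≠ ∅`. -/
def gkappaEquiv (hS : S.Nonempty) (hun : IsUnramifiedOutside S K K₁) :
    CT S K ⧸ normSubCT S K K₁ ≃* Multiplicative (H2 (repCT S K K₁)) :=
  (QuotientGroup.quotientMulEquivOfEq (ker_gkappaHom S σ hσ).symm).trans
    (QuotientGroup.quotientKerEquivOfSurjective (gkappaHom S σ hσ)
      (gkappaHom_surjective S σ hσ hS hun))

theorem gkappaEquiv_mk (hS : S.Nonempty) (hun : IsUnramifiedOutside S K K₁) (a : CT S K) :
    gkappaEquiv S σ hσ hS hun (QuotientGroup.mk a) = Multiplicative.ofAdd (gkappa S σ hσ a) :=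
  rfl

include σ hσ in
/-- `#(CT S K ⧸ normSubCT S K K₁) = #H²(Gal(K₁/K), CT S K₁)` for a cyclic layer. -/
theorem card_quot_normSubCT (hS : S.Nonempty) (hun : IsUnramifiedOutside S K K₁) :
    Nat.card (CT S K ⧸ normSubCT S K K₁) = Nat.card (H2 (repCT S K K₁)) :=
  Nat.card_congr (gkappaEquiv S σ hσ hS hun).toEquiv

include σ hσ in
theorem index_normSubCT_eq (hS : S.Nonempty) (hun : IsUnramifiedOutside S K K₁) :
    (normSubCT S K K₁).index = Nat.card (H2 (repCT S K K₁)) := by
  rw [Subgroup.index_eq_card]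
  exact card_quot_normSubCT S σ hσ hS hun

include σ hσ in
/-- If `#H² ∣ [K₁:K]` (dévissage D1), the norm index divides the degree. -/
theorem index_normSubCT_dvd (hS : S.Nonempty) (hun : IsUnramifiedOutside S K K₁)
    (hcard : Nat.card (H2 (repCT S K K₁)) ∣ Module.finrank K K₁) :
    (normSubCT S K K₁).index ∣ Module.finrank K K₁ := by
  rw [index_normSubCT_eq S σ hσ hS hun]
  exact hcard

include σ hσ in
/-- With `#H² ∣ [K₁:K]`: the norm index is nonzero and at most the degree
(the hypothesis `hidx` of cyclotomic reciprocity (A3')). -/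
theorem index_normSubCT_ne_zero_and_le (hS : S.Nonempty) (hun : IsUnramifiedOutside S K K₁)
    (hcard : Nat.card (H2 (repCT S K K₁)) ∣ Module.finrank K K₁) :
    (normSubCT S K K₁).index ≠ 0 ∧ (normSubCT S K K₁).index ≤ Module.finrank K K₁ := by
  have hpos : 0 < Module.finrank K K₁ := Module.finrank_pos
  have hdvd := index_normSubCT_dvd S σ hσ hS hun hcard
  exact ⟨fun h0 => by rw [h0, zero_dvd_iff] at hdvd; omega, Nat.le_of_dvd hpos hdvd⟩

/-- The norm group of `TowerNorm6.normCT` is `normSubCT`. -/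
theorem range_normCT_eq_normSubCT (hS : S.Nonempty) (hun : IsUnramifiedOutside S K K₁) :
    (TowerNorm6.normCT S K K₁ hun).range = normSubCT S K K₁ := by
  ext c
  rw [mem_normSubCT]
  constructor
  · rintro ⟨y, rfl⟩
    exact ⟨y, (TowerNorm6.inclCT_normCT S K K₁ hun y).symm⟩
  · rintro ⟨y, hy⟩
    refine ⟨y, TowerMaps6.inclCT_injective S K K₁ hS ?_⟩
    rw [TowerNorm6.inclCT_normCT]
    exact hy

end

end Fermat.Agent.PT.GLOB.CyclicLayerGK17
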