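/-
Program F (S55, Poitou–Tate), chapter GLOB, leaf C3 (helper23): base change of the cyclotomic
norm criterion ("(FT)").

Inside one field `Ω ∋ ζ` (`ζ` a primitive `p^r`-th root of unity): `K ⊂ K₁ ⊂ Ω` a cyclotomic
`p`-layer, `K ⊂ K' ⊂ Ω`, `N' = K'·K₁`.  Given the cyclotomic norm criteria for `K₁/K` and `N'/K'`
(leaf `CycRec`, shape (A3')), the containment (A1') over `K'` and the compatibility (A2') of `cyc`
with the tower map:
  `(incl_{K'} c)^k ∈ N_{N'/K'} CT(N')  ↔  c^(k·[K':K]) ∈ N_{K₁/K} CT(K₁)`.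
-/
import Fermat.Agent.PT.GLOB.NormSubCT23
import Fermat.Agent.PT.GLOB.CycChar22

set_option autoImplicit false
set_option linter.unusedSectionVars false

namespace Fermat.Agent.PT.GLOB.FrameNorm23

open NumberField
open Fermat.Agent.PT.GLOB.Interface23 Fermat.Agent.PT.GLOB.ClassAction23
  Fermat.Agent.PT.GLOB.Tower23 Fermat.Agent.PT.GLOB.InterfaceCF23
  Fermat.Agent.PT.GLOB.NormSubCT23 Fermat.Agent.PT.GLOB.CycChar22

noncomputable section

/-! ### The cyclotomic character of `Gal(Ω/F)` and change of the base field -/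

section Chi

variable {Ω : Type} [Field Ω] {n : ℕ} [NeZero n] {ζ : Ω} (hζ : IsPrimitiveRoot ζ n)

theorem autToPow_eq_of_apply_eq (F F' : Type) [Field F] [Field F'] [Algebra F Ω] [Algebra F' Ω]
    (τ : Ω ≃ₐ[F] Ω) (τ' : Ω ≃ₐ[F'] Ω) (h : τ ζ = τ' ζ) :
    hζ.autToPow F τ = hζ.autToPow F' τ' := by
  apply Units.ext
  apply ZMod.val_injective
  apply hζ.pow_inj (ZMod.val_lt _) (ZMod.val_lt _)
  rw [hζ.autToPow_spec F τ, hζ.autToPow_spec F' τ', h]

theorem autToPow_restrictScalars (F F' : Type) [Field F] [Field F'] [Algebra F F'] [Algebra F Ω]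
    [Algebra F' Ω] [IsScalarTower F F' Ω] (τ' : Ω ≃ₐ[F'] Ω) :
    hζ.autToPow F (τ'.restrictScalars F) = hζ.autToPow F' τ' :=
  autToPow_eq_of_apply_eq hζ F F' _ _ rfl

end Chi

/-! ### Automorphisms of `p`-power order killed by `p - 1` -/

theorem eq_one_of_pow_pred_eq_one {G : Type*} [Group G] [Finite G] {p a : ℕ} (hp : p.Prime)
    (hcard : Nat.card G = p ^ a) (g : G) (hg : g ^ (p - 1) = 1) : g = 1 := by
  have h1 : orderOf g ∣ p - 1 := orderOf_dvd_of_pow_eq_one hg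
  have h2 : orderOf g ∣ p ^ a := hcard ▸ orderOf_dvd_natCard g
  have h3 : Nat.Coprime (p - 1) (p ^ a) := by
    apply Nat.Coprime.pow_right
    rw [Nat.coprime_comm, Nat.Prime.coprime_iff_not_dvd hp]
    intro hd
    have := Nat.le_of_dvd (Nat.sub_pos_of_lt hp.one_lt) hd
    have := hp.one_lt
    omega
  have h4 : orderOf g ∣ 1 := by
    have := Nat.dvd_gcd h1 h2
    rwa [h3] at this
  exact orderOf_eq_one_iff.mp (Nat.dvd_one.mp h4)

/-! ### The base change statement -/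

section FT

variable (T : Finset Nat.Primes) (p : Nat.Primes) (hpT : p ∈ T) (r : ℕ) [NeZero ((p : ℕ) ^ r)]
variable (K K' K₁ N' Ω : Type) [Field K] [Field K'] [Field K₁] [Field N'] [Field Ω]
  [NumberField K] [NumberField K'] [NumberField K₁] [NumberField N']
  [Algebra K K'] [Algebra K K₁] [Algebra K' N'] [Algebra K₁ N']
  [Algebra K Ω] [Algebra K' Ω] [Algebra K₁ Ω] [Algebra N' Ω]
  [IsScalarTower K K' Ω] [IsScalarTower K K₁ Ω] [IsScalarTower K' N' Ω] [IsScalarTower K₁ N' Ω]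
  [IsGalois K K₁]
  {ζ : Ω} (hζ : IsPrimitiveRoot ζ ((p : ℕ) ^ r))

include hζ in
theorem pow_mem_normSubCT_iff
    (h₁ : ∀ j : JT T K, toCT T K j ∈ normSubCT T K K₁ ↔ ∃ τ : Ω ≃ₐ[K₁] Ω,
      hζ.autToPow K (τ.restrictScalars K) ^ ((p : ℕ) - 1) = cyc T K p r hpT j ^ ((p : ℕ) - 1))
    (h₂ : ∀ j' : JT T K', toCT T K' j' ∈ normSubCT T K' N' ↔ ∃ τ : Ω ≃ₐ[N'] Ω,
      hζ.autToPow K' (τ.restrictScalars K') ^ ((p : ℕ) - 1) =
        cyc T K' p r hpT j' ^ ((p : ℕ) - 1))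
    (hcont : ∀ j' : JT T K', ∃ τ : Ω ≃ₐ[K'] Ω,
      hζ.autToPow K' τ ^ ((p : ℕ) - 1) = cyc T K' p r hpT j' ^ ((p : ℕ) - 1))
    (hincl : ∀ j : JT T K,
      cyc T K' p r hpT (inclJ T K K' j) = cyc T K p r hpT j ^ Module.finrank K K')
    (hcyc₁ : ∀ τ : Ω ≃ₐ[K] Ω, hζ.autToPow K τ = 1 →
      ∀ x : K₁, τ (algebraMap K₁ Ω x) = algebraMap K₁ Ω x)
    (hpg : ∃ a : ℕ, Module.finrank K K₁ = (p : ℕ) ^ a)
    (hcomp : ∀ τ : Ω ≃ₐ[K'] Ω, (∀ x : K₁, τ (algebraMap K₁ Ω x) = algebraMap K₁ Ω x) →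
      ∀ y : N', τ (algebraMap N' Ω y) = algebraMap N' Ω y)
    (j : JT T K) (k : ℕ) :
    (inclCT T K K' (toCT T K j)) ^ k ∈ normSubCT T K' N' ↔
      (toCT T K j) ^ (k * Module.finrank K K') ∈ normSubCT T K K₁ := by
  have e1 : (inclCT T K K' (toCT T K j)) ^ k = toCT T K' (inclJ T K K' (j ^ k)) := by
    rw [inclCT_toCT, map_pow, map_pow]
  have e2 : (toCT T K j) ^ (k * Module.finrank K K') =
      toCT T K (j ^ (k * Module.finrank K K')) := by
    rw [map_pow]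
  have v1 : cyc T K' p r hpT (inclJ T K K' (j ^ k)) =
      cyc T K p r hpT j ^ (k * Module.finrank K K') := by
    rw [hincl, map_pow, ← pow_mul]
  have v2 : cyc T K p r hpT (j ^ (k * Module.finrank K K')) =
      cyc T K p r hpT j ^ (k * Module.finrank K K') := map_pow _ _ _
  rw [e1, e2, h₁, h₂, v1, v2]
  constructor
  · rintro ⟨τ', hτ'⟩
    refine ⟨τ'.restrictScalars K₁, ?_⟩
    rw [← hτ']
    exact congrArg (· ^ ((p : ℕ) - 1)) (autToPow_eq_of_apply_eq hζ K K' _ _ rfl)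
  · rintro ⟨τ, hτ⟩
    obtain ⟨τ'', hτ''⟩ := hcont (inclJ T K K' (j ^ k))
    rw [v1] at hτ''
    -- the difference of the two automorphisms, over `K`
    set θ : Ω ≃ₐ[K] Ω := (τ''.restrictScalars K) * (τ.restrictScalars K)⁻¹ with hθ
    have hχθ : hζ.autToPow K θ ^ ((p : ℕ) - 1) = 1 := by
      rw [hθ, map_mul, map_inv, mul_pow, inv_pow, hτ, autToPow_restrictScalars hζ K K' τ'', hτ'']
      exact mul_inv_cancel _
    have hθp : ∀ x : K₁, (θ ^ ((p : ℕ) - 1)) (algebraMap K₁ Ω x) = algebraMap K₁ Ω x := by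
      apply hcyc₁
      rw [map_pow, hχθ]
    -- restrict to `K₁`
    have hg : (AlgEquiv.restrictNormalHom (F := K) (K₁ := Ω) K₁ θ) ^ ((p : ℕ) - 1) = 1 := by
      rw [← map_pow]
      ext x
      apply (algebraMap K₁ Ω).injective
      change algebraMap K₁ Ω ((θ ^ ((p : ℕ) - 1)).restrictNormal K₁ x) = algebraMap K₁ Ω x
      rw [AlgEquiv.restrictNormal_commutes, hθp]
    obtain ⟨a, ha⟩ := hpg
    have hcard : Nat.card (K₁ ≃ₐ[K] K₁) = (p : ℕ) ^ a := by
      rw [IsGalois.card_aut_eq_finrank, ha]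
    have hg1 := eq_one_of_pow_pred_eq_one p.2 hcard _ hg
    have hθ1 : ∀ x : K₁, θ (algebraMap K₁ Ω x) = algebraMap K₁ Ω x := by
      intro x
      have := AlgEquiv.restrictNormal_commutes θ K₁ x
      change algebraMap K₁ Ω ((AlgEquiv.restrictNormalHom (F := K) (K₁ := Ω) K₁ θ) x) = _ at this
      rw [hg1] at this
      exact this.symm
    have hτ''1 : ∀ x : K₁, τ'' (algebraMap K₁ Ω x) = algebraMap K₁ Ω x := by
      intro x
      have h3 : (τ''.restrictScalars K) = θ * (τ.restrictScalars K) := by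
        rw [hθ, inv_mul_cancel_right]
      have h4 : τ'' (algebraMap K₁ Ω x) = (θ * (τ.restrictScalars K)) (algebraMap K₁ Ω x) := by
        rw [← h3]; rfl
      rw [h4, AlgEquiv.mul_apply]
      have h5 : (τ.restrictScalars K) (algebraMap K₁ Ω x) = algebraMap K₁ Ω x := τ.commutes x
      rw [h5, hθ1]
    have hN' := hcomp τ'' hτ''1
    let τ' : Ω ≃ₐ[N'] Ω := { τ''.toRingEquiv with commutes' := hN' }
    refine ⟨τ', ?_⟩
    rw [← hτ'']
    exact congrArg (· ^ ((p : ℕ) - 1)) (autToPow_eq_of_apply_eq hζ K' K' _ _ rfl)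

end FT

end

end Fermat.Agent.PT.GLOB.FrameNorm23
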