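/-
Program F (S55, Poitou–Tate), chapter GLOB, leaf C3 (helper23): the abstract assembly.

One frame per layer.  For a Galois layer `L/K` and a cyclic layer `K₁/K` with generator `σ` and a
class `a₀ ∈ CT S K`, put `γ = gkappa σ a₀ ∈ H²(K₁/K)` and let `N ⊇ L, K₁`.
* `exists_class_of_frame`: if `incl_L a₀` is a norm from `N` (and inflation–restriction is exact for
  `K ⊂ L ⊂ N`), there is `u ∈ H²(L/K)` with `Inf_{L→N} u = Inf_{K₁→N} γ`;
* `addOrderOf_res_of_frame`: for `K ⊂ K' ⊂ L` and `N' = K'·K₁ ⊂ N`, if `(incl_{K'} a₀)^k` is a norm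
  from `N'` exactly when `h ∣ k` (and the inflations `L → N`, `N' → N` over `K'` are injective), then
  `Res_{K'} u` has order `h`.
-/
import Fermat.Agent.PT.GLOB.NormSubCT23
import Fermat.Agent.PT.GLOB.FundClassBridge6

set_option autoImplicit false
set_option linter.unusedSectionVars false

open CategoryTheory groupCohomology

namespace Fermat.Agent.PT.GLOB.FundFrame23

open NumberField
open Fermat.Agent.PT.GLOB.Interface23 Fermat.Agent.PT.GLOB.ClassAction23
  Fermat.Agent.PT.GLOB.Tower23 Fermat.Agent.PT.GLOB.InterfaceCF23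
  Fermat.Agent.PT.GLOB.TowerCohCT23 Fermat.Agent.PT.GLOB.NormSubCT23

noncomputable section

variable (S : Finset Nat.Primes)

section Exist

variable (K L K₁ N : Type) [Field K] [Field L] [Field K₁] [Field N] [NumberField K]
  [NumberField L] [NumberField K₁] [NumberField N]
  [Algebra K L] [Algebra K K₁] [Algebra K N] [Algebra L N] [Algebra K₁ N]
  [IsScalarTower K L N] [IsScalarTower K K₁ N] [Normal K L] [Normal K K₁]

/-- **Existence of a class with prescribed inflation.** -/
theorem exists_class_of_frame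
    (σ : K₁ ≃ₐ[K] K₁) (hσ : ∀ τ, τ ∈ Subgroup.zpowers σ)
    (σ' : N ≃ₐ[L] N) (hσ' : ∀ τ, τ ∈ Subgroup.zpowers σ') {d : ℕ}
    (hres : AlgEquiv.restrictNormalHom (F := K) (K₁ := N) K₁ (galIncl K L N σ') = σ ^ d)
    (hd : d * orderOf σ' = orderOf σ) (a₀ : CT S K)
    (hnorm : inclCT S K L a₀ ∈ normSubCT S L N)
    (hex : ∀ x : H2 (repCT S K N), resH2CT S K L N x = 0 →
      ∃ y : H2 (repCT S K L), infH2CT S K L N y = x) :
    ∃ u : H2 (repCT S K L), infH2CT S K L N u = infH2CT S K K₁ N (gkappa S σ hσ a₀) := by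
  apply hex
  rw [resH2CT_infH2CT_gkappa S K L K₁ N σ hσ σ' hσ' hres hd a₀, gkappa_eq_zero_iff_mem]
  exact hnorm

end Exist

section Order

variable (K K' L K₁ N' N : Type) [Field K] [Field K'] [Field L] [Field K₁] [Field N'] [Field N]
  [NumberField K] [NumberField K'] [NumberField L] [NumberField K₁] [NumberField N']
  [NumberField N]
  [Algebra K K'] [Algebra K L] [Algebra K K₁] [Algebra K N'] [Algebra K N]
  [Algebra K' L] [Algebra K' N'] [Algebra K' N] [Algebra L N] [Algebra K₁ N'] [Algebra K₁ N]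
  [Algebra N' N]
  [IsScalarTower K K' L] [IsScalarTower K K' N] [IsScalarTower K L N] [IsScalarTower K' L N]
  [IsScalarTower K K' N'] [IsScalarTower K K₁ N'] [IsScalarTower K K₁ N]
  [IsScalarTower K' N' N] [IsScalarTower K₁ N' N] [IsScalarTower K N' N]
  [Normal K L] [Normal K' L] [Normal K K₁] [Normal K' N']

/-- **Order of the restriction** of the class attached to a frame. -/
theorem addOrderOf_res_of_frame
    (σ : K₁ ≃ₐ[K] K₁) (hσ : ∀ τ, τ ∈ Subgroup.zpowers σ)
    (σ' : N' ≃ₐ[K'] N') (hσ' : ∀ τ, τ ∈ Subgroup.zpowers σ') {d : ℕ}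
    (hres : AlgEquiv.restrictNormalHom (F := K) (K₁ := N') K₁ (galIncl K K' N' σ') = σ ^ d)
    (hd : d * orderOf σ' = orderOf σ) (a₀ : CT S K)
    (u : H2 (repCT S K L))
    (hu : infH2CT S K L N u = infH2CT S K K₁ N (gkappa S σ hσ a₀))
    (hinj1 : Function.Injective (infH2CT S K' L N))
    (hinj2 : Function.Injective (infH2CT S K' N' N))
    (h : ℕ) (hord : ∀ k : ℕ, (inclCT S K K' a₀) ^ k ∈ normSubCT S K' N' ↔ h ∣ k) :
    addOrderOf (resH2CT S K K' L u) = h := by
  have e1 : infH2CT S K' L N (resH2CT S K K' L u) =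
      infH2CT S K' N' N (gkappa S σ' hσ' (inclCT S K K' a₀)) := by
    rw [← resH2CT_infH2CT S K K' L N u, hu, resH2CT_infH2CT_via S K K' K₁ N' N,
      resH2CT_infH2CT_gkappa S K K' K₁ N' σ hσ σ' hσ' hres hd a₀]
  have i1 : Function.Injective (infH2CT S K' L N).hom.toAddMonoidHom := hinj1
  have i2 : Function.Injective (infH2CT S K' N' N).hom.toAddMonoidHom := hinj2
  have o1 := addOrderOf_injective _ i1 (resH2CT S K K' L u)
  have o2 := addOrderOf_injective _ i2 (gkappa S σ' hσ' (inclCT S K K' a₀))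
  have e1' : (infH2CT S K' L N).hom.toAddMonoidHom (resH2CT S K K' L u) =
      (infH2CT S K' N' N).hom.toAddMonoidHom (gkappa S σ' hσ' (inclCT S K K' a₀)) := e1
  rw [← o1, e1', o2]
  exact addOrderOf_gkappa S K' N' σ' hσ' _ h hord

end Order

/-! ### From the orders of the restrictions to `IsFundClass` -/

section Fund

open Fermat.Agent.PT.GLOB.FundClassBridge6 Fermat.Agent.PT.FG.Interface8

variable (p : ℕ) (K L : Type) [Field K] [Field L] [NumberField K] [NumberField L] [Algebra K L]
  [IsGalois K L]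

/-- A class `u ∈ H²(Gal(L/K), CT S L)` whose restriction to every `p`-subgroup `H` has order `#H`
is a fundamental class at `p`, given `H¹ = 0` and `#H² ∣ #H` on the `p`-layers `L / L^H`. -/
theorem isFundClass_of_orders (u : H2 (repCT S K L))
    (h1 : ∀ H : Subgroup (L ≃ₐ[K] L), IsPGroup p H →
      Subsingleton (H1 (repCT S (FH K L H) L)))
    (hdvd : ∀ H : Subgroup (L ≃ₐ[K] L), IsPGroup p H →
      Finite (H2 (repCT S (FH K L H) L)) ∧ Nat.card (H2 (repCT S (FH K L H) L)) ∣ Nat.card H)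
    (hord : ∀ H : Subgroup (L ≃ₐ[K] L), IsPGroup p H →
      addOrderOf (resH2CT S K (FH K L H) L u) = Nat.card H) :
    IsFundClass p (repCT S K L) u := by
  have hcard : ∀ H : Subgroup (L ≃ₐ[K] L), IsPGroup p H →
      Nat.card (H2 (repCT S (FH K L H) L)) = Nat.card H := by
    intro H hH
    obtain ⟨hfin, hd⟩ := hdvd H hH
    apply Nat.dvd_antisymm hd
    rw [← hord H hH]
    exact addOrderOf_dvd_natCard _
  refine ⟨fun H hH => ?_, fun H hH => ?_, fun H hH => ?_⟩
  · have : Subsingleton (groupCohomology (repCT S (FH K L H) L) 1) := h1 H hH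
    exact (down_injective S K L H 1).subsingleton
  · rw [← hcard H hH]
    exact Nat.card_congr (downEquiv S K L H 2)
  · rw [← hord H hH, resH2CT_eq]
    rw [ModuleCat.comp_apply]
    exact (addOrderOf_injective (down S K L H 2).hom.toAddMonoidHom
      (down_injective S K L H 2) _).symm

end Fund

end

end Fermat.Agent.PT.GLOB.FundFrame23
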