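/-
Program F (S55, Poitou–Tate), chapter GLOB, leaf C3 (helper23): the two abstract frame theorems,
with all cohomological and cyclotomic inputs plugged in.

Everything lives inside one field `Ω ∋ ζ`; `K ⊂ K₁ ⊂ Ω` is a cyclic cyclotomic `p`-layer with
generator `σ`, and `j₀` is an idele whose class has exact order `[K₁:K]` modulo norms (A4').
* `exists_class` (layer `L/K`, `N = L·K₁`): if `[K₁:K] ∣ [L:K]` there is `u ∈ H²(L/K)` with
  `Inf_{L→N} u = Inf_{K₁→N} gkappa σ [j₀]`;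
* `addOrderOf_res_eq` (`K ⊂ K' ⊂ L`, `N' = K'·K₁ ⊂ N`): `Res_{K'} u` has order `h` where
  `[K₁:K] ∣ k·[K':K] ↔ h ∣ k`.
The remaining hypotheses are pure field/Galois-theoretic facts (the "kit").
-/
import Fermat.Agent.PT.GLOB.FundFrame23
import Fermat.Agent.PT.GLOB.FrameNorm23
import Fermat.Agent.PT.GLOB.CycRecShape23
import Fermat.Agent.PT.GLOB.SameImageCT19
import Fermat.Agent.PT.GLOB.CyclicLayerGK17
import Fermat.Agent.PT.GLOB.InequalitiesFinal24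

set_option autoImplicit false
set_option linter.unusedSectionVars false

open CategoryTheory groupCohomology

namespace Fermat.Agent.PT.GLOB.LayerFrame23

open NumberField
open Fermat.Agent.PT.GLOB.Interface23 Fermat.Agent.PT.GLOB.ClassAction23
  Fermat.Agent.PT.GLOB.Tower23 Fermat.Agent.PT.GLOB.InterfaceCF23
  Fermat.Agent.PT.GLOB.TowerCohCT23 Fermat.Agent.PT.GLOB.NormSubCT23
  Fermat.Agent.PT.GLOB.CycChar22 Fermat.Agent.PT.GLOB.CycRecShape23
  Fermat.Agent.PT.GLOB.FrameNorm23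

noncomputable section

variable (S : Finset Nat.Primes) (p : Nat.Primes) (hpS : p ∈ S) (r : ℕ) [NeZero ((p : ℕ) ^ r)]

/-! ### The index hypothesis of (A3') for a cyclic `p`-layer -/

section Idx

variable (F F₁ : Type) [Field F] [Field F₁] [NumberField F] [NumberField F₁] [Algebra F F₁]
  [IsGalois F F₁]

include hpS in
theorem hidx_of_layer (hp2 : Odd (p : ℕ)) (hun : IsUnramifiedOutside S F F₁)
    (σ : F₁ ≃ₐ[F] F₁) (hσ : ∀ τ, τ ∈ Subgroup.zpowers σ)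
    (hpg : ∃ a : ℕ, Module.finrank F F₁ = (p : ℕ) ^ a) :
    (normSubCT S F F₁).index ≠ 0 ∧ (normSubCT S F F₁).index ≤ Module.finrank F F₁ := by
  obtain ⟨a, ha⟩ := hpg
  have hP : IsPGroup p (F₁ ≃ₐ[F] F₁) := by
    apply IsPGroup.of_card (n := a)
    rw [IsGalois.card_aut_eq_finrank, ha]
  have hD := InequalitiesFinal24.devissage_pgroup (p : ℕ) S p.2 hp2 ⟨p, hpS, rfl⟩ F F₁ hun hP
  exact CyclicLayerGK17.index_normSubCT_ne_zero_and_le S σ hσ ⟨p, hpS⟩ hun hD.2.2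

end Idx

/-! ### Order of the restriction -/

section Order

variable (K K' L K₁ N' N Ω : Type) [Field K] [Field K'] [Field L] [Field K₁] [Field N'] [Field N]
  [Field Ω]
  [NumberField K] [NumberField K'] [NumberField L] [NumberField K₁] [NumberField N']
  [NumberField N] [NumberField Ω]
  [Algebra K K'] [Algebra K L] [Algebra K K₁] [Algebra K N'] [Algebra K N]
  [Algebra K' L] [Algebra K' N'] [Algebra K' N] [Algebra L N] [Algebra K₁ N'] [Algebra K₁ N]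
  [Algebra N' N]
  [IsScalarTower K K' L] [IsScalarTower K K' N] [IsScalarTower K L N] [IsScalarTower K' L N]
  [IsScalarTower K K' N'] [IsScalarTower K K₁ N'] [IsScalarTower K K₁ N]
  [IsScalarTower K' N' N] [IsScalarTower K₁ N' N] [IsScalarTower K N' N]
  [Algebra K Ω] [Algebra K' Ω] [Algebra K₁ Ω] [Algebra N' Ω]
  [IsScalarTower K K' Ω] [IsScalarTower K K₁ Ω] [IsScalarTower K' N' Ω] [IsScalarTower K₁ N' Ω]
  [IsGalois K L] [IsGalois K' L] [IsGalois K K₁] [IsGalois K' N'] [IsGalois K' N]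
  [IsGalois L N] [IsGalois N' N] [IsGalois K Ω] [IsGalois K' Ω]

include hpS in
theorem addOrderOf_res_eq (hp2 : Odd (p : ℕ))
    {ζ : Ω} (hζ : IsPrimitiveRoot ζ ((p : ℕ) ^ r))
    (hCrit : CycNormCrit S p hpS r) (hCont : CycContain S p hpS r) (hIncl : CycIncl S p hpS r)
    (hunKK₁ : IsUnramifiedOutside S K K₁) (hunK'N : IsUnramifiedOutside S K' N)
    (σ : K₁ ≃ₐ[K] K₁) (hσ : ∀ τ, τ ∈ Subgroup.zpowers σ)
    (σ' : N' ≃ₐ[K'] N') (hσ' : ∀ τ, τ ∈ Subgroup.zpowers σ') {d : ℕ}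
    (hres : AlgEquiv.restrictNormalHom (F := K) (K₁ := N') K₁ (galIncl K K' N' σ') = σ ^ d)
    (hd : d * orderOf σ' = orderOf σ)
    (hpLN : IsPGroup p (N ≃ₐ[L] N)) (hpN'N : IsPGroup p (N ≃ₐ[N'] N))
    (hcyc₁ : ∀ τ : Ω ≃ₐ[K] Ω, hζ.autToPow K τ = 1 →
      ∀ x : K₁, τ (algebraMap K₁ Ω x) = algebraMap K₁ Ω x)
    (hpg : ∃ a : ℕ, Module.finrank K K₁ = (p : ℕ) ^ a)
    (hpg' : ∃ a : ℕ, Module.finrank K' N' = (p : ℕ) ^ a)
    (hcomp : ∀ τ : Ω ≃ₐ[K'] Ω, (∀ x : K₁, τ (algebraMap K₁ Ω x) = algebraMap K₁ Ω x) →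
      ∀ y : N', τ (algebraMap N' Ω y) = algebraMap N' Ω y)
    (j₀ : JT S K)
    (hj₀ : ∀ k : ℕ, (toCT S K j₀) ^ k ∈ normSubCT S K K₁ ↔ Module.finrank K K₁ ∣ k)
    (u : H2 (repCT S K L))
    (hu : infH2CT S K L N u = infH2CT S K K₁ N (gkappa S σ hσ (toCT S K j₀)))
    (h : ℕ) (harith : ∀ k : ℕ, Module.finrank K K₁ ∣ k * Module.finrank K K' ↔ h ∣ k) :
    addOrderOf (resH2CT S K K' L u) = h := by
  have hS : S.Nonempty := ⟨p, hpS⟩
  have hpS' : ∃ q ∈ S, ((q : Nat.Primes) : ℕ) = (p : ℕ) := ⟨p, hpS, rfl⟩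
  have hunLN : IsUnramifiedOutside S L N := Devissage19.isUnramifiedOutside_top S K' L N hunK'N
  have hunN'N : IsUnramifiedOutside S N' N :=
    Devissage19.isUnramifiedOutside_top S K' N' N hunK'N
  have hunK'N' : IsUnramifiedOutside S K' N' :=
    Devissage19.isUnramifiedOutside_bot S K' N' N hunK'N
  have h1LN : Subsingleton (H1 (repCT S L N)) :=
    (InequalitiesFinal24.devissage_pgroup (p : ℕ) S p.2 hp2 hpS' L N hunLN hpLN).1
  have h1N'N : Subsingleton (H1 (repCT S N' N)) :=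
    (InequalitiesFinal24.devissage_pgroup (p : ℕ) S p.2 hp2 hpS' N' N hunN'N hpN'N).1
  have hinj1 : Function.Injective (infH2CT S K' L N) :=
    (SameImageCT19.infResCT hS hunK'N h1LN).1
  have hinj2 : Function.Injective (infH2CT S K' N' N) :=
    (SameImageCT19.infResCT hS hunK'N h1N'N).1
  have hcyc₂ : ∀ τ : Ω ≃ₐ[K'] Ω, hζ.autToPow K' τ = 1 →
      ∀ y : N', τ (algebraMap N' Ω y) = algebraMap N' Ω y := by
    intro τ hτ
    apply hcomp τ
    intro x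
    have := hcyc₁ (τ.restrictScalars K) (by rw [autToPow_restrictScalars hζ K K' τ, hτ]) x
    exact this
  have h₁ := hCrit K K₁ Ω ζ hζ hcyc₁ hpg hunKK₁
    (hidx_of_layer S p hpS K K₁ hp2 hunKK₁ σ hσ hpg)
  have h₂ := hCrit K' N' Ω ζ hζ hcyc₂ hpg' hunK'N'
    (hidx_of_layer S p hpS K' N' hp2 hunK'N' σ' hσ' hpg')
  have hord : ∀ k : ℕ, (inclCT S K K' (toCT S K j₀)) ^ k ∈ normSubCT S K' N' ↔ h ∣ k := by
    intro k
    rw [pow_mem_normSubCT_iff S p hpS r K K' K₁ N' Ω hζ h₁ h₂ (hCont K' Ω ζ hζ)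
      (hIncl K K') hcyc₁ hpg hcomp j₀ k, hj₀, harith]
  exact FundFrame23.addOrderOf_res_of_frame S K K' L K₁ N' N σ hσ σ' hσ' hres hd (toCT S K j₀) u hu
    hinj1 hinj2 h hord

end Order

/-! ### Existence of the class -/

section Exist

variable (K L K₁ N Ω : Type) [Field K] [Field L] [Field K₁] [Field N] [Field Ω]
  [NumberField K] [NumberField L] [NumberField K₁] [NumberField N] [NumberField Ω]
  [Algebra K L] [Algebra K K₁] [Algebra K N] [Algebra L N] [Algebra K₁ N]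
  [IsScalarTower K L N] [IsScalarTower K K₁ N]
  [Algebra K Ω] [Algebra L Ω] [Algebra K₁ Ω] [Algebra N Ω]
  [IsScalarTower K L Ω] [IsScalarTower K K₁ Ω] [IsScalarTower L N Ω] [IsScalarTower K₁ N Ω]
  [IsGalois K L] [IsGalois K K₁] [IsGalois K N] [IsGalois L N] [IsGalois K Ω] [IsGalois L Ω]

include hpS in
theorem exists_class (hp2 : Odd (p : ℕ))
    {ζ : Ω} (hζ : IsPrimitiveRoot ζ ((p : ℕ) ^ r))
    (hCrit : CycNormCrit S p hpS r) (hCont : CycContain S p hpS r) (hIncl : CycIncl S p hpS r)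
    (hunKN : IsUnramifiedOutside S K N)
    (σ : K₁ ≃ₐ[K] K₁) (hσ : ∀ τ, τ ∈ Subgroup.zpowers σ)
    (σ' : N ≃ₐ[L] N) (hσ' : ∀ τ, τ ∈ Subgroup.zpowers σ') {d : ℕ}
    (hres : AlgEquiv.restrictNormalHom (F := K) (K₁ := N) K₁ (galIncl K L N σ') = σ ^ d)
    (hd : d * orderOf σ' = orderOf σ)
    (hcyc₁ : ∀ τ : Ω ≃ₐ[K] Ω, hζ.autToPow K τ = 1 →
      ∀ x : K₁, τ (algebraMap K₁ Ω x) = algebraMap K₁ Ω x)
    (hpg : ∃ a : ℕ, Module.finrank K K₁ = (p : ℕ) ^ a)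
    (hpg' : ∃ a : ℕ, Module.finrank L N = (p : ℕ) ^ a)
    (hcomp : ∀ τ : Ω ≃ₐ[L] Ω, (∀ x : K₁, τ (algebraMap K₁ Ω x) = algebraMap K₁ Ω x) →
      ∀ y : N, τ (algebraMap N Ω y) = algebraMap N Ω y)
    (j₀ : JT S K)
    (hj₀ : ∀ k : ℕ, (toCT S K j₀) ^ k ∈ normSubCT S K K₁ ↔ Module.finrank K K₁ ∣ k)
    (hdiv : Module.finrank K K₁ ∣ Module.finrank K L) :
    ∃ u : H2 (repCT S K L),
      infH2CT S K L N u = infH2CT S K K₁ N (gkappa S σ hσ (toCT S K j₀)) := by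
  have hS : S.Nonempty := ⟨p, hpS⟩
  have hpS' : ∃ q ∈ S, ((q : Nat.Primes) : ℕ) = (p : ℕ) := ⟨p, hpS, rfl⟩
  have hunLN : IsUnramifiedOutside S L N := Devissage19.isUnramifiedOutside_top S K L N hunKN
  have hunKK₁ : IsUnramifiedOutside S K K₁ := Devissage19.isUnramifiedOutside_bot S K K₁ N hunKN
  obtain ⟨a', ha'⟩ := hpg'
  have hpLN : IsPGroup p (N ≃ₐ[L] N) := by
    apply IsPGroup.of_card (n := a')
    rw [IsGalois.card_aut_eq_finrank, ha']
  have h1LN : Subsingleton (H1 (repCT S L N)) :=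
    (InequalitiesFinal24.devissage_pgroup (p : ℕ) S p.2 hp2 hpS' L N hunLN hpLN).1
  have hex := (SameImageCT19.infResCT hS hunKN h1LN).2.1
  have hcyc₂ : ∀ τ : Ω ≃ₐ[L] Ω, hζ.autToPow L τ = 1 →
      ∀ y : N, τ (algebraMap N Ω y) = algebraMap N Ω y := by
    intro τ hτ
    apply hcomp τ
    intro x
    have := hcyc₁ (τ.restrictScalars K) (by rw [autToPow_restrictScalars hζ K L τ, hτ]) x
    exact this
  have h₁ := hCrit K K₁ Ω ζ hζ hcyc₁ hpg hunKK₁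
    (hidx_of_layer S p hpS K K₁ hp2 hunKK₁ σ hσ hpg)
  have h₂ := hCrit L N Ω ζ hζ hcyc₂ ⟨a', ha'⟩ hunLN
    (hidx_of_layer S p hpS L N hp2 hunLN σ' hσ' ⟨a', ha'⟩)
  have hnorm : inclCT S K L (toCT S K j₀) ∈ normSubCT S L N := by
    have := (pow_mem_normSubCT_iff S p hpS r K L K₁ N Ω hζ h₁ h₂ (hCont L Ω ζ hζ)
      (hIncl K L) hcyc₁ hpg hcomp j₀ 1).mpr (by rw [hj₀, one_mul]; exact hdiv)
    rwa [pow_one] at this
  exact FundFrame23.exists_class_of_frame S K L K₁ N σ hσ σ' hσ' hres hd (toCT S K j₀) hnorm hex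

end Exist

end

end Fermat.Agent.PT.GLOB.LayerFrame23
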