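/-
Program F (S55, Poitou–Tate), chapter GLOB, leaf (C3a) (helper17).

`H²` of a cyclic layer.  For a cyclic Galois extension `L/K` of number fields with generator `g`,
unramified outside `T ≠ ∅`, the cyclic-algebra classes of helper12's `CyclicH2_12.kappa` give a
surjective homomorphism

  `kappaCT : C_T(K) →* Multiplicative (H²(Gal(L/K), C_T(L)))`,  `c ↦ κ_g(incl c)`,

whose kernel is exactly the norm group `N_{L/K} C_T(L)` (`TowerNorm6.normCT`).  Hence
`C_T(K) / N C_T(L) ≃* H²(Gal(L/K), C_T(L))`.
-/
import Fermat.Agent.PT.GLOB.TowerNorm6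
import Fermat.Agent.PT.LOC.CyclicNormIndex26

set_option autoImplicit false
set_option linter.unusedSectionVars false

namespace Fermat.Agent.PT.GLOB.CyclicLayerH2_17

open NumberField IsDedekindDomain CategoryTheory groupCohomology
open scoped TensorProduct nonZeroDivisors Pointwise
open Fermat.Agent.PT.GLOB.Interface23 Fermat.Agent.PT.GLOB.ClassAction23
  Fermat.Agent.PT.GLOB.Tower23 Fermat.Agent.PT.GLOB.FixedClass6
  Fermat.Agent.PT.LOC.CyclicH2_12

noncomputable section

section Abstract

/-! ### Abstract form: cyclic classes of a multiplicative module -/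

variable {G : Type} [Group G] [Finite G] (g : G) (hg : ∀ x : G, x ∈ Subgroup.zpowers g)
  (M : Type) [CommGroup M] [MulDistribMulAction G M]

/-- The subgroup of `G`-fixed elements of `M`. -/
def fixedSub : Subgroup M where
  carrier := {m | ∀ σ : G, σ • m = m}
  one_mem' := fun σ => smul_one σ
  mul_mem' := fun ha hb σ => by rw [smul_mul', ha σ, hb σ]
  inv_mem' := fun ha σ => by rw [smul_inv', ha σ]

theorem mem_fixedSub {m : M} : m ∈ fixedSub (G := G) M ↔ ∀ σ : G, σ • m = m := Iff.rfl

theorem rho_of_mem_fixedSub {m : M} (hm : m ∈ fixedSub (G := G) M) :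
    (Rep.ofMulDistribMulAction G M).ρ g (Additive.ofMul m) = Additive.ofMul m := by
  rw [Rep.ofMulDistribMulAction_ρ_apply_apply]
  exact congrArg Additive.ofMul (hm g)

/-- The cyclic class of a fixed element. -/
def kappaFix : fixedSub (G := G) M →* Multiplicative (H2 (Rep.ofMulDistribMulAction G M)) where
  toFun m := Multiplicative.ofAdd
    (kappa g hg (Rep.ofMulDistribMulAction G M) (rho_of_mem_fixedSub g M m.2))
  map_one' := by
    rw [← ofAdd_zero]
    congr 1
    have h0 : (Rep.ofMulDistribMulAction G M).ρ g (0 : Rep.ofMulDistribMulAction G M) = 0 :=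
      map_zero _
    have := kappa_add g hg (Rep.ofMulDistribMulAction G M) h0 h0 (by rw [add_zero]; exact h0)
    have h1 : kappa g hg (Rep.ofMulDistribMulAction G M) h0 = 0 := by
      have h2 : kappa g hg (Rep.ofMulDistribMulAction G M)
          (a := (0 : Rep.ofMulDistribMulAction G M) + 0) (by rw [add_zero]; exact h0) =
          kappa g hg (Rep.ofMulDistribMulAction G M) h0 := by
        congr 1
        exact add_zero _
      rw [h2] at this
      exact left_eq_add.mp this
    exact h1
  map_mul' a b := by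
    rw [← ofAdd_add]
    congr 1
    exact kappa_add g hg (Rep.ofMulDistribMulAction G M) (rho_of_mem_fixedSub g M a.2)
      (rho_of_mem_fixedSub g M b.2) (rho_of_mem_fixedSub g M (a * b).2)

theorem kappaFix_apply (m : fixedSub (G := G) M) :
    kappaFix g hg M m = Multiplicative.ofAdd
      (kappa g hg (Rep.ofMulDistribMulAction G M) (rho_of_mem_fixedSub g M m.2)) := rfl

include hg in
theorem mem_fixedSub_of_rho {a : Rep.ofMulDistribMulAction G M}
    (ha : (Rep.ofMulDistribMulAction G M).ρ g a = a) :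
    Additive.toMul a ∈ fixedSub (G := G) M := by
  intro σ
  have := rho_eq_of_fixed g hg (Rep.ofMulDistribMulAction G M) ha σ
  rw [Rep.ofMulDistribMulAction_ρ_apply_apply] at this
  exact congrArg Additive.toMul this

theorem kappaFix_surjective : Function.Surjective (kappaFix g hg M) := by
  intro x
  obtain ⟨a, ha, hx⟩ := Fermat.Agent.PT.LOC.CyclicNormIndex26.exists_kappa_eq g hg
    (Rep.ofMulDistribMulAction G M) (Multiplicative.toAdd x)
  refine ⟨⟨Additive.toMul a, mem_fixedSub_of_rho g hg M ha⟩, ?_⟩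
  rw [kappaFix_apply]
  exact congrArg Multiplicative.ofAdd hx

/-- The norm `∏_{k < n} g^k • m`. -/
theorem nrm_ofMul (m : M) :
    nrm g (Rep.ofMulDistribMulAction G M) (Additive.ofMul m) =
      Additive.ofMul (∏ k ∈ Finset.range (orderOf g), (g ^ k) • m) := by
  unfold nrm
  rw [ofMul_prod]
  rfl

include hg in
theorem prod_range_eq_prod_univ [Fintype G] (m : M) :
    ∏ k ∈ Finset.range (orderOf g), (g ^ k) • m = ∏ σ : G, σ • m := by
  classical
  have hinj : Set.InjOn (fun k : ℕ => g ^ k) (Finset.range (orderOf g) : Set ℕ) := by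
    intro i hi j hj hij
    exact pow_injOn_Iio_orderOf (by simpa using hi) (by simpa using hj) hij
  have himg : (Finset.range (orderOf g)).image (fun k : ℕ => g ^ k) = Finset.univ := by
    apply Finset.eq_univ_of_forall
    intro σ
    obtain ⟨i, hi⟩ := exists_pow_eq g hg σ
    refine Finset.mem_image.mpr ⟨i % orderOf g, Finset.mem_range.mpr (Nat.mod_lt _ (orderOf_pos g)), ?_⟩
    rw [pow_mod_orderOf, hi]
  rw [← himg, Finset.prod_image hinj]

theorem kappaFix_eq_one_iff [Fintype G] (m : fixedSub (G := G) M) :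
    kappaFix g hg M m = 1 ↔ ∃ b : M, ∏ σ : G, σ • b = (m : M) := by
  rw [kappaFix_apply, ← ofAdd_zero]
  rw [Multiplicative.ofAdd.injective.eq_iff, kappa_eq_zero_iff]
  constructor
  · rintro ⟨b, hb⟩
    refine ⟨Additive.toMul b, ?_⟩
    rw [← prod_range_eq_prod_univ g hg]
    have := nrm_ofMul g M (Additive.toMul b)
    change nrm g (Rep.ofMulDistribMulAction G M) b = _ at this
    rw [hb] at this
    exact (Additive.ofMul.injective this).symm
  · rintro ⟨b, hb⟩
    refine ⟨Additive.ofMul b, ?_⟩
    rw [nrm_ofMul, prod_range_eq_prod_univ g hg, hb]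
    rfl

end Abstract

section Layer

/-! ### The cyclic layer `L/K` -/

variable (T : Finset Nat.Primes)
variable (K L : Type) [Field K] [Field L] [NumberField K] [NumberField L] [Algebra K L]
  [IsGalois K L]
variable (g : L ≃ₐ[K] L) (hg : ∀ x : L ≃ₐ[K] L, x ∈ Subgroup.zpowers g)

/-- The tower map lands in the fixed classes. -/
def inclFix : CT T K →* fixedSub (G := L ≃ₐ[K] L) (CT T L) :=
  (inclCT T K L).codRestrict _ (fun c σ => TowerMaps6.smul_inclCT T K L σ c)

theorem coe_inclFix (c : CT T K) : (inclFix T K L c : CT T L) = inclCT T K L c := rfl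

theorem inclFix_surjective (hT : T.Nonempty) (hunr : IsUnramifiedOutside T K L) :
    Function.Surjective (inclFix T K L) := by
  rintro ⟨a, ha⟩
  obtain ⟨b, hb⟩ := TowerMaps6.exists_inclCT_eq_of_fixed T K L hT hunr a ha
  exact ⟨b, Subtype.ext hb⟩

/-- **(C3a)** the cyclic class map `C_T(K) → H²(Gal(L/K), C_T(L))`, `c ↦ κ_g(incl c)`. -/
def kappaCT : CT T K →* Multiplicative (H2 (repCT T K L)) :=
  (kappaFix g hg (CT T L)).comp (inclFix T K L)

theorem kappaCT_apply (c : CT T K) :
    kappaCT T K L g hg c = Multiplicative.ofAdd (kappa g hg (repCT T K L)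
      (a := Additive.ofMul (inclCT T K L c))
      (rho_of_mem_fixedSub g (CT T L) (inclFix T K L c).2)) := rfl

theorem kappaCT_surjective (hT : T.Nonempty) (hunr : IsUnramifiedOutside T K L) :
    Function.Surjective (kappaCT T K L g hg) :=
  (kappaFix_surjective g hg (CT T L)).comp (inclFix_surjective T K L hT hunr)

/-- Every class of `H²(Gal(L/K), C_T(L))` is the cyclic class of a class of `C_T(K)`. -/
theorem exists_kappa_inclCT_eq (hT : T.Nonempty) (hunr : IsUnramifiedOutside T K L)
    (x : H2 (repCT T K L)) :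
    ∃ (c : CT T K) (hc : (repCT T K L).ρ g (Additive.ofMul (inclCT T K L c)) =
      Additive.ofMul (inclCT T K L c)), kappa g hg (repCT T K L) hc = x := by
  obtain ⟨c, hc⟩ := kappaCT_surjective T K L g hg hT hunr (Multiplicative.ofAdd x)
  exact ⟨c, rho_of_mem_fixedSub g (CT T L) (inclFix T K L c).2,
    Multiplicative.ofAdd.injective hc⟩

theorem kappaCT_eq_one_iff (hT : T.Nonempty) (hunr : IsUnramifiedOutside T K L) (c : CT T K) :
    kappaCT T K L g hg c = 1 ↔ c ∈ (TowerNorm6.normCT T K L hunr).range := by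
  change kappaFix g hg (CT T L) (inclFix T K L c) = 1 ↔ _
  rw [kappaFix_eq_one_iff, coe_inclFix]
  constructor
  · rintro ⟨b, hb⟩
    refine ⟨b, TowerMaps6.inclCT_injective T K L hT ?_⟩
    rw [TowerNorm6.inclCT_normCT, hb]
  · rintro ⟨b, rfl⟩
    exact ⟨b, (TowerNorm6.inclCT_normCT T K L hunr b).symm⟩

theorem ker_kappaCT (hT : T.Nonempty) (hunr : IsUnramifiedOutside T K L) :
    (kappaCT T K L g hg).ker = (TowerNorm6.normCT T K L hunr).range := by
  ext c
  rw [MonoidHom.mem_ker]
  exact kappaCT_eq_one_iff T K L g hg hT hunr c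

instance instNormalRangeNormCT17 (hunr : IsUnramifiedOutside T K L) :
    (TowerNorm6.normCT T K L hunr).range.Normal :=
  ⟨fun n hn g => by rwa [mul_comm g, mul_inv_cancel_right]⟩

/-- **(C3a)** `C_T(K) / N_{L/K} C_T(L) ≃* H²(Gal(L/K), C_T(L))` for a cyclic layer `L/K`
unramified outside `T ≠ ∅`. -/
def kappaEquiv (hT : T.Nonempty) (hunr : IsUnramifiedOutside T K L) :
    CT T K ⧸ (TowerNorm6.normCT T K L hunr).range ≃* Multiplicative (H2 (repCT T K L)) :=
  (QuotientGroup.quotientMulEquivOfEq (ker_kappaCT T K L g hg hT hunr).symm).trans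
    (QuotientGroup.quotientKerEquivOfSurjective (kappaCT T K L g hg)
      (kappaCT_surjective T K L g hg hT hunr))

theorem kappaEquiv_mk (hT : T.Nonempty) (hunr : IsUnramifiedOutside T K L) (c : CT T K) :
    kappaEquiv T K L g hg hT hunr (QuotientGroup.mk c) = kappaCT T K L g hg c := rfl

include g hg in
/-- `#H²(Gal(L/K), C_T(L)) = [C_T(K) : N_{L/K} C_T(L)]` for a cyclic layer. -/
theorem card_H2_eq_index (hT : T.Nonempty) (hunr : IsUnramifiedOutside T K L) :
    Nat.card (H2 (repCT T K L)) = (TowerNorm6.normCT T K L hunr).range.index := by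
  rw [Subgroup.index_eq_card]
  exact (Nat.card_congr (kappaEquiv T K L g hg hT hunr).toEquiv).symm

end Layer

end

end Fermat.Agent.PT.GLOB.CyclicLayerH2_17
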