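/-
Program F (S55, Poitou–Tate), chapter GLOB, leaf (L1-INFL-LOC, part 1) (helper17).

**Hilbert 90 for the semilocal algebras** `L ⊗_ℚ R`.  For a finite Galois group `G = Gal(L/K)`
acting on `A = L ⊗_ℚ R` through the left factor (`Interface23`), `R` a `ℚ`-algebra such that `A` has
finitely many maximal ideals (e.g. `R = ℚ_q`): every 1-cocycle `c : G → Aˣ` is a coboundary.

Proof: the classical Poincaré series `β(y) = ∑_τ c(τ) τ(y)`.  For every maximal ideal `m` the set of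
`y` with `β(y) ∈ m` is a proper `ℚ`-subspace (Dedekind independence of the distinct characters
`y ↦ τ(y) mod m`), and a `ℚ`-vector space is not a finite union of proper subspaces.
-/
import Fermat.Agent.PT.GLOB.PlaceBridge24
import Fermat.Agent.PT.FG.InfResFlex19

set_option autoImplicit false
set_option linter.unusedSectionVars false

namespace Fermat.Agent.PT.GLOB.SemiLocalH90_17

open NumberField
open scoped TensorProduct
open Fermat.Agent.PT.GLOB.Interface23

noncomputable section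

section Generic

variable (K L : Type*) [Field K] [Field L] [NumberField K] [NumberField L] [Algebra K L]
variable (R : Type*) [CommRing R] [Algebra ℚ R]

/-- The Poincaré series of a family `c : G → A`. -/
def poincare (c : (L ≃ₐ[K] L) → (L ⊗[ℚ] R)) (y : L ⊗[ℚ] R) : L ⊗[ℚ] R :=
  ∑ τ : L ≃ₐ[K] L, c τ * τ • y

theorem smul_rat_smul (τ : L ≃ₐ[K] L) (a : ℚ) (y : L ⊗[ℚ] R) : τ • (a • y) = a • τ • y :=
  map_smul (tensorAut K L R τ) a y

/-- The `ℚ`-subspace of the `y` whose Poincaré series lies in a given ideal. -/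
def badSub (c : (L ≃ₐ[K] L) → (L ⊗[ℚ] R)) (I : Ideal (L ⊗[ℚ] R)) : Submodule ℚ (L ⊗[ℚ] R) where
  carrier := {y | poincare K L R c y ∈ I}
  add_mem' := by
    intro y z hy hz
    change poincare K L R c (y + z) ∈ I
    have : poincare K L R c (y + z) = poincare K L R c y + poincare K L R c z := by
      unfold poincare
      rw [← Finset.sum_add_distrib]
      exact Finset.sum_congr rfl fun τ _ => by rw [smul_add, mul_add]
    rw [this]
    exact I.add_mem hy hz
  zero_mem' := by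
    change poincare K L R c 0 ∈ I
    have : poincare K L R c 0 = 0 := by
      unfold poincare
      exact Finset.sum_eq_zero fun τ _ => by rw [smul_zero, mul_zero]
    rw [this]
    exact I.zero_mem
  smul_mem' := by
    intro a y hy
    change poincare K L R c (a • y) ∈ I
    have : poincare K L R c (a • y) = a • poincare K L R c y := by
      unfold poincare
      rw [Finset.smul_sum]
      exact Finset.sum_congr rfl fun τ _ => by rw [smul_rat_smul, mul_smul_comm]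
    rw [this, Algebra.smul_def]
    exact I.mul_mem_left _ hy

theorem mem_badSub (c : (L ≃ₐ[K] L) → (L ⊗[ℚ] R)) (I : Ideal (L ⊗[ℚ] R)) (y : L ⊗[ℚ] R) :
    y ∈ badSub K L R c I ↔ poincare K L R c y ∈ I := Iff.rfl

/-- The character `y ↦ τ(y) mod m`. -/
def chi (m : Ideal (L ⊗[ℚ] R)) (τ : L ≃ₐ[K] L) : (L ⊗[ℚ] R) →* (L ⊗[ℚ] R) ⧸ m :=
  (Ideal.Quotient.mk m).toMonoidHom.comp
    (MulSemiringAction.toRingHom (L ≃ₐ[K] L) (L ⊗[ℚ] R) τ).toMonoidHom

theorem chi_apply (m : Ideal (L ⊗[ℚ] R)) (τ : L ≃ₐ[K] L) (y : L ⊗[ℚ] R) :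
    chi K L R m τ y = Ideal.Quotient.mk m (τ • y) := rfl

theorem chi_injective (m : Ideal (L ⊗[ℚ] R)) [m.IsMaximal] :
    Function.Injective (chi K L R m) := by
  intro τ τ' h
  let _ : Field ((L ⊗[ℚ] R) ⧸ m) := Ideal.Quotient.field m
  let ι : L →+* (L ⊗[ℚ] R) ⧸ m :=
    (Ideal.Quotient.mk m).comp (Algebra.TensorProduct.includeLeft : L →ₐ[ℚ] L ⊗[ℚ] R).toRingHom
  have hι : Function.Injective ι := RingHom.injective ι
  ext x
  apply hι
  have := DFunLike.congr_fun h (x ⊗ₜ[ℚ] (1 : R))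
  rw [chi_apply, chi_apply, smul_tmul', smul_tmul'] at this
  exact this

/-- For a maximal ideal `m` and a family of units `c`, the bad subspace is proper. -/
theorem badSub_ne_top (c : (L ≃ₐ[K] L) → (L ⊗[ℚ] R)ˣ) (m : Ideal (L ⊗[ℚ] R)) [hm : m.IsMaximal] :
    badSub K L R (fun τ => (c τ : L ⊗[ℚ] R)) m ≠ ⊤ := by
  classical
  intro htop
  let _ : Field ((L ⊗[ℚ] R) ⧸ m) := Ideal.Quotient.field m
  have hli := (linearIndependent_monoidHom (L ⊗[ℚ] R) ((L ⊗[ℚ] R) ⧸ m)).comp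
    (chi K L R m) (chi_injective K L R m)
  rw [Fintype.linearIndependent_iff] at hli
  have hzero : ∑ τ : L ≃ₐ[K] L, Ideal.Quotient.mk m (c τ : L ⊗[ℚ] R) •
      ((fun f : (L ⊗[ℚ] R) →* (L ⊗[ℚ] R) ⧸ m => (f : (L ⊗[ℚ] R) → (L ⊗[ℚ] R) ⧸ m)) ∘
        chi K L R m) τ = 0 := by
    funext y
    have hy : y ∈ badSub K L R (fun τ => (c τ : L ⊗[ℚ] R)) m := by rw [htop]; trivial
    rw [mem_badSub] at hy
    have h0 : Ideal.Quotient.mk m (poincare K L R (fun τ => (c τ : L ⊗[ℚ] R)) y) = 0 :=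
      Ideal.Quotient.eq_zero_iff_mem.mpr hy
    unfold poincare at h0
    rw [map_sum] at h0
    rw [Finset.sum_apply, Pi.zero_apply, ← h0]
    refine Finset.sum_congr rfl fun τ _ => ?_
    rw [Pi.smul_apply, Function.comp_apply, smul_eq_mul, map_mul]
    rfl
  have h1 := hli _ hzero (1 : L ≃ₐ[K] L)
  have hmem : (c 1 : L ⊗[ℚ] R) ∈ m := Ideal.Quotient.eq_zero_iff_mem.mp h1
  exact hm.ne_top (Ideal.eq_top_of_isUnit_mem m hmem (c 1).isUnit)

/-- There is `y` whose Poincaré series is a unit. -/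
theorem exists_isUnit_poincare [Finite (MaximalSpectrum (L ⊗[ℚ] R))]
    (c : (L ≃ₐ[K] L) → (L ⊗[ℚ] R)ˣ) :
    ∃ y : L ⊗[ℚ] R, IsUnit (poincare K L R (fun τ => (c τ : L ⊗[ℚ] R)) y) := by
  by_contra hno
  push Not at hno
  have hcover : ⋃ m : MaximalSpectrum (L ⊗[ℚ] R),
      ((badSub K L R (fun τ => (c τ : L ⊗[ℚ] R)) m.asIdeal : Submodule ℚ (L ⊗[ℚ] R)) :
        Set (L ⊗[ℚ] R)) = Set.univ := by
    apply Set.eq_univ_of_forall
    intro y
    have hy := hno y
    have hne : Ideal.span {poincare K L R (fun τ => (c τ : L ⊗[ℚ] R)) y} ≠ ⊤ := by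
      rwa [Ne, Ideal.span_singleton_eq_top]
    obtain ⟨M, hM, hle⟩ := Ideal.exists_le_maximal _ hne
    rw [Set.mem_iUnion]
    exact ⟨⟨M, hM⟩, hle (Ideal.subset_span rfl)⟩
  obtain ⟨m, hm⟩ := Subspace.exists_eq_top_of_iUnion_eq_univ hcover
  have := m.isMaximal
  exact badSub_ne_top K L R c m.asIdeal hm

/-- **Hilbert 90 for `L ⊗_ℚ R`** (multiplicative cocycle form):
if `c (σ τ) = c σ * σ • c τ` then `c σ * σ • b = b` for some unit `b`. -/
theorem hilbert90_tensor [Finite (MaximalSpectrum (L ⊗[ℚ] R))]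
    (c : (L ≃ₐ[K] L) → (L ⊗[ℚ] R)ˣ) (hc : ∀ σ τ, c (σ * τ) = c σ * σ • c τ) :
    ∃ b : (L ⊗[ℚ] R)ˣ, ∀ σ, c σ * σ • b = b := by
  obtain ⟨y, hy⟩ := exists_isUnit_poincare K L R c
  refine ⟨hy.unit, fun σ => ?_⟩
  apply Units.ext
  rw [Units.val_mul, coe_smul_unitsTensor, IsUnit.unit_spec]
  unfold poincare
  rw [Finset.smul_sum, Finset.mul_sum]
  refine Fintype.sum_equiv (Equiv.mulLeft σ) _ _ fun τ => ?_
  change (c σ : L ⊗[ℚ] R) * σ • ((c τ : L ⊗[ℚ] R) * τ • y) =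
    (c (σ * τ) : L ⊗[ℚ] R) * (σ * τ) • y
  have h1 : σ • ((c τ : L ⊗[ℚ] R) * τ • y) = σ • (c τ : L ⊗[ℚ] R) * σ • τ • y :=
    map_mul (tensorAut K L R σ) _ _
  have h2 : (σ * τ) • y = σ • τ • y := mul_smul σ τ y
  rw [hc, h1, h2, Units.val_mul, coe_smul_unitsTensor, mul_assoc]

end Generic

end

end Fermat.Agent.PT.GLOB.SemiLocalH90_17
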