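/-
Program F (S55, Poitou–Tate), chapter GLOB, leaf (L1-INFL-LOC) (helper17).

Galois cohomology of the semilocal units `(L ⊗ ℚ_q)ˣ` in towers (for (L1) local injectivity):
* `h1Vanishes_repLoc` : `H¹(Gal(L/K), (L ⊗ ℚ_q)ˣ) = 0` (Hilbert 90, from `SemiLocalH90_17`);
* `infHomLoc`, `infH2Loc`, `resHomLoc`, `resH2Loc` : inflation / restriction on
  `H²(Gal(L/K), (L ⊗ ℚ_q)ˣ)`;
* `infResLoc` : `0 → H²(Gal(L/K), (L⊗ℚ_q)ˣ) → H²(Gal(M/K), (M⊗ℚ_q)ˣ) → H²(Gal(M/L), (M⊗ℚ_q)ˣ)`
  is exact; in particular inflation is INJECTIVE (`infH2Loc_injective`), unconditionally;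
* `pushH_infH2Loc` : the square `(j_q)_* ∘ inf = inf ∘ (j_q)_*` with `infH2CT`, and
  `pushH_resH2Loc` for restriction.
-/
import Fermat.Agent.PT.GLOB.SemiLocalH90_17
import Fermat.Agent.PT.GLOB.SameImageCT19

set_option autoImplicit false
set_option linter.unusedSectionVars false

open CategoryTheory groupCohomology NumberField

namespace Fermat.Agent.PT.GLOB.LocInfl17

open scoped TensorProduct
open Fermat.Agent.PT.FG.InfResFlex19
open Fermat.Agent.PT.GLOB.Interface23 Fermat.Agent.PT.GLOB.ClassAction23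
  Fermat.Agent.PT.GLOB.Tower23 Fermat.Agent.PT.GLOB.TowerEquiv23
  Fermat.Agent.PT.GLOB.InterfaceCF23 Fermat.Agent.PT.GLOB.SameImageCT19

noncomputable section

/-! ### 1. Hilbert 90 -/

section H90

variable (K L : Type) [Field K] [Field L] [NumberField K] [NumberField L] [Algebra K L]
  (q : Nat.Primes)

theorem rho_repLoc (σ : L ≃ₐ[K] L) (a : repLoc K L q) :
    (repLoc K L q).ρ σ a = Additive.ofMul (σ • (Additive.toMul a : (Loc L q)ˣ)) := rfl

/-- **Hilbert 90 for the semilocal units**: `H¹(Gal(L/K), (L ⊗ ℚ_q)ˣ) = 0` (cocycle form). -/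
theorem h1Vanishes_repLoc : H1Vanishes (repLoc K L q) := by
  intro f
  have hf := (mem_cocycles₁_iff (f : (L ≃ₐ[K] L) → repLoc K L q)).mp f.2
  let c : (L ≃ₐ[K] L) → (Loc L q)ˣ := fun σ => Additive.toMul (f σ : repLoc K L q)
  have hc : ∀ σ τ, c (σ * τ) = c σ * σ • c τ := by
    intro σ τ
    have h := hf σ τ
    change c (σ * τ) = σ • c τ * c σ at h
    rw [h, mul_comm]
  obtain ⟨b, hb⟩ := SemiLocalH90_17.hilbert90_tensor K L ℚ_[(q : ℕ)] c hc
  refine ⟨Additive.ofMul (b⁻¹ : (Loc L q)ˣ), fun σ => ?_⟩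
  have h1 : c σ = σ • b⁻¹ / b⁻¹ := by
    rw [smul_inv', div_eq_mul_inv, inv_inv, eq_comm, inv_mul_eq_iff_eq_mul, mul_comm]
    exact (hb σ).symm
  exact congrArg Additive.ofMul h1

theorem subsingleton_H1_repLoc : Subsingleton (H1 (repLoc K L q)) :=
  (h1Vanishes_iff_subsingleton _).mp (h1Vanishes_repLoc K L q)

end H90

/-! ### 2. Inflation and restriction -/

section Maps

variable (K K' L L' : Type) [Field K] [Field K'] [Field L] [Field L'] [NumberField K]
  [NumberField K'] [NumberField L] [NumberField L'] (q : Nat.Primes)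

section Res

variable [Algebra K K'] [Algebra K L] [Algebra K' L] [IsScalarTower K K' L]

theorem restrictScalars_smul_loc (τ : L ≃ₐ[K'] L) (u : (Loc L q)ˣ) :
    (τ.restrictScalars K : L ≃ₐ[K] L) • u = τ • u := by
  apply Units.ext
  rw [coe_smul_unitsTensor, coe_smul_unitsTensor]
  induction (u : Loc L q) using TensorProduct.induction_on with
  | zero => rw [smul_zero, smul_zero]
  | tmul x r => rfl
  | add a b ha hb => rw [smul_add, smul_add, ha, hb]

/-- The morphism of representations underlying restriction. -/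
def resHomLoc : Rep.res (galIncl K K' L) (repLoc K L q) ⟶ repLoc K' L q :=
  Rep.ofHom ⟨LinearMap.id, fun τ =>
    LinearMap.ext fun c => congrArg Additive.ofMul
      (restrictScalars_smul_loc K K' L q τ (Additive.toMul c))⟩

/-- Restriction `H²(Gal(L/K), (L⊗ℚ_q)ˣ) → H²(Gal(L/K'), (L⊗ℚ_q)ˣ)`. -/
def resH2Loc : H2 (repLoc K L q) ⟶ H2 (repLoc K' L q) :=
  groupCohomology.map (galIncl K K' L) (resHomLoc K K' L q) 2

theorem resHomLoc_bijective : Function.Bijective (resHomLoc K K' L q).hom :=
  Function.bijective_id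

end Res

section Inf

variable [Algebra K L] [Algebra K L'] [Algebra L L'] [IsScalarTower K L L'] [Normal K L]

/-- The tower map on the semilocal units. -/
def locUp : (Loc L q)ˣ →* (Loc L' q)ˣ := Units.map (locMap L L' q).toMonoidHom

theorem coe_locUp (u : (Loc L q)ˣ) : ((locUp L L' q u : (Loc L' q)ˣ) : Loc L' q) =
    locMap L L' q (u : Loc L q) := rfl

theorem locUp_smul (σ : L' ≃ₐ[K] L') (u : (Loc L q)ˣ) :
    locUp L L' q ((rn σ : L ≃ₐ[K] L) • u) = σ • locUp L L' q u := by
  apply Units.ext
  rw [coe_locUp, coe_smul_unitsTensor, coe_smul_unitsTensor, coe_locUp]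
  exact locMap_smul q σ (u : Loc L q)

/-- The morphism of representations underlying inflation. -/
def infHomLoc : Rep.res (AlgEquiv.restrictNormalHom (F := K) (K₁ := L') L) (repLoc K L q) ⟶
    repLoc K L' q :=
  Rep.ofHom ⟨(locUp L L' q).toAdditive.toIntLinearMap, fun σ =>
    LinearMap.ext fun c => congrArg Additive.ofMul (locUp_smul K L L' q σ (Additive.toMul c))⟩

theorem infHomLoc_hom_apply (a : repLoc K L q) :
    (infHomLoc K L L' q).hom a = Additive.ofMul (locUp L L' q (Additive.toMul a)) := rfl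

/-- Inflation `H²(Gal(L/K), (L⊗ℚ_q)ˣ) → H²(Gal(L'/K), (L'⊗ℚ_q)ˣ)`. -/
def infH2Loc : H2 (repLoc K L q) ⟶ H2 (repLoc K L' q) :=
  groupCohomology.map (AlgEquiv.restrictNormalHom (F := K) (K₁ := L') L) (infHomLoc K L L' q) 2

theorem infHomLoc_injective : Function.Injective (infHomLoc K L L' q).hom := by
  intro a b hab
  have h1 : locUp L L' q (Additive.toMul a) = locUp L L' q (Additive.toMul b) :=
    congrArg Additive.toMul hab
  have h2 : (Additive.toMul a : (Loc L q)ˣ) = Additive.toMul b := by
    apply Units.ext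
    apply TowerMaps6.locMap_injective L L' q
    exact congrArg Units.val h1
  exact congrArg Additive.ofMul h2

end Inf

end Maps

/-! ### 3. Inflation–restriction -/

section InfRes

variable (K L M : Type) [Field K] [Field L] [Field M] [NumberField K] [NumberField L]
  [NumberField M] [Algebra K L] [Algebra L M] [Algebra K M] [IsScalarTower K L M]
  [IsGalois K L] [IsGalois K M] (q : Nat.Primes)

theorem infHomLoc_image (a : (repLoc K M q).V)
    (ha : ∀ s : M ≃ₐ[L] M, (repLoc K M q).ρ (galIncl K L M s) a = a) :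
    ∃ b : (repLoc K L q).V, (infHomLoc K L M q).hom b = a := by
  have : IsGalois L M := IsGalois.tower_top_of_isGalois K L M
  obtain ⟨v, hv⟩ := TowerMaps6.exists_units_locMap_eq_of_fixed L M q (Additive.toMul a)
    (fun τ => by
      have h := congrArg Additive.toMul (ha τ)
      rw [← restrictScalars_smul_loc K L M q τ]
      exact h)
  exact ⟨Additive.ofMul v, congrArg Additive.ofMul hv⟩

/-- **Inflation–restriction in degree 2 for the semilocal units** (unconditional):
`0 → H²(Gal(L/K), (L⊗ℚ_q)ˣ) → H²(Gal(M/K), (M⊗ℚ_q)ˣ) → H²(Gal(M/L), (M⊗ℚ_q)ˣ)` is exact. -/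
theorem infResLoc :
    Function.Injective (infH2Loc K L M q) ∧
      (∀ x : H2 (repLoc K M q), resH2Loc K L M q x = 0 → ∃ y, infH2Loc K L M q y = x) ∧
      ∀ y : H2 (repLoc K L q), resH2Loc K L M q (infH2Loc K L M q y) = 0 := by
  have h := infRes2_flex (galIncl K L M) (AlgEquiv.restrictNormalHom (F := K) (K₁ := M) L)
    (galIncl_injective K L M) (restrictNormalHom_surjective' K L M) (range_galIncl K L M)
    (repLoc K L q) (repLoc K M q) (repLoc L M q) (infHomLoc K L M q) (resHomLoc K L M q)
    (resHomLoc_bijective K L M q) (infHomLoc_injective K L M q) (infHomLoc_image K L M q)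
    (h1Vanishes_repLoc L M q)
  exact ⟨h.1, h.2, fun y => res_inf_eq_zero (galIncl K L M)
    (AlgEquiv.restrictNormalHom (F := K) (K₁ := M) L) (range_galIncl K L M)
    (repLoc K L q) (repLoc K M q) (repLoc L M q) (infHomLoc K L M q) (resHomLoc K L M q) y⟩

/-- Inflation on `H²` of the semilocal units is injective. -/
theorem infH2Loc_injective : Function.Injective (infH2Loc K L M q) := (infResLoc K L M q).1

end InfRes

/-! ### 4. Compatibility with the maps to the idele class group -/

section Squares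

open Fermat.Agent.PT.FG.Interface8

variable (S : Finset Nat.Primes) [DecidableEq S]

section InfSquare

variable (K L L' : Type) [Field K] [Field L] [Field L'] [NumberField K] [NumberField L]
  [NumberField L'] [Algebra K L] [Algebra K L'] [Algebra L L'] [IsScalarTower K L L']
  [Normal K L] (q : S)

theorem inclJ_locToJT (u : (Loc L q.1)ˣ) :
    inclJ S L L' (locToJT S q u) = locToJT S q (locUp L L' q.1 u) := by
  refine Prod.ext ?_ ?_
  · funext r
    change Units.map (locMap L L' r.1).toMonoidHom ((Pi.mulSingle q u : IT S L) r) =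
      (Pi.mulSingle q (locUp L L' q.1 u) : IT S L') r
    by_cases h : r = q
    · subst h
      rw [Pi.mulSingle_eq_same, Pi.mulSingle_eq_same]
      rfl
    · rw [Pi.mulSingle_eq_of_ne h, Pi.mulSingle_eq_of_ne h, map_one]
  · change inclDiv S L L' (1 : DivT S L) = (1 : DivT S L')
    rw [map_one]

theorem inclCT_locToCT (u : (Loc L q.1)ˣ) :
    inclCT S L L' (locToCT S q u) = locToCT S q (locUp L L' q.1 u) := by
  change inclCT S L L' (toCT S L (locToJT S q u)) = toCT S L' (locToJT S q (locUp L L' q.1 u))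
  rw [inclCT_toCT, inclJ_locToJT]

/-- The square `(j_q)_* ∘ inf = inf ∘ (j_q)_*`. -/
theorem pushH_infH2Loc (x : H2 (repLoc K L q.1)) :
    pushH 2 (locToCTRep S K L' q) (infH2Loc K L L' q.1 x) =
      infH2CT S K L L' (pushH 2 (locToCTRep S K L q) x) := by
  induction x using H2_induction_on with
  | h x =>
    unfold pushH infH2Loc infH2CT
    rw [H2π_comp_map_apply, H2π_comp_map_apply, H2π_comp_map_apply, H2π_comp_map_apply]
    congr 1
    apply cocycles₂_ext
    intro σ τ
    exact congrArg Additive.ofMul (inclCT_locToCT S L L' q _).symm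

end InfSquare

section ResSquare

variable (K K' L : Type) [Field K] [Field K'] [Field L] [NumberField K] [NumberField K']
  [NumberField L] [Algebra K K'] [Algebra K L] [Algebra K' L] [IsScalarTower K K' L] (q : S)

/-- The square `(j_q)_* ∘ res = res ∘ (j_q)_*`. -/
theorem pushH_resH2Loc (x : H2 (repLoc K L q.1)) :
    pushH 2 (locToCTRep S K' L q) (resH2Loc K K' L q.1 x) =
      resH2CT S K K' L (pushH 2 (locToCTRep S K L q) x) := by
  induction x using H2_induction_on with
  | h x =>
    unfold pushH resH2Loc resH2CT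
    rw [H2π_comp_map_apply, H2π_comp_map_apply, H2π_comp_map_apply, H2π_comp_map_apply]
    congr 1

end ResSquare

end Squares

end

end Fermat.Agent.PT.GLOB.LocInfl17
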