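/-
Program F (S55), chapter GLOB, helper21: the pure-algebra core of "Shapiro for the S-idele module":
for a finite Galois extension `L/k` with group `G`, an arbitrary field extension `k'/k` and a
compositum `L' = k' L`, the `k'`-algebra `L ⊗[k] k'` is the algebra of functions `f : G → L'`
coinduced from the decomposition group `D = Gal(L'/k') ↪ G`.
-/
import Mathlib

set_option autoImplicit false
set_option linter.unusedSectionVars false

namespace Fermat.Agent.PT.GLOB.TensorCoind21

open scoped TensorProduct
open Polynomial

section Setup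

variable (k L k' L' : Type*) [Field k] [Field L] [Field k'] [Field L']
  [Algebra k L] [Algebra k k'] [Algebra k' L'] [Algebra L L'] [Algebra k L']
  [IsScalarTower k k' L'] [IsScalarTower k L L']

/-- `L'` is the compositum of `k'` and (the image of) `L`. -/
def IsCompositum : Prop :=
  IntermediateField.adjoin k' (Set.range (algebraMap L L')) = ⊤

variable {k L k' L'}

/-- The compositum of a finite Galois extension with an arbitrary extension is the splitting field
of a separable polynomial. -/
theorem IsCompositum.exists_isSplittingField [FiniteDimensional k L] [IsGalois k L]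
    (h : IsCompositum L k' L') : ∃ T' : k'[X], T'.Separable ∧ T'.IsSplittingField k' L' := by
  obtain ⟨T, hT₁, hT₂⟩ := IsGalois.is_separable_splitting_field k L
  refine ⟨T.map (algebraMap k k'), hT₁.map, ?_⟩
  set T' := T.map (algebraMap k k') with hT'
  rw [isSplittingField_iff_intermediateField] at hT₂ ⊢
  constructor
  · rw [Polynomial.map_map, ← IsScalarTower.algebraMap_eq, IsScalarTower.algebraMap_eq k L L',
      ← Polynomial.map_map]
    exact hT₂.1.map _
  · have h' : T'.rootSet L' = T.rootSet L' := by
      simp [Set.ext_iff, Polynomial.mem_rootSet', T', Polynomial.map_map,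
        ← IsScalarTower.algebraMap_eq]
    rw [h']
    have himg : T.rootSet L' = (algebraMap L L') '' (T.rootSet L) := by
      have := hT₂.1.image_rootSet (IsScalarTower.toAlgHom k L L')
      rw [← this]; rfl
    have h0 : IntermediateField.adjoin k' (Set.range (algebraMap L L')) = ⊤ := h
    rw [himg, eq_top_iff, ← h0, IntermediateField.adjoin_le_iff]
    rintro _ ⟨x, rfl⟩
    have hx : x ∈ IntermediateField.adjoin k (T.rootSet L) := by rw [hT₂.2]; trivial
    have hle : IntermediateField.adjoin k (T.rootSet L) ≤
        ((IntermediateField.adjoin k' (algebraMap L L' '' T.rootSet L)).restrictScalars k).comap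
          (IsScalarTower.toAlgHom k L L') := by
      rw [IntermediateField.adjoin_le_iff]
      intro y hy
      exact IntermediateField.subset_adjoin _ _ ⟨y, hy, rfl⟩
    exact hle hx

/-- The compositum of a finite Galois extension with an arbitrary extension is Galois. -/
theorem IsCompositum.isGalois [FiniteDimensional k L] [IsGalois k L]
    (h : IsCompositum L k' L') : IsGalois k' L' := by
  obtain ⟨T', hT₁, hT₂⟩ := h.exists_isSplittingField (k := k)
  exact IsGalois.of_separable_splitting_field (p := T') hT₁

/-- The compositum of a finite Galois extension with an arbitrary extension is finite. -/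
theorem IsCompositum.finiteDimensional [FiniteDimensional k L] [IsGalois k L]
    (h : IsCompositum L k' L') : FiniteDimensional k' L' := by
  obtain ⟨T', _, hT₂⟩ := h.exists_isSplittingField (k := k)
  exact Polynomial.IsSplittingField.finiteDimensional L' T'

end Setup

section Res

variable (k L k' L' : Type*) [Field k] [Field L] [Field k'] [Field L']
  [Algebra k L] [Algebra k k'] [Algebra k' L'] [Algebra L L'] [Algebra k L']
  [IsScalarTower k k' L'] [IsScalarTower k L L'] [Normal k L]

/-- Restriction of scalars of automorphisms, as a monoid homomorphism. -/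
def restrictScalarsHom : (L' ≃ₐ[k'] L') →* (L' ≃ₐ[k] L') where
  toFun d := d.restrictScalars k
  map_one' := rfl
  map_mul' _ _ := rfl

/-- The restriction map `Gal(L'/k') → Gal(L/k)` (its image is the decomposition group). -/
noncomputable def res : (L' ≃ₐ[k'] L') →* (L ≃ₐ[k] L) :=
  (AlgEquiv.restrictNormalHom (F := k) (K₁ := L') L).comp (restrictScalarsHom k k' L')

variable {k L k' L'}

theorem algebraMap_res (d : L' ≃ₐ[k'] L') (x : L) :
    algebraMap L L' (res k L k' L' d x) = d (algebraMap L L' x) :=
  AlgEquiv.restrictNormal_commutes (d.restrictScalars k) L x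

theorem res_injective (h : IsCompositum L k' L') : Function.Injective (res k L k' L') := by
  rw [injective_iff_map_eq_one]
  intro d hd
  have h0 : IntermediateField.adjoin k' (Set.range (algebraMap L L')) = ⊤ := h
  have hfix : ∀ x : L, d (algebraMap L L' x) = algebraMap L L' x := by
    intro x
    rw [← algebraMap_res (k := k), hd]; rfl
  ext y
  have hy : y ∈ IntermediateField.adjoin k' (Set.range (algebraMap L L')) := by rw [h0]; trivial
  induction hy using IntermediateField.adjoin_induction with
  | mem x hx => obtain ⟨x, rfl⟩ := hx; exact hfix x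
  | algebraMap x => exact d.commutes x
  | add x y _ _ hx hy => rw [map_add, hx, hy]; rfl
  | inv x _ hx => rw [map_inv₀, hx]; rfl
  | mul x y _ _ hx hy => rw [map_mul, hx, hy]; rfl

end Res

section Phi

variable (k L k' L' : Type*) [Field k] [Field L] [Field k'] [Field L']
  [Algebra k L] [Algebra k k'] [Algebra k' L'] [Algebra L L'] [Algebra k L']
  [IsScalarTower k k' L'] [IsScalarTower k L L']

/-- The `k`-algebra map `L → (Gal(L/k) → L')`, `x ↦ (σ ↦ σ x)`. -/
noncomputable def evalHom : L →ₐ[k] ((L ≃ₐ[k] L) → L') :=
  AlgHom.pi fun σ => (IsScalarTower.toAlgHom k L L').comp (σ : L →ₐ[k] L)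

@[simp] theorem evalHom_apply (x : L) (σ : L ≃ₐ[k] L) :
    evalHom k L L' x σ = algebraMap L L' (σ x) := rfl

/-- The comparison map `k' ⊗[k] L → (Gal(L/k) → L')`, `y ⊗ x ↦ (σ ↦ y * σ x)`. -/
noncomputable def Phi : k' ⊗[k] L →ₐ[k'] ((L ≃ₐ[k] L) → L') :=
  Algebra.TensorProduct.lift (Algebra.ofId k' _) (evalHom k L L') fun _ _ => Commute.all _ _

@[simp] theorem Phi_tmul (y : k') (x : L) (σ : L ≃ₐ[k] L) :
    Phi k L k' L' (y ⊗ₜ x) σ = algebraMap k' L' y * algebraMap L L' (σ x) := by
  simp [Phi, Algebra.ofId_apply]

variable {k L k' L'} in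
/-- The comparison map is injective (nondegeneracy of the trace form). -/
theorem Phi_injective [FiniteDimensional k L] [IsGalois k L] :
    Function.Injective (Phi k L k' L') := by
  classical
  rw [injective_iff_map_eq_zero]
  intro t ht
  let b := Module.finBasis k L
  let B := Algebra.TensorProduct.basis k' b
  have hrepr : t = ∑ i, (B.repr t i) • ((1 : k') ⊗ₜ[k] b i) := by
    conv_lhs => rw [← B.sum_repr t]
    simp only [B, Algebra.TensorProduct.basis_apply]
  set y : Fin (Module.finrank k L) → k' := fun i => B.repr t i with hy
  have hσ : ∀ σ : L ≃ₐ[k] L,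
      ∑ i, algebraMap k' L' (y i) * algebraMap L L' (σ (b i)) = 0 := by
    intro σ
    have h1 := congrFun ht σ
    rw [hrepr, map_sum, Finset.sum_apply] at h1
    simpa [TensorProduct.smul_tmul', Phi_tmul] using h1
  have hT : ∀ j, ∑ i, y i * algebraMap k k' (Algebra.traceMatrix k b i j) = 0 := by
    intro j
    apply (algebraMap k' L').injective
    rw [map_sum, map_zero]
    have h2 : ∑ σ : L ≃ₐ[k] L,
        (∑ i, algebraMap k' L' (y i) * algebraMap L L' (σ (b i))) * algebraMap L L' (σ (b j)) = 0 := by
      simp [hσ]
    rw [← h2]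
    simp_rw [Finset.sum_mul]
    rw [Finset.sum_comm]
    refine Finset.sum_congr rfl fun i _ => ?_
    rw [map_mul, Algebra.traceMatrix_apply, Algebra.traceForm_apply,
      ← IsScalarTower.algebraMap_apply k k' L', IsScalarTower.algebraMap_apply k L L',
      trace_eq_sum_automorphisms, map_sum, Finset.mul_sum]
    refine Finset.sum_congr rfl fun σ _ => ?_
    rw [map_mul, map_mul]; ring
  have hy0 : y = 0 := by
    apply Matrix.eq_zero_of_vecMul_eq_zero
      (M := (Algebra.traceMatrix k b).map (algebraMap k k'))
    · rw [← RingHom.mapMatrix_apply, ← RingHom.map_det]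
      have := Algebra.discr_not_zero_of_basis k b
      rw [Algebra.discr_def] at this
      simpa using this
    · ext j
      simpa [Matrix.vecMul, dotProduct] using hT j
  rw [hrepr]
  have : ∀ i, B.repr t i = 0 := fun i => congrFun hy0 i
  simp [this]

end Phi

section Coind

variable (k L k' L' : Type*) [Field k] [Field L] [Field k'] [Field L']
  [Algebra k L] [Algebra k k'] [Algebra k' L'] [Algebra L L'] [Algebra k L']
  [IsScalarTower k k' L'] [IsScalarTower k L L']

/-- The action of `Gal(L/k)` on `k' ⊗[k] L` through the right factor. -/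
noncomputable def galTensor : (L ≃ₐ[k] L) →* (k' ⊗[k] L ≃ₐ[k'] k' ⊗[k] L) where
  toFun σ := Algebra.TensorProduct.congr AlgEquiv.refl σ
  map_one' := by
    ext x
    induction x using TensorProduct.induction_on with
    | zero => simp
    | tmul y x => simp
    | add a b ha hb => rw [map_add, ha, hb, map_add]
  map_mul' σ τ := by
    ext x
    induction x using TensorProduct.induction_on with
    | zero => simp
    | tmul y x => simp [AlgEquiv.mul_apply]
    | add a b ha hb => rw [map_add, ha, hb, map_add]

@[simp] theorem galTensor_tmul (σ : L ≃ₐ[k] L) (y : k') (x : L) :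
    galTensor k L k' σ (y ⊗ₜ x) = y ⊗ₜ σ x := by
  simp [galTensor]

variable {k L k' L'} in
/-- Equivariance of `Phi`: the Galois action on the right tensor factor corresponds to right
translation of functions. -/
theorem Phi_galTensor (σ τ : L ≃ₐ[k] L) (t : k' ⊗[k] L) :
    Phi k L k' L' (galTensor k L k' σ t) τ = Phi k L k' L' t (τ * σ) := by
  induction t using TensorProduct.induction_on with
  | zero => simp
  | tmul y x => simp [AlgEquiv.mul_apply]
  | add a b ha hb => simp only [map_add, Pi.add_apply, ha, hb]

variable [Normal k L]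

/-- The `k'`-algebra of coinduced functions `f : Gal(L/k) → L'`:
`f (res d * σ) = d (f σ)` for `d ∈ Gal(L'/k')`. -/
def coindSubalgebra : Subalgebra k' ((L ≃ₐ[k] L) → L') where
  carrier := {f | ∀ (d : L' ≃ₐ[k'] L') (σ : L ≃ₐ[k] L), f (res k L k' L' d * σ) = d (f σ)}
  mul_mem' {f g} hf hg d σ := by simp [hf d σ, hg d σ]
  one_mem' d σ := by simp
  add_mem' {f g} hf hg d σ := by simp [hf d σ, hg d σ]
  zero_mem' d σ := by simp
  algebraMap_mem' y d σ := by simp [Algebra.algebraMap_eq_smul_one]

variable {k L k' L'} in
theorem mem_coindSubalgebra {f : (L ≃ₐ[k] L) → L'} :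
    f ∈ coindSubalgebra k L k' L' ↔
      ∀ (d : L' ≃ₐ[k'] L') (σ : L ≃ₐ[k] L), f (res k L k' L' d * σ) = d (f σ) := Iff.rfl

variable {k L k' L'} in
theorem Phi_mem_coindSubalgebra (t : k' ⊗[k] L) : Phi k L k' L' t ∈ coindSubalgebra k L k' L' := by
  intro d σ
  induction t using TensorProduct.induction_on with
  | zero => simp
  | tmul y x => simp [AlgEquiv.mul_apply, algebraMap_res]
  | add a b ha hb => simp only [map_add, Pi.add_apply, ha, hb]

end Coind

section Equiv

variable {k L k' L' : Type*} [Field k] [Field L] [Field k'] [Field L']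
  [Algebra k L] [Algebra k k'] [Algebra k' L'] [Algebra L L'] [Algebra k L']
  [IsScalarTower k k' L'] [IsScalarTower k L L'] [FiniteDimensional k L] [IsGalois k L]

/-- A coinduced function vanishing on a set of representatives of the right cosets of the
decomposition group vanishes. -/
theorem eq_zero_of_forall_out {f : (L ≃ₐ[k] L) → L'} (hf : f ∈ coindSubalgebra k L k' L')
    (h0 : ∀ q : Quotient (QuotientGroup.rightRel (res k L k' L').range), f q.out = 0) : f = 0 := by
  funext σ
  have hrel : QuotientGroup.rightRel (res k L k' L').range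
      (Quotient.out (Quotient.mk (QuotientGroup.rightRel (res k L k' L').range) σ)) σ :=
    Quotient.exact (Quotient.out_eq _)
  rw [QuotientGroup.rightRel_apply] at hrel
  obtain ⟨d, hd⟩ := hrel
  have : σ = res k L k' L' d * Quotient.out (Quotient.mk (QuotientGroup.rightRel (res k L k' L').range) σ) := by
    rw [hd]; group
  rw [this, hf d, h0, map_zero]; rfl

theorem finrank_coindSubalgebra_le (h : IsCompositum L k' L') :
    Module.finrank k' (coindSubalgebra k L k' L') ≤ Nat.card (L ≃ₐ[k] L) := by
  classical
  have := h.isGalois (k := k)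
  have := h.finiteDimensional (k := k)
  set Dg := (res k L k' L').range with hDg
  let Q := Quotient (QuotientGroup.rightRel Dg)
  let _ : Fintype Q := Fintype.ofFinite Q
  let ev : coindSubalgebra k L k' L' →ₗ[k'] (Q → L') :=
    { toFun := fun f q => f.1 q.out
      map_add' := fun f g => rfl
      map_smul' := fun c f => rfl }
  have hev : Function.Injective ev := by
    rw [injective_iff_map_eq_zero]
    intro f hf
    apply Subtype.ext
    exact eq_zero_of_forall_out f.2 fun q => congrFun hf q
  have h1 := LinearMap.finrank_le_finrank_of_injective hev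
  have h2 : Module.finrank k' (Q → L') = Nat.card Q * Module.finrank k' L' := by
    rw [Module.finrank_pi_fintype, Finset.sum_const, Finset.card_univ, smul_eq_mul,
      Nat.card_eq_fintype_card]
  have h3 : Nat.card Q = Nat.card ((L ≃ₐ[k] L) ⧸ Dg) :=
    Nat.card_congr (QuotientGroup.quotientRightRelEquivQuotientLeftRel Dg)
  have h4 : Nat.card Dg = Module.finrank k' L' := by
    rw [← IsGalois.card_aut_eq_finrank k' L']
    exact (Nat.card_congr (MonoidHom.ofInjective (res_injective h)).toEquiv).symm
  have h5 := Subgroup.card_eq_card_quotient_mul_card_subgroup Dg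
  rw [h2, h3, ← h4, ← h5] at h1
  exact h1

/-- `Phi`, corestricted to the coinduced functions. -/
noncomputable def PhiCoind : k' ⊗[k] L →ₐ[k'] coindSubalgebra k L k' L' :=
  (Phi k L k' L').codRestrict _ Phi_mem_coindSubalgebra

theorem PhiCoind_bijective (h : IsCompositum L k' L') :
    Function.Bijective (PhiCoind (k := k) (L := L) (k' := k') (L' := L')) := by
  have hinj : Function.Injective (PhiCoind (k := k) (L := L) (k' := k') (L' := L')) := by
    intro a b hab
    exact Phi_injective (congrArg Subtype.val hab)
  refine ⟨hinj, ?_⟩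
  have := h.finiteDimensional (k := k)
  have hfin : Module.finrank k' (k' ⊗[k] L) = Nat.card (L ≃ₐ[k] L) := by
    rw [Module.finrank_baseChange, IsGalois.card_aut_eq_finrank]
  have hle := finrank_coindSubalgebra_le (k := k) h
  have hge := LinearMap.finrank_le_finrank_of_injective
    (f := (PhiCoind (k := k) (L := L) (k' := k') (L' := L')).toLinearMap) hinj
  have heq : Module.finrank k' (k' ⊗[k] L) = Module.finrank k' (coindSubalgebra k L k' L') := by
    omega
  exact (LinearMap.injective_iff_surjective_of_finrank_eq_finrank
    (f := (PhiCoind (k := k) (L := L) (k' := k') (L' := L')).toLinearMap) heq).mp hinj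

/-- **`k' ⊗[k] L` is the algebra of functions on `Gal(L/k)` coinduced from the decomposition
group.** -/
noncomputable def tensorEquivCoind (h : IsCompositum L k' L') :
    k' ⊗[k] L ≃ₐ[k'] coindSubalgebra k L k' L' :=
  AlgEquiv.ofBijective PhiCoind (PhiCoind_bijective h)

@[simp] theorem tensorEquivCoind_apply (h : IsCompositum L k' L') (t : k' ⊗[k] L)
    (σ : L ≃ₐ[k] L) : (tensorEquivCoind h t).1 σ = Phi k L k' L' t σ := rfl

end Equiv

end Fermat.Agent.PT.GLOB.TensorCoind21
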