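/-
Program F (S55), chapter GLOB, helper21: units of `k' ⊗[k] L` as a coinduced Galois module and
Shapiro's lemma for them.  `L/k` finite Galois with group `G`, `k'/k` arbitrary, `L' = k' L` a
compositum, `D = Gal(L'/k')`, `res : D →* G` (injective, image = decomposition group).
-/
import Mathlib
import Fermat.Agent.PT.GLOB.TensorCoind21

set_option autoImplicit false
set_option linter.unusedSectionVars false

namespace Fermat.Agent.PT.GLOB.ShapiroTensor21

open scoped TensorProduct
open Fermat.Agent.PT.GLOB.TensorCoind21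

section Action

variable (k L k' : Type*) [Field k] [Field L] [Field k'] [Algebra k L] [Algebra k k']

/-- `Gal(L/k)` acts on `k' ⊗[k] L` through the right factor. -/
noncomputable scoped instance tensorAction : MulSemiringAction (L ≃ₐ[k] L) (k' ⊗[k] L) :=
  MulSemiringAction.compHom _ (galTensor k L k')

theorem smul_def (σ : L ≃ₐ[k] L) (t : k' ⊗[k] L) : σ • t = galTensor k L k' σ t := rfl

@[simp] theorem smul_tmul (σ : L ≃ₐ[k] L) (y : k') (x : L) :
    σ • (y ⊗ₜ[k] x) = y ⊗ₜ[k] σ x := by
  rw [smul_def, galTensor_tmul]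

/-- `Gal(L/k)` acts on the units of `k' ⊗[k] L`. -/
noncomputable scoped instance tensorUnitsAction :
    MulDistribMulAction (L ≃ₐ[k] L) (k' ⊗[k] L)ˣ :=
  MulDistribMulAction.compHom _ (galTensor k L k')

theorem units_smul_val (σ : L ≃ₐ[k] L) (u : (k' ⊗[k] L)ˣ) :
    ((σ • u : (k' ⊗[k] L)ˣ) : k' ⊗[k] L) = galTensor k L k' σ u := rfl

end Action

section CoindUnits

variable (k L k' L' : Type*) [Field k] [Field L] [Field k'] [Field L']
  [Algebra k L] [Algebra k k'] [Algebra k' L'] [Algebra L L'] [Algebra k L']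
  [IsScalarTower k k' L'] [IsScalarTower k L L'] [Normal k L]

/-- The group of coinduced functions `f : Gal(L/k) → L'ˣ`: `f (res d * σ) = d (f σ)`. -/
def coindUnits : Subgroup ((L ≃ₐ[k] L) → L'ˣ) where
  carrier := {f | ∀ (d : L' ≃ₐ[k'] L') (σ : L ≃ₐ[k] L), f (res k L k' L' d * σ) = d • f σ}
  mul_mem' {f g} hf hg d σ := by simp [hf d σ, hg d σ]
  one_mem' d σ := by simp
  inv_mem' {f} hf d σ := by simp [hf d σ]

variable {k L k' L'} in
theorem mem_coindUnits {f : (L ≃ₐ[k] L) → L'ˣ} :
    f ∈ coindUnits k L k' L' ↔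
      ∀ (d : L' ≃ₐ[k'] L') (σ : L ≃ₐ[k] L), f (res k L k' L' d * σ) = d • f σ := Iff.rfl

/-- Units of the coinduced subalgebra are the coinduced unit-valued functions. -/
noncomputable def unitsCoindEquiv : (coindSubalgebra k L k' L')ˣ ≃* coindUnits k L k' L' where
  toFun u := ⟨fun σ => ⟨u.1.1 σ, u⁻¹.1.1 σ,
      congrArg (fun f : coindSubalgebra k L k' L' => f.1 σ) u.mul_inv,
      congrArg (fun f : coindSubalgebra k L k' L' => f.1 σ) u.inv_mul⟩,
    fun d σ => by
      apply Units.ext
      exact u.1.2 d σ⟩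
  invFun f := ⟨⟨fun σ => (f.1 σ : L'), fun d σ => by
        have := congrArg Units.val (f.2 d σ); simpa using this⟩,
      ⟨fun σ => ((f.1 σ)⁻¹ : L'ˣ), fun d σ => by
        have := congrArg (fun u : L'ˣ => ((u⁻¹ : L'ˣ) : L')) (f.2 d σ); simpa using this⟩,
      by ext σ; simp, by ext σ; simp⟩
  left_inv u := by ext σ; rfl
  right_inv f := by ext σ; rfl
  map_mul' u v := by ext σ; rfl

end CoindUnits

section UnitsEquiv

variable {k L k' L' : Type*} [Field k] [Field L] [Field k'] [Field L']
  [Algebra k L] [Algebra k k'] [Algebra k' L'] [Algebra L L'] [Algebra k L']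
  [IsScalarTower k k' L'] [IsScalarTower k L L'] [FiniteDimensional k L] [IsGalois k L]

/-- **The units of `k' ⊗[k] L` are the coinduced unit-valued functions on `Gal(L/k)`.** -/
noncomputable def unitsEquiv (h : IsCompositum L k' L') :
    (k' ⊗[k] L)ˣ ≃* coindUnits k L k' L' :=
  (Units.mapEquiv (tensorEquivCoind h).toMulEquiv).trans (unitsCoindEquiv k L k' L')

@[simp] theorem unitsEquiv_apply_val (h : IsCompositum L k' L') (u : (k' ⊗[k] L)ˣ)
    (σ : L ≃ₐ[k] L) :
    (((unitsEquiv h u).1 σ : L'ˣ) : L') = Phi k L k' L' (u : k' ⊗[k] L) σ := rfl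

/-- Equivariance: the Galois action on units corresponds to right translation. -/
theorem unitsEquiv_smul (h : IsCompositum L k' L') (τ : L ≃ₐ[k] L) (u : (k' ⊗[k] L)ˣ)
    (σ : L ≃ₐ[k] L) :
    (unitsEquiv h (τ • u)).1 σ = (unitsEquiv h u).1 (σ * τ) := by
  apply Units.ext
  rw [unitsEquiv_apply_val, unitsEquiv_apply_val, units_smul_val, Phi_galTensor]

end UnitsEquiv

section RepIso

open CategoryTheory

variable {k L k' L' : Type} [Field k] [Field L] [Field k'] [Field L']
  [Algebra k L] [Algebra k k'] [Algebra k' L'] [Algebra L L'] [Algebra k L']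
  [IsScalarTower k k' L'] [IsScalarTower k L L'] [FiniteDimensional k L] [IsGalois k L]

variable (k L k') in
/-- The `ℤ`-linear representation of `Gal(L/k)` on the units of `k' ⊗[k] L`. -/
noncomputable abbrev tensorRep : Rep ℤ (L ≃ₐ[k] L) :=
  Rep.ofMulDistribMulAction (L ≃ₐ[k] L) (k' ⊗[k] L)ˣ

variable (k' L') in
/-- The `ℤ`-linear representation of `Gal(L'/k')` on `L'ˣ`. -/
noncomputable abbrev localRep : Rep ℤ (L' ≃ₐ[k'] L') :=
  Rep.ofMulDistribMulAction (L' ≃ₐ[k'] L') L'ˣ

/-- The additive equivalence underlying `tensorRepIso`. -/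
noncomputable def tensorAddEquiv (h : IsCompositum L k' L') :
    Additive (k' ⊗[k] L)ˣ ≃+
      Representation.coindV (res k L k' L') (localRep k' L').ρ where
  toFun a := ⟨fun σ => Additive.ofMul ((unitsEquiv h a.toMul).1 σ), fun d σ => by
    have := (unitsEquiv h a.toMul).2 d σ
    simp only [this]
    rfl⟩
  invFun f := Additive.ofMul ((unitsEquiv h).symm ⟨fun σ => (f.1 σ).toMul, fun d σ => by
    have := f.2 d σ
    simp only [this]
    rfl⟩)
  left_inv a := by
    apply Additive.toMul.injective
    apply (unitsEquiv h).injective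
    simp only [toMul_ofMul, MulEquiv.apply_symm_apply] <;> rfl
  right_inv f := by
    apply Subtype.ext
    funext σ
    simp only [toMul_ofMul, MulEquiv.apply_symm_apply] <;> rfl
  map_add' a b := by
    apply Subtype.ext
    funext σ
    simp
    rfl

/-- **`(k' ⊗[k] L)ˣ` is the `Gal(L/k)`-module coinduced from the `Gal(L'/k')`-module `L'ˣ`.** -/
noncomputable def tensorRepIso (h : IsCompositum L k' L') :
    tensorRep k L k' ≅ Rep.coind (res k L k' L') (localRep k' L') :=
  Rep.mkIso <| .mk (tensorAddEquiv h).toIntLinearEquiv fun τ => by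
    ext a σ
    exact congrArg Additive.ofMul (unitsEquiv_smul h τ a.toMul σ)

end RepIso

section ShapiroInjective

open CategoryTheory

universe u

variable {R : Type u} [CommRing R] {D G : Type u} [Group D] [Group G]
  (φ : D →* G) (hφ : Function.Injective φ) (A : Rep R D)

/-- The representation of the subgroup `φ.range ≤ G` obtained from `A : Rep R D` through the
isomorphism `D ≃ φ.range`. -/
noncomputable abbrev rangeRep : Rep R φ.range :=
  Rep.res (MonoidHom.ofInjective hφ).symm.toMonoidHom A

theorem coindV_eq :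
    Representation.coindV φ A.ρ =
      Representation.coindV φ.range.subtype (rangeRep φ hφ A).ρ := by
  ext f
  simp only [Representation.mem_coindV]
  constructor
  · intro hf s g
    obtain ⟨d, hd⟩ := s.2
    have hs : (MonoidHom.ofInjective hφ).symm s = d := by
      apply (MonoidHom.ofInjective hφ).injective
      rw [MulEquiv.apply_symm_apply]
      exact Subtype.ext hd.symm
    have := hf d g
    rw [hd] at this
    rw [Subgroup.subtype_apply, this]
    show A.ρ d (f g) = A.ρ ((MonoidHom.ofInjective hφ).symm s) (f g)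
    rw [hs]
  · intro hf d g
    have := hf (MonoidHom.ofInjective hφ d) g
    rw [Subgroup.subtype_apply, MonoidHom.ofInjective_apply] at this
    rw [this]
    show A.ρ ((MonoidHom.ofInjective hφ).symm (MonoidHom.ofInjective hφ d)) (f g) = A.ρ d (f g)
    rw [MulEquiv.symm_apply_apply]

/-- Coinduction along an injective homomorphism is coinduction from its range. -/
noncomputable def coindRangeIso :
    Rep.coind φ A ≅ Rep.coind φ.range.subtype (rangeRep φ hφ A) :=
  Rep.mkIso <| .mk (LinearEquiv.ofEq _ _ (coindV_eq φ hφ A)) fun g => by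
    ext f x
    rfl

/-- **Shapiro's lemma along an injective homomorphism** `φ : D →* G`:
`Hⁿ(G, Coind_φ A) ≅ Hⁿ(D, A)`. -/
noncomputable def shapiroInjective (n : ℕ) :
    groupCohomology (Rep.coind φ A) n ≅ groupCohomology A n :=
  (groupCohomology.functor R G n).mapIso (coindRangeIso φ hφ A) ≪≫
    groupCohomology.coindIso (rangeRep φ hφ A) n ≪≫
    groupCohomology.mapIso (MonoidHom.ofInjective hφ).symm (LinearEquiv.refl R A.V)
      (fun _ => rfl) n

end ShapiroInjective

section TensorShapiro

open CategoryTheory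

variable {k L k' L' : Type} [Field k] [Field L] [Field k'] [Field L']
  [Algebra k L] [Algebra k k'] [Algebra k' L'] [Algebra L L'] [Algebra k L']
  [IsScalarTower k k' L'] [IsScalarTower k L L'] [FiniteDimensional k L] [IsGalois k L]

/-- **Shapiro's lemma for the semilocal units**: `Hⁿ(Gal(L/k), (k' ⊗[k] L)ˣ) ≅ Hⁿ(Gal(L'/k'), L'ˣ)`
for a compositum `L' = k' L`. -/
noncomputable def tensorShapiro (h : IsCompositum L k' L') (n : ℕ) :
    groupCohomology (tensorRep k L k') n ≅ groupCohomology (localRep k' L') n :=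
  (groupCohomology.functor ℤ (L ≃ₐ[k] L) n).mapIso (tensorRepIso h) ≪≫
    shapiroInjective (res k L k' L') (res_injective h) (localRep k' L') n

/-- Hilbert 90 for the semilocal units: `H¹(Gal(L/k), (k' ⊗[k] L)ˣ) = 0`. -/
theorem subsingleton_H1_tensorRep (h : IsCompositum L k' L') :
    Subsingleton (groupCohomology.H1 (tensorRep k L k')) := by
  have := h.finiteDimensional (k := k)
  have hu : Subsingleton (groupCohomology.H1 (Rep.ofAlgebraAutOnUnits k' L')) :=
    (groupCohomology.H1ofAutOnUnitsUnique k' L').instSubsingleton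
  exact (tensorShapiro h 1).toLinearEquiv.toEquiv.subsingleton_congr.mpr hu

end TensorShapiro

end Fermat.Agent.PT.GLOB.ShapiroTensor21
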