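/-
Program F (S55), chapter GLOB, leaf (L1-a) (helper14): **local cyclicity**.

For a finite Galois extension `L/ℚ` of number fields and a prime `q`, the group
`H²(Gal(L/ℚ), (L ⊗ ℚ_q)ˣ)` is finite cyclic (Shapiro: it is `H²(Gal(L_w/ℚ_q), L_wˣ)`, which is
cyclic of order `[L_w : ℚ_q]` by the local class formation).  Consequently any two `p`-torsion
classes are proportional.

* `isAddCyclic_H2_unitsRep` : LOC, `H²(Gal(E'/E), E'ˣ)` is finite cyclic of order `[E':E]`;
* `ResField m` (helper24) as a compositum of `L` and `ℚ_q`: `isCompositum_resField`;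
* `locIso` : `repLoc ℚ L q ≅ tensorRep ℚ L ℚ_q` (swap of the tensor factors);
* `isAddCyclic_H2_repLoc`, `finite_H2_repLoc`;
* `exists_nsmul_eq_of_torsion` : in a cyclic group, `p`-torsion elements are multiples of any
  nonzero `p`-torsion element.
-/
import Mathlib
import Fermat.Agent.PT.GLOB.InterfaceCF23
import Fermat.Agent.PT.GLOB.ShapiroTensor21
import Fermat.Agent.PT.GLOB.PlaceBridge24
import Fermat.Agent.PT.LOC.LCFFinal14

set_option autoImplicit false
set_option linter.unusedSectionVars false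

namespace Fermat.Agent.PT.GLOB.LocalCyclic14

open groupCohomology CategoryTheory
open scoped TensorProduct
open Fermat.Agent.PT.LOC.Interface12
open Fermat.Agent.PT.GLOB.Interface23
open Fermat.Agent.PT.GLOB.InterfaceCF23
open Fermat.Agent.PT.GLOB.PlaceBridge24
open Fermat.Agent.PT.GLOB.TensorCoind21 Fermat.Agent.PT.GLOB.ShapiroTensor21

/-! ### 1. LOC: `H²` of a finite Galois extension of `q`-adic fields is cyclic -/

section Loc

variable (q : ℕ) [Fact q.Prime]
variable (E E' : Type) [Field E] [Field E'] [Algebra ℚ_[q] E] [Algebra ℚ_[q] E'] [Algebra E E']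
  [IsScalarTower ℚ_[q] E E'] [FiniteDimensional ℚ_[q] E'] [IsGalois E E']

include q

theorem card_H2_unitsRep : Nat.card (H2 (unitsRep E E')) = Module.finrank E E' := by
  obtain ⟨u, hu⟩ := Fermat.Agent.PT.LOC.LCFFinal14.localClassFormation q
  exact hu.card E E'

theorem finite_H2_unitsRep : Finite (H2 (unitsRep E E')) := by
  have : FiniteDimensional E E' := FiniteDimensional.right ℚ_[q] E E'
  apply Nat.finite_of_card_ne_zero
  rw [card_H2_unitsRep q E E']
  exact Module.finrank_pos.ne'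

theorem isAddCyclic_H2_unitsRep : IsAddCyclic (H2 (unitsRep E E')) := by
  obtain ⟨u, hu⟩ := Fermat.Agent.PT.LOC.LCFFinal14.localClassFormation q
  have := finite_H2_unitsRep q E E'
  exact isAddCyclic_of_addOrderOf_eq_card (u E E') ((hu.order E E').trans (hu.card E E').symm)

end Loc

/-! ### 2. Torsion in cyclic groups -/

section Cyclic

variable {A : Type*} [AddCommGroup A]

/-- In a cyclic group, every `p`-torsion element is a multiple of any nonzero `p`-torsion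
element. -/
theorem exists_nsmul_eq_of_torsion [IsAddCyclic A] {p : ℕ} (hp : p.Prime) {x y : A}
    (hx : p • x = 0) (hy : p • y = 0) (hy0 : y ≠ 0) : ∃ c : ℕ, x = c • y := by
  let T : AddSubgroup A := (nsmulAddMonoidHom p : A →+ A).ker
  have hxT : x ∈ T := hx
  have hyT : y ∈ T := hy
  obtain ⟨t, ht⟩ := IsAddCyclic.exists_generator (α := T)
  obtain ⟨k, hk⟩ := AddSubgroup.mem_zmultiples_iff.mp (ht ⟨y, hyT⟩)
  obtain ⟨m, hm⟩ := AddSubgroup.mem_zmultiples_iff.mp (ht ⟨x, hxT⟩)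
  have hk' : k • (t : A) = y := by simpa using congrArg Subtype.val hk
  have hm' : m • (t : A) = x := by simpa using congrArg Subtype.val hm
  have hpt : (p : ℤ) • (t : A) = 0 := by
    rw [natCast_zsmul]
    exact t.2
  have hpy : (p : ℤ) • y = 0 := by
    rw [natCast_zsmul]
    exact hy
  have hpk : ¬ (p : ℤ) ∣ k := by
    rintro ⟨j, rfl⟩
    apply hy0
    rw [← hk', mul_comm, mul_smul, hpt, smul_zero]
  have hcop : IsCoprime (p : ℤ) k :=
    (Nat.prime_iff_prime_int.mp hp).coprime_iff_not_dvd.mpr hpk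
  obtain ⟨u, v, huv⟩ := hcop
  have ht1 : (t : A) = v • y := by
    calc (t : A) = (1 : ℤ) • (t : A) := (one_smul _ _).symm
      _ = (u * p + v * k) • (t : A) := by rw [huv]
      _ = v • y := by rw [add_smul, mul_smul, hpt, smul_zero, zero_add, mul_smul, hk']
  have hx1 : x = (m * v) • y := by rw [← hm', ht1, mul_smul]
  have hp0 : (p : ℤ) ≠ 0 := by exact_mod_cast hp.ne_zero
  refine ⟨((m * v) % p).toNat, ?_⟩
  have h1 : (((m * v) % p).toNat : ℤ) = (m * v) % p := Int.toNat_of_nonneg (Int.emod_nonneg _ hp0)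
  rw [← natCast_zsmul, h1, hx1]
  conv_lhs => rw [← Int.emod_add_mul_ediv (m * v) p]
  rw [add_smul, mul_smul, smul_comm, hpy, smul_zero, add_zero]

end Cyclic

/-! ### 3. The residue fields of `L ⊗ ℚ_q` as composita -/

section Compositum

variable {L : Type} [Field L] [NumberField L] {q : ℕ} [Fact q.Prime]
variable (m : MaximalSpectrum (L ⊗[ℚ] ℚ_[q]))

instance isScalarTower_rat_padic_resField : IsScalarTower ℚ ℚ_[q] (ResField m) :=
  IsScalarTower.of_algebraMap_eq' (RingHom.ext_rat _ _)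

instance isScalarTower_rat_L_resField : IsScalarTower ℚ L (ResField m) :=
  IsScalarTower.of_algebraMap_eq' (RingHom.ext_rat _ _)

theorem algebraMap_L_resField (x : L) :
    algebraMap L (ResField m) x = Ideal.Quotient.mk m.asIdeal (x ⊗ₜ[ℚ] (1 : ℚ_[q])) := rfl

theorem mk_tmul (x : L) (c : ℚ_[q]) :
    (Ideal.Quotient.mk m.asIdeal) (x ⊗ₜ[ℚ] c) =
      algebraMap L (ResField m) x * algebraMap ℚ_[q] (ResField m) c := by
  rw [algebraMap_resField, algebraMap_L_resField, ← map_mul,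
    Algebra.TensorProduct.tmul_mul_tmul, mul_one, one_mul]

/-- `ResField m` is the compositum of `L` and `ℚ_q`. -/
theorem isCompositum_resField : IsCompositum L ℚ_[q] (ResField m) := by
  unfold IsCompositum
  rw [eq_top_iff]
  rintro z -
  obtain ⟨t, rfl⟩ := Ideal.Quotient.mk_surjective z
  induction t using TensorProduct.induction_on with
  | zero => rw [map_zero]; exact zero_mem _
  | tmul x c =>
    rw [mk_tmul]
    exact mul_mem (IntermediateField.subset_adjoin _ _ ⟨x, rfl⟩)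
      (IntermediateField.algebraMap_mem _ c)
  | add a b ha hb => rw [map_add]; exact add_mem ha hb

end Compositum

/-! ### 4. `H²(Gal(L/ℚ), (L ⊗ ℚ_q)ˣ)` is finite cyclic -/

section Main

variable (L : Type) [Field L] [NumberField L] [IsGalois ℚ L]

/-- The swap of the tensor factors, on units. -/
noncomputable def swapUnits (q : ℕ) [Fact q.Prime] : (L ⊗[ℚ] ℚ_[q])ˣ ≃* (ℚ_[q] ⊗[ℚ] L)ˣ :=
  Units.mapEquiv (Algebra.TensorProduct.comm ℚ L ℚ_[q]).toMulEquiv

theorem swapUnits_smul (q : ℕ) [Fact q.Prime] (σ : L ≃ₐ[ℚ] L) (u : (L ⊗[ℚ] ℚ_[q])ˣ) :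
    swapUnits L q (σ • u) = σ • swapUnits L q u := by
  apply Units.ext
  change Algebra.TensorProduct.comm ℚ L ℚ_[q] (σ • (u : L ⊗[ℚ] ℚ_[q])) =
    galTensor ℚ L ℚ_[q] σ (Algebra.TensorProduct.comm ℚ L ℚ_[q] (u : L ⊗[ℚ] ℚ_[q]))
  generalize (u : L ⊗[ℚ] ℚ_[q]) = t
  induction t using TensorProduct.induction_on with
  | zero => simp
  | tmul x c =>
    rw [smul_tmul', Algebra.TensorProduct.comm_tmul, Algebra.TensorProduct.comm_tmul,
      galTensor_tmul]
  | add a b ha hb => rw [smul_add, map_add, map_add, map_add, ha, hb]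

/-- `(L ⊗ ℚ_q)ˣ ≅ (ℚ_q ⊗ L)ˣ` as `Gal(L/ℚ)`-modules. -/
noncomputable def locIso (q : Nat.Primes) : repLoc ℚ L q ≅ tensorRep ℚ L ℚ_[(q : ℕ)] :=
  Rep.mkIso <| .mk (swapUnits L (q : ℕ)).toAdditive.toIntLinearEquiv fun σ =>
    LinearMap.ext fun a => congrArg Additive.ofMul (swapUnits_smul L (q : ℕ) σ a.toMul)

/-- Shapiro + swap: `H²(Gal(L/ℚ), (L ⊗ ℚ_q)ˣ) ≃ H²(Gal(E/ℚ_q), Eˣ)` for the residue field `E` of
`L ⊗ ℚ_q` at a maximal ideal. -/
noncomputable def h2Equiv (q : Nat.Primes) (m : MaximalSpectrum (L ⊗[ℚ] ℚ_[(q : ℕ)])) :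
    H2 (repLoc ℚ L q) ≃+ H2 (unitsRep ℚ_[(q : ℕ)] (ResField m)) :=
  ((groupCohomology.functor ℤ (L ≃ₐ[ℚ] L) 2).mapIso (locIso L q) ≪≫
    tensorShapiro (isCompositum_resField m) 2).toLinearEquiv.toAddEquiv

theorem exists_maximalSpectrum (q : ℕ) [Fact q.Prime] :
    Nonempty (MaximalSpectrum (L ⊗[ℚ] ℚ_[q])) := by
  obtain ⟨I, hI⟩ := Ideal.exists_maximal (L ⊗[ℚ] ℚ_[q])
  exact ⟨⟨I, hI⟩⟩

/-- **Local cyclicity**: `H²(Gal(L/ℚ), (L ⊗ ℚ_q)ˣ)` is finite. -/
theorem finite_H2_repLoc (q : Nat.Primes) : Finite (H2 (repLoc ℚ L q)) := by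
  obtain ⟨m⟩ := exists_maximalSpectrum L (q : ℕ)
  have hG : IsGalois ℚ_[(q : ℕ)] (ResField m) := (isCompositum_resField m).isGalois (k := ℚ)
  have := finite_H2_unitsRep (q : ℕ) ℚ_[(q : ℕ)] (ResField m)
  exact Finite.of_equiv _ (h2Equiv L q m).symm.toEquiv

/-- **Local cyclicity**: `H²(Gal(L/ℚ), (L ⊗ ℚ_q)ˣ)` is cyclic. -/
theorem isAddCyclic_H2_repLoc (q : Nat.Primes) : IsAddCyclic (H2 (repLoc ℚ L q)) := by
  obtain ⟨m⟩ := exists_maximalSpectrum L (q : ℕ)
  have hG : IsGalois ℚ_[(q : ℕ)] (ResField m) := (isCompositum_resField m).isGalois (k := ℚ)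
  have := isAddCyclic_H2_unitsRep (q : ℕ) ℚ_[(q : ℕ)] (ResField m)
  exact isAddCyclic_of_surjective (h2Equiv L q m).symm.toAddMonoidHom
    (h2Equiv L q m).symm.surjective

/-- The order of `H²(Gal(L/ℚ), (L ⊗ ℚ_q)ˣ)` is the local degree. -/
theorem card_H2_repLoc (q : Nat.Primes) (m : MaximalSpectrum (L ⊗[ℚ] ℚ_[(q : ℕ)])) :
    Nat.card (H2 (repLoc ℚ L q)) = Module.finrank ℚ_[(q : ℕ)] (ResField m) := by
  have hG : IsGalois ℚ_[(q : ℕ)] (ResField m) := (isCompositum_resField m).isGalois (k := ℚ)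
  rw [Nat.card_congr (h2Equiv L q m).toEquiv, card_H2_unitsRep (q : ℕ) ℚ_[(q : ℕ)] (ResField m)]

/-- **Proportionality of `p`-torsion classes** in `H²(Gal(L/ℚ), (L ⊗ ℚ_q)ˣ)`. -/
theorem exists_nsmul_eq_H2_repLoc (q : Nat.Primes) {p : ℕ} (hp : p.Prime)
    {x y : H2 (repLoc ℚ L q)} (hx : p • x = 0) (hy : p • y = 0) (hy0 : y ≠ 0) :
    ∃ c : ℕ, x = c • y := by
  have := isAddCyclic_H2_repLoc L q
  exact exists_nsmul_eq_of_torsion hp hx hy hy0

end Main

end Fermat.Agent.PT.GLOB.LocalCyclic14
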