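/-
Program F (S55), chapter GLOB, leaf (L1) `LocalInjectivity` (helper14): definitions and the
abstract core.

* `infHomLoc`, `infH2Loc` : inflation `H²(Gal(L/K), (L ⊗ ℚ_q)ˣ) → H²(Gal(L'/K), (L' ⊗ ℚ_q)ˣ)`;
  `resHomLoc` (identity) for the restriction to `Gal(L'/L)`;
* `infHomLoc_injective`, `infHomLoc_image` (helper6's descent);
* `infH2Loc_injective` : inflation is injective, GIVEN Hilbert 90 for the semilocal units
  `H1Vanishes (repLoc L L' q)`;
* `locToCT_locMap`, `infH2Loc_comp_push` : the inflation square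
  `j_{L'} ∘ Inf = Inf ∘ j_L` for `j = (locToCTRep)_*`;
* `localInjectivity_core` : the abstract proportionality argument: if `j_B` is injective on
  `H²(Gal(B/ℚ), (B ⊗ ℚ_q)ˣ)`, which has nonzero `p`-torsion, `B, L ⊆ N`, inflation `B → N` for `CT`
  kills no `p`-torsion and inflation `L → N` for the local module is injective, then `j_L` is
  injective on `p`-torsion.
-/
import Mathlib
import Fermat.Agent.PT.GLOB.LocalCyclic14
import Fermat.Agent.PT.GLOB.TowerMaps6
import Fermat.Agent.PT.FG.InfResFlex19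
import Fermat.Agent.PT.GLOB.SameImageCT19

set_option autoImplicit false
set_option linter.unusedSectionVars false

namespace Fermat.Agent.PT.GLOB.LocalInjDefs14

open groupCohomology CategoryTheory NumberField
open scoped TensorProduct
open Fermat.Agent.PT.FG.Interface8 (pushH)
open Fermat.Agent.PT.FG.InfResFlex19
open Fermat.Agent.PT.GLOB.Interface23 Fermat.Agent.PT.GLOB.ClassAction23
open Fermat.Agent.PT.GLOB.Tower23 Fermat.Agent.PT.GLOB.TowerEquiv23
open Fermat.Agent.PT.GLOB.InterfaceCF23
open Fermat.Agent.PT.GLOB.LocalCyclic14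

noncomputable section

section Maps

variable (K L L' : Type) [Field K] [Field L] [Field L'] [NumberField K] [NumberField L]
  [NumberField L'] [Algebra K L] [Algebra K L'] [Algebra L L'] [IsScalarTower K L L']

/-- The map `(L ⊗ ℚ_q)ˣ → (L' ⊗ ℚ_q)ˣ`. -/
def locUnitsMap (q : Nat.Primes) : (Loc L q)ˣ →* (Loc L' q)ˣ :=
  Units.map (locMap L L' q).toMonoidHom

theorem locUnitsMap_injective (q : Nat.Primes) : Function.Injective (locUnitsMap L L' q) :=
  Units.map_injective (Fermat.Agent.PT.GLOB.TowerMaps6.locMap_injective L L' q)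

variable [Normal K L]

theorem locUnitsMap_smul (q : Nat.Primes) (σ : L' ≃ₐ[K] L') (u : (Loc L q)ˣ) :
    locUnitsMap L L' q ((rn σ : L ≃ₐ[K] L) • u) = σ • locUnitsMap L L' q u :=
  Units.ext (locMap_smul q σ (u : Loc L q))

/-- The morphism of representations underlying inflation for the semilocal units. -/
def infHomLoc (q : Nat.Primes) :
    Rep.res (AlgEquiv.restrictNormalHom (F := K) (K₁ := L') L) (repLoc K L q) ⟶ repLoc K L' q :=
  Rep.ofHom ⟨(locUnitsMap L L' q).toAdditive.toIntLinearMap, fun σ =>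
    LinearMap.ext fun u => congrArg Additive.ofMul (locUnitsMap_smul K L L' q σ (Additive.toMul u))⟩

/-- Inflation `H²(Gal(L/K), (L ⊗ ℚ_q)ˣ) → H²(Gal(L'/K), (L' ⊗ ℚ_q)ˣ)`. -/
def infH2Loc (q : Nat.Primes) : H2 (repLoc K L q) ⟶ H2 (repLoc K L' q) :=
  groupCohomology.map (AlgEquiv.restrictNormalHom (F := K) (K₁ := L') L) (infHomLoc K L L' q) 2

theorem infHomLoc_injective (q : Nat.Primes) : Function.Injective (infHomLoc K L L' q).hom := by
  intro a b hab
  exact congrArg Additive.ofMul
    (locUnitsMap_injective L L' q (congrArg Additive.toMul hab))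

end Maps

section Res

variable (K L L' : Type) [Field K] [Field L] [Field L'] [NumberField K] [NumberField L]
  [NumberField L'] [Algebra K L] [Algebra K L'] [Algebra L L'] [IsScalarTower K L L']

/-- The action of `Gal(L'/L)` on `(L' ⊗ ℚ_q)ˣ` is the restriction of the action of `Gal(L'/K)`. -/
theorem restrictScalars_smul_loc (q : Nat.Primes) (τ : L' ≃ₐ[L] L') (u : (Loc L' q)ˣ) :
    (galIncl K L L' τ) • u = τ • u := rfl

/-- The identity of `(L' ⊗ ℚ_q)ˣ` as a morphism `Res (repLoc K L' q) ⟶ repLoc L L' q`. -/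
def resHomLoc (q : Nat.Primes) : Rep.res (galIncl K L L') (repLoc K L' q) ⟶ repLoc L L' q :=
  Rep.ofHom ⟨LinearMap.id, fun τ =>
    LinearMap.ext fun u => congrArg Additive.ofMul
      (restrictScalars_smul_loc K L L' q τ (Additive.toMul u))⟩

theorem resHomLoc_bijective (q : Nat.Primes) : Function.Bijective (resHomLoc K L L' q).hom :=
  Function.bijective_id

variable [IsGalois K L] [IsGalois K L']

theorem infHomLoc_image (q : Nat.Primes) (a : (repLoc K L' q).V)
    (ha : ∀ s : L' ≃ₐ[L] L', (repLoc K L' q).ρ (galIncl K L L' s) a = a) :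
    ∃ b : (repLoc K L q).V, (infHomLoc K L L' q).hom b = a := by
  have : IsGalois L L' := IsGalois.tower_top_of_isGalois K L L'
  obtain ⟨v, hv⟩ := Fermat.Agent.PT.GLOB.TowerMaps6.exists_units_locMap_eq_of_fixed L L' q
    (Additive.toMul a) (fun τ => congrArg Additive.toMul (ha τ))
  exact ⟨Additive.ofMul v, congrArg Additive.ofMul hv⟩

/-- **Inflation is injective on `H²` of the semilocal units**, given Hilbert 90 for them. -/
theorem infH2Loc_injective (q : Nat.Primes) (h90 : H1Vanishes (repLoc L L' q)) :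
    Function.Injective (infH2Loc K L L' q) :=
  map_inf_injective (galIncl K L L') (AlgEquiv.restrictNormalHom (F := K) (K₁ := L') L)
    (AlgEquiv.restrictNormalHom_surjective L')
    (Fermat.Agent.PT.GLOB.Devissage19.range_iotaHom_eq_ker_piHom K L L')
    (repLoc K L q) (repLoc K L' q) (repLoc L L' q) (infHomLoc K L L' q) (resHomLoc K L L' q)
    (resHomLoc_bijective K L L' q) (infHomLoc_injective K L L' q) (infHomLoc_image K L L' q) h90

end Res

section Square

variable (S : Finset Nat.Primes) [DecidableEq S]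
variable (K L L' : Type) [Field K] [Field L] [Field L'] [NumberField K] [NumberField L]
  [NumberField L'] [Algebra K L] [Algebra K L'] [Algebra L L'] [IsScalarTower K L L']

theorem inclJ_locToJT (q : S) (u : (Loc L q.1)ˣ) :
    inclJ S L L' (locToJT S q u) = locToJT S q (locUnitsMap L L' q.1 u) := by
  refine Prod.ext ?_ ?_
  · funext r
    change inclI S L L' (Pi.mulSingle q u) r = (Pi.mulSingle q (locUnitsMap L L' q.1 u) : IT S L') r
    by_cases h : r = q
    · subst h
      apply Units.ext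
      rw [inclI_apply, Pi.mulSingle_eq_same, Pi.mulSingle_eq_same]
      rfl
    · apply Units.ext
      rw [inclI_apply, Pi.mulSingle_eq_of_ne h, Pi.mulSingle_eq_of_ne h, Units.val_one, map_one]
      rfl
  · change inclDiv S L L' 1 = 1
    exact map_one _

theorem inclCT_locToCT (q : S) (u : (Loc L q.1)ˣ) :
    inclCT S L L' (locToCT S q u) = locToCT S q (locUnitsMap L L' q.1 u) := by
  change inclCT S L L' (toCT S L (locToJT S q u)) = toCT S L' (locToJT S q (locUnitsMap L L' q.1 u))
  rw [inclCT_toCT, inclJ_locToJT]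

variable [Normal K L]

/-- **The inflation square**: `j_{L'} ∘ Inf = Inf ∘ j_L`. -/
theorem infH2Loc_comp_push (q : S) :
    infH2Loc K L L' q.1 ≫ pushH 2 (locToCTRep S K L' q) =
      pushH 2 (locToCTRep S K L q) ≫ infH2CT S K L L' := by
  unfold infH2Loc infH2CT pushH
  rw [← groupCohomology.map_comp, ← groupCohomology.map_comp]
  refine groupCohomology.map_congr rfl ?_ 2
  refine LinearMap.ext fun u => ?_
  exact congrArg Additive.ofMul (inclCT_locToCT S L L' q (Additive.toMul u)).symm

theorem push_infH2Loc (q : S) (x : H2 (repLoc K L q.1)) :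
    pushH 2 (locToCTRep S K L' q) (infH2Loc K L L' q.1 x) =
      infH2CT S K L L' (pushH 2 (locToCTRep S K L q) x) := by
  have h := congrArg (fun f => f x) (congrArg (fun f => (ModuleCat.Hom.hom f : _ → _))
    (infH2Loc_comp_push S K L L' q))
  exact h

end Square

section Core

variable (S : Finset Nat.Primes) [DecidableEq S]
variable (L B N : Type) [Field L] [Field B] [Field N] [NumberField L] [NumberField B]
  [NumberField N] [Algebra L N] [Algebra B N] [IsScalarTower ℚ L N] [IsScalarTower ℚ B N]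
  [IsGalois ℚ L] [IsGalois ℚ B] [IsGalois ℚ N]

/-- **(L1), abstract core.**  `B/ℚ` an auxiliary layer on which `j_B` is injective and which has
nonzero local `p`-torsion at `q`; `N ⊇ L, B`.  If inflation `B → N` on `H²(·, CT)` kills no
`p`-torsion and inflation `L → N` on `H²(·, (· ⊗ ℚ_q)ˣ)` is injective, then `j_L` is injective on
`p`-torsion. -/
theorem localInjectivity_core {p : ℕ} (hp : p.Prime) (q : S)
    (hB : ∀ x₀ : H2 (repLoc ℚ B q.1), pushH 2 (locToCTRep S ℚ B q) x₀ = 0 → x₀ = 0)
    (hB' : ∃ x₀ : H2 (repLoc ℚ B q.1), x₀ ≠ 0 ∧ p • x₀ = 0)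
    (hCT : ∀ y : H2 (repCT S ℚ B), p • y = 0 → infH2CT S ℚ B N y = 0 → y = 0)
    (hLoc : Function.Injective (infH2Loc ℚ L N q.1))
    (x : H2 (repLoc ℚ L q.1)) (hx : p • x = 0)
    (hjx : pushH 2 (locToCTRep S ℚ L q) x = 0) : x = 0 := by
  obtain ⟨x₀, hx₀, hpx₀⟩ := hB'
  -- the two classes at level `N`
  set x' := infH2Loc ℚ L N q.1 x with hx'
  set y' := infH2Loc ℚ B N q.1 x₀ with hy'
  have hpx' : p • x' = 0 := by rw [hx', ← map_nsmul, hx, map_zero]
  have hpy' : p • y' = 0 := by rw [hy', ← map_nsmul, hpx₀, map_zero]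
  have hjx' : pushH 2 (locToCTRep S ℚ N q) x' = 0 := by
    rw [hx', push_infH2Loc, hjx, map_zero]
  have hjy' : pushH 2 (locToCTRep S ℚ N q) y' =
      infH2CT S ℚ B N (pushH 2 (locToCTRep S ℚ B q) x₀) := by
    rw [hy', push_infH2Loc]
  -- `j_N y' ≠ 0`
  have hjy0 : pushH 2 (locToCTRep S ℚ N q) y' ≠ 0 := by
    rw [hjy']
    intro h0
    apply hx₀
    apply hB
    apply hCT _ _ h0
    rw [← map_nsmul, hpx₀, map_zero]
  have hy0 : y' ≠ 0 := by
    intro h0
    apply hjy0
    rw [h0, map_zero]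
  -- proportionality
  obtain ⟨c, hc⟩ := exists_nsmul_eq_H2_repLoc N q.1 hp hpx' hpy' hy0
  have h1 : c • pushH 2 (locToCTRep S ℚ N q) y' = 0 := by
    rw [← map_nsmul, ← hc, hjx']
  have hpj : p • pushH 2 (locToCTRep S ℚ N q) y' = 0 := by
    rw [← map_nsmul, hpy', map_zero]
  have hdvd : p ∣ c := by
    by_contra hnd
    have hcop : Nat.Coprime p c := (Nat.Prime.coprime_iff_not_dvd hp).mpr hnd
    apply hjy0
    have h2 := (addOrderOf_dvd_iff_nsmul_eq_zero.mpr hpj)
    have h3 := (addOrderOf_dvd_iff_nsmul_eq_zero.mpr h1)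
    have h4 : addOrderOf (pushH 2 (locToCTRep S ℚ N q) y') ∣ 1 := by
      rw [← Nat.Coprime.gcd_eq_one hcop]
      exact Nat.dvd_gcd h2 h3
    exact AddMonoid.addOrderOf_eq_one_iff.mp (Nat.dvd_one.mp h4)
  obtain ⟨d, rfl⟩ := hdvd
  have hx0 : x' = 0 := by rw [hc, mul_comm, mul_smul, hpy', smul_zero]
  apply hLoc
  rw [← hx', hx0, map_zero]

end Core

end

end Fermat.Agent.PT.GLOB.LocalInjDefs14
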