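/-
Program F (S55), chapter GLOB, leaf (L1) `LocalInjectivity` (helper14): the explicit class and the
endgame.

* `pushH_kappa` : the cyclic class `kappa g a` is natural in the coefficient module;
* `pushH_locToCTRep_kappa` : `(j_q)_* κ(σ, a₀) = gkappa σ [a₀ at q]`;
* `localInjectivity_core'` : the proportionality argument with the weak hypothesis (one `p`-torsion
  class on the auxiliary layer `B` whose image in `H²(CT)` is nonzero);
* `localInjectivity_of` : (L1) from the three remaining inputs (explicit non-norm on a cyclic layer,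
  `p`-primary inflation for `CT`, composita).
-/
import Mathlib
import Fermat.Agent.PT.GLOB.LocalInjDefs14
import Fermat.Agent.PT.GLOB.LocInfl17
import Fermat.Agent.PT.GLOB.NormSubCT23
import Fermat.Agent.PT.GLOB.CyclicLayerH2_17

set_option autoImplicit false
set_option linter.unusedSectionVars false

namespace Fermat.Agent.PT.GLOB.LocalInjFinal14

open groupCohomology CategoryTheory NumberField
open scoped TensorProduct
open Fermat.Agent.PT.FG.Interface8 (pushH)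
open Fermat.Agent.PT.LOC.CyclicH2_12
open Fermat.Agent.PT.GLOB.Interface23 Fermat.Agent.PT.GLOB.ClassAction23
open Fermat.Agent.PT.GLOB.Tower23 Fermat.Agent.PT.GLOB.TowerEquiv23
open Fermat.Agent.PT.GLOB.InterfaceCF23
open Fermat.Agent.PT.GLOB.LocalCyclic14 Fermat.Agent.PT.GLOB.LocalInjDefs14
open Fermat.Agent.PT.GLOB.TowerCohCT23 Fermat.Agent.PT.GLOB.NormSubCT23
open Fermat.Agent.PT.GLOB.CyclicLayerH2_17

noncomputable section

/-- **Naturality of the cyclic class** in the coefficient module. -/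
theorem pushH_kappa {G : Type} [Group G] [Finite G] (g : G)
    (hg : ∀ x : G, x ∈ Subgroup.zpowers g) {A C : Rep ℤ G} (φ : A ⟶ C) {a : A}
    (ha : A.ρ g a = a) (hb : C.ρ g (φ.hom a) = φ.hom a) :
    pushH 2 φ (kappa g hg A ha) = kappa g hg C hb :=
  map_kappa_of_pow g hg g hg A C (MonoidHom.id G) φ (d := 1) (by simp) (by simp) ha hb

section Class

variable (S : Finset Nat.Primes) [DecidableEq S]
variable (B : Type) [Field B] [NumberField B] [IsGalois ℚ B]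

/-- The image of `(ℚ ⊗ ℚ_q)ˣ` in `(B ⊗ ℚ_q)ˣ` is fixed by `Gal(B/ℚ)`. -/
theorem smul_locUnitsMap_base (q : Nat.Primes) (σ : B ≃ₐ[ℚ] B) (a₀ : (Loc ℚ q)ˣ) :
    σ • locUnitsMap ℚ B q a₀ = locUnitsMap ℚ B q a₀ := by
  have h := locUnitsMap_smul ℚ ℚ B q σ a₀
  have h1 : (rn σ : ℚ ≃ₐ[ℚ] ℚ) = 1 := Subsingleton.elim _ _
  rw [h1, one_smul] at h
  exact h.symm

theorem rho_locUnitsMap_base (q : Nat.Primes) (σ : B ≃ₐ[ℚ] B) (a₀ : (Loc ℚ q)ˣ) :
    (repLoc ℚ B q).ρ σ (Additive.ofMul (locUnitsMap ℚ B q a₀)) =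
      Additive.ofMul (locUnitsMap ℚ B q a₀) :=
  congrArg Additive.ofMul (smul_locUnitsMap_base B q σ a₀)

/-- The local cyclic class `κ(σ, a₀) ∈ H²(Gal(B/ℚ), (B ⊗ ℚ_q)ˣ)` of `a₀ ∈ (ℚ ⊗ ℚ_q)ˣ`. -/
def lkappa (q : Nat.Primes) (σ : B ≃ₐ[ℚ] B) (hσ : ∀ τ, τ ∈ Subgroup.zpowers σ)
    (a₀ : (Loc ℚ q)ˣ) : H2 (repLoc ℚ B q) :=
  kappa σ hσ (repLoc ℚ B q) (rho_locUnitsMap_base B q σ a₀)

/-- `(j_q)_* κ(σ, a₀) = gkappa σ [a₀ at q]`. -/
theorem pushH_locToCTRep_lkappa (q : S) (σ : B ≃ₐ[ℚ] B) (hσ : ∀ τ, τ ∈ Subgroup.zpowers σ)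
    (a₀ : (Loc ℚ q.1)ˣ) :
    pushH 2 (locToCTRep S ℚ B q) (lkappa B q.1 σ hσ a₀) = gkappa S σ hσ (locToCT S q a₀) := by
  have hb : (repCT S ℚ B).ρ σ ((locToCTRep S ℚ B q).hom
      (Additive.ofMul (locUnitsMap ℚ B q.1 a₀))) =
      (locToCTRep S ℚ B q).hom (Additive.ofMul (locUnitsMap ℚ B q.1 a₀)) := by
    have h := Rep.hom_comm_apply (locToCTRep S ℚ B q) σ (Additive.ofMul (locUnitsMap ℚ B q.1 a₀))
    rw [← h, rho_locUnitsMap_base]
    rfl
  unfold lkappa gkappa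
  rw [pushH_kappa σ hσ (locToCTRep S ℚ B q) _ hb]
  refine kappa_congr σ hσ (repCT S ℚ B) ?_ _ _
  exact congrArg Additive.ofMul (inclCT_locToCT S ℚ B q a₀).symm

/-- If `a₀ ^ p` is a norm from `(B ⊗ ℚ_q)ˣ`, the class `κ(σ, a₀)` is killed by `p`. -/
theorem nsmul_lkappa_eq_zero (q : Nat.Primes) (σ : B ≃ₐ[ℚ] B)
    (hσ : ∀ τ, τ ∈ Subgroup.zpowers σ) (a₀ : (Loc ℚ q)ˣ) (p : ℕ) (z : (Loc B q)ˣ)
    (hz : (locUnitsMap ℚ B q a₀) ^ p = ∏ g : B ≃ₐ[ℚ] B, g • z) :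
    p • lkappa B q σ hσ a₀ = 0 := by
  set m : fixedSub (G := B ≃ₐ[ℚ] B) (Loc B q)ˣ :=
    ⟨locUnitsMap ℚ B q a₀, fun τ => smul_locUnitsMap_base B q τ a₀⟩ with hm
  have h1 : lkappa B q σ hσ a₀ = Multiplicative.toAdd (kappaFix σ hσ (Loc B q)ˣ m) := rfl
  have h2 : kappaFix σ hσ (Loc B q)ˣ (m ^ p) = 1 :=
    (kappaFix_eq_one_iff σ hσ _ (m ^ p)).mpr ⟨z, hz.symm⟩
  rw [h1, ← toAdd_pow, ← map_pow, h2]
  rfl

end Class

section Core

variable (S : Finset Nat.Primes) [DecidableEq S]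
variable (L B N : Type) [Field L] [Field B] [Field N] [NumberField L] [NumberField B]
  [NumberField N] [Algebra L N] [Algebra B N] [IsScalarTower ℚ L N] [IsScalarTower ℚ B N]
  [IsGalois ℚ L] [IsGalois ℚ B] [IsGalois ℚ N]

/-- **(L1), abstract core, weak form.**  `B/ℚ` an auxiliary layer carrying ONE local class `x₀`
killed by `p` whose image under `j_B` is nonzero; `N ⊇ L, B`.  If inflation `B → N` on `H²(·, CT)`
kills no `p`-torsion and inflation `L → N` on `H²(·, (· ⊗ ℚ_q)ˣ)` is injective, then `j_L` is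
injective on `p`-torsion. -/
theorem localInjectivity_core' {p : ℕ} (hp : p.Prime) (q : S)
    (hB : ∃ x₀ : H2 (repLoc ℚ B q.1), p • x₀ = 0 ∧ pushH 2 (locToCTRep S ℚ B q) x₀ ≠ 0)
    (hCT : ∀ y : H2 (repCT S ℚ B), p • y = 0 → infH2CT S ℚ B N y = 0 → y = 0)
    (hLoc : Function.Injective (infH2Loc ℚ L N q.1))
    (x : H2 (repLoc ℚ L q.1)) (hx : p • x = 0)
    (hjx : pushH 2 (locToCTRep S ℚ L q) x = 0) : x = 0 := by
  obtain ⟨x₀, hpx₀, hx₀⟩ := hB
  -- the two classes at level `N`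
  set x' := infH2Loc ℚ L N q.1 x with hx'
  set y' := infH2Loc ℚ B N q.1 x₀ with hy'
  have hpx' : p • x' = 0 := by rw [hx', ← map_nsmul, hx, map_zero]
  have hpy' : p • y' = 0 := by rw [hy', ← map_nsmul, hpx₀, map_zero]
  have hjx' : pushH 2 (locToCTRep S ℚ N q) x' = 0 := by
    rw [hx', push_infH2Loc, hjx, map_zero]
  have hjy' : pushH 2 (locToCTRep S ℚ N q) y' =
      infH2CT S ℚ B N (pushH 2 (locToCTRep S ℚ B q) x₀) := by
    rw [hy', push_infH2Loc]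
  -- `j_N y' ≠ 0`
  have hjy0 : pushH 2 (locToCTRep S ℚ N q) y' ≠ 0 := by
    rw [hjy']
    intro h0
    apply hx₀
    apply hCT _ _ h0
    rw [← map_nsmul, hpx₀, map_zero]
  have hy0 : y' ≠ 0 := by
    intro h0
    apply hjy0
    rw [h0, map_zero]
  -- proportionality
  obtain ⟨c, hc⟩ := exists_nsmul_eq_H2_repLoc N q.1 hp hpx' hpy' hy0
  have h1 : c • pushH 2 (locToCTRep S ℚ N q) y' = 0 := by
    rw [← map_nsmul, ← hc, hjx']
  have hpj : p • pushH 2 (locToCTRep S ℚ N q) y' = 0 := by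
    rw [← map_nsmul, hpy', map_zero]
  have hdvd : p ∣ c := by
    by_contra hnd
    have hcop : Nat.Coprime p c := (Nat.Prime.coprime_iff_not_dvd hp).mpr hnd
    apply hjy0
    have h2 := (addOrderOf_dvd_iff_nsmul_eq_zero.mpr hpj)
    have h3 := (addOrderOf_dvd_iff_nsmul_eq_zero.mpr h1)
    have h4 : addOrderOf (pushH 2 (locToCTRep S ℚ N q) y') ∣ 1 := by
      rw [← Nat.Coprime.gcd_eq_one hcop]
      exact Nat.dvd_gcd h2 h3
    exact AddMonoid.addOrderOf_eq_one_iff.mp (Nat.dvd_one.mp h4)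
  obtain ⟨d, rfl⟩ := hdvd
  have hx0 : x' = 0 := by rw [hc, mul_comm, mul_smul, hpy', smul_zero]
  apply hLoc
  rw [← hx', hx0, map_zero]

end Core

section Assembly

variable (p : ℕ) (S : Finset Nat.Primes)

/-- Input 1 (helper22): on a suitable cyclic layer `B/ℚ` there is `a₀ ∈ (ℚ ⊗ ℚ_q)ˣ` whose `p`-th
power is a local norm from `B` but whose idele class `[a₀ at q]` is not a norm from `CT S B`. -/
def NonNormInput [DecidableEq S] : Prop :=
  ∀ q : S, ∃ (B : Type) (_ : Field B) (_ : NumberField B) (_ : IsGalois ℚ B)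
    (_ : IsUnramifiedOutside S ℚ B) (σ : B ≃ₐ[ℚ] B) (_ : ∀ τ, τ ∈ Subgroup.zpowers σ)
    (a₀ : (Loc ℚ q.1)ˣ) (z : (Loc B q.1)ˣ),
    (locUnitsMap ℚ B q.1 a₀) ^ p = ∏ g : B ≃ₐ[ℚ] B, g • z ∧
      locToCT S q a₀ ∉ normSubCT S ℚ B

/-- Input 2 (helper8): inflation on `H²(·, CT)` kills no `p`-torsion. -/
def InfPrimaryInput : Prop :=
  ∀ (B N : Type) [Field B] [Field N] [NumberField B] [NumberField N] [Algebra B N]
    [IsScalarTower ℚ B N] [IsGalois ℚ B] [IsGalois ℚ N], IsUnramifiedOutside S ℚ N →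
    ∀ y : H2 (repCT S ℚ B), p • y = 0 → infH2CT S ℚ B N y = 0 → y = 0

/-- Input 3 (field kit): composita of Galois number fields unramified outside `S`. -/
def CompositumInput : Prop :=
  ∀ (L B : Type) [Field L] [Field B] [NumberField L] [NumberField B] [IsGalois ℚ L]
    [IsGalois ℚ B], IsUnramifiedOutside S ℚ L → IsUnramifiedOutside S ℚ B →
    ∃ (N : Type) (_ : Field N) (_ : NumberField N) (_ : Algebra L N) (_ : Algebra B N)
      (_ : IsGalois ℚ N), IsUnramifiedOutside S ℚ N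

/-- **(L1) from its three inputs.** -/
theorem localInjectivity_of (hp : p.Prime)
    (h1 : ∀ [DecidableEq S], NonNormInput p S) (h2 : InfPrimaryInput p S)
    (h3 : CompositumInput S)
    (L : Type) [Field L] [NumberField L] [IsGalois ℚ L] [DecidableEq S]
    (hun : IsUnramifiedOutside S ℚ L) (q : S) (x : H2 (repLoc ℚ L q.1)) (hx : p • x = 0)
    (hjx : pushH 2 (locToCTRep S ℚ L q) x = 0) : x = 0 := by
  obtain ⟨B, _, _, _, hunB, σ, hσ, a₀, z, hz, hnn⟩ := h1 q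
  obtain ⟨N, _, _, _, _, _, hunN⟩ := h3 L B hun hunB
  have : IsScalarTower ℚ L N := IsScalarTower.of_algebraMap_eq' (Subsingleton.elim _ _)
  have : IsScalarTower ℚ B N := IsScalarTower.of_algebraMap_eq' (Subsingleton.elim _ _)
  refine localInjectivity_core' S L B N hp q ?_ (h2 B N hunN)
    (infH2Loc_injective ℚ L N q.1 (LocInfl17.h1Vanishes_repLoc L N q.1)) x hx hjx
  refine ⟨lkappa B q.1 σ hσ a₀, nsmul_lkappa_eq_zero B q.1 σ hσ a₀ p z hz, ?_⟩
  rw [pushH_locToCTRep_lkappa, Ne, gkappa_eq_zero_iff_mem]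
  exact hnn

end Assembly

end

end Fermat.Agent.PT.GLOB.LocalInjFinal14
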