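/-
Program F (S55, Poitou–Tate), chapter GLOB, leaf (L1-IDEM) (helper17).

**Norms in a semilocal Galois algebra.**  Let `A` be a reduced Artinian ring, `G` a finite group
acting on `A` by ring automorphisms (`s : G →* (A ≃+* A)`), transitively on the maximal ideals.
For a `G`-fixed unit `a` and a maximal ideal `m` with stabilizer of order `n`, the unit
`z = 1 + e_m (a - 1)` (`e_m` the primitive idempotent at `m`) has norm `∏_g g z = a ^ n`.

Application: `A = L ⊗ ℚ_q`, `G = Gal(L/K)`: `a ^ #Stab(P)` is a norm from `(L ⊗ ℚ_q)ˣ` for every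
`Gal(L/K)`-fixed unit `a` (`P` a prime of `L` above `q`, `Gal(L/K)` transitive on the primes above
`q`), hence `#Stab(P) • kappa σ a = 0` in `H²(Gal(L/K), (L ⊗ ℚ_q)ˣ)`.
-/
import Fermat.Agent.PT.GLOB.SemiLocalHerbrand24
import Fermat.Agent.PT.GLOB.CyclicLayerH2_17
import Fermat.Agent.PT.GLOB.InterfaceCF23

set_option autoImplicit false
set_option linter.unusedSectionVars false

namespace Fermat.Agent.PT.GLOB.IdemNorm17

open Fermat.Agent.PT.GLOB.SemiLocalHerbrand24 Fermat.Agent.PT.GLOB.IdemUnits24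

noncomputable section

section Generic

variable {A : Type*} [CommRing A] [IsArtinianRing A] [IsReduced A]
variable {G : Type*} [Group G] [Fintype G] (s : G →* (A ≃+* A))

/-- The unit `1 + e_m (a - 1)`. -/
def blockUnit (m : MaximalSpectrum A) : Aˣ →* Aˣ := projU (idem A m) (idem_mul_self m)

theorem coe_blockUnit (m : MaximalSpectrum A) (a : Aˣ) :
    ((blockUnit m a : Aˣ) : A) = 1 + idem A m * ((a : A) - 1) := rfl

theorem map_blockUnit (g : G) (m : MaximalSpectrum A) (a : Aˣ) (ha : s g (a : A) = a) :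
    s g ((blockUnit m a : Aˣ) : A) = ((blockUnit (maxPerm (s g) m) a : Aˣ) : A) := by
  rw [coe_blockUnit, coe_blockUnit, map_add, map_one, map_mul, map_sub, map_one, ha, map_idem]

theorem maxPerm_mul_apply (g h : G) (m : MaximalSpectrum A) :
    maxPerm (s (g * h)) m = maxPerm (s g) (maxPerm (s h) m) := by
  rw [map_mul, maxPerm_mul, Equiv.Perm.mul_apply]

open Classical in
/-- All fibres of `g ↦ g • m` over the orbit have the cardinality of the stabilizer. -/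
theorem card_fiber_eq (m m' : MaximalSpectrum A) (g₀ : G) (hg₀ : maxPerm (s g₀) m = m') :
    (Finset.univ.filter fun g : G => maxPerm (s g) m = m').card =
      (Finset.univ.filter fun g : G => maxPerm (s g) m = m).card := by
  symm
  refine Finset.card_bij (fun h _ => g₀ * h) ?_ ?_ ?_
  · intro h hh
    rw [Finset.mem_filter] at hh ⊢
    refine ⟨Finset.mem_univ _, ?_⟩
    rw [maxPerm_mul_apply, hh.2, hg₀]
  · intro h _ h' _ hhh'
    exact mul_left_cancel hhh'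
  · intro g hg
    rw [Finset.mem_filter] at hg
    refine ⟨g₀⁻¹ * g, ?_, by rw [mul_inv_cancel_left]⟩
    rw [Finset.mem_filter]
    refine ⟨Finset.mem_univ _, ?_⟩
    apply (maxPerm (s g₀)).injective
    rw [← maxPerm_mul_apply, mul_inv_cancel_left, hg.2, hg₀]

open Classical in
/-- **The norm of a block unit**: `∏_g g(1 + e_m (a - 1)) = a ^ #Stab(m)` when `G` is transitive
on the maximal ideals and `a` is `G`-fixed. -/
theorem prod_map_blockUnit (htrans : ∀ m m' : MaximalSpectrum A, ∃ g : G, maxPerm (s g) m = m')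
    (a : Aˣ) (ha : ∀ g : G, s g (a : A) = a) (m : MaximalSpectrum A) :
    ∏ g : G, s g ((blockUnit m a : Aˣ) : A) =
      (a : A) ^ (Finset.univ.filter fun g : G => maxPerm (s g) m = m).card := by
  haveI : Fintype (MaximalSpectrum A) := Fintype.ofFinite _
  set n := (Finset.univ.filter fun g : G => maxPerm (s g) m = m).card with hn
  have h1 : ∏ g : G, s g ((blockUnit m a : Aˣ) : A) =
      ∏ g : G, (fun m' : MaximalSpectrum A => ((blockUnit m' a : Aˣ) : A))
        (maxPerm (s g) m) :=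
    Finset.prod_congr rfl fun g _ => map_blockUnit s g m a (ha g)
  rw [h1, Finset.prod_comp (fun m' : MaximalSpectrum A => ((blockUnit m' a : Aˣ) : A))
    (fun g : G => maxPerm (s g) m)]
  have himg : Finset.univ.image (fun g : G => maxPerm (s g) m) = Finset.univ := by
    apply Finset.eq_univ_of_forall
    intro m'
    obtain ⟨g, hg⟩ := htrans m m'
    exact Finset.mem_image.mpr ⟨g, Finset.mem_univ _, hg⟩
  rw [himg]
  have h2 : ∀ m' ∈ (Finset.univ : Finset (MaximalSpectrum A)),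
      ((blockUnit m' a : Aˣ) : A) ^ (Finset.univ.filter fun g : G => maxPerm (s g) m = m').card =
        ((blockUnit m' a : Aˣ) : A) ^ n := by
    intro m' _
    obtain ⟨g₀, hg₀⟩ := htrans m m'
    rw [card_fiber_eq s m m' g₀ hg₀]
  rw [Finset.prod_congr rfl h2, Finset.prod_pow]
  congr 1
  simp only [coe_blockUnit]
  rw [prod_one_add_mul (idem A) (fun i j hij => idem_mul_of_ne hij), sum_idem]
  ring

end Generic

/-! ### The semilocal algebra `L ⊗ ℚ_q` -/

section Tensor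

open scoped TensorProduct
open NumberField IsDedekindDomain HeightOneSpectrum
open Fermat.Agent.PT.GLOB.Interface23 Fermat.Agent.PT.GLOB.PlaceBridge24

variable {K L : Type} [Field K] [Field L] [NumberField K] [NumberField L] [Algebra K L]
  (q : ℕ) [Fact q.Prime]

/-- `SemiLocalHerbrand24.tAut` as a monoid homomorphism. -/
def tAutHom : (L ≃ₐ[K] L) →* ((L ⊗[ℚ] ℚ_[q]) ≃+* (L ⊗[ℚ] ℚ_[q])) where
  toFun σ := tAut q σ
  map_one' := by
    ext z
    rw [tAut_apply, one_smul]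
    rfl
  map_mul' σ τ := by
    ext z
    rw [tAut_apply, mul_smul]
    rfl

theorem tAutHom_apply (σ : L ≃ₐ[K] L) (z : L ⊗[ℚ] ℚ_[q]) :
    tAutHom (K := K) q σ z = σ • z := rfl

variable {q}

open Classical in
/-- The number of `σ` fixing the maximal ideal `m` is the order of the decomposition group of the
prime `placeOf m`. -/
theorem card_filter_maxPerm (m : MaximalSpectrum (L ⊗[ℚ] ℚ_[q])) :
    (Finset.univ.filter fun σ : L ≃ₐ[K] L => maxPerm (tAutHom (K := K) q σ) m = m).card =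
      Nat.card (MulAction.stabilizer (L ≃ₐ[K] L) (placeOf m)) := by
  rw [Nat.card_eq_fintype_card, Fintype.card_subtype]
  congr 1
  ext σ
  simp only [Finset.mem_filter, Finset.mem_univ, true_and, MulAction.mem_stabilizer_iff]
  exact maxPerm_eq_self_iff σ m

/-- **(L1-IDEM)**.  If `Gal(L/K)` permutes the primes of `L` above `q` transitively, then for every
`Gal(L/K)`-fixed unit `a` of `L ⊗ ℚ_q` and every prime `P = placeOf m` above `q`, the power
`a ^ #Stab(P)` is a norm from `(L ⊗ ℚ_q)ˣ`. -/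
theorem exists_prod_smul_eq_pow
    (htrans : ∀ P P' : HeightOneSpectrum (𝓞 L), (q : 𝓞 L) ∈ P.asIdeal → (q : 𝓞 L) ∈ P'.asIdeal →
      ∃ σ : L ≃ₐ[K] L, σ • P = P')
    (a : (L ⊗[ℚ] ℚ_[q])ˣ) (ha : ∀ σ : L ≃ₐ[K] L, σ • a = a)
    (m : MaximalSpectrum (L ⊗[ℚ] ℚ_[q])) :
    ∃ z : (L ⊗[ℚ] ℚ_[q])ˣ, ∏ σ : L ≃ₐ[K] L, σ • z =
      a ^ Nat.card (MulAction.stabilizer (L ≃ₐ[K] L) (placeOf m)) := by
  classical
  refine ⟨blockUnit m a, ?_⟩
  have htr : ∀ m₁ m₂ : MaximalSpectrum (L ⊗[ℚ] ℚ_[q]),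
      ∃ σ : L ≃ₐ[K] L, maxPerm (tAutHom (K := K) q σ) m₁ = m₂ := by
    intro m₁ m₂
    obtain ⟨σ, hσ⟩ := htrans (placeOf m₁) (placeOf m₂) (natCast_mem_placeOf m₁)
      (natCast_mem_placeOf m₂)
    refine ⟨σ, placeOf_injective ?_⟩
    rw [← hσ]
    exact placeOf_maxPerm σ m₁
  have ha' : ∀ σ : L ≃ₐ[K] L, tAutHom (K := K) q σ (a : L ⊗[ℚ] ℚ_[q]) = a := by
    intro σ
    rw [tAutHom_apply, ← coe_smul_unitsTensor, ha σ]
  have key := prod_map_blockUnit (tAutHom (K := K) q) htr a ha' m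
  rw [card_filter_maxPerm] at key
  apply Units.ext
  rw [Units.coe_prod, Units.val_pow_eq_pow_val, ← key]
  exact Finset.prod_congr rfl fun σ _ => rfl

end Tensor

/-! ### The case `K = ℚ` -/

section Rat

open scoped TensorProduct
open NumberField IsDedekindDomain HeightOneSpectrum
open Fermat.Agent.PT.GLOB.Interface23 Fermat.Agent.PT.GLOB.PlaceBridge24

variable {L : Type} [Field L] [NumberField L] [IsGalois ℚ L] {q : ℕ} [Fact q.Prime]

/-- The prime of `ℤ` below a prime of `𝓞 L` containing `q`. -/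
theorem under_int_eq_span (P : HeightOneSpectrum (𝓞 L)) (hP : (q : 𝓞 L) ∈ P.asIdeal) :
    P.asIdeal.under ℤ = Ideal.span {(q : ℤ)} := by
  have hq : Prime (q : ℤ) := Nat.prime_iff_prime_int.mp (Fact.out : q.Prime)
  have hmax : (Ideal.span {(q : ℤ)}).IsMaximal :=
    PrincipalIdealRing.isMaximal_of_irreducible hq.irreducible
  have hprime : (P.asIdeal.under ℤ).IsPrime := Ideal.IsPrime.under ℤ P.asIdeal
  refine (hmax.eq_of_le hprime.ne_top ?_).symm
  rw [Ideal.span_singleton_le_iff_mem, Ideal.mem_comap, map_natCast]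
  exact hP

/-- `Gal(L/ℚ)` permutes the primes above `q` transitively. -/
theorem exists_smul_eq_of_natCast_mem (P P' : HeightOneSpectrum (𝓞 L))
    (hP : (q : 𝓞 L) ∈ P.asIdeal) (hP' : (q : 𝓞 L) ∈ P'.asIdeal) :
    ∃ σ : L ≃ₐ[ℚ] L, σ • P = P' := by
  have hu : P.asIdeal.under (𝓞 ℚ) = P'.asIdeal.under (𝓞 ℚ) := by
    ext x
    obtain ⟨n, rfl⟩ : ∃ n : ℤ, algebraMap ℤ (𝓞 ℚ) n = x :=
      ⟨Rat.ringOfIntegersEquiv x, by
        apply Rat.ringOfIntegersEquiv.injective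
        rw [eq_intCast, map_intCast, Int.cast_id]⟩
    have h1 : ∀ Q : HeightOneSpectrum (𝓞 L), algebraMap ℤ (𝓞 ℚ) n ∈ Q.asIdeal.under (𝓞 ℚ) ↔
        n ∈ Q.asIdeal.under ℤ := by
      intro Q
      rw [Ideal.mem_comap, Ideal.mem_comap, ← IsScalarTower.algebraMap_apply]
    rw [h1, h1, under_int_eq_span P hP, under_int_eq_span P' hP']
  obtain ⟨τ, hτ⟩ := Algebra.IsInvariant.exists_smul_of_under_eq (𝓞 ℚ) (𝓞 L) (L ≃ₐ[ℚ] L)
    P.asIdeal P'.asIdeal hu
  exact ⟨τ, (HeightOneSpectrum.ext hτ).symm⟩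

/-- **(L1-IDEM) over `ℚ`**: for `L/ℚ` Galois, `a` a `Gal(L/ℚ)`-fixed unit of `L ⊗ ℚ_q` and `P` a
prime of `L` above `q`, `a ^ #D_P` is a norm from `(L ⊗ ℚ_q)ˣ`. -/
theorem exists_prod_smul_eq_pow_rat (a : (L ⊗[ℚ] ℚ_[q])ˣ) (ha : ∀ σ : L ≃ₐ[ℚ] L, σ • a = a)
    (m : MaximalSpectrum (L ⊗[ℚ] ℚ_[q])) :
    ∃ z : (L ⊗[ℚ] ℚ_[q])ˣ, ∏ σ : L ≃ₐ[ℚ] L, σ • z =
      a ^ Nat.card (MulAction.stabilizer (L ≃ₐ[ℚ] L) (placeOf m)) :=
  exists_prod_smul_eq_pow exists_smul_eq_of_natCast_mem a ha m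

/-- The same with the prime `P` of `𝓞 L` above `q` as the parameter. -/
theorem exists_prod_smul_eq_pow_prime (a : (L ⊗[ℚ] ℚ_[q])ˣ) (ha : ∀ σ : L ≃ₐ[ℚ] L, σ • a = a)
    (P : HeightOneSpectrum (𝓞 L)) (hP : (q : 𝓞 L) ∈ P.asIdeal) :
    ∃ z : (L ⊗[ℚ] ℚ_[q])ˣ, ∏ σ : L ≃ₐ[ℚ] L, σ • z =
      a ^ Nat.card (MulAction.stabilizer (L ≃ₐ[ℚ] L) P) := by
  obtain ⟨m, rfl⟩ := exists_placeOf_eq P hP
  exact exists_prod_smul_eq_pow_rat a ha m

end Rat

/-! ### Cohomological form: `#D_P • κ(a) = 0` -/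

section Kappa

open scoped TensorProduct
open NumberField IsDedekindDomain HeightOneSpectrum groupCohomology
open Fermat.Agent.PT.GLOB.Interface23 Fermat.Agent.PT.GLOB.PlaceBridge24
open Fermat.Agent.PT.GLOB.InterfaceCF23 Fermat.Agent.PT.GLOB.CyclicLayerH2_17
open Fermat.Agent.PT.LOC.CyclicH2_12

variable {L : Type} [Field L] [NumberField L] [IsGalois ℚ L] (q : Nat.Primes)
  (g : L ≃ₐ[ℚ] L) (hg : ∀ x : L ≃ₐ[ℚ] L, x ∈ Subgroup.zpowers g)

/-- For `L/ℚ` cyclic with generator `g` and `P` a prime of `L` above `q`: the cyclic class of a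
`Gal(L/ℚ)`-fixed unit of `L ⊗ ℚ_q` is killed by the order of the decomposition group of `P`. -/
theorem kappaFix_pow_card_stabilizer (a : fixedSub (G := L ≃ₐ[ℚ] L) (Loc L q)ˣ)
    (P : HeightOneSpectrum (𝓞 L)) (hP : (((q : ℕ) : ℕ) : 𝓞 L) ∈ P.asIdeal) :
    kappaFix g hg (Loc L q)ˣ a ^ Nat.card (MulAction.stabilizer (L ≃ₐ[ℚ] L) P) = 1 := by
  rw [← map_pow, kappaFix_eq_one_iff]
  obtain ⟨z, hz⟩ := exists_prod_smul_eq_pow_prime (L := L) (q := (q : ℕ)) (a : (Loc L q)ˣ)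
    a.2 P hP
  exact ⟨z, hz⟩

/-- Additive form on `H² (repLoc ℚ L q)` with helper12's `kappa`. -/
theorem card_stabilizer_nsmul_kappa (a : (Loc L q)ˣ) (ha : ∀ σ : L ≃ₐ[ℚ] L, σ • a = a)
    (P : HeightOneSpectrum (𝓞 L)) (hP : (((q : ℕ) : ℕ) : 𝓞 L) ∈ P.asIdeal) :
    Nat.card (MulAction.stabilizer (L ≃ₐ[ℚ] L) P) •
      kappa g hg (repLoc ℚ L q) (a := Additive.ofMul a)
        (rho_of_mem_fixedSub g (Loc L q)ˣ (m := a) ha) = 0 := by
  have h := kappaFix_pow_card_stabilizer q g hg ⟨a, ha⟩ P hP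
  rw [kappaFix_apply, ← ofAdd_nsmul, ← ofAdd_zero] at h
  exact Multiplicative.ofAdd.injective h

end Kappa

end

end Fermat.Agent.PT.GLOB.IdemNorm17
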