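/-
Program F (S55, Poitou–Tate), chapter GLOB, leaf (L1-PTORS) (helper17).

Glue of `IdemNorm17` (L1-IDEM) and `DecompFrob17` (L1-FROB): for the cyclotomic `p`-layer
`B = pLayer p r ℚ M` of `M = ℚ(ζ_{p^r})` and a prime `q ≠ p` with `q^((p-1)p) ≡ 1 mod p^r`
(i.e. `q` splits completely in the sublayer of index `p`), the `p`-th power of every
`Gal(B/ℚ)`-fixed unit of `B ⊗ ℚ_q` is a norm from `(B ⊗ ℚ_q)ˣ`.
-/
import Fermat.Agent.PT.GLOB.IdemNorm17
import Fermat.Agent.PT.GLOB.DecompFrob17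

set_option autoImplicit false
set_option linter.unusedSectionVars false

namespace Fermat.Agent.PT.GLOB.LocalPTorsion17

open NumberField IsDedekindDomain HeightOneSpectrum
open scoped TensorProduct Pointwise
open Fermat.Agent.PT.GLOB.Interface23 Fermat.Agent.PT.GLOB.PlaceBridge24
open Fermat.Agent.PT.GLOB.CycloPLayer22

noncomputable section

section Bridge

variable (K L : Type*) [Field K] [Field L] [NumberField K] [NumberField L] [Algebra K L]

/-- The decomposition group for the `Interface23` action on `HeightOneSpectrum (𝓞 L)` is the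
stabilizer of the underlying ideal. -/
theorem stabilizer_heightOne_eq (P : HeightOneSpectrum (𝓞 L)) :
    MulAction.stabilizer (L ≃ₐ[K] L) P = MulAction.stabilizer (L ≃ₐ[K] L) P.asIdeal := by
  ext σ
  rw [MulAction.mem_stabilizer_iff, MulAction.mem_stabilizer_iff, ← smul_asIdeal]
  exact HeightOneSpectrum.ext_iff

end Bridge

section Main

/-- Generic glue: if all decomposition groups above `q` have order dividing `k`, then the `k`-th
power of a `Gal(L/ℚ)`-fixed unit of `L ⊗ ℚ_q` is a norm. -/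
theorem exists_prod_smul_eq_pow_of_card_dvd {L : Type} [Field L] [NumberField L] [IsGalois ℚ L]
    (q : Nat.Primes) (k : ℕ)
    (hD : ∀ P : Ideal (𝓞 L), P.IsPrime → (((q : ℕ) : ℕ) : 𝓞 L) ∈ P →
      Nat.card (MulAction.stabilizer (L ≃ₐ[ℚ] L) P) ∣ k)
    (a : (Loc L q)ˣ) (ha : ∀ σ : L ≃ₐ[ℚ] L, σ • a = a) :
    ∃ z : (Loc L q)ˣ, ∏ σ : L ≃ₐ[ℚ] L, σ • z = a ^ k := by
  obtain ⟨I, hI⟩ := Ideal.exists_maximal (Loc L q)
  set m : MaximalSpectrum (L ⊗[ℚ] ℚ_[(q : ℕ)]) := ⟨I, hI⟩ with hm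
  obtain ⟨z, hz⟩ := IdemNorm17.exists_prod_smul_eq_pow_rat (q := (q : ℕ)) a ha m
  have hdvd : Nat.card (MulAction.stabilizer (L ≃ₐ[ℚ] L) (placeOf m)) ∣ k := by
    rw [stabilizer_heightOne_eq]
    exact hD (placeOf m).asIdeal (placeOf m).isPrime (natCast_mem_placeOf m)
  obtain ⟨c, hc⟩ := hdvd
  refine ⟨z ^ c, ?_⟩
  rw [hc, pow_mul, ← hz, ← Finset.prod_pow]
  exact Finset.prod_congr rfl fun σ _ => smul_pow' σ z c

variable (p : ℕ) [hp : Fact p.Prime] (r : ℕ) (M : Type) [Field M] [NumberField M]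
  [IsCyclotomicExtension {p ^ r} ℚ M]

/-- **(L1-PTORS)**: in the `p`-layer `B` of `ℚ(ζ_{p^r})`, for `q ≠ p` with
`q^((p-1)p) ≡ 1 mod p^r`, the `p`-th power of a `Gal(B/ℚ)`-fixed unit of `B ⊗ ℚ_q` is a norm. -/
theorem exists_prod_smul_eq_pow_p [IsGalois ℚ (pLayer p r ℚ M)] (q : Nat.Primes)
    (hqp : (q : ℕ) ≠ p) (hk : ((q : ℕ) : ZMod (p ^ r)) ^ ((p - 1) * p) = 1)
    (a : (Loc (pLayer p r ℚ M) q)ˣ)
    (ha : ∀ σ : pLayer p r ℚ M ≃ₐ[ℚ] pLayer p r ℚ M, σ • a = a) :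
    ∃ z : (Loc (pLayer p r ℚ M) q)ˣ,
      ∏ σ : pLayer p r ℚ M ≃ₐ[ℚ] pLayer p r ℚ M, σ • z = a ^ p :=
  exists_prod_smul_eq_pow_of_card_dvd q p
    (fun P hP hqP => DecompFrob17.card_stabilizer_pLayer_rat_dvd p r M (q : ℕ) q.2 hqp P hqP p hk)
    a ha

/-- `Gal(B/ℚ)` for the canonical `ℚ`-algebra structure on the `p`-layer. -/
theorem isGalois_pLayer_rat : IsGalois ℚ (pLayer p r ℚ M) := isGalois_pLayer p r ℚ M

end Main

section Level

/-! ### Arithmetic: the choice of the level `r` -/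

theorem pow_succ_dvd_pow_sub_one {a : ℤ} {p v : ℕ} (hv : 1 ≤ v) (h : (p : ℤ) ^ v ∣ a - 1) :
    (p : ℤ) ^ (v + 1) ∣ a ^ p - 1 := by
  have h1 : (p : ℤ) ∣ a - 1 := dvd_trans (dvd_pow_self _ (by omega)) h
  have h2 : (p : ℤ) ∣ ∑ i ∈ Finset.range p, a ^ i := by
    have h3 : (p : ℤ) ∣ ∑ i ∈ Finset.range p, (a ^ i - 1) :=
      Finset.dvd_sum fun i _ => dvd_trans h1 (by simpa using sub_dvd_pow_sub_pow a 1 i)
    have h4 : ∑ i ∈ Finset.range p, a ^ i = ∑ i ∈ Finset.range p, (a ^ i - 1) + p := by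
      rw [Finset.sum_sub_distrib]
      simp
    rw [h4]
    exact dvd_add h3 (dvd_refl _)
  rw [← geom_sum_mul a p, pow_succ, mul_comm]
  exact mul_dvd_mul h2 h

theorem zmod_natCast_pow_eq_one_iff (n q k : ℕ) :
    ((q : ZMod n)) ^ k = 1 ↔ (n : ℤ) ∣ (q : ℤ) ^ k - 1 := by
  rw [← ZMod.intCast_zmod_eq_zero_iff_dvd]
  push_cast
  rw [sub_eq_zero]

/-- **Choice of the level**: for primes `q ≠ p` there is `r ≥ 2` with `q^(p-1) ≢ 1 mod p^r` but
`q^((p-1)p) ≡ 1 mod p^r`. -/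
theorem exists_level_split (p q : ℕ) (hp : p.Prime) (hq : q.Prime) (hqp : q ≠ p) :
    ∃ r : ℕ, 2 ≤ r ∧ ((q : ZMod (p ^ r))) ^ (p - 1) ≠ 1 ∧
      ((q : ZMod (p ^ r))) ^ ((p - 1) * p) = 1 := by
  have hq2 : 2 ≤ q := hq.two_le
  have hp1 : 1 ≤ p - 1 := by have := hp.two_le; omega
  have hN : q ^ (p - 1) - 1 ≠ 0 := by
    have : 2 ≤ q ^ (p - 1) := le_trans hq2 (Nat.le_self_pow (by omega) q)
    omega
  obtain ⟨e, n', hn', hN'⟩ := Nat.exists_eq_pow_mul_and_not_dvd hN p hp.ne_one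
  have hcast : ((q ^ (p - 1) - 1 : ℕ) : ℤ) = (q : ℤ) ^ (p - 1) - 1 := by
    rw [Nat.cast_sub (Nat.one_le_pow _ _ hq.pos)]
    push_cast
    rfl
  have hdvdp : (p : ℤ) ∣ (q : ℤ) ^ (p - 1) - 1 := by
    have := Fact.mk hp
    have hq0 : (q : ZMod p) ≠ 0 := by
      rw [Ne, ZMod.natCast_eq_zero_iff]
      intro h
      exact hqp ((Nat.prime_dvd_prime_iff_eq hp hq).mp h).symm
    have := ZMod.pow_card_sub_one_eq_one hq0
    have h2 := (zmod_natCast_pow_eq_one_iff p q (p - 1)).mp this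
    exact h2
  have he : 1 ≤ e := by
    by_contra hcon
    have he0 : e = 0 := by omega
    rw [he0, pow_zero, one_mul] at hN'
    apply hn'
    rw [← hN']
    have := hdvdp
    rw [← hcast] at this
    exact_mod_cast this
  refine ⟨e + 1, by omega, ?_, ?_⟩
  · intro h
    have h2 := (zmod_natCast_pow_eq_one_iff (p ^ (e + 1)) q (p - 1)).mp h
    rw [← hcast] at h2
    have h3 : p ^ (e + 1) ∣ q ^ (p - 1) - 1 := by exact_mod_cast h2
    rw [hN', pow_succ] at h3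
    exact hn' (Nat.dvd_of_mul_dvd_mul_left (pow_pos hp.pos e) h3)
  · rw [pow_mul, ← Nat.cast_pow q (p - 1)]
    rw [zmod_natCast_pow_eq_one_iff]
    push_cast
    apply pow_succ_dvd_pow_sub_one he
    rw [← hcast, hN']
    push_cast
    exact Dvd.intro _ rfl

end Level

end

end Fermat.Agent.PT.GLOB.LocalPTorsion17
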