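/-
Program F (S55, Poitou–Tate), chapter GLOB, leaf (L1, case `q = p`, conjunct (i)) (helper17).

For the `p`-layer `B = pLayer p 2 K M` of `M = K(ζ_{p²})` (`p` odd): every element of `Gal(B/K)` has
order dividing `p`, hence `#Gal(B/K) ∣ p` (`Gal(B/K)` is cyclic).  Consequently, over `ℚ`, the
`p`-th power of a `Gal(B/ℚ)`-fixed unit `a` of `B ⊗ ℚ_q` is the norm of `a ^ (p / #G)`.
-/
import Fermat.Agent.PT.GLOB.LocalPTorsion17

set_option autoImplicit false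
set_option linter.unusedSectionVars false

namespace Fermat.Agent.PT.GLOB.LocalPTorsionP17

open NumberField
open scoped TensorProduct
open Fermat.Agent.PT.GLOB.Interface23 Fermat.Agent.PT.GLOB.CycloPLayer22

universe u v

noncomputable section

section General

variable (p : ℕ) [hp : Fact p.Prime] (K : Type u) (M : Type v) [Field K] [Field M] [Algebra K M]
  [IsCyclotomicExtension {p ^ 2} K M]

/-- Every element of the Galois group of the `p`-layer of `K(ζ_{p²})` is killed by `p`. -/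
theorem pow_p_eq_one (g : pLayer p 2 K M ≃ₐ[K] pLayer p 2 K M) : g ^ p = 1 := by
  have hgal := isGalois_top p 2 K M
  have hgalB := isGalois_pLayer p 2 K M
  obtain ⟨σ, rfl⟩ := AlgEquiv.restrictNormalHom_surjective (F := K) (K₁ := pLayer p 2 K M) M g
  apply psi_injective p 2 K M
  rw [map_pow, map_one, psi_restrict, ← pow_mul]
  have hcard : Fintype.card (ZMod (p ^ 2))ˣ = (p - 1) * p := by
    rw [ZMod.card_units_eq_totient, Nat.totient_prime_pow hp.out (by norm_num)]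
    rw [show 2 - 1 = 1 from rfl, pow_one, mul_comm]
  rw [← hcard]
  exact pow_card_eq_one

/-- `#Gal(B/K) ∣ p` for the `p`-layer `B` of `K(ζ_{p²})`, `p` odd. -/
theorem card_gal_dvd (hp2 : p ≠ 2) :
    Nat.card (pLayer p 2 K M ≃ₐ[K] pLayer p 2 K M) ∣ p := by
  have hcyc := isCyclic_gal_pLayer p 2 K M hp2
  rw [← IsCyclic.exponent_eq_card]
  exact Monoid.exponent_dvd_of_forall_pow_eq_one (pow_p_eq_one p K M)

end General

section Rat

variable (p : ℕ) [hp : Fact p.Prime] (M : Type) [Field M] [NumberField M]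
  [IsCyclotomicExtension {p ^ 2} ℚ M]

/-- `#Gal(B/ℚ) ∣ p` (canonical `ℚ`-algebra structure on `B`). -/
theorem card_gal_dvd_rat (hp2 : p ≠ 2) :
    Nat.card (pLayer p 2 ℚ M ≃ₐ[ℚ] pLayer p 2 ℚ M) ∣ p :=
  card_gal_dvd p ℚ M hp2

/-- **(L1, `q = p`, conjunct (i))**: the `p`-th power of a `Gal(B/ℚ)`-fixed unit of `B ⊗ ℚ_q` is a
norm from `(B ⊗ ℚ_q)ˣ`, for `B` the `p`-layer of `ℚ(ζ_{p²})`. -/
theorem exists_prod_smul_eq_pow_p_self (hp2 : p ≠ 2) (q : Nat.Primes)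
    (a : (Loc (pLayer p 2 ℚ M) q)ˣ)
    (ha : ∀ σ : pLayer p 2 ℚ M ≃ₐ[ℚ] pLayer p 2 ℚ M, σ • a = a) :
    ∃ z : (Loc (pLayer p 2 ℚ M) q)ˣ,
      ∏ σ : pLayer p 2 ℚ M ≃ₐ[ℚ] pLayer p 2 ℚ M, σ • z = a ^ p := by
  obtain ⟨c, hc⟩ := card_gal_dvd_rat p M hp2
  refine ⟨a ^ c, ?_⟩
  have h1 : ∀ σ ∈ (Finset.univ : Finset (pLayer p 2 ℚ M ≃ₐ[ℚ] pLayer p 2 ℚ M)),
      σ • a ^ c = a ^ c := fun σ _ => by rw [smul_pow', ha σ]
  rw [Finset.prod_congr rfl h1, Finset.prod_const, Finset.card_univ, ← Nat.card_eq_fintype_card,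
    ← pow_mul, mul_comm, ← hc]

end Rat

end

end Fermat.Agent.PT.GLOB.LocalPTorsionP17
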