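/-
Program F (S55, Poitou–Tate), chapter GLOB, leaf (GLOB-CYCP), helper22.

# The cyclic `p`-power-degree layer of `K(ζ_{p^r})/K`

`M = K(ζ_{p^r})` (any type with `[IsCyclotomicExtension {p ^ r} K M]`), `G = Gal(M/K)`,
`χ = chi : G ↪ (ℤ/p^r)ˣ` the cyclotomic character, `tame = {σ | σ^(p-1) = 1}` the prime-to-`p`
part of `G`, and `pLayer p r K M : IntermediateField K M` its fixed field `L`.

General tower lemmas (`F ⊆ M ⊆ Ω` number fields, `M/F`, `Ω/F` Galois):
* `restrictNormalHom_smul_under`, `map_stabilizer_le` : restriction maps decomposition groups into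
  decomposition groups;
* `card_stabilizer_dvd` (T1) : `#D_{Q'}(Ω/F) ∣ [Ω:M] · #D_{Q'∩M}(M/F)`;
* `card_inertia_eq_ramificationIdx`, `card_inertia_under_dvd` (T2) :
  `#I_{Q'∩M}(M/F) ∣ #I_{Q'}(Ω/F)`;
* `exists_prime_over`.

The layer `L = pLayer p r K M`:
* (L1) `isGalois_pLayer`; (L2) `finrank_pLayer_top`, `coprime_finrank_pLayer_top` : `[M:L]` is
  prime to `p`; (L3) `isPGroup_gal`, `exists_finrank_pLayer_eq` : `[L:K] = p^m`;
  (L4) `isCyclic_gal_pLayer` (`p` odd);
* (L5) `inertia_pLayer_eq_bot` : `L/K` is unramified at the primes not containing `p`;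
* (L6) `pow_dvd_card_stabilizer_pLayer`, `exists_level_pLayer` : for a finite set `T` of nonzero
  primes of `𝓞 K` and `N`, for all `r ≥ r₀` all decomposition groups of `L/K` above `T` have order
  divisible by `p ^ N`;
* (L7) `psi : Gal(L/K) →* (ℤ/p^r)ˣ` injective with `psi (σ|_L) = χ(σ)^(p-1)`;
* (L8) `psi_of_isArithFrobAt` : a Frobenius of `L/K` at a prime `𝔓 ∌ p` has
  `psi = (absNorm (𝔓 ∩ K))^(p-1)`.
* `exists_cyclic_pLayer` : packaged existence statement over `CyclotomicField (p ^ r) K`.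
-/
import Mathlib
import Fermat.Agent.CFT.CycloArtin
import Fermat.Agent.PT.GLOB.CycloLocalDeg22

set_option autoImplicit false
set_option linter.unusedSectionVars false

open NumberField
open scoped Pointwise

namespace Fermat.Agent.PT.GLOB.CycloPLayer22

universe u v w

section Group

variable {G : Type u} {G' : Type v} [Group G] [Group G']

/-- `#D` divides `#ker f · #f(D)`. -/
theorem card_dvd_card_ker_mul_card_map [Finite G] (f : G →* G') (D : Subgroup G) :
    Nat.card D ∣ Nat.card f.ker * Nat.card (D.map f) := by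
  have h1 : Nat.card (f.ker.subgroupOf D) * (f.ker.subgroupOf D).index = Nat.card D :=
    (f.ker.subgroupOf D).card_mul_index
  have h2 : (f.ker.subgroupOf D).index = Nat.card (D.map f) := Subgroup.relIndex_ker D f
  have h3 : Nat.card (f.ker.subgroupOf D) ∣ Nat.card f.ker :=
    Subgroup.card_comap_dvd_of_injective f.ker D.subtype D.subtype_injective
  rw [← h1, h2]
  exact Nat.mul_dvd_mul_right h3 _

end Group

section Tower

variable {F : Type u} {M : Type v} {Ω : Type w} [Field F] [Field M] [Field Ω] [NumberField F]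
  [NumberField M] [NumberField Ω] [Algebra F M] [Algebra F Ω] [Algebra M Ω] [IsScalarTower F M Ω]
  [IsGalois F M] [IsGalois F Ω]

/-- Restriction of automorphisms is compatible with the action on primes. -/
theorem restrictNormalHom_smul_under (σ : Gal(Ω/F)) (Q' : Ideal (𝓞 Ω)) :
    (AlgEquiv.restrictNormalHom M σ) • Q'.under (𝓞 M) = (σ • Q').under (𝓞 M) := by
  ext x
  rw [Ideal.mem_pointwise_smul_iff_inv_smul_mem, Ideal.under_def, Ideal.under_def, Ideal.mem_comap,
    Ideal.mem_comap, Ideal.mem_pointwise_smul_iff_inv_smul_mem, ← map_inv,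
    Fermat.Agent.CFT.CycloArtin.algebraMap_restrictNormal_smul]

/-- Restriction maps the decomposition group of `Q'` into that of `Q' ∩ M`. -/
theorem map_stabilizer_le (Q' : Ideal (𝓞 Ω)) :
    (MulAction.stabilizer Gal(Ω/F) Q').map (AlgEquiv.restrictNormalHom M) ≤
      MulAction.stabilizer Gal(M/F) (Q'.under (𝓞 M)) := by
  rintro _ ⟨σ, hσ, rfl⟩
  rw [MulAction.mem_stabilizer_iff, restrictNormalHom_smul_under]
  rw [SetLike.mem_coe, MulAction.mem_stabilizer_iff] at hσ
  rw [hσ]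

theorem card_ker_restrictNormalHom :
    Nat.card (AlgEquiv.restrictNormalHom M : Gal(Ω/F) →* Gal(M/F)).ker = Module.finrank M Ω := by
  have h1 := (AlgEquiv.restrictNormalHom M : Gal(Ω/F) →* Gal(M/F)).ker.card_mul_index
  rw [Subgroup.index_ker, MonoidHom.range_eq_top.mpr (AlgEquiv.restrictNormalHom_surjective Ω),
    Nat.card_congr Subgroup.topEquiv.toEquiv,
    IsGalois.card_aut_eq_finrank, IsGalois.card_aut_eq_finrank,
    ← Module.finrank_mul_finrank F M Ω, mul_comm] at h1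
  exact Nat.eq_of_mul_eq_mul_left Module.finrank_pos h1

/-- (T1) The order of the decomposition group of `Q'` in `Gal(Ω/F)` divides `[Ω:M]` times the
order of the decomposition group of `Q' ∩ M` in `Gal(M/F)`. -/
theorem card_stabilizer_dvd (Q' : Ideal (𝓞 Ω)) :
    Nat.card (MulAction.stabilizer Gal(Ω/F) Q') ∣
      Module.finrank M Ω * Nat.card (MulAction.stabilizer Gal(M/F) (Q'.under (𝓞 M))) := by
  have h1 := card_dvd_card_ker_mul_card_map (AlgEquiv.restrictNormalHom M : Gal(Ω/F) →* Gal(M/F))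
    (MulAction.stabilizer Gal(Ω/F) Q')
  rw [card_ker_restrictNormalHom] at h1
  exact h1.trans (Nat.mul_dvd_mul_left _ (Subgroup.card_dvd_of_le (map_stabilizer_le Q')))

/-- The order of the inertia group at a prime is the ramification index. -/
theorem card_inertia_eq_ramificationIdx (Q : Ideal (𝓞 M)) [hQ : Q.IsPrime] :
    Nat.card (Q.inertia Gal(M/F)) = Q.ramificationIdx (𝓞 F) := by
  let q : Ideal (𝓞 F) := Q.under (𝓞 F)
  have hq : q.IsPrime := inferInstance
  have h1 : Q.LiesOver q := inferInstance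
  rw [Ideal.card_inertia_eq_ramificationIdxIn q Q,
    Ideal.ramificationIdxIn_eq_ramificationIdx q Q Gal(M/F)]

/-- (T2) The order of the inertia group of `Q' ∩ M` in `Gal(M/F)` divides the order of the inertia
group of `Q'` in `Gal(Ω/F)`. -/
theorem card_inertia_under_dvd (Q' : Ideal (𝓞 Ω)) [hQ' : Q'.IsPrime] :
    Nat.card ((Q'.under (𝓞 M)).inertia Gal(M/F)) ∣ Nat.card (Q'.inertia Gal(Ω/F)) := by
  rw [card_inertia_eq_ramificationIdx (F := F) Q',
    card_inertia_eq_ramificationIdx (F := F) (Q'.under (𝓞 M))]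
  have h := Ideal.ramificationIdx_tower (R := 𝓞 F) (Q'.under (𝓞 M)) Q'
  rw [h]
  exact Dvd.intro _ rfl

/-- Existence of a prime of `𝓞 Ω` above a given prime of `𝓞 M`. -/
theorem exists_prime_over (Q : Ideal (𝓞 M)) [hQ : Q.IsPrime] :
    ∃ Q' : Ideal (𝓞 Ω), Q'.IsPrime ∧ Q'.under (𝓞 M) = Q := by
  obtain ⟨Q', -, hQ', hQ'Q⟩ := Ideal.exists_ideal_over_prime_of_isIntegral Q (⊥ : Ideal (𝓞 Ω))
    (by simp [Ideal.comap_bot_of_injective _ (FaithfulSMul.algebraMap_injective (𝓞 M) (𝓞 Ω))])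
  exact ⟨Q', hQ', hQ'Q⟩

end Tower

section Layer

variable (p : ℕ) [hp : Fact p.Prime] (r : ℕ) (K : Type u) (M : Type v) [Field K] [Field M]
  [Algebra K M] [IsCyclotomicExtension {p ^ r} K M]

instance instNeZeroPow : NeZero (p ^ r) := ⟨(pow_pos hp.out.pos r).ne'⟩

/-- The cyclotomic character `Gal(K(ζ_{p^r})/K) → (ℤ/p^r)ˣ`. -/
noncomputable def chi : (M ≃ₐ[K] M) →* (ZMod (p ^ r))ˣ :=
  (IsCyclotomicExtension.zeta_spec (p ^ r) K M).autToPow K

theorem chi_injective : Function.Injective (chi p r K M) :=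
  (IsCyclotomicExtension.zeta_spec (p ^ r) K M).autToPow_injective K

/-- The defining property of the cyclotomic character (on every root of unity of order
`p ^ r`). -/
theorem chi_spec (σ : M ≃ₐ[K] M) {ξ : M} (hξ : ξ ^ (p ^ r) = 1) :
    σ ξ = ξ ^ ((chi p r K M σ : (ZMod (p ^ r))ˣ) : ZMod (p ^ r)).val := by
  have hζ := IsCyclotomicExtension.zeta_spec (p ^ r) K M
  obtain ⟨i, -, rfl⟩ := hζ.eq_pow_of_pow_eq_one hξ
  rw [map_pow, ← pow_mul, mul_comm, pow_mul]
  congr 1
  exact (hζ.autToPow_spec K σ).symm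

/-- The `(p-1)`-st power of the cyclotomic character. -/
noncomputable def chiPow : (M ≃ₐ[K] M) →* (ZMod (p ^ r))ˣ :=
  (powMonoidHom (p - 1)).comp (chi p r K M)

theorem chiPow_apply (σ : M ≃ₐ[K] M) : chiPow p r K M σ = (chi p r K M σ) ^ (p - 1) := rfl

/-- The prime-to-`p` part of `Gal(K(ζ_{p^r})/K)`: the automorphisms of order dividing `p - 1`. -/
noncomputable def tame : Subgroup (M ≃ₐ[K] M) := (chiPow p r K M).ker

instance instNormalTame : (tame p r K M).Normal := MonoidHom.normal_ker _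

theorem mem_tame_iff (σ : M ≃ₐ[K] M) : σ ∈ tame p r K M ↔ σ ^ (p - 1) = 1 := by
  rw [tame, MonoidHom.mem_ker, chiPow_apply, ← map_pow]
  exact ⟨fun h => chi_injective p r K M (by rw [h, map_one]), fun h => by rw [h, map_one]⟩

theorem card_units_dvd : Nat.card (ZMod (p ^ r))ˣ ∣ p ^ r * (p - 1) := by
  rw [Nat.card_eq_fintype_card, ZMod.card_units_eq_totient]
  cases r with
  | zero => simp
  | succ n =>
    rw [Nat.totient_prime_pow_succ hp.out, pow_succ]
    exact Nat.mul_dvd_mul_right (Dvd.intro _ rfl) _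

theorem pow_mem_tame (σ : M ≃ₐ[K] M) : σ ^ (p ^ r) ∈ tame p r K M := by
  rw [tame, MonoidHom.mem_ker, chiPow_apply, map_pow, ← pow_mul]
  exact orderOf_dvd_iff_pow_eq_one.mp ((orderOf_dvd_natCard _).trans (card_units_dvd p r))

/-- The order of the tame part is prime to `p`. -/
theorem coprime_card_tame [FiniteDimensional K M] : Nat.Coprime (Nat.card (tame p r K M)) p := by
  rw [Nat.coprime_comm, Nat.Prime.coprime_iff_not_dvd hp.out]
  intro hdvd
  obtain ⟨x, hx⟩ := exists_prime_orderOf_dvd_card' (G := tame p r K M) p hdvd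
  have h1 : (x : M ≃ₐ[K] M) ^ (p - 1) = 1 := (mem_tame_iff p r K M x).mp x.2
  have h2 : x ^ (p - 1) = 1 := Subtype.ext (by simpa using h1)
  have h3 : p ∣ p - 1 := by
    have := orderOf_dvd_of_pow_eq_one h2
    rwa [hx] at this
  have h4 := Nat.le_of_dvd (by have := hp.out.two_le; omega) h3
  have := hp.out.two_le
  omega

/-- The cyclic `p`-power-degree layer of `K(ζ_{p^r})/K`: the fixed field of the tame part. -/
noncomputable def pLayer : IntermediateField K M := IntermediateField.fixedField (tame p r K M)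

include p r hp in
theorem isGalois_top : IsGalois K M := IsCyclotomicExtension.isGalois {p ^ r} K M

include p r hp in
theorem finiteDimensional_top : FiniteDimensional K M :=
  IsCyclotomicExtension.finiteDimensional {p ^ r} K M

/-- (L1) The `p`-layer is Galois over `K`. -/
theorem isGalois_pLayer : IsGalois K (pLayer p r K M) := by
  have := isGalois_top p r K M
  exact IsGalois.of_fixedField_normal_subgroup (tame p r K M)

instance instIsGaloisPLayer : IsGalois K (pLayer p r K M) := isGalois_pLayer p r K M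

/-- (L2) `[K(ζ_{p^r}) : L]` is the order of the tame part. -/
theorem finrank_pLayer_top : Module.finrank (pLayer p r K M) M = Nat.card (tame p r K M) := by
  have := finiteDimensional_top p r K M
  exact IntermediateField.finrank_fixedField_eq_card (tame p r K M)

/-- (L2') `[K(ζ_{p^r}) : L]` is prime to `p`. -/
theorem coprime_finrank_pLayer_top : Nat.Coprime (Module.finrank (pLayer p r K M) M) p := by
  have := finiteDimensional_top p r K M
  rw [finrank_pLayer_top]
  exact coprime_card_tame p r K M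

/-- The Galois group of the `p`-layer is the quotient by the tame part. -/
noncomputable def galEquiv :
    (M ≃ₐ[K] M) ⧸ tame p r K M ≃* (pLayer p r K M ≃ₐ[K] pLayer p r K M) :=
  haveI := isGalois_top p r K M
  haveI := finiteDimensional_top p r K M
  IsGalois.normalAutEquivQuotient (tame p r K M)

theorem galEquiv_mk (σ : M ≃ₐ[K] M) :
    haveI := isGalois_pLayer p r K M
    galEquiv p r K M (QuotientGroup.mk σ) = AlgEquiv.restrictNormalHom (pLayer p r K M) σ := by
  have := isGalois_top p r K M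
  have := finiteDimensional_top p r K M
  exact IsGalois.normalAutEquivQuotient_apply (tame p r K M) σ

/-- (L3) `Gal(L/K)` is a `p`-group. -/
theorem isPGroup_gal : IsPGroup p (pLayer p r K M ≃ₐ[K] pLayer p r K M) := by
  refine IsPGroup.of_equiv ?_ (galEquiv p r K M)
  intro g
  obtain ⟨σ, rfl⟩ := QuotientGroup.mk_surjective g
  refine ⟨r, ?_⟩
  rw [← QuotientGroup.mk_pow, QuotientGroup.eq_one_iff]
  exact pow_mem_tame p r K M σ

/-- (L3') `[L : K]` is a power of `p`. -/
theorem exists_finrank_pLayer_eq : ∃ m : ℕ, Module.finrank K (pLayer p r K M) = p ^ m := by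
  have := isGalois_pLayer p r K M
  have := finiteDimensional_top p r K M
  obtain ⟨m, hm⟩ := IsPGroup.iff_card.mp (isPGroup_gal p r K M)
  exact ⟨m, by rw [← hm, IsGalois.card_aut_eq_finrank]⟩

/-- (L4) `Gal(L/K)` is cyclic (`p` odd). -/
theorem isCyclic_gal_pLayer (hp2 : p ≠ 2) :
    IsCyclic (pLayer p r K M ≃ₐ[K] pLayer p r K M) := by
  have := CycloLocalDeg22.isCyclic_gal p hp.out hp2 r K M
  have h1 : IsCyclic ((M ≃ₐ[K] M) ⧸ tame p r K M) :=
    isCyclic_of_surjective (QuotientGroup.mk' (tame p r K M)) (QuotientGroup.mk'_surjective _)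
  exact isCyclic_of_surjective (galEquiv p r K M).toMonoidHom (galEquiv p r K M).surjective

/-- (L7) The character of `Gal(L/K)`: `σ|_L ↦ χ(σ)^(p-1)`. -/
noncomputable def psi : (pLayer p r K M ≃ₐ[K] pLayer p r K M) →* (ZMod (p ^ r))ˣ :=
  (QuotientGroup.kerLift (chiPow p r K M)).comp (galEquiv p r K M).symm.toMonoidHom

theorem psi_injective : Function.Injective (psi p r K M) := by
  rw [psi]
  exact (QuotientGroup.kerLift_injective (chiPow p r K M)).comp (galEquiv p r K M).symm.injective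

theorem psi_restrict (σ : M ≃ₐ[K] M) :
    haveI := isGalois_pLayer p r K M
    psi p r K M (AlgEquiv.restrictNormalHom (pLayer p r K M) σ) = (chi p r K M σ) ^ (p - 1) := by
  have := isGalois_pLayer p r K M
  rw [← galEquiv_mk p r K M σ]
  show QuotientGroup.kerLift (chiPow p r K M)
    ((galEquiv p r K M).symm (galEquiv p r K M (QuotientGroup.mk σ))) = _
  rw [MulEquiv.symm_apply_apply]
  exact QuotientGroup.kerLift_mk (chiPow p r K M) σ

variable [NumberField K] [NumberField M]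

/-- (L5) The `p`-layer is unramified outside `p`. -/
theorem inertia_pLayer_eq_bot (𝔓 : Ideal (𝓞 (pLayer p r K M))) [h𝔓 : 𝔓.IsPrime]
    (hp𝔓 : (p : 𝓞 (pLayer p r K M)) ∉ 𝔓) :
    𝔓.inertia (pLayer p r K M ≃ₐ[K] pLayer p r K M) = ⊥ := by
  have := isGalois_pLayer p r K M
  have := isGalois_top p r K M
  obtain ⟨P, hP, rfl⟩ := exists_prime_over (Ω := M) 𝔓
  have hpP : (p : 𝓞 M) ∉ P := by
    intro hmem
    apply hp𝔓
    rw [Ideal.under_def, Ideal.mem_comap, map_natCast]
    exact hmem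
  have h1 := CycloLocalDeg22.inertia_eq_bot_of_prime_notMem p hp.out r K M P hpP
  have h2 := card_inertia_under_dvd (F := K) (M := pLayer p r K M) P
  rw [h1, Subgroup.card_bot, Nat.dvd_one] at h2
  exact Subgroup.card_eq_one.mp h2

/-- (L6) Decomposition groups of the `p`-layer: if all decomposition groups of `K(ζ_{p^r})/K` above
`T` have order divisible by `p ^ N`, so have those of the `p`-layer. -/
theorem pow_dvd_card_stabilizer_pLayer (T : Set (Ideal (𝓞 K))) (N : ℕ)
    (hM : ∀ P : Ideal (𝓞 M), P.IsPrime → P.under (𝓞 K) ∈ T →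
      p ^ N ∣ Nat.card (MulAction.stabilizer (M ≃ₐ[K] M) P))
    (𝔓 : Ideal (𝓞 (pLayer p r K M))) [h𝔓 : 𝔓.IsPrime] (h𝔓T : 𝔓.under (𝓞 K) ∈ T) :
    p ^ N ∣ Nat.card (MulAction.stabilizer (pLayer p r K M ≃ₐ[K] pLayer p r K M) 𝔓) := by
  have := isGalois_pLayer p r K M
  have := isGalois_top p r K M
  obtain ⟨P, hP, rfl⟩ := exists_prime_over (Ω := M) 𝔓
  rw [Ideal.under_under] at h𝔓T
  have h1 := hM P hP h𝔓T
  have h2 := card_stabilizer_dvd (F := K) (M := pLayer p r K M) P
  exact ((coprime_finrank_pLayer_top p r K M).symm.pow_left N).dvd_of_dvd_mul_left (h1.trans h2)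

/-- (L8) **Frobenius formula on the `p`-layer**: a Frobenius of `L/K` at a nonzero prime `𝔓` not
containing `p` has character `psi = (absNorm (𝔓 ∩ K)) ^ (p - 1)` in `(ℤ/p^r)ˣ`. -/
theorem psi_of_isArithFrobAt (𝔓 : Ideal (𝓞 (pLayer p r K M))) [h𝔓 : 𝔓.IsPrime] (h𝔓0 : 𝔓 ≠ ⊥)
    (hp𝔓 : (p : 𝓞 (pLayer p r K M)) ∉ 𝔓) (τ : pLayer p r K M ≃ₐ[K] pLayer p r K M)
    (hτ : IsArithFrobAt (𝓞 K) τ 𝔓) :
    ((psi p r K M τ : (ZMod (p ^ r))ˣ) : ZMod (p ^ r)) =
      ((Ideal.absNorm (𝔓.under (𝓞 K)) : ℕ) : ZMod (p ^ r)) ^ (p - 1) := by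
  have := isGalois_pLayer p r K M
  have := isGalois_top p r K M
  have hI := inertia_pLayer_eq_bot p r K M 𝔓 hp𝔓
  obtain ⟨P, hP, rfl⟩ := exists_prime_over (Ω := M) 𝔓
  have hP0 : P ≠ ⊥ := by
    rintro rfl
    apply h𝔓0
    rw [Ideal.under_def]
    exact Ideal.comap_bot_of_injective _
      (FaithfulSMul.algebraMap_injective (𝓞 (pLayer p r K M)) (𝓞 M))
  have : Finite (𝓞 M ⧸ P) := Ideal.finiteQuotientOfFreeOfNeBot P hP0
  obtain ⟨σ, hσ⟩ := IsArithFrobAt.exists_of_isInvariant (𝓞 K) (M ≃ₐ[K] M) P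
  have h1 := Fermat.Agent.CFT.CycloArtin.isArithFrobAt_restrictNormal (M := pLayer p r K M) hσ
  have h2 : τ = AlgEquiv.restrictNormalHom (pLayer p r K M) σ := by
    have h3 := hτ.mul_inv_mem_inertia h1
    rw [hI, Subgroup.mem_bot] at h3
    exact mul_inv_eq_one.mp h3
  have hpP : ((p ^ r : ℕ) : 𝓞 M) ∉ P := by
    intro hmem
    rw [Nat.cast_pow] at hmem
    apply hp𝔓
    rw [Ideal.under_def, Ideal.mem_comap, map_natCast]
    exact hP.mem_of_pow_mem r hmem
  have hζ := IsCyclotomicExtension.zeta_spec (p ^ r) K M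
  have h4 := Fermat.Agent.CFT.CycloArtin.apply_root_of_isArithFrobAt' hσ hζ.pow_eq_one hpP
  have h5 := Fermat.Agent.CFT.CycloRecip.autToPow_eq_of_apply_eq hζ σ _ h4
  rw [← Fermat.Agent.CFT.CycloRecip.absNorm_eq_natCard] at h5
  rw [h2, psi_restrict, Units.val_pow_eq_pow_val, Ideal.under_under]
  exact congrArg (· ^ (p - 1)) h5

/-- (L6') **Enough cyclic `p`-extensions with large local degrees**: for a finite set `T` of
nonzero primes of `𝓞 K` and `N`, there is `r₀ ≥ 1` such that for all `r ≥ r₀` and every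
`M = K(ζ_{p^r})`, all decomposition groups of the `p`-layer `L/K` at the primes above `T` have order
divisible by `p ^ N`. -/
theorem exists_level_pLayer (p : ℕ) [hp : Fact p.Prime] (K : Type u) [Field K] [NumberField K]
    (T : Finset (Ideal (𝓞 K))) (hT : ∀ P0 ∈ T, P0.IsPrime ∧ P0 ≠ ⊥) (N : ℕ) :
    ∃ r₀ : ℕ, 1 ≤ r₀ ∧ ∀ r : ℕ, r₀ ≤ r → ∀ (M : Type v) [Field M] [NumberField M] [Algebra K M]
      [IsCyclotomicExtension {p ^ r} K M] (𝔓 : Ideal (𝓞 (pLayer p r K M))), 𝔓.IsPrime →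
      𝔓.under (𝓞 K) ∈ T →
      p ^ N ∣ Nat.card (MulAction.stabilizer (pLayer p r K M ≃ₐ[K] pLayer p r K M) 𝔓) := by
  obtain ⟨r₀, hr₀, h⟩ := CycloLocalDeg22.exists_level.{u, v} p K T hT N
  refine ⟨r₀, hr₀, fun r hr M _ _ _ _ 𝔓 h𝔓 h𝔓T => ?_⟩
  exact pow_dvd_card_stabilizer_pLayer p r K M (T : Set (Ideal (𝓞 K))) N
    (fun P hP hPT => h r hr M P hP hPT) 𝔓 h𝔓T

end Layer

/-- **Packaged existence statement** (`p` odd): for a finite set `T` of nonzero primes of `𝓞 K` and
`N`, there are `r ≥ 1` and the intermediate field `L = pLayer` of `CyclotomicField (p ^ r) K` such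
that `L/K` is Galois, cyclic of `p`-power degree, unramified outside `p`, and all decomposition
groups of `L/K` above `T` have order divisible by `p ^ N`. -/
theorem exists_cyclic_pLayer (p : ℕ) [hp : Fact p.Prime] (hp2 : p ≠ 2) (K : Type u) [Field K]
    [NumberField K] (T : Finset (Ideal (𝓞 K))) (hT : ∀ P0 ∈ T, P0.IsPrime ∧ P0 ≠ ⊥) (N : ℕ) :
    ∃ r : ℕ, 1 ≤ r ∧
      IsGalois K (pLayer p r K (CyclotomicField (p ^ r) K)) ∧
      IsCyclic (pLayer p r K (CyclotomicField (p ^ r) K) ≃ₐ[K]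
        pLayer p r K (CyclotomicField (p ^ r) K)) ∧
      (∃ m : ℕ, Module.finrank K (pLayer p r K (CyclotomicField (p ^ r) K)) = p ^ m) ∧
      (∀ 𝔓 : Ideal (𝓞 (pLayer p r K (CyclotomicField (p ^ r) K))), 𝔓.IsPrime →
        (p : 𝓞 (pLayer p r K (CyclotomicField (p ^ r) K))) ∉ 𝔓 →
        𝔓.inertia (pLayer p r K (CyclotomicField (p ^ r) K) ≃ₐ[K]
          pLayer p r K (CyclotomicField (p ^ r) K)) = ⊥) ∧
      ∀ 𝔓 : Ideal (𝓞 (pLayer p r K (CyclotomicField (p ^ r) K))), 𝔓.IsPrime →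
        𝔓.under (𝓞 K) ∈ T →
        p ^ N ∣ Nat.card (MulAction.stabilizer (pLayer p r K (CyclotomicField (p ^ r) K) ≃ₐ[K]
          pLayer p r K (CyclotomicField (p ^ r) K)) 𝔓) := by
  obtain ⟨r₀, hr₀, h⟩ := exists_level_pLayer.{u, u} p K T hT N
  have : NeZero (p ^ r₀) := ⟨(pow_pos hp.out.pos _).ne'⟩
  refine ⟨r₀, hr₀, isGalois_pLayer p r₀ K _, isCyclic_gal_pLayer p r₀ K _ hp2,
    exists_finrank_pLayer_eq p r₀ K _, ?_, ?_⟩
  · intro 𝔓 h𝔓 hp𝔓
    exact inertia_pLayer_eq_bot p r₀ K _ 𝔓 hp𝔓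
  · intro 𝔓 h𝔓 h𝔓T
    exact h r₀ le_rfl (CyclotomicField (p ^ r₀) K) 𝔓 h𝔓 h𝔓T

end Fermat.Agent.PT.GLOB.CycloPLayer22
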