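/-
Program F (S55, Poitou–Tate), chapter GLOB (helper17): the cyclotomic `p`-layer over `ℚ` with the
CANONICAL `ℚ`-algebra structures (kit for `LocalInjFinal14.NonNormInput`).

* `isCyclotomicExtension_rat n : IsCyclotomicExtension {n} ℚ (CyclotomicField n ℚ)` for the canonical
  `Algebra ℚ (CyclotomicField n ℚ)` (instance search does not find it: the Mathlib instance is stated
  for `CyclotomicField.algebra`);
* for `B = pLayer p r ℚ M`: `isGalois_pLayer_rat'`, `isUnramifiedOutside_pLayer_rat` (Interface23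
  form, `p ∈ S`), `exists_generator_pLayer_rat` (`p` odd), `exists_finrank_pLayer_rat`.
-/
import Fermat.Agent.PT.GLOB.CycloPLayer22
import Fermat.Agent.PT.GLOB.Interface23

set_option autoImplicit false
set_option linter.unusedSectionVars false

namespace Fermat.Agent.PT.GLOB.PLayerRatKit17

open NumberField IsDedekindDomain
open Fermat.Agent.PT.GLOB.Interface23 Fermat.Agent.PT.GLOB.CycloPLayer22

/-- `CyclotomicField n ℚ` is a cyclotomic extension of `ℚ` for the canonical `ℚ`-algebra
structure. -/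
theorem isCyclotomicExtension_rat (n : ℕ) [NeZero n] :
    IsCyclotomicExtension {n} ℚ (CyclotomicField n ℚ) := by
  have h := CyclotomicField.isCyclotomicExtension n ℚ
  have e : (DivisionRing.toRatAlgebra : Algebra ℚ (CyclotomicField n ℚ)) =
      CyclotomicField.algebra n ℚ := Subsingleton.elim _ _
  rw [e]
  exact h

section Layer

variable (p : ℕ) [hp : Fact p.Prime] (r : ℕ) (M : Type) [Field M] [NumberField M]
  [IsCyclotomicExtension {p ^ r} ℚ M]

/-- `B/ℚ` is Galois (canonical `ℚ`-algebra on `B`). -/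
theorem isGalois_pLayer_rat' : IsGalois ℚ (pLayer p r ℚ M) := isGalois_pLayer p r ℚ M

/-- `B/ℚ` is unramified outside `S ∋ p`, in the `Interface23` form. -/
theorem isUnramifiedOutside_pLayer_rat [IsGalois ℚ (pLayer p r ℚ M)] (S : Finset Nat.Primes)
    (hpS : ∃ q ∈ S, (q : ℕ) = p) : IsUnramifiedOutside S ℚ (pLayer p r ℚ M) := by
  intro P
  obtain ⟨q, hqS, hqp⟩ := hpS
  have hP := P.2 q hqS
  rw [Int.cast_natCast, hqp] at hP
  haveI : P.1.asIdeal.IsPrime := P.1.isPrime
  exact inertia_pLayer_eq_bot p r ℚ M P.1.asIdeal hP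

/-- `Gal(B/ℚ)` is cyclic (`p` odd): a generator. -/
theorem exists_generator_pLayer_rat (hp2 : p ≠ 2) :
    ∃ σ : pLayer p r ℚ M ≃ₐ[ℚ] pLayer p r ℚ M, ∀ τ, τ ∈ Subgroup.zpowers σ := by
  have h : IsCyclic (pLayer p r ℚ M ≃ₐ[ℚ] pLayer p r ℚ M) := isCyclic_gal_pLayer p r ℚ M hp2
  exact h.exists_generator

/-- `[B:ℚ]` is a power of `p`. -/
theorem exists_finrank_pLayer_rat : ∃ m : ℕ, Module.finrank ℚ (pLayer p r ℚ M) = p ^ m :=
  exists_finrank_pLayer_eq p r ℚ M

end Layer

end Fermat.Agent.PT.GLOB.PLayerRatKit17
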