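/-
Program F (S55), chapter GLOB, (L1) input 1 (helper14; written in parallel with helper22's
`LocalNonNorm22`): **`LocalInjFinal14.NonNormInput p S`** — for every `q ∈ S` there are a cyclic
layer `B/ℚ` (the `p`-layer of `ℚ(ζ_{p^r})`), unramified outside `S`, and `a₀ ∈ (ℚ ⊗ ℚ_q)ˣ` such
that `a₀^p` is a norm from `(B ⊗ ℚ_q)ˣ` while the idele class `[a₀ at q]` is not a norm from
`C_S(B)`.

* `autToPow_eq_chi`, `autToPow_pow_eq_one` : `χ^(p-1)` kills `Gal(ℚ(ζ_{p^r})/B)`;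
* `not_mem_normSubCT` : ideles with `cyc(j)^(p-1) ≠ 1` are not norms from `B`
  (cyclotomic reciprocity `CycRecOmega22.mem_normSubCT_iff`);
* `nonNorm_self` (`q = p`: `r = 2`, `a₀ = 1 + p`), `nonNorm_of_ne` (`q ≠ p`:
  `r = v_p(q^(p-1) - 1) + 1`, `a₀ = q`; helper17's `LocalPTorsion17`, helper5's `CycLocalValue5`);
* `nonNormInput`.
-/
import Mathlib
import Fermat.Agent.PT.GLOB.LocalInjFinal14
import Fermat.Agent.PT.GLOB.CycRecOmega22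
import Fermat.Agent.PT.GLOB.LayerFrame23
import Fermat.Agent.PT.GLOB.CycLocalValue5
import Fermat.Agent.PT.GLOB.LocalPTorsionP17
import Fermat.Agent.PT.GLOB.PLayerRatKit17

set_option autoImplicit false
set_option linter.unusedSectionVars false

namespace Fermat.Agent.PT.GLOB.LocalNonNorm14

open groupCohomology CategoryTheory NumberField
open scoped TensorProduct
open Fermat.Agent.PT.GLOB.Interface23 Fermat.Agent.PT.GLOB.ClassAction23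
open Fermat.Agent.PT.GLOB.Tower23 Fermat.Agent.PT.GLOB.InterfaceCF23
open Fermat.Agent.PT.GLOB.LocalCyclic14 Fermat.Agent.PT.GLOB.LocalInjDefs14
open Fermat.Agent.PT.GLOB.LocalInjFinal14
open Fermat.Agent.PT.GLOB.NormSubCT23 Fermat.Agent.PT.GLOB.CycChar22
open Fermat.Agent.PT.GLOB.CycloPLayer22 Fermat.Agent.PT.GLOB.CycLocalValue5

noncomputable section

section Generic

variable (p : ℕ) [hp : Fact p.Prime] (r : ℕ) (M : Type) [Field M] [NumberField M]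
  [IsCyclotomicExtension {p ^ r} ℚ M]

/-- Any cyclotomic character attached to a primitive `p^r`-th root of unity is `chi`. -/
theorem autToPow_eq_chi {ζ : M} (hζ : IsPrimitiveRoot ζ (p ^ r)) (σ : M ≃ₐ[ℚ] M) :
    hζ.autToPow ℚ σ = chi p r ℚ M σ := by
  apply Units.ext
  apply ZMod.val_injective
  have h1 := hζ.autToPow_spec ℚ σ
  have h2 := chi_spec p r ℚ M σ (hζ.pow_eq_one)
  rw [h2] at h1
  exact hζ.pow_inj (ZMod.val_lt _) (ZMod.val_lt _) h1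

/-- The elements of `Gal(M/B)` are killed by `χ^(p-1)`. -/
theorem autToPow_pow_eq_one {ζ : M} (hζ : IsPrimitiveRoot ζ (p ^ r))
    (τ : M ≃ₐ[pLayer p r ℚ M] M) :
    hζ.autToPow ℚ (τ.restrictScalars ℚ) ^ (p - 1) = 1 := by
  have hfd : FiniteDimensional ℚ M := inferInstance
  have hmem : τ.restrictScalars ℚ ∈ (pLayer p r ℚ M).fixingSubgroup := by
    rw [IntermediateField.mem_fixingSubgroup_iff]
    intro x hx
    exact τ.commutes ⟨x, hx⟩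
  have h2 : (pLayer p r ℚ M).fixingSubgroup = tame p r ℚ M :=
    IntermediateField.fixingSubgroup_fixedField (tame p r ℚ M)
  rw [h2] at hmem
  have h3 : chiPow p r ℚ M (τ.restrictScalars ℚ) = 1 := hmem
  rw [autToPow_eq_chi p r M hζ]
  exact h3

end Generic

section NonNorm

variable (p : Nat.Primes) (r : ℕ) (M : Type) [Field M] [NumberField M]

/-- **Non-norm criterion on the cyclotomic `p`-layer** `B = pLayer p r ℚ M ⊂ M = ℚ(ζ_{p^r})`: an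
idele `j` of `ℚ` with `cyc(j)^(p-1) ≠ 1` does not become a norm from `C_S(B)`. -/
theorem not_mem_normSubCT (S : Finset Nat.Primes) [DecidableEq S] (hpS : p ∈ S)
    (hp2 : (p : ℕ) ≠ 2) [hp : Fact (p : ℕ).Prime]
    [IsCyclotomicExtension {(p : ℕ) ^ r} ℚ M] (j : JT S ℚ)
    (hj : cyc S ℚ p r hpS j ^ ((p : ℕ) - 1) ≠ 1) :
    toCT S ℚ j ∉ normSubCT S ℚ (pLayer (p : ℕ) r ℚ M) := by
  have : IsGalois ℚ M := isGalois_top (p : ℕ) r ℚ M
  have : IsGalois ℚ (pLayer (p : ℕ) r ℚ M) := PLayerRatKit17.isGalois_pLayer_rat' (p : ℕ) r M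
  have hζ := IsCyclotomicExtension.zeta_spec ((p : ℕ) ^ r) ℚ M
  have hun : IsUnramifiedOutside S ℚ (pLayer (p : ℕ) r ℚ M) :=
    PLayerRatKit17.isUnramifiedOutside_pLayer_rat (p : ℕ) r M S ⟨p, hpS, rfl⟩
  obtain ⟨σ, hσ⟩ := PLayerRatKit17.exists_generator_pLayer_rat (p : ℕ) r M hp2
  have hdeg := PLayerRatKit17.exists_finrank_pLayer_rat (p : ℕ) r M
  have hodd : Odd (p : ℕ) := p.2.odd_of_ne_two hp2
  have hidx := LayerFrame23.hidx_of_layer S p hpS ℚ (pLayer (p : ℕ) r ℚ M) hodd hun σ hσ hdeg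
  have hcyc : ∀ τ : M ≃ₐ[ℚ] M, hζ.autToPow ℚ τ = 1 →
      ∀ x : pLayer (p : ℕ) r ℚ M, τ (algebraMap (pLayer (p : ℕ) r ℚ M) M x) =
        algebraMap (pLayer (p : ℕ) r ℚ M) M x := by
    intro τ hτ x
    have h1 : τ = 1 := hζ.autToPow_injective ℚ (by rw [hτ, map_one])
    rw [h1]
    rfl
  intro hmem
  obtain ⟨τ, hτ⟩ := (CycRecOmega22.mem_normSubCT_iff S p r ℚ (pLayer (p : ℕ) r ℚ M) M hζ hp2 hpS
    hcyc hdeg hun hidx j).mp hmem
  apply hj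
  rw [← hτ]
  exact autToPow_pow_eq_one (p : ℕ) r M hζ τ

end NonNorm

section CaseP

theorem inv_unitOfNat_succ_pow_ne_one (p : ℕ) (hp : p.Prime) (hp2 : p ≠ 2) :
    (unitOfNat (p ^ 2) (1 + p))⁻¹ ^ (p - 1) ≠ 1 := by
  intro h
  rw [inv_pow, inv_eq_one] at h
  have hcop : Nat.Coprime (1 + p) (p ^ 2) := by
    apply Nat.Coprime.pow_right
    rw [Nat.coprime_comm, Nat.Prime.coprime_iff_not_dvd hp]
    intro hd
    have : p ∣ 1 := (Nat.dvd_add_left (dvd_refl p)).mp hd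
    exact hp.one_lt.ne' (Nat.dvd_one.mp this)
  have h1 : ((1 + p : ℕ) : ZMod (p ^ 2)) ^ (p - 1) = 1 := by
    have := congrArg (fun u : (ZMod (p ^ 2))ˣ => (u : ZMod (p ^ 2))) h
    simp only [Units.val_pow_eq_pow_val, Units.val_one] at this
    rwa [coe_unitOfNat hcop] at this
  have h2 : orderOf ((1 : ZMod (p ^ 2)) + (p : ZMod (p ^ 2))) = p := by
    have := ZMod.orderOf_one_add_prime hp hp2 1
    simpa using this
  have h3 : p ∣ p - 1 := by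
    have h4 : orderOf ((1 : ZMod (p ^ 2)) + (p : ZMod (p ^ 2))) ∣ p - 1 := by
      apply orderOf_dvd_of_pow_eq_one
      have h5 : ((1 + p : ℕ) : ZMod (p ^ 2)) = 1 + (p : ZMod (p ^ 2)) := by push_cast; rfl
      rw [← h5]
      exact h1
    rwa [h2] at h4
  have := Nat.le_of_dvd (by have := hp.two_le; omega) h3
  have := hp.two_le
  omega

/-- **The case `q = p`**: `B = B_1 ⊂ ℚ(ζ_{p²})`, `a₀ = 1 + p`. -/
theorem nonNorm_self (p : Nat.Primes) (hp2 : (p : ℕ) ≠ 2) (S : Finset Nat.Primes) [DecidableEq S]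
    (hpS : p ∈ S) :
    ∃ (B : Type) (_ : Field B) (_ : NumberField B) (_ : IsGalois ℚ B)
      (_ : IsUnramifiedOutside S ℚ B) (σ : B ≃ₐ[ℚ] B) (_ : ∀ τ, τ ∈ Subgroup.zpowers σ)
      (a₀ : (Loc ℚ p)ˣ) (z : (Loc B p)ˣ),
      (locUnitsMap ℚ B p a₀) ^ (p : ℕ) = ∏ g : B ≃ₐ[ℚ] B, g • z ∧
        locToCT S ⟨p, hpS⟩ a₀ ∉ normSubCT S ℚ B := by
  have : Fact (p : ℕ).Prime := ⟨p.2⟩
  have : NeZero ((p : ℕ) ^ 2) := ⟨(pow_pos p.2.pos 2).ne'⟩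
  have := PLayerRatKit17.isCyclotomicExtension_rat ((p : ℕ) ^ 2)
  have hG : IsGalois ℚ (pLayer (p : ℕ) 2 ℚ (CyclotomicField ((p : ℕ) ^ 2) ℚ)) :=
    PLayerRatKit17.isGalois_pLayer_rat' (p : ℕ) 2 _
  have hun : IsUnramifiedOutside S ℚ (pLayer (p : ℕ) 2 ℚ (CyclotomicField ((p : ℕ) ^ 2) ℚ)) :=
    PLayerRatKit17.isUnramifiedOutside_pLayer_rat (p : ℕ) 2 _ S ⟨p, hpS, rfl⟩
  obtain ⟨σ, hσ⟩ := PLayerRatKit17.exists_generator_pLayer_rat (p : ℕ) 2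
    (CyclotomicField ((p : ℕ) ^ 2) ℚ) hp2
  set a₀ : (Loc ℚ p)ˣ := ratUnit p (1 + p) (by omega) with ha₀
  obtain ⟨z, hz⟩ := LocalPTorsionP17.exists_prod_smul_eq_pow_p_self (p : ℕ)
    (CyclotomicField ((p : ℕ) ^ 2) ℚ) hp2 p
    (locUnitsMap ℚ (pLayer (p : ℕ) 2 ℚ (CyclotomicField ((p : ℕ) ^ 2) ℚ)) p a₀)
    (fun τ => smul_locUnitsMap_base _ p τ a₀)
  refine ⟨pLayer (p : ℕ) 2 ℚ (CyclotomicField ((p : ℕ) ^ 2) ℚ), inferInstance, inferInstance, hG,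
    hun, σ, hσ, a₀, z, hz.symm, ?_⟩
  apply not_mem_normSubCT p 2 (CyclotomicField ((p : ℕ) ^ 2) ℚ) S hpS hp2
    (locToJT S ⟨p, hpS⟩ a₀)
  rw [ha₀, cyc_locToJT_ratUnit_succ S p 2 hpS]
  exact inv_unitOfNat_succ_pow_ne_one (p : ℕ) p.2 hp2

end CaseP

section CaseNe

/-- **The case `q ≠ p`**: `B` = the `p`-layer of `ℚ(ζ_{p^r})`, `r = v_p(q^(p-1) - 1) + 1`,
`a₀ = q`. -/
theorem nonNorm_of_ne (p : Nat.Primes) (hp2 : (p : ℕ) ≠ 2) (S : Finset Nat.Primes)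
    [DecidableEq S] (hpS : p ∈ S) (q : S) (hq : q.1 ≠ p) :
    ∃ (B : Type) (_ : Field B) (_ : NumberField B) (_ : IsGalois ℚ B)
      (_ : IsUnramifiedOutside S ℚ B) (σ : B ≃ₐ[ℚ] B) (_ : ∀ τ, τ ∈ Subgroup.zpowers σ)
      (a₀ : (Loc ℚ q.1)ˣ) (z : (Loc B q.1)ˣ),
      (locUnitsMap ℚ B q.1 a₀) ^ (p : ℕ) = ∏ g : B ≃ₐ[ℚ] B, g • z ∧
        locToCT S q a₀ ∉ normSubCT S ℚ B := by
  have hqp : (q.1 : ℕ) ≠ (p : ℕ) := fun h => hq (Subtype.ext h)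
  obtain ⟨r, -, hr1, hr2⟩ := LocalPTorsion17.exists_level_split (p : ℕ) (q.1 : ℕ) p.2 q.1.2 hqp
  have : Fact (p : ℕ).Prime := ⟨p.2⟩
  have : NeZero ((p : ℕ) ^ r) := ⟨(pow_pos p.2.pos r).ne'⟩
  have := PLayerRatKit17.isCyclotomicExtension_rat ((p : ℕ) ^ r)
  have hG : IsGalois ℚ (pLayer (p : ℕ) r ℚ (CyclotomicField ((p : ℕ) ^ r) ℚ)) :=
    PLayerRatKit17.isGalois_pLayer_rat' (p : ℕ) r _
  have hun : IsUnramifiedOutside S ℚ (pLayer (p : ℕ) r ℚ (CyclotomicField ((p : ℕ) ^ r) ℚ)) :=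
    PLayerRatKit17.isUnramifiedOutside_pLayer_rat (p : ℕ) r _ S ⟨p, hpS, rfl⟩
  obtain ⟨σ, hσ⟩ := PLayerRatKit17.exists_generator_pLayer_rat (p : ℕ) r
    (CyclotomicField ((p : ℕ) ^ r) ℚ) hp2
  set a₀ : (Loc ℚ q.1)ˣ := ratUnit q.1 (q.1 : ℕ) q.1.2.ne_zero with ha₀
  obtain ⟨z, hz⟩ := LocalPTorsion17.exists_prod_smul_eq_pow_p (p : ℕ) r
    (CyclotomicField ((p : ℕ) ^ r) ℚ) q.1 hqp hr2
    (locUnitsMap ℚ (pLayer (p : ℕ) r ℚ (CyclotomicField ((p : ℕ) ^ r) ℚ)) q.1 a₀)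
    (fun τ => smul_locUnitsMap_base _ q.1 τ a₀)
  refine ⟨pLayer (p : ℕ) r ℚ (CyclotomicField ((p : ℕ) ^ r) ℚ), inferInstance, inferInstance, hG,
    hun, σ, hσ, a₀, z, hz.symm, ?_⟩
  apply not_mem_normSubCT p r (CyclotomicField ((p : ℕ) ^ r) ℚ) S hpS hp2 (locToJT S q a₀)
  rw [ha₀, cyc_locToJT_ratUnit_self S p r hpS q hq]
  intro h
  apply hr1
  have hcop : Nat.Coprime (q.1 : ℕ) ((p : ℕ) ^ r) := by
    apply Nat.Coprime.pow_right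
    exact (Nat.coprime_primes q.1.2 p.2).mpr hqp
  have := congrArg (fun u : (ZMod ((p : ℕ) ^ r))ˣ => (u : ZMod ((p : ℕ) ^ r))) h
  simp only [Units.val_pow_eq_pow_val, Units.val_one] at this
  rwa [coe_unitOfNat hcop] at this

end CaseNe

section Final

/-- **Input 1 of (L1)**: `LocalInjFinal14.NonNormInput p S`. -/
theorem nonNormInput (p : ℕ) (hp : p.Prime) (hp2 : p ≠ 2) (S : Finset Nat.Primes)
    (hpS : ∃ q ∈ S, (q : ℕ) = p) [DecidableEq S] : NonNormInput p S := by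
  intro q
  obtain ⟨q0, hq0S, hq0⟩ := hpS
  have hq0' : q0 = ⟨p, hp⟩ := Subtype.ext hq0
  rw [hq0'] at hq0S
  by_cases hq : q.1 = ⟨p, hp⟩
  · obtain ⟨q1, hq1⟩ := q
    simp only at hq
    subst hq
    exact nonNorm_self ⟨p, hp⟩ hp2 S hq0S
  · exact nonNorm_of_ne ⟨p, hp⟩ hp2 S hq0S q hq

end Final

end

end Fermat.Agent.PT.GLOB.LocalNonNorm14
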