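/-
Program F (S55), chapter GLOB: **(L1) `InterfaceCF23.LocalInjectivity p S`, UNCONDITIONAL**
(helper14): `LocalInj14.localInjectivity_of_nonNorm` + `LocalNonNorm14.nonNormInput`.
-/
import Mathlib
import Fermat.Agent.PT.GLOB.LocalInj14
import Fermat.Agent.PT.GLOB.LocalNonNorm14

set_option autoImplicit false

namespace Fermat.Agent.PT.GLOB.LocalInjMain14

/-- **(L1) local injectivity**: for `L/ℚ` Galois unramified outside `S ∋ p` (`p` odd) and
`q ∈ S`, the map `H²(Gal(L/ℚ), (L ⊗ ℚ_q)ˣ) → H²(Gal(L/ℚ), C_S(L))` is injective on `p`-torsion. -/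
theorem localInjectivity (p : ℕ) (S : Finset Nat.Primes) : InterfaceCF23.LocalInjectivity p S :=
  LocalInj14.localInjectivity_of_nonNorm p S
    (fun hp hp2 hpS => LocalNonNorm14.nonNormInput p hp hp2 S hpS)

end Fermat.Agent.PT.GLOB.LocalInjMain14
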