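/-
Program F (S55, Poitou–Tate), chapter GLOB, leaf C3 (helper23): helper6's `FundClassBridge6`
for an ARBITRARY intermediate field `K ⊂ K' ⊂ L` (a `Type` with a scalar tower), not only the
subtype `fixedField H`:  `Hⁿ(H, CT S L) ≃ Hⁿ(Gal(L/K'), CT S L)` for `H = range (Gal(L/K') → Gal(L/K))`,
and the resulting criterion `isFundClass_of_family`: a class `u ∈ H²(Gal(L/K), CT S L)` is a
fundamental class at `p` as soon as every `p`-subgroup `H` is the Galois group of some layer `L/K'`
with `H¹ = 0`, `#H² ∣ #H` and `Res_{K'} u` of order `#H`.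
-/
import Fermat.Agent.PT.GLOB.InterfaceCF23
import Fermat.Agent.PT.FG.Interface8
import Fermat.Agent.PT.FG.FundClassTransferB2

set_option autoImplicit false
set_option linter.unusedSectionVars false

open CategoryTheory groupCohomology NumberField
open Fermat.Agent.PT.GLOB.Interface23 Fermat.Agent.PT.GLOB.ClassAction23
  Fermat.Agent.PT.GLOB.InterfaceCF23 Fermat.Agent.PT.FG.Interface8

namespace Fermat.Agent.PT.GLOB.BridgeGen23

noncomputable section

section Generic

variable (S : Finset Nat.Primes)
variable (K K' L : Type) [Field K] [Field K'] [Field L] [NumberField K] [NumberField K']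
  [NumberField L] [Algebra K K'] [Algebra K L] [Algebra K' L] [IsScalarTower K K' L]

theorem galIncl_inj : Function.Injective (galIncl K K' L) :=
  AlgEquiv.restrictScalarsHom_injective K

/-- The image of `Gal(L/K')` in `Gal(L/K)`. -/
abbrev RH : Subgroup (L ≃ₐ[K] L) := (galIncl K K' L).range

/-- `Gal(L/K') ≃* RH`. -/
def eR : (L ≃ₐ[K'] L) ≃* RH K K' L := MonoidHom.ofInjective (galIncl_inj K K' L)

theorem coe_eR (τ : L ≃ₐ[K'] L) :
    ((eR K K' L τ : RH K K' L) : L ≃ₐ[K] L) = galIncl K K' L τ := rfl

/-- The identity of `CT S L`, as a morphism `Res_{eR}(Res_H (CT S L)) ⟶ CT S L` of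
`Gal(L/K')`-modules. -/
def downHom : Rep.res (eR K K' L : (L ≃ₐ[K'] L) →* RH K K' L)
    (resSub (RH K K' L) (repCT S K L)) ⟶ repCT S K' L :=
  Rep.ofHom ⟨LinearMap.id, fun τ =>
    LinearMap.ext fun c => restrictScalars_smul_CT (K := K) S τ (Additive.toMul c)⟩

/-- The inverse of `downHom` (again the identity of `CT S L`). -/
def downInv : repCT S K' L ⟶ Rep.res (eR K K' L : (L ≃ₐ[K'] L) →* RH K K' L)
    (resSub (RH K K' L) (repCT S K L)) :=
  Rep.ofHom ⟨LinearMap.id, fun τ =>
    LinearMap.ext fun c => (congrArg Additive.ofMul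
      (restrictScalars_smul_CT (K := K) S τ (Additive.toMul c))).symm⟩

/-- `downHom` as an isomorphism. -/
def downIso : Rep.res ((eR K K' L).toMonoidHom) (resSub (RH K K' L) (repCT S K L)) ≅
    repCT S K' L where
  hom := downHom S K K' L
  inv := downInv S K K' L
  hom_inv_id := by ext x; rfl
  inv_hom_id := by ext x; rfl

/-- `Hⁿ(H, CT S L) → Hⁿ(Gal(L/K'), CT S L)`. -/
def down (n : ℕ) : groupCohomology (resSub (RH K K' L) (repCT S K L)) n ⟶
    groupCohomology (repCT S K' L) n :=
  groupCohomology.map ((eR K K' L).toMonoidHom) (downIso S K K' L).hom n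

theorem down_bijective (n : ℕ) : Function.Bijective (down S K K' L n) :=
  Fermat.Agent.PT.FG.FundClassTransferB2.map_equiv_bijective (eR K K' L)
    (resSub (RH K K' L) (repCT S K L)) (repCT S K' L) (downIso S K K' L) n

theorem resH2CT_eq :
    resH2CT S K K' L = resMap (RH K K' L) (repCT S K L) 2 ≫ down S K K' L 2 := by
  rw [resH2CT, down, resMap, ← groupCohomology.map_comp]
  refine groupCohomology.map_congr ?_ ?_ 2
  · ext τ
    rfl
  · rfl

theorem down_injective (n : ℕ) : Function.Injective (down S K K' L n) :=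
  (down_bijective S K K' L n).1

/-- The comparison as an equivalence. -/
def downEquiv (n : ℕ) : groupCohomology (resSub (RH K K' L) (repCT S K L)) n ≃
    groupCohomology (repCT S K' L) n :=
  Equiv.ofBijective _ (down_bijective S K K' L n)

/-- The three `IsFundClass` conditions at the subgroup `RH K K' L`, from the layer `L/K'`. -/
theorem conditions_at_range (u : H2 (repCT S K L))
    (h1 : Subsingleton (H1 (repCT S K' L)))
    (hdvd : Nat.card (H2 (repCT S K' L)) ∣ Nat.card (RH K K' L))
    (hord : addOrderOf (resH2CT S K K' L u) = Nat.card (RH K K' L)) :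
    Subsingleton (H1 (resSub (RH K K' L) (repCT S K L))) ∧
      Nat.card (H2 (resSub (RH K K' L) (repCT S K L))) = Nat.card (RH K K' L) ∧
      addOrderOf (resMap (RH K K' L) (repCT S K L) 2 u) = Nat.card (RH K K' L) := by
  have hcard : Nat.card (H2 (repCT S K' L)) = Nat.card (RH K K' L) := by
    apply Nat.dvd_antisymm hdvd
    rw [← hord]
    exact addOrderOf_dvd_natCard _
  refine ⟨?_, ?_, ?_⟩
  · have : Subsingleton (groupCohomology (repCT S K' L) 1) := h1
    exact (down_injective S K K' L 1).subsingleton
  · rw [← hcard]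
    exact Nat.card_congr (downEquiv S K K' L 2)
  · rw [← hord, resH2CT_eq]
    rw [ModuleCat.comp_apply]
    exact (addOrderOf_injective (down S K K' L 2).hom.toAddMonoidHom
      (down_injective S K K' L 2) _).symm

end Generic

section Family

variable (p : ℕ) (S : Finset Nat.Primes)
variable (K L : Type) [Field K] [Field L] [NumberField K] [NumberField L] [Algebra K L]

/-- **Fundamental class from a family of layers.**  If every `p`-subgroup `H ≤ Gal(L/K)` is the
image of `Gal(L/K')` for some intermediate field `K'` (an arbitrary `Type` with a tower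
`K ⊂ K' ⊂ L`) with `H¹(L/K') = 0`, `#H²(L/K') ∣ #H` and `Res_{K'} u` of order `#H`, then `u` is a
fundamental class at `p`. -/
theorem isFundClass_of_family (u : H2 (repCT S K L))
    (hfam : ∀ H : Subgroup (L ≃ₐ[K] L), IsPGroup p H →
      ∃ (K' : Type) (_ : Field K') (_ : NumberField K') (_ : Algebra K K') (_ : Algebra K' L)
        (_ : IsScalarTower K K' L),
        (galIncl K K' L).range = H ∧ Subsingleton (H1 (repCT S K' L)) ∧
        Nat.card (H2 (repCT S K' L)) ∣ Nat.card H ∧
        addOrderOf (resH2CT S K K' L u) = Nat.card H) :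
    IsFundClass p (repCT S K L) u := by
  have key : ∀ H : Subgroup (L ≃ₐ[K] L), IsPGroup p H →
      Subsingleton (H1 (resSub H (repCT S K L))) ∧
      Nat.card (H2 (resSub H (repCT S K L))) = Nat.card H ∧
      addOrderOf (resMap H (repCT S K L) 2 u) = Nat.card H := by
    intro H hH
    obtain ⟨K', i1, i2, i3, i4, i5, hr, h1, hdvd, hord⟩ := hfam H hH
    subst hr
    exact conditions_at_range S K K' L u h1 hdvd hord
  exact ⟨fun H hH => (key H hH).1, fun H hH => (key H hH).2.1, fun H hH => (key H hH).2.2⟩

end Family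

end

end Fermat.Agent.PT.GLOB.BridgeGen23
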