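/-
# PT / GLOB — local norm compatibility of the tower norm `normDown` (helper6)

For a Galois tower of number fields `L ⊂ L1` unramified outside `T`, the norm map
`TowerNorm6.normDown T L L1 hunr : JT T L1 →* JT T L` is compatible with the local norms
`CycChar22.locNorm` to `ℚ_q`:

* `locNorm_normDown : locNorm L q ((normDown j).1 q) = locNorm L1 q (j.1 q)`;
* `locNormCompat : CycNormCompat22.LocNormCompat T L L1 hunr` (the hypothesis of `CycNormCompat22`);
* `locNorm_eq_of_locMap_eq_prod` (general form: if `y ∈ (L ⊗ ℚ_q)ˣ` maps to `∏ τ, τ • x` then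
  `Nm y = Nm x`), `locNorm0_eq_of_locMap_eq_prod` (ring level);
* by-products `locNorm_smul` (Galois invariance), `locNorm_locMap`
  (`Nm_{L1} (locMap y) = (Nm_L y) ^ [L1 : L]`), `locNorm_inclI`.

Method: `algebraMap_norm_eq_prod` (norm = product of conjugates for a free algebra with an
invertible "conjugate matrix"), applied to `ℚ_q ⊗ L1` over `ℚ_q ⊗ L` (basis `1 ⊗ b`, independence of
characters for the determinant), then transitivity of the norm `Algebra.norm_norm`.
-/
import Mathlib
import Fermat.Agent.PT.GLOB.CycNormCompat22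

set_option autoImplicit false
set_option linter.unusedSectionVars false

namespace Fermat.Agent.PT.GLOB.TowerNormLoc6

open scoped TensorProduct

section General

variable {A B : Type*} [CommRing A] [CommRing B] [Algebra A B]
variable {ι κ : Type*} [Fintype ι] [DecidableEq ι] [Fintype κ] [DecidableEq κ]

/-- **Relative norm = product of conjugates** for a "Galois algebra": `B` free over `A` with basis
`v`, `τ k` a family of `A`-algebra endomorphisms indexed by `κ ≃ ι` such that the matrix
`(τ k (v j))` is invertible. -/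
theorem algebraMap_norm_eq_prod (v : Module.Basis ι A B) (τ : κ → (B →ₐ[A] B)) (e : ι ≃ κ)
    (hdet : IsUnit (Matrix.det (Matrix.of fun j k : ι => τ (e k) (v j)))) (x : B) :
    algebraMap A B (Algebra.norm A x) = ∏ k, τ k x := by
  set M := Algebra.leftMulMatrix v x with hM
  set W : Matrix ι ι B := Matrix.of fun j k : ι => τ (e k) (v j) with hW
  have hmul : ∀ j : ι, x * v j = ∑ i, M i j • v i := by
    intro j
    conv_lhs => rw [← v.sum_repr (x * v j)]
    apply Finset.sum_congr rfl
    intro i _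
    rw [hM, Algebra.leftMulMatrix_eq_repr_mul]
  have hkey : (M.map (algebraMap A B)).transpose * W =
      W * Matrix.diagonal (fun k : ι => τ (e k) x) := by
    ext j k
    rw [Matrix.mul_apply, Matrix.mul_diagonal]
    have h1 := congrArg (τ (e k)) (hmul j)
    rw [map_mul, map_sum] at h1
    simp only [Matrix.transpose_apply, Matrix.map_apply, hW, Matrix.of_apply]
    rw [mul_comm, h1]
    apply Finset.sum_congr rfl
    intro i _
    rw [map_smul, Algebra.smul_def]
  have hdet2 := congrArg Matrix.det hkey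
  rw [Matrix.det_mul, Matrix.det_mul, Matrix.det_transpose, Matrix.det_diagonal, mul_comm] at hdet2
  have h3 := hdet.mul_left_cancel hdet2
  rw [Algebra.norm_eq_matrix_det v, RingHom.map_det, RingHom.mapMatrix_apply, ← hM, h3]
  exact Fintype.prod_equiv e _ _ (fun k => rfl)

end General

noncomputable section

section Inst
variable (R : Type*) [CommRing R] [Algebra ℚ R]
variable (L L1 : Type*) [Field L] [Field L1] [Algebra L L1] [NumberField L] [NumberField L1]

/-- Extension of scalars `R ⊗ L → R ⊗ L1`. -/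
def baseMap : R ⊗[ℚ] L →ₐ[R] R ⊗[ℚ] L1 :=
  Algebra.TensorProduct.map (AlgHom.id R R) (IsScalarTower.toAlgHom ℚ L L1)

@[simp] theorem baseMap_tmul (r : R) (l : L) :
    baseMap R L L1 (r ⊗ₜ[ℚ] l) = r ⊗ₜ[ℚ] algebraMap L L1 l := rfl

/-- `R ⊗ L1` as an algebra over `R ⊗ L`. -/
@[reducible] def algAB : Algebra (R ⊗[ℚ] L) (R ⊗[ℚ] L1) := (baseMap R L L1).toRingHom.toAlgebra

attribute [local instance] algAB

theorem algebraMap_AB_apply (a : R ⊗[ℚ] L) :
    algebraMap (R ⊗[ℚ] L) (R ⊗[ℚ] L1) a = baseMap R L L1 a := rfl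

instance towerRAB : IsScalarTower R (R ⊗[ℚ] L) (R ⊗[ℚ] L1) :=
  IsScalarTower.of_algebraMap_eq (fun r => ((baseMap R L L1).commutes r).symm)

theorem smul_tmul_AB (r r' : R) (l : L) (m : L1) :
    (r ⊗ₜ[ℚ] l : R ⊗[ℚ] L) • (r' ⊗ₜ[ℚ] m : R ⊗[ℚ] L1) = (r * r') ⊗ₜ[ℚ] (l • m) := by
  rw [Algebra.smul_def, algebraMap_AB_apply, baseMap_tmul, Algebra.TensorProduct.tmul_mul_tmul,
    Algebra.smul_def]

variable {ι : Type*} [Fintype ι] [DecidableEq ι] (b : Module.Basis ι L L1)

/-- The `j`-th coordinate `R ⊗ L1 → R ⊗ L` with respect to an `L`-basis of `L1`. -/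
def coordAB (j : ι) : R ⊗[ℚ] L1 →ₗ[R ⊗[ℚ] L] R ⊗[ℚ] L where
  toFun := LinearMap.lTensor R ((b.coord j).restrictScalars ℚ)
  map_add' := map_add _
  map_smul' a z := by
    simp only [RingHom.id_apply]
    induction a using TensorProduct.induction_on with
    | zero => rw [zero_smul, zero_smul, map_zero]
    | tmul r l =>
      induction z using TensorProduct.induction_on with
      | zero => rw [smul_zero, map_zero, smul_zero]
      | tmul r' m =>
        rw [smul_tmul_AB, LinearMap.lTensor_tmul, LinearMap.lTensor_tmul, smul_eq_mul,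
          Algebra.TensorProduct.tmul_mul_tmul]
        congr 1
        change b.coord j (l • m) = l * b.coord j m
        rw [map_smul, smul_eq_mul]
      | add z w hz hw => rw [smul_add, map_add, map_add, smul_add, hz, hw]
    | add a a' ha ha' => rw [add_smul, add_smul, map_add, ha, ha']

theorem coordAB_tmul (j : ι) (r : R) (m : L1) :
    coordAB R L L1 b j (r ⊗ₜ[ℚ] m) = r ⊗ₜ[ℚ] b.repr m j := rfl

/-- The vectors `1 ⊗ b j`. -/
def vecAB (j : ι) : R ⊗[ℚ] L1 := (1 : R) ⊗ₜ[ℚ] b j

theorem coordAB_vecAB (j k : ι) :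
    coordAB R L L1 b j (vecAB R L L1 b k) = if j = k then 1 else 0 := by
  rw [vecAB, coordAB_tmul, Module.Basis.repr_self, Finsupp.single_apply]
  split_ifs with h1 h2 h2
  · rfl
  · exact absurd h1.symm h2
  · exact absurd h2.symm h1
  · rw [TensorProduct.tmul_zero]

theorem sum_coordAB_smul_vecAB (z : R ⊗[ℚ] L1) :
    ∑ j, coordAB R L L1 b j z • vecAB R L L1 b j = z := by
  induction z using TensorProduct.induction_on with
  | zero => simp
  | tmul r m =>
    simp only [coordAB_tmul, vecAB, smul_tmul_AB, mul_one]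
    rw [← TensorProduct.tmul_sum, b.sum_repr]
  | add z w hz hw =>
    simp only [map_add, add_smul, Finset.sum_add_distrib, hz, hw]

/-- `(1 ⊗ b j)` is a basis of `R ⊗ L1` over `R ⊗ L`. -/
def basisAB : Module.Basis ι (R ⊗[ℚ] L) (R ⊗[ℚ] L1) :=
  Module.Basis.mk (v := vecAB R L L1 b)
    (by
      rw [Fintype.linearIndependent_iff]
      intro g hg j
      have := congrArg (coordAB R L L1 b j) hg
      rw [map_sum, map_zero] at this
      simp only [map_smul, coordAB_vecAB, smul_eq_mul, mul_ite, mul_one, mul_zero,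
        Finset.sum_ite_eq, Finset.mem_univ, if_true] at this
      exact this)
    (by
      intro z _
      rw [← sum_coordAB_smul_vecAB R L L1 b z]
      exact Submodule.sum_mem _ (fun j _ =>
        Submodule.smul_mem _ _ (Submodule.subset_span ⟨j, rfl⟩)))

theorem basisAB_apply (j : ι) : basisAB R L L1 b j = (1 : R) ⊗ₜ[ℚ] b j := by
  rw [basisAB, Module.Basis.mk_apply]
  rfl

end Inst

section Galois

variable (R : Type*) [CommRing R] [Algebra ℚ R]
variable (L L1 : Type*) [Field L] [Field L1] [Algebra L L1] [NumberField L] [NumberField L1]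

attribute [local instance] algAB

/-- The automorphism `1 ⊗ τ` of `R ⊗ L1`, as an `R ⊗ L`-algebra endomorphism. -/
def galMap (τ : L1 ≃ₐ[L] L1) : R ⊗[ℚ] L1 →ₐ[R ⊗[ℚ] L] R ⊗[ℚ] L1 where
  toRingHom := (Algebra.TensorProduct.map (AlgHom.id R R)
    ((τ : L1 →ₐ[L] L1).restrictScalars ℚ)).toRingHom
  commutes' a := by
    change Algebra.TensorProduct.map (AlgHom.id R R) ((τ : L1 →ₐ[L] L1).restrictScalars ℚ)
      (baseMap R L L1 a) = baseMap R L L1 a
    induction a using TensorProduct.induction_on with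
    | zero => rw [map_zero, map_zero]
    | tmul r l =>
      rw [baseMap_tmul, Algebra.TensorProduct.map_tmul]
      congr 1
      exact τ.commutes l
    | add a a' ha ha' => rw [map_add, map_add, ha, ha']

@[simp] theorem galMap_tmul (τ : L1 ≃ₐ[L] L1) (r : R) (m : L1) :
    galMap R L L1 τ (r ⊗ₜ[ℚ] m) = r ⊗ₜ[ℚ] τ m := rfl

variable [FiniteDimensional L L1] [IsGalois L L1]

/-- The matrix `(τ (b j))` of conjugates of a basis is invertible (independence of characters). -/
theorem det_conj_ne_zero {ι : Type*} [Fintype ι] [DecidableEq ι] (b : Module.Basis ι L L1)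
    (e : ι ≃ (L1 ≃ₐ[L] L1)) :
    Matrix.det (Matrix.of fun j k : ι => (e k) (b j)) ≠ 0 := by
  intro hdet
  obtain ⟨c, hc0, hc⟩ := Matrix.exists_mulVec_eq_zero_iff.mpr hdet
  apply hc0
  -- the `L1`-linear combination `∑ k, c k • (e k)` of automorphisms vanishes on the basis
  have hzero : ∑ k, c k • ((e k : L1 →ₐ[L] L1).toLinearMap) = 0 := by
    apply b.ext
    intro j
    have := congrFun hc j
    rw [Matrix.mulVec, dotProduct] at this
    simp only [Matrix.of_apply, Pi.zero_apply] at this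
    rw [LinearMap.sum_apply, LinearMap.zero_apply]
    rw [← this]
    apply Finset.sum_congr rfl
    intro k _
    rw [LinearMap.smul_apply, smul_eq_mul, mul_comm]
    rfl
  have hli := linearIndependent_toLinearMap L L1 L1
  have hinj : Function.Injective (fun k : ι => ((e k : L1 ≃ₐ[L] L1) : L1 →ₐ[L] L1)) := by
    intro k k' h
    apply e.injective
    apply AlgEquiv.coe_toAlgHom_injective
    exact h
  have hli' := hli.comp _ hinj
  rw [Fintype.linearIndependent_iff] at hli'
  funext k
  exact hli' c hzero k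

/-- **Relative norm = product of conjugates** for `R ⊗ L1` over `R ⊗ L`. -/
theorem baseMap_norm_eq_prod (x : R ⊗[ℚ] L1) :
    baseMap R L L1 (Algebra.norm (R ⊗[ℚ] L) x) = ∏ τ : L1 ≃ₐ[L] L1, galMap R L L1 τ x := by
  classical
  let b := Module.finBasis L L1
  have hcard : Fintype.card (Fin (Module.finrank L L1)) = Fintype.card (L1 ≃ₐ[L] L1) := by
    rw [Fintype.card_fin, ← Nat.card_eq_fintype_card, IsGalois.card_aut_eq_finrank]
  let e : Fin (Module.finrank L L1) ≃ (L1 ≃ₐ[L] L1) := Fintype.equivOfCardEq hcard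
  have hdet : IsUnit (Matrix.det (Matrix.of fun j k : Fin (Module.finrank L L1) =>
      galMap R L L1 (e k) (basisAB R L L1 b j))) := by
    have h1 : (Matrix.of fun j k : Fin (Module.finrank L L1) =>
        galMap R L L1 (e k) (basisAB R L L1 b j)) =
        (Matrix.of fun j k : Fin (Module.finrank L L1) => (e k) (b j)).map
          (Algebra.TensorProduct.includeRight : L1 →ₐ[ℚ] R ⊗[ℚ] L1) := by
      ext j k
      rw [Matrix.map_apply, Matrix.of_apply, Matrix.of_apply, basisAB_apply, galMap_tmul]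
      rfl
    have h2 : Matrix.det ((Matrix.of fun j k : Fin (Module.finrank L L1) => (e k) (b j)).map
        (Algebra.TensorProduct.includeRight : L1 →ₐ[ℚ] R ⊗[ℚ] L1)) =
        (Algebra.TensorProduct.includeRight : L1 →ₐ[ℚ] R ⊗[ℚ] L1)
          (Matrix.det (Matrix.of fun j k : Fin (Module.finrank L L1) => (e k) (b j))) := by
      have h3 := RingHom.map_det
        ((Algebra.TensorProduct.includeRight : L1 →ₐ[ℚ] R ⊗[ℚ] L1) : L1 →+* R ⊗[ℚ] L1)
        (Matrix.of fun j k : Fin (Module.finrank L L1) => (e k) (b j))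
      rw [RingHom.mapMatrix_apply] at h3
      exact h3.symm
    rw [h1, h2]
    exact (IsUnit.mk0 _ (det_conj_ne_zero L L1 b e)).map _
  exact algebraMap_norm_eq_prod (basisAB R L L1 b) (galMap R L L1) e hdet x

theorem baseMap_injective : Function.Injective (baseMap R L L1) := by
  have h := Module.Flat.lTensor_preserves_injective_linearMap (R := ℚ) (M := R)
    (IsScalarTower.toAlgHom ℚ L L1).toLinearMap (algebraMap L L1).injective
  intro a a' haa'
  apply h
  have key : ∀ z : R ⊗[ℚ] L, (IsScalarTower.toAlgHom ℚ L L1).toLinearMap.lTensor R z =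
      baseMap R L L1 z := by
    intro z
    induction z using TensorProduct.induction_on with
    | zero => rw [map_zero, map_zero]
    | tmul x r => rfl
    | add a b ha hb => rw [map_add, map_add, ha, hb]
  rw [key, key, haa']

/-- **Transitivity + Galois**: if `y ∈ R ⊗ L` maps to the product of the conjugates of
`x ∈ R ⊗ L1`, then `N_{R⊗L/R} y = N_{R⊗L1/R} x`. -/
theorem norm_eq_norm_of_baseMap_eq_prod (x : R ⊗[ℚ] L1) (y : R ⊗[ℚ] L)
    (h : baseMap R L L1 y = ∏ τ : L1 ≃ₐ[L] L1, galMap R L L1 τ x) :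
    Algebra.norm R y = Algebra.norm R x := by
  have hy : y = Algebra.norm (R ⊗[ℚ] L) x := by
    apply baseMap_injective R L L1
    rw [h, baseMap_norm_eq_prod]
  have : Module.Free (R ⊗[ℚ] L) (R ⊗[ℚ] L1) :=
    Module.Free.of_basis (basisAB R L L1 (Module.finBasis L L1))
  rw [hy, Algebra.norm_norm]

end Galois

section Transport

open Interface23 Tower23 TowerMaps6 TowerNorm6 CycChar22

variable (L L1 : Type) [Field L] [Field L1] [NumberField L] [NumberField L1] [Algebra L L1]

/-- (c1) the swap `L ⊗ ℚ_q ≃ ℚ_q ⊗ L` intertwines `locMap` and `baseMap`. -/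
theorem comm_locMap (q : Nat.Primes) (y : Loc L q) :
    Algebra.TensorProduct.comm ℚ L1 ℚ_[(q : ℕ)] (locMap L L1 q y) =
      baseMap ℚ_[(q : ℕ)] L L1 (Algebra.TensorProduct.comm ℚ L ℚ_[(q : ℕ)] y) := by
  induction y using TensorProduct.induction_on with
  | zero => rw [map_zero, map_zero, map_zero, map_zero]
  | tmul x r => rfl
  | add a b ha hb => rw [map_add, map_add, map_add, map_add, ha, hb]

/-- (c2) the swap intertwines the Galois action and `galMap`. -/
theorem comm_smul (q : Nat.Primes) (τ : L1 ≃ₐ[L] L1) (z : Loc L1 q) :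
    Algebra.TensorProduct.comm ℚ L1 ℚ_[(q : ℕ)] (τ • z) =
      galMap ℚ_[(q : ℕ)] L L1 τ (Algebra.TensorProduct.comm ℚ L1 ℚ_[(q : ℕ)] z) := by
  induction z using TensorProduct.induction_on with
  | zero => rw [smul_zero, map_zero, map_zero]
  | tmul x r => rfl
  | add a b ha hb => rw [smul_add, map_add, map_add, map_add, ha, hb]

variable [IsGalois L L1]

/-- **General local norm compatibility** (ring level): if `y ∈ L ⊗ ℚ_q` maps to the product of the
Galois conjugates of `x ∈ L1 ⊗ ℚ_q`, then `Nm y = Nm x`. -/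
theorem locNorm0_eq_of_locMap_eq_prod (q : Nat.Primes) (x : Loc L1 q) (y : Loc L q)
    (h : locMap L L1 q y = ∏ τ : L1 ≃ₐ[L] L1, τ • x) :
    locNorm0 L (q : ℕ) y = locNorm0 L1 (q : ℕ) x := by
  change Algebra.norm ℚ_[(q : ℕ)] (Algebra.TensorProduct.comm ℚ L ℚ_[(q : ℕ)] y) =
    Algebra.norm ℚ_[(q : ℕ)] (Algebra.TensorProduct.comm ℚ L1 ℚ_[(q : ℕ)] x)
  apply norm_eq_norm_of_baseMap_eq_prod ℚ_[(q : ℕ)] L L1
  rw [← comm_locMap, h, map_prod]
  exact Finset.prod_congr rfl (fun τ _ => comm_smul L L1 q τ x)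

/-- **General local norm compatibility** (unit level). -/
theorem locNorm_eq_of_locMap_eq_prod (q : Nat.Primes) (x : (Loc L1 q)ˣ) (y : (Loc L q)ˣ)
    (h : Units.map (locMap L L1 q).toMonoidHom y = ∏ τ : L1 ≃ₐ[L] L1, τ • x) :
    locNorm L (q : ℕ) y = locNorm L1 (q : ℕ) x := by
  apply Units.ext
  rw [coe_locNorm, coe_locNorm]
  apply locNorm0_eq_of_locMap_eq_prod
  have h1 := congrArg (fun u : (Loc L1 q)ˣ => (u : Loc L1 q)) h
  simp only [Units.coe_map, Units.coe_prod] at h1
  exact h1

/-- Galois invariance of the local norm (ring level). -/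
theorem locNorm0_smul (q : Nat.Primes) (τ : L1 ≃ₐ[L] L1) (x : Loc L1 q) :
    locNorm0 L1 (q : ℕ) (τ • x) = locNorm0 L1 (q : ℕ) x := by
  change Algebra.norm ℚ_[(q : ℕ)] (Algebra.TensorProduct.comm ℚ L1 ℚ_[(q : ℕ)] (τ • x)) =
    Algebra.norm ℚ_[(q : ℕ)] (Algebra.TensorProduct.comm ℚ L1 ℚ_[(q : ℕ)] x)
  rw [comm_smul]
  -- `galMap τ` is an `ℚ_q`-algebra automorphism of `ℚ_q ⊗ L1`
  let E : (ℚ_[(q : ℕ)] ⊗[ℚ] L1) ≃ₐ[ℚ_[(q : ℕ)]] (ℚ_[(q : ℕ)] ⊗[ℚ] L1) :=
    Algebra.TensorProduct.congr (AlgEquiv.refl : ℚ_[(q : ℕ)] ≃ₐ[ℚ_[(q : ℕ)]] ℚ_[(q : ℕ)])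
      (τ.restrictScalars ℚ)
  have hE : ∀ z, E z = galMap ℚ_[(q : ℕ)] L L1 τ z := by
    intro z
    induction z using TensorProduct.induction_on with
    | zero => rw [map_zero, map_zero]
    | tmul r m => rfl
    | add a b ha hb => rw [map_add, map_add, ha, hb]
  rw [← hE]
  exact Algebra.norm_eq_of_algEquiv E _

/-- Galois invariance of the local norm (unit level). -/
theorem locNorm_smul (q : Nat.Primes) (τ : L1 ≃ₐ[L] L1) (x : (Loc L1 q)ˣ) :
    locNorm L1 (q : ℕ) (τ • x) = locNorm L1 (q : ℕ) x := by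
  apply Units.ext
  rw [coe_locNorm, coe_locNorm]
  exact locNorm0_smul L L1 q τ (x : Loc L1 q)

/-- `Nm_{L1 ⊗ ℚ_q} (locMap y) = (Nm_{L ⊗ ℚ_q} y) ^ [L1 : L]`. -/
theorem locNorm_locMap (q : Nat.Primes) (y : (Loc L q)ˣ) :
    locNorm L1 (q : ℕ) (Units.map (locMap L L1 q).toMonoidHom y) =
      locNorm L (q : ℕ) y ^ Module.finrank L L1 := by
  have h : Units.map (locMap L L1 q).toMonoidHom (y ^ Module.finrank L L1) =
      ∏ τ : L1 ≃ₐ[L] L1, τ • Units.map (locMap L L1 q).toMonoidHom y := by
    have h1 : ∀ τ : L1 ≃ₐ[L] L1, τ • Units.map (locMap L L1 q).toMonoidHom y =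
        Units.map (locMap L L1 q).toMonoidHom y := by
      intro τ
      apply Units.ext
      rw [coe_smul_unitsTensor, Units.coe_map]
      exact smul_locMap L L1 q τ (y : Loc L q)
    simp only [h1]
    rw [Finset.prod_const, Finset.card_univ, ← Nat.card_eq_fintype_card,
      IsGalois.card_aut_eq_finrank, map_pow]
  rw [← locNorm_eq_of_locMap_eq_prod L L1 q _ _ h, map_pow]

end Transport

section Main

open Interface23 Tower23 TowerMaps6 TowerNorm6 CycChar22

variable (T : Finset Nat.Primes)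
variable (L L1 : Type) [Field L] [Field L1] [NumberField L] [NumberField L1] [Algebra L L1]
  [IsGalois L L1] (hunr : IsUnramifiedOutside T L L1)

/-- The local norm of an idele coming from below. -/
theorem locNorm_inclI (x : IT T L) (q : T) :
    locNorm L1 (q.1 : ℕ) (inclI T L L1 x q) = locNorm L (q.1 : ℕ) (x q) ^ Module.finrank L L1 :=
  locNorm_locMap L L1 q.1 (x q)

/-- **Local norm compatibility of the tower norm.** -/
theorem locNorm_normDown (j : JT T L1) (q : T) :
    locNorm L (q.1 : ℕ) ((normDown T L L1 hunr j).1 q) = locNorm L1 (q.1 : ℕ) (j.1 q) := by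
  apply locNorm_eq_of_locMap_eq_prod L L1 q.1
  have h1 := congrArg Prod.fst (inclJ_normDown T L L1 hunr j)
  rw [normJ_fst] at h1
  have h2 := congrFun h1 q
  rw [Finset.prod_apply] at h2
  exact h2

/-- The hypothesis `LocNormCompat` of `CycNormCompat22` holds unconditionally. -/
theorem locNormCompat : CycNormCompat22.LocNormCompat T L L1 hunr :=
  fun j q => locNorm_normDown T L L1 hunr j q

end Main

end

end Fermat.Agent.PT.GLOB.TowerNormLoc6
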