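/-
Program F (S55, Poitou–Tate), chapter GLOB, leaf (A2) general form (helper17).

**The explicit cyclotomic character in an arbitrary (non-Galois) tower.**
For number fields `F ⊂ F1` (only `[Algebra F F1]`), `T ∋ p`:

  `cyc_inclJ_general : cyc T F1 p r hpT (inclJ T F F1 j) = cyc T F p r hpT j ^ [F1 : F]`.

Pieces:
* `norm_baseMap` : `N_{R ⊗ L1 / R} (baseMap a) = (N_{R ⊗ L / R} a) ^ [L1 : L]` (transitivity of the
  norm + norm of a scalar, on helper6's free algebra `R ⊗ L1` over `R ⊗ L`);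
* `locNorm0_locMap`, `locNorm_locMap_general`, `locNorm_inclI_general`, `cycI_inclI_general`;
* `absNorm_eq_pow_inertiaDeg`, `primeUnit_eq_pow`, `sum_ramIdx_mul_inertiaDeg`
  (`∑_{P' ∣ P} e f = [L1 : L]` over `PrimesAbove24.fiber`), `divChar_inclDiv`.
-/
import Fermat.Agent.PT.GLOB.TowerNormLoc6

set_option autoImplicit false
set_option linter.unusedSectionVars false
set_option linter.deprecated false

open NumberField IsDedekindDomain
open scoped TensorProduct nonZeroDivisors

namespace Fermat.Agent.PT.GLOB.CycIncl17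

open Fermat.Agent.PT.GLOB.Interface23 Fermat.Agent.PT.GLOB.CycChar22
open Fermat.Agent.PT.GLOB.Tower23 Fermat.Agent.PT.GLOB.TowerNormLoc6
open Fermat.Agent.PT.GLOB.CycNormCompat22

noncomputable section

/-! ### 1. The local norms -/

section Norm

variable (R : Type*) [CommRing R] [Algebra ℚ R]
variable (L L1 : Type*) [Field L] [Field L1] [Algebra L L1] [NumberField L] [NumberField L1]

attribute [local instance] algAB

/-- `N_{R ⊗ L1 / R} (baseMap a) = (N_{R ⊗ L / R} a) ^ [L1 : L]`, no Galois hypothesis. -/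
theorem norm_baseMap (a : R ⊗[ℚ] L) :
    Algebra.norm R (baseMap R L L1 a) = Algebra.norm R a ^ Module.finrank L L1 := by
  classical
  let b := Module.finBasis L L1
  have : Module.Free (R ⊗[ℚ] L) (R ⊗[ℚ] L1) := Module.Free.of_basis (basisAB R L L1 b)
  have : Module.Finite (R ⊗[ℚ] L) (R ⊗[ℚ] L1) := Module.Finite.of_basis (basisAB R L L1 b)
  have h1 : Algebra.norm (R ⊗[ℚ] L) (algebraMap (R ⊗[ℚ] L) (R ⊗[ℚ] L1) a) =
      a ^ Fintype.card (Fin (Module.finrank L L1)) :=
    Algebra.norm_algebraMap_of_basis (basisAB R L L1 b) a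
  rw [← algebraMap_AB_apply, ← Algebra.norm_norm (S := R ⊗[ℚ] L), h1, map_pow, Fintype.card_fin]

end Norm

section LocNorm

variable (L L1 : Type) [Field L] [Field L1] [NumberField L] [NumberField L1] [Algebra L L1]

/-- `Nm_{L1 ⊗ ℚ_q} (locMap y) = (Nm_{L ⊗ ℚ_q} y) ^ [L1 : L]` (ring level, no Galois hypothesis). -/
theorem locNorm0_locMap (q : Nat.Primes) (y : Loc L q) :
    locNorm0 L1 (q : ℕ) (locMap L L1 q y) = locNorm0 L (q : ℕ) y ^ Module.finrank L L1 := by
  change Algebra.norm ℚ_[(q : ℕ)] (Algebra.TensorProduct.comm ℚ L1 ℚ_[(q : ℕ)] (locMap L L1 q y)) =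
    Algebra.norm ℚ_[(q : ℕ)] (Algebra.TensorProduct.comm ℚ L ℚ_[(q : ℕ)] y) ^ Module.finrank L L1
  rw [comm_locMap, norm_baseMap]

/-- `Nm_{L1 ⊗ ℚ_q} (locMap y) = (Nm_{L ⊗ ℚ_q} y) ^ [L1 : L]` (unit level, no Galois hypothesis). -/
theorem locNorm_locMap_general (q : Nat.Primes) (y : (Loc L q)ˣ) :
    locNorm L1 (q : ℕ) (Units.map (locMap L L1 q).toMonoidHom y) =
      locNorm L (q : ℕ) y ^ Module.finrank L L1 := by
  apply Units.ext
  rw [coe_locNorm, Units.val_pow_eq_pow_val, coe_locNorm, Units.coe_map]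
  exact locNorm0_locMap L L1 q (y : Loc L q)

variable (T : Finset Nat.Primes)

theorem locNorm_inclI_general (x : IT T L) (q : T) :
    locNorm L1 (q.1 : ℕ) (inclI T L L1 x q) = locNorm L (q.1 : ℕ) (x q) ^ Module.finrank L L1 :=
  locNorm_locMap_general L L1 q.1 (x q)

variable (p : Nat.Primes) (r : ℕ)

/-- The idelic part: `cycI_{L1} (inclI x) = cycI_L x ^ [L1 : L]`. -/
theorem cycI_inclI_general (hpT : p ∈ T) (x : IT T L) :
    cycI T L1 p r hpT (inclI T L L1 x) = cycI T L p r hpT x ^ Module.finrank L L1 := by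
  rw [← map_pow]
  refine (cycI_congr T L L1 p r hpT (x ^ Module.finrank L L1) (inclI T L L1 x) fun q => ?_).symm
  rw [locNorm_inclI_general, Pi.pow_apply, map_pow]

end LocNorm

/-! ### 2. The divisor part -/

section Div

open Fermat.Agent.PT.GLOB.PrimesAbove24

variable (T : Finset Nat.Primes)
variable (L L1 : Type) [Field L] [Field L1] [NumberField L] [NumberField L1] [Algebra L L1]
variable (p : Nat.Primes) (r : ℕ)

/-- The inertia degree of a prime of `L1` over `L`. -/
def inDeg (P' : HeightOneSpectrum (𝓞 L1)) : ℕ :=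
  (P'.under (𝓞 L)).asIdeal.inertiaDeg' P'.asIdeal

theorem absNorm_eq_pow_inDeg (P' : HeightOneSpectrum (𝓞 L1)) :
    Ideal.absNorm P'.asIdeal = Ideal.absNorm (P'.under (𝓞 L)).asIdeal ^ inDeg L L1 P' := by
  have hlo : P'.asIdeal.LiesOver (P'.under (𝓞 L)).asIdeal := ⟨rfl⟩
  have hprime : (P'.under (𝓞 L)).asIdeal.IsPrime := (P'.under (𝓞 L)).isPrime
  exact Ideal.absNorm_eq_pow_inertiaDeg'_of_liesOver P'.asIdeal
    (P'.under (𝓞 L)).asIdeal hprime (P'.under (𝓞 L)).ne_bot

theorem primeUnit_eq_pow (hpT : p ∈ T) (P' : PrimeAway T L1) :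
    primeUnit L1 p r P'.1 = primeUnit L p r (underAway T L L1 P').1 ^ inDeg L L1 P'.1 := by
  have h1 : Ideal.absNorm P'.1.asIdeal =
      Ideal.absNorm (underAway T L L1 P').1.asIdeal ^ inDeg L L1 P'.1 :=
    absNorm_eq_pow_inDeg L L1 P'.1
  rw [primeUnit, primeUnit, h1,
    unitOfNat_pow (coprime_absNorm_of_primeAway T L p r hpT (underAway T L L1 P'))]

/-- The fundamental identity `∑_{P' ∣ P} e(P'|P) f(P'|P) = [L1 : L]` over `PrimesAbove24.fiber`. -/
theorem sum_ramIdx_mul_inDeg (P : HeightOneSpectrum (𝓞 L)) :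
    ∑ P' ∈ fiber (𝓞 L) (𝓞 L1) P, ramIdx L L1 P' * inDeg L L1 P' = Module.finrank L L1 := by
  classical
  have := P.isMaximal
  have h := Ideal.sum_ramification_inertia (R := 𝓞 L) (S := 𝓞 L1) L L1 (p := P.asIdeal) P.ne_bot
  rw [← h]
  have himg : IsDedekindDomain.primesOverFinset P.asIdeal (𝓞 L1) =
      (fiber (𝓞 L) (𝓞 L1) P).image HeightOneSpectrum.asIdeal := by
    ext Q
    rw [IsDedekindDomain.mem_primesOverFinset_iff P.ne_bot, Finset.mem_image]
    constructor
    · rintro ⟨hQ, hQo⟩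
      have hQ0 : Q ≠ ⊥ := Ideal.ne_bot_of_liesOver_of_ne_bot P.ne_bot Q
      refine ⟨⟨Q, hQ, hQ0⟩, mem_fiber.mpr ?_, rfl⟩
      apply HeightOneSpectrum.ext
      exact (hQo.over).symm
    · rintro ⟨w, hw, rfl⟩
      rw [mem_fiber] at hw
      exact ⟨w.isPrime, ⟨(congrArg HeightOneSpectrum.asIdeal hw).symm⟩⟩
  rw [himg, Finset.sum_image (fun w _ w' _ h => HeightOneSpectrum.ext h)]
  refine Finset.sum_congr rfl fun w hw => ?_
  rw [mem_fiber] at hw
  unfold ramIdx inDeg
  rw [hw]

/-- A prime of `L1` above a prime of `L` away from `T` is away from `T`. -/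
theorem isAway_of_under_eq (P : PrimeAway T L) (v : HeightOneSpectrum (𝓞 L1))
    (hv : v.under (𝓞 L) = P.1) : IsAway T L1 v := by
  intro q hq hmem
  apply P.2 q hq
  rw [← hv]
  change algebraMap (𝓞 L) (𝓞 L1) (((q : ℕ) : ℤ) : 𝓞 L) ∈ v.asIdeal
  rwa [map_intCast]

open scoped Classical in
/-- The coefficients of the pull-back of a prime divisor. -/
theorem toFinsupp_inclDiv_single (P : PrimeAway T L) (x : PrimeAway T L1) :
    DivT.toFinsupp T L1 (inclDiv T L L1 (DivT.ofFinsupp T L (Finsupp.single P 1))) x =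
      if x.1.under (𝓞 L) = P.1 then (ramIdx L L1 x.1 : ℤ) else 0 := by
  rw [inclDiv_apply]
  change (ramIdx L L1 x.1 : ℤ) * (Finsupp.single P (1 : ℤ)) (underAway T L L1 x) = _
  rw [Finsupp.single_apply]
  by_cases h : x.1.under (𝓞 L) = P.1
  · have h' : P = underAway T L L1 x := Subtype.ext h.symm
    rw [if_pos h', if_pos h, mul_one]
  · have h' : ¬ P = underAway T L L1 x := fun h'' => h (congrArg Subtype.val h'').symm
    rw [if_neg h', if_neg h, mul_zero]

/-- The value of `divChar` on the pull-back of a prime divisor. -/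
theorem divChar_inclDiv_single (hpT : p ∈ T) (P : PrimeAway T L) :
    divChar T L1 p r (inclDiv T L L1 (DivT.ofFinsupp T L (Finsupp.single P 1))) =
      primeUnit L p r P.1 ^ Module.finrank L L1 := by
  classical
  have h1 : divChar T L1 p r (inclDiv T L L1 (DivT.ofFinsupp T L (Finsupp.single P 1))) =
      ∏ v ∈ fiber (𝓞 L) (𝓞 L1) P.1, if IsAway T L1 v then
        primeUnit L1 p r v ^ (if v.under (𝓞 L) = P.1 then (ramIdx L L1 v : ℤ) else 0) else 1 :=
    finsupp_subtype_prod (IsAway T L1)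
      (DivT.toFinsupp T L1 (inclDiv T L L1 (DivT.ofFinsupp T L (Finsupp.single P 1))))
      (fiber (𝓞 L) (𝓞 L1) P.1)
      (fun v => if v.under (𝓞 L) = P.1 then (ramIdx L L1 v : ℤ) else 0)
      (fun x => toFinsupp_inclDiv_single T L L1 P x)
      (fun v hv => if_neg (fun h => hv (mem_fiber.mpr h)))
      (primeUnit L1 p r)
  rw [h1, ← sum_ramIdx_mul_inDeg L L1 P.1, ← Finset.prod_pow_eq_pow_sum]
  refine Finset.prod_congr rfl fun v hv => ?_
  rw [mem_fiber] at hv
  have haway := isAway_of_under_eq T L L1 P v hv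
  rw [if_pos haway, if_pos hv, zpow_natCast]
  have h2 := primeUnit_eq_pow T L L1 p r hpT ⟨v, haway⟩
  have h3 : underAway T L L1 ⟨v, haway⟩ = P := Subtype.ext hv
  rw [h3] at h2
  change primeUnit L1 p r v = _ at h2
  rw [h2, ← pow_mul, mul_comm]

/-- The divisor part: `divChar_{L1} (inclDiv D) = divChar_L D ^ [L1 : L]`. -/
theorem divChar_inclDiv (hpT : p ∈ T) (D : DivT T L) :
    divChar T L1 p r (inclDiv T L L1 D) = divChar T L p r D ^ Module.finrank L L1 := by
  have key : ∀ f : PrimeAway T L →₀ ℤ,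
      divChar T L1 p r (inclDiv T L L1 (DivT.ofFinsupp T L f)) =
        divChar T L p r (DivT.ofFinsupp T L f) ^ Module.finrank L L1 := by
    intro f
    induction f using Finsupp.induction_linear with
    | zero =>
      have h2 : DivT.ofFinsupp T L 0 = (1 : DivT T L) := rfl
      rw [h2, map_one, map_one, map_one, one_pow]
    | add f g hf hg =>
      have h2 : DivT.ofFinsupp T L (f + g) = DivT.ofFinsupp T L f * DivT.ofFinsupp T L g := rfl
      rw [h2, map_mul, map_mul, map_mul, hf, hg, mul_pow]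
    | single P n =>
      have h0 : DivT.ofFinsupp T L (Finsupp.single P n) =
          DivT.ofFinsupp T L (Finsupp.single P 1) ^ n := by
        have h00 : DivT.ofFinsupp T L (n • Finsupp.single P 1) =
            DivT.ofFinsupp T L (Finsupp.single P 1) ^ n := rfl
        rw [← h00, Finsupp.smul_single, smul_eq_mul, mul_one]
      have h2 : divChar T L p r (DivT.ofFinsupp T L (Finsupp.single P 1)) =
          primeUnit L p r P.1 := by
        have := cyc_single T L p r hpT P 1
        rwa [cyc_apply, cycI_one, one_mul, zpow_one] at this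
      rw [h0, map_zpow, map_zpow, map_zpow, divChar_inclDiv_single T L L1 p r hpT P, h2,
        ← zpow_natCast, ← zpow_natCast, ← zpow_mul, ← zpow_mul, mul_comm]
  exact key (DivT.toFinsupp T L D)

/-- **(A2) general form**: `cyc_{L1} (inclJ j) = cyc_L j ^ [L1 : L]` for an arbitrary extension
`L1/L` of number fields. -/
theorem cyc_inclJ_general (hpT : p ∈ T) (j : JT T L) :
    cyc T L1 p r hpT (inclJ T L L1 j) = cyc T L p r hpT j ^ Module.finrank L L1 := by
  obtain ⟨x, D⟩ := j
  have h : inclJ T L L1 (x, D) = (inclI T L L1 x, inclDiv T L L1 D) := rfl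
  rw [h, cyc_apply, cyc_apply, cycI_inclI_general, divChar_inclDiv T L L1 p r hpT, mul_pow]

end Div

end

end Fermat.Agent.PT.GLOB.CycIncl17
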