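/-
Program F (S55, Poitou–Tate), chapter GLOB, leaf (A2') (helper17): `CycIncl17.cyc_inclJ_general`
in the exact shape `CycRecShape23.CycIncl` consumed by helper23's assembly.
-/
import Fermat.Agent.PT.GLOB.CycIncl17
import Fermat.Agent.PT.GLOB.CycRecShape23

set_option autoImplicit false

namespace Fermat.Agent.PT.GLOB.CycInclShape17

/-- **(A2')** compatibility of the explicit cyclotomic character with the tower map, for an
arbitrary extension of number fields. -/
theorem cycIncl (T : Finset Nat.Primes) (p : Nat.Primes) (hpT : p ∈ T) (r : ℕ)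
    [NeZero ((p : ℕ) ^ r)] : CycRecShape23.CycIncl T p hpT r :=
  fun K K' _ _ _ _ _ j => CycIncl17.cyc_inclJ_general T K K' p r hpT j

end Fermat.Agent.PT.GLOB.CycInclShape17
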