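/-
Program F (S55, Poitou–Tate), chapter GLOB, leaf C2 part (a) (helper22).

**The cyclotomic character of a field containing `μ_{p^r}` is trivial up to sign.**

For a number field `M` containing a primitive `p ^ r`-th root of unity and `p ∈ T`, the explicit
cyclotomic character `cyc T M p r : JT T M →* (ZMod (p ^ r))ˣ` of `CycChar22` takes only the
values `±1` (`cyc_eq_one_or_neg_one`).  Ingredients:

* `locNorm0_intToRat_near_one`: the norm `K ⊗ ℚ_q → ℚ_q` maps (the image of)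
  `1 + q ^ k • (𝓞 K ⊗ ℤ_q)` into `1 + q ^ k ℤ_q` (integral multiplication matrices);
  consequences `padicVal_locNorm_near_one`, `theta_locNorm_near_one`;
* `pow_dvd_absNorm_sub_one`, `primeUnit_eq_one_of_primitiveRoot`: `absNorm P ≡ 1 mod p ^ r` for the
  primes `P ∤ p` of a field containing `μ_{p^r}`;
* weak approximation (`WeakApprox17`) and the product formula (`CycChar22.cyc_diagJ`).
-/
import Mathlib
import Fermat.Agent.PT.GLOB.CycChar22
import Fermat.Agent.PT.GLOB.WeakApprox17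

set_option autoImplicit false
set_option linter.unusedSectionVars false
set_option linter.style.haveILetI false

open NumberField IsDedekindDomain
open scoped TensorProduct nonZeroDivisors

namespace Fermat.Agent.PT.GLOB.CycKillsNorms22

open Fermat.Agent.PT.GLOB.Interface23 Fermat.Agent.PT.GLOB.CycChar22
open Fermat.Agent.PT.GLOB.WeakApprox17

section LocalNorm

variable (K : Type*) [Field K] [NumberField K] (q : ℕ) [hq : Fact q.Prime]

/-- The `ℚ_q`-basis `1 ⊗ b_j` of `ℚ_q ⊗_ℚ K` coming from an integral basis of `K`. -/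
noncomputable def locBasis :
    Module.Basis (Module.Free.ChooseBasisIndex ℤ (𝓞 K)) ℚ_[q] (ℚ_[q] ⊗[ℚ] K) :=
  Algebra.TensorProduct.basis ℚ_[q] (integralBasis K)

/-- The subring of matrices with entries in `ℤ_q`. -/
noncomputable def intMatrices :
    Subring (Matrix (Module.Free.ChooseBasisIndex ℤ (𝓞 K)) (Module.Free.ChooseBasisIndex ℤ (𝓞 K))
      ℚ_[q]) :=
  ((PadicInt.Coe.ringHom (p := q)).mapMatrix).range

/-- The multiplication matrix with respect to `locBasis`. -/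
noncomputable def mulMat : (ℚ_[q] ⊗[ℚ] K) →+*
    Matrix (Module.Free.ChooseBasisIndex ℤ (𝓞 K)) (Module.Free.ChooseBasisIndex ℤ (𝓞 K)) ℚ_[q] :=
  (Algebra.leftMulMatrix (locBasis K q)).toRingHom

theorem mulMat_apply (y : ℚ_[q] ⊗[ℚ] K) (i j : Module.Free.ChooseBasisIndex ℤ (𝓞 K)) :
    mulMat K q y i j = (locBasis K q).repr (y * locBasis K q j) i :=
  Algebra.leftMulMatrix_eq_repr_mul _ _ _ _

theorem norm_eq_det_mulMat (y : ℚ_[q] ⊗[ℚ] K) :
    Algebra.norm ℚ_[q] y = (mulMat K q y).det :=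
  Algebra.norm_eq_matrix_det (locBasis K q) y

theorem mulMat_one_tmul (a : 𝓞 K) :
    mulMat K q ((1 : ℚ_[q]) ⊗ₜ[ℚ] (a : K)) ∈ intMatrices K q := by
  refine ⟨Matrix.of fun i j =>
    (((RingOfIntegers.basis K).repr (a * RingOfIntegers.basis K j) i : ℤ) : ℤ_[q]), ?_⟩
  ext i j
  rw [mulMat_apply, locBasis, Algebra.TensorProduct.basis_apply,
    Algebra.TensorProduct.tmul_mul_tmul, one_mul, Algebra.TensorProduct.basis_repr_tmul, one_smul,
    Finsupp.mapRange_apply, integralBasis_apply]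
  have h1 : (a : K) * ((RingOfIntegers.basis K j : 𝓞 K) : K) =
      algebraMap (𝓞 K) K (a * RingOfIntegers.basis K j) := by
    rw [map_mul]
  rw [h1, integralBasis_repr_apply]
  simp [RingHom.mapMatrix_apply, Matrix.map_apply]

theorem mulMat_tmul_one (c : ℤ_[q]) :
    mulMat K q ((c : ℚ_[q]) ⊗ₜ[ℚ] (1 : K)) ∈ intMatrices K q := by
  refine ⟨Matrix.scalar _ c, ?_⟩
  have h1 : ((c : ℚ_[q]) ⊗ₜ[ℚ] (1 : K)) = algebraMap ℚ_[q] (ℚ_[q] ⊗[ℚ] K) (c : ℚ_[q]) := rfl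
  rw [h1]
  show _ = (Algebra.leftMulMatrix (locBasis K q)) (algebraMap ℚ_[q] (ℚ_[q] ⊗[ℚ] K) (c : ℚ_[q]))
  rw [AlgHom.commutes]
  ext i j
  rw [RingHom.mapMatrix_apply, Matrix.map_apply, Matrix.algebraMap_matrix_apply,
    Matrix.scalar_apply, Matrix.diagonal_apply]
  split_ifs
  · rfl
  · exact map_zero _

theorem mulMat_comm_intToRat (z : (𝓞 K) ⊗[ℤ] ℤ_[q]) :
    mulMat K q (Algebra.TensorProduct.comm ℚ K ℚ_[q] (intToRat K q z)) ∈ intMatrices K q := by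
  induction z using TensorProduct.induction_on with
  | zero => rw [map_zero, map_zero, map_zero]; exact Subring.zero_mem _
  | tmul a c =>
    rw [intToRat_tmul, Algebra.TensorProduct.comm_tmul]
    have h1 : ((c : ℚ_[q]) ⊗ₜ[ℚ] (a : K)) =
        ((c : ℚ_[q]) ⊗ₜ[ℚ] (1 : K)) * ((1 : ℚ_[q]) ⊗ₜ[ℚ] (a : K)) := by
      rw [Algebra.TensorProduct.tmul_mul_tmul, mul_one, one_mul]
    rw [h1, map_mul]
    exact Subring.mul_mem _ (mulMat_tmul_one K q c) (mulMat_one_tmul K q a)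
  | add x y hx hy =>
    rw [map_add, map_add, map_add]
    exact Subring.add_mem _ hx hy

/-- **Norms of elements near `1`**: the norm of (the image of) an element of
`1 + q ^ k • (𝓞 K ⊗ ℤ_q)` lies in `1 + q ^ k ℤ_q`. -/
theorem locNorm0_intToRat_near_one (k : ℕ) (z : (𝓞 K) ⊗[ℤ] ℤ_[q])
    (hz : z - 1 ∈ Ideal.span {((q : ℕ) : (𝓞 K) ⊗[ℤ] ℤ_[q]) ^ k}) :
    ∃ u : ℤ_[q], locNorm0 K q (intToRat K q z) = ((1 + (q : ℤ_[q]) ^ k * u : ℤ_[q]) : ℚ_[q]) := by
  classical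
  obtain ⟨w, hw⟩ := Ideal.mem_span_singleton.mp hz
  have hz' : z = 1 + ((q : ℕ) : (𝓞 K) ⊗[ℤ] ℤ_[q]) ^ k * w := by rw [← hw]; ring
  obtain ⟨W, hW⟩ := mulMat_comm_intToRat K q w
  have h1 : locNorm0 K q (intToRat K q z) =
      (mulMat K q (Algebra.TensorProduct.comm ℚ K ℚ_[q] (intToRat K q z))).det :=
    norm_eq_det_mulMat K q _
  have h2 : mulMat K q (Algebra.TensorProduct.comm ℚ K ℚ_[q] (intToRat K q z)) =
      (PadicInt.Coe.ringHom (p := q)).mapMatrix (1 + ((q : ℤ_[q]) ^ k) • W) := by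
    rw [hz', map_add, map_add, map_add, map_one, map_one, map_one, map_mul, map_mul, map_mul,
      map_pow, map_pow, map_pow, map_natCast, map_natCast, map_natCast, ← hW, map_add, map_one]
    congr 1
    rw [Algebra.smul_def, map_pow, map_natCast, map_mul, map_pow, map_natCast]
  rw [h1, h2, ← RingHom.map_det (PadicInt.Coe.ringHom (p := q)), Matrix.det_one_add_smul]
  generalize Polynomial.eval ((q : ℤ_[q]) ^ k) _ = E
  refine ⟨W.trace + E * (q : ℤ_[q]) ^ k, ?_⟩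
  have h3 : (1 + W.trace * (q : ℤ_[q]) ^ k + E * ((q : ℤ_[q]) ^ k) ^ 2 : ℤ_[q]) =
      1 + (q : ℤ_[q]) ^ k * (W.trace + E * (q : ℤ_[q]) ^ k) := by ring
  rw [h3]
  rfl

end LocalNorm

section NearOne

variable (q : ℕ) [hq : Fact q.Prime]

theorem norm_one_add_pow_mul (k : ℕ) (hk : 1 ≤ k) (u : ℤ_[q]) :
    ‖(1 + (q : ℤ_[q]) ^ k * u : ℤ_[q])‖ = 1 := by
  have h1 : ‖(q : ℤ_[q]) ^ k * u‖ < 1 := by
    rw [norm_mul, norm_pow, PadicInt.norm_p]
    have hq1 : (1 : ℝ) < q := by exact_mod_cast hq.out.one_lt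
    have h2 : ((q : ℝ)⁻¹) ^ k < 1 := by
      apply pow_lt_one₀ (by positivity) (inv_lt_one_of_one_lt₀ hq1) (by omega)
    have h3 : ‖u‖ ≤ 1 := PadicInt.norm_le_one u
    have h4 : (0 : ℝ) ≤ ((q : ℝ)⁻¹) ^ k := by positivity
    calc ((q : ℝ)⁻¹) ^ k * ‖u‖ ≤ ((q : ℝ)⁻¹) ^ k * 1 := by gcongr
      _ < 1 := by rw [mul_one]; exact h2
  have h5 : ‖(1 : ℤ_[q])‖ ≠ ‖(q : ℤ_[q]) ^ k * u‖ := by
    rw [norm_one]; exact h1.ne'
  rw [PadicInt.norm_add_eq_max_of_ne h5, norm_one, max_eq_left h1.le]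

theorem valuation_eq_zero_of_norm_eq_one (y : ℚ_[q]) (hy : ‖y‖ = 1) : y.valuation = 0 := by
  have hy0 : y ≠ 0 := by
    rintro rfl
    rw [norm_zero] at hy
    exact zero_ne_one hy
  have h1 := Padic.norm_eq_zpow_neg_valuation hy0
  rw [hy] at h1
  have hp1 : (1 : ℝ) < q := by exact_mod_cast hq.out.one_lt
  have := (zpow_right_injective₀ (by linarith) hp1.ne') (h1.symm.trans (zpow_zero _).symm)
  simpa using this

theorem toZModPow_one_add_pow_mul (r k : ℕ) (hrk : r ≤ k) (u : ℤ_[q]) :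
    PadicInt.toZModPow r (1 + (q : ℤ_[q]) ^ k * u : ℤ_[q]) = 1 := by
  rw [map_add, map_one, map_mul, map_pow, map_natCast]
  have h0 : ((q : ℕ) : ZMod (q ^ r)) ^ k = 0 := by
    rw [← Nat.cast_pow, ZMod.natCast_eq_zero_iff]
    exact pow_dvd_pow q hrk
  rw [h0, zero_mul, add_zero]

end NearOne

section LocalNorm2

variable (K : Type*) [Field K] [NumberField K] (q : ℕ) [hq : Fact q.Prime]

theorem padicVal_locNorm_near_one (k : ℕ) (hk : 1 ≤ k) (x : (K ⊗[ℚ] ℚ_[q])ˣ)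
    (z : (𝓞 K) ⊗[ℤ] ℤ_[q])
    (hz : z - 1 ∈ Ideal.span {((q : ℕ) : (𝓞 K) ⊗[ℤ] ℤ_[q]) ^ k})
    (hx : intToRat K q z = (x : K ⊗[ℚ] ℚ_[q])) :
    ((locNorm K q x : ℚ_[q]ˣ) : ℚ_[q]).valuation = 0 := by
  obtain ⟨u, hu⟩ := locNorm0_intToRat_near_one K q k z hz
  rw [coe_locNorm, ← hx, hu]
  exact valuation_eq_zero_of_norm_eq_one q _ (norm_one_add_pow_mul q k hk u)

theorem theta_locNorm_near_one (r k : ℕ) (hk : 1 ≤ k) (hrk : r ≤ k) (x : (K ⊗[ℚ] ℚ_[q])ˣ)
    (z : (𝓞 K) ⊗[ℤ] ℤ_[q])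
    (hz : z - 1 ∈ Ideal.span {((q : ℕ) : (𝓞 K) ⊗[ℤ] ℤ_[q]) ^ k})
    (hx : intToRat K q z = (x : K ⊗[ℚ] ℚ_[q])) :
    theta q r (locNorm K q x) = 1 := by
  obtain ⟨u, hu⟩ := locNorm0_intToRat_near_one K q k z hz
  apply Units.ext
  rw [coe_theta_of_eq q r _ (1 + (q : ℤ_[q]) ^ k * u) 0 (norm_one_add_pow_mul q k hk u)
    (by rw [coe_locNorm, ← hx, hu, zpow_zero, mul_one]), toZModPow_one_add_pow_mul q r k hrk u,
    Units.val_one]

end LocalNorm2

section ResidueField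

variable (M : Type*) [Field M] [NumberField M] (p : Nat.Primes) (r : ℕ)

theorem pow_dvd_absNorm_sub_one (ζ : M) (hζ : IsPrimitiveRoot ζ ((p : ℕ) ^ r))
    (P : HeightOneSpectrum (𝓞 M)) (hP : (((p : ℕ) : ℕ) : 𝓞 M) ∉ P.asIdeal) :
    (p : ℕ) ^ r ∣ Ideal.absNorm P.asIdeal - 1 := by
  haveI : NeZero ((p : ℕ) ^ r) := ⟨pow_ne_zero _ p.2.ne_zero⟩
  have hmax : P.asIdeal.IsMaximal := P.isMaximal
  letI := Ideal.Quotient.field P.asIdeal
  have h1 : Ideal.absNorm P.asIdeal ≠ 1 :=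
    Ideal.absNorm_eq_one_iff.not.mpr (Ideal.IsPrime.ne_top P.isPrime)
  have h2 : (Ideal.absNorm P.asIdeal).Coprime ((p : ℕ) ^ r) := by
    obtain ⟨f, hf⟩ := exists_absNorm_eq_pow M P
    rw [hf]
    apply Nat.Coprime.pow
    rw [Nat.coprime_primes (resChar_prime M P) p.2]
    intro h
    exact hP ((natCast_mem_iff M P _ p.2).mpr h.symm)
  have h3 := Subgroup.card_dvd_of_injective _
    (Ideal.rootsOfUnityMapQuot_injective (K := M) ((p : ℕ) ^ r) h1 h2)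
  rw [Nat.card_units] at h3
  have h4 : Nat.card (rootsOfUnity ((p : ℕ) ^ r) (𝓞 M)) = (p : ℕ) ^ r := by
    have hζ' : IsPrimitiveRoot hζ.toInteger ((p : ℕ) ^ r) := hζ.toInteger_isPrimitiveRoot
    exact hζ'.card_rootsOfUnity
  rw [h4] at h3
  exact h3

theorem primeUnit_eq_one_of_primitiveRoot (ζ : M) (hζ : IsPrimitiveRoot ζ ((p : ℕ) ^ r))
    (P : HeightOneSpectrum (𝓞 M)) (hP : (((p : ℕ) : ℕ) : 𝓞 M) ∉ P.asIdeal) :
    primeUnit M p r P = 1 := by
  have h1 := pow_dvd_absNorm_sub_one M p r ζ hζ P hP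
  have h0 : 1 ≤ Ideal.absNorm P.asIdeal := Nat.one_le_iff_ne_zero.mpr (absNorm_ne_zero M P)
  have hcop : (Ideal.absNorm P.asIdeal).Coprime ((p : ℕ) ^ r) := by
    obtain ⟨f, hf⟩ := exists_absNorm_eq_pow M P
    rw [hf]
    apply Nat.Coprime.pow
    rw [Nat.coprime_primes (resChar_prime M P) p.2]
    intro h
    exact hP ((natCast_mem_iff M P _ p.2).mpr h.symm)
  apply Units.ext
  rw [primeUnit, coe_unitOfNat hcop, Units.val_one]
  have h2 : ((Ideal.absNorm P.asIdeal - 1 : ℕ) : ZMod ((p : ℕ) ^ r)) = 0 :=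
    (ZMod.natCast_eq_zero_iff _ _).mpr h1
  rw [Nat.cast_sub h0, Nat.cast_one, sub_eq_zero] at h2
  exact h2

end ResidueField

section KillAll

variable (T : Finset Nat.Primes) (M : Type*) [Field M] [NumberField M] (p : Nat.Primes) (r : ℕ)

theorem divChar_eq_one_of_primitiveRoot (hpT : p ∈ T) (ζ : M)
    (hζ : IsPrimitiveRoot ζ ((p : ℕ) ^ r)) (D : DivT T M) : divChar T M p r D = 1 := by
  rw [divChar_apply]
  refine Finset.prod_eq_one fun P _ => ?_
  have hP : (((p : ℕ) : ℕ) : 𝓞 M) ∉ P.1.asIdeal := by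
    have := P.2 p hpT
    rwa [Int.cast_natCast] at this
  show primeUnit M p r P.1 ^ _ = 1
  rw [primeUnit_eq_one_of_primitiveRoot M p r ζ hζ P.1 hP, one_zpow]

/-- The idelic part of `cyc` is trivial on ideles whose components are all close to `1`. -/
theorem cycI_eq_one_of_near_one (hpT : p ∈ T) (k : ℕ) (hk : 1 ≤ k) (hrk : r ≤ k) (x : IT T M)
    (hx : ∀ q : T, ∃ z : (𝓞 M) ⊗[ℤ] ℤ_[((q : Nat.Primes) : ℕ)],
      z - 1 ∈ Ideal.span {((((q : Nat.Primes) : ℕ) : ℕ) : (𝓞 M) ⊗[ℤ] ℤ_[((q : Nat.Primes) : ℕ)]) ^ k} ∧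
      intToRat M ((q : Nat.Primes) : ℕ) z = ((x q : (Loc M q.1)ˣ) : Loc M q.1)) :
    cycI T M p r hpT x = 1 := by
  rw [cycI, MonoidHom.mul_apply, MonoidHom.inv_apply, MonoidHom.finsetProd_apply]
  have h1 : pPart T M p r hpT x = 1 := by
    obtain ⟨z, hz, hzx⟩ := hx ⟨p, hpT⟩
    exact theta_locNorm_near_one M p r k hk hrk (x ⟨p, hpT⟩) z hz hzx
  have h2 : (∏ q : T, (if q.1 = p then (1 : IT T M →* (ZMod ((p : ℕ) ^ r))ˣ) else
      (qPart M p r q.1).comp (Pi.evalMonoidHom (fun q : T => (Loc M q.1)ˣ) q)) x) = 1 := by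
    refine Finset.prod_eq_one fun q _ => ?_
    split_ifs
    · rfl
    · obtain ⟨z, hz, hzx⟩ := hx q
      show qPart M p r q.1 (x q) = 1
      rw [qPart_apply, padicVal_locNorm_near_one M q.1 k hk (x q) z hz hzx, zpow_zero]
  rw [h1, h2, inv_one, one_mul]

/-- **(C2-a)** If `M` contains a primitive `p ^ r`-th root of unity then the cyclotomic character
`cyc_r` of `M` takes only the values `±1`. -/
theorem cyc_eq_one_or_neg_one (hpT : p ∈ T) (ζ : M) (hζ : IsPrimitiveRoot ζ ((p : ℕ) ^ r))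
    (j : JT T M) : cyc T M p r hpT j = 1 ∨ cyc T M p r hpT j = -1 := by
  classical
  set k := r + 1 with hk
  obtain ⟨a, ha⟩ := weak_approx M T (fun i : Nat.Primes => (i : ℕ))
    (fun a _ b _ h => Subtype.ext h) k
    (fun i => if h : i ∈ T then j.1 ⟨i, h⟩ else 1)
  have h1 : cyc T M p r hpT (diagJ T M a * j) = 1 := by
    have h0 : diagJ T M a * j = (diagI T M a * j.1, divT T M a * j.2) := rfl
    rw [h0, cyc_apply, divChar_eq_one_of_primitiveRoot T M p r hpT ζ hζ, mul_one]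
    apply cycI_eq_one_of_near_one T M p r hpT k (by omega) (by omega)
    intro q
    obtain ⟨z, hz, hzx⟩ := ha q.1 q.2
    refine ⟨z, hz, ?_⟩
    rw [hzx, dif_pos q.2]
    rfl
  rw [map_mul] at h1
  have h2 : cyc T M p r hpT j = (cyc T M p r hpT (diagJ T M a))⁻¹ :=
    eq_inv_of_mul_eq_one_right h1
  rw [h2]
  rcases cyc_diagJ T M p r hpT a with h | h
  · left; rw [h, inv_one]
  · right; rw [h, inv_neg, inv_one]

end KillAll

end Fermat.Agent.PT.GLOB.CycKillsNorms22
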