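/-
Program F (S55, Poitou–Tate), chapter GLOB, leaf C2 part (b) (helper22).

**Norm compatibility of the explicit cyclotomic character.**

For a Galois extension `L'/L` of number fields unramified outside `T ∋ p`, with
`N = TowerNorm6.normDown : JT T L' →* JT T L` (defined by Galois descent):

* `cyc_normDown_div`   : `cyc_L (N (1, D)) = divChar_{L'} D`  (unconditional: uses
  `normDown_single` and `absNorm P' = absNorm P ^ #Stab(P')`);
* `LocNormCompat`      : the exact local compatibility
  `Nm_{L ⊗ ℚ_q/ℚ_q} ((N j)_q) = Nm_{L' ⊗ ℚ_q/ℚ_q} (j_q)`  (a `Prop`; proved in `TowerNormLoc6`);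
* `cyc_normDown`       : `cyc_L ∘ N = cyc_{L'}`  (given `LocNormCompat`);
* `cyc_inclJ`          : `cyc_{L'} (inclJ j) = cyc_L j ^ [L' : L]`;
* `cyc_smul`           : Galois invariance of `cyc_{L'}`;
* `cyc_normDown_of_primitiveRoot` : if `L' ∋ ζ_{p^r}` then `cyc_L` is `±1` on all norms from `L'`.
-/
import Mathlib
import Fermat.Agent.PT.GLOB.CycKillsNorms22
import Fermat.Agent.PT.GLOB.TowerNorm6

set_option autoImplicit false
set_option linter.unusedSectionVars false
set_option linter.style.haveILetI false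

open NumberField IsDedekindDomain
open scoped TensorProduct nonZeroDivisors

namespace Fermat.Agent.PT.GLOB.CycNormCompat22

open Fermat.Agent.PT.GLOB.Interface23 Fermat.Agent.PT.GLOB.CycChar22
open Fermat.Agent.PT.GLOB.Tower23 Fermat.Agent.PT.GLOB.TowerMaps6 Fermat.Agent.PT.GLOB.TowerNorm6
open Fermat.Agent.PT.GLOB.CycKillsNorms22

section Coprime

variable (T : Finset Nat.Primes) (K : Type*) [Field K] [NumberField K] (p : Nat.Primes) (r : ℕ)

theorem coprime_absNorm_of_primeAway (hpT : p ∈ T) (P : PrimeAway T K) :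
    Nat.Coprime (Ideal.absNorm P.1.asIdeal) ((p : ℕ) ^ r) := by
  obtain ⟨f, hf⟩ := exists_absNorm_eq_pow K P.1
  have hℓT := (isAway_iff T K P.1).mp P.2
  rw [hf]
  apply Nat.Coprime.pow
  rw [Nat.coprime_primes (resChar_prime K P.1) p.2]
  rintro h
  apply hℓT
  have : (⟨resChar K P.1, resChar_prime K P.1⟩ : Nat.Primes) = p := Subtype.ext h
  rw [this]
  exact hpT

end Coprime

section Div

variable (T : Finset Nat.Primes)
variable (L L' : Type) [Field L] [Field L'] [NumberField L] [NumberField L'] [Algebra L L']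
  [IsGalois L L'] (hunr : IsUnramifiedOutside T L L') (p : Nat.Primes) (r : ℕ)

include hunr in
theorem absNorm_eq_pow_card_stabilizer (P' : PrimeAway T L') :
    Ideal.absNorm P'.1.asIdeal = Ideal.absNorm (underAway T L L' P').1.asIdeal ^
      Nat.card (MulAction.stabilizer (L' ≃ₐ[L] L') P') := by
  have hlo : P'.1.asIdeal.LiesOver (P'.1.under (𝓞 L)).asIdeal := ⟨rfl⟩
  have hprime : (P'.1.under (𝓞 L)).asIdeal.IsPrime := (P'.1.under (𝓞 L)).isPrime
  have hmax : (P'.1.under (𝓞 L)).asIdeal.IsMaximal := (P'.1.under (𝓞 L)).isMaximal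
  have hP' : P'.1.asIdeal.IsPrime := P'.1.isPrime
  have hP'max : P'.1.asIdeal.IsMaximal := P'.1.isMaximal
  rw [stabilizer_primeAway_eq,
    Ideal.card_stabilizer_eq_card_inertia_mul_finrank (G := L' ≃ₐ[L] L')
      (P'.1.under (𝓞 L)).asIdeal P'.1.asIdeal, hunr P', Subgroup.card_bot, one_mul,
    ← Ideal.inertiaDeg'_eq_inertiaDeg (P'.1.under (𝓞 L)).asIdeal P'.1.asIdeal]
  exact Ideal.absNorm_eq_pow_inertiaDeg'_of_liesOver P'.1.asIdeal
    (P'.1.under (𝓞 L)).asIdeal hprime (P'.1.under (𝓞 L)).ne_bot

include hunr in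
theorem primeUnit_pow_card_stabilizer (hpT : p ∈ T) (P' : PrimeAway T L') :
    primeUnit L p r (underAway T L L' P').1 ^
      Nat.card (MulAction.stabilizer (L' ≃ₐ[L] L') P') = primeUnit L' p r P'.1 := by
  rw [primeUnit, primeUnit, absNorm_eq_pow_card_stabilizer T L L' hunr P',
    unitOfNat_pow (coprime_absNorm_of_primeAway T L p r hpT (underAway T L L' P'))]

/-- `cyc ∘ N` on the divisor part. -/
theorem cyc_normDown_div (hpT : p ∈ T) (D : DivT T L') :
    cyc T L p r hpT (normDown T L L' hunr ((1 : IT T L'), D)) = divChar T L' p r D := by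
  have key : ∀ f : PrimeAway T L' →₀ ℤ,
      cyc T L p r hpT (normDown T L L' hunr ((1 : IT T L'), DivT.ofFinsupp T L' f)) =
        divChar T L' p r (DivT.ofFinsupp T L' f) := by
    intro f
    induction f using Finsupp.induction_linear with
    | zero =>
      have h1 : ((1 : IT T L'), DivT.ofFinsupp T L' 0) = (1 : JT T L') := rfl
      have h2 : DivT.ofFinsupp T L' 0 = (1 : DivT T L') := rfl
      rw [h1, h2, map_one, map_one, map_one]
    | add f g hf hg =>
      have h1 : ((1 : IT T L'), DivT.ofFinsupp T L' (f + g)) =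
          ((1 : IT T L'), DivT.ofFinsupp T L' f) * ((1 : IT T L'), DivT.ofFinsupp T L' g) := by
        rw [Prod.mk_mul_mk, one_mul]; rfl
      have h2 : DivT.ofFinsupp T L' (f + g) =
          DivT.ofFinsupp T L' f * DivT.ofFinsupp T L' g := rfl
      rw [h1, h2, map_mul, map_mul, map_mul, hf, hg]
    | single P' n =>
      have h1 : ((1 : IT T L'), DivT.ofFinsupp T L' (Finsupp.single P' n)) =
          ((1 : IT T L'), DivT.ofFinsupp T L' (Finsupp.single P' 1)) ^ n := by
        have h0 : DivT.ofFinsupp T L' (n • Finsupp.single P' 1) =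
            DivT.ofFinsupp T L' (Finsupp.single P' 1) ^ n := rfl
        rw [Prod.pow_mk, one_zpow, ← h0, Finsupp.smul_single, smul_eq_mul, mul_one]
      have h2 : divChar T L' p r (DivT.ofFinsupp T L' (Finsupp.single P' n)) =
          primeUnit L' p r P'.1 ^ n := by
        have := cyc_single T L' p r hpT P' n
        rwa [cyc_apply, cycI_one, one_mul] at this
      rw [h1, map_zpow, map_zpow, normDown_single, cyc_single, h2, zpow_natCast,
        primeUnit_pow_card_stabilizer T L L' hunr p r hpT P']
  exact key (DivT.toFinsupp T L' D)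

end Div

section Congr

variable (T : Finset Nat.Primes)
variable (L L' : Type*) [Field L] [Field L'] [NumberField L] [NumberField L']
  (p : Nat.Primes) (r : ℕ)

/-- The idelic part of `cyc` only depends on the local norms of the components. -/
theorem cycI_congr (hpT : p ∈ T) (y : IT T L) (x : IT T L')
    (h : ∀ q : T, locNorm L q.1 (y q) = locNorm L' q.1 (x q)) :
    cycI T L p r hpT y = cycI T L' p r hpT x := by
  rw [cycI, cycI, MonoidHom.mul_apply, MonoidHom.mul_apply, MonoidHom.inv_apply,
    MonoidHom.inv_apply, MonoidHom.finsetProd_apply, MonoidHom.finsetProd_apply]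
  congr 1
  · congr 1
    show theta p r (locNorm L p (y ⟨p, hpT⟩)) = theta p r (locNorm L' p (x ⟨p, hpT⟩))
    rw [h ⟨p, hpT⟩]
  · refine Finset.prod_congr rfl fun q _ => ?_
    split_ifs
    · rfl
    · show qPart L p r q.1 (y q) = qPart L' p r q.1 (x q)
      rw [qPart_apply, qPart_apply, h q]

end Congr

section Main

variable (T : Finset Nat.Primes)
variable (L L' : Type) [Field L] [Field L'] [NumberField L] [NumberField L'] [Algebra L L']
  [IsGalois L L'] (hunr : IsUnramifiedOutside T L L') (p : Nat.Primes) (r : ℕ)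

/-- **Exact local norm compatibility** of the norm map `normDown` (hypothesis shape). -/
def LocNormCompat : Prop :=
  ∀ (j : JT T L') (q : T),
    locNorm L q.1 ((normDown T L L' hunr j).1 q) = locNorm L' q.1 (j.1 q)

theorem normDown_idele_snd (x : IT T L') :
    (normDown T L L' hunr (x, (1 : DivT T L'))).2 = 1 := by
  have h1 := inclJ_normDown T L L' hunr (x, (1 : DivT T L'))
  have h2 := congrArg Prod.snd h1
  rw [inclJ_snd, normJ_snd] at h2
  simp only [smul_one, Finset.prod_const_one] at h2
  apply inclDiv_injective T L L'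
  rw [h2, map_one]

/-- `cyc ∘ N` on the idelic part. -/
theorem cyc_normDown_idele (hloc : LocNormCompat T L L' hunr) (hpT : p ∈ T) (x : IT T L') :
    cyc T L p r hpT (normDown T L L' hunr (x, (1 : DivT T L'))) = cycI T L' p r hpT x := by
  have h1 : normDown T L L' hunr (x, (1 : DivT T L')) =
      ((normDown T L L' hunr (x, (1 : DivT T L'))).1, (1 : DivT T L)) :=
    Prod.ext rfl (normDown_idele_snd T L L' hunr x)
  rw [h1, cyc_apply, map_one, mul_one]
  exact cycI_congr T L L' p r hpT _ _ (fun q => hloc (x, 1) q)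

/-- **Norm compatibility of the cyclotomic character**: `cyc_L ∘ N_{L'/L} = cyc_{L'}`. -/
theorem cyc_normDown (hloc : LocNormCompat T L L' hunr) (hpT : p ∈ T) (j : JT T L') :
    cyc T L p r hpT (normDown T L L' hunr j) = cyc T L' p r hpT j := by
  have h1 : j = (j.1, (1 : DivT T L')) * ((1 : IT T L'), j.2) := by
    rw [Prod.mk_mul_mk, mul_one, one_mul]
  rw [h1, map_mul, map_mul, map_mul, cyc_normDown_idele T L L' hunr p r hloc hpT,
    cyc_normDown_div T L L' hunr p r hpT, cyc_apply, cyc_apply, map_one, map_one, mul_one, one_mul]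

/-- The cyclotomic character of an idele coming from below. -/
theorem cyc_inclJ (hloc : LocNormCompat T L L' hunr) (hpT : p ∈ T) (j : JT T L) :
    cyc T L' p r hpT (inclJ T L L' j) = cyc T L p r hpT j ^ Module.finrank L L' := by
  rw [← cyc_normDown T L L' hunr p r hloc hpT, normDown_inclJ, map_pow]

theorem normDown_smul (τ : L' ≃ₐ[L] L') (j : JT T L') :
    normDown T L L' hunr (τ • j) = normDown T L L' hunr j := by
  rw [normDown_eq_iff, inclJ_normDown]
  unfold normJ
  simp only [← mul_smul]
  exact (Fintype.prod_equiv (Equiv.mulRight τ) _ _ (fun σ => rfl)).symm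

/-- Galois invariance of the cyclotomic character. -/
theorem cyc_smul (hloc : LocNormCompat T L L' hunr) (hpT : p ∈ T) (τ : L' ≃ₐ[L] L')
    (j : JT T L') : cyc T L' p r hpT (τ • j) = cyc T L' p r hpT j := by
  rw [← cyc_normDown T L L' hunr p r hloc hpT, normDown_smul,
    cyc_normDown T L L' hunr p r hloc hpT]

/-- **`cyc` kills norms from a field containing `μ_{p^r}`** (up to sign). -/
theorem cyc_normDown_of_primitiveRoot (hloc : LocNormCompat T L L' hunr) (hpT : p ∈ T)
    (ζ : L') (hζ : IsPrimitiveRoot ζ ((p : ℕ) ^ r)) (j : JT T L') :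
    cyc T L p r hpT (normDown T L L' hunr j) = 1 ∨
      cyc T L p r hpT (normDown T L L' hunr j) = -1 := by
  rw [cyc_normDown T L L' hunr p r hloc hpT]
  exact cyc_eq_one_or_neg_one T L' p r hpT ζ hζ j

end Main

end Fermat.Agent.PT.GLOB.CycNormCompat22
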