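/-
Program F (S55, Poitou–Tate), chapter GLOB, leaf C2 part (c) (helper22).

**Reciprocity for the cyclic cyclotomic `p`-layers.**

`K` a number field, `M = K(ζ_{p^r})` (`IsCyclotomicExtension {p ^ r} K M`), `p` odd, `r ≥ 1`,
`p ∈ T`, `L = CycloPLayer22.pLayer p r K M` the cyclic `p`-power-degree layer, with its injective
Galois character `psi : Gal(L/K) → (ℤ/p^r)ˣ`, `psi(σ|_L) = χ(σ)^(p-1)`.

* `isUnramifiedOutside_pLayer`, `isUnramifiedOutside_top_pLayer`: `L/K` and `M/L` are unramified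
  outside `T`;
* `recJ := cyc ^ (p - 1) : JT T K →* (ZMod (p ^ r))ˣ`, the reciprocity character;
* `recJ_diagJ` : `rec` kills the principal ideles;
* `recJ_normDown` : `rec` kills the norms `N_{L/K} (JT T L)`  (given `LocNormCompat` for `L/K` and
  `M/L`, i.e. the exact local norm compatibility proved in `TowerNormLoc6`);
* `range_psi_le_range_recJ` : the image of `rec` contains `psi (Gal(L/K))` (Frobenius formula +
  `FrobGenerate19`);
* `recJ_ker_range` : GIVEN the norm index bound `[J_T(K) : Kˣ · N J_T(L)] ≤ [L : K]`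
  (second inequality), `ker rec = Kˣ · N J_T(L)` and `range rec = range psi`;
* `recCT`, `recCT_ker`, `exists_unique_gal`: the induced statements on `CT T K`:
  `C_T(K) / N C_T(L) ≅ Gal(L/K)`.
-/
import Mathlib
import Fermat.Agent.PT.GLOB.CycNormCompat22
import Fermat.Agent.PT.GLOB.CycloPLayer22
import Fermat.Agent.PT.GLOB.FrobGenerate19

set_option autoImplicit false
set_option linter.unusedSectionVars false
set_option linter.style.haveILetI false

open NumberField IsDedekindDomain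
open scoped TensorProduct nonZeroDivisors

namespace Fermat.Agent.PT.GLOB.CycRec22

open Fermat.Agent.PT.GLOB.Interface23 Fermat.Agent.PT.GLOB.CycChar22
open Fermat.Agent.PT.GLOB.Tower23 Fermat.Agent.PT.GLOB.TowerMaps6 Fermat.Agent.PT.GLOB.TowerNorm6
open Fermat.Agent.PT.GLOB.CycKillsNorms22 Fermat.Agent.PT.GLOB.CycNormCompat22
open Fermat.Agent.PT.GLOB.CycloPLayer22 Fermat.Agent.PT.GLOB.FrobGenerate19
open Fermat.Agent.PT.GLOB.FixedClass6

section Unram

variable (T : Finset Nat.Primes) (p : Nat.Primes) (r : ℕ) (K M : Type) [Field K] [Field M]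
  [NumberField K] [NumberField M] [Algebra K M] [IsCyclotomicExtension {(p : ℕ) ^ r} K M]

/-- The `p`-layer of `K(ζ_{p^r})/K` is unramified outside `T ∋ p`. -/
theorem isUnramifiedOutside_pLayer (hpT : p ∈ T) :
    IsUnramifiedOutside T K (pLayer (p : ℕ) r K M) := by
  intro P
  haveI := P.1.isPrime
  apply inertia_pLayer_eq_bot (p : ℕ) r K M P.1.asIdeal
  have := P.2 p hpT
  rwa [Int.cast_natCast] at this

instance instIsGaloisPLayerTop : IsGalois (pLayer (p : ℕ) r K M) M := by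
  haveI := isGalois_top (p : ℕ) r K M
  infer_instance

/-- `K(ζ_{p^r})` is unramified outside `T ∋ p` over its `p`-layer. -/
theorem isUnramifiedOutside_top_pLayer (hpT : p ∈ T) :
    IsUnramifiedOutside T (pLayer (p : ℕ) r K M) M := by
  intro P
  haveI := P.1.isPrime
  have hpP : (((p : ℕ) : ℕ) : 𝓞 M) ∉ P.1.asIdeal := by
    have := P.2 p hpT
    rwa [Int.cast_natCast] at this
  have h1 := CycloLocalDeg22.inertia_eq_bot_of_prime_notMem (p : ℕ) p.2 r K M P.1.asIdeal hpP
  rw [eq_bot_iff]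
  intro τ hτ
  rw [Subgroup.mem_bot]
  have h2 : τ.restrictScalars K ∈ P.1.asIdeal.inertia (M ≃ₐ[K] M) := fun x => hτ x
  rw [h1, Subgroup.mem_bot] at h2
  ext x
  exact congrArg (fun σ : M ≃ₐ[K] M => σ x) h2

end Unram

section ZModUnits

/-- A `(p-1)`-th power in `(ℤ/p^r)ˣ` (`p` odd, `r ≥ 1`) is never `-1`. -/
theorem pow_pred_ne_neg_one (p : ℕ) [hp : Fact p.Prime] (hp2 : p ≠ 2) (r : ℕ) (hr : 1 ≤ r)
    (u : (ZMod (p ^ r))ˣ) : u ^ (p - 1) ≠ -1 := by
  intro h
  have hdvd : p ∣ p ^ r := dvd_pow_self p (by omega)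
  set φ : ZMod (p ^ r) →+* ZMod p := ZMod.castHom hdvd (ZMod p) with hφ
  have h1 : φ ((u ^ (p - 1) : (ZMod (p ^ r))ˣ) : ZMod (p ^ r)) = 1 := by
    rw [Units.val_pow_eq_pow_val, map_pow]
    apply ZMod.pow_card_sub_one_eq_one
    exact (u.isUnit.map φ).ne_zero
  rw [h, Units.val_neg, Units.val_one, map_neg, map_one] at h1
  have h2 : ((2 : ℕ) : ZMod p) = 0 := by
    have : (1 : ZMod p) + 1 = 0 := by
      nth_rewrite 1 [← h1]
      ring
    rw [← this]; norm_num
  rw [ZMod.natCast_eq_zero_iff] at h2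
  exact hp2 ((Nat.prime_dvd_prime_iff_eq hp.out Nat.prime_two).mp h2)

end ZModUnits

section Kill

variable (T : Finset Nat.Primes) (p : Nat.Primes) (r : ℕ) (K M : Type) [Field K] [Field M]
  [NumberField K] [NumberField M] [Algebra K M] [IsCyclotomicExtension {(p : ℕ) ^ r} K M]

/-- `[K(ζ_{p^r}) : L]` divides `p - 1` (`p` odd). -/
theorem finrank_pLayer_top_dvd (hp2 : (p : ℕ) ≠ 2) :
    Module.finrank (pLayer (p : ℕ) r K M) M ∣ (p : ℕ) - 1 := by
  rw [finrank_pLayer_top]
  haveI := CycloLocalDeg22.isCyclic_gal (p : ℕ) p.2 hp2 r K M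
  haveI : IsCyclic (tame (p : ℕ) r K M) := Subgroup.isCyclic _
  obtain ⟨g, hg⟩ := IsCyclic.exists_generator (α := tame (p : ℕ) r K M)
  rw [← orderOf_eq_card_of_forall_mem_zpowers hg]
  apply orderOf_dvd_of_pow_eq_one
  have h1 := (mem_tame_iff (p : ℕ) r K M (g : M ≃ₐ[K] M)).mp g.2
  exact Subtype.ext h1

/-- **The reciprocity character** `rec = cyc ^ (p - 1) : J_T(K) → (ℤ/p^r)ˣ`. -/
noncomputable def recJ (hpT : p ∈ T) : JT T K →* (ZMod ((p : ℕ) ^ r))ˣ :=
  (powMonoidHom ((p : ℕ) - 1)).comp (cyc T K p r hpT)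

theorem recJ_apply (hpT : p ∈ T) (j : JT T K) :
    recJ T p r K hpT j = cyc T K p r hpT j ^ ((p : ℕ) - 1) := rfl

/-- `rec` kills the principal ideles (`p` odd). -/
theorem recJ_diagJ (hp2 : (p : ℕ) ≠ 2) (hpT : p ∈ T) (a : Kˣ) :
    recJ T p r K hpT (diagJ T K a) = 1 := by
  rw [recJ_apply]
  exact cyc_diagJ_pow_even T K p r hpT a _ (p.2.even_sub_one hp2)

/-- **`rec` kills the norms from the `p`-layer.** -/
theorem recJ_normDown (hp2 : (p : ℕ) ≠ 2) (hr : 1 ≤ r) (hpT : p ∈ T)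
    (hlocKL : LocNormCompat T K (pLayer (p : ℕ) r K M) (isUnramifiedOutside_pLayer T p r K M hpT))
    (hlocLM : LocNormCompat T (pLayer (p : ℕ) r K M) M
      (isUnramifiedOutside_top_pLayer T p r K M hpT))
    (j : JT T (pLayer (p : ℕ) r K M)) :
    recJ T p r K hpT
      (normDown T K (pLayer (p : ℕ) r K M) (isUnramifiedOutside_pLayer T p r K M hpT) j) = 1 := by
  rw [recJ_apply, cyc_normDown T K (pLayer (p : ℕ) r K M) _ p r hlocKL hpT]
  set c := cyc T (pLayer (p : ℕ) r K M) p r hpT j with hc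
  set d := Module.finrank (pLayer (p : ℕ) r K M) M with hd
  have h2 : c ^ d = 1 ∨ c ^ d = -1 := by
    have h3 : c ^ d = cyc T M p r hpT (inclJ T (pLayer (p : ℕ) r K M) M j) := by
      rw [← cyc_normDown T (pLayer (p : ℕ) r K M) M
        (isUnramifiedOutside_top_pLayer T p r K M hpT) p r hlocLM hpT, normDown_inclJ, map_pow]
    rw [h3]
    exact cyc_eq_one_or_neg_one T M p r hpT _
      (IsCyclotomicExtension.zeta_spec ((p : ℕ) ^ r) K M) _
  obtain ⟨e, he⟩ := finrank_pLayer_top_dvd p r K M hp2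
  have h4 : c ^ ((p : ℕ) - 1) = 1 ∨ c ^ ((p : ℕ) - 1) = -1 := by
    rw [he, pow_mul]
    rcases h2 with h | h
    · left; rw [h, one_pow]
    · rw [h]
      rcases Nat.even_or_odd e with h5 | h5
      · left; exact h5.neg_one_pow
      · right; exact h5.neg_one_pow
  rcases h4 with h | h
  · exact h
  · exact absurd h (pow_pred_ne_neg_one (p : ℕ) hp2 r hr c)

end Kill

section Frob

variable (T : Finset Nat.Primes) (p : Nat.Primes) (r : ℕ) (K M : Type) [Field K] [Field M]
  [NumberField K] [NumberField M] [Algebra K M] [IsCyclotomicExtension {(p : ℕ) ^ r} K M]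

/-- The value of `rec` on a prime divisor. -/
theorem coe_recJ_single (hpT : p ∈ T) (Q : PrimeAway T K) :
    ((recJ T p r K hpT ((1 : IT T K), DivT.ofFinsupp T K (Finsupp.single Q 1)) :
      (ZMod ((p : ℕ) ^ r))ˣ) : ZMod ((p : ℕ) ^ r)) =
      ((Ideal.absNorm Q.1.asIdeal : ℕ) : ZMod ((p : ℕ) ^ r)) ^ ((p : ℕ) - 1) := by
  rw [recJ_apply, cyc_single, zpow_one, Units.val_pow_eq_pow_val,
    coe_primeUnit T K p r hpT Q.1 Q.2]

/-- The Frobenius elements of `frobSet` are values of `rec` on prime divisors. -/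
theorem psi_mem_range_recJ_of_mem_frobSet (hpT : p ∈ T)
    (σ : pLayer (p : ℕ) r K M ≃ₐ[K] pLayer (p : ℕ) r K M)
    (hσ : σ ∈ frobSet K (pLayer (p : ℕ) r K M) (∏ q ∈ T, (q : ℕ))) :
    psi (p : ℕ) r K M σ ∈ (recJ T p r K hpT).range := by
  obtain ⟨q, P, hq, hqn, hqm, hP, hPq, hin, hσP⟩ := hσ
  haveI := hP
  have hq0 : q ≠ ⊥ := by
    rintro rfl
    rw [Ideal.absNorm_bot] at hqn
    exact Nat.not_prime_zero hqn
  set Q0 : HeightOneSpectrum (𝓞 K) := ⟨q, hq, hq0⟩ with hQ0
  have hres : resChar K Q0 = Ideal.absNorm q := by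
    obtain ⟨f, hf⟩ := exists_absNorm_eq_pow K Q0
    exact eq_of_pow_prime hqn hf.symm
  have haway : ∀ q' ∈ T, ((((q' : Nat.Primes) : ℕ) : ℤ) : 𝓞 K) ∉ Q0.asIdeal := by
    intro q' hq' hmem
    rw [Int.cast_natCast] at hmem
    have h1 := (natCast_mem_iff K Q0 _ q'.2).mp hmem
    apply hqm
    rw [← hres, ← h1]
    exact Finset.dvd_prod_of_mem (fun q : Nat.Primes => (q : ℕ)) hq'
  set Q : PrimeAway T K := ⟨Q0, haway⟩ with hQ
  have hP0 : P ≠ ⊥ := by
    rintro rfl
    apply hq0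
    rw [← hPq, Ideal.under_def]
    exact Ideal.comap_bot_of_injective _
      (FaithfulSMul.algebraMap_injective (𝓞 K) (𝓞 (pLayer (p : ℕ) r K M)))
  have hpP : (((p : ℕ) : ℕ) : 𝓞 (pLayer (p : ℕ) r K M)) ∉ P := by
    intro hmem
    have h1 : (((p : ℕ) : ℕ) : 𝓞 K) ∈ P.under (𝓞 K) := by
      rw [Ideal.under_def, Ideal.mem_comap, map_natCast]
      exact hmem
    rw [hPq] at h1
    have := haway p hpT
    rw [Int.cast_natCast] at this
    exact this h1
  have h1 := psi_of_isArithFrobAt (p : ℕ) r K M P hP0 hpP σ hσP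
  refine ⟨((1 : IT T K), DivT.ofFinsupp T K (Finsupp.single Q 1)), ?_⟩
  apply Units.ext
  rw [coe_recJ_single, h1, hPq]

/-- **The image of `rec` contains the image of the Galois character `psi`** of the `p`-layer. -/
theorem range_psi_le_range_recJ (hpT : p ∈ T) :
    (psi (p : ℕ) r K M).range ≤ (recJ T p r K hpT).range := by
  have hab : ∀ σ τ : pLayer (p : ℕ) r K M ≃ₐ[K] pLayer (p : ℕ) r K M, σ * τ = τ * σ := by
    intro σ τ
    apply psi_injective (p : ℕ) r K M
    rw [map_mul, map_mul, mul_comm]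
  have hm : (∏ q ∈ T, (q : ℕ)) ≠ 0 := Finset.prod_ne_zero_iff.mpr fun q _ => q.2.ne_zero
  have hcl := closure_frobSet_eq_top K (pLayer (p : ℕ) r K M) hab _ hm
  rw [MonoidHom.range_eq_map, ← hcl, MonoidHom.map_closure, Subgroup.closure_le]
  rintro _ ⟨σ, hσ, rfl⟩
  exact psi_mem_range_recJ_of_mem_frobSet T p r K M hpT σ hσ

end Frob

section Count

/-- Abstract counting: a character `f` killing `H`, whose image contains a subgroup `S` of order
`≥ [G : H]`, has kernel exactly `H` and image exactly `S`. -/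
theorem ker_eq_and_range_eq_of_index_le {G U : Type*} [Group G] [Group U] [Finite U]
    (f : G →* U) (H : Subgroup G) (S : Subgroup U) (hH : H ≤ f.ker) (hS : S ≤ f.range)
    (h0 : H.index ≠ 0) (hle : H.index ≤ Nat.card S) :
    f.ker = H ∧ f.range = S := by
  have h1 : f.ker.index = Nat.card f.range := Subgroup.index_ker f
  have h2 : Nat.card S ≤ Nat.card f.range := Subgroup.card_le_of_le hS
  have h3 : f.ker.index ∣ H.index := Subgroup.index_dvd_of_le hH
  have h4 : f.ker.index ≤ H.index := Nat.le_of_dvd (Nat.pos_of_ne_zero h0) h3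
  have h5 : Nat.card f.range = Nat.card S := by omega
  have h6 : f.ker.index = H.index := by omega
  refine ⟨?_, ?_⟩
  · apply le_antisymm _ hH
    have h7 := Subgroup.relIndex_mul_index hH
    rw [h6] at h7
    have h8 : H.relIndex f.ker = 1 := by
      have : H.relIndex f.ker * H.index = 1 * H.index := by rw [h7, one_mul]
      exact Nat.eq_of_mul_eq_mul_right (Nat.pos_of_ne_zero h0) this
    exact Subgroup.relIndex_eq_one.mp h8
  · exact (Subgroup.eq_of_le_of_card_ge hS (by omega)).symm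

end Count

section Final

variable (T : Finset Nat.Primes) (p : Nat.Primes) (r : ℕ) (K M : Type) [Field K] [Field M]
  [NumberField K] [NumberField M] [Algebra K M] [IsCyclotomicExtension {(p : ℕ) ^ r} K M]

/-- The subgroup `Kˣ · N_{L/K} J_T(L)` of `J_T(K)`. -/
noncomputable def normSubgroup (hpT : p ∈ T) : Subgroup (JT T K) :=
  (diagJ T K).range ⊔
    (normDown T K (pLayer (p : ℕ) r K M) (isUnramifiedOutside_pLayer T p r K M hpT)).range

theorem normSubgroup_le_ker (hp2 : (p : ℕ) ≠ 2) (hr : 1 ≤ r) (hpT : p ∈ T)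
    (hlocKL : LocNormCompat T K (pLayer (p : ℕ) r K M) (isUnramifiedOutside_pLayer T p r K M hpT))
    (hlocLM : LocNormCompat T (pLayer (p : ℕ) r K M) M
      (isUnramifiedOutside_top_pLayer T p r K M hpT)) :
    normSubgroup T p r K M hpT ≤ (recJ T p r K hpT).ker := by
  apply sup_le
  · rintro _ ⟨a, rfl⟩
    exact recJ_diagJ T p r K hp2 hpT a
  · rintro _ ⟨j, rfl⟩
    exact recJ_normDown T p r K M hp2 hr hpT hlocKL hlocLM j

theorem card_range_psi :
    Nat.card (psi (p : ℕ) r K M).range = Module.finrank K (pLayer (p : ℕ) r K M) := by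
  rw [← IsGalois.card_aut_eq_finrank]
  exact (Nat.card_congr (MonoidHom.ofInjective (psi_injective (p : ℕ) r K M)).toEquiv).symm

/-- **Reciprocity for the cyclic cyclotomic `p`-layer** (idelic form): given the norm index bound
`[J_T(K) : Kˣ · N J_T(L)] ≤ [L : K]`, the kernel of `rec = cyc ^ (p-1)` is exactly
`Kˣ · N J_T(L)` and its image is exactly `psi (Gal(L/K))`. -/
theorem recJ_ker_range (hp2 : (p : ℕ) ≠ 2) (hr : 1 ≤ r) (hpT : p ∈ T)
    (hlocKL : LocNormCompat T K (pLayer (p : ℕ) r K M) (isUnramifiedOutside_pLayer T p r K M hpT))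
    (hlocLM : LocNormCompat T (pLayer (p : ℕ) r K M) M
      (isUnramifiedOutside_top_pLayer T p r K M hpT))
    (h0 : (normSubgroup T p r K M hpT).index ≠ 0)
    (hle : (normSubgroup T p r K M hpT).index ≤ Module.finrank K (pLayer (p : ℕ) r K M)) :
    (recJ T p r K hpT).ker = normSubgroup T p r K M hpT ∧
      (recJ T p r K hpT).range = (psi (p : ℕ) r K M).range := by
  apply ker_eq_and_range_eq_of_index_le (recJ T p r K hpT) (normSubgroup T p r K M hpT)
    (psi (p : ℕ) r K M).range (normSubgroup_le_ker T p r K M hp2 hr hpT hlocKL hlocLM)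
    (range_psi_le_range_recJ T p r K M hpT) h0
  rw [card_range_psi]
  exact hle

/-- Every idele has a well-defined Artin symbol in `Gal(L/K)`. -/
theorem exists_unique_gal (hp2 : (p : ℕ) ≠ 2) (hr : 1 ≤ r) (hpT : p ∈ T)
    (hlocKL : LocNormCompat T K (pLayer (p : ℕ) r K M) (isUnramifiedOutside_pLayer T p r K M hpT))
    (hlocLM : LocNormCompat T (pLayer (p : ℕ) r K M) M
      (isUnramifiedOutside_top_pLayer T p r K M hpT))
    (h0 : (normSubgroup T p r K M hpT).index ≠ 0)
    (hle : (normSubgroup T p r K M hpT).index ≤ Module.finrank K (pLayer (p : ℕ) r K M))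
    (j : JT T K) :
    ∃! σ : pLayer (p : ℕ) r K M ≃ₐ[K] pLayer (p : ℕ) r K M,
      psi (p : ℕ) r K M σ = recJ T p r K hpT j := by
  have h := (recJ_ker_range T p r K M hp2 hr hpT hlocKL hlocLM h0 hle).2
  have hj : recJ T p r K hpT j ∈ (psi (p : ℕ) r K M).range := by
    rw [← h]; exact ⟨j, rfl⟩
  obtain ⟨σ, hσ⟩ := hj
  exact ⟨σ, hσ, fun τ hτ => psi_injective (p : ℕ) r K M (hτ.trans hσ.symm)⟩

/-- The reciprocity character on the `T`-idele class group. -/
noncomputable def recCT (hp2 : (p : ℕ) ≠ 2) (hpT : p ∈ T) : CT T K →* (ZMod ((p : ℕ) ^ r))ˣ :=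
  QuotientGroup.lift (diagJ T K).range (recJ T p r K hpT) (by
    rintro _ ⟨a, rfl⟩
    exact recJ_diagJ T p r K hp2 hpT a)

theorem recCT_toCT (hp2 : (p : ℕ) ≠ 2) (hpT : p ∈ T) (j : JT T K) :
    recCT T p r K hp2 hpT (toCT T K j) = recJ T p r K hpT j := rfl

/-- **Reciprocity for the cyclic cyclotomic `p`-layer** (class group form): the kernel of `rec` on
`C_T(K)` is the norm group `N C_T(L)`. -/
theorem recCT_ker (hp2 : (p : ℕ) ≠ 2) (hr : 1 ≤ r) (hpT : p ∈ T)
    (hlocKL : LocNormCompat T K (pLayer (p : ℕ) r K M) (isUnramifiedOutside_pLayer T p r K M hpT))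
    (hlocLM : LocNormCompat T (pLayer (p : ℕ) r K M) M
      (isUnramifiedOutside_top_pLayer T p r K M hpT))
    (h0 : (normSubgroup T p r K M hpT).index ≠ 0)
    (hle : (normSubgroup T p r K M hpT).index ≤ Module.finrank K (pLayer (p : ℕ) r K M))
    (c : CT T K) :
    recCT T p r K hp2 hpT c = 1 ↔
      c ∈ (normCT T K (pLayer (p : ℕ) r K M) (isUnramifiedOutside_pLayer T p r K M hpT)).range := by
  have h := (recJ_ker_range T p r K M hp2 hr hpT hlocKL hlocLM h0 hle).1
  obtain ⟨j, rfl⟩ := toCT_surjective T K c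
  rw [recCT_toCT, ← MonoidHom.mem_ker, h, normSubgroup]
  constructor
  · intro hj
    obtain ⟨_, ⟨a, rfl⟩, _, ⟨j', rfl⟩, rfl⟩ := Subgroup.mem_sup.mp hj
    refine ⟨toCT T (pLayer (p : ℕ) r K M) j', ?_⟩
    rw [normCT_toCT, toCT_eq_iff]
    refine ⟨a⁻¹, ?_⟩
    rw [map_inv, div_mul_eq_div_div_swap, div_self', one_div]
  · rintro ⟨c', hc'⟩
    obtain ⟨j', rfl⟩ := toCT_surjective T (pLayer (p : ℕ) r K M) c'
    rw [normCT_toCT, toCT_eq_iff] at hc'
    obtain ⟨a, ha⟩ := hc'
    have hj : j = (diagJ T K a)⁻¹ *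
        normDown T K (pLayer (p : ℕ) r K M) (isUnramifiedOutside_pLayer T p r K M hpT) j' := by
      rw [ha, inv_div, div_mul_cancel]
    rw [hj]
    exact Subgroup.mul_mem_sup (Subgroup.inv_mem _ ⟨a, rfl⟩) ⟨j', rfl⟩

end Final

end Fermat.Agent.PT.GLOB.CycRec22
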