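/-
Program F (S55, Poitou–Tate), chapter GLOB, leaf C2/C3-(A) (helper22).

**Cyclotomic reciprocity in the "big Galois `Ω`" shape** (helper23's blueprint v2, (A1') and (A3')).

`p ∈ T` odd, `F Ω : Type` number fields, `Ω/F` Galois, `ζ ∈ Ω` a primitive `p ^ r`-th root of unity,
`χ := hζ.autToPow F : Gal(Ω/F) →* (ZMod (p ^ r))ˣ`.

* `exists_autToPow_eq_primeUnit` : `absNorm P mod p^r = χ(Frob)` for every prime `P` of `F` away
  from `T` (no unramifiedness needed);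
* `exists_cyc_eq` : `cyc j = ± χ τ` for some `τ ∈ Gal(Ω/F)` (weak approximation + product formula);
* `containment` (A1') : `∀ j, ∃ τ, χ τ ^ (p-1) = cyc j ^ (p-1)`;
* `mem_normSubCT_iff` (A3') : for `F ⊂ F₁ ⊂ Ω`, `F₁/F` Galois of `p`-power degree, `F₁ ⊂ F(ζ)`,
  unramified outside `T`, with the norm index bound
  `(normSubCT T F F₁).index ≠ 0 ∧ (normSubCT T F F₁).index ≤ [F₁ : F]`:
  `toCT j ∈ normSubCT T F F₁ ↔ ∃ τ : Gal(Ω/F₁), χ (τ|_F) ^ (p-1) = cyc j ^ (p-1)`.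
-/
import Mathlib
import Fermat.Agent.PT.GLOB.CycRec22
import Fermat.Agent.PT.GLOB.CyclicLayerGK17
import Fermat.Agent.PT.GLOB.TowerNormLoc6

set_option autoImplicit false
set_option linter.unusedSectionVars false
set_option linter.style.haveILetI false

open NumberField IsDedekindDomain
open scoped TensorProduct nonZeroDivisors

namespace Fermat.Agent.PT.GLOB.CycRecOmega22

open Fermat.Agent.PT.GLOB.Interface23 Fermat.Agent.PT.GLOB.CycChar22
open Fermat.Agent.PT.GLOB.Tower23 Fermat.Agent.PT.GLOB.TowerMaps6 Fermat.Agent.PT.GLOB.TowerNorm6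
open Fermat.Agent.PT.GLOB.CycKillsNorms22 Fermat.Agent.PT.GLOB.CycNormCompat22
open Fermat.Agent.PT.GLOB.CycloPLayer22 Fermat.Agent.PT.GLOB.FrobGenerate19
open Fermat.Agent.PT.GLOB.FixedClass6 Fermat.Agent.PT.GLOB.CycRec22
open Fermat.Agent.PT.GLOB.WeakApprox17 Fermat.Agent.PT.GLOB.NormSubCT23

section Abstract

/-- Abstract counting lemma behind the reciprocity law. -/
theorem eq_comap_of_index_le {J U : Type*} [Group J] [CommGroup U]
    (ρ : J →* U) (H : Subgroup J) (A B : Subgroup U) (hBA : B ≤ A) (hρA : ρ.range ≤ A)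
    (hA : A ≤ ρ.range ⊔ B) (hH : H ≤ B.comap ρ) (h0 : H.index ≠ 0)
    (hle : H.index ≤ B.relIndex A) : H = B.comap ρ := by
  have h1 : (B.comap ρ).index = B.relIndex A := by
    have hsup : ρ.range ⊔ B = A := le_antisymm (sup_le hρA hBA) hA
    rw [Subgroup.index_comap, ← Subgroup.relIndex_sup_right, hsup]
  have h3 : (B.comap ρ).index ∣ H.index := Subgroup.index_dvd_of_le hH
  have h4 : (B.comap ρ).index ≤ H.index := Nat.le_of_dvd (Nat.pos_of_ne_zero h0) h3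
  have h6 : (B.comap ρ).index = H.index := by omega
  apply le_antisymm hH
  have h7 := Subgroup.relIndex_mul_index hH
  rw [h6] at h7
  have h8 : H.relIndex (B.comap ρ) = 1 := by
    have : H.relIndex (B.comap ρ) * H.index = 1 * H.index := by rw [h7, one_mul]
    exact Nat.eq_of_mul_eq_mul_right (Nat.pos_of_ne_zero h0) this
  exact Subgroup.relIndex_eq_one.mp h8

/-- The index of `f(K)` in `f(G)` when `K ⊇ ker f`. -/
theorem relIndex_map_range {G U : Type*} [Group G] [Group U] (f : G →* U) (K : Subgroup G)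
    (hK : f.ker ≤ K) : (K.map f).relIndex f.range = K.index := by
  rw [MonoidHom.range_eq_map, Subgroup.relIndex_map_map, sup_of_le_left hK, top_sup_eq,
    Subgroup.relIndex_top_right]

end Abstract

section Galois

variable (F F₁ Ω : Type*) [Field F] [Field F₁] [Field Ω] [Algebra F F₁] [Algebra F Ω]
  [Algebra F₁ Ω] [IsScalarTower F F₁ Ω]

/-- `Gal(Ω/F₁) → Gal(Ω/F)`. -/
def galIncl' : (Ω ≃ₐ[F₁] Ω) →* (Ω ≃ₐ[F] Ω) :=
  MonoidHom.mk' (fun τ => τ.restrictScalars F) (fun _ _ => rfl)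

theorem galIncl'_apply (τ : Ω ≃ₐ[F₁] Ω) (x : Ω) : galIncl' F F₁ Ω τ x = τ x := rfl

theorem mem_range_galIncl'_iff (τ : Ω ≃ₐ[F] Ω) :
    τ ∈ (galIncl' F F₁ Ω).range ↔ ∀ x : F₁, τ (algebraMap F₁ Ω x) = algebraMap F₁ Ω x := by
  constructor
  · rintro ⟨τ', rfl⟩ x
    exact τ'.commutes x
  · intro h
    refine ⟨AlgEquiv.ofRingEquiv (f := τ.toRingEquiv) h, ?_⟩
    ext x
    rfl

variable [Normal F F₁]

theorem restrictNormalHom_eq_one_iff (τ : Ω ≃ₐ[F] Ω) :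
    AlgEquiv.restrictNormalHom F₁ τ = 1 ↔
      ∀ x : F₁, τ (algebraMap F₁ Ω x) = algebraMap F₁ Ω x := by
  constructor
  · intro h x
    have h1 := AlgEquiv.restrictNormal_commutes τ F₁ x
    have h2 : τ.restrictNormal F₁ x = x := by
      have := congrArg (fun σ : F₁ ≃ₐ[F] F₁ => σ x) h
      exact this
    rw [← h1, h2]
  · intro h
    ext x
    apply (algebraMap F₁ Ω).injective
    have h1 := AlgEquiv.restrictNormal_commutes τ F₁ x
    show algebraMap F₁ Ω (τ.restrictNormal F₁ x) = algebraMap F₁ Ω x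
    rw [h1, h x]

theorem ker_restrictNormalHom_eq :
    (AlgEquiv.restrictNormalHom F₁ : (Ω ≃ₐ[F] Ω) →* (F₁ ≃ₐ[F] F₁)).ker =
      (galIncl' F F₁ Ω).range := by
  ext τ
  rw [MonoidHom.mem_ker, restrictNormalHom_eq_one_iff, mem_range_galIncl'_iff]

end Galois

section Frob

variable (T : Finset Nat.Primes) (p : Nat.Primes) (r : ℕ)
variable (F Ω : Type*) [Field F] [Field Ω] [NumberField F] [NumberField Ω] [Algebra F Ω]
  [IsGalois F Ω]

/-- **Frobenius formula**: for a prime `P` of `F` away from `T ∋ p`, the unit `absNorm P mod p^r`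
is the cyclotomic character of an element of `Gal(Ω/F)` (a Frobenius; `Ω/F` may be ramified). -/
theorem exists_autToPow_eq_primeUnit (hpT : p ∈ T) {ζ : Ω} (hζ : IsPrimitiveRoot ζ ((p : ℕ) ^ r))
    (P : PrimeAway T F) :
    ∃ τ : Ω ≃ₐ[F] Ω, hζ.autToPow F τ = primeUnit F p r P.1 := by
  haveI := P.1.isPrime
  obtain ⟨Q', σ, hQ', hQ'q, hσ⟩ :=
    Fermat.Agent.CFT.CycloArtin.exists_isArithFrobAt_over (F := F) (Ω := Ω) P.1.asIdeal P.1.ne_bot
  haveI := hQ'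
  refine ⟨σ, ?_⟩
  have hpP : (((p : ℕ) : ℕ) : 𝓞 F) ∉ P.1.asIdeal := by
    have := P.2 p hpT
    rwa [Int.cast_natCast] at this
  have hpQ : ((((p : ℕ) ^ r : ℕ) : ℕ) : 𝓞 Ω) ∉ Q' := by
    intro hmem
    rw [Nat.cast_pow] at hmem
    apply hpP
    have h1 := hQ'.mem_of_pow_mem r hmem
    rw [hQ'q.over, Ideal.under_def, Ideal.mem_comap, map_natCast]
    exact h1
  have h2 := Fermat.Agent.CFT.CycloArtin.apply_root_of_isArithFrobAt' hσ hζ.pow_eq_one hpQ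
  rw [← hQ'q.over, ← Fermat.Agent.CFT.CycloRecip.absNorm_eq_natCard] at h2
  apply Units.ext
  rw [Fermat.Agent.CFT.CycloRecip.autToPow_eq_of_apply_eq hζ σ _ h2,
    coe_primeUnit T F p r hpT P.1 P.2]

/-- The divisor part of `cyc` takes values in the image of the cyclotomic character. -/
theorem divChar_mem_range (hpT : p ∈ T) {ζ : Ω} (hζ : IsPrimitiveRoot ζ ((p : ℕ) ^ r))
    (D : DivT T F) : divChar T F p r D ∈ (hζ.autToPow F).range := by
  rw [divChar_apply]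
  apply Subgroup.prod_mem
  intro P _
  apply Subgroup.zpow_mem
  obtain ⟨τ, hτ⟩ := exists_autToPow_eq_primeUnit T p r F Ω hpT hζ P
  exact ⟨τ, hτ⟩

/-- Weak approximation form: every `T`-idele is, up to a principal idele, of the form
`(u, D)` with `cycI u = 1`. -/
theorem exists_cyc_mul_eq_divChar (hpT : p ∈ T) (j : JT T F) :
    ∃ (a : Fˣ) (D : DivT T F),
      cyc T F p r hpT (diagJ T F a) * cyc T F p r hpT j = divChar T F p r D := by
  classical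
  set k := r + 1 with hk
  obtain ⟨a, ha⟩ := weak_approx F T (fun i : Nat.Primes => (i : ℕ))
    (fun a _ b _ h => Subtype.ext h) k
    (fun i => if h : i ∈ T then j.1 ⟨i, h⟩ else 1)
  refine ⟨a, divT T F a * j.2, ?_⟩
  rw [← map_mul]
  have h0 : diagJ T F a * j = (diagI T F a * j.1, divT T F a * j.2) := rfl
  rw [h0, cyc_apply]
  have h1 : cycI T F p r hpT (diagI T F a * j.1) = 1 := by
    apply cycI_eq_one_of_near_one T F p r hpT k (by omega) (by omega)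
    intro q
    obtain ⟨z, hz, hzx⟩ := ha q.1 q.2
    refine ⟨z, hz, ?_⟩
    rw [hzx, dif_pos q.2]
    rfl
  rw [h1, one_mul]

/-- **(A1), sharp form**: `cyc j = ± χ(τ)` for some `τ ∈ Gal(Ω/F)`. -/
theorem exists_cyc_eq (hpT : p ∈ T) {ζ : Ω} (hζ : IsPrimitiveRoot ζ ((p : ℕ) ^ r))
    (j : JT T F) :
    ∃ τ : Ω ≃ₐ[F] Ω, cyc T F p r hpT j = hζ.autToPow F τ ∨
      cyc T F p r hpT j = -hζ.autToPow F τ := by
  obtain ⟨a, D, h⟩ := exists_cyc_mul_eq_divChar T p r F hpT j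
  obtain ⟨τ, hτ⟩ := divChar_mem_range T p r F Ω hpT hζ D
  refine ⟨τ, ?_⟩
  rw [hτ, ← h]
  rcases cyc_diagJ T F p r hpT a with h1 | h1
  · left; rw [h1, one_mul]
  · right; rw [h1, neg_mul, one_mul, neg_neg]

/-- **(A1) containment**: the values of `cyc ^ (p - 1)` are values of `χ ^ (p - 1)` on
`Gal(Ω/F)`. -/
theorem containment (hp2 : (p : ℕ) ≠ 2) (hpT : p ∈ T) {ζ : Ω}
    (hζ : IsPrimitiveRoot ζ ((p : ℕ) ^ r)) (j : JT T F) :
    ∃ τ : Ω ≃ₐ[F] Ω, hζ.autToPow F τ ^ ((p : ℕ) - 1) = cyc T F p r hpT j ^ ((p : ℕ) - 1) := by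
  obtain ⟨τ, h | h⟩ := exists_cyc_eq T p r F Ω hpT hζ j
  · exact ⟨τ, by rw [h]⟩
  · exact ⟨τ, by rw [h, (p.2.even_sub_one hp2).neg_pow]⟩

end Frob

section Main

variable (T : Finset Nat.Primes) (p : Nat.Primes) (r : ℕ)
variable (F F₁ Ω : Type) [Field F] [Field F₁] [Field Ω] [NumberField F] [NumberField F₁]
  [NumberField Ω] [Algebra F F₁] [Algebra F Ω] [Algebra F₁ Ω] [IsScalarTower F F₁ Ω]
  [IsGalois F Ω] [IsGalois F F₁]
variable {ζ : Ω} (hζ : IsPrimitiveRoot ζ ((p : ℕ) ^ r))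

/-- The cyclotomic character does not depend on the base field. -/
theorem autToPow_restrictScalars (τ : Ω ≃ₐ[F₁] Ω) :
    hζ.autToPow F (τ.restrictScalars F) = hζ.autToPow F₁ τ := by
  apply Units.ext
  have h1 := hζ.autToPow_spec F₁ τ
  have h2 : (τ.restrictScalars F) ζ = ζ ^ ((hζ.autToPow F₁ τ : (ZMod ((p : ℕ) ^ r))ˣ) :
      ZMod ((p : ℕ) ^ r)).val := h1.symm
  rw [Fermat.Agent.CFT.CycloRecip.autToPow_eq_of_apply_eq hζ (τ.restrictScalars F) _ h2,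
    ZMod.natCast_zmod_val]

/-- The character `χ ^ (p - 1)` of `Gal(Ω/F)`. -/
noncomputable def chiPow' : (Ω ≃ₐ[F] Ω) →* (ZMod ((p : ℕ) ^ r))ˣ :=
  (powMonoidHom ((p : ℕ) - 1)).comp (hζ.autToPow F)

theorem chiPow'_apply (τ : Ω ≃ₐ[F] Ω) :
    chiPow' p r F Ω hζ τ = hζ.autToPow F τ ^ ((p : ℕ) - 1) := rfl

/-- (c2) the kernel of `χ ^ (p-1)` fixes `F₁`. -/
theorem ker_chiPow'_le
    (hcyc : ∀ τ : Ω ≃ₐ[F] Ω, hζ.autToPow F τ = 1 →
      ∀ x : F₁, τ (algebraMap F₁ Ω x) = algebraMap F₁ Ω x)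
    (hdeg : ∃ m : ℕ, Module.finrank F F₁ = (p : ℕ) ^ m) :
    (chiPow' p r F Ω hζ).ker ≤
      (AlgEquiv.restrictNormalHom F₁ : (Ω ≃ₐ[F] Ω) →* (F₁ ≃ₐ[F] F₁)).ker := by
  intro τ hτ
  rw [MonoidHom.mem_ker, chiPow'_apply, ← map_pow] at hτ
  have h1 := (restrictNormalHom_eq_one_iff F F₁ Ω _).mpr (hcyc _ hτ)
  rw [map_pow] at h1
  obtain ⟨m, hm⟩ := hdeg
  have h2 : (AlgEquiv.restrictNormalHom F₁ τ) ^ ((p : ℕ) ^ m) = 1 := by
    rw [← hm, ← IsGalois.card_aut_eq_finrank]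
    exact pow_card_eq_one'
  rw [MonoidHom.mem_ker]
  have h3 : orderOf (AlgEquiv.restrictNormalHom F₁ τ) ∣ Nat.gcd ((p : ℕ) - 1) ((p : ℕ) ^ m) :=
    Nat.dvd_gcd (orderOf_dvd_of_pow_eq_one h1) (orderOf_dvd_of_pow_eq_one h2)
  have h4 : Nat.gcd ((p : ℕ) - 1) ((p : ℕ) ^ m) = 1 := by
    apply Nat.Coprime.pow_right
    rw [Nat.coprime_comm, Nat.Prime.coprime_iff_not_dvd p.2]
    intro hd
    have := Nat.le_of_dvd (by have := p.2.two_le; omega) hd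
    have := p.2.two_le
    omega
  rw [h4, Nat.dvd_one] at h3
  exact orderOf_eq_one_iff.mp h3

/-- (c1) the index of `χ^(p-1)(Gal(Ω/F₁))` in `χ^(p-1)(Gal(Ω/F))` is `[F₁ : F]`. -/
theorem relIndex_chiPow'
    (hcyc : ∀ τ : Ω ≃ₐ[F] Ω, hζ.autToPow F τ = 1 →
      ∀ x : F₁, τ (algebraMap F₁ Ω x) = algebraMap F₁ Ω x)
    (hdeg : ∃ m : ℕ, Module.finrank F F₁ = (p : ℕ) ^ m) :
    (((AlgEquiv.restrictNormalHom F₁ : (Ω ≃ₐ[F] Ω) →* (F₁ ≃ₐ[F] F₁)).ker).map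
      (chiPow' p r F Ω hζ)).relIndex (chiPow' p r F Ω hζ).range = Module.finrank F F₁ := by
  rw [relIndex_map_range _ _ (ker_chiPow'_le p r F F₁ Ω hζ hcyc hdeg), Subgroup.index_ker,
    MonoidHom.range_eq_top.mpr (AlgEquiv.restrictNormalHom_surjective Ω),
    Nat.card_congr Subgroup.topEquiv.toEquiv, IsGalois.card_aut_eq_finrank]

/-- (A1) in subgroup form: the image of `rec` lies in the image of `χ ^ (p-1)`. -/
theorem range_recJ_le (hp2 : (p : ℕ) ≠ 2) (hpT : p ∈ T) :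
    (recJ T p r F hpT).range ≤ (chiPow' p r F Ω hζ).range := by
  rintro _ ⟨j, rfl⟩
  obtain ⟨τ, hτ⟩ := containment T p r F Ω hp2 hpT hζ j
  exact ⟨τ, hτ⟩

/-- Lifting a Frobenius of `F₁/F` to `Gal(Ω/F)` with known cyclotomic character. -/
theorem exists_lift_of_mem_frobSet (hpT : p ∈ T) (σ : F₁ ≃ₐ[F] F₁)
    (hσ : σ ∈ frobSet F F₁ (∏ q ∈ T, (q : ℕ))) :
    ∃ g : Ω ≃ₐ[F] Ω, AlgEquiv.restrictNormalHom F₁ g = σ ∧
      chiPow' p r F Ω hζ g ∈ (recJ T p r F hpT).range := by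
  obtain ⟨q, P, hq, hqn, hqm, hP, hPq, hin, hσP⟩ := hσ
  haveI := hP
  have hq0 : q ≠ ⊥ := by
    rintro rfl
    rw [Ideal.absNorm_bot] at hqn
    exact Nat.not_prime_zero hqn
  set Q0 : HeightOneSpectrum (𝓞 F) := ⟨q, hq, hq0⟩ with hQ0
  have hres : resChar F Q0 = Ideal.absNorm q := by
    obtain ⟨f, hf⟩ := exists_absNorm_eq_pow F Q0
    exact eq_of_pow_prime hqn hf.symm
  have haway : ∀ q' ∈ T, ((((q' : Nat.Primes) : ℕ) : ℤ) : 𝓞 F) ∉ Q0.asIdeal := by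
    intro q' hq' hmem
    rw [Int.cast_natCast] at hmem
    have h1 := (natCast_mem_iff F Q0 _ q'.2).mp hmem
    apply hqm
    rw [← hres, ← h1]
    exact Finset.dvd_prod_of_mem (fun q : Nat.Primes => (q : ℕ)) hq'
  set Q : PrimeAway T F := ⟨Q0, haway⟩ with hQ
  have hP0 : P ≠ ⊥ := by
    rintro rfl
    apply hq0
    rw [← hPq, Ideal.under_def]
    exact Ideal.comap_bot_of_injective _ (FaithfulSMul.algebraMap_injective (𝓞 F) (𝓞 F₁))
  -- a prime of `Ω` above `P` and a Frobenius there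
  obtain ⟨P', hP', hP'P⟩ := exists_prime_over (M := F₁) (Ω := Ω) P
  haveI := hP'
  have hP'0 : P' ≠ ⊥ := by
    rintro rfl
    apply hP0
    rw [← hP'P, Ideal.under_def]
    exact Ideal.comap_bot_of_injective _ (FaithfulSMul.algebraMap_injective (𝓞 F₁) (𝓞 Ω))
  have : Finite (𝓞 Ω ⧸ P') := Ideal.finiteQuotientOfFreeOfNeBot P' hP'0
  obtain ⟨g, hg⟩ := IsArithFrobAt.exists_of_isInvariant (𝓞 F) (Ω ≃ₐ[F] Ω) P'
  have h1 := Fermat.Agent.CFT.CycloArtin.isArithFrobAt_restrictNormal (M := F₁) hg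
  rw [hP'P] at h1
  have h2 : σ = AlgEquiv.restrictNormalHom F₁ g := by
    have h3 := hσP.mul_inv_mem_inertia h1
    rw [hin, Subgroup.mem_bot] at h3
    exact mul_inv_eq_one.mp h3
  refine ⟨g, h2.symm, ?_⟩
  -- the cyclotomic character of `g`
  have hpq : (((p : ℕ) : ℕ) : 𝓞 F) ∉ q := by
    have := haway p hpT
    rwa [Int.cast_natCast] at this
  have hunder : P'.under (𝓞 F) = q := by
    rw [← hPq, ← hP'P, Ideal.under_under]
  have hpP' : ((((p : ℕ) ^ r : ℕ) : ℕ) : 𝓞 Ω) ∉ P' := by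
    intro hmem
    rw [Nat.cast_pow] at hmem
    apply hpq
    have h3 := hP'.mem_of_pow_mem r hmem
    rw [← hunder, Ideal.under_def, Ideal.mem_comap, map_natCast]
    exact h3
  have h4 := Fermat.Agent.CFT.CycloArtin.apply_root_of_isArithFrobAt' hg hζ.pow_eq_one hpP'
  rw [hunder, ← Fermat.Agent.CFT.CycloRecip.absNorm_eq_natCard] at h4
  have h5 := Fermat.Agent.CFT.CycloRecip.autToPow_eq_of_apply_eq hζ g _ h4
  refine ⟨((1 : IT T F), DivT.ofFinsupp T F (Finsupp.single Q 1)), ?_⟩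
  apply Units.ext
  rw [coe_recJ_single, chiPow'_apply, Units.val_pow_eq_pow_val, h5]

/-- `Gal(F₁/F)` is abelian when `F₁ ⊆ F(ζ)`. -/
theorem gal_comm
    (hcyc : ∀ τ : Ω ≃ₐ[F] Ω, hζ.autToPow F τ = 1 →
      ∀ x : F₁, τ (algebraMap F₁ Ω x) = algebraMap F₁ Ω x)
    (σ τ : F₁ ≃ₐ[F] F₁) : σ * τ = τ * σ := by
  obtain ⟨s, rfl⟩ := AlgEquiv.restrictNormalHom_surjective Ω σ
  obtain ⟨t, rfl⟩ := AlgEquiv.restrictNormalHom_surjective Ω τ
  have h1 : hζ.autToPow F (s * t * s⁻¹ * t⁻¹) = 1 := by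
    rw [map_mul, map_mul, map_mul, map_inv, map_inv]
    rw [mul_comm (hζ.autToPow F s) (hζ.autToPow F t), mul_inv_cancel_right, mul_inv_cancel]
  have h2 := (restrictNormalHom_eq_one_iff F F₁ Ω _).mpr (hcyc _ h1)
  rw [map_mul, map_mul, map_mul, map_inv, map_inv] at h2
  rw [mul_inv_eq_one, mul_inv_eq_iff_eq_mul] at h2
  exact h2

/-- (c3) the image of `χ ^ (p-1)` is generated by the image of `rec` and the image of
`Gal(Ω/F₁)`. -/
theorem range_chiPow'_le_sup (hpT : p ∈ T)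
    (hcyc : ∀ τ : Ω ≃ₐ[F] Ω, hζ.autToPow F τ = 1 →
      ∀ x : F₁, τ (algebraMap F₁ Ω x) = algebraMap F₁ Ω x) :
    (chiPow' p r F Ω hζ).range ≤ (recJ T p r F hpT).range ⊔
      ((AlgEquiv.restrictNormalHom F₁ : (Ω ≃ₐ[F] Ω) →* (F₁ ≃ₐ[F] F₁)).ker).map
        (chiPow' p r F Ω hζ) := by
  set π : (Ω ≃ₐ[F] Ω) →* (F₁ ≃ₐ[F] F₁) := AlgEquiv.restrictNormalHom F₁ with hπ
  set V := (recJ T p r F hpT).range ⊔ (π.ker).map (chiPow' p r F Ω hζ) with hV
  set G' : Subgroup (Ω ≃ₐ[F] Ω) := V.comap (chiPow' p r F Ω hζ) with hG'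
  have hker : π.ker ≤ G' := by
    intro τ hτ
    rw [hG', Subgroup.mem_comap]
    exact Subgroup.mem_sup_right (Subgroup.mem_map_of_mem _ hτ)
  have hm : (∏ q ∈ T, (q : ℕ)) ≠ 0 := Finset.prod_ne_zero_iff.mpr fun q _ => q.2.ne_zero
  have hcl := closure_frobSet_eq_top F F₁ (gal_comm p r F F₁ Ω hζ hcyc) _ hm
  have hmap : G'.map π = ⊤ := by
    rw [eq_top_iff, ← hcl, Subgroup.closure_le]
    intro σ hσ
    obtain ⟨g, hg, hgV⟩ := exists_lift_of_mem_frobSet T p r F F₁ Ω hζ hpT σ hσ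
    refine ⟨g, ?_, hg⟩
    rw [SetLike.mem_coe, hG', Subgroup.mem_comap]
    exact Subgroup.mem_sup_left hgV
  rintro _ ⟨g, rfl⟩
  have h1 : π g ∈ G'.map π := by rw [hmap]; exact Subgroup.mem_top _
  obtain ⟨g', hg', hgg'⟩ := h1
  have h2 : g'⁻¹ * g ∈ π.ker := by
    rw [MonoidHom.mem_ker, map_mul, map_inv, hgg', inv_mul_cancel]
  have h3 : g ∈ G' := by
    have := G'.mul_mem hg' (hker h2)
    rwa [mul_inv_cancel_left] at this
  exact h3

/-- (⇒) norms from `F₁` have `rec` in the image of `Gal(Ω/F₁)`. -/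
theorem comap_normSubCT_le (hp2 : (p : ℕ) ≠ 2) (hpT : p ∈ T)
    (hun : IsUnramifiedOutside T F F₁) :
    (normSubCT T F F₁).comap (toCT T F) ≤
      (((AlgEquiv.restrictNormalHom F₁ : (Ω ≃ₐ[F] Ω) →* (F₁ ≃ₐ[F] F₁)).ker).map
        (chiPow' p r F Ω hζ)).comap (recJ T p r F hpT) := by
  haveI : IsGalois F₁ Ω := IsGalois.tower_top_of_isGalois F F₁ Ω
  intro j hj
  rw [Subgroup.mem_comap,
    ← Fermat.Agent.PT.GLOB.CyclicLayerGK17.range_normCT_eq_normSubCT T ⟨p, hpT⟩ hun] at hj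
  obtain ⟨c', hc'⟩ := hj
  obtain ⟨j', rfl⟩ := toCT_surjective T F₁ c'
  rw [normCT_toCT, toCT_eq_iff] at hc'
  obtain ⟨a, ha⟩ := hc'
  have h1 : recJ T p r F hpT j = recJ T p r F hpT (normDown T F F₁ hun j') := by
    have h2 : normDown T F F₁ hun j' = diagJ T F a * j := by
      rw [ha, div_mul_cancel]
    rw [h2, map_mul, recJ_diagJ T p r F hp2 hpT a, one_mul]
  rw [Subgroup.mem_comap, h1, recJ_apply,
    cyc_normDown T F F₁ hun p r (Fermat.Agent.PT.GLOB.TowerNormLoc6.locNormCompat T F F₁ hun) hpT]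
  obtain ⟨τ, hτ⟩ := containment T p r F₁ Ω hp2 hpT hζ j'
  refine ⟨τ.restrictScalars F, ?_, ?_⟩
  · rw [SetLike.mem_coe, ker_restrictNormalHom_eq]
    exact ⟨τ, rfl⟩
  · rw [chiPow'_apply, autToPow_restrictScalars p r F F₁ Ω hζ τ, hτ]

/-- **(A3) Cyclotomic reciprocity, big-`Ω` form.**  `F ⊂ F₁ ⊂ Ω`, `Ω/F` Galois containing a
primitive `p^r`-th root of unity `ζ`, `F₁ ⊂ F(ζ)` (`hcyc`) Galois over `F` of `p`-power degree and
unramified outside `T ∋ p`.  Given the norm index bound `[C_T(F) : N C_T(F₁)] ≤ [F₁ : F]`, the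
class of a `T`-idele `j` of `F` is a norm from `F₁` iff `cyc(j)^(p-1)` is the value of
`χ^(p-1)` at an element of `Gal(Ω/F₁)`. -/
theorem mem_normSubCT_iff (hp2 : (p : ℕ) ≠ 2) (hpT : p ∈ T)
    (hcyc : ∀ τ : Ω ≃ₐ[F] Ω, hζ.autToPow F τ = 1 →
      ∀ x : F₁, τ (algebraMap F₁ Ω x) = algebraMap F₁ Ω x)
    (hdeg : ∃ m : ℕ, Module.finrank F F₁ = (p : ℕ) ^ m)
    (hun : IsUnramifiedOutside T F F₁)
    (hidx : (normSubCT T F F₁).index ≠ 0 ∧ (normSubCT T F F₁).index ≤ Module.finrank F F₁)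
    (j : JT T F) :
    toCT T F j ∈ normSubCT T F F₁ ↔
      ∃ τ : Ω ≃ₐ[F₁] Ω, hζ.autToPow F (τ.restrictScalars F) ^ ((p : ℕ) - 1) =
        cyc T F p r hpT j ^ ((p : ℕ) - 1) := by
  have hidx' : ((normSubCT T F F₁).comap (toCT T F)).index = (normSubCT T F F₁).index :=
    Subgroup.index_comap_of_surjective _ (toCT_surjective T F)
  have key := eq_comap_of_index_le (recJ T p r F hpT) ((normSubCT T F F₁).comap (toCT T F))
    (chiPow' p r F Ω hζ).range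
    (((AlgEquiv.restrictNormalHom F₁ : (Ω ≃ₐ[F] Ω) →* (F₁ ≃ₐ[F] F₁)).ker).map
      (chiPow' p r F Ω hζ))
    (Subgroup.map_le_range _ _) (range_recJ_le T p r F Ω hζ hp2 hpT)
    (range_chiPow'_le_sup T p r F F₁ Ω hζ hpT hcyc)
    (comap_normSubCT_le T p r F F₁ Ω hζ hp2 hpT hun)
    (by rw [hidx']; exact hidx.1)
    (by rw [hidx', relIndex_chiPow' p r F F₁ Ω hζ hcyc hdeg]; exact hidx.2)
  have h1 : toCT T F j ∈ normSubCT T F F₁ ↔ j ∈ (normSubCT T F F₁).comap (toCT T F) := Iff.rfl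
  rw [h1, key, Subgroup.mem_comap, Subgroup.mem_map]
  constructor
  · rintro ⟨g, hg, hgj⟩
    rw [ker_restrictNormalHom_eq] at hg
    obtain ⟨τ, rfl⟩ := hg
    exact ⟨τ, hgj⟩
  · rintro ⟨τ, hτ⟩
    refine ⟨τ.restrictScalars F, ?_, hτ⟩
    rw [ker_restrictNormalHom_eq]
    exact ⟨τ, rfl⟩

end Main

end Fermat.Agent.PT.GLOB.CycRecOmega22
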