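/-
Program F (S55, Poitou–Tate), chapter GLOB, leaf C3-(A) (helper22).

The cyclotomic reciprocity statements of `CycRecOmega22` in the LITERAL shapes of
`CycRecShape23`: `cycContain` (A1'), `cycNormImp` (A3'⇒), `cycNormCrit` (A3').
-/
import Mathlib
import Fermat.Agent.PT.GLOB.CycRecOmega22
import Fermat.Agent.PT.GLOB.CycRecShape23

set_option autoImplicit false
set_option linter.unusedSectionVars false

open NumberField

namespace Fermat.Agent.PT.GLOB.CycRecShapes22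

open Fermat.Agent.PT.GLOB.Interface23 Fermat.Agent.PT.GLOB.CycChar22
open Fermat.Agent.PT.GLOB.NormSubCT23 Fermat.Agent.PT.GLOB.CycRecShape23
open Fermat.Agent.PT.GLOB.CycRecOmega22 Fermat.Agent.PT.GLOB.CycRec22

variable (T : Finset Nat.Primes) (p : Nat.Primes) (hpT : p ∈ T) (r : ℕ) [NeZero ((p : ℕ) ^ r)]

/-- (A1') in the shape of `CycRecShape23`. -/
theorem cycContain (hp2 : (p : ℕ) ≠ 2) : CycContain T p hpT r := by
  intro F Ω _ _ _ _ _ _ ζ hζ j
  exact containment T p r F Ω hp2 hpT hζ j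

/-- (A3'⇒) in the shape of `CycRecShape23`. -/
theorem cycNormImp (hp2 : (p : ℕ) ≠ 2) : CycNormImp T p hpT r := by
  intro F F₁ Ω _ _ _ _ _ _ _ _ _ _ _ _ ζ hζ hun j hj
  have h := comap_normSubCT_le T p r F F₁ Ω hζ hp2 hpT hun (show j ∈ (normSubCT T F F₁).comap
    (toCT T F) from hj)
  rw [Subgroup.mem_comap, Subgroup.mem_map] at h
  obtain ⟨g, hg, hgj⟩ := h
  rw [ker_restrictNormalHom_eq] at hg
  obtain ⟨τ, rfl⟩ := hg
  exact ⟨τ, hgj⟩

/-- (A3') in the shape of `CycRecShape23`. -/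
theorem cycNormCrit (hp2 : (p : ℕ) ≠ 2) : CycNormCrit T p hpT r := by
  intro F F₁ Ω _ _ _ _ _ _ _ _ _ _ _ _ ζ hζ hcyc hdeg hun hidx j
  exact mem_normSubCT_iff T p r F F₁ Ω hζ hp2 hpT hcyc hdeg hun hidx j

end Fermat.Agent.PT.GLOB.CycRecShapes22
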