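/-
Program F (S55, Poitou–Tate), chapter GLOB, leaf C3-(A) (helper22).

Cyclotomic reciprocity, "big Galois `Ω`" form, last two shapes of `CycRecShape23`:
* `cycSurj` (SURJ): every `χ(τ)^(p-1)`, `τ ∈ Gal(Ω/F)`, is a value `cyc(j)^(p-1)`
  (apply `CycRecOmega22.range_chiPow'_le_sup` to the layer `F₁ = F(ζ) ⊂ Ω`);
* `cycGen` (A4'): for a cyclic cyclotomic `p`-layer `F₁/F` with generator `σ`, an idele `j₀` whose
  class has exact order `[F₁ : F]` modulo norms.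
-/
import Mathlib
import Fermat.Agent.PT.GLOB.CycRecShapes22

set_option autoImplicit false
set_option linter.unusedSectionVars false
set_option linter.style.haveILetI false

open NumberField

namespace Fermat.Agent.PT.GLOB.CycRecGen22

open Fermat.Agent.PT.GLOB.Interface23 Fermat.Agent.PT.GLOB.CycChar22
open Fermat.Agent.PT.GLOB.NormSubCT23 Fermat.Agent.PT.GLOB.CycRecShape23
open Fermat.Agent.PT.GLOB.CycRecOmega22 Fermat.Agent.PT.GLOB.CycRec22
open Fermat.Agent.PT.GLOB.CycloPLayer22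

section Surj

variable (T : Finset Nat.Primes) (p : Nat.Primes) (r : ℕ)
variable (F Ω : Type) [Field F] [Field Ω] [NumberField F] [NumberField Ω] [Algebra F Ω]
  [IsGalois F Ω]
variable {ζ : Ω} (hζ : IsPrimitiveRoot ζ ((p : ℕ) ^ r))

/-- An automorphism with trivial cyclotomic character fixes `ζ`. -/
theorem apply_zeta_of_autToPow_eq_one (τ : Ω ≃ₐ[F] Ω) (h : hζ.autToPow F τ = 1) : τ ζ = ζ := by
  have h1 := hζ.autToPow_spec F τ
  rw [h, Units.val_one, ZMod.val_one_eq_one_mod] at h1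
  rw [← h1]
  conv_lhs => rw [hζ.eq_orderOf, pow_mod_orderOf, pow_one]

/-- An automorphism fixing `ζ` has trivial cyclotomic character. -/
theorem autToPow_eq_one_of_apply_zeta (τ : Ω ≃ₐ[F] Ω) (h : τ ζ = ζ) : hζ.autToPow F τ = 1 := by
  apply Units.ext
  rw [Fermat.Agent.CFT.CycloRecip.autToPow_eq_of_apply_eq hζ τ 1 (by rw [h, pow_one]),
    Nat.cast_one, Units.val_one]

/-- An automorphism fixing `ζ` fixes `F(ζ)`. -/
theorem apply_eq_of_mem_adjoin (τ : Ω ≃ₐ[F] Ω) (h : τ ζ = ζ)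
    (x : IntermediateField.adjoin F {ζ}) : τ (x : Ω) = (x : Ω) := by
  have h1 : ((τ : Ω →ₐ[F] Ω).comp (IntermediateField.adjoin F {ζ}).val) =
      (IntermediateField.adjoin F {ζ}).val := by
    apply IntermediateField.adjoin_algHom_ext F
    intro y hy
    rw [Set.mem_singleton_iff] at hy
    subst hy
    exact h
  exact congrArg (fun φ : IntermediateField.adjoin F {ζ} →ₐ[F] Ω => φ x) h1

/-- **(SURJ)**: every `χ(τ)^(p-1)` is a value of `cyc^(p-1)`. -/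
theorem exists_cyc_pow_eq (hpT : p ∈ T) (τ : Ω ≃ₐ[F] Ω) :
    ∃ j : JT T F, cyc T F p r hpT j ^ ((p : ℕ) - 1) = hζ.autToPow F τ ^ ((p : ℕ) - 1) := by
  haveI : IsCyclotomicExtension {(p : ℕ) ^ r} F (IntermediateField.adjoin F {ζ}) :=
    hζ.intermediateField_adjoin_isCyclotomicExtension F
  haveI : IsGalois F (IntermediateField.adjoin F {ζ}) :=
    IsCyclotomicExtension.isGalois {(p : ℕ) ^ r} F (IntermediateField.adjoin F {ζ})
  have hcyc : ∀ τ : Ω ≃ₐ[F] Ω, hζ.autToPow F τ = 1 → ∀ x : IntermediateField.adjoin F {ζ},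
      τ (algebraMap (IntermediateField.adjoin F {ζ}) Ω x) =
        algebraMap (IntermediateField.adjoin F {ζ}) Ω x := fun τ hτ x =>
    apply_eq_of_mem_adjoin F Ω τ (apply_zeta_of_autToPow_eq_one p r F Ω hζ τ hτ) x
  have h1 := range_chiPow'_le_sup T p r F (IntermediateField.adjoin F {ζ}) Ω hζ hpT hcyc
  have h2 : ((AlgEquiv.restrictNormalHom (IntermediateField.adjoin F {ζ}) :
      (Ω ≃ₐ[F] Ω) →* (IntermediateField.adjoin F {ζ} ≃ₐ[F] IntermediateField.adjoin F {ζ})).ker).map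
        (chiPow' p r F Ω hζ) = ⊥ := by
    rw [eq_bot_iff]
    rintro _ ⟨g, hg, rfl⟩
    rw [SetLike.mem_coe, MonoidHom.mem_ker, restrictNormalHom_eq_one_iff] at hg
    have hgζ : g ζ = ζ :=
      hg ⟨ζ, IntermediateField.subset_adjoin F {ζ} (Set.mem_singleton ζ)⟩
    rw [Subgroup.mem_bot, chiPow'_apply, autToPow_eq_one_of_apply_zeta p r F Ω hζ g hgζ, one_pow]
  rw [h2, sup_bot_eq] at h1
  obtain ⟨j, hj⟩ := h1 ⟨τ, rfl⟩
  exact ⟨j, hj⟩

end Surj

section Gen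

variable (T : Finset Nat.Primes) (p : Nat.Primes) (r : ℕ)
variable (F F₁ Ω : Type) [Field F] [Field F₁] [Field Ω] [NumberField F] [NumberField F₁]
  [NumberField Ω] [Algebra F F₁] [Algebra F Ω] [Algebra F₁ Ω] [IsScalarTower F F₁ Ω]
  [IsGalois F Ω] [IsGalois F F₁]
variable {ζ : Ω} (hζ : IsPrimitiveRoot ζ ((p : ℕ) ^ r))

/-- **(A4')**: a generator of `C_T(F) / N C_T(F₁)` for a cyclic cyclotomic `p`-layer. -/
theorem exists_generator_mod_norms (hp2 : (p : ℕ) ≠ 2) (hpT : p ∈ T)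
    (hcyc : ∀ τ : Ω ≃ₐ[F] Ω, hζ.autToPow F τ = 1 →
      ∀ x : F₁, τ (algebraMap F₁ Ω x) = algebraMap F₁ Ω x)
    (hdeg : ∃ m : ℕ, Module.finrank F F₁ = (p : ℕ) ^ m)
    (hun : IsUnramifiedOutside T F F₁)
    (hidx : (normSubCT T F F₁).index ≠ 0 ∧ (normSubCT T F F₁).index ≤ Module.finrank F F₁)
    (σ : F₁ ≃ₐ[F] F₁) (hσ : ∀ τ, τ ∈ Subgroup.zpowers σ) :
    ∃ j₀ : JT T F, ∀ k : ℕ,
      (toCT T F j₀) ^ k ∈ normSubCT T F F₁ ↔ Module.finrank F F₁ ∣ k := by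
  obtain ⟨g, hg⟩ := AlgEquiv.restrictNormalHom_surjective Ω σ
  obtain ⟨j₀, hj₀⟩ := exists_cyc_pow_eq T p r F Ω hζ hpT g
  refine ⟨j₀, fun k => ?_⟩
  have hord : orderOf σ = Module.finrank F F₁ := by
    rw [orderOf_eq_card_of_forall_mem_zpowers hσ, IsGalois.card_aut_eq_finrank]
  have hX : cyc T F p r hpT (j₀ ^ k) ^ ((p : ℕ) - 1) = chiPow' p r F Ω hζ (g ^ k) := by
    rw [map_pow, map_pow, chiPow'_apply, ← hj₀, ← pow_mul, ← pow_mul, mul_comm]
  have hdvd : Module.finrank F F₁ ∣ k ↔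
      ∀ x : F₁, (g ^ k) (algebraMap F₁ Ω x) = algebraMap F₁ Ω x := by
    rw [← hord, orderOf_dvd_iff_pow_eq_one, ← hg, ← map_pow, restrictNormalHom_eq_one_iff]
  have hmem : (toCT T F j₀) ^ k ∈ normSubCT T F F₁ ↔ ∃ τ : Ω ≃ₐ[F₁] Ω,
      hζ.autToPow F (τ.restrictScalars F) ^ ((p : ℕ) - 1) = chiPow' p r F Ω hζ (g ^ k) := by
    rw [← map_pow, mem_normSubCT_iff T p r F F₁ Ω hζ hp2 hpT hcyc hdeg hun hidx, hX]
  rw [hmem, hdvd]
  constructor
  · rintro ⟨τ, hτ⟩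
    have h1 : (g ^ k) * (τ.restrictScalars F)⁻¹ ∈ (chiPow' p r F Ω hζ).ker := by
      rw [MonoidHom.mem_ker, map_mul, map_inv, ← hτ]
      exact mul_inv_cancel _
    have h2 := ker_chiPow'_le p r F F₁ Ω hζ hcyc hdeg h1
    rw [MonoidHom.mem_ker, map_mul, map_inv] at h2
    have h3 : AlgEquiv.restrictNormalHom F₁ (τ.restrictScalars F) = 1 := by
      rw [restrictNormalHom_eq_one_iff]
      exact fun x => τ.commutes x
    rw [h3, inv_one, mul_one] at h2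
    exact (restrictNormalHom_eq_one_iff F F₁ Ω _).mp h2
  · intro h
    obtain ⟨τ, hτ⟩ := (mem_range_galIncl'_iff F F₁ Ω (g ^ k)).mpr h
    refine ⟨τ, ?_⟩
    have h4 : τ.restrictScalars F = g ^ k := hτ
    rw [h4]
    rfl

end Gen

section Shapes

variable (T : Finset Nat.Primes) (p : Nat.Primes) (hpT : p ∈ T) (r : ℕ) [NeZero ((p : ℕ) ^ r)]

/-- (SURJ) in the shape of `CycRecShape23`. -/
theorem cycSurj : CycSurj T p hpT r := by
  intro F Ω _ _ _ _ _ _ ζ hζ τ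
  exact exists_cyc_pow_eq T p r F Ω hζ hpT τ

include hpT in
/-- (A4') in the shape of `CycRecShape23`. -/
theorem cycGen (hp2 : (p : ℕ) ≠ 2) : CycGen T p r := by
  intro F F₁ Ω _ _ _ _ _ _ _ _ _ _ _ _ ζ hζ hcyc hdeg hun hidx σ hσ
  exact exists_generator_mod_norms T p r F F₁ Ω hζ hp2 hpT hcyc hdeg hun hidx σ hσ

end Shapes

end Fermat.Agent.PT.GLOB.CycRecGen22
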