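/-
Program F (S55, Poitou–Tate), chapter GLOB, leaf C3 (helper23): the cyclic cyclotomic `p`-layer
`K₁` of prescribed degree `p^a` inside a Galois extension `Ω/K` containing `ζ_{p^r}`, and the level
`r` for which such a layer exists.
-/
import Fermat.Agent.PT.GLOB.CycloLocalDeg22

set_option autoImplicit false
set_option linter.unusedSectionVars false

namespace Fermat.Agent.PT.GLOB.CycSubLayer23

open NumberField

noncomputable section

/-! ### Group theory -/

/-- A homomorphism `χ` into a finite cyclic abelian group whose image has order divisible by `q`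
factors (up to the kernel) through a cyclic quotient of order exactly `q`. -/
theorem exists_cyclic_quotient {G A : Type*} [Group G] [CommGroup A] [Finite A] [IsCyclic A]
    (χ : G →* A) (q : ℕ) (hq : q ∣ Nat.card χ.range) :
    ∃ θ : G →* A, χ.ker ≤ θ.ker ∧ Nat.card θ.range = q := by
  obtain ⟨g, hg⟩ := (Subgroup.isCyclic_iff_exists_zpowers_eq_top (χ.range)).mp inferInstance
  set n := Nat.card χ.range with hn
  have hn0 : 0 < n := Nat.card_pos
  have hng : orderOf g = n := by rw [hn, ← hg, Nat.card_zpowers]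
  obtain ⟨m, hm⟩ := hq
  have hm0 : 0 < m := by
    rcases Nat.eq_zero_or_pos m with rfl | h
    · rw [mul_zero] at hm; omega
    · exact h
  have hq0 : 0 < q := by
    rcases Nat.eq_zero_or_pos q with rfl | h
    · rw [zero_mul] at hm; omega
    · exact h
  refine ⟨(powMonoidHom m).comp χ, ?_, ?_⟩
  · intro τ hτ
    rw [MonoidHom.mem_ker] at hτ ⊢
    rw [MonoidHom.comp_apply, hτ, map_one]
  · rw [MonoidHom.range_comp, ← hg, MonoidHom.map_zpowers, Nat.card_zpowers, powMonoidHom_apply,
      orderOf_pow' g hm0.ne', hng, hm, Nat.gcd_mul_left_left, Nat.mul_div_cancel _ hm0]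

/-! ### The layer -/

section Layer

variable (p : ℕ) [hp : Fact p.Prime] (r : ℕ) [NeZero (p ^ r)]
variable (K Ω : Type) [Field K] [Field Ω] [Algebra K Ω] [FiniteDimensional K Ω] [IsGalois K Ω]
  {ζ : Ω} (hζ : IsPrimitiveRoot ζ (p ^ r))

/-- **The cyclic cyclotomic `p`-layer of degree `p^a`.** -/
theorem exists_cyclic_sublayer (hp2 : p ≠ 2) (a : ℕ)
    (ha : p ^ a ∣ Nat.card (hζ.autToPow K).range) :
    ∃ K₁ : IntermediateField K Ω, IsGalois K K₁ ∧ Module.finrank K K₁ = p ^ a ∧
      (∃ σ : K₁ ≃ₐ[K] K₁, ∀ τ, τ ∈ Subgroup.zpowers σ) ∧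
      ∀ τ : Ω ≃ₐ[K] Ω, hζ.autToPow K τ = 1 →
        ∀ x : K₁, τ (algebraMap K₁ Ω x) = algebraMap K₁ Ω x := by
  have : IsCyclic (ZMod (p ^ r))ˣ := ZMod.isCyclic_units_of_prime_pow p hp.out hp2 r
  obtain ⟨θ, hker, hcard⟩ := exists_cyclic_quotient (hζ.autToPow K) (p ^ a) ha
  let U₁ : Subgroup (Ω ≃ₐ[K] Ω) := θ.ker
  have : U₁.Normal := MonoidHom.normal_ker θ
  let e : (Ω ≃ₐ[K] Ω) ⧸ U₁ ≃* (IntermediateField.fixedField U₁ ≃ₐ[K] IntermediateField.fixedField U₁) :=
    IsGalois.normalAutEquivQuotient U₁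
  let e₂ : (Ω ≃ₐ[K] Ω) ⧸ U₁ ≃* θ.range := QuotientGroup.quotientKerEquivRange θ
  refine ⟨IntermediateField.fixedField U₁, inferInstance, ?_, ?_, ?_⟩
  · rw [← IsGalois.card_aut_eq_finrank, ← Nat.card_congr e.toEquiv, Nat.card_congr e₂.toEquiv,
      hcard]
  · have : IsCyclic (IntermediateField.fixedField U₁ ≃ₐ[K] IntermediateField.fixedField U₁) :=
      isCyclic_of_surjective (e.toMonoidHom.comp e₂.symm.toMonoidHom)
        (e.surjective.comp e₂.symm.surjective)
    exact IsCyclic.exists_generator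
  · intro τ hτ x
    have hτU : τ ∈ U₁ := hker (MonoidHom.mem_ker.mpr hτ)
    exact (IntermediateField.mem_fixedField_iff U₁ (x : Ω)).mp x.2 τ hτU

end Layer

/-! ### The size of the image of the cyclotomic character -/

section Card

variable (n : ℕ) [NeZero n]
variable (K Ω : Type) [Field K] [Field Ω] [Algebra K Ω] [FiniteDimensional K Ω] [IsGalois K Ω]
  {ζ : Ω} (hζ : IsPrimitiveRoot ζ n)

theorem ker_autToPow :
    (hζ.autToPow K).ker = (IntermediateField.adjoin K {ζ}).fixingSubgroup := by
  ext τ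
  rw [MonoidHom.mem_ker, IntermediateField.mem_fixingSubgroup_iff]
  constructor
  · intro hτ
    have hfix : τ ζ = ζ := by
      have h := hζ.autToPow_spec K τ
      rw [hτ] at h
      rcases Nat.lt_or_ge 1 n with h1 | h1
      · have : Fact (1 < n) := ⟨h1⟩
        have hv : ((1 : (ZMod n)ˣ) : ZMod n).val = 1 := by
          rw [Units.val_one, ZMod.val_one]
        rw [hv, pow_one] at h
        exact h.symm
      · have hn1 : n = 1 := le_antisymm h1 (Nat.one_le_iff_ne_zero.mpr (NeZero.ne n))
        have hz1 : ζ = 1 := by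
          have := hζ.pow_eq_one
          rwa [hn1, pow_one] at this
        rw [hz1, map_one]
    have hle : IntermediateField.adjoin K {ζ} ≤
        IntermediateField.fixedField (Subgroup.zpowers τ) := by
      rw [IntermediateField.adjoin_le_iff]
      rintro x rfl
      rw [SetLike.mem_coe, IntermediateField.mem_fixedField_iff]
      intro f hf
      obtain ⟨k, rfl⟩ := Subgroup.mem_zpowers_iff.mp hf
      have hstab : τ ∈ MulAction.stabilizer (Ω ≃ₐ[K] Ω) x := hfix
      exact (MulAction.stabilizer (Ω ≃ₐ[K] Ω) x).zpow_mem hstab k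
    intro x hx
    exact (IntermediateField.mem_fixedField_iff _ x).mp (hle hx) τ (Subgroup.mem_zpowers τ)
  · intro hτ
    have hfix : τ ζ = ζ := hτ ζ (IntermediateField.mem_adjoin_simple_self K ζ)
    apply Units.ext
    apply ZMod.val_injective
    apply hζ.pow_inj (ZMod.val_lt _) (ZMod.val_lt _)
    rw [hζ.autToPow_spec K τ, hfix]
    have h1 := hζ.autToPow_spec K (1 : Ω ≃ₐ[K] Ω)
    rw [map_one] at h1
    exact h1.symm

theorem card_range_autToPow :
    Nat.card (hζ.autToPow K).range = Module.finrank K (IntermediateField.adjoin K {ζ}) := by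
  have h1 : (hζ.autToPow K).ker.index = Nat.card (hζ.autToPow K).range := Subgroup.index_ker _
  have h2 := Subgroup.card_mul_index (hζ.autToPow K).ker
  rw [h1, ker_autToPow, IsGalois.card_fixingSubgroup_eq_finrank, IsGalois.card_aut_eq_finrank] at h2
  have h3 := Module.finrank_mul_finrank K (IntermediateField.adjoin K {ζ}) Ω
  have hpos : 0 < Module.finrank (IntermediateField.adjoin K {ζ}) Ω := Module.finrank_pos
  rw [← h3, mul_comm] at h2
  exact Nat.eq_of_mul_eq_mul_right hpos h2

end Card

/-! ### The level -/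

section Level

variable (p : ℕ) [hp : Fact p.Prime] (K : Type) [Field K] [NumberField K]

theorem totient_dvd_finrank_mul (n : ℕ) [NeZero n] (Ω : Type) [Field Ω] [NumberField Ω]
    [Algebra K Ω] (ζ : Ω) (hζ : IsPrimitiveRoot ζ n) :
    n.totient ∣ Module.finrank ℚ K * Module.finrank K (IntermediateField.adjoin K {ζ}) := by
  have hcyc : IsCyclotomicExtension {n} ℚ (IntermediateField.adjoin ℚ {ζ}) :=
    hζ.intermediateField_adjoin_isCyclotomicExtension ℚ
  have hdeg : Module.finrank ℚ (IntermediateField.adjoin ℚ {ζ}) = n.totient :=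
    IsCyclotomicExtension.finrank (IntermediateField.adjoin ℚ {ζ})
      (Polynomial.cyclotomic.irreducible_rat (Nat.pos_of_ne_zero (NeZero.ne n)))
  have hle : IntermediateField.adjoin ℚ {ζ} ≤
      (IntermediateField.adjoin K {ζ}).restrictScalars ℚ := by
    rw [IntermediateField.adjoin_le_iff]
    intro x hx
    rw [Set.mem_singleton_iff] at hx
    rw [hx]
    exact IntermediateField.mem_adjoin_simple_self K ζ
  have hdvd : n.totient ∣
      Module.finrank ℚ ((IntermediateField.adjoin K {ζ}).restrictScalars ℚ) := by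
    rw [← hdeg]
    exact IntermediateField.finrank_dvd_of_le_right hle
  have hmul : Module.finrank ℚ K * Module.finrank K (IntermediateField.adjoin K {ζ}) =
      Module.finrank ℚ ((IntermediateField.adjoin K {ζ}).restrictScalars ℚ) :=
    Module.finrank_mul_finrank ℚ K (IntermediateField.adjoin K {ζ})
  rw [hmul]
  exact hdvd

/-- **The level**: for `r = a + v_p([K:ℚ]) + 1`, the image of the `p^r`-cyclotomic character of any
Galois `Ω/K` containing `ζ_{p^r}` has order divisible by `p^a`. -/
theorem exists_level (a : ℕ) :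
    ∃ r : ℕ, 0 < r ∧ ∀ [NeZero (p ^ r)] (Ω : Type) [Field Ω] [NumberField Ω] [Algebra K Ω]
      [IsGalois K Ω] (ζ : Ω) (hζ : IsPrimitiveRoot ζ (p ^ r)),
      p ^ a ∣ Nat.card (hζ.autToPow K).range := by
  refine ⟨a + (Module.finrank ℚ K).factorization p + 1, Nat.succ_pos _, ?_⟩
  intro _ Ω _ _ _ _ ζ hζ
  rw [card_range_autToPow]
  have hdvd := totient_dvd_finrank_mul K _ Ω ζ hζ
  rw [Nat.totient_prime_pow hp.out (Nat.succ_pos _), Nat.succ_sub_one] at hdvd
  have hd0 : Module.finrank ℚ K ≠ 0 := Module.finrank_pos.ne'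
  have he0 : Module.finrank K (IntermediateField.adjoin K {ζ}) ≠ 0 := Module.finrank_pos.ne'
  have hpow : p ^ (a + (Module.finrank ℚ K).factorization p) ∣
      Module.finrank ℚ K * Module.finrank K (IntermediateField.adjoin K {ζ}) :=
    dvd_trans (dvd_mul_right _ _) hdvd
  rw [hp.out.pow_dvd_iff_le_factorization (Nat.mul_ne_zero hd0 he0),
    Nat.factorization_mul hd0 he0, Finsupp.add_apply] at hpow
  rw [hp.out.pow_dvd_iff_le_factorization he0]
  omega

end Level

end

end Fermat.Agent.PT.GLOB.CycSubLayer23
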