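/-
Program F (S55, Poitou–Tate), chapter GLOB, leaf C3 (helper23): derived hypotheses of the frame
theorems.  From the single field-theoretic fact
  `hcomp : τ ∈ Gal(Ω/F) fixing K₁ pointwise fixes M pointwise`     (i.e. `M ⊆ F·K₁`)
we get that `Gal(M/F) → Gal(K₁/K)` is injective, hence `Gal(M/F)` is cyclic with a generator `σ'`
restricting to `σ ^ d`, `d · ord σ' = ord σ`, and `[M:F]` is a power of `p`.
-/
import Fermat.Agent.PT.GLOB.LayerFrame23

set_option autoImplicit false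
set_option linter.unusedSectionVars false

open CategoryTheory groupCohomology

namespace Fermat.Agent.PT.GLOB.FrameKit23

open NumberField
open Fermat.Agent.PT.GLOB.Interface23 Fermat.Agent.PT.GLOB.ClassAction23
  Fermat.Agent.PT.GLOB.Tower23 Fermat.Agent.PT.GLOB.InterfaceCF23
  Fermat.Agent.PT.GLOB.TowerCohCT23 Fermat.Agent.PT.GLOB.NormSubCT23
  Fermat.Agent.PT.GLOB.CycChar22 Fermat.Agent.PT.GLOB.CycRecShape23
  Fermat.Agent.PT.GLOB.FrameNorm23

noncomputable section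

/-! ### Group theory -/

/-- An injective homomorphism into a finite cyclic group `⟨σ⟩`: the source is cyclic with a
generator `σ'` mapping to `σ ^ d`, where `d · ord σ' = ord σ`. -/
theorem exists_gen_of_injective {G' C : Type*} [Group G'] [Group C] [Finite C] (ρ : G' →* C)
    (hρ : Function.Injective ρ) (σ : C) (hσ : ∀ τ, τ ∈ Subgroup.zpowers σ) :
    ∃ σ' : G', (∀ τ, τ ∈ Subgroup.zpowers σ') ∧
      ∃ d : ℕ, ρ σ' = σ ^ d ∧ d * orderOf σ' = orderOf σ := by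
  have : Finite G' := Finite.of_injective ρ hρ
  have hcomm : ∀ x y : C, x * y = y * x := by
    intro x y
    obtain ⟨i, rfl⟩ := hσ x
    obtain ⟨j, rfl⟩ := hσ y
    exact (Commute.zpow_zpow_self σ i j)
  have : ρ.range.Normal := ⟨fun x hx g => by
    rw [hcomm g x, mul_inv_cancel_right]; exact hx⟩
  obtain ⟨σ', hσ'⟩ := Subgroup.pow_index_mem ρ.range σ
  have hn : orderOf σ = Nat.card C := orderOf_eq_card_of_forall_mem_zpowers hσ
  have hm : Nat.card ρ.range = Nat.card G' :=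
    (Nat.card_congr (MonoidHom.ofInjective hρ).toEquiv).symm
  have hmul : Nat.card G' * ρ.range.index = Nat.card C := by
    rw [← hm]; exact Subgroup.card_mul_index _
  have hidx : ρ.range.index ∣ orderOf σ := by
    rw [hn, ← hmul]; exact dvd_mul_left _ _
  have hord : orderOf σ' = Nat.card G' := by
    rw [← orderOf_injective ρ hρ σ', hσ', orderOf_pow' σ]
    · rw [Nat.gcd_eq_right hidx, hn, ← hmul]
      exact Nat.mul_div_cancel _ (Nat.pos_of_ne_zero (Subgroup.index_ne_zero_of_finite))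
    · exact Subgroup.index_ne_zero_of_finite
  refine ⟨σ', fun τ => ?_, ρ.range.index, hσ', ?_⟩
  · have htop : Subgroup.zpowers σ' = ⊤ := by
      apply Subgroup.eq_top_of_card_eq
      rw [Nat.card_zpowers, hord]
    rw [htop]; exact Subgroup.mem_top _
  · rw [hord, hn, ← hmul, mul_comm]

/-! ### Injectivity of the restriction from `hcomp` -/

section Rho

variable (K F K₁ M Ω : Type) [Field K] [Field F] [Field K₁] [Field M] [Field Ω]
  [Algebra K F] [Algebra K K₁] [Algebra K M] [Algebra F M] [Algebra K₁ M]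
  [IsScalarTower K F M] [IsScalarTower K K₁ M]
  [Algebra F Ω] [Algebra K₁ Ω] [Algebra M Ω] [IsScalarTower F M Ω] [IsScalarTower K₁ M Ω]
  [Normal K K₁] [Normal F M] [Normal F Ω]

/-- `Gal(M/F) → Gal(K₁/K)`. -/
def rho : (M ≃ₐ[F] M) →* (K₁ ≃ₐ[K] K₁) :=
  (AlgEquiv.restrictNormalHom (F := K) (K₁ := M) K₁).comp (galIncl K F M)

theorem rho_apply (τ : M ≃ₐ[F] M) :
    rho K F K₁ M τ = AlgEquiv.restrictNormalHom (F := K) (K₁ := M) K₁ (galIncl K F M τ) := rfl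

theorem rho_injective
    (hcomp : ∀ τ : Ω ≃ₐ[F] Ω, (∀ x : K₁, τ (algebraMap K₁ Ω x) = algebraMap K₁ Ω x) →
      ∀ y : M, τ (algebraMap M Ω y) = algebraMap M Ω y) :
    Function.Injective (rho K F K₁ M) := by
  rw [injective_iff_map_eq_one]
  intro τ hτ
  obtain ⟨τ', rfl⟩ := AlgEquiv.restrictNormalHom_surjective (F := F) (K₁ := M) Ω τ
  have hfix : ∀ x : K₁, τ' (algebraMap K₁ Ω x) = algebraMap K₁ Ω x := by
    intro x
    have e1 : algebraMap K₁ Ω x = algebraMap M Ω (algebraMap K₁ M x) :=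
      IsScalarTower.algebraMap_apply K₁ M Ω x
    have e2 := AlgEquiv.restrictNormal_commutes τ' M (algebraMap K₁ M x)
    have e3 := AlgEquiv.restrictNormal_commutes
      (galIncl K F M (AlgEquiv.restrictNormalHom (F := F) (K₁ := Ω) M τ')) K₁ x
    have e4 : (galIncl K F M (AlgEquiv.restrictNormalHom (F := F) (K₁ := Ω) M τ')).restrictNormal K₁
        = 1 := hτ
    rw [e4] at e3
    rw [e1, ← e2]
    congr 1
    exact e3.symm
  have hM := hcomp τ' hfix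
  ext y
  apply (algebraMap M Ω).injective
  have e2 := AlgEquiv.restrictNormal_commutes τ' M y
  exact e2.trans (hM y)

end Rho

/-! ### Cyclicity and `p`-power degree of `M/F` from `hcomp` -/

section Cyc

variable (p : ℕ) [Fact p.Prime]
variable (K F K₁ M Ω : Type) [Field K] [Field F] [Field K₁] [Field M] [Field Ω]
  [Algebra K F] [Algebra K K₁] [Algebra K M] [Algebra F M] [Algebra K₁ M]
  [IsScalarTower K F M] [IsScalarTower K K₁ M]
  [Algebra F Ω] [Algebra K₁ Ω] [Algebra M Ω] [IsScalarTower F M Ω] [IsScalarTower K₁ M Ω]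
  [FiniteDimensional K K₁] [FiniteDimensional F M]
  [IsGalois K K₁] [IsGalois F M] [Normal F Ω]

theorem exists_gen_of_hcomp
    (hcomp : ∀ τ : Ω ≃ₐ[F] Ω, (∀ x : K₁, τ (algebraMap K₁ Ω x) = algebraMap K₁ Ω x) →
      ∀ y : M, τ (algebraMap M Ω y) = algebraMap M Ω y)
    (σ : K₁ ≃ₐ[K] K₁) (hσ : ∀ τ, τ ∈ Subgroup.zpowers σ) :
    ∃ σ' : M ≃ₐ[F] M, (∀ τ, τ ∈ Subgroup.zpowers σ') ∧ ∃ d : ℕ,
      AlgEquiv.restrictNormalHom (F := K) (K₁ := M) K₁ (galIncl K F M σ') = σ ^ d ∧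
      d * orderOf σ' = orderOf σ :=
  exists_gen_of_injective (rho K F K₁ M) (rho_injective K F K₁ M Ω hcomp) σ hσ

theorem exists_finrank_eq_pow_of_hcomp
    (hcomp : ∀ τ : Ω ≃ₐ[F] Ω, (∀ x : K₁, τ (algebraMap K₁ Ω x) = algebraMap K₁ Ω x) →
      ∀ y : M, τ (algebraMap M Ω y) = algebraMap M Ω y)
    (hpg : ∃ a : ℕ, Module.finrank K K₁ = p ^ a) :
    ∃ a : ℕ, Module.finrank F M = p ^ a := by
  obtain ⟨a, ha⟩ := hpg
  have h1 : Nat.card (M ≃ₐ[F] M) ∣ Nat.card (K₁ ≃ₐ[K] K₁) :=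
    Subgroup.card_dvd_of_injective (rho K F K₁ M) (rho_injective K F K₁ M Ω hcomp)
  rw [IsGalois.card_aut_eq_finrank, IsGalois.card_aut_eq_finrank, ha] at h1
  obtain ⟨b, -, hb⟩ := (Nat.dvd_prime_pow (Fact.out : p.Prime)).mp h1
  exact ⟨b, hb⟩

end Cyc

/-! ### The frame theorems with the derived hypotheses removed -/

variable (S : Finset Nat.Primes) (p : Nat.Primes) (hpS : p ∈ S) (r : ℕ) [NeZero ((p : ℕ) ^ r)]

section Exist

variable (K L K₁ N Ω : Type) [Field K] [Field L] [Field K₁] [Field N] [Field Ω]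
  [NumberField K] [NumberField L] [NumberField K₁] [NumberField N] [NumberField Ω]
  [Algebra K L] [Algebra K K₁] [Algebra K N] [Algebra L N] [Algebra K₁ N]
  [IsScalarTower K L N] [IsScalarTower K K₁ N]
  [Algebra K Ω] [Algebra L Ω] [Algebra K₁ Ω] [Algebra N Ω]
  [IsScalarTower K L Ω] [IsScalarTower K K₁ Ω] [IsScalarTower L N Ω] [IsScalarTower K₁ N Ω]
  [IsGalois K L] [IsGalois K K₁] [IsGalois K N] [IsGalois L N] [IsGalois K Ω] [IsGalois L Ω]

include hpS in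
/-- **Existence of the class** (kit form). -/
theorem exists_class' (hp2 : Odd (p : ℕ))
    {ζ : Ω} (hζ : IsPrimitiveRoot ζ ((p : ℕ) ^ r))
    (hCrit : CycNormCrit S p hpS r) (hCont : CycContain S p hpS r) (hIncl : CycIncl S p hpS r)
    (hunKN : IsUnramifiedOutside S K N)
    (σ : K₁ ≃ₐ[K] K₁) (hσ : ∀ τ, τ ∈ Subgroup.zpowers σ)
    (hcyc₁ : ∀ τ : Ω ≃ₐ[K] Ω, hζ.autToPow K τ = 1 →
      ∀ x : K₁, τ (algebraMap K₁ Ω x) = algebraMap K₁ Ω x)
    (hpg : ∃ a : ℕ, Module.finrank K K₁ = (p : ℕ) ^ a)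
    (hcomp : ∀ τ : Ω ≃ₐ[L] Ω, (∀ x : K₁, τ (algebraMap K₁ Ω x) = algebraMap K₁ Ω x) →
      ∀ y : N, τ (algebraMap N Ω y) = algebraMap N Ω y)
    (j₀ : JT S K)
    (hj₀ : ∀ k : ℕ, (toCT S K j₀) ^ k ∈ normSubCT S K K₁ ↔ Module.finrank K K₁ ∣ k)
    (hdiv : Module.finrank K K₁ ∣ Module.finrank K L) :
    ∃ u : H2 (repCT S K L),
      infH2CT S K L N u = infH2CT S K K₁ N (gkappa S σ hσ (toCT S K j₀)) := by
  have : Fact (p : ℕ).Prime := ⟨p.2⟩
  obtain ⟨σ', hσ', d, hres, hd⟩ := exists_gen_of_hcomp K L K₁ N Ω hcomp σ hσ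
  have hpg' := exists_finrank_eq_pow_of_hcomp (p : ℕ) K L K₁ N Ω hcomp hpg
  exact LayerFrame23.exists_class S p hpS r K L K₁ N Ω hp2 hζ hCrit hCont hIncl hunKN σ hσ σ' hσ'
    hres hd hcyc₁ hpg hpg' hcomp j₀ hj₀ hdiv

end Exist

section Order

variable (K K' L K₁ N' N Ω : Type) [Field K] [Field K'] [Field L] [Field K₁] [Field N'] [Field N]
  [Field Ω]
  [NumberField K] [NumberField K'] [NumberField L] [NumberField K₁] [NumberField N']
  [NumberField N] [NumberField Ω]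
  [Algebra K K'] [Algebra K L] [Algebra K K₁] [Algebra K N'] [Algebra K N]
  [Algebra K' L] [Algebra K' N'] [Algebra K' N] [Algebra L N] [Algebra K₁ N'] [Algebra K₁ N]
  [Algebra N' N]
  [IsScalarTower K K' L] [IsScalarTower K K' N] [IsScalarTower K L N] [IsScalarTower K' L N]
  [IsScalarTower K K' N'] [IsScalarTower K K₁ N'] [IsScalarTower K K₁ N]
  [IsScalarTower K' N' N] [IsScalarTower K₁ N' N] [IsScalarTower K N' N]
  [Algebra K Ω] [Algebra K' Ω] [Algebra K₁ Ω] [Algebra N' Ω] [Algebra L Ω] [Algebra N Ω]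
  [IsScalarTower K K' Ω] [IsScalarTower K K₁ Ω] [IsScalarTower K' N' Ω] [IsScalarTower K₁ N' Ω]
  [IsScalarTower L N Ω] [IsScalarTower K₁ N Ω]
  [IsGalois K L] [IsGalois K' L] [IsGalois K K₁] [IsGalois K' N'] [IsGalois K' N]
  [IsGalois L N] [IsGalois N' N] [IsGalois K Ω] [IsGalois K' Ω] [IsGalois L Ω]

include hpS in
/-- **Order of the restriction** (kit form). -/
theorem addOrderOf_res_eq' (hp2 : Odd (p : ℕ))
    {ζ : Ω} (hζ : IsPrimitiveRoot ζ ((p : ℕ) ^ r))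
    (hCrit : CycNormCrit S p hpS r) (hCont : CycContain S p hpS r) (hIncl : CycIncl S p hpS r)
    (hunKK₁ : IsUnramifiedOutside S K K₁) (hunK'N : IsUnramifiedOutside S K' N)
    (σ : K₁ ≃ₐ[K] K₁) (hσ : ∀ τ, τ ∈ Subgroup.zpowers σ)
    (hpLK' : IsPGroup p (L ≃ₐ[K'] L))
    (hcyc₁ : ∀ τ : Ω ≃ₐ[K] Ω, hζ.autToPow K τ = 1 →
      ∀ x : K₁, τ (algebraMap K₁ Ω x) = algebraMap K₁ Ω x)
    (hpg : ∃ a : ℕ, Module.finrank K K₁ = (p : ℕ) ^ a)
    (hcomp : ∀ τ : Ω ≃ₐ[K'] Ω, (∀ x : K₁, τ (algebraMap K₁ Ω x) = algebraMap K₁ Ω x) →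
      ∀ y : N', τ (algebraMap N' Ω y) = algebraMap N' Ω y)
    (hcompL : ∀ τ : Ω ≃ₐ[L] Ω, (∀ x : K₁, τ (algebraMap K₁ Ω x) = algebraMap K₁ Ω x) →
      ∀ y : N, τ (algebraMap N Ω y) = algebraMap N Ω y)
    (j₀ : JT S K)
    (hj₀ : ∀ k : ℕ, (toCT S K j₀) ^ k ∈ normSubCT S K K₁ ↔ Module.finrank K K₁ ∣ k)
    (u : H2 (repCT S K L))
    (hu : infH2CT S K L N u = infH2CT S K K₁ N (gkappa S σ hσ (toCT S K j₀)))
    (h : ℕ) (harith : ∀ k : ℕ, Module.finrank K K₁ ∣ k * Module.finrank K K' ↔ h ∣ k) :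
    addOrderOf (resH2CT S K K' L u) = h := by
  have : Fact (p : ℕ).Prime := ⟨p.2⟩
  obtain ⟨σ', hσ', d, hres, hd⟩ := exists_gen_of_hcomp K K' K₁ N' Ω hcomp σ hσ
  have hpg' := exists_finrank_eq_pow_of_hcomp (p : ℕ) K K' K₁ N' Ω hcomp hpg
  obtain ⟨b, hb⟩ := exists_finrank_eq_pow_of_hcomp (p : ℕ) K L K₁ N Ω hcompL hpg
  have hpLN : IsPGroup p (N ≃ₐ[L] N) := by
    apply IsPGroup.of_card (n := b)
    rw [IsGalois.card_aut_eq_finrank, hb]
  obtain ⟨c, hc⟩ := IsPGroup.iff_card.mp hpLK'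
  rw [IsGalois.card_aut_eq_finrank] at hc
  have hpN'N : IsPGroup p (N ≃ₐ[N'] N) := by
    have e1 : Module.finrank K' N' * Module.finrank N' N = Module.finrank K' N :=
      Module.finrank_mul_finrank K' N' N
    have e2 : Module.finrank K' L * Module.finrank L N = Module.finrank K' N :=
      Module.finrank_mul_finrank K' L N
    have hdvd : Module.finrank N' N ∣ (p : ℕ) ^ (c + b) := by
      rw [pow_add, ← hc, ← hb, e2, ← e1]
      exact dvd_mul_left _ _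
    obtain ⟨m, -, hm⟩ := (Nat.dvd_prime_pow p.2).mp hdvd
    apply IsPGroup.of_card (n := m)
    rw [IsGalois.card_aut_eq_finrank, hm]
  exact LayerFrame23.addOrderOf_res_eq S p hpS r K K' L K₁ N' N Ω hp2 hζ hCrit hCont hIncl hunKK₁
    hunK'N σ hσ σ' hσ' hres hd hpLN hpN'N hcyc₁ hpg hpg' hcomp j₀ hj₀ u hu h harith

end Order

/-! ### Arithmetic -/

theorem harith_of {p : ℕ} (hp : p.Prime) {n a : ℕ} (hpa : p ^ a ∣ n) (hpa' : ¬ p ^ (a + 1) ∣ n)
    {h m : ℕ} (hh : ∃ b : ℕ, h = p ^ b) (hn : m * h = n) (k : ℕ) :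
    p ^ a ∣ k * m ↔ h ∣ k := by
  obtain ⟨b, rfl⟩ := hh
  have hn0 : n ≠ 0 := by
    rintro rfl
    exact hpa' (dvd_zero _)
  have hm0 : m ≠ 0 := by
    rintro rfl
    exact hn0 (by rw [← hn, zero_mul])
  rcases Nat.eq_zero_or_pos k with rfl | hk
  · simp
  have hk0 : k ≠ 0 := hk.ne'
  have hfa : n.factorization p = a := by
    apply le_antisymm
    · by_contra hlt
      rw [not_le] at hlt
      exact hpa' ((hp.pow_dvd_iff_le_factorization hn0).mpr hlt)
    · exact (hp.pow_dvd_iff_le_factorization hn0).mp hpa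
  have hfn : n.factorization p = m.factorization p + b := by
    rw [← hn, Nat.factorization_mul hm0 (pow_ne_zero _ hp.ne_zero), Finsupp.add_apply,
      hp.factorization_pow, Finsupp.single_eq_same]
  rw [hp.pow_dvd_iff_le_factorization (Nat.mul_ne_zero hk0 hm0),
    hp.pow_dvd_iff_le_factorization hk0, Nat.factorization_mul hk0 hm0, Finsupp.add_apply]
  omega

section Entry

variable (K K' L K₁ N' N Ω : Type) [Field K] [Field K'] [Field L] [Field K₁] [Field N'] [Field N]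
  [Field Ω]
  [NumberField K] [NumberField K'] [NumberField L] [NumberField K₁] [NumberField N']
  [NumberField N] [NumberField Ω]
  [Algebra K K'] [Algebra K L] [Algebra K K₁] [Algebra K N'] [Algebra K N]
  [Algebra K' L] [Algebra K' N'] [Algebra K' N] [Algebra L N] [Algebra K₁ N'] [Algebra K₁ N]
  [Algebra N' N]
  [IsScalarTower K K' L] [IsScalarTower K K' N] [IsScalarTower K L N] [IsScalarTower K' L N]
  [IsScalarTower K K' N'] [IsScalarTower K K₁ N'] [IsScalarTower K K₁ N]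
  [IsScalarTower K' N' N] [IsScalarTower K₁ N' N] [IsScalarTower K N' N]
  [Algebra K Ω] [Algebra K' Ω] [Algebra K₁ Ω] [Algebra N' Ω] [Algebra L Ω] [Algebra N Ω]
  [IsScalarTower K K' Ω] [IsScalarTower K K₁ Ω] [IsScalarTower K' N' Ω] [IsScalarTower K₁ N' Ω]
  [IsScalarTower L N Ω] [IsScalarTower K₁ N Ω]
  [IsGalois K L] [IsGalois K' L] [IsGalois K K₁] [IsGalois K' N'] [IsGalois K' N]
  [IsGalois L N] [IsGalois N' N] [IsGalois K Ω] [IsGalois K' Ω] [IsGalois L Ω]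

include hpS in
/-- **One entry of the family** required by `BridgeGen23.isFundClass_of_family`. -/
theorem family_entry (hp2 : Odd (p : ℕ))
    {ζ : Ω} (hζ : IsPrimitiveRoot ζ ((p : ℕ) ^ r))
    (hCrit : CycNormCrit S p hpS r) (hCont : CycContain S p hpS r) (hIncl : CycIncl S p hpS r)
    (hunKK₁ : IsUnramifiedOutside S K K₁) (hunK'N : IsUnramifiedOutside S K' N)
    (σ : K₁ ≃ₐ[K] K₁) (hσ : ∀ τ, τ ∈ Subgroup.zpowers σ)
    (hcyc₁ : ∀ τ : Ω ≃ₐ[K] Ω, hζ.autToPow K τ = 1 →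
      ∀ x : K₁, τ (algebraMap K₁ Ω x) = algebraMap K₁ Ω x)
    (a : ℕ) (ha : Module.finrank K K₁ = (p : ℕ) ^ a)
    (hdiv : (p : ℕ) ^ a ∣ Module.finrank K L) (hexact : ¬ (p : ℕ) ^ (a + 1) ∣ Module.finrank K L)
    (hcomp : ∀ τ : Ω ≃ₐ[K'] Ω, (∀ x : K₁, τ (algebraMap K₁ Ω x) = algebraMap K₁ Ω x) →
      ∀ y : N', τ (algebraMap N' Ω y) = algebraMap N' Ω y)
    (hcompL : ∀ τ : Ω ≃ₐ[L] Ω, (∀ x : K₁, τ (algebraMap K₁ Ω x) = algebraMap K₁ Ω x) →
      ∀ y : N, τ (algebraMap N Ω y) = algebraMap N Ω y)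
    (j₀ : JT S K)
    (hj₀ : ∀ k : ℕ, (toCT S K j₀) ^ k ∈ normSubCT S K K₁ ↔ Module.finrank K K₁ ∣ k)
    (u : H2 (repCT S K L))
    (hu : infH2CT S K L N u = infH2CT S K K₁ N (gkappa S σ hσ (toCT S K j₀)))
    (H : Subgroup (L ≃ₐ[K] L)) (hH : IsPGroup p H) (hrange : (galIncl K K' L).range = H) :
    (galIncl K K' L).range = H ∧ Subsingleton (H1 (repCT S K' L)) ∧
      Nat.card (H2 (repCT S K' L)) ∣ Nat.card H ∧
      addOrderOf (resH2CT S K K' L u) = Nat.card H := by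
  have : Fact (p : ℕ).Prime := ⟨p.2⟩
  subst hrange
  have hinj : Function.Injective (galIncl K K' L) := AlgEquiv.restrictScalarsHom_injective K
  have hcardH : Nat.card (galIncl K K' L).range = Module.finrank K' L := by
    rw [← IsGalois.card_aut_eq_finrank]
    exact (Nat.card_congr (MonoidHom.ofInjective hinj).toEquiv).symm
  have hpLK' : IsPGroup p (L ≃ₐ[K'] L) :=
    hH.of_injective (galIncl K K' L).rangeRestrict
      ((galIncl K K' L).rangeRestrict_injective_iff.mpr hinj)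
  have hunK'L : IsUnramifiedOutside S K' L := Devissage19.isUnramifiedOutside_bot S K' L N hunK'N
  have hD := InequalitiesFinal24.devissage_pgroup (p : ℕ) S p.2 hp2 ⟨p, hpS, rfl⟩ K' L hunK'L hpLK'
  obtain ⟨c, hc⟩ := IsPGroup.iff_card.mp hpLK'
  rw [IsGalois.card_aut_eq_finrank] at hc
  refine ⟨rfl, hD.1, ?_, ?_⟩
  · rw [hcardH]; exact hD.2.2
  · rw [hcardH]
    apply addOrderOf_res_eq' S p hpS r K K' L K₁ N' N Ω hp2 hζ hCrit hCont hIncl hunKK₁ hunK'N σ hσ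
      hpLK' hcyc₁ ⟨a, ha⟩ hcomp hcompL j₀ hj₀ u hu
    intro k
    rw [ha]
    exact harith_of p.2 hdiv hexact ⟨c, hc⟩ (Module.finrank_mul_finrank K K' L) k

end Entry

end

end Fermat.Agent.PT.GLOB.FrameKit23
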