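/-
Program F (S55, Poitou–Tate), chapter GLOB, leaf (C3-C) — helper6.

**Field plumbing inside one Galois extension `Ω/K`** (for the construction of the global
fundamental classes, `FrameKit23`).

1. `subHom X Y Ω h` : the unique ring hom `X → Y` compatible with the maps to a common top field `Ω`
   (when the image of `X` is contained in the image of `Y`), `subAlgebra`,
   `isScalarTower_subAlgebra`, and `isScalarTower_of_top` (ALL scalar towers among subfields of `Ω`
   follow from the towers to `Ω`).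
2. `normal_of_stable`, `isGalois_of_stable` : a layer `Y/X` inside a Galois `Ω/X` is Galois as soon
   as the image of `Y` is stable under `Gal(Ω/X)`.
3. The compositum model: for `E : IntermediateField K Ω` and a base `F` (any type with
   `[Algebra F Ω]`), `comp F E := adjoin F E : IntermediateField F Ω` with SCOPED instances
   (`open scoped Fermat.Agent.PT.GLOB.GalLayers6`) `Algebra E (comp F E)`,
   `Algebra (comp F₁ E) (comp F₂ E)` (for `F₁ → F₂`), all the scalar towers needed by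
   `FrameKit23` (sections `Exist`/`Entry` with `K₁ := E`, `N' := comp K' E`, `N := comp L E`),
   `stable_comp`, `isGalois_comp`, `fixes_comp` (= the hypothesis `hcomp`).
4. The fixed-field model: `Fx K Ω A := fixedField A` for `A ≤ Gal(Ω/K)`, with Fact-based scoped
   instances `Algebra (Fx B) (Fx A)` (`[Fact (A ≤ B)]`), towers, `isGalois_fix`, `finrank_fix`
   (`= A.relIndex B`), `toGal A B : B →* Gal(Ω^A/Ω^B)` (surjective, kernel `A`), `galEquiv`,
   `galIncl_toGal`, `restrictNormalHom_toGal`, `isUnramifiedOutside_fix`, and the analogues over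
   the base `K`.
-/
import Mathlib
import Fermat.Agent.PT.GLOB.TowerCohCT23
import Fermat.Agent.PT.GLOB.Devissage19

set_option autoImplicit false
set_option linter.unusedSectionVars false

namespace Fermat.Agent.PT.GLOB.GalLayers6

open Fermat.Agent.PT.GLOB.Interface23 Fermat.Agent.PT.GLOB.InterfaceCF23

noncomputable section

/-! ### 1. The canonical map between two subfields of a common top field -/

section SubHom

variable (X Y Ω : Type*) [Field X] [Field Y] [Field Ω] [Algebra X Ω] [Algebra Y Ω]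

/-- The underlying function of `subHom`. -/
def subFun (h : (algebraMap X Ω).range ≤ (algebraMap Y Ω).range) (x : X) : Y :=
  Classical.choose (RingHom.mem_range.mp (h ⟨x, rfl⟩))

theorem algebraMap_subFun (h : (algebraMap X Ω).range ≤ (algebraMap Y Ω).range) (x : X) :
    algebraMap Y Ω (subFun X Y Ω h x) = algebraMap X Ω x :=
  Classical.choose_spec (RingHom.mem_range.mp (h ⟨x, rfl⟩))

/-- If the image of `X` in `Ω` is contained in the image of `Y`, the unique ring homomorphism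
`X → Y` compatible with the maps to `Ω`. -/
def subHom (h : (algebraMap X Ω).range ≤ (algebraMap Y Ω).range) : X →+* Y where
  toFun := subFun X Y Ω h
  map_one' := (algebraMap Y Ω).injective (by rw [algebraMap_subFun, map_one, map_one])
  map_mul' a b := (algebraMap Y Ω).injective (by
    rw [algebraMap_subFun, map_mul, map_mul, algebraMap_subFun, algebraMap_subFun])
  map_zero' := (algebraMap Y Ω).injective (by rw [algebraMap_subFun, map_zero, map_zero])
  map_add' a b := (algebraMap Y Ω).injective (by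
    rw [algebraMap_subFun, map_add, map_add, algebraMap_subFun, algebraMap_subFun])

theorem algebraMap_subHom (h : (algebraMap X Ω).range ≤ (algebraMap Y Ω).range) (x : X) :
    algebraMap Y Ω (subHom X Y Ω h x) = algebraMap X Ω x := algebraMap_subFun X Y Ω h x

/-- `Y` as an `X`-algebra, through `subHom`. -/
@[reducible] def subAlgebra (h : (algebraMap X Ω).range ≤ (algebraMap Y Ω).range) : Algebra X Y :=
  (subHom X Y Ω h).toAlgebra

theorem isScalarTower_subAlgebra (h : (algebraMap X Ω).range ≤ (algebraMap Y Ω).range) :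
    letI := subAlgebra X Y Ω h
    IsScalarTower X Y Ω := by
  let _ := subAlgebra X Y Ω h
  exact IsScalarTower.of_algebraMap_eq (fun x => (algebraMap_subHom X Y Ω h x).symm)

end SubHom

/-- **All scalar towers below a common top field**: if `X`, `Y`, `Z` all map compatibly to `Ω` and
`Z → Ω` is injective then `X → Y → Z` is a scalar tower. -/
theorem isScalarTower_of_top (X Y Z Ω : Type*) [CommSemiring X] [CommSemiring Y] [CommSemiring Z]
    [CommSemiring Ω] [Algebra X Y] [Algebra Y Z] [Algebra X Z] [Algebra X Ω] [Algebra Y Ω]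
    [Algebra Z Ω] [IsScalarTower X Y Ω] [IsScalarTower Y Z Ω] [IsScalarTower X Z Ω]
    (hinj : Function.Injective (algebraMap Z Ω)) : IsScalarTower X Y Z :=
  IsScalarTower.of_algebraMap_eq (fun x => hinj (by
    rw [← IsScalarTower.algebraMap_apply X Z Ω, ← IsScalarTower.algebraMap_apply Y Z Ω,
      ← IsScalarTower.algebraMap_apply X Y Ω]))

/-! ### 2. Normality of a layer inside a normal extension -/

section Normal

variable (X Y Ω : Type*) [Field X] [Field Y] [Field Ω] [Algebra X Y] [Algebra Y Ω] [Algebra X Ω]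
  [IsScalarTower X Y Ω]

/-- If `Ω/X` is normal and the image of `Y` in `Ω` is stable under `Gal(Ω/X)` then `Y/X` is
normal. -/
theorem normal_of_stable [Normal X Ω]
    (h : ∀ (σ : Ω ≃ₐ[X] Ω) (y : Y), σ (algebraMap Y Ω y) ∈ (algebraMap Y Ω).range) :
    Normal X Y := by
  let E : IntermediateField X Ω := (IsScalarTower.toAlgHom X Y Ω).fieldRange
  have hE : Normal X E := by
    rw [IntermediateField.normal_iff_forall_map_le']
    rintro σ _ ⟨z, ⟨y, rfl⟩, rfl⟩
    obtain ⟨y', hy'⟩ := RingHom.mem_range.mp (h σ y)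
    exact ⟨y', hy'⟩
  let e : Y ≃ₐ[X] E := AlgEquiv.ofInjectiveField (IsScalarTower.toAlgHom X Y Ω)
  exact Normal.of_algEquiv e.symm

/-- Galois version (separability is inherited from `Ω/X`). -/
theorem isGalois_of_stable [IsGalois X Ω]
    (h : ∀ (σ : Ω ≃ₐ[X] Ω) (y : Y), σ (algebraMap Y Ω y) ∈ (algebraMap Y Ω).range) :
    IsGalois X Y :=
  { to_normal := normal_of_stable X Y Ω h
    to_isSeparable := Algebra.isSeparable_tower_bot_of_isSeparable X Y Ω }

end Normal

/-! ### 3. The compositum model -/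

section Model

variable {Ω : Type} [Field Ω]

/-- The compositum `F·E` inside `Ω`, as an intermediate field of `Ω/F`. -/
def comp (F : Type) [Field F] [Algebra F Ω] {K : Type} [Field K] [Algebra K Ω]
    (E : IntermediateField K Ω) : IntermediateField F Ω :=
  IntermediateField.adjoin F (E : Set Ω)

variable (F F₁ F₂ : Type) [Field F] [Field F₁] [Field F₂] [Algebra F Ω] [Algebra F₁ Ω] [Algebra F₂ Ω]
variable {K : Type} [Field K] [Algebra K Ω] (E : IntermediateField K Ω)

theorem mem_comp_of_mem {x : Ω} (hx : x ∈ E) : x ∈ comp F E :=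
  IntermediateField.subset_adjoin F _ hx

theorem range_le_comp : (algebraMap E Ω).range ≤ (algebraMap (comp F E) Ω).range := by
  rintro _ ⟨x, rfl⟩
  exact ⟨⟨(x : Ω), mem_comp_of_mem F E x.2⟩, rfl⟩

/-- `F·E` as an `E`-algebra. -/
scoped instance algebraComp : Algebra E (comp F E) := subAlgebra E (comp F E) Ω (range_le_comp F E)

scoped instance towerCompTop : IsScalarTower E (comp F E) Ω :=
  isScalarTower_subAlgebra E (comp F E) Ω (range_le_comp F E)

theorem coe_algebraMap_comp (x : E) : ((algebraMap E (comp F E) x : comp F E) : Ω) = (x : Ω) :=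
  algebraMap_subHom E (comp F E) Ω (range_le_comp F E) x

variable [Algebra F₁ F₂] [IsScalarTower F₁ F₂ Ω]

theorem comp_le_comp {x : Ω} (hx : x ∈ comp F₁ E) : x ∈ comp F₂ E := by
  have h : comp F₁ E ≤ (comp F₂ E).restrictScalars F₁ := by
    unfold comp
    rw [IntermediateField.adjoin_le_iff]
    intro y hy
    exact IntermediateField.subset_adjoin F₂ _ hy
  exact h hx

theorem range_comp_le_comp :
    (algebraMap (comp F₁ E) Ω).range ≤ (algebraMap (comp F₂ E) Ω).range := by
  rintro _ ⟨x, rfl⟩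
  exact ⟨⟨(x : Ω), comp_le_comp F₁ F₂ E x.2⟩, rfl⟩

/-- `F₂·E` as an `F₁·E`-algebra. -/
scoped instance algebraCompComp : Algebra (comp F₁ E) (comp F₂ E) :=
  subAlgebra (comp F₁ E) (comp F₂ E) Ω (range_comp_le_comp F₁ F₂ E)

scoped instance towerCompCompTop : IsScalarTower (comp F₁ E) (comp F₂ E) Ω :=
  isScalarTower_subAlgebra (comp F₁ E) (comp F₂ E) Ω (range_comp_le_comp F₁ F₂ E)

theorem coe_algebraMap_comp_comp (x : comp F₁ E) :
    ((algebraMap (comp F₁ E) (comp F₂ E) x : comp F₂ E) : Ω) = (x : Ω) :=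
  algebraMap_subHom (comp F₁ E) (comp F₂ E) Ω (range_comp_le_comp F₁ F₂ E) x

end Model

section Towers

variable {Ω : Type} [Field Ω]

/-- An intermediate field of `Ω/F` as an `R`-algebra for `R → F`: tower to the top. -/
scoped instance towerBaseTop (R F : Type) [CommSemiring R] [Field F] [Algebra F Ω] [SMul R F]
    [Algebra R Ω] [IsScalarTower R F Ω] (S : IntermediateField F Ω) : IsScalarTower R S Ω :=
  IsScalarTower.of_algebraMap_eq (fun _ => rfl)

variable (K K' L : Type) [Field K] [Field K'] [Field L]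
  [Algebra K K'] [Algebra K' L] [Algebra K L] [IsScalarTower K K' L]
  [Algebra K Ω] [Algebra K' Ω] [Algebra L Ω] [IsScalarTower K K' Ω] [IsScalarTower K L Ω]
  [IsScalarTower K' L Ω] (S : IntermediateField L Ω)

/-- `K → K' → S` for `S` an intermediate field of `Ω/L`, `K ⊂ K' ⊂ L`. -/
scoped instance towerBaseBase : IsScalarTower K K' S :=
  isScalarTower_of_top K K' S Ω (algebraMap S Ω).injective

end Towers

section MoreTowers

variable {Ω : Type} [Field Ω]
variable (F₁ F₂ : Type) [Field F₁] [Field F₂] [Algebra F₁ Ω] [Algebra F₂ Ω]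
  [Algebra F₁ F₂] [IsScalarTower F₁ F₂ Ω]
variable {K : Type} [Field K] [Algebra K Ω] (E : IntermediateField K Ω)

scoped instance towerBaseCompComp : IsScalarTower F₁ (comp F₁ E) (comp F₂ E) :=
  isScalarTower_of_top F₁ (comp F₁ E) (comp F₂ E) Ω (algebraMap (comp F₂ E) Ω).injective

scoped instance towerECompComp : IsScalarTower E (comp F₁ E) (comp F₂ E) :=
  isScalarTower_of_top E (comp F₁ E) (comp F₂ E) Ω (algebraMap (comp F₂ E) Ω).injective

variable [Algebra K F₁] [IsScalarTower K F₁ Ω]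

scoped instance towerKEComp : IsScalarTower K E (comp F₁ E) :=
  isScalarTower_of_top K E (comp F₁ E) Ω (algebraMap (comp F₁ E) Ω).injective

variable [Algebra K F₂] [IsScalarTower K F₂ Ω]

scoped instance towerKCompComp : IsScalarTower K (comp F₁ E) (comp F₂ E) :=
  isScalarTower_of_top K (comp F₁ E) (comp F₂ E) Ω (algebraMap (comp F₂ E) Ω).injective

end MoreTowers

section Galois

variable {Ω : Type} [Field Ω]
variable (F₁ F₂ : Type) [Field F₁] [Field F₂] [Algebra F₁ Ω] [Algebra F₂ Ω]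
  [Algebra F₁ F₂] [IsScalarTower F₁ F₂ Ω]
variable {K : Type} [Field K] [Algebra K Ω] (E : IntermediateField K Ω)
  [Algebra K F₁] [IsScalarTower K F₁ Ω]

/-- A normal intermediate field of a normal extension is stable under all automorphisms. -/
theorem stable_of_normal [Normal K Ω] [Normal K E] (τ : Ω ≃ₐ[K] Ω) (x : Ω) (hx : x ∈ E) :
    τ x ∈ E := by
  have h := IntermediateField.normal_iff_forall_map_le'.mp (inferInstance : Normal K E) τ
  exact h ⟨x, hx, rfl⟩

/-- `F₂·E` is stable under `Gal(Ω/F₁)` when `F₂/F₁` is normal and `E` is stable under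
`Gal(Ω/K)`. -/
theorem stable_comp [Normal F₁ F₂] (hE : ∀ (τ : Ω ≃ₐ[K] Ω) (x : Ω), x ∈ E → τ x ∈ E)
    (σ : Ω ≃ₐ[F₁] Ω) {y : Ω} (hy : y ∈ comp F₂ E) : σ y ∈ comp F₂ E := by
  unfold comp at hy ⊢
  induction hy using IntermediateField.adjoin_induction with
  | mem x hx => exact IntermediateField.subset_adjoin _ _ (hE (σ.restrictScalars K) x hx)
  | algebraMap l =>
    rw [← AlgEquiv.restrictNormal_commutes σ F₂ l]
    exact IntermediateField.algebraMap_mem _ _
  | add x y hx hy ihx ihy => rw [map_add]; exact add_mem ihx ihy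
  | inv x hx ih => rw [map_inv₀]; exact inv_mem ih
  | mul x y hx hy ihx ihy => rw [map_mul]; exact mul_mem ihx ihy

/-- `F₂·E / F₁` is Galois. -/
theorem isGalois_comp [IsGalois F₁ Ω] [Normal F₁ F₂]
    (hE : ∀ (τ : Ω ≃ₐ[K] Ω) (x : Ω), x ∈ E → τ x ∈ E) : IsGalois F₁ (comp F₂ E) :=
  isGalois_of_stable F₁ (comp F₂ E) Ω
    (fun σ y => ⟨⟨σ (y : Ω), stable_comp F₁ F₂ E hE σ y.2⟩, rfl⟩)

end Galois

section Fixes

variable {Ω : Type} [Field Ω]
variable (F : Type) [Field F] [Algebra F Ω]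
variable {K : Type} [Field K] [Algebra K Ω] (E : IntermediateField K Ω)

/-- An automorphism of `Ω/F` fixing `E` pointwise fixes `F·E` pointwise (the hypothesis `hcomp` of
`FrameKit23`). -/
theorem fixes_comp (τ : Ω ≃ₐ[F] Ω) (h : ∀ x : E, τ (algebraMap E Ω x) = algebraMap E Ω x)
    (y : comp F E) : τ (algebraMap (comp F E) Ω y) = algebraMap (comp F E) Ω y := by
  obtain ⟨y, hy⟩ := y
  change τ y = y
  unfold comp at hy
  induction hy using IntermediateField.adjoin_induction with
  | mem x hx => exact h ⟨x, hx⟩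
  | algebraMap l => exact τ.commutes l
  | add x y hx hy ihx ihy => rw [map_add, ihx, ihy]
  | inv x hx ih => rw [map_inv₀, ih]
  | mul x y hx hy ihx ihy => rw [map_mul, ihx, ihy]

end Fixes

/-! ### 4. Fixed fields of subgroups of one Galois group -/

section Fix

variable (K Ω : Type) [Field K] [Field Ω] [Algebra K Ω]

/-- The fixed field of a subgroup `A ≤ Gal(Ω/K)`. -/
abbrev Fx (A : Subgroup (Ω ≃ₐ[K] Ω)) : IntermediateField K Ω := IntermediateField.fixedField A

variable {K Ω}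
variable (A B C : Subgroup (Ω ≃ₐ[K] Ω))

theorem mem_Fx_iff (x : Ω) : x ∈ Fx K Ω A ↔ ∀ a ∈ A, a x = x :=
  ⟨fun h a ha => h ⟨a, ha⟩, fun h a => h a.1 a.2⟩

/-- The inclusion `Ω^B → Ω^A` for `A ≤ B`. -/
def fixIncl [h : Fact (A ≤ B)] : Fx K Ω B →ₐ[K] Fx K Ω A :=
  IntermediateField.inclusion (IntermediateField.fixedField_le h.out)

/-- `Ω^A` as an algebra over `Ω^B`, `A ≤ B`. -/
scoped instance algebraFix [Fact (A ≤ B)] : Algebra (Fx K Ω B) (Fx K Ω A) :=
  (fixIncl A B).toRingHom.toAlgebra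

theorem coe_algebraMap_fix [Fact (A ≤ B)] (x : Fx K Ω B) :
    ((algebraMap (Fx K Ω B) (Fx K Ω A) x : Fx K Ω A) : Ω) = (x : Ω) := rfl

scoped instance towerFixTop [Fact (A ≤ B)] : IsScalarTower (Fx K Ω B) (Fx K Ω A) Ω :=
  IsScalarTower.of_algebraMap_eq (fun _ => rfl)

scoped instance towerBaseFix [Fact (A ≤ B)] : IsScalarTower K (Fx K Ω B) (Fx K Ω A) :=
  IsScalarTower.of_algebraMap_eq (fun _ => rfl)

scoped instance towerFixFix [Fact (A ≤ B)] [Fact (B ≤ C)] [Fact (A ≤ C)] :
    IsScalarTower (Fx K Ω C) (Fx K Ω B) (Fx K Ω A) :=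
  IsScalarTower.of_algebraMap_eq (fun _ => rfl)

variable [FiniteDimensional K Ω]

theorem restrictScalars_mem (σ : Ω ≃ₐ[Fx K Ω B] Ω) : σ.restrictScalars K ∈ B := by
  have h : σ.restrictScalars K ∈ (Fx K Ω B).fixingSubgroup := by
    rw [IntermediateField.mem_fixingSubgroup_iff]
    intro x hx
    exact σ.commutes ⟨x, hx⟩
  rwa [IntermediateField.fixingSubgroup_fixedField] at h

/-- `Ω^A` is stable under `Gal(Ω/Ω^B)` when `A` is normalised by `B`. -/
theorem stable_fix (hn : ∀ b ∈ B, ∀ a ∈ A, b⁻¹ * a * b ∈ A) (σ : Ω ≃ₐ[Fx K Ω B] Ω) (y : Ω)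
    (hy : y ∈ Fx K Ω A) : σ y ∈ Fx K Ω A := by
  rw [mem_Fx_iff] at hy ⊢
  intro a ha
  have h1 := hy _ (hn _ (restrictScalars_mem B σ) a ha)
  have h2 : (σ.restrictScalars K)⁻¹ (a (σ y)) = y := h1
  have h3 := congrArg (σ.restrictScalars K) h2
  rw [← AlgEquiv.mul_apply, mul_inv_cancel, AlgEquiv.one_apply] at h3
  exact h3

variable [IsGalois K Ω]

/-- `Ω^A / Ω^B` is Galois when `A ≤ B` is normalised by `B`. -/
theorem isGalois_fix [Fact (A ≤ B)] (hn : ∀ b ∈ B, ∀ a ∈ A, b⁻¹ * a * b ∈ A) :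
    IsGalois (Fx K Ω B) (Fx K Ω A) :=
  isGalois_of_stable (Fx K Ω B) (Fx K Ω A) Ω
    (fun σ y => ⟨⟨σ (y : Ω), stable_fix A B hn σ y y.2⟩, rfl⟩)

theorem isGalois_fix_of_normal [Fact (A ≤ B)] [A.Normal] : IsGalois (Fx K Ω B) (Fx K Ω A) :=
  isGalois_fix A B (fun b _ a ha => by
    have := (inferInstance : A.Normal).conj_mem a ha b⁻¹
    rwa [inv_inv] at this)

/-- The degree `[Ω^A : Ω^B] = [B : A]`. -/
theorem finrank_fix [Fact (A ≤ B)] : Module.finrank (Fx K Ω B) (Fx K Ω A) = A.relIndex B := by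
  have h1 := Module.finrank_mul_finrank (Fx K Ω B) (Fx K Ω A) Ω
  rw [IntermediateField.finrank_fixedField_eq_card, IntermediateField.finrank_fixedField_eq_card]
    at h1
  have h2 : A.relIndex B * Nat.card A = Nat.card B := by
    have h3 := (A.subgroupOf B).card_mul_index
    rw [Nat.card_congr (Subgroup.subgroupOfEquivOfLe (Fact.out : A ≤ B)).toEquiv] at h3
    rw [mul_comm]
    exact h3
  have hpos : 0 < Nat.card A := Nat.card_pos
  exact Nat.eq_of_mul_eq_mul_right hpos (h1.trans h2.symm)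

scoped instance finiteDimensionalFix [Fact (A ≤ B)] :
    FiniteDimensional (Fx K Ω B) (Fx K Ω A) :=
  FiniteDimensional.left (Fx K Ω B) (Fx K Ω A) Ω

/-! #### The Galois group of a layer, on the subgroup side -/

/-- `B → Gal(Ω^A/Ω^B)`, `b ↦ b|_{Ω^A}`. -/
def toGal [Fact (A ≤ B)] [Normal (Fx K Ω B) (Fx K Ω A)] :
    B →* (Fx K Ω A ≃ₐ[Fx K Ω B] Fx K Ω A) :=
  (AlgEquiv.restrictNormalHom (F := Fx K Ω B) (K₁ := Ω) (Fx K Ω A)).comp
    (IntermediateField.subgroupEquivAlgEquiv B).toMonoidHom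

theorem toGal_apply [Fact (A ≤ B)] [Normal (Fx K Ω B) (Fx K Ω A)] (b : B) (x : Fx K Ω A) :
    ((toGal A B b x : Fx K Ω A) : Ω) = (b : Ω ≃ₐ[K] Ω) (x : Ω) :=
  AlgEquiv.restrictNormal_commutes (IntermediateField.subgroupEquivAlgEquiv B b) (Fx K Ω A) x

theorem toGal_surjective [Fact (A ≤ B)] [Normal (Fx K Ω B) (Fx K Ω A)] :
    Function.Surjective (toGal A B) := by
  intro τ
  obtain ⟨σ, hσ⟩ := AlgEquiv.restrictNormalHom_surjective (F := Fx K Ω B) (K₁ := Fx K Ω A) Ω τ
  obtain ⟨b, rfl⟩ := (IntermediateField.subgroupEquivAlgEquiv B).surjective σ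
  exact ⟨b, hσ⟩

theorem toGal_eq_one_iff [Fact (A ≤ B)] [Normal (Fx K Ω B) (Fx K Ω A)] (b : B) :
    toGal A B b = 1 ↔ (b : Ω ≃ₐ[K] Ω) ∈ A := by
  constructor
  · intro h
    have h1 : (b : Ω ≃ₐ[K] Ω) ∈ (Fx K Ω A).fixingSubgroup := by
      rw [IntermediateField.mem_fixingSubgroup_iff]
      intro x hx
      have h2 := toGal_apply A B b ⟨x, hx⟩
      rw [h] at h2
      exact h2.symm
    rwa [IntermediateField.fixingSubgroup_fixedField] at h1
  · intro h
    ext x
    rw [toGal_apply]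
    exact x.2 ⟨_, h⟩

theorem ker_toGal [Fact (A ≤ B)] [Normal (Fx K Ω B) (Fx K Ω A)] :
    (toGal A B).ker = A.subgroupOf B := by
  ext b
  rw [MonoidHom.mem_ker, toGal_eq_one_iff, Subgroup.mem_subgroupOf]

/-- `Gal(Ω^A/Ω^B) ≃* B ⧸ A`. -/
def galEquiv [Fact (A ≤ B)] [Normal (Fx K Ω B) (Fx K Ω A)] [(A.subgroupOf B).Normal] :
    B ⧸ A.subgroupOf B ≃* (Fx K Ω A ≃ₐ[Fx K Ω B] Fx K Ω A) :=
  (QuotientGroup.quotientMulEquivOfEq (ker_toGal A B).symm).trans
    (QuotientGroup.quotientKerEquivOfSurjective (toGal A B) (toGal_surjective A B))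

theorem galEquiv_mk [Fact (A ≤ B)] [Normal (Fx K Ω B) (Fx K Ω A)] [(A.subgroupOf B).Normal]
    (b : B) : galEquiv A B (QuotientGroup.mk b) = toGal A B b := rfl

theorem card_gal_fix [Fact (A ≤ B)] [IsGalois (Fx K Ω B) (Fx K Ω A)] :
    Nat.card (Fx K Ω A ≃ₐ[Fx K Ω B] Fx K Ω A) = A.relIndex B := by
  rw [IsGalois.card_aut_eq_finrank, finrank_fix]

/-! #### Inclusion and restriction of Galois groups on the subgroup side; ramification -/

section Compat

variable [NumberField K] [NumberField Ω]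

theorem galIncl_toGal [Fact (A ≤ B)] [Fact (B ≤ C)] [Fact (A ≤ C)]
    [Normal (Fx K Ω B) (Fx K Ω A)] [Normal (Fx K Ω C) (Fx K Ω A)] (b : B) :
    galIncl (Fx K Ω C) (Fx K Ω B) (Fx K Ω A) (toGal A B b) =
      toGal A C ⟨(b : Ω ≃ₐ[K] Ω), (Fact.out : B ≤ C) b.2⟩ := by
  ext x
  change ((toGal A B b x : Fx K Ω A) : Ω) = _
  rw [toGal_apply, toGal_apply]

theorem restrictNormalHom_toGal [Fact (A ≤ B)] [Fact (B ≤ C)] [Fact (A ≤ C)]
    [Normal (Fx K Ω C) (Fx K Ω A)] [Normal (Fx K Ω C) (Fx K Ω B)] (c : C) :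
    AlgEquiv.restrictNormalHom (F := Fx K Ω C) (K₁ := Fx K Ω A) (Fx K Ω B) (toGal A C c) =
      toGal B C c := by
  ext x
  have h1 := AlgEquiv.restrictNormal_commutes (toGal A C c) (Fx K Ω B) x
  have h2 := congrArg (fun z : Fx K Ω A => (z : Ω)) h1
  simp only [coe_algebraMap_fix] at h2
  change (((toGal A C c).restrictNormal (Fx K Ω B) x : Fx K Ω B) : Ω) = _
  rw [h2, toGal_apply, toGal_apply]
  rfl

/-- Every layer inside `Ω` is unramified outside `S` if `Ω/K` is. -/
theorem isUnramifiedOutside_fix (S : Finset Nat.Primes) [Fact (A ≤ B)]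
    [IsGalois (Fx K Ω B) (Fx K Ω A)] (h : IsUnramifiedOutside S K Ω) :
    IsUnramifiedOutside S (Fx K Ω B) (Fx K Ω A) :=
  Devissage19.isUnramifiedOutside_bot S (Fx K Ω B) (Fx K Ω A) Ω
    (Devissage19.isUnramifiedOutside_top S K (Fx K Ω B) Ω h)

/-! #### Layers over the base field `K` itself -/

theorem restrictNormalHom_coe [Normal K (Fx K Ω A)] (g : Ω ≃ₐ[K] Ω) (x : Fx K Ω A) :
    ((AlgEquiv.restrictNormalHom (F := K) (K₁ := Ω) (Fx K Ω A) g x : Fx K Ω A) : Ω) =
      g (x : Ω) :=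
  AlgEquiv.restrictNormal_commutes g (Fx K Ω A) x

theorem restrictNormalHom_eq_one_iff [Normal K (Fx K Ω A)] (g : Ω ≃ₐ[K] Ω) :
    AlgEquiv.restrictNormalHom (F := K) (K₁ := Ω) (Fx K Ω A) g = 1 ↔ g ∈ A := by
  have h := IntermediateField.restrictNormalHom_ker (Fx K Ω A)
  rw [IntermediateField.fixingSubgroup_fixedField] at h
  constructor
  · intro hg
    have : g ∈ (AlgEquiv.restrictNormalHom (F := K) (K₁ := Ω) (Fx K Ω A)).ker :=
      MonoidHom.mem_ker.mpr hg
    rwa [h] at this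
  · intro hg
    have : g ∈ (AlgEquiv.restrictNormalHom (F := K) (K₁ := Ω) (Fx K Ω A)).ker := by
      rw [h]; exact hg
    exact MonoidHom.mem_ker.mp this

theorem galIncl_toGal_base [Fact (A ≤ B)] [Normal (Fx K Ω B) (Fx K Ω A)] [Normal K (Fx K Ω A)]
    (b : B) :
    galIncl K (Fx K Ω B) (Fx K Ω A) (toGal A B b) =
      AlgEquiv.restrictNormalHom (F := K) (K₁ := Ω) (Fx K Ω A) (b : Ω ≃ₐ[K] Ω) := by
  ext x
  change ((toGal A B b x : Fx K Ω A) : Ω) =
    ((AlgEquiv.restrictNormalHom (F := K) (K₁ := Ω) (Fx K Ω A) (b : Ω ≃ₐ[K] Ω) x : Fx K Ω A) : Ω)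
  rw [toGal_apply, restrictNormalHom_coe]

theorem restrictNormalHom_restrictNormalHom [Fact (A ≤ B)] [Normal K (Fx K Ω A)]
    [Normal K (Fx K Ω B)] (g : Ω ≃ₐ[K] Ω) :
    AlgEquiv.restrictNormalHom (F := K) (K₁ := Fx K Ω A) (Fx K Ω B)
        (AlgEquiv.restrictNormalHom (F := K) (K₁ := Ω) (Fx K Ω A) g) =
      AlgEquiv.restrictNormalHom (F := K) (K₁ := Ω) (Fx K Ω B) g := by
  ext x
  have h1 := AlgEquiv.restrictNormal_commutes
    (AlgEquiv.restrictNormalHom (F := K) (K₁ := Ω) (Fx K Ω A) g) (Fx K Ω B) x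
  have h2 := congrArg (fun z : Fx K Ω A => (z : Ω)) h1
  simp only [coe_algebraMap_fix] at h2
  change (((AlgEquiv.restrictNormalHom (F := K) (K₁ := Ω) (Fx K Ω A) g).restrictNormal
    (Fx K Ω B) x : Fx K Ω B) : Ω) = _
  rw [h2, restrictNormalHom_coe, restrictNormalHom_coe]
  rfl

theorem finrank_base : Module.finrank K (Fx K Ω A) = A.index := by
  have h1 := Module.finrank_mul_finrank K (Fx K Ω A) Ω
  rw [IntermediateField.finrank_fixedField_eq_card, ← IsGalois.card_aut_eq_finrank K Ω] at h1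
  have h2 : A.index * Nat.card A = Nat.card (Ω ≃ₐ[K] Ω) := A.index_mul_card
  have hpos : 0 < Nat.card A := Nat.card_pos
  exact Nat.eq_of_mul_eq_mul_right hpos (h1.trans h2.symm)

theorem isUnramifiedOutside_base (S : Finset Nat.Primes) [IsGalois K (Fx K Ω A)]
    (h : IsUnramifiedOutside S K Ω) : IsUnramifiedOutside S K (Fx K Ω A) :=
  Devissage19.isUnramifiedOutside_bot S K (Fx K Ω A) Ω h

end Compat

end Fix

end

end Fermat.Agent.PT.GLOB.GalLayers6
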