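/-
Program F (S55), chapter GLOB, helper19: **Kummer theory for exponent `p`** (general fields).

`K` a field containing a primitive `p`-th root of unity (`p` prime), `M/K` a finite Galois
extension, `D ≤ Kˣ` a subgroup such that every `d ∈ D` has a `p`-th root in `M` and these roots
generate `M` over `K`.  Then `Gal(M/K)` is abelian of exponent `p` and
`[M : K] = [D : D ∩ (Kˣ)^p]`; moreover every `a ∈ Kˣ` with a `p`-th root in `M` lies in
`D · (Kˣ)^p`.
-/
import Mathlib

set_option autoImplicit false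
set_option linter.style.longLine false
set_option linter.style.haveILetI false

namespace Fermat.Agent.PT.GLOB.KummerPairing19

/-! ### An abstract counting lemma for perfect pairings into `p`-th roots of unity -/

section counting

variable {A B M : Type*} [Group A] [Finite A] [CommGroup B] [Field M] (p : ℕ) [hp : Fact p.Prime]

theorem hasEnoughRootsOfUnity_of_primitiveRoot {ζ : M} (hζ : IsPrimitiveRoot ζ p) :
    HasEnoughRootsOfUnity M p :=
  ⟨⟨ζ, hζ⟩, rootsOfUnity.isCyclic M p⟩

/-- If `f : B →* A →* Mˣ` is injective and so is its flip, `B` has exponent dividing `p`, `A` is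
finite and `M` contains a primitive `p`-th root of unity, then `A` is commutative of exponent
dividing `p` and `#A = #B`. -/
theorem card_eq_of_pairing {ζ : M} (hζ : IsPrimitiveRoot ζ p) (hB : ∀ b : B, b ^ p = 1)
    (f : B →* A →* Mˣ) (hf : Function.Injective f) (hf' : Function.Injective f.flip) :
    (∀ a a' : A, a * a' = a' * a) ∧ (∀ a : A, a ^ p = 1) ∧ Finite B ∧ Nat.card A = Nat.card B := by
  haveI : NeZero p := ⟨hp.out.ne_zero⟩
  have hcomm : ∀ a a' : A, a * a' = a' * a := by
    intro a a'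
    apply hf'
    rw [map_mul, map_mul, mul_comm]
  have hA : ∀ a : A, a ^ p = 1 := by
    intro a
    apply hf'
    rw [map_pow, map_one]
    ext b
    rw [MonoidHom.pow_apply, ← map_pow, hB b, map_one, MonoidHom.one_apply]
  letI : CommGroup A := { (inferInstance : Group A) with mul_comm := hcomm }
  haveI := hasEnoughRootsOfUnity_of_primitiveRoot p hζ
  have hexpA : Monoid.exponent A ∣ p := Monoid.exponent_dvd_of_forall_pow_eq_one hA
  have hexpB : Monoid.exponent B ∣ p := Monoid.exponent_dvd_of_forall_pow_eq_one hB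
  haveI : HasEnoughRootsOfUnity M (Monoid.exponent A) := HasEnoughRootsOfUnity.of_dvd M hexpA
  haveI : HasEnoughRootsOfUnity M (Monoid.exponent B) := HasEnoughRootsOfUnity.of_dvd M hexpB
  haveI : Finite B := Finite.of_injective f hf
  have h1 : Nat.card (A →* Mˣ) = Nat.card A := CommGroup.card_monoidHom_of_hasEnoughRootsOfUnity A M
  have h2 : Nat.card (B →* Mˣ) = Nat.card B := CommGroup.card_monoidHom_of_hasEnoughRootsOfUnity B M
  have h3 : Nat.card B ≤ Nat.card (A →* Mˣ) := Nat.card_le_card_of_injective f hf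
  have h4 : Nat.card A ≤ Nat.card (B →* Mˣ) := Nat.card_le_card_of_injective f.flip hf'
  exact ⟨hcomm, hA, inferInstance, le_antisymm (h4.trans h2.le) (h3.trans h1.le)⟩

end counting


/-! ### The Kummer pairing -/

section pairing

variable (K M : Type*) [Field K] [Field M] [Algebra K M] (p : ℕ)

/-- The map `Kˣ →* Mˣ`. -/
noncomputable def unitsMap : Kˣ →* Mˣ := Units.map (algebraMap K M : K →* M)

@[simp] theorem coe_unitsMap (a : Kˣ) : ((unitsMap K M a : Mˣ) : M) = algebraMap K M a := rfl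

theorem unitsMap_injective : Function.Injective (unitsMap K M) := by
  intro a b h
  apply Units.ext
  apply (algebraMap K M).injective
  have := congrArg (fun u : Mˣ => (u : M)) h
  simpa using this

/-- Units of `M` coming from `K`. -/
noncomputable def baseUnits : Subgroup Mˣ := (unitsMap K M).range

/-- The group of `p`-th powers in `Kˣ`. -/
def pthPowers : Subgroup Kˣ := (powMonoidHom p : Kˣ →* Kˣ).range

theorem mem_pthPowers_iff (a : Kˣ) : a ∈ pthPowers K p ↔ ∃ y : Kˣ, y ^ p = a := Iff.rfl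

variable {K}

/-- The radical group of `D ≤ Kˣ`: units of `M` whose `p`-th power lies in the image of `D`. -/
def radical (D : Subgroup Kˣ) : Subgroup Mˣ where
  carrier := {x | ∃ d ∈ D, x ^ p = unitsMap K M d}
  one_mem' := ⟨1, D.one_mem, by simp⟩
  mul_mem' := by
    rintro x y ⟨d, hd, hx⟩ ⟨e, he, hy⟩
    exact ⟨d * e, D.mul_mem hd he, by rw [mul_pow, hx, hy, map_mul]⟩
  inv_mem' := by
    rintro x ⟨d, hd, hx⟩
    exact ⟨d⁻¹, D.inv_mem hd, by rw [inv_pow, hx, map_inv]⟩

theorem mem_radical_iff (D : Subgroup Kˣ) (x : Mˣ) :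
    x ∈ radical M p D ↔ ∃ d ∈ D, x ^ p = unitsMap K M d := Iff.rfl

variable {M}

/-- The action of `Gal(M/K)` on `Mˣ`. -/
noncomputable def galAct (σ : M ≃ₐ[K] M) : Mˣ →* Mˣ := Units.map (σ.toMulEquiv.toMonoidHom)

@[simp] theorem coe_galAct (σ : M ≃ₐ[K] M) (x : Mˣ) : ((galAct σ x : Mˣ) : M) = σ (x : M) := rfl

theorem galAct_unitsMap (σ : M ≃ₐ[K] M) (a : Kˣ) : galAct σ (unitsMap K M a) = unitsMap K M a := by
  apply Units.ext
  simp

theorem galAct_of_mem_baseUnits (σ : M ≃ₐ[K] M) {u : Mˣ} (hu : u ∈ baseUnits K M) :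
    galAct σ u = u := by
  obtain ⟨a, rfl⟩ := hu
  exact galAct_unitsMap σ a

theorem galAct_mul (σ τ : M ≃ₐ[K] M) (x : Mˣ) : galAct (σ * τ) x = galAct σ (galAct τ x) := by
  apply Units.ext
  simp [AlgEquiv.mul_apply]

/-- The Kummer symbol `σ(x)/x`. -/
noncomputable def kappa (σ : M ≃ₐ[K] M) (x : Mˣ) : Mˣ := galAct σ x / x

theorem kappa_mul_right (σ : M ≃ₐ[K] M) (x y : Mˣ) : kappa σ (x * y) = kappa σ x * kappa σ y := by
  unfold kappa
  rw [map_mul, mul_div_mul_comm]

theorem kappa_one_right (σ : M ≃ₐ[K] M) : kappa σ (1 : Mˣ) = 1 := by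
  unfold kappa
  rw [map_one, div_one]

theorem kappa_of_mem_baseUnits (σ : M ≃ₐ[K] M) {u : Mˣ} (hu : u ∈ baseUnits K M) :
    kappa σ u = 1 := by
  unfold kappa
  rw [galAct_of_mem_baseUnits σ hu, div_self']

theorem kappa_pow_eq_one {D : Subgroup Kˣ} (σ : M ≃ₐ[K] M) {x : Mˣ} (hx : x ∈ radical M p D) :
    kappa σ x ^ p = 1 := by
  obtain ⟨d, -, hd⟩ := hx
  unfold kappa
  rw [div_pow, ← map_pow, hd, galAct_unitsMap, div_self']

variable [hp : Fact p.Prime]

/-- The Kummer symbol takes values in (the image of) `Kˣ`. -/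
theorem kappa_mem_baseUnits {ζ : K} (hζ : IsPrimitiveRoot ζ p) {D : Subgroup Kˣ}
    (σ : M ≃ₐ[K] M) {x : Mˣ} (hx : x ∈ radical M p D) : kappa σ x ∈ baseUnits K M := by
  haveI : NeZero p := ⟨hp.out.ne_zero⟩
  have h1 : ((kappa σ x : Mˣ) : M) ^ p = 1 := by
    have := congrArg (fun u : Mˣ => (u : M)) (kappa_pow_eq_one p σ hx)
    simpa using this
  have hζ' : IsPrimitiveRoot (algebraMap K M ζ) p :=
    hζ.map_of_injective (algebraMap K M).injective
  obtain ⟨i, -, hi⟩ := hζ'.eq_pow_of_pow_eq_one h1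
  have hu : IsUnit ζ := hζ.isUnit hp.out.ne_zero
  refine ⟨hu.unit ^ i, ?_⟩
  apply Units.ext
  rw [← hi]
  simp [unitsMap]

theorem kappa_mul_left {ζ : K} (hζ : IsPrimitiveRoot ζ p) {D : Subgroup Kˣ}
    (σ τ : M ≃ₐ[K] M) {x : Mˣ} (hx : x ∈ radical M p D) :
    kappa (σ * τ) x = kappa σ x * kappa τ x := by
  have h1 : galAct τ x = kappa τ x * x := by
    unfold kappa
    rw [div_mul_cancel]
  have h2 : galAct σ (kappa τ x) = kappa τ x :=
    galAct_of_mem_baseUnits σ (kappa_mem_baseUnits p hζ τ hx)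
  calc kappa (σ * τ) x = galAct σ (galAct τ x) / x := by rw [kappa, galAct_mul]
    _ = galAct σ (kappa τ x * x) / x := by rw [← h1]
    _ = kappa τ x * galAct σ x / x := by rw [map_mul, h2]
    _ = kappa τ x * (galAct σ x / x) := by rw [mul_div_assoc]
    _ = kappa σ x * kappa τ x := by rw [mul_comm]; rfl

theorem kappa_one_left (x : Mˣ) : kappa (1 : M ≃ₐ[K] M) x = 1 := by
  unfold kappa
  have : galAct (1 : M ≃ₐ[K] M) x = x := by
    apply Units.ext
    simp
  rw [this, div_self']

end pairing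


/-! ### The main theorem -/

section main

variable {K M : Type*} [Field K] [Field M] [Algebra K M] (p : ℕ) [hp : Fact p.Prime]
  {ζ : K} (hζ : IsPrimitiveRoot ζ p) (D : Subgroup Kˣ)

/-- `x ↦ (σ ↦ σ(x)/x)` as a homomorphism from the radical group to `Gal(M/K) →* Mˣ`. -/
noncomputable def symbolHom : radical M p D →* ((M ≃ₐ[K] M) →* Mˣ) where
  toFun x :=
    { toFun := fun σ => kappa σ (x : Mˣ)
      map_one' := kappa_one_left _
      map_mul' := fun σ τ => kappa_mul_left p hζ σ τ x.2 }
  map_one' := by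
    ext σ
    simp [kappa_one_right]
  map_mul' x y := by
    ext σ
    simp [kappa_mul_right]

@[simp] theorem symbolHom_apply (x : radical M p D) (σ : M ≃ₐ[K] M) :
    symbolHom p hζ D x σ = kappa σ (x : Mˣ) := rfl

/-- The subgroup of the radical group coming from `K`. -/
noncomputable abbrev baseInRadical : Subgroup (radical M p D) :=
  (baseUnits K M).subgroupOf (radical M p D)

theorem baseInRadical_le_ker : baseInRadical (M := M) p D ≤ (symbolHom p hζ D).ker := by
  intro x hx
  rw [MonoidHom.mem_ker]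
  refine MonoidHom.ext fun σ => ?_
  rw [symbolHom_apply, MonoidHom.one_apply]
  exact kappa_of_mem_baseUnits σ (Subgroup.mem_subgroupOf.mp hx)

/-- The Kummer quotient `radical / Kˣ`. -/
abbrev KummerQuot : Type _ := radical M p D ⧸ baseInRadical (M := M) p D

/-- The symbol on the quotient. -/
noncomputable def symbolHomQ : KummerQuot (M := M) p D →* ((M ≃ₐ[K] M) →* Mˣ) :=
  QuotientGroup.lift _ (symbolHom p hζ D) (baseInRadical_le_ker p hζ D)

theorem symbolHomQ_mk (x : radical M p D) (σ : M ≃ₐ[K] M) :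
    symbolHomQ p hζ D (QuotientGroup.mk x) σ = kappa σ (x : Mˣ) := rfl

omit hp in
theorem kummerQuot_pow_eq_one (b : KummerQuot (M := M) p D) : b ^ p = 1 := by
  induction b using QuotientGroup.induction_on with
  | H x =>
    rw [← QuotientGroup.mk_pow, QuotientGroup.eq_one_iff, Subgroup.mem_subgroupOf]
    obtain ⟨d, -, hd⟩ := x.2
    exact ⟨d, by rw [← hd]; rfl⟩

section galois

variable [FiniteDimensional K M] [IsGalois K M]

theorem mem_baseUnits_of_forall_kappa {x : Mˣ} (h : ∀ σ : M ≃ₐ[K] M, kappa σ x = 1) :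
    x ∈ baseUnits K M := by
  have hfix : ∀ σ : M ≃ₐ[K] M, σ (x : M) = x := by
    intro σ
    have := h σ
    unfold kappa at this
    rw [div_eq_one] at this
    have := congrArg (fun u : Mˣ => (u : M)) this
    simpa using this
  obtain ⟨y, hy⟩ := (IsGalois.mem_range_algebraMap_iff_fixed (F := K) (E := M) (x : M)).mpr hfix
  have hy0 : y ≠ 0 := by
    rintro rfl
    rw [map_zero] at hy
    exact x.ne_zero hy.symm
  refine ⟨Units.mk0 y hy0, ?_⟩
  apply Units.ext
  simpa using hy

theorem symbolHomQ_injective : Function.Injective (symbolHomQ (M := M) p hζ D) := by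
  rw [injective_iff_map_eq_one]
  intro b hb
  induction b using QuotientGroup.induction_on with
  | H x =>
    rw [QuotientGroup.eq_one_iff, Subgroup.mem_subgroupOf]
    apply mem_baseUnits_of_forall_kappa
    intro σ
    have := DFunLike.congr_fun hb σ
    rwa [symbolHomQ_mk] at this

omit [FiniteDimensional K M] [IsGalois K M] in
/-- If the radical group generates `M`, an automorphism with trivial symbols is trivial. -/
theorem symbolHomQ_flip_injective
    (hgen : IntermediateField.adjoin K {x : M | ∃ d ∈ D, x ^ p = algebraMap K M d} = ⊤) :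
    Function.Injective (symbolHomQ (M := M) p hζ D).flip := by
  rw [injective_iff_map_eq_one]
  intro σ hσ
  -- σ fixes every element of the generating set
  have hfix : ∀ x ∈ {x : M | ∃ d ∈ D, x ^ p = algebraMap K M d}, σ x = x := by
    rintro x ⟨d, hd, hx⟩
    have hx0 : x ≠ 0 := by
      rintro rfl
      rw [zero_pow hp.out.ne_zero] at hx
      exact d.ne_zero ((algebraMap K M).injective (by rw [map_zero]; exact hx.symm))
    let u : Mˣ := Units.mk0 x hx0
    have hu : u ∈ radical M p D := ⟨d, hd, by apply Units.ext; simpa [u] using hx⟩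
    have h1 := DFunLike.congr_fun hσ (QuotientGroup.mk ⟨u, hu⟩)
    rw [MonoidHom.flip_apply, symbolHomQ_mk, MonoidHom.one_apply] at h1
    unfold kappa at h1
    rw [div_eq_one] at h1
    have := congrArg (fun u : Mˣ => (u : M)) h1
    simpa [u] using this
  ext y
  have hy : y ∈ IntermediateField.adjoin K {x : M | ∃ d ∈ D, x ^ p = algebraMap K M d} := by
    rw [hgen]; exact IntermediateField.mem_top
  have hle : IntermediateField.adjoin K {x : M | ∃ d ∈ D, x ^ p = algebraMap K M d} ≤
      IntermediateField.fixedField (Subgroup.zpowers σ) := by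
    rw [IntermediateField.adjoin_le_iff]
    intro x hx
    rw [SetLike.mem_coe, IntermediateField.mem_fixedField_iff]
    intro τ hτ
    obtain ⟨k, rfl⟩ := Subgroup.mem_zpowers_iff.mp hτ
    have hσx := hfix x hx
    -- σ^k fixes x
    have : ∀ k : ℤ, (σ ^ k) x = x := by
      intro k
      induction k using Int.induction_on with
      | zero => simp
      | succ n ih =>
        rw [zpow_add_one, AlgEquiv.mul_apply, hσx, ih]
      | pred n ih =>
        rw [zpow_sub_one, AlgEquiv.mul_apply]
        have : σ⁻¹ x = x := by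
          conv_lhs => rw [← hσx]
          exact σ.symm_apply_apply x
        rw [this, ih]
    exact this k
  have := (IntermediateField.mem_fixedField_iff _ y).mp (hle hy) σ (Subgroup.mem_zpowers σ)
  simpa using this

include hζ in
/-- **Kummer theory, exponent `p`.**  If the `p`-th roots in the finite Galois extension `M/K` of
the elements of `D` generate `M`, then `Gal(M/K)` is abelian of exponent `p` and its
order is the order of the Kummer quotient. -/
theorem kummer_main
    (hgen : IntermediateField.adjoin K {x : M | ∃ d ∈ D, x ^ p = algebraMap K M d} = ⊤) :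
    (∀ σ τ : M ≃ₐ[K] M, σ * τ = τ * σ) ∧ (∀ σ : M ≃ₐ[K] M, σ ^ p = 1) ∧
      Finite (KummerQuot (M := M) p D) ∧
      Module.finrank K M = Nat.card (KummerQuot (M := M) p D) := by
  have hζ' : IsPrimitiveRoot (algebraMap K M ζ) p :=
    hζ.map_of_injective (algebraMap K M).injective
  obtain ⟨h1, h2, h3, h4⟩ := card_eq_of_pairing (A := M ≃ₐ[K] M) (B := KummerQuot (M := M) p D)
    p hζ' (kummerQuot_pow_eq_one p D) (symbolHomQ p hζ D)
    (symbolHomQ_injective p hζ D) (symbolHomQ_flip_injective p hζ D hgen)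
  refine ⟨h1, h2, h3, ?_⟩
  rw [← h4, IsGalois.card_aut_eq_finrank]

end galois


/-! ### The Kummer quotient in terms of `D` -/

section index

include hζ in
omit hp in
/-- A `p`-th root of unity of `M` comes from `K`. -/
theorem mem_baseUnits_of_pow_eq_one [NeZero p] {u : Mˣ} (hu : u ^ p = 1) : u ∈ baseUnits K M := by
  have h1 : ((u : Mˣ) : M) ^ p = 1 := by
    have := congrArg (fun u : Mˣ => (u : M)) hu
    simpa using this
  have hζ' : IsPrimitiveRoot (algebraMap K M ζ) p :=
    hζ.map_of_injective (algebraMap K M).injective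
  obtain ⟨i, -, hi⟩ := hζ'.eq_pow_of_pow_eq_one h1
  have hu : IsUnit ζ := hζ.isUnit (NeZero.ne p)
  refine ⟨hu.unit ^ i, ?_⟩
  apply Units.ext
  rw [← hi]
  simp [unitsMap]

/-- The `p`-th power map `radical → D` (the element of `D` is unique). -/
noncomputable def radPow : radical M p D →* D where
  toFun x := ⟨Classical.choose x.2, (Classical.choose_spec x.2).1⟩
  map_one' := by
    apply Subtype.ext
    apply unitsMap_injective K M
    have := (Classical.choose_spec (1 : radical M p D).2).2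
    rw [← this]
    simp
  map_mul' x y := by
    apply Subtype.ext
    apply unitsMap_injective K M
    have hxy := (Classical.choose_spec (x * y).2).2
    have hx := (Classical.choose_spec x.2).2
    have hy := (Classical.choose_spec y.2).2
    change unitsMap K M (Classical.choose (x * y).2) =
      unitsMap K M (Classical.choose x.2 * Classical.choose y.2)
    rw [map_mul, ← hxy, ← hx, ← hy, Subgroup.coe_mul, mul_pow]

omit hp in
theorem radPow_spec (x : radical M p D) :
    ((x : Mˣ)) ^ p = unitsMap K M (radPow (M := M) p D x : Kˣ) :=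
  (Classical.choose_spec x.2).2

theorem radPow_surjective (hD : ∀ d ∈ D, ∃ x : M, x ^ p = algebraMap K M d) :
    Function.Surjective (radPow (M := M) p D) := by
  rintro ⟨d, hd⟩
  obtain ⟨x, hx⟩ := hD d hd
  have hx0 : x ≠ 0 := by
    rintro rfl
    rw [zero_pow hp.out.ne_zero] at hx
    exact d.ne_zero ((algebraMap K M).injective (by rw [map_zero]; exact hx.symm))
  let u : Mˣ := Units.mk0 x hx0
  have hu' : u ^ p = unitsMap K M d := by apply Units.ext; simpa [u] using hx
  have hu : u ∈ radical M p D := ⟨d, hd, hu'⟩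
  refine ⟨⟨u, hu⟩, ?_⟩
  apply Subtype.ext
  apply unitsMap_injective K M
  rw [← radPow_spec p D ⟨u, hu⟩]
  exact hu'

include hζ in
theorem comap_radPow :
    ((pthPowers K p).subgroupOf D).comap (radPow (M := M) p D) = baseInRadical (M := M) p D := by
  haveI : NeZero p := ⟨hp.out.ne_zero⟩
  ext x
  rw [Subgroup.mem_comap, Subgroup.mem_subgroupOf, Subgroup.mem_subgroupOf]
  constructor
  · rintro ⟨y, hy⟩
    have h1 : ((x : Mˣ) / unitsMap K M y) ^ p = 1 := by
      rw [div_pow, radPow_spec p D x, ← map_pow]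
      have : y ^ p = (radPow (M := M) p D x : Kˣ) := hy
      rw [this, div_self']
    have h2 := mem_baseUnits_of_pow_eq_one (M := M) p hζ h1
    have h3 : unitsMap K M y ∈ baseUnits K M := ⟨y, rfl⟩
    have := (baseUnits K M).mul_mem h2 h3
    rwa [div_mul_cancel] at this
  · rintro ⟨y, hy⟩
    refine ⟨y, ?_⟩
    apply unitsMap_injective K M
    change unitsMap K M (y ^ p) = _
    rw [← radPow_spec p D x, map_pow, hy]

include hζ in
/-- The order of the Kummer quotient is the index `[D : D ∩ (Kˣ)^p]`. -/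
theorem card_kummerQuot (hD : ∀ d ∈ D, ∃ x : M, x ^ p = algebraMap K M d) :
    Nat.card (KummerQuot (M := M) p D) = (pthPowers K p).relIndex D := by
  rw [Subgroup.relIndex, ← Subgroup.index_comap_of_surjective _ (radPow_surjective p D hD),
    comap_radPow p hζ D]
  rfl

include hζ in
/-- **Kummer degree formula**: `[M : K] = [D : D ∩ (Kˣ)^p]` if `M = K(D^{1/p})` is finite Galois
over `K`. -/
theorem finrank_eq_relIndex [FiniteDimensional K M] [IsGalois K M]
    (hD : ∀ d ∈ D, ∃ x : M, x ^ p = algebraMap K M d)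
    (hgen : IntermediateField.adjoin K {x : M | ∃ d ∈ D, x ^ p = algebraMap K M d} = ⊤) :
    Module.finrank K M = (pthPowers K p).relIndex D := by
  rw [(kummer_main p hζ D hgen).2.2.2, card_kummerQuot p hζ D hD]


include hζ in
/-- **Kummer radical**: in `M = K(D^{1/p})` (finite Galois), every `a ∈ Kˣ` with a `p`-th root in
`M` lies in `D · (Kˣ)^p`. -/
theorem mem_sup_of_exists_root [FiniteDimensional K M] [IsGalois K M]
    (hD : ∀ d ∈ D, ∃ x : M, x ^ p = algebraMap K M d)
    (hgen : IntermediateField.adjoin K {x : M | ∃ d ∈ D, x ^ p = algebraMap K M d} = ⊤)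
    {a : Kˣ} (ha : ∃ x : M, x ^ p = algebraMap K M a) : a ∈ D ⊔ pthPowers K p := by
  classical
  set P := pthPowers K p with hP
  set D₂ : Subgroup Kˣ := D ⊔ Subgroup.zpowers a with hD₂
  have hDD₂ : D ≤ D₂ := le_sup_left
  have haD₂ : a ∈ D₂ := (le_sup_right : Subgroup.zpowers a ≤ D₂) (Subgroup.mem_zpowers a)
  -- roots exist for `D₂`
  have hroot₂ : ∀ d ∈ D₂, ∃ x : M, x ^ p = algebraMap K M d := by
    intro d hd
    rw [hD₂, Subgroup.mem_sup] at hd
    obtain ⟨d₁, hd₁, z, hz, rfl⟩ := hd
    obtain ⟨k, rfl⟩ := Subgroup.mem_zpowers_iff.mp hz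
    obtain ⟨x₁, hx₁⟩ := hD d₁ hd₁
    obtain ⟨x, hx⟩ := ha
    refine ⟨x₁ * x ^ k, ?_⟩
    calc (x₁ * x ^ k) ^ p = x₁ ^ p * (x ^ p) ^ k := by
          rw [mul_pow, ← zpow_natCast (x ^ k), ← zpow_mul, mul_comm k, zpow_mul, zpow_natCast]
      _ = algebraMap K M d₁ * (algebraMap K M a) ^ k := by rw [hx₁, hx]
      _ = algebraMap K M ((d₁ * a ^ k : Kˣ) : K) := by
          rw [Units.val_mul, Units.val_zpow_eq_zpow_val, map_mul, map_zpow₀]
  have hgen₂ : IntermediateField.adjoin K {x : M | ∃ d ∈ D₂, x ^ p = algebraMap K M d} = ⊤ := by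
    rw [eq_top_iff, ← hgen]
    apply IntermediateField.adjoin.mono
    rintro x ⟨d, hd, hx⟩
    exact ⟨d, hDD₂ hd, hx⟩
  have h1 := finrank_eq_relIndex p hζ D hD hgen
  have h2 := finrank_eq_relIndex p hζ D₂ hroot₂ hgen₂
  have hpos : 0 < Module.finrank K M := Module.finrank_pos
  -- pass to `D ⊔ P`, `D₂ ⊔ P`
  haveI : P.Normal := inferInstance
  have e1 : P.relIndex (D ⊔ P) = P.relIndex D := Subgroup.relIndex_sup_right D P
  have e2 : P.relIndex (D₂ ⊔ P) = P.relIndex D₂ := Subgroup.relIndex_sup_right D₂ P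
  have hle : D ⊔ P ≤ D₂ ⊔ P := sup_le_sup_right hDD₂ P
  have hmul := Subgroup.relIndex_mul_relIndex P (D ⊔ P) (D₂ ⊔ P) le_sup_right hle
  rw [e1, e2, ← h1, ← h2] at hmul
  have hone : (D ⊔ P).relIndex (D₂ ⊔ P) = 1 := by
    have : Module.finrank K M * (D ⊔ P).relIndex (D₂ ⊔ P) = Module.finrank K M * 1 := by
      rw [hmul, mul_one]
    exact Nat.eq_of_mul_eq_mul_left hpos this
  have := Subgroup.relIndex_eq_one.mp hone
  exact this ((le_sup_left : D₂ ≤ D₂ ⊔ P) haD₂)

end index

end main

/-! ### The Kummer field `K(D^{1/p})` inside an extension `Ω` -/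

section field

open Polynomial IntermediateField

variable {K Ω : Type*} [Field K] [Field Ω] [Algebra K Ω] (p : ℕ) [hp : Fact p.Prime]
  {ζ : K} (hζ : IsPrimitiveRoot ζ p) (D : Subgroup Kˣ)

/-- The set of `p`-th roots in `Ω` of the elements of `D`. -/
def rootsOf : Set Ω := {x : Ω | ∃ d ∈ D, x ^ p = algebraMap K Ω d}

/-- The Kummer field `K(D^{1/p}) ⊆ Ω`. -/
def kummerField : IntermediateField K Ω := adjoin K (rootsOf (Ω := Ω) p D)

omit hp in
theorem mem_kummerField_of_pow_eq {x : Ω} {d : Kˣ} (hd : d ∈ D) (hx : x ^ p = algebraMap K Ω d) :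
    x ∈ kummerField (Ω := Ω) p D :=
  subset_adjoin K _ ⟨d, hd, hx⟩

omit hp in
theorem X_pow_sub_C_ne_zero' [NeZero p] (a : K) : (X ^ p - C a : K[X]) ≠ 0 :=
  (monic_X_pow_sub_C a (NeZero.ne p)).ne_zero

omit hp in
theorem rootsOf_eq_iUnion [NeZero p] :
    rootsOf (Ω := Ω) p D = ⋃ d : D, (X ^ p - C ((d : Kˣ) : K) : K[X]).rootSet Ω := by
  ext x
  simp only [rootsOf, Set.mem_ofPred_eq, Set.mem_iUnion, Subtype.exists, exists_prop]
  constructor
  · rintro ⟨d, hd, hx⟩
    refine ⟨d, hd, ?_⟩
    rw [mem_rootSet]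
    exact ⟨X_pow_sub_C_ne_zero' p _, by simp [hx]⟩
  · rintro ⟨d, hd, hx⟩
    rw [mem_rootSet] at hx
    refine ⟨d, hd, ?_⟩
    have := hx.2
    simpa [sub_eq_zero] using this

include hζ in
omit hp in
theorem splits_X_pow_sub_C {d : Kˣ} (hd : ∃ x : Ω, x ^ p = algebraMap K Ω d) :
    ((X ^ p - C (d : K) : K[X]).map (algebraMap K Ω)).Splits := by
  obtain ⟨x, hx⟩ := hd
  have hζ' : IsPrimitiveRoot (algebraMap K Ω ζ) p :=
    hζ.map_of_injective (algebraMap K Ω).injective
  have := X_pow_sub_C_splits_of_isPrimitiveRoot hζ' hx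
  simpa using this

include hζ in
/-- The Kummer field is normal over `K`. -/
theorem kummerField_normal (hD : ∀ d ∈ D, ∃ x : Ω, x ^ p = algebraMap K Ω d) :
    Normal K (kummerField (Ω := Ω) p D) := by
  haveI : NeZero p := ⟨hp.out.ne_zero⟩
  have h : kummerField (Ω := Ω) p D =
      ⨆ d : D, adjoin K ((X ^ p - C ((d : Kˣ) : K) : K[X]).rootSet Ω) := by
    rw [kummerField, rootsOf_eq_iUnion, adjoin_iUnion]
  rw [h]
  exact normal_iSup (h := fun d =>
    Normal.of_isSplittingField (hFEp := adjoin_rootSet_isSplittingField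
      (splits_X_pow_sub_C p hζ (hD d d.2))))

include hζ in
/-- The Kummer field is separable over `K`. -/
theorem kummerField_isSeparable : Algebra.IsSeparable K (kummerField (Ω := Ω) p D) := by
  haveI : NeZero p := ⟨hp.out.ne_zero⟩
  haveI : NeZero (p : K) := hζ.neZero'
  rw [kummerField, isSeparable_adjoin_iff_isSeparable]
  rintro x ⟨d, hd, hx⟩
  have hsep : (X ^ p - C (d : K) : K[X]).Separable :=
    separable_X_pow_sub_C (d : K) (NeZero.ne _) d.ne_zero
  have hroot : aeval x (X ^ p - C (d : K) : K[X]) = 0 := by simp [hx]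
  exact hsep.of_dvd (minpoly.dvd K x hroot)

include hζ in
theorem kummerField_isGalois (hD : ∀ d ∈ D, ∃ x : Ω, x ^ p = algebraMap K Ω d) :
    IsGalois K (kummerField (Ω := Ω) p D) :=
  { to_isSeparable := kummerField_isSeparable p hζ D
    to_normal := kummerField_normal p hζ D hD }

include hζ in
omit hp in
/-- Two `p`-th roots of the same element differ by an element of `K`. -/
theorem exists_eq_mul_of_pow_eq [NeZero p] {x y : Ω} (hy : y ≠ 0) (h : x ^ p = y ^ p) :
    ∃ c : K, x = algebraMap K Ω c * y := by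
  have hζ' : IsPrimitiveRoot (algebraMap K Ω ζ) p :=
    hζ.map_of_injective (algebraMap K Ω).injective
  have h1 : (x / y) ^ p = 1 := by
    rw [div_pow, h, div_self (pow_ne_zero _ hy)]
  obtain ⟨i, -, hi⟩ := hζ'.eq_pow_of_pow_eq_one h1
  refine ⟨ζ ^ i, ?_⟩
  rw [map_pow, hi, div_mul_cancel₀ _ hy]

include hζ in
/-- If `D` is generated modulo `p`-th powers by a finite set, then the Kummer field is generated
by one root for each generator; in particular it is finite-dimensional. -/
theorem kummerField_finiteDimensional (S₀ : Set Kˣ) (hS₀ : S₀.Finite)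
    (hDS : D ≤ Subgroup.closure S₀ ⊔ pthPowers K p)
    (hroot : ∀ s ∈ S₀, ∃ x : Ω, x ^ p = algebraMap K Ω s) :
    FiniteDimensional K (kummerField (Ω := Ω) p D) := by
  classical
  haveI : NeZero p := ⟨hp.out.ne_zero⟩
  choose! r hr using hroot
  set T : Set Ω := r '' S₀ with hT
  have hTfin : T.Finite := hS₀.image r
  set F : IntermediateField K Ω := adjoin K T with hF
  have hTint : ∀ x ∈ T, IsIntegral K x := by
    rintro x ⟨s, hs, rfl⟩
    refine ⟨X ^ p - C (s : K), monic_X_pow_sub_C _ (NeZero.ne p), ?_⟩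
    simp [hr s hs]
  haveI : Finite T := hTfin.to_subtype
  haveI : FiniteDimensional K F := finiteDimensional_adjoin hTint
  -- the subgroup of elements all of whose roots lie in `F`
  let G : Subgroup Kˣ :=
    { carrier := {d | (∃ x : Ω, x ^ p = algebraMap K Ω d) ∧
        ∀ x : Ω, x ^ p = algebraMap K Ω d → x ∈ F}
      one_mem' := by
        refine ⟨⟨1, by simp⟩, fun x hx => ?_⟩
        obtain ⟨c, hc⟩ := exists_eq_mul_of_pow_eq (Ω := Ω) p hζ (x := x) (y := 1) one_ne_zero
          (by simpa using hx)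
        rw [hc, mul_one]
        exact F.algebraMap_mem c
      mul_mem' := by
        rintro d e ⟨⟨y, hy⟩, hd⟩ ⟨⟨z, hz⟩, he⟩
        have hy0 : y ≠ 0 := by
          rintro rfl
          rw [zero_pow (NeZero.ne p)] at hy
          exact d.ne_zero ((algebraMap K Ω).injective (by rw [map_zero]; exact hy.symm))
        have hz0 : z ≠ 0 := by
          rintro rfl
          rw [zero_pow (NeZero.ne p)] at hz
          exact e.ne_zero ((algebraMap K Ω).injective (by rw [map_zero]; exact hz.symm))
        have hyz : (y * z) ^ p = algebraMap K Ω ((d * e : Kˣ) : K) := by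
          rw [mul_pow, hy, hz, Units.val_mul, map_mul]
        refine ⟨⟨y * z, hyz⟩, fun x hx => ?_⟩
        obtain ⟨c, hc⟩ := exists_eq_mul_of_pow_eq (Ω := Ω) p hζ (x := x) (y := y * z)
          (mul_ne_zero hy0 hz0) (by rw [hx, hyz])
        rw [hc]
        exact F.mul_mem (F.algebraMap_mem c) (F.mul_mem (hd y hy) (he z hz))
      inv_mem' := by
        rintro d ⟨⟨y, hy⟩, hd⟩
        have hy0 : y ≠ 0 := by
          rintro rfl
          rw [zero_pow (NeZero.ne p)] at hy
          exact d.ne_zero ((algebraMap K Ω).injective (by rw [map_zero]; exact hy.symm))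
        have hyi : (y⁻¹) ^ p = algebraMap K Ω ((d⁻¹ : Kˣ) : K) := by
          rw [inv_pow, hy, Units.val_inv_eq_inv_val, map_inv₀]
        refine ⟨⟨y⁻¹, hyi⟩, fun x hx => ?_⟩
        obtain ⟨c, hc⟩ := exists_eq_mul_of_pow_eq (Ω := Ω) p hζ (x := x) (y := y⁻¹)
          (inv_ne_zero hy0) (by rw [hx, hyi])
        rw [hc]
        exact F.mul_mem (F.algebraMap_mem c) (F.inv_mem (hd y hy)) }
  have hS₀G : S₀ ⊆ G := by
    intro s hs
    refine ⟨⟨r s, hr s hs⟩, fun x hx => ?_⟩
    have hr0 : r s ≠ 0 := by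
      intro h0
      have := hr s hs
      rw [h0, zero_pow (NeZero.ne p)] at this
      exact s.ne_zero ((algebraMap K Ω).injective (by rw [map_zero]; exact this.symm))
    obtain ⟨c, hc⟩ := exists_eq_mul_of_pow_eq (Ω := Ω) p hζ (x := x) (y := r s) hr0
      (by rw [hx, hr s hs])
    rw [hc]
    exact F.mul_mem (F.algebraMap_mem c) (subset_adjoin K T ⟨s, hs, rfl⟩)
  have hPG : pthPowers K p ≤ G := by
    rintro d ⟨y, rfl⟩
    have hy' : (algebraMap K Ω y) ^ p = algebraMap K Ω ((powMonoidHom p y : Kˣ) : K) := by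
      simp
    refine ⟨⟨algebraMap K Ω y, hy'⟩, fun x hx => ?_⟩
    have hy0 : algebraMap K Ω (y : K) ≠ 0 := by
      rw [Ne, map_eq_zero]; exact y.ne_zero
    obtain ⟨c, hc⟩ := exists_eq_mul_of_pow_eq (Ω := Ω) p hζ (x := x) (y := algebraMap K Ω y) hy0
      (by rw [hx, hy'])
    rw [hc]
    exact F.mul_mem (F.algebraMap_mem c) (F.algebraMap_mem y)
  have hDG : D ≤ G := hDS.trans (sup_le ((Subgroup.closure_le G).mpr hS₀G) hPG)
  have hle : kummerField (Ω := Ω) p D ≤ F := by
    rw [kummerField, adjoin_le_iff]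
    rintro x ⟨d, hd, hx⟩
    exact (hDG hd).2 x hx
  exact FiniteDimensional.of_injective (inclusion hle).toLinearMap (inclusion hle).injective


include hζ in
/-- **Kummer theory for `K(D^{1/p}) ⊆ Ω`**: if every element of `D` has a `p`-th root in `Ω` and
the Kummer field is finite over `K`, it is Galois with abelian group of exponent `p`, of degree
`[D : D ∩ (Kˣ)^p]`, and the only elements of `Kˣ` with a `p`-th root in it are those of
`D · (Kˣ)^p`. -/
theorem kummerField_main (hD : ∀ d ∈ D, ∃ x : Ω, x ^ p = algebraMap K Ω d)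
    [FiniteDimensional K (kummerField (Ω := Ω) p D)] :
    IsGalois K (kummerField (Ω := Ω) p D) ∧
    (∀ σ τ : kummerField (Ω := Ω) p D ≃ₐ[K] kummerField (Ω := Ω) p D, σ * τ = τ * σ) ∧
    (∀ σ : kummerField (Ω := Ω) p D ≃ₐ[K] kummerField (Ω := Ω) p D, σ ^ p = 1) ∧
    Module.finrank K (kummerField (Ω := Ω) p D) = (pthPowers K p).relIndex D ∧
    (∀ a : Kˣ, (∃ x ∈ kummerField (Ω := Ω) p D, x ^ p = algebraMap K Ω a) →
      a ∈ D ⊔ pthPowers K p) := by
  set M : IntermediateField K Ω := kummerField (Ω := Ω) p D with hM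
  haveI : IsGalois K M := kummerField_isGalois p hζ D hD
  have hD' : ∀ d ∈ D, ∃ x : M, x ^ p = algebraMap K M d := by
    intro d hd
    obtain ⟨x, hx⟩ := hD d hd
    refine ⟨⟨x, mem_kummerField_of_pow_eq p D hd hx⟩, ?_⟩
    apply Subtype.ext
    simpa using hx
  have hgen : adjoin K {x : M | ∃ d ∈ D, x ^ p = algebraMap K M d} = ⊤ := by
    apply IntermediateField.map_injective M.val
    rw [adjoin_map, ← AlgHom.fieldRange_eq_map, fieldRange_val]
    have : (M.val '' {x : M | ∃ d ∈ D, x ^ p = algebraMap K M d}) = rootsOf (Ω := Ω) p D := by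
      ext x
      constructor
      · rintro ⟨y, ⟨d, hd, hy⟩, rfl⟩
        refine ⟨d, hd, ?_⟩
        have := congrArg (fun z : M => (z : Ω)) hy
        simpa using this
      · rintro ⟨d, hd, hx⟩
        refine ⟨⟨x, mem_kummerField_of_pow_eq p D hd hx⟩, ⟨d, hd, ?_⟩, rfl⟩
        apply Subtype.ext
        simpa using hx
    rw [this]
    rfl
  obtain ⟨h1, h2, -, -⟩ := kummer_main (M := M) p hζ D hgen
  refine ⟨inferInstance, h1, h2, finrank_eq_relIndex p hζ D hD' hgen, ?_⟩
  rintro a ⟨x, hxM, hx⟩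
  refine mem_sup_of_exists_root (M := M) p hζ D hD' hgen ⟨⟨x, hxM⟩, ?_⟩
  apply Subtype.ext
  simpa using hx

end field

end Fermat.Agent.PT.GLOB.KummerPairing19
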