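/-
Program F (S55, Poitou–Tate), chapter GLOB, leaf (REC-CNT) (helper15).

**The abstract index computation behind the existence theorem modulo `p`.**

Let `f : X →* A`, `g : X →* D` be homomorphisms of commutative groups (`X = Kˣ`, `A = IT S K` the
`S`-ideles, `D = DivT S K` the divisors away from `S`), `J = A × D`, `Pr = range (f, g)` the
principal ideles and `C = J ⧸ Pr` the idele class group.  With
`Xp = g⁻¹(Dᵖ)` (the Selmer elements), `Xl = f⁻¹(Aᵖ)` (the local `p`-th powers), `E = ker g`:

* `index_pow_mul_relIndex` : `[C : Cᵖ] * [Xp : Xp ∩ Xl] = [D : g(X) Dᵖ] * [A : Aᵖ]`;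
* `index_inl_sup_pow`      : `[C : im(A) Cᵖ] = [D : g(X) Dᵖ]`;
* `relIndex_pow_selmer`    : `[Xp : Xᵖ] = [E : Eᵖ] * #(D/g(X))[p]` if `D` has no `p`-torsion;
* `relIndex_comap_pow_eq_index` : `#(D/R)[p] = [D : R Dᵖ]` if `D/R` is finite.
-/
import Mathlib

set_option autoImplicit false
set_option linter.style.haveILetI false

namespace Fermat.Agent.PT.GLOB.RecCount15

open Subgroup

section General

variable {G : Type*} [CommGroup G] (p : ℕ)

/-- The subgroup of `p`-th powers. -/
def powRange (G : Type*) [CommGroup G] (p : ℕ) : Subgroup G := (powMonoidHom p : G →* G).range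

theorem mem_powRange {x : G} : x ∈ powRange G p ↔ ∃ y : G, y ^ p = x := Iff.rfl

theorem pow_mem_powRange (y : G) : y ^ p ∈ powRange G p := ⟨y, rfl⟩

/-- The image of the `p`-th powers under a surjective homomorphism is the `p`-th powers. -/
theorem map_powRange_of_surjective {H : Type*} [CommGroup H] (φ : G →* H)
    (hφ : Function.Surjective φ) : (powRange G p).map φ = powRange H p := by
  ext y
  constructor
  · rintro ⟨x, ⟨z, rfl⟩, rfl⟩
    exact ⟨φ z, by simp [map_pow]⟩
  · rintro ⟨z, rfl⟩
    obtain ⟨w, rfl⟩ := hφ z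
    exact ⟨w ^ p, ⟨w, rfl⟩, by simp [map_pow]⟩

/-- For a subgroup `R` of `G` with finite quotient, the number of `p`-torsion classes of `G/R`
equals the index of `R Gᵖ`. -/
theorem relIndex_comap_pow_eq_index (R : Subgroup G) [Finite (G ⧸ R)] :
    R.relIndex (R.comap (powMonoidHom p : G →* G)) = (R ⊔ powRange G p).index := by
  -- the endomorphism `x ↦ x ^ p` of the finite group `G ⧸ R`
  set φ : (G ⧸ R) →* (G ⧸ R) := powMonoidHom p with hφ
  have h1 : Nat.card φ.ker * Nat.card φ.range = Nat.card (G ⧸ R) := by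
    rw [← Subgroup.index_ker, Subgroup.card_mul_index]
  have h2 : φ.range.index * Nat.card φ.range = Nat.card (G ⧸ R) := by
    rw [mul_comm, Subgroup.card_mul_index]
  have hpos : 0 < Nat.card φ.range := Nat.card_pos
  have h3 : Nat.card φ.ker = φ.range.index :=
    Nat.eq_of_mul_eq_mul_right hpos (h1.trans h2.symm)
  -- identify both sides
  have hker : φ.ker = (R.comap (powMonoidHom p : G →* G)).map (QuotientGroup.mk' R) := by
    ext y
    obtain ⟨x, rfl⟩ := QuotientGroup.mk'_surjective R y
    rw [MonoidHom.mem_ker, Subgroup.mem_map]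
    constructor
    · intro h
      refine ⟨x, ?_, rfl⟩
      rw [Subgroup.mem_comap]
      have : ((x ^ p : G) : G ⧸ R) = 1 := h
      exact (QuotientGroup.eq_one_iff _).mp this
    · rintro ⟨z, hz, hzx⟩
      rw [← hzx]
      have : ((z ^ p : G) : G ⧸ R) = 1 := (QuotientGroup.eq_one_iff _).mpr hz
      exact this
  have hrange : φ.range = (powRange G p).map (QuotientGroup.mk' R) := by
    rw [map_powRange_of_surjective p _ (QuotientGroup.mk'_surjective R)]
    rfl
  have hR : R ≤ R.comap (powMonoidHom p : G →* G) := fun x hx => R.pow_mem hx p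
  calc R.relIndex (R.comap (powMonoidHom p : G →* G))
      = Nat.card φ.ker := by
        have h := Subgroup.relIndex_ker (QuotientGroup.mk' R)
          (K := R.comap (powMonoidHom p : G →* G))
        rw [QuotientGroup.ker_mk'] at h
        rw [h, hker]
    _ = φ.range.index := h3
    _ = (R ⊔ powRange G p).index := by
        rw [hrange, Subgroup.index_map, QuotientGroup.ker_mk', sup_comm,
          MonoidHom.range_eq_top.mpr (QuotientGroup.mk'_surjective R), Subgroup.index_top, mul_one]

end General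

/-! ### The idele-class computation -/

section Idele

variable {X A D : Type*} [CommGroup X] [CommGroup A] [CommGroup D] (f : X →* A) (g : X →* D)
  (p : ℕ)

/-- The "Selmer elements": `g x` is a `p`-th power. -/
def selP : Subgroup X := (powRange D p).comap g

/-- The "local `p`-th powers": `f x` is a `p`-th power. -/
def locP : Subgroup X := (powRange A p).comap f

theorem mem_selP {x : X} : x ∈ selP g p ↔ ∃ d : D, d ^ p = g x := Iff.rfl

theorem mem_locP {x : X} : x ∈ locP f p ↔ ∃ a : A, a ^ p = f x := Iff.rfl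

theorem powRange_le_selP : powRange X p ≤ selP g p := by
  rintro _ ⟨y, rfl⟩
  exact ⟨g y, by simp [map_pow]⟩

theorem powRange_le_locP : powRange X p ≤ locP f p := by
  rintro _ ⟨y, rfl⟩
  exact ⟨f y, by simp [map_pow]⟩

theorem ker_le_selP : g.ker ≤ selP g p := by
  intro x hx
  refine ⟨1, ?_⟩
  show (1 : D) ^ p = g x
  rw [one_pow, MonoidHom.mem_ker.mp hx]

/-- The principal ideles. -/
def principal : Subgroup (A × D) := (f.prod g).range

/-- The subgroup `A × 1` of `J = A × D`. -/
def leftPart (A D : Type*) [CommGroup A] [CommGroup D] : Subgroup (A × D) :=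
  (MonoidHom.inl A D).range

/-- `(A × 1) · Pr · Jᵖ` is the preimage of `g(X) Dᵖ` under the second projection. -/
theorem leftPart_sup_eq_comap :
    leftPart A D ⊔ (principal f g ⊔ powRange (A × D) p) =
      (g.range ⊔ powRange D p).comap (MonoidHom.snd A D) := by
  apply le_antisymm
  · refine sup_le ?_ (sup_le ?_ ?_)
    · rintro _ ⟨a, rfl⟩
      exact (g.range ⊔ powRange D p).one_mem
    · rintro _ ⟨x, rfl⟩
      exact Subgroup.mem_sup_left ⟨x, rfl⟩
    · rintro _ ⟨j, rfl⟩
      exact Subgroup.mem_sup_right ⟨j.2, rfl⟩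
  · rintro ⟨a, d⟩ hd
    rw [Subgroup.mem_comap, MonoidHom.coe_snd, Subgroup.mem_sup] at hd
    obtain ⟨_, ⟨x, rfl⟩, _, ⟨e, rfl⟩, hd⟩ := hd
    have h1 : ((a * (f x)⁻¹, 1) : A × D) ∈ leftPart A D := ⟨a * (f x)⁻¹, rfl⟩
    have h2 : ((f x, g x) : A × D) ∈ principal f g := ⟨x, rfl⟩
    have h3 : (((1 : A), e) : A × D) ^ p ∈ powRange (A × D) p := pow_mem_powRange p _
    have h4 : ((a, d) : A × D) = (a * (f x)⁻¹, 1) * ((f x, g x) * ((1 : A), e) ^ p) := by
      refine Prod.ext ?_ ?_
      · simp
      · simp only [Prod.pow_mk, Prod.mk_mul_mk, one_mul]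
        exact hd.symm
    rw [h4]
    exact Subgroup.mul_mem_sup h1 (Subgroup.mul_mem_sup h2 h3)

/-- `[J : (A × 1) Pr Jᵖ] = [D : g(X) Dᵖ]`. -/
theorem index_leftPart_sup :
    (leftPart A D ⊔ (principal f g ⊔ powRange (A × D) p)).index =
      (g.range ⊔ powRange D p).index := by
  rw [leftPart_sup_eq_comap]
  exact Subgroup.index_comap_of_surjective _ (fun d => ⟨(1, d), rfl⟩)

/-- `(A × 1) ∩ Pr Jᵖ = f(Xp) Aᵖ`. -/
theorem comap_inl_principal_sup :
    (principal f g ⊔ powRange (A × D) p).comap (MonoidHom.inl A D) =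
      (selP g p).map f ⊔ powRange A p := by
  ext a
  rw [Subgroup.mem_comap, MonoidHom.inl_apply, Subgroup.mem_sup, Subgroup.mem_sup]
  constructor
  · rintro ⟨_, ⟨x, rfl⟩, _, ⟨j, rfl⟩, h⟩
    have ha : f x * j.1 ^ p = a := congrArg Prod.fst h
    have hd : g x * j.2 ^ p = 1 := congrArg Prod.snd h
    refine ⟨f x, ⟨x, ?_, rfl⟩, j.1 ^ p, pow_mem_powRange p _, ha⟩
    refine ⟨j.2⁻¹, ?_⟩
    show (j.2⁻¹) ^ p = g x
    rw [inv_pow]
    exact inv_eq_of_mul_eq_one_left hd
  · rintro ⟨_, ⟨x, ⟨d, hd⟩, rfl⟩, _, ⟨b, rfl⟩, h⟩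
    refine ⟨(f x, g x), ⟨x, rfl⟩, ((b, d⁻¹) : A × D) ^ p, pow_mem_powRange p _, ?_⟩
    refine Prod.ext ?_ ?_
    · simpa using h
    · simp only [Prod.pow_mk, Prod.mk_mul_mk, inv_pow]
      have hd' : d ^ p = g x := hd
      rw [hd']
      exact mul_inv_cancel _

/-- **The main index identity**: `[J : Pr Jᵖ] * [Xp : Xp ∩ Xl] = [D : g(X) Dᵖ] * [A : Aᵖ]`. -/
theorem index_principal_sup_mul_relIndex :
    (principal f g ⊔ powRange (A × D) p).index * (selP g p ⊓ locP f p).relIndex (selP g p) =
      (g.range ⊔ powRange D p).index * (powRange A p).index := by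
  set W := principal f g ⊔ powRange (A × D) p with hW
  -- first step: pass to `(A × 1) W`
  have h1 : W.relIndex (leftPart A D ⊔ W) * (leftPart A D ⊔ W).index = W.index :=
    Subgroup.relIndex_mul_index le_sup_right
  have h2 : W.relIndex (leftPart A D ⊔ W) = (W.comap (MonoidHom.inl A D)).index := by
    rw [Subgroup.relIndex_sup_right, Subgroup.index_comap]
    rfl
  have h3 : (leftPart A D ⊔ W).index = (g.range ⊔ powRange D p).index :=
    index_leftPart_sup f g p
  have h4 : W.comap (MonoidHom.inl A D) = (selP g p).map f ⊔ powRange A p :=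
    comap_inl_principal_sup f g p
  -- second step: `[A : f(Xp) Aᵖ] * [f(Xp) Aᵖ : Aᵖ] = [A : Aᵖ]`
  have h5 : (powRange A p).relIndex ((selP g p).map f ⊔ powRange A p) *
      ((selP g p).map f ⊔ powRange A p).index = (powRange A p).index :=
    Subgroup.relIndex_mul_index le_sup_right
  have h6 : (powRange A p).relIndex ((selP g p).map f ⊔ powRange A p) =
      (selP g p ⊓ locP f p).relIndex (selP g p) := by
    rw [Subgroup.relIndex_sup_right, ← Subgroup.relIndex_comap, inf_comm,
      Subgroup.inf_relIndex_right]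
    rfl
  rw [← h1, h2, h3, h4, ← h5, h6]
  ring

end Idele

/-! ### Passage to the class group `C = J ⧸ Pr` -/

section ClassGroup

variable {J : Type*} [CommGroup J] (Pr : Subgroup J) (p : ℕ)

/-- `[C : Cᵖ] = [J : Pr Jᵖ]` for `C = J ⧸ Pr`. -/
theorem index_powRange_quotient :
    (powRange (J ⧸ Pr) p).index = (Pr ⊔ powRange J p).index := by
  rw [← map_powRange_of_surjective p (QuotientGroup.mk' Pr) (QuotientGroup.mk'_surjective Pr),
    Subgroup.index_map, QuotientGroup.ker_mk', sup_comm,
    MonoidHom.range_eq_top.mpr (QuotientGroup.mk'_surjective Pr), Subgroup.index_top, mul_one]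

/-- `[C : im(B) Cᵖ] = [J : B Pr Jᵖ]` for a subgroup `B ≤ J`. -/
theorem index_map_sup_powRange_quotient (B : Subgroup J) :
    (B.map (QuotientGroup.mk' Pr) ⊔ powRange (J ⧸ Pr) p).index =
      (B ⊔ (Pr ⊔ powRange J p)).index := by
  rw [← map_powRange_of_surjective p (QuotientGroup.mk' Pr) (QuotientGroup.mk'_surjective Pr),
    ← Subgroup.map_sup, Subgroup.index_map, QuotientGroup.ker_mk',
    MonoidHom.range_eq_top.mpr (QuotientGroup.mk'_surjective Pr), Subgroup.index_top, mul_one]
  congr 1
  rw [sup_assoc, sup_comm (powRange J p) Pr]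

end ClassGroup

/-! ### The Selmer index -/

section Selmer

variable {X D : Type*} [CommGroup X] [CommGroup D] (g : X →* D) (p : ℕ)

/-- `Xᵖ ∩ ker g = (ker g)ᵖ` if `D` has no `p`-torsion. -/
theorem powRange_inf_ker (hD : ∀ d : D, d ^ p = 1 → d = 1) :
    powRange X p ⊓ g.ker = (powRange g.ker p).map g.ker.subtype := by
  ext x
  rw [Subgroup.mem_inf, Subgroup.mem_map]
  constructor
  · rintro ⟨⟨y, rfl⟩, hx⟩
    have hy : y ∈ g.ker := by
      rw [MonoidHom.mem_ker]
      apply hD
      have : g ((powMonoidHom p : X →* X) y) = 1 := MonoidHom.mem_ker.mp hx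
      rwa [powMonoidHom_apply, map_pow] at this
    exact ⟨⟨y, hy⟩ ^ p, pow_mem_powRange p _, rfl⟩
  · rintro ⟨_, ⟨z, rfl⟩, rfl⟩
    refine ⟨⟨(z : X), ?_⟩, ?_⟩
    · simp
    · exact (z ^ p).2

/-- **The Selmer index**: `[Xp : Xᵖ] = [E : Eᵖ] * #(D/g(X))[p]`, `E = ker g`, if `D` has no
`p`-torsion. -/
theorem relIndex_powRange_selP (hD : ∀ d : D, d ^ p = 1 → d = 1) :
    (powRange X p).relIndex (selP g p) =
      (powRange g.ker p).index *
        g.range.relIndex (g.range.comap (powMonoidHom p : D →* D)) := by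
  have hle1 : powRange X p ≤ g.ker ⊔ powRange X p := le_sup_right
  have hle2 : g.ker ⊔ powRange X p ≤ selP g p :=
    sup_le (ker_le_selP g p) (powRange_le_selP g p)
  rw [← Subgroup.relIndex_mul_relIndex _ _ _ hle1 hle2]
  congr 1
  · -- `[E Xᵖ : Xᵖ] = [E : Eᵖ]`
    rw [Subgroup.relIndex_sup_right, ← Subgroup.inf_relIndex_right, powRange_inf_ker g p hD]
    rw [Subgroup.relIndex, Subgroup.subgroupOf, Subgroup.comap_map_eq_self_of_injective
      (Subgroup.subtype_injective _)]
  · -- `[Xp : E Xᵖ] = #(D/g(X))[p]` through `g` and the injective map `d ↦ d ^ p`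
    have hinj : Function.Injective (powMonoidHom p : D →* D) := by
      rw [injective_iff_map_eq_one]
      intro d hd
      exact hD d hd
    have h1 : (g.ker ⊔ powRange X p).relIndex (selP g p) =
        ((powRange X p).map g).relIndex ((selP g p).map g) := by
      rw [Subgroup.relIndex_map_map, sup_comm (powRange X p)]
      congr 1
      exact (sup_eq_left.mpr (ker_le_selP g p)).symm
    have h2 : (powRange X p).map g = g.range.map (powMonoidHom p : D →* D) := by
      ext d
      constructor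
      · rintro ⟨_, ⟨y, rfl⟩, rfl⟩
        exact ⟨g y, ⟨y, rfl⟩, by simp [map_pow]⟩
      · rintro ⟨_, ⟨y, rfl⟩, rfl⟩
        exact ⟨y ^ p, pow_mem_powRange p _, by simp [map_pow]⟩
    have h3 : (selP g p).map g =
        (g.range.comap (powMonoidHom p : D →* D)).map (powMonoidHom p : D →* D) := by
      ext d
      constructor
      · rintro ⟨x, ⟨e, he⟩, rfl⟩
        refine ⟨e, ?_, he⟩
        show (powMonoidHom p : D →* D) e ∈ g.range
        exact ⟨x, he.symm⟩
      · rintro ⟨e, he, rfl⟩
        have he' : (powMonoidHom p : D →* D) e ∈ g.range := he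
        obtain ⟨x, hx⟩ := he'
        exact ⟨x, ⟨e, hx.symm⟩, hx⟩
    rw [h1, h2, h3, Subgroup.relIndex_map_map_of_injective _ _ hinj]

end Selmer

/-! ### The final inequality -/

section Final

variable {X A D : Type*} [CommGroup X] [CommGroup A] [CommGroup D] (f : X →* A) (g : X →* D)
  (p : ℕ)

/-- **The counting inequality.**  If `D` has no `p`-torsion, `D/g(X)` is finite,
`[A : Aᵖ] = [E : Eᵖ]²` (`E = ker g`) and `[V : Xᵖ] ≤ [D : g(X) Dᵖ]` for
`V = Xp ∩ Xl`, then `[C : Cᵖ] ≤ [Xp : Xᵖ]` for `C = (A × D) ⧸ range (f, g)`. -/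
theorem index_powRange_class_le (hD : ∀ d : D, d ^ p = 1 → d = 1) [Finite (D ⧸ g.range)]
    (hE : (powRange g.ker p).index ≠ 0)
    (hA : (powRange A p).index = (powRange g.ker p).index ^ 2)
    (hV : (powRange X p).relIndex (selP g p ⊓ locP f p) ≤ (g.range ⊔ powRange D p).index) :
    (powRange ((A × D) ⧸ principal f g) p).index ≤ (powRange X p).relIndex (selP g p) := by
  set iE := (powRange g.ker p).index with hiE
  set cl := (g.range ⊔ powRange D p).index with hcl
  set a := (selP g p ⊓ locP f p).relIndex (selP g p) with ha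
  set b := (powRange X p).relIndex (selP g p ⊓ locP f p) with hb
  set s := (powRange X p).relIndex (selP g p) with hs
  have hcl0 : cl ≠ 0 := by
    haveI : Finite (D ⧸ (g.range ⊔ powRange D p)) :=
      Finite.of_surjective (QuotientGroup.map _ _ (MonoidHom.id D) (fun x hx => by
        rw [Subgroup.mem_comap]
        exact Subgroup.mem_sup_left hx))
        (by
          intro y
          obtain ⟨d, rfl⟩ := QuotientGroup.mk_surjective y
          exact ⟨QuotientGroup.mk d, rfl⟩)
    exact Subgroup.index_ne_zero_of_finite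
  have h1 : (powRange ((A × D) ⧸ principal f g) p).index * a = cl * iE ^ 2 := by
    rw [index_powRange_quotient, ← hA]
    exact index_principal_sup_mul_relIndex f g p
  have h2 : s = iE * cl := by
    rw [hs, relIndex_powRange_selP g p hD, relIndex_comap_pow_eq_index]
  have h3 : b * a = s :=
    Subgroup.relIndex_mul_relIndex _ _ _ (le_inf (powRange_le_selP g p) (powRange_le_locP f p))
      inf_le_left
  have hs0 : s ≠ 0 := by
    rw [h2]
    exact mul_ne_zero hE hcl0
  have ha0 : a ≠ 0 := by
    intro h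
    apply hs0
    rw [← h3, h, mul_zero]
  -- `iC * a = cl * iE² = iE * s = iE * b * a`
  have h4 : (powRange ((A × D) ⧸ principal f g) p).index * a = (iE * b) * a := by
    rw [h1, mul_assoc, h3, h2]
    ring
  have h5 : (powRange ((A × D) ⧸ principal f g) p).index = iE * b :=
    Nat.eq_of_mul_eq_mul_right (Nat.pos_of_ne_zero ha0) h4
  rw [h5, h2]
  exact Nat.mul_le_mul_left iE hV

/-- `[C : im(A × 1) Cᵖ] = [D : g(X) Dᵖ]`. -/
theorem index_map_leftPart_sup_powRange :
    ((leftPart A D).map (QuotientGroup.mk' (principal f g)) ⊔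
      powRange ((A × D) ⧸ principal f g) p).index = (g.range ⊔ powRange D p).index := by
  rw [index_map_sup_powRange_quotient, index_leftPart_sup]

end Final

end Fermat.Agent.PT.GLOB.RecCount15
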