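/-
Program F (S55, Poitou–Tate), chapter GLOB, leaf (REC-KUM), part 2 (helper15).

The Kummer fields `K(D^{1/p}) ⊆ Ω` (helper19's `KummerPairing19.kummerField`) for subgroups `D` of
the Selmer elements `selS S K p = {x ∈ Kˣ | div_{∉S}(x) ∈ p · Div}` of a number field `K ∋ ζ_p`:

* `selS`, `locS`, `dvd_ordAt_of_mem_selS`, `selS_le_selSub`, `exists_finset_selS_le`;
* `finiteDimensional_kummerField` : `K(D^{1/p})` is finite over `K` for `D ≤ selS`;
* `adjoin_roots_eq_top` : the generation hypothesis `hgen` of `KummerPairing19` / `UnramTower15`;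
* `isUnramifiedOutside_kummerField` : `K(D^{1/p})/K` is unramified outside `S` (`p ∈ S`);
* `smul_mem_selS` : `selS` is stable under `Gal(K/F)`.
-/
import Mathlib
import Fermat.Agent.PT.GLOB.KummerPairing19
import Fermat.Agent.PT.GLOB.RecCount15
import Fermat.Agent.PT.GLOB.UnramTower15
import Fermat.Agent.PT.GLOB.UnitsBridge24

set_option autoImplicit false
set_option linter.style.haveILetI false
set_option linter.unusedSectionVars false

namespace Fermat.Agent.PT.GLOB.RecKummer15

open NumberField IsDedekindDomain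
open Fermat.Agent.PT.GLOB.Interface23 Fermat.Agent.PT.GLOB.RecCount15
open Fermat.Agent.PT.GLOB.KummerPairing19 Fermat.Agent.PT.GLOB.UnitsBridge24
open Fermat.Agent.PT.GLOB.SelmerFinite15

section Basic

variable (S : Finset Nat.Primes) (K : Type) [Field K] [NumberField K] (p : ℕ)

/-- The Selmer elements: `x ∈ Kˣ` whose divisor away from `S` is a `p`-th power. -/
noncomputable abbrev selS : Subgroup Kˣ := selP (divT S K) p

/-- The elements of `Kˣ` which are `p`-th powers in `(K ⊗ ℚ_q)ˣ` for all `q ∈ S`. -/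
noncomputable abbrev locS : Subgroup Kˣ := locP (diagI S K) p

variable {S K p}

theorem dvd_ordAt_of_mem_selS {d : Kˣ} (hd : d ∈ selS S K p) (v : PrimeAway S K) :
    (p : ℤ) ∣ ordAt K v.1 d := by
  obtain ⟨E, hE⟩ := hd
  have h1 : ordAt K v.1 d = DivT.toFinsupp S K (divT S K d) v := (divT_apply S K d v).symm
  have h2 : DivT.toFinsupp S K (divT S K d) = p • DivT.toFinsupp S K E := by
    rw [← hE]
    rfl
  rw [h1, h2, Finsupp.smul_apply, nsmul_eq_mul]
  exact Dvd.intro _ rfl

variable (S K p)

theorem selS_le_selSub :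
    selS S K p ≤ selSub (R := 𝓞 K) (K := K) ((primesOverT S K : Finset _) : Set _) p := by
  intro d hd v hv
  have hv' : v ∉ primesOverT S K := hv
  have h := dvd_ordAt_of_mem_selS hd ⟨v, (not_mem_primesOverT_iff S K v).mp hv'⟩
  rw [ClassKillCT15.ordAt_eq_neg_toAdd] at h
  exact (dvd_neg).mp h

/-- The Selmer elements are generated modulo `p`-th powers by a finite set. -/
theorem exists_finset_selS_le (hp : 0 < p) :
    ∃ Y : Finset Kˣ, selS S K p ≤ Subgroup.closure (Y : Set Kˣ) ⊔ pthPowers K p := by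
  obtain ⟨Y, hY⟩ := exists_finset_cover K ((primesOverT S K : Finset _) : Set _)
    (Finset.finite_toSet _) p hp
  refine ⟨Y, fun d hd => ?_⟩
  obtain ⟨y, hyY, g, rfl⟩ := hY d (selS_le_selSub S K p hd)
  exact Subgroup.mul_mem_sup (Subgroup.subset_closure hyY) ⟨g, rfl⟩

end Basic

/-! ### Galois stability of the Selmer elements -/

section Stable

variable (S : Finset Nat.Primes) (F K : Type) [Field F] [Field K] [NumberField F] [NumberField K]
  [Algebra F K] (p : ℕ)

theorem smul_mem_selS (σ : K ≃ₐ[F] K) {d : Kˣ} (hd : d ∈ selS S K p) : σ • d ∈ selS S K p := by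
  obtain ⟨E, hE⟩ := hd
  refine ⟨σ • E, ?_⟩
  show (σ • E) ^ p = divT S K (σ • d)
  rw [ClassAction23.divT_smul, ← smul_pow']
  congr 1

end Stable

/-! ### The Kummer fields -/

section Field

variable (S : Finset Nat.Primes) (K Ω : Type) [Field K] [NumberField K] [Field Ω] [Algebra K Ω]
  [IsAlgClosure K Ω] (p : ℕ) [hp : Fact p.Prime] {ζ : K} (hζ : IsPrimitiveRoot ζ p)
  (D : Subgroup Kˣ)

theorem exists_root (d : Kˣ) : ∃ x : Ω, x ^ p = algebraMap K Ω d := by
  haveI : IsAlgClosed Ω := IsAlgClosure.isAlgClosed K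
  exact IsAlgClosed.exists_pow_nat_eq _ hp.out.pos

include hζ in
/-- `K(D^{1/p})` is finite over `K` for a group `D` of Selmer elements. -/
theorem finiteDimensional_kummerField (hD : D ≤ selS S K p) :
    FiniteDimensional K (kummerField (Ω := Ω) p D) := by
  obtain ⟨Y, hY⟩ := exists_finset_selS_le S K p hp.out.pos
  exact kummerField_finiteDimensional p hζ D (Y : Set Kˣ) Y.finite_toSet (hD.trans hY)
    (fun s _ => exists_root K Ω p s)

/-- The `p`-th roots of the elements of `D` generate `K(D^{1/p})` (hypothesis `hgen` of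
`KummerPairing19.kummer_main` and of `UnramTower15.isUnramifiedOutside_of_kummer`). -/
theorem adjoin_roots_eq_top :
    IntermediateField.adjoin K {x : kummerField (Ω := Ω) p D |
      ∃ d ∈ D, x ^ p = algebraMap K (kummerField (Ω := Ω) p D) d} = ⊤ := by
  set M : IntermediateField K Ω := kummerField (Ω := Ω) p D with hM
  apply IntermediateField.map_injective M.val
  rw [IntermediateField.adjoin_map, ← AlgHom.fieldRange_eq_map, IntermediateField.fieldRange_val]
  have : (M.val '' {x : M | ∃ d ∈ D, x ^ p = algebraMap K M d}) = rootsOf (Ω := Ω) p D := by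
    ext x
    constructor
    · rintro ⟨y, ⟨d, hd, hy⟩, rfl⟩
      refine ⟨d, hd, ?_⟩
      have := congrArg (fun z : M => (z : Ω)) hy
      simpa using this
    · rintro ⟨d, hd, hx⟩
      refine ⟨⟨x, mem_kummerField_of_pow_eq p D hd hx⟩, ⟨d, hd, ?_⟩, rfl⟩
      apply Subtype.ext
      simpa using hx
  rw [this]
  rfl

/-- Every element of `D` has a `p`-th root in `K(D^{1/p})`. -/
theorem exists_root_kummerField (d : Kˣ) (hd : d ∈ D) :
    ∃ x : kummerField (Ω := Ω) p D, x ^ p = algebraMap K (kummerField (Ω := Ω) p D) d := by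
  obtain ⟨x, hx⟩ := exists_root K Ω p d
  refine ⟨⟨x, mem_kummerField_of_pow_eq p D hd hx⟩, ?_⟩
  apply Subtype.ext
  simpa using hx

/-- `K(D^{1/p})/K` is unramified outside `S` for a group `D` of Selmer elements (`p ∈ S`). -/
theorem isUnramifiedOutside_kummerField (hpS : ∃ q ∈ S, (q : ℕ) = p) (hD : D ≤ selS S K p)
    [NumberField (kummerField (Ω := Ω) p D)] [IsGalois K (kummerField (Ω := Ω) p D)] :
    IsUnramifiedOutside S K (kummerField (Ω := Ω) p D) :=
  UnramTower15.isUnramifiedOutside_of_kummer S K _ hp.out hpS D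
    (fun _ hd v => dvd_ordAt_of_mem_selS (hD hd) v) (adjoin_roots_eq_top K Ω p D)

end Field

/-! ### The Kummer field of all Selmer elements is Galois over `ℚ` and unramified outside `S` -/

section OverRat

variable (S : Finset Nat.Primes) (K Ω : Type) [Field K] [NumberField K] [IsGalois ℚ K] [Field Ω]
  [Algebra K Ω] [IsAlgClosure K Ω] [CharZero Ω] (p : ℕ) [hp : Fact p.Prime]

/-- The preimage of `K(selS^{1/p})` under a `ℚ`-automorphism of `Ω`, as an intermediate field of
`Ω/K`. -/
noncomputable def preimageField (σ : Ω ≃ₐ[ℚ] Ω) : IntermediateField K Ω where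
  carrier := {x | σ x ∈ kummerField (Ω := Ω) p (selS S K p)}
  mul_mem' ha hb := by
    rw [Set.mem_ofPred_eq, map_mul]
    exact mul_mem ha hb
  one_mem' := by
    rw [Set.mem_ofPred_eq, map_one]
    exact one_mem _
  add_mem' ha hb := by
    rw [Set.mem_ofPred_eq, map_add]
    exact add_mem ha hb
  zero_mem' := by
    rw [Set.mem_ofPred_eq, map_zero]
    exact zero_mem _
  algebraMap_mem' k := by
    rw [Set.mem_ofPred_eq, ← AlgEquiv.restrictNormal_commutes σ K k]
    exact (kummerField (Ω := Ω) p (selS S K p)).algebraMap_mem _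
  inv_mem' x hx := by
    rw [Set.mem_ofPred_eq, map_inv₀]
    exact inv_mem hx

theorem mem_preimageField (σ : Ω ≃ₐ[ℚ] Ω) (x : Ω) :
    x ∈ preimageField S K Ω p σ ↔ σ x ∈ kummerField (Ω := Ω) p (selS S K p) := Iff.rfl

/-- `K(selS^{1/p})` is stable under every `ℚ`-automorphism of `Ω`. -/
theorem apply_mem_kummerField (σ : Ω ≃ₐ[ℚ] Ω) {x : Ω}
    (hx : x ∈ kummerField (Ω := Ω) p (selS S K p)) :
    σ x ∈ kummerField (Ω := Ω) p (selS S K p) := by
  have hle : kummerField (Ω := Ω) p (selS S K p) ≤ preimageField S K Ω p σ := by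
    unfold kummerField
    rw [IntermediateField.adjoin_le_iff]
    rintro y ⟨d, hd, hy⟩
    rw [SetLike.mem_coe, mem_preimageField]
    refine mem_kummerField_of_pow_eq p (selS S K p)
      (smul_mem_selS S ℚ K p (σ.restrictNormal K) hd) ?_
    rw [← map_pow, hy, ← AlgEquiv.restrictNormal_commutes σ K]
    rfl
  exact hle hx

/-- `K(selS^{1/p})` is normal over `ℚ` (for the `ℚ`-algebra structure of an intermediate field of
`Ω/ℚ`). -/
theorem normal_rat_kummerField :
    @Normal ℚ ((kummerField (Ω := Ω) p (selS S K p)).restrictScalars ℚ) _ _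
      (IntermediateField.algebra' _) := by
  haveI : Algebra.IsAlgebraic ℚ Ω := Algebra.IsAlgebraic.trans ℚ K Ω
  haveI : IsAlgClosure ℚ Ω := ⟨IsAlgClosure.isAlgClosed K, inferInstance⟩
  haveI : Normal ℚ Ω := IsAlgClosure.normal ℚ Ω
  rw [IntermediateField.normal_iff_forall_map_le']
  rintro σ _ ⟨x, hx, rfl⟩
  exact apply_mem_kummerField S K Ω p σ hx

/-- `K(selS^{1/p})` is Galois over `ℚ`, for any `ℚ`-algebra structure. -/
theorem isGalois_rat_kummerField (A : Algebra ℚ (kummerField (Ω := Ω) p (selS S K p))) :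
    @IsGalois ℚ _ (kummerField (Ω := Ω) p (selS S K p)) _ A := by
  have hA : A = IntermediateField.algebra'
      ((kummerField (Ω := Ω) p (selS S K p)).restrictScalars ℚ) := Subsingleton.elim _ _
  rw [hA]
  haveI := normal_rat_kummerField S K Ω p
  exact @IsGalois.mk ℚ _ ((kummerField (Ω := Ω) p (selS S K p)).restrictScalars ℚ) _
    (IntermediateField.algebra' _) inferInstance inferInstance

/-- `K(selS^{1/p})/ℚ` is unramified outside `S` if `K/ℚ` is (`p ∈ S`, `ζ_p ∈ K`). -/
theorem isUnramifiedOutside_rat_kummerField {ζ : K} (hζ : IsPrimitiveRoot ζ p)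
    (hpS : ∃ q ∈ S, (q : ℕ) = p) (hK : IsUnramifiedOutside S ℚ K)
    [NumberField (kummerField (Ω := Ω) p (selS S K p))]
    [IsGalois ℚ (kummerField (Ω := Ω) p (selS S K p))] :
    IsUnramifiedOutside S ℚ (kummerField (Ω := Ω) p (selS S K p)) := by
  haveI : IsGalois K (kummerField (Ω := Ω) p (selS S K p)) :=
    kummerField_isGalois p hζ (selS S K p) (fun d _ => exists_root K Ω p d)
  exact UnramTower15.isUnramifiedOutside_trans S ℚ K _ hK
    (isUnramifiedOutside_kummerField S K Ω p (selS S K p) hpS le_rfl)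

end OverRat

end Fermat.Agent.PT.GLOB.RecKummer15
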