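/-
Program F (S55, Poitou–Tate), chapter GLOB, leaf (REC-ASM) (helper15).

**Reciprocity / existence modulo `p` in norm form** (`InterfaceCF23.RecNormForm p S`), assembled from

* `FundClassExists p S` (GCF'): a fundamental class on every layer unramified outside `S`;
* `TateNormFacts p S` (REC-T2, from FG's `TateMinusTwo`): for an abelian layer `L/K` of exponent `p`
  with a fundamental class, `p`-th powers of invariant classes are norms and
  `[C(L)^G : N C(L)] = [L : K]`;
* `SplitNorm p S` (REC-SPLIT): semilocal norms are surjective for Kummer extensions by local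
  `p`-th powers;
* `SUnitIndex p S` (REC-SU) and `LocalPowerIndex p S` (REC-LPI): the indices `[E_S : E_S^p]` and
  `[I_S : I_S^p]`;

via Kummer theory (`KummerPairing19`, `RecKummer15`) and the counting argument `RecCount15`.
-/
import Mathlib
import Fermat.Agent.PT.GLOB.InterfaceCF23
import Fermat.Agent.PT.GLOB.CycToClasses16
import Fermat.Agent.PT.GLOB.TowerNorm6
import Fermat.Agent.PT.GLOB.RecKummer15

set_option autoImplicit false
set_option linter.style.haveILetI false
set_option linter.unusedSectionVars false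

namespace Fermat.Agent.PT.GLOB.RecAssembly15

open NumberField IsDedekindDomain groupCohomology
open Fermat.Agent.PT.GLOB.Interface23 Fermat.Agent.PT.GLOB.ClassAction23
  Fermat.Agent.PT.GLOB.Tower23 Fermat.Agent.PT.GLOB.RecCount15
  Fermat.Agent.PT.GLOB.KummerPairing19 Fermat.Agent.PT.GLOB.UnitsBridge24
  Fermat.Agent.PT.GLOB.RecKummer15

/-! ### The inputs -/

section Inputs

variable (p : ℕ) (S : Finset Nat.Primes)

/-- **(GCF')** every layer unramified outside `S` carries a class satisfying FG's `IsFundClass p`. -/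
def FundClassExists : Prop :=
  p.Prime → p ≠ 2 → (∃ q ∈ S, (q : ℕ) = p) →
  ∀ (K L : Type) [Field K] [Field L] [NumberField K] [NumberField L] [Algebra K L] [IsGalois K L],
    IsUnramifiedOutside S K L →
      ∃ u : H2 (repCT S K L), Fermat.Agent.PT.FG.Interface8.IsFundClass p (repCT S K L) u

/-- **(REC-T2)** consequences of Tate's theorem in degree `-2` for abelian layers of exponent `p`. -/
def TateNormFacts : Prop :=
  ∀ (K L : Type) [Field K] [Field L] [NumberField K] [NumberField L] [Algebra K L] [IsGalois K L],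
    (∀ s t : L ≃ₐ[K] L, s * t = t * s) → (∀ s : L ≃ₐ[K] L, s ^ p = 1) →
    ∀ u : H2 (repCT S K L), Fermat.Agent.PT.FG.Interface8.IsFundClass p (repCT S K L) u →
      (∀ c ∈ CycToClasses16.fixedCT S K L, c ^ p ∈ (CycToClasses16.normCT S K L).range) ∧
      (CycToClasses16.normCT S K L).range.relIndex (CycToClasses16.fixedCT S K L) =
        Nat.card (L ≃ₐ[K] L)

/-- **(REC-SPLIT)** for `H = K(D^{1/p})` with `D` consisting of local `p`-th powers at `S`, every
`S`-idele of `K` is a norm from `H`. -/
def SplitNorm : Prop :=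
  p.Prime →
  ∀ (K H : Type) [Field K] [Field H] [NumberField K] [NumberField H] [Algebra K H] [IsGalois K H]
    (ζ : K), IsPrimitiveRoot ζ p → ∀ D : Subgroup Kˣ,
    (∀ d ∈ D, ∃ x : H, x ^ p = algebraMap K H d) →
    IntermediateField.adjoin K {x : H | ∃ d ∈ D, x ^ p = algebraMap K H d} = ⊤ →
    (∀ d ∈ D, ∃ a : IT S K, diagI S K d = a ^ p) →
    ∀ x : IT S K, ∃ y : IT S H, (∏ g : H ≃ₐ[K] H, g • y) = inclI S K H x

/-- **(REC-SU)** `[E_S : E_S^p] = p ^ (#S_K + [K:ℚ]/2)` for `K ∋ ζ_p`. -/
def SUnitIndex : Prop :=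
  p.Prime → p ≠ 2 →
  ∀ (K : Type) [Field K] [NumberField K] (ζ : K), IsPrimitiveRoot ζ p →
    (powRange (divT S K).ker p).index = p ^ ((primesOverT S K).card + Module.finrank ℚ K / 2)

/-- **(REC-LPI)** `[I_S : I_S^p] = p ^ (2 #S_K + [K:ℚ])` for `K ∋ ζ_p`. -/
def LocalPowerIndex : Prop :=
  p.Prime → p ≠ 2 → (∃ q ∈ S, (q : ℕ) = p) →
  ∀ (K : Type) [Field K] [NumberField K] (ζ : K), IsPrimitiveRoot ζ p →
    (powRange (IT S K) p).index = p ^ (2 * (primesOverT S K).card + Module.finrank ℚ K)

end Inputs

/-! ### Auxiliary facts -/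

section Aux

variable (S : Finset Nat.Primes) (K : Type) [Field K] [NumberField K] (p : ℕ)

/-- The group of divisors has no `p`-torsion. -/
theorem divT_torsionFree (hp : p ≠ 0) (d : DivT S K) (hd : d ^ p = 1) : d = 1 := by
  have h : p • DivT.toFinsupp S K d = 0 := hd
  have h2 : DivT.toFinsupp S K d = 0 := by
    ext v
    have := congrArg (fun f : PrimeAway S K →₀ ℤ => f v) h
    simp only [Finsupp.smul_apply, Finsupp.zero_apply, nsmul_eq_mul] at this
    rcases mul_eq_zero.mp this with h3 | h3
    · exact absurd (by exact_mod_cast h3) hp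
    · exact h3
  exact h2

/-- A number field containing a primitive `p`-th root of unity, `p > 2`, has even degree. -/
theorem even_finrank_of_primitiveRoot {ζ : K} (hζ : IsPrimitiveRoot ζ p) (hp : p.Prime)
    (hp2 : p ≠ 2) : Even (Module.finrank ℚ K) := by
  have hreal : NumberField.InfinitePlace.nrRealPlaces K = 0 :=
    NumberField.InfinitePlace.IsPrimitiveRoot.nrRealPlaces_eq_zero_of_two_lt
      (lt_of_le_of_ne hp.two_le (Ne.symm hp2)) hζ
  have h := NumberField.InfinitePlace.card_add_two_mul_card_eq_rank K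
  rw [hreal, zero_add] at h
  exact ⟨NumberField.InfinitePlace.nrComplexPlaces K, by rw [← h]; ring⟩

end Aux

/-! ### A layer `L/K` and its norm subgroup -/

section Layer

variable (S : Finset Nat.Primes)
variable (K L : Type) [Field K] [Field L] [NumberField K] [NumberField L] [Algebra K L]
  [IsGalois K L] (p : ℕ)

/-- The classes of `K` whose image in `C_S(L)` is a norm. -/
noncomputable def normSub : Subgroup (CT S K) :=
  (CycToClasses16.normCT S K L).range.comap (inclCT S K L)

theorem mem_normSub (d : CT S K) :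
    d ∈ normSub S K L ↔ ∃ c : CT S L, CycToClasses16.normCT S K L c = inclCT S K L d := Iff.rfl

theorem range_inclCT_eq_fixedCT (hT : S.Nonempty) (hunr : IsUnramifiedOutside S K L) :
    (inclCT S K L).range = CycToClasses16.fixedCT S K L := by
  ext a
  exact TowerMaps6.mem_range_inclCT_iff S K L hT hunr a

theorem index_normSub (hT : S.Nonempty) (hunr : IsUnramifiedOutside S K L) :
    (normSub S K L).index =
      (CycToClasses16.normCT S K L).range.relIndex (CycToClasses16.fixedCT S K L) := by
  rw [normSub, Subgroup.index_comap, range_inclCT_eq_fixedCT S K L hT hunr]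

theorem powRange_le_normSub
    (hpow : ∀ c : CT S L, c ∈ CycToClasses16.fixedCT S K L →
      c ^ p ∈ (CycToClasses16.normCT S K L).range) :
    powRange (CT S K) p ≤ normSub S K L := by
  rintro _ ⟨d, rfl⟩
  show inclCT S K L ((powMonoidHom p : CT S K →* CT S K) d) ∈
    (CycToClasses16.normCT S K L).range
  rw [powMonoidHom_apply, map_pow]
  exact hpow _ (fun τ => TowerMaps6.smul_inclCT S K L τ d)

/-- The classes of `S`-ideles of `K` are norms if all `S`-ideles of `K` are (semilocal) norms. -/
theorem leftPart_le_normSub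
    (hsplit : ∀ x : IT S K, ∃ y : IT S L, (∏ g : L ≃ₐ[K] L, g • y) = inclI S K L x) :
    (leftPart (IT S K) (DivT S K)).map (QuotientGroup.mk' (diagJ S K).range) ≤ normSub S K L := by
  rintro _ ⟨_, ⟨x, rfl⟩, rfl⟩
  obtain ⟨y, hy⟩ := hsplit x
  rw [mem_normSub]
  refine ⟨toCT S L (y, 1), ?_⟩
  rw [← CycToClasses16.toCT_normJ]
  show toCT S L (normJ S K L (y, 1)) = inclCT S K L (toCT S K (x, 1))
  rw [inclCT_toCT]
  congr 1
  unfold normJ
  refine Prod.ext ?_ ?_
  · rw [Prod.fst_prod]
    exact hy
  · rw [Prod.snd_prod]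
    show ∏ σ : L ≃ₐ[K] L, σ • (1 : DivT S L) = inclDiv S K L 1
    rw [map_one]
    exact Finset.prod_eq_one fun σ _ => smul_one σ

/-- If the norm subgroup is contained in the `p`-th powers, every norm is a `p`-th power. -/
theorem exists_pow_of_normSub_le (hunr : IsUnramifiedOutside S K L)
    (hle : normSub S K L ≤ powRange (CT S K) p) (c : CT S L) :
    ∃ d : CT S K, InterfaceCF23.normCT S K L c = inclCT S K L (d ^ p) := by
  have h1 : TowerNorm6.normCT S K L hunr c ∈ normSub S K L := by
    rw [mem_normSub]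
    exact ⟨c, (TowerNorm6.inclCT_normCT S K L hunr c).symm⟩
  obtain ⟨d, hd⟩ := hle h1
  refine ⟨d, ?_⟩
  have hd' : d ^ p = TowerNorm6.normCT S K L hunr c := hd
  rw [hd', TowerNorm6.inclCT_normCT]
  rfl

end Layer

/-! ### The counting inequality for `C_S(K)` -/

section Main

variable (p : ℕ) (S : Finset Nat.Primes)

theorem index_sup_powRange_divT_ne_zero (K : Type) [Field K] [NumberField K] :
    ((divT S K).range ⊔ powRange (DivT S K) p).index ≠ 0 := by
  have h1 : ((divT S K).range ⊔ powRange (DivT S K) p).index ∣ (divT S K).range.index :=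
    Subgroup.index_dvd_of_le le_sup_left
  exact ne_zero_of_dvd_ne_zero Subgroup.index_ne_zero_of_finite h1

/-- **The counting inequality**: `[C_S(K) : C_S(K)^p] ≤ [selS : (Kˣ)^p]` (and the index is
finite) for a number field `K ∋ ζ_p`. -/
theorem index_powRange_CT_le (hp : p.Prime) (hp2 : p ≠ 2) (hpS : ∃ q ∈ S, (q : ℕ) = p)
    (hGCF : FundClassExists p S) (hT2 : TateNormFacts p S) (hsplit : SplitNorm p S)
    (hSU : SUnitIndex p S) (hLPI : LocalPowerIndex p S)
    (K Ω : Type) [Field K] [NumberField K] [Field Ω] [Algebra K Ω] [IsAlgClosure K Ω]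
    (ζ : K) (hζ : IsPrimitiveRoot ζ p) :
    (powRange (CT S K) p).index ≠ 0 ∧
      (powRange (CT S K) p).index ≤ (pthPowers K p).relIndex (selS S K p) := by
  haveI : Fact p.Prime := ⟨hp⟩
  have hT : S.Nonempty := by
    obtain ⟨q, hq, -⟩ := hpS
    exact ⟨q, hq⟩
  have hE : (powRange (divT S K).ker p).index ≠ 0 := by
    rw [hSU hp hp2 K ζ hζ]
    exact pow_ne_zero _ hp.ne_zero
  have hA : (powRange (IT S K) p).index = (powRange (divT S K).ker p).index ^ 2 := by
    rw [hLPI hp hp2 hpS K ζ hζ, hSU hp hp2 K ζ hζ, ← pow_mul]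
    congr 1
    obtain ⟨m, hm⟩ := even_finrank_of_primitiveRoot K p hζ hp hp2
    rw [hm]
    omega
  have hcl := index_sup_powRange_divT_ne_zero p S K
  -- the field `H' = K(V^{1/p})`, `V` = Selmer elements which are local `p`-th powers
  have hV : (powRange Kˣ p).relIndex (selS S K p ⊓ locS S K p) ≤
      ((divT S K).range ⊔ powRange (DivT S K) p).index := by
    set V : Subgroup Kˣ := selS S K p ⊓ locS S K p with hVdef
    haveI : FiniteDimensional K (kummerField (Ω := Ω) p V) :=
      finiteDimensional_kummerField S K Ω p hζ V inf_le_left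
    haveI : NumberField (kummerField (Ω := Ω) p V) := NumberField.of_module_finite K _
    obtain ⟨hGK, hab, hexp, hdeg, -⟩ :=
      kummerField_main (Ω := Ω) p hζ V (fun d _ => exists_root K Ω p d)
    haveI := hGK
    have hunr := isUnramifiedOutside_kummerField S K Ω p V hpS inf_le_left
    obtain ⟨u, hu⟩ := hGCF hp hp2 hpS K (kummerField (Ω := Ω) p V) hunr
    obtain ⟨hpow, hidx⟩ := hT2 K (kummerField (Ω := Ω) p V) hab hexp u hu
    have hN : (normSub S K (kummerField (Ω := Ω) p V)).index =
        (powRange Kˣ p).relIndex V := by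
      rw [index_normSub S K _ hT hunr, hidx, IsGalois.card_aut_eq_finrank, hdeg]
      rfl
    have hsp := hsplit hp K (kummerField (Ω := Ω) p V) ζ hζ V
      (fun d hd => exists_root_kummerField K Ω p V d hd) (adjoin_roots_eq_top K Ω p V)
      (fun d hd => by
        obtain ⟨a, ha⟩ := hd.2
        exact ⟨a, ha.symm⟩)
    have hQ : (leftPart (IT S K) (DivT S K)).map (QuotientGroup.mk' (diagJ S K).range) ⊔
        powRange (CT S K) p ≤ normSub S K (kummerField (Ω := Ω) p V) :=
      sup_le (leftPart_le_normSub S K _ hsp) (powRange_le_normSub S K _ p hpow)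
    have hdvd := Subgroup.index_dvd_of_le hQ
    rw [← hN]
    refine Nat.le_of_dvd (Nat.pos_of_ne_zero hcl) ?_
    rw [← index_map_leftPart_sup_powRange (diagI S K) (divT S K) p]
    exact hdvd
  refine ⟨?_, ?_⟩
  · -- finiteness of the index
    have h1 := index_principal_sup_mul_relIndex (diagI S K) (divT S K) p
    have h2 : (powRange (CT S K) p).index =
        (principal (diagI S K) (divT S K) ⊔ powRange (IT S K × DivT S K) p).index :=
      index_powRange_quotient (diagJ S K).range p
    intro h0
    rw [h2] at h0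
    rw [h0, zero_mul] at h1
    have hA0 : (powRange (IT S K) p).index ≠ 0 := by
      rw [hA]
      exact pow_ne_zero _ hE
    exact mul_ne_zero hcl hA0 h1.symm
  · exact index_powRange_class_le (diagI S K) (divT S K) p
      (divT_torsionFree S K p hp.ne_zero) hE hA hV

/-- **(REC) reciprocity / existence modulo `p` in norm form**, from the class formation (GCF'),
Tate's theorem in degree `-2`, the split norm lemma and the two index computations. -/
theorem recNormForm_of (hGCF : FundClassExists p S) (hT2 : TateNormFacts p S)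
    (hsplit : SplitNorm p S) (hSU : SUnitIndex p S) (hLPI : LocalPowerIndex p S) :
    InterfaceCF23.RecNormForm p S := by
  intro hp hp2 hpS K Ω _ _ _ _ _ _ hK hζ'
  obtain ⟨ζ, hζ⟩ := hζ'
  haveI : Fact p.Prime := ⟨hp⟩
  haveI : CharZero Ω := charZero_of_injective_algebraMap (algebraMap K Ω).injective
  have hT : S.Nonempty := by
    obtain ⟨q, hq, -⟩ := hpS
    exact ⟨q, hq⟩
  haveI : FiniteDimensional K (kummerField (Ω := Ω) p (selS S K p)) :=
    finiteDimensional_kummerField S K Ω p hζ (selS S K p) le_rfl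
  haveI hNF : NumberField (kummerField (Ω := Ω) p (selS S K p)) :=
    NumberField.of_module_finite K _
  haveI hGQ : IsGalois ℚ (kummerField (Ω := Ω) p (selS S K p)) :=
    isGalois_rat_kummerField S K Ω p _
  refine ⟨kummerField (Ω := Ω) p (selS S K p), hNF, hGQ,
    isUnramifiedOutside_rat_kummerField S K Ω p hζ hpS hK, ?_⟩
  obtain ⟨hGK, hab, hexp, hdeg, -⟩ :=
    kummerField_main (Ω := Ω) p hζ (selS S K p) (fun d _ => exists_root K Ω p d)
  haveI := hGK
  have hunr := isUnramifiedOutside_kummerField S K Ω p (selS S K p) hpS le_rfl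
  obtain ⟨u, hu⟩ := hGCF hp hp2 hpS K (kummerField (Ω := Ω) p (selS S K p)) hunr
  obtain ⟨hpow, hidx⟩ := hT2 K (kummerField (Ω := Ω) p (selS S K p)) hab hexp u hu
  have hPN := powRange_le_normSub S K (kummerField (Ω := Ω) p (selS S K p)) p hpow
  have hN : (normSub S K (kummerField (Ω := Ω) p (selS S K p))).index =
      (pthPowers K p).relIndex (selS S K p) := by
    rw [index_normSub S K _ hT hunr, hidx, IsGalois.card_aut_eq_finrank, hdeg]
  obtain ⟨h0, hle⟩ := index_powRange_CT_le p S hp hp2 hpS hGCF hT2 hsplit hSU hLPI K Ω ζ hζ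
  -- `C^p ≤ N`, `[C : C^p] ≤ [C : N]`, hence `N = C^p`
  have hmul := Subgroup.relIndex_mul_index hPN
  rw [← hN] at hle
  have hN0 : (normSub S K (kummerField (Ω := Ω) p (selS S K p))).index ≠ 0 := by
    intro h
    rw [h, mul_zero] at hmul
    exact h0 hmul.symm
  have hrel : (powRange (CT S K) p).relIndex
      (normSub S K (kummerField (Ω := Ω) p (selS S K p))) = 1 := by
    have h1 : (powRange (CT S K) p).relIndex
        (normSub S K (kummerField (Ω := Ω) p (selS S K p))) ≠ 0 := by
      intro h
      rw [h, zero_mul] at hmul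
      exact h0 hmul.symm
    have h2 : (powRange (CT S K) p).relIndex
        (normSub S K (kummerField (Ω := Ω) p (selS S K p))) *
          (normSub S K (kummerField (Ω := Ω) p (selS S K p))).index ≤
        1 * (normSub S K (kummerField (Ω := Ω) p (selS S K p))).index := by
      rw [hmul, one_mul]
      exact hle
    have h3 := Nat.le_of_mul_le_mul_right h2 (Nat.pos_of_ne_zero hN0)
    omega
  have hNP : normSub S K (kummerField (Ω := Ω) p (selS S K p)) ≤ powRange (CT S K) p :=
    Subgroup.relIndex_eq_one.mp hrel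
  intro c
  exact exists_pow_of_normSub_le S K _ p hunr hNP c

end Main

end Fermat.Agent.PT.GLOB.RecAssembly15
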