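/-
Program F (S55, Poitou–Tate), chapter GLOB, leaf C3 final assembly — helper6.

**(GCF') existence of the global fundamental classes at `p`**
(`RecAssembly15.FundClassExists p S`), by instantiating helper23's frame theorems
(`FrameKit23.exists_class'`, `FrameKit23.family_entry`, `BridgeGen23.isFundClass_of_family`) and
helper22/17's cyclotomic reciprocity (`CycRecShapes22`, `CycRecGen22`, `CycInclShape17`) in the
field model of `GalLayers6`/`Compositum6`:

  `Ω := Comp K L (CyclotomicField (p ^ r) K)`,  `K₁ ⊂ Ω` the cyclic sublayer of degree `p ^ a`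
  (`p ^ a ∥ [L : K]`) of the cyclotomic tower,  `K' := FH K L H`,  `N' := comp K' K₁`,
  `N := comp L K₁`.

* `exists_isFundClass_core` : the class for a layer `L/K` inside ANY cyclotomic frame `Ω ⊇ L`
  (hypothesis-free apart from the data `Ω, ζ, K₁`);
* `fundClassExists_of (hsub : CycSubLayer p) (hcomp : CompUnram S) (hcyclo : CycloUnram S p) :
  RecAssembly15.FundClassExists p S`;
* **`fundClassExists p S : RecAssembly15.FundClassExists p S`** (UNCONDITIONAL; inputs from
  `CycSubLayer23` (helper23) and `CompUnram26` (helper26)).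
-/
import Fermat.Agent.PT.GLOB.FrameKit23
import Fermat.Agent.PT.GLOB.BridgeGen23
import Fermat.Agent.PT.GLOB.GalLayers6
import Fermat.Agent.PT.GLOB.Compositum6
import Fermat.Agent.PT.GLOB.FundClassBridge6
import Fermat.Agent.PT.GLOB.CycRecShapes22
import Fermat.Agent.PT.GLOB.CycRecGen22
import Fermat.Agent.PT.GLOB.CycInclShape17
import Fermat.Agent.PT.GLOB.RecAssembly15
import Fermat.Agent.PT.GLOB.CycSubLayer23
import Fermat.Agent.PT.GLOB.CompUnram26

set_option autoImplicit false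
set_option linter.unusedSectionVars false

open CategoryTheory groupCohomology

namespace Fermat.Agent.PT.GLOB.FundClassExists6

open NumberField
open Fermat.Agent.PT.GLOB.Interface23 Fermat.Agent.PT.GLOB.ClassAction23
  Fermat.Agent.PT.GLOB.Tower23 Fermat.Agent.PT.GLOB.InterfaceCF23
  Fermat.Agent.PT.GLOB.TowerCohCT23 Fermat.Agent.PT.GLOB.NormSubCT23
  Fermat.Agent.PT.GLOB.CycChar22 Fermat.Agent.PT.GLOB.CycRecShape23
  Fermat.Agent.PT.GLOB.GalLayers6 Fermat.Agent.PT.GLOB.Compositum6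
  Fermat.Agent.PT.GLOB.FundClassBridge6

open scoped Fermat.Agent.PT.GLOB.GalLayers6 Fermat.Agent.PT.GLOB.Compositum6

noncomputable section

/-- **Input (K₁)**: cyclic sublayers of `p`-power degree in cyclotomic towers (helper22,
`CycSubLayer22`). -/
def CycSubLayer (p : ℕ) : Prop :=
  ∀ (K : Type) [Field K] [NumberField K] (a : ℕ), ∃ r : ℕ, 0 < r ∧
    ∀ (Ω : Type) [Field Ω] [NumberField Ω] [Algebra K Ω] [IsGalois K Ω] (ζ : Ω),
      IsPrimitiveRoot ζ (p ^ r) →
      ∃ K₁ : IntermediateField K Ω, IsGalois K K₁ ∧ Module.finrank K K₁ = p ^ a ∧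
        IsCyclic (K₁ ≃ₐ[K] K₁) ∧ ∀ τ : Ω ≃ₐ[K] Ω, τ ζ = ζ → ∀ x ∈ K₁, τ x = x

/-- **Input (D1a)**: the compositum of two layers unramified outside `S` is unramified outside
`S`. -/
def CompUnram (S : Finset Nat.Primes) : Prop :=
  ∀ (K L K' : Type) [Field K] [Field L] [Field K'] [NumberField K] [NumberField L]
    [NumberField K'] [Algebra K L] [Algebra K K'] [IsGalois K L] [IsGalois K K'],
    IsUnramifiedOutside S K L → IsUnramifiedOutside S K K' →
      IsUnramifiedOutside S K (Comp K L K')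

/-- **Input (D1b)**: `K(ζ_{p^r})/K` is unramified outside `S ∋ p`. -/
def CycloUnram (S : Finset Nat.Primes) (p : ℕ) : Prop :=
  ∀ (r : ℕ) (K : Type) [Field K] [NumberField K] [IsGalois K (CyclotomicField (p ^ r) K)],
    IsUnramifiedOutside S K (CyclotomicField (p ^ r) K)

section Range

variable (K L : Type) [Field K] [Field L] [NumberField K] [NumberField L] [Algebra K L]
  [FiniteDimensional K L] (H : Subgroup (L ≃ₐ[K] L))

theorem range_galIncl_FH : (galIncl K (FH K L H) L).range = H := by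
  ext σ
  constructor
  · rintro ⟨τ, rfl⟩
    rw [← coe_eH]
    exact (eH K L H τ).2
  · intro hσ
    refine ⟨(eH K L H).symm ⟨σ, hσ⟩, ?_⟩
    rw [← coe_eH, MulEquiv.apply_symm_apply]

end Range

section Core

variable (S : Finset Nat.Primes) (p : Nat.Primes) (hpS : p ∈ S) (r : ℕ) [NeZero ((p : ℕ) ^ r)]
variable (K L Ω : Type) [Field K] [Field L] [Field Ω] [NumberField K] [NumberField L]
  [NumberField Ω] [Algebra K L] [Algebra K Ω] [Algebra L Ω] [IsScalarTower K L Ω]
  [IsGalois K L] [IsGalois K Ω] [IsGalois L Ω]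

include hpS in
/-- **The fundamental class of a layer `L/K` inside a cyclotomic frame `Ω ⊇ L`**. -/
theorem exists_isFundClass_core (hp2 : (p : ℕ) ≠ 2) {ζ : Ω}
    (hζ : IsPrimitiveRoot ζ ((p : ℕ) ^ r)) (hunΩ : IsUnramifiedOutside S K Ω)
    (K₁ : IntermediateField K Ω) [IsGalois K K₁] (a : ℕ)
    (ha : Module.finrank K K₁ = (p : ℕ) ^ a) (hcycl : IsCyclic (K₁ ≃ₐ[K] K₁))
    (hfix : ∀ τ : Ω ≃ₐ[K] Ω, τ ζ = ζ → ∀ x ∈ K₁, τ x = x)
    (hdiv : (p : ℕ) ^ a ∣ Module.finrank K L)
    (hexact : ¬ (p : ℕ) ^ (a + 1) ∣ Module.finrank K L) :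
    ∃ u : H2 (repCT S K L), Fermat.Agent.PT.FG.Interface8.IsFundClass (p : ℕ) (repCT S K L) u := by
  have hodd : Odd (p : ℕ) := p.2.odd_of_ne_two hp2
  have hCrit := CycRecShapes22.cycNormCrit S p hpS r hp2
  have hCont := CycRecShapes22.cycContain S p hpS r hp2
  have hIncl := CycInclShape17.cycIncl S p hpS r
  have hGen := CycRecGen22.cycGen S p hpS r hp2
  obtain ⟨σ, hσ⟩ := hcycl.exists_generator
  have hE : ∀ (τ : Ω ≃ₐ[K] Ω) (x : Ω), x ∈ K₁ → τ x ∈ K₁ := stable_of_normal K₁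
  have hcyc₁ : ∀ τ : Ω ≃ₐ[K] Ω, hζ.autToPow K τ = 1 →
      ∀ x : K₁, τ (algebraMap K₁ Ω x) = algebraMap K₁ Ω x := fun τ h x =>
    hfix τ (CycRecGen22.apply_zeta_of_autToPow_eq_one p r K Ω hζ τ h) x x.2
  have hpg : ∃ a : ℕ, Module.finrank K K₁ = (p : ℕ) ^ a := ⟨a, ha⟩
  have hunKK₁ : IsUnramifiedOutside S K K₁ := Devissage19.isUnramifiedOutside_bot S K K₁ Ω hunΩ
  have hidx := LayerFrame23.hidx_of_layer S p hpS K K₁ hodd hunKK₁ σ hσ hpg
  obtain ⟨j₀, hj₀⟩ := hGen K K₁ Ω ζ hζ hcyc₁ hpg hunKK₁ hidx σ hσ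
  -- the layer `N = L·K₁`
  have : IsGalois K (comp L K₁) := isGalois_comp K L K₁ hE
  have : IsGalois L (comp L K₁) := isGalois_comp L L K₁ hE
  have hunKN : IsUnramifiedOutside S K (comp L K₁) :=
    Devissage19.isUnramifiedOutside_bot S K (comp L K₁) Ω hunΩ
  have hdiv' : Module.finrank K K₁ ∣ Module.finrank K L := by rw [ha]; exact hdiv
  obtain ⟨u, hu⟩ := FrameKit23.exists_class' S p hpS r K L K₁ (comp L K₁) Ω hodd hζ hCrit hCont
    hIncl hunKN σ hσ hcyc₁ hpg (fixes_comp L K₁) j₀ hj₀ hdiv'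
  refine ⟨u, BridgeGen23.isFundClass_of_family (p : ℕ) S K L u (fun H hH => ?_)⟩
  refine ⟨FH K L H, inferInstance, inferInstance, inferInstance, inferInstance, inferInstance, ?_⟩
  have : IsGalois (FH K L H) Ω := IsGalois.tower_top_of_isGalois K (FH K L H) Ω
  have : IsGalois (FH K L H) (comp (FH K L H) K₁) := isGalois_comp (FH K L H) (FH K L H) K₁ hE
  have : IsGalois (FH K L H) (comp L K₁) := isGalois_comp (FH K L H) L K₁ hE
  have : IsGalois (comp (FH K L H) K₁) (comp L K₁) :=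
    IsGalois.tower_top_of_isGalois (FH K L H) (comp (FH K L H) K₁) (comp L K₁)
  have hunK'N : IsUnramifiedOutside S (FH K L H) (comp L K₁) :=
    Devissage19.isUnramifiedOutside_bot S (FH K L H) (comp L K₁) Ω
      (Devissage19.isUnramifiedOutside_top S K (FH K L H) Ω hunΩ)
  exact FrameKit23.family_entry S p hpS r K (FH K L H) L K₁ (comp (FH K L H) K₁) (comp L K₁) Ω
    hodd hζ hCrit hCont hIncl hunKK₁ hunK'N σ hσ hcyc₁ a ha hdiv hexact
    (fixes_comp (FH K L H) K₁) (fixes_comp L K₁) j₀ hj₀ u hu H hH (range_galIncl_FH K L H)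

end Core

section Final

variable (p : ℕ) (S : Finset Nat.Primes)

/-- **(GCF') existence of global fundamental classes at `p`**, from the cyclotomic sublayer input
and the two ramification inputs. -/
theorem fundClassExists_of (hsub : CycSubLayer p) (hcomp : CompUnram S) (hcyclo : CycloUnram S p) :
    RecAssembly15.FundClassExists p S := by
  intro hp hp2 hpS K L _ _ _ _ _ _ hun
  obtain ⟨q, hqS, hqp⟩ := hpS
  obtain ⟨q, hq⟩ := q
  change q = p at hqp
  subst hqp
  set pp : Nat.Primes := ⟨q, hq⟩ with hpp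
  have hn0 : Module.finrank K L ≠ 0 := Module.finrank_pos.ne'
  set a := (Module.finrank K L).factorization q with ha
  have hdiv : q ^ a ∣ Module.finrank K L := Nat.ordProj_dvd _ _
  have hexact : ¬ q ^ (a + 1) ∣ Module.finrank K L :=
    Nat.pow_succ_factorization_not_dvd hn0 hq
  obtain ⟨r, hr, hK₁⟩ := hsub K a
  have : NeZero ((pp : ℕ) ^ r) := ⟨(pow_pos hq.pos r).ne'⟩
  have : NeZero (q ^ r) := ⟨(pow_pos hq.pos r).ne'⟩
  have : IsGalois K (CyclotomicField (q ^ r) K) :=
    IsCyclotomicExtension.isGalois {q ^ r} K (CyclotomicField (q ^ r) K)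
  have hunΩ : IsUnramifiedOutside S K (Comp K L (CyclotomicField (q ^ r) K)) :=
    hcomp K L (CyclotomicField (q ^ r) K) hun (hcyclo r K)
  have hζ0 := IsCyclotomicExtension.zeta_spec (q ^ r) K (CyclotomicField (q ^ r) K)
  have hζ : IsPrimitiveRoot (algebraMap (CyclotomicField (q ^ r) K)
      (Comp K L (CyclotomicField (q ^ r) K))
      (IsCyclotomicExtension.zeta (q ^ r) K (CyclotomicField (q ^ r) K))) (q ^ r) :=
    hζ0.map_of_injective (algebraMap (CyclotomicField (q ^ r) K)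
      (Comp K L (CyclotomicField (q ^ r) K))).injective
  obtain ⟨K₁, hG₁, hfin₁, hcycl, hfix⟩ := hK₁ (Comp K L (CyclotomicField (q ^ r) K)) _ hζ
  exact exists_isFundClass_core S pp hqS r K L (Comp K L (CyclotomicField (q ^ r) K)) hp2 hζ hunΩ
    K₁ a hfin₁ hcycl hfix hdiv hexact

end Final

section Unconditional

variable (p : ℕ) (S : Finset Nat.Primes)

/-- The cyclic sublayer input, from `CycSubLayer23`. -/
theorem cycSubLayer (hp : p.Prime) (hp2 : p ≠ 2) : CycSubLayer p := by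
  intro K _ _ a
  have : Fact p.Prime := ⟨hp⟩
  obtain ⟨r, hr, hlev⟩ := CycSubLayer23.exists_level p K a
  refine ⟨r, hr, ?_⟩
  intro Ω _ _ _ _ ζ hζ
  have : NeZero (p ^ r) := ⟨(pow_pos hp.pos r).ne'⟩
  obtain ⟨K₁, hG, hfin, ⟨σ, hσ⟩, hcyc⟩ :=
    CycSubLayer23.exists_cyclic_sublayer p r K Ω hζ hp2 a (hlev Ω ζ hζ)
  refine ⟨K₁, hG, hfin, ⟨σ, hσ⟩, ?_⟩
  intro τ hτ x hx
  have h1 : hζ.autToPow K τ = 1 := by
    apply Units.ext
    rw [Fermat.Agent.CFT.CycloRecip.autToPow_eq_of_apply_eq hζ τ 1 (by rw [hτ, pow_one]),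
      Nat.cast_one, Units.val_one]
  exact hcyc τ h1 ⟨x, hx⟩

/-- The compositum input, from `CompUnram26`. -/
theorem compUnram : CompUnram S := by
  intro K L K' _ _ _ _ _ _ _ _ _ _ hL hK'
  exact CompUnram26.isUnramifiedOutside_comp S K L K' hL hK'

/-- The cyclotomic input, from `CompUnram26`. -/
theorem cycloUnram (hp : p.Prime) (hpS : (⟨p, hp⟩ : Nat.Primes) ∈ S) : CycloUnram S p := by
  intro r K _ _ _
  have : NeZero (((⟨p, hp⟩ : Nat.Primes) : ℕ) ^ r) := ⟨(pow_pos hp.pos r).ne'⟩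
  exact CompUnram26.isUnramifiedOutside_cyclotomicField S ⟨p, hp⟩ hpS r K

/-- **(GCF') UNCONDITIONAL**: every Galois layer of number fields `L/K` unramified outside `S ∋ p`
(`p` odd) carries a class `u ∈ H²(Gal(L/K), C_S(L))` which is a fundamental class at `p`. -/
theorem fundClassExists : RecAssembly15.FundClassExists p S := by
  intro hp hp2 hpS
  have hpS' : (⟨p, hp⟩ : Nat.Primes) ∈ S := by
    obtain ⟨q, hqS, hqp⟩ := hpS
    have : q = ⟨p, hp⟩ := Subtype.ext hqp
    rwa [← this]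
  exact fundClassExists_of p S (cycSubLayer p hp hp2) (compUnram S) (cycloUnram p S hp hpS')
    hp hp2 hpS

end Unconditional

end

end Fermat.Agent.PT.GLOB.FundClassExists6
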