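/-
Program F (S55), chapter GLOB, leaf (REC-LPI) (helper5): the index of the `p`-th powers in the
`T`-idele group `IT T K = ∏_{q ∈ T} (K ⊗[ℚ] ℚ_[q])ˣ` of `Interface23`.

* `sigmaEquiv`, `sum_card_Sq`: the primes of `K` above `T` are the disjoint union of the primes
  above the `q ∈ T`.
* `index_powRange_IT` / `card_IT_quot_pow` / `finite_IT_quot_pow`: for an odd prime `p ∈ T` and
  `ζ_p ∈ K`: `[I_T(K) : I_T(K)^p] = p ^ (2 * #(primesOverT T K) + [K : ℚ])`.
-/
import Mathlib
import Fermat.Agent.PT.GLOB.LocTorsion5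

set_option autoImplicit false
set_option linter.unusedSectionVars false

namespace Fermat.Agent.PT.GLOB.ITPowerIndex5

open NumberField IsDedekindDomain HeightOneSpectrum
open scoped TensorProduct
open Fermat.Agent.PT.GLOB.Interface23 Fermat.Agent.PT.GLOB.UnitsBridge24
open Fermat.Agent.PT.GLOB.PiPow5 Fermat.Agent.PT.GLOB.LocUnits5 Fermat.Agent.PT.GLOB.LocTorsion5

noncomputable section

variable (T : Finset Nat.Primes) (K : Type) [Field K] [NumberField K]

/-- A prime of `𝓞 K` contains at most one rational prime. -/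
theorem natCast_mem_unique (P : HeightOneSpectrum (𝓞 K)) {q q' : ℕ} (hq : q.Prime)
    (hq' : q'.Prime) (h : (q : 𝓞 K) ∈ P.asIdeal) (h' : (q' : 𝓞 K) ∈ P.asIdeal) : q = q' := by
  by_contra hne
  have hcop : Nat.Coprime q q' := (Nat.coprime_primes hq hq').mpr hne
  obtain ⟨a, b, hab⟩ := Nat.isCoprime_iff_coprime.mpr hcop
  have h1 : (1 : 𝓞 K) ∈ P.asIdeal := by
    have : (1 : 𝓞 K) = (a : 𝓞 K) * (q : 𝓞 K) + (b : 𝓞 K) * (q' : 𝓞 K) := by
      have := congrArg (Int.cast : ℤ → 𝓞 K) hab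
      push_cast at this
      exact this.symm
    rw [this]
    exact P.asIdeal.add_mem (P.asIdeal.mul_mem_left _ h) (P.asIdeal.mul_mem_left _ h')
  exact P.isPrime.ne_top ((Ideal.eq_top_iff_one _).mpr h1)

/-- The primes above `T` are the disjoint union of the primes above the `q ∈ T`. -/
def sigmaEquiv : (Σ q : T, Sq K (q.1 : ℕ)) ≃ {P // P ∈ primesOverT T K} :=
  Equiv.ofBijective
    (fun x => ⟨x.2.1, (mem_primesOverT T K x.2.1).mpr ⟨x.1.1, x.1.2, by
      rw [Int.cast_natCast]; exact x.2.2⟩⟩)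
    (by
      constructor
      · rintro ⟨q, P⟩ ⟨q', P'⟩ h
        have hP : P.1 = P'.1 := congrArg Subtype.val h
        have hq : q = q' := by
          apply Subtype.ext
          apply Nat.Primes.coe_nat_injective
          exact natCast_mem_unique K P.1 q.1.2 q'.1.2 P.2 (hP ▸ P'.2)
        subst hq
        exact Sigma.ext rfl (heq_of_eq (Subtype.ext hP))
      · rintro ⟨P, hP⟩
        obtain ⟨q, hq, hmem⟩ := (mem_primesOverT T K P).mp hP
        rw [Int.cast_natCast] at hmem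
        exact ⟨⟨⟨q, hq⟩, ⟨P, hmem⟩⟩, rfl⟩)

theorem sum_card_Sq : ∑ q : T, Nat.card (Sq K (q.1 : ℕ)) = (primesOverT T K).card := by
  rw [← Nat.card_sigma, Nat.card_congr (sigmaEquiv T K), Nat.card_eq_fintype_card,
    Fintype.card_coe]

/-- **(REC-LPI) The index of the `p`-th powers in the `T`-ideles**, `p ∈ T` odd, `ζ_p ∈ K`:
`[I_T(K) : I_T(K)^p] = p ^ (2 t + [K : ℚ])`, `t` the number of primes of `K` above `T`. -/
theorem index_powRange_IT {p : ℕ} (hp : p.Prime) (hp2 : p ≠ 2) (hpT : ∃ q ∈ T, (q : ℕ) = p)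
    {ζ : K} (hζ : IsPrimitiveRoot ζ p) :
    (powMonoidHom (α := IT T K) p).range.index =
      p ^ (2 * (primesOverT T K).card + Module.finrank ℚ K) := by
  have h1 : ∀ q : T, (powMonoidHom (α := (Loc K q.1)ˣ) p).range.index =
      p ^ (2 * Nat.card (Sq K (q.1 : ℕ))) *
        (if (q.1 : ℕ) = p then p ^ Module.finrank ℚ K else 1) :=
    fun q => index_powRange_loc_eq K (q.1 : ℕ) hp hp2 hζ
  obtain ⟨q₀, hq₀, hq₀p⟩ := hpT
  have h2 : ∏ q : T, (if (q.1 : ℕ) = p then p ^ Module.finrank ℚ K else 1) =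
      p ^ Module.finrank ℚ K := by
    rw [Finset.prod_eq_single (⟨q₀, hq₀⟩ : T)]
    · rw [if_pos hq₀p]
    · intro q _ hne
      rw [if_neg]
      intro h
      apply hne
      apply Subtype.ext
      apply Nat.Primes.coe_nat_injective
      rw [h, hq₀p]
    · intro h
      exact absurd (Finset.mem_univ _) h
  rw [index_powRange_pi' (fun q : T => (Loc K q.1)ˣ) p, Finset.prod_congr rfl (fun q _ => h1 q),
    Finset.prod_mul_distrib, Finset.prod_pow_eq_pow_sum, ← Finset.mul_sum, sum_card_Sq, h2,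
    pow_add]

/-- The same as a cardinality of the quotient (helper15's shape). -/
theorem card_IT_quot_pow {p : ℕ} (hp : p.Prime) (hp2 : p ≠ 2) (hpT : ∃ q ∈ T, (q : ℕ) = p)
    {ζ : K} (hζ : IsPrimitiveRoot ζ p) :
    Nat.card (IT T K ⧸ (powMonoidHom p : IT T K →* IT T K).range) =
      p ^ (2 * (primesOverT T K).card + Module.finrank ℚ K) :=
  index_powRange_IT T K hp hp2 hpT hζ

theorem finite_IT_quot_pow {p : ℕ} (hp : p.Prime) (hp2 : p ≠ 2) (hpT : ∃ q ∈ T, (q : ℕ) = p)
    {ζ : K} (hζ : IsPrimitiveRoot ζ p) :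
    Finite (IT T K ⧸ (powMonoidHom p : IT T K →* IT T K).range) := by
  apply Nat.finite_of_card_ne_zero
  rw [card_IT_quot_pow T K hp hp2 hpT hζ]
  exact pow_ne_zero _ hp.ne_zero

end

end Fermat.Agent.PT.GLOB.ITPowerIndex5
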