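/-
Program F (S55), chapter GLOB, helper19: leaf **(REC-T2)** of helper15's REC plan.

Consequences of `FG.Interface8.TateMinusTwo` on the `S`-idele class group of an abelian layer `L/K`
of exponent `p` carrying a fundamental class (`IsFundClass p (repCT S K L) u`):
* every invariant class has its `p`-th power in the norm group;
* `[C_S(L)^G : N C_S(L)] = #G`.
-/
import Mathlib
import Fermat.Agent.PT.FG.NakayamaMap19
import Fermat.Agent.PT.GLOB.CycToClasses16

set_option autoImplicit false
set_option linter.style.longLine false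
set_option linter.unusedSectionVars false

open CategoryTheory groupCohomology NumberField

namespace Fermat.Agent.PT.GLOB.RecT2_19

open Fermat.Agent.PT.FG.Interface8 Fermat.Agent.PT.FG.NakayamaMap19
open Fermat.Agent.PT.GLOB.Interface23 Fermat.Agent.PT.GLOB.ClassAction23
  Fermat.Agent.PT.GLOB.CycToClasses16

variable (S : Finset Nat.Primes)
variable (K L : Type) [Field K] [Field L] [NumberField K] [NumberField L] [Algebra K L]
  [IsGalois K L]

/-- The underlying class of an element of `repCT`. -/
def toC (x : (repCT S K L).V) : CT S L := Additive.toMul (show Additive (CT S L) from x)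

theorem ofMul_toC (x : (repCT S K L).V) : (Additive.ofMul (toC S K L x) : Additive (CT S L)) = x :=
  rfl

/-- A class as an element of `repCT`. -/
def ofC (c : CT S L) : (repCT S K L).V := (Additive.ofMul c : Additive (CT S L))

theorem sub_eq_ofC (x y : (repCT S K L).V) :
    x - y = ofC S K L ((toC S K L y)⁻¹ * toC S K L x) := by
  show x - y = -y + x
  abel

/-- The norm of `repCT` in terms of `normCT`. -/
theorem normMap_repCT (d : CT S L) :
    normMap (repCT S K L) (Additive.ofMul d) = Additive.ofMul (normCT S K L d) := by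
  refine (normMap_eq_sum (repCT S K L) _).trans ?_
  rw [normCT_apply, ofMul_prod]
  rfl

theorem isNorm_repCT_iff (c : CT S L) :
    IsNorm (repCT S K L) (Additive.ofMul c) ↔ c ∈ (normCT S K L).range := by
  constructor
  · rintro ⟨y, hy⟩
    refine ⟨Additive.toMul y, ?_⟩
    have := (normMap_repCT S K L (Additive.toMul y)).symm.trans hy
    exact Additive.ofMul.injective this
  · rintro ⟨d, rfl⟩
    exact ⟨Additive.ofMul d, normMap_repCT S K L d⟩

theorem fixed_repCT_iff (c : CT S L) :
    (∀ g : L ≃ₐ[K] L, (repCT S K L).ρ g (Additive.ofMul c) = Additive.ofMul c) ↔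
      c ∈ fixedCT S K L := by
  rw [mem_fixedCT]
  exact forall_congr' fun g => Additive.ofMul.injective.eq_iff

/-- **(REC-T2)**: for an abelian layer of exponent `p` with a fundamental class, invariant classes
have `p`-th powers in the norm group, and the norm group has index `#G` in the invariant classes. -/
theorem rec_t2 (hT2 : TateMinusTwo) (p : ℕ) [hp : Fact p.Prime]
    (hab : ∀ s t : L ≃ₐ[K] L, s * t = t * s) (hexp : ∀ s : L ≃ₐ[K] L, s ^ p = 1)
    (u : H2 (repCT S K L)) (hu : IsFundClass p (repCT S K L) u) :
    (∀ c ∈ fixedCT S K L, c ^ p ∈ (normCT S K L).range) ∧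
      (normCT S K L).range.relIndex (fixedCT S K L) = Nat.card (L ≃ₐ[K] L) := by
  obtain ⟨σ, rfl⟩ : ∃ σ, H2π (repCT S K L) σ = u := by
    induction u using H2_induction_on with
    | h σ => exact ⟨σ, rfl⟩
  obtain ⟨hinj, hsurj, hpow⟩ := t2_abelian σ hT2 p hab hexp hu
  refine ⟨fun c hc => ?_, ?_⟩
  · have h1 := hpow (Additive.ofMul c) ((fixed_repCT_iff S K L c).mpr hc)
    have h1' : IsNorm (repCT S K L) (Additive.ofMul (c ^ p)) := h1
    exact (isNorm_repCT_iff S K L _).mp h1'
  · -- the Nakayama map induces a bijection `G ≃ fixed / norms`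
    have hnfix : ∀ g : L ≃ₐ[K] L, toC S K L (nak σ g) ∈ fixedCT S K L := fun g =>
      (fixed_repCT_iff S K L _).mp (fun x => nak_fixed σ x g)
    let N' := (normCT S K L).range.subgroupOf (fixedCT S K L)
    let f : (L ≃ₐ[K] L) → (fixedCT S K L) ⧸ N' := fun g =>
      QuotientGroup.mk ⟨toC S K L (nak σ g), hnfix g⟩
    have hf_inj : Function.Injective f := by
      intro g g' h
      have h1 : (⟨toC S K L (nak σ g), hnfix g⟩ : fixedCT S K L)⁻¹ *
          ⟨toC S K L (nak σ g'), hnfix g'⟩ ∈ N' := QuotientGroup.eq.mp h
      have h2 : (toC S K L (nak σ g))⁻¹ * toC S K L (nak σ g') ∈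
          (normCT S K L).range := h1
      have h3 : IsNorm (repCT S K L) (nak σ g' - nak σ g) := by
        rw [sub_eq_ofC]
        exact (isNorm_repCT_iff S K L _).mpr h2
      exact (hinj g' g h3).symm
    have hf_surj : Function.Surjective f := by
      intro x
      induction x using QuotientGroup.induction_on with
      | H c =>
        obtain ⟨g, hg⟩ := hsurj (ofC S K L (c : CT S L))
          ((fixed_repCT_iff S K L _).mpr c.2)
        refine ⟨g, ?_⟩
        apply QuotientGroup.eq.mpr
        show (toC S K L (nak σ g))⁻¹ * (c : CT S L) ∈ (normCT S K L).range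
        rw [sub_eq_ofC] at hg
        exact (isNorm_repCT_iff S K L _).mp hg
    have hcard : Nat.card ((fixedCT S K L) ⧸ N') = Nat.card (L ≃ₐ[K] L) :=
      (Nat.card_congr (Equiv.ofBijective f ⟨hf_inj, hf_surj⟩)).symm
    rw [Subgroup.relIndex, Subgroup.index, hcard]

end Fermat.Agent.PT.GLOB.RecT2_19
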