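/-
Program F (S55), chapter GLOB, leaf (REC-SU) (helper14): the index of the `p`-th powers in the
group of `S`-units of a number field `K` containing the `p`-th roots of unity, `p` odd:

  `#(E_S(K) / E_S(K)^p) = p ^ (#{primes of K above S} + [K:ℚ]/2)`.

* `card_quot_nsmul` : for a finitely generated abelian group `M` and a prime `p`,
  `#(M / pM) = p ^ rank M * #M[p]` (both finite)  [Herbrand quotient of the trivial action];
* `card_quot_pow` : the multiplicative version for a commutative group `E` with `Additive E`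
  finitely generated;
* `nrRealPlaces_eq_zero` : a number field containing a primitive `p`-th root of unity, `p` odd,
  has no real place; `rank_add_one` : `Units.rank K + 1 = [K:ℚ]/2`;
* `card_sUnit_quot_pow` : the index for `SUnits24.sUnit K T`;
* `card_ker_divT_quot_pow` : the index for `(divT S K).ker` (Interface23 form, helper15's REC-SU).
-/
import Mathlib
import Fermat.Agent.PT.GLOB.UnitsBridge24

set_option autoImplicit false

namespace Fermat.Agent.PT.GLOB.SUnitIndex14

open NumberField Module
open Fermat.Agent.CFT.Herbrand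
open Fermat.Agent.CFT.HerbrandAbstract (normEnd)
open Fermat.Agent.PT.FG.HerbrandQuot18
open Fermat.Agent.PT.GLOB.Interface23
open Fermat.Agent.PT.GLOB.SUnits24
open Fermat.Agent.PT.GLOB.UnitsBridge24

universe u

section Generic

variable (M : Type u) [AddCommGroup M]

theorem normEnd_one_apply (n : ℕ) (x : M) : normEnd (1 : Module.End ℤ M) n x = n • x := by
  rw [normEnd_apply]
  simp

/-- **Index of `pM` in a finitely generated abelian group.** -/
theorem card_quot_nsmul [Module.Finite ℤ M] (p : ℕ) [Fact p.Prime] :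
    Finite (M ⧸ (nsmulAddMonoidHom p : M →+ M).range) ∧
    Finite (nsmulAddMonoidHom p : M →+ M).ker ∧
    Nat.card (M ⧸ (nsmulAddMonoidHom p : M →+ M).range) =
      p ^ finrank ℤ M * Nat.card (nsmulAddMonoidHom p : M →+ M).ker := by
  have ha : finrank ℤ (LinearMap.ker ((1 : Module.End ℤ M) - 1)) = finrank ℤ M := by
    rw [sub_self, LinearMap.ker_zero, finrank_top]
  obtain ⟨hfin, hq0⟩ := hq_cyc_prime_of_finrank p (1 : Module.End ℤ M) (one_pow p)
    (finrank ℤ M) 0 ha (by simp)
  set P := cyc (1 : Module.End ℤ M) p (one_pow p) with hP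
  have hf : P.f = 0 := by
    ext x
    simp [hP]
  have hg : P.g = nsmulAddMonoidHom p := by
    ext x
    rw [hP, cyc_g_apply', normEnd_one_apply]
    rfl
  have e1 : Nat.card P.H = (nsmulAddMonoidHom p : M →+ M).range.index := by
    rw [card_H_eq_relIndex, hf, hg, AddMonoidHom.ker_zero, AddSubgroup.relIndex_top_right]
  have e2 : Nat.card P.swap.H = Nat.card (nsmulAddMonoidHom p : M →+ M).ker := by
    rw [card_H_eq_relIndex]
    show P.f.range.relIndex P.g.ker = _
    rw [hf, hg, AddMonoidHom.range_zero, AddSubgroup.relIndex_bot_left]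
  have h1 : Nat.card P.H ≠ 0 := hfin.card_H_ne_zero
  have h2 : Nat.card P.swap.H ≠ 0 := hfin.card_swap_H_ne_zero
  rw [e1] at h1
  rw [e2] at h2
  have hfin1 : Finite (M ⧸ (nsmulAddMonoidHom p : M →+ M).range) := by
    rw [AddSubgroup.index] at h1
    exact Nat.finite_of_card_ne_zero h1
  refine ⟨hfin1, Nat.finite_of_card_ne_zero h2, ?_⟩
  have h3 : hq P = (p : ℚ) ^ finrank ℤ M := by
    rw [hq0]
    simp
  unfold Fermat.Agent.PT.FG.HerbrandQuot18.hq at h3
  rw [e1, e2, div_eq_iff (by exact_mod_cast h2)] at h3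
  rw [← AddSubgroup.index]
  exact_mod_cast h3

end Generic

section Mul

variable (E : Type u) [CommGroup E]

theorem toAddSubgroup_range_pow (p : ℕ) :
    Subgroup.toAddSubgroup (powMonoidHom p : E →* E).range =
      (nsmulAddMonoidHom p : Additive E →+ Additive E).range := by
  ext x
  constructor
  · rintro ⟨y, hy⟩
    exact ⟨Additive.ofMul y, congrArg Additive.ofMul hy⟩
  · rintro ⟨y, hy⟩
    exact ⟨Additive.toMul y, congrArg Additive.toMul hy⟩

/-- The kernel of `x ↦ x ^ p` and the kernel of `p • ·` on `Additive E`. -/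
def kerPowEquiv (p : ℕ) :
    (powMonoidHom p : E →* E).ker ≃ (nsmulAddMonoidHom p : Additive E →+ Additive E).ker where
  toFun x := ⟨Additive.ofMul (x : E), by
    have h := x.2
    rw [MonoidHom.mem_ker] at h
    rw [AddMonoidHom.mem_ker]
    exact congrArg Additive.ofMul h⟩
  invFun x := ⟨Additive.toMul (x : Additive E), by
    have h := x.2
    rw [AddMonoidHom.mem_ker] at h
    rw [MonoidHom.mem_ker]
    exact congrArg Additive.toMul h⟩
  left_inv _ := rfl
  right_inv _ := rfl

/-- **Index of the `p`-th powers in a finitely generated commutative group.** -/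
theorem card_quot_pow [Module.Finite ℤ (Additive E)] (p : ℕ) [Fact p.Prime] :
    Finite (E ⧸ (powMonoidHom p : E →* E).range) ∧
    Finite (powMonoidHom p : E →* E).ker ∧
    Nat.card (E ⧸ (powMonoidHom p : E →* E).range) =
      p ^ finrank ℤ (Additive E) * Nat.card (powMonoidHom p : E →* E).ker := by
  obtain ⟨h1, h2, h3⟩ := card_quot_nsmul (Additive E) p
  have hidx : (powMonoidHom p : E →* E).range.index =
      (nsmulAddMonoidHom p : Additive E →+ Additive E).range.index := by
    rw [← toAddSubgroup_range_pow, Subgroup.index_toAddSubgroup]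
  have hne : (powMonoidHom p : E →* E).range.index ≠ 0 := by
    rw [hidx, AddSubgroup.index]
    exact Nat.card_pos.ne'
  have hfin1 : Finite (E ⧸ (powMonoidHom p : E →* E).range) := by
    rw [Subgroup.index] at hne
    exact Nat.finite_of_card_ne_zero hne
  refine ⟨hfin1, Finite.of_equiv _ (kerPowEquiv E p).symm, ?_⟩
  rw [← Subgroup.index, hidx, AddSubgroup.index, h3, Nat.card_congr (kerPowEquiv E p)]

end Mul

section NumberField

variable (K : Type u) [Field K] [NumberField K]

/-- For a number field containing a primitive `p`-th root of unity, `p > 2`: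
`rank 𝓞ˣ + 1 = [K:ℚ]/2`. -/
theorem rank_add_one {p : ℕ} (hp2 : 2 < p) {ζ : K} (hζ : IsPrimitiveRoot ζ p) :
    NumberField.Units.rank K + 1 = finrank ℚ K / 2 := by
  have h0 : InfinitePlace.nrRealPlaces K = 0 := NumberField.InfinitePlace.IsPrimitiveRoot.nrRealPlaces_eq_zero_of_two_lt hp2 hζ
  have h1 := InfinitePlace.card_add_two_mul_card_eq_rank K
  have h2 := InfinitePlace.card_eq_nrRealPlaces_add_nrComplexPlaces K
  have h3 : 0 < finrank ℚ K := finrank_pos
  unfold NumberField.Units.rank
  rw [h2, h0] at *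
  omega

variable (T : Finset (IsDedekindDomain.HeightOneSpectrum (𝓞 K)))

theorem mem_sUnit_of_pow_eq_one {n : ℕ} (hn : n ≠ 0) (x : Kˣ) (hx : x ^ n = 1) :
    x ∈ sUnit K T := by
  rw [mem_sUnit_iff]
  intro v _
  have h1 : (v.valuation K (x : K)) ^ n = 1 := by
    rw [← map_pow, ← Units.val_pow_eq_pow_val, hx, Units.val_one, map_one]
  exact (pow_eq_one_iff_of_nonneg zero_le hn).mp h1

/-- The `p`-torsion of the `T`-units is `μ_p(K)`. -/
def kerPowSUnitEquiv (p : ℕ) (hp : p ≠ 0) :
    (powMonoidHom p : sUnit K T →* sUnit K T).ker ≃ rootsOfUnity p K where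
  toFun x := ⟨((x : sUnit K T) : Kˣ), by
    have h := x.2
    rw [MonoidHom.mem_ker] at h
    rw [mem_rootsOfUnity]
    have := congrArg (fun y : sUnit K T => (y : Kˣ)) h
    simpa using this⟩
  invFun x := ⟨⟨(x : Kˣ), mem_sUnit_of_pow_eq_one K T hp (x : Kˣ) ((mem_rootsOfUnity _ _).mp x.2)⟩, by
    rw [MonoidHom.mem_ker]
    apply Subtype.ext
    have := (mem_rootsOfUnity _ _).mp x.2
    simpa using this⟩
  left_inv _ := rfl
  right_inv _ := rfl

/-- **`S`-unit index**, `SUnits24` form. -/
theorem card_sUnit_quot_pow (p : ℕ) [hp : Fact p.Prime] (hp2 : 2 < p) {ζ : K}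
    (hζ : IsPrimitiveRoot ζ p) :
    Finite (sUnit K T ⧸ (powMonoidHom p : sUnit K T →* sUnit K T).range) ∧
    Nat.card (sUnit K T ⧸ (powMonoidHom p : sUnit K T →* sUnit K T).range) =
      p ^ (T.card + finrank ℚ K / 2) := by
  obtain ⟨h1, _, h3⟩ := card_quot_pow (sUnit K T) p
  refine ⟨h1, ?_⟩
  have : NeZero p := ⟨hp.out.ne_zero⟩
  have hk : Nat.card (powMonoidHom p : sUnit K T →* sUnit K T).ker = p := by
    rw [Nat.card_congr (kerPowSUnitEquiv K T p hp.out.ne_zero), hζ.card_rootsOfUnity]
  rw [h3, hk, finrank_sUnit_numberField, ← rank_add_one K hp2 hζ, ← pow_succ]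
  congr 1
  omega

end NumberField

section Interface

variable (S : Finset Nat.Primes) (K : Type u) [Field K] [NumberField K]

/-- **(REC-SU)** the index of the `p`-th powers in the `S`-units `E_S(K) = ker (divT S K)`, for
`K ∋ ζ_p`, `p` odd. -/
theorem card_ker_divT_quot_pow (p : ℕ) [hp : Fact p.Prime] (hp2 : 2 < p) {ζ : K}
    (hζ : IsPrimitiveRoot ζ p) :
    Finite ((divT S K).ker ⧸ (powMonoidHom p : (divT S K).ker →* (divT S K).ker).range) ∧
    Nat.card ((divT S K).ker ⧸ (powMonoidHom p : (divT S K).ker →* (divT S K).ker).range) =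
      p ^ ((primesOverT S K).card + finrank ℚ K / 2) := by
  rw [ker_divT S K]
  exact card_sUnit_quot_pow K (primesOverT S K) p hp2 hζ

end Interface

end Fermat.Agent.PT.GLOB.SUnitIndex14
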