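import Fermat.Agent.PT.GLOB.SplitNormAbs16
import Fermat.Agent.PT.GLOB.TowerMaps6

/-
# (REC-SPLIT) Split norms for Kummer extensions in which all places above `S` split completely

`K ∋ ζ_p` a number field, `D ≤ Kˣ`, `H = K(D^{1/p})` Galois over `K`.  If every `d ∈ D` is a `p`-th
power in the `S`-ideles `IT S K`, then every element of `IT S K` is a norm from `IT S H`
(`exists_prod_smul_eq_inclI`).  The per-prime statement is `exists_prod_smul_eq_locMap`; the
algebra behind it is `SplitNormAbs16.exists_norm_eq`.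
-/

set_option autoImplicit false
set_option linter.unusedSectionVars false
set_option linter.unusedVariables false

namespace Fermat.Agent.PT.GLOB.SplitNorm16

open NumberField IsDedekindDomain
open scoped TensorProduct
open Fermat.Agent.PT.GLOB.Interface23 Fermat.Agent.PT.GLOB.Tower23
open Fermat.Agent.PT.GLOB.SplitNormAbs16

section Local

variable (K H : Type*) [Field K] [Field H] [NumberField K] [NumberField H] [Algebra K H]
  [IsGalois K H] (q : Nat.Primes)

/-- A non-trivial automorphism moves one of the generators. -/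
theorem exists_ne_of_adjoin_eq_top {s : Set H} (hs : IntermediateField.adjoin K s = ⊤)
    {g : H ≃ₐ[K] H} (hg : g ≠ 1) : ∃ x ∈ s, g x ≠ x := by
  by_contra hcon
  push Not at hcon
  apply hg
  have hle : IntermediateField.adjoin K s ≤ IntermediateField.fixedField (Subgroup.zpowers g) := by
    rw [IntermediateField.adjoin_le_iff]
    intro x hx
    rw [SetLike.mem_coe, IntermediateField.mem_fixedField_iff]
    intro h hh
    obtain ⟨k, rfl⟩ := Subgroup.mem_zpowers_iff.mp hh
    have h1 : ∀ n : ℕ, (g ^ n) x = x := by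
      intro n
      induction n with
      | zero => rfl
      | succ n ih => rw [pow_succ, AlgEquiv.mul_apply, hcon x hx, ih]
    obtain ⟨n, rfl | rfl⟩ := Int.eq_nat_or_neg k
    · rw [zpow_natCast, h1]
    · rw [zpow_neg, zpow_natCast]
      have := h1 n
      exact (AlgEquiv.symm_apply_eq (g ^ n)).mpr this.symm
  rw [hs] at hle
  ext x
  have hx : x ∈ IntermediateField.fixedField (Subgroup.zpowers g) := hle trivial
  rw [IntermediateField.mem_fixedField_iff] at hx
  exact hx g (Subgroup.mem_zpowers g)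

/-- `x ↦ x ⊗ 1` as a ring hom `K → Loc K q`. -/
noncomputable abbrev incl : K →+* Loc K q :=
  (Algebra.TensorProduct.includeLeft : K →ₐ[ℚ] Loc K q).toRingHom

theorem incl_apply (x : K) : incl K q x = x ⊗ₜ[ℚ] (1 : ℚ_[(q : ℕ)]) := rfl

theorem locMap_incl (x : K) :
    locMap K H q (incl K q x) = incl H q (algebraMap K H x) := rfl

theorem smul_incl (g : H ≃ₐ[K] H) (x : H) : g • incl H q x = incl H q (g x) := rfl

theorem isUnit_natCast_loc (n : ℕ) (hn : 0 < n) : IsUnit ((n : ℕ) : Loc K q) := by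
  have h1 : IsUnit ((n : ℕ) : ℚ) := IsUnit.mk0 _ (by exact_mod_cast hn.ne')
  have h2 := h1.map (algebraMap ℚ (Loc K q))
  rwa [map_natCast] at h2

/-- **Split norm, one rational prime.**  If `H = K(D^{1/p})` and every `d ∈ D` is a `p`-th power
in `(K ⊗ ℚ_q)ˣ`, then every unit of `K ⊗ ℚ_q` is a norm from `(H ⊗ ℚ_q)ˣ`. -/
theorem exists_prod_smul_eq_locMap (p : ℕ) (hp : p.Prime) (ζ : K) (hζ : IsPrimitiveRoot ζ p)
    (D : Subgroup Kˣ)
    (hgen : IntermediateField.adjoin K {x : H | ∃ d ∈ D, x ^ p = algebraMap K H d} = ⊤)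
    (hloc : ∀ d ∈ D, ∃ c : (Loc K q)ˣ, (c : Loc K q) ^ p = incl K q (d : K))
    (x : (Loc K q)ˣ) :
    ∃ y : (Loc H q)ˣ, ∏ g : H ≃ₐ[K] H, g • (y : Loc H q) = locMap K H q (x : Loc K q) := by
  have hfix : ∀ (g : H ≃ₐ[K] H) (a : Loc K q),
      g • (locMap K H q).toRingHom a = (locMap K H q).toRingHom a :=
    fun g a => TowerMaps6.smul_locMap K H q g a
  have hζA : (incl K q ζ) ^ p = 1 := by rw [← map_pow, hζ.pow_eq_one, map_one]
  have hunit : ∀ c : ℕ, ¬ p ∣ c → IsUnit ((incl K q ζ) ^ c - 1) := by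
    intro c hc
    have h1 : ζ ^ c - 1 ≠ 0 := by
      intro h
      exact hc ((hζ.pow_eq_one_iff_dvd c).mp (sub_eq_zero.mp h))
    have h2 := (IsUnit.mk0 _ h1).map (incl K q)
    rwa [map_sub, map_pow, map_one] at h2
  have hD : ∀ b : Loc H q, (∀ g : H ≃ₐ[K] H, g • b = b) →
      ∃ a : Loc K q, (locMap K H q).toRingHom a = b :=
    fun b hb => TowerMaps6.exists_locMap_eq_of_fixed K H q b hb
  have hζH : IsPrimitiveRoot (algebraMap K H ζ) p :=
    hζ.map_of_injective (algebraMap K H).injective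
  have hE : HasEigenUnits (G := H ≃ₐ[K] H) (locMap K H q).toRingHom p (incl K q ζ) := by
    intro g hg
    obtain ⟨β, ⟨d, hd, hβd⟩, hgβ⟩ := exists_ne_of_adjoin_eq_top K H hgen hg
    have hβ0 : β ≠ 0 := by
      intro h
      rw [h, zero_pow hp.ne_zero] at hβd
      exact (d.ne_zero) ((algebraMap K H).injective (by rw [← hβd, map_zero]))
    obtain ⟨c, hc⟩ := hloc d hd
    have heig : ∀ h : H ≃ₐ[K] H, ∃ j : ℕ, j < p ∧ h β = (algebraMap K H ζ) ^ j * β := by
      intro h
      have h1 : (h β / β) ^ p = 1 := by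
        rw [div_pow, ← map_pow, hβd, AlgEquiv.commutes, div_self]
        rw [← hβd]
        exact pow_ne_zero _ hβ0
      have : NeZero p := ⟨hp.ne_zero⟩
      obtain ⟨j, hj, hjeq⟩ := hζH.eq_pow_of_pow_eq_one h1
      exact ⟨j, hj, by rw [hjeq, div_mul_cancel₀ _ hβ0]⟩
    let v : (Loc H q)ˣ := Units.map (incl H q).toMonoidHom (Units.mk0 β hβ0)
    have hv : (v : Loc H q) = incl H q β := rfl
    refine ⟨v, c, ?_, ?_, ?_⟩
    · have key : (incl H q β) ^ p = locMap K H q ((c : Loc K q) ^ p) := by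
        rw [hc, locMap_incl, ← hβd, map_pow]
      exact key
    · intro h
      obtain ⟨j, _, hj⟩ := heig h
      refine ⟨j, ?_⟩
      have key : h • incl H q β = locMap K H q ((incl K q ζ) ^ j) * incl H q β := by
        rw [smul_incl, hj, map_mul, map_pow, map_pow, locMap_incl]
      exact key
    · obtain ⟨j, hjp, hj⟩ := heig g
      refine ⟨j, ?_, ?_⟩
      · intro hdvd
        apply hgβ
        rw [hj, (hζH.pow_eq_one_iff_dvd j).mpr hdvd, one_mul]
      · have key : g • incl H q β = locMap K H q ((incl K q ζ) ^ j) * incl H q β := by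
          rw [smul_incl, hj, map_mul, map_pow, map_pow, locMap_incl]
        exact key
  exact exists_norm_eq hfix hp hζA hunit (isUnit_natCast_loc K q) hE hD x

end Local

section Global

variable (S : Finset Nat.Primes) (K H : Type*) [Field K] [Field H] [NumberField K]
  [NumberField H] [Algebra K H] [IsGalois K H]

/-- **(REC-SPLIT) Split norm.**  Let `K ∋ ζ_p`, `D ≤ Kˣ` and `H = K(D^{1/p})`.  If every `d ∈ D`
is a `p`-th power in the `S`-ideles `IT S K` (i.e. every place above `S` splits completely in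
`H`), then every `x ∈ IT S K` is a norm from `IT S H`. -/
theorem exists_prod_smul_eq_inclI (p : ℕ) (hp : p.Prime) (ζ : K) (hζ : IsPrimitiveRoot ζ p)
    (D : Subgroup Kˣ)
    (hroot : ∀ d ∈ D, ∃ x : H, x ^ p = algebraMap K H d)
    (hgen : IntermediateField.adjoin K {x : H | ∃ d ∈ D, x ^ p = algebraMap K H d} = ⊤)
    (hloc : ∀ d ∈ D, ∃ a : IT S K, diagI S K d = a ^ p) :
    ∀ x : IT S K, ∃ y : IT S H, (∏ g : H ≃ₐ[K] H, g • y) = Tower23.inclI S K H x := by
  intro x
  have hq : ∀ q : S, ∃ y : (Loc H q.1)ˣ,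
      ∏ g : H ≃ₐ[K] H, g • (y : Loc H q.1) = locMap K H q.1 (x q : Loc K q.1) := by
    intro q
    refine exists_prod_smul_eq_locMap K H q.1 p hp ζ hζ D hgen ?_ (x q)
    intro d hd
    obtain ⟨a, ha⟩ := hloc d hd
    refine ⟨a q, ?_⟩
    have h1 : diagI S K d q = (a q) ^ p := by rw [ha]; rfl
    have h2 : ((diagI S K d q : (Loc K q.1)ˣ) : Loc K q.1) = ((a q : (Loc K q.1)ˣ) : Loc K q.1) ^ p := by
      rw [h1, Units.val_pow_eq_pow_val]
    exact h2.symm
  choose y hy using hq
  refine ⟨y, ?_⟩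
  funext q
  apply Units.ext
  rw [inclI_apply, ← hy q, Finset.prod_apply, Units.coe_prod]
  rfl

end Global

end Fermat.Agent.PT.GLOB.SplitNorm16
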