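/-
Program F (S55, Poitou–Tate), chapter GLOB, (REC) final (helper15).

**`InterfaceCF23.RecNormForm p S` from the class formation (GCF') alone.**

`RecAssembly15.recNormForm_of` with its inputs discharged:
* `TateNormFacts`   := helper19's `RecT2_19.rec_t2` + helper9's `TateMinusTwo9.tateMinusTwo`;
* `SplitNorm`       := helper16's `SplitNorm16.exists_prod_smul_eq_inclI`;
* `SUnitIndex`      := helper14's `SUnitIndex14.card_ker_divT_quot_pow`;
* `LocalPowerIndex` := helper5's `ITPowerIndex5.index_powRange_IT`.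
-/
import Mathlib
import Fermat.Agent.PT.GLOB.RecAssembly15
import Fermat.Agent.PT.GLOB.RecT2_19
import Fermat.Agent.PT.FG.TateMinusTwo9
import Fermat.Agent.PT.GLOB.SplitNorm16
import Fermat.Agent.PT.GLOB.SUnitIndex14
import Fermat.Agent.PT.GLOB.ITPowerIndex5

set_option autoImplicit false
set_option linter.style.haveILetI false

namespace Fermat.Agent.PT.GLOB.RecFinal15

open Fermat.Agent.PT.GLOB.RecAssembly15 Fermat.Agent.PT.GLOB.RecCount15
open Fermat.Agent.PT.GLOB.Interface23

variable (p : ℕ) (S : Finset Nat.Primes)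

/-- (REC-T2), unconditional for prime `p`. -/
theorem tateNormFacts (hp : p.Prime) : TateNormFacts p S := by
  haveI : Fact p.Prime := ⟨hp⟩
  intro K L _ _ _ _ _ _ hab hexp u hu
  exact RecT2_19.rec_t2 S K L Fermat.Agent.PT.FG.TateMinusTwo9.tateMinusTwo p hab hexp u hu

/-- (REC-SPLIT), unconditional. -/
theorem splitNorm : SplitNorm p S := by
  intro hp K H _ _ _ _ _ _ ζ hζ D hroot hgen hloc
  exact SplitNorm16.exists_prod_smul_eq_inclI S K H p hp ζ hζ D hroot hgen hloc

/-- (REC-SU), unconditional. -/
theorem sUnitIndex : SUnitIndex p S := by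
  intro hp hp2 K _ _ ζ hζ
  haveI : Fact p.Prime := ⟨hp⟩
  obtain ⟨hfin, hcard⟩ := SUnitIndex14.card_ker_divT_quot_pow S K p
    (lt_of_le_of_ne hp.two_le (Ne.symm hp2)) hζ
  rw [← hcard]
  rfl

/-- (REC-LPI), unconditional. -/
theorem localPowerIndex : LocalPowerIndex p S := by
  intro hp hp2 hpS K _ _ ζ hζ
  exact ITPowerIndex5.index_powRange_IT S K hp hp2 hpS hζ

/-- **(REC) reciprocity / existence modulo `p` in norm form**, from the existence of fundamental
classes on the layers unramified outside `S`. -/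
theorem recNormForm (hGCF : FundClassExists p S) : InterfaceCF23.RecNormForm p S := by
  intro hp hp2 hpS
  exact recNormForm_of p S hGCF (tateNormFacts p S hp) (splitNorm p S) (sUnitIndex p S)
    (localPowerIndex p S) hp hp2 hpS

end Fermat.Agent.PT.GLOB.RecFinal15
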