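/-
Program F (S55), chapter GLOB, leaf (B2 PowerNearOne), general form (helper16).

In a commutative ring `Λ` which is `q`-adically complete, every `z ≡ 1 mod q ^ k` is a `p`-th
power (`k = 1` if `p` is a unit of `Λ`, `k = 2` if `q = p` is an odd prime). Applied to both
integral tensor rings `ℤ_[q] ⊗[ℤ] 𝓞 K` and `𝓞 K ⊗[ℤ] ℤ_[q]`.
-/
import Mathlib
import Fermat.Agent.PT.GLOB.PowerNearOne16

set_option autoImplicit false
set_option linter.unusedSectionVars false

open Polynomial TensorProduct NumberField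

namespace Fermat.Agent.PT.GLOB.PowerNearOneGen16

open Fermat.Agent.PT.GLOB.PowerNearOne16

/-! ### The abstract statements -/

section Abstract

variable {Λ : Type*} [CommRing Λ]

theorem natCast_mul_mem_span (q : ℕ) (x : Λ) : (q : Λ) * x ∈ Ideal.span {(q : Λ)} :=
  Ideal.mul_mem_right _ _ (Ideal.mem_span_singleton_self _)

/-- If `p` is a unit, every `z ≡ 1 mod q` is a `p`-th power in a `q`-adically complete ring. -/
theorem exists_pow_eq_of_isUnit (q p : ℕ) [IsAdicComplete (Ideal.span {(q : Λ)}) Λ]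
    (hp : IsUnit (p : Λ)) (z : Λ) (hz : z - 1 ∈ Ideal.span {(q : Λ)}) :
    ∃ y : Λ, y ^ p = z ∧ y - 1 ∈ Ideal.span {(q : Λ)} := by
  obtain ⟨y, hy, hy1⟩ := exists_isRoot_of_isAdicComplete (Ideal.span {(q : Λ)})
    (X ^ p - C z : Λ[X]) 1
    (by
      rw [eval_sub, eval_pow, eval_X, eval_C, one_pow]
      have : (1 : Λ) - z = -(z - 1) := by ring
      rw [this]
      exact (Ideal.neg_mem_iff _).mpr hz)
    (by
      rw [derivative_sub, derivative_C, sub_zero, derivative_X_pow, eval_mul, eval_C, eval_pow,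
        eval_X, one_pow, mul_one]
      exact hp.map _)
  refine ⟨y, ?_, hy1⟩
  have := hy
  rw [IsRoot.def, eval_sub, eval_pow, eval_X, eval_C, sub_eq_zero] at this
  exact this

/-- For an odd prime `p`, every `z ≡ 1 mod p ^ 2` is a `p`-th power in a `p`-adically complete
ring. -/
theorem exists_pow_eq_of_sq {p : ℕ} (hp : p.Prime) (hp2 : p ≠ 2)
    [IsAdicComplete (Ideal.span {(p : Λ)}) Λ] (z : Λ)
    (hz : z - 1 ∈ Ideal.span {((p ^ 2 : ℕ) : Λ)}) :
    ∃ y : Λ, y ^ p = z ∧ y - 1 ∈ Ideal.span {(p : Λ)} := by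
  obtain ⟨b, hb⟩ := Ideal.mem_span_singleton'.mp hz
  have hz' : z = 1 + (p : Λ) ^ 2 * b := by
    have : z = 1 + b * ((p ^ 2 : ℕ) : Λ) := by rw [hb]; ring
    rw [this, Nat.cast_pow]
    ring
  obtain ⟨g, hg⟩ := exists_poly_one_add_mul_pow Λ hp hp2
  obtain ⟨w, hw, -⟩ := exists_isRoot_of_isAdicComplete (Ideal.span {(p : Λ)})
    (X + C (p : Λ) * g - C b : Λ[X]) b
    (by
      rw [eval_sub, eval_add, eval_X, eval_mul, eval_C, eval_C, add_sub_cancel_left]
      exact natCast_mul_mem_span p _)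
    (by
      rw [derivative_sub, derivative_C, sub_zero, derivative_add, derivative_X, derivative_mul,
        derivative_C, zero_mul, zero_add, eval_add, eval_one, eval_mul, eval_C, map_add, map_one]
      have : Ideal.Quotient.mk (Ideal.span {(p : Λ)}) ((p : Λ) * eval b (derivative g)) = 0 :=
        Ideal.Quotient.eq_zero_iff_mem.mpr (natCast_mul_mem_span p _)
      rw [this, add_zero]
      exact isUnit_one)
  rw [IsRoot.def, eval_sub, eval_add, eval_X, eval_mul, eval_C, eval_C, sub_eq_zero] at hw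
  refine ⟨1 + (p : Λ) * w, ?_, ?_⟩
  · rw [hg w, hz', ← hw]
    ring
  · rw [add_sub_cancel_left]
    exact natCast_mul_mem_span p _

/-- Both cases at once, with the exponent `nearExp q p` (`2` if `q = p`, `1` otherwise). -/
theorem exists_pow_eq_of_nearExp (q : ℕ) {p : ℕ} (hp : p.Prime) (hp2 : p ≠ 2)
    [IsAdicComplete (Ideal.span {(q : Λ)}) Λ] (hunit : q ≠ p → IsUnit (p : Λ)) (z : Λ)
    (hz : z - 1 ∈ Ideal.span {((q ^ nearExp q p : ℕ) : Λ)}) :
    ∃ y : Λ, y ^ p = z ∧ y - 1 ∈ Ideal.span {(q : Λ)} := by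
  unfold nearExp at hz
  by_cases hqp : q = p
  · subst hqp
    rw [if_pos rfl] at hz
    exact exists_pow_eq_of_sq hp hp2 z hz
  · rw [if_neg hqp, pow_one] at hz
    exact exists_pow_eq_of_isUnit q p (hunit hqp) z hz

end Abstract

/-! ### The two integral tensor rings -/

noncomputable section

section Tensor

variable (q : ℕ) [Fact q.Prime] (K : Type*) [Field K] [NumberField K]

theorem isUnit_natCast_padicInt {p : ℕ} (hp : p.Prime) (hqp : q ≠ p) : IsUnit (p : ℤ_[q]) := by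
  rw [PadicInt.isUnit_iff]
  refine le_antisymm (PadicInt.norm_le_one _) (not_lt.mp fun h => ?_)
  have hdvd : (q : ℤ) ∣ (p : ℤ) :=
    (PadicInt.norm_int_lt_one_iff_dvd (p := q) (p : ℤ)).mp (by simpa using h)
  have hdvd' : q ∣ p := by exact_mod_cast hdvd
  exact hqp ((Nat.prime_dvd_prime_iff_eq Fact.out hp).mp hdvd')

theorem qIdeal_eq_span : qIdeal q K = Ideal.span {(q : Lam q K)} := by
  unfold qIdeal
  rw [PadicInt.maximalIdeal_eq_span_p, Ideal.map_span, Set.image_singleton, map_natCast]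

/-- `ℤ_[q] ⊗[ℤ] 𝓞 K` is `q`-adically complete. -/
instance isAdicComplete_span_lam : IsAdicComplete (Ideal.span {(q : Lam q K)}) (Lam q K) := by
  rw [← qIdeal_eq_span]
  infer_instance

/-- The other order of the tensor product. -/
abbrev Lam' : Type _ := (𝓞 K) ⊗[ℤ] ℤ_[q]

theorem map_span_int (A : Type*) [CommRing A] :
    (Ideal.span {(q : ℤ)}).map (algebraMap ℤ A) = Ideal.span {(q : A)} := by
  rw [Ideal.map_span, Set.image_singleton, map_natCast]

/-- Ring-level `q`-adic completeness is the same as completeness as a `ℤ`-module. -/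
theorem isAdicComplete_int_iff (A : Type*) [CommRing A] :
    IsAdicComplete (Ideal.span {(q : A)}) A ↔ IsAdicComplete (Ideal.span {(q : ℤ)}) A := by
  have hst : @IsScalarTower ℤ A A Algebra.toSMul _ _ := ⟨fun n x y => by
    simp [Algebra.smul_def, mul_assoc]⟩
  rw [← map_span_int q A]
  exact IsAdicComplete.map_algebraMap_iff (I := Ideal.span {(q : ℤ)}) (M := A) (S := A)

/-- `q`-adic completeness transfers along additive equivalences of commutative rings. -/
theorem isAdicComplete_of_addEquiv {A B : Type*} [CommRing A] [CommRing B] (e : A ≃+ B)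
    (h : IsAdicComplete (Ideal.span {(q : A)}) A) : IsAdicComplete (Ideal.span {(q : B)}) B := by
  rw [isAdicComplete_int_iff] at h ⊢
  exact isAdicComplete_of_linearEquiv _ e.toIntLinearEquiv

/-- `𝓞 K ⊗[ℤ] ℤ_[q]` is `q`-adically complete. -/
instance isAdicComplete_span_lam' : IsAdicComplete (Ideal.span {(q : Lam' q K)}) (Lam' q K) :=
  isAdicComplete_of_addEquiv q (TensorProduct.comm ℤ (𝓞 K) ℤ_[q]).symm.toAddEquiv
    (isAdicComplete_span_lam q K)

theorem isUnit_natCast_lam {p : ℕ} (hp : p.Prime) (hqp : q ≠ p) : IsUnit (p : Lam q K) := by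
  have := (isUnit_natCast_padicInt q hp hqp).map (algebraMap ℤ_[q] (Lam q K))
  rwa [map_natCast] at this

theorem isUnit_natCast_lam' {p : ℕ} (hp : p.Prime) (hqp : q ≠ p) : IsUnit (p : Lam' q K) := by
  have := (isUnit_natCast_padicInt q hp hqp).map
    (Algebra.TensorProduct.includeRight : ℤ_[q] →ₐ[ℤ] Lam' q K)
  rwa [map_natCast] at this

/-- **(B2), general form, `ℤ_[q] ⊗[ℤ] 𝓞 K`**. -/
theorem exists_pow_eq_lam {p : ℕ} (hp : p.Prime) (hp2 : p ≠ 2) (z : Lam q K)
    (hz : z - 1 ∈ Ideal.span {((q ^ nearExp q p : ℕ) : Lam q K)}) :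
    ∃ y : Lam q K, y ^ p = z ∧ y - 1 ∈ Ideal.span {(q : Lam q K)} :=
  exists_pow_eq_of_nearExp q hp hp2 (fun h => isUnit_natCast_lam q K hp h) z hz

/-- **(B2), general form, `𝓞 K ⊗[ℤ] ℤ_[q]`**. -/
theorem exists_pow_eq_lam' {p : ℕ} (hp : p.Prime) (hp2 : p ≠ 2) (z : Lam' q K)
    (hz : z - 1 ∈ Ideal.span {((q ^ nearExp q p : ℕ) : Lam' q K)}) :
    ∃ y : Lam' q K, y ^ p = z ∧ y - 1 ∈ Ideal.span {(q : Lam' q K)} :=
  exists_pow_eq_of_nearExp q hp hp2 (fun h => isUnit_natCast_lam' q K hp h) z hz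

/-- Consequence under any ring homomorphism out of `𝓞 K ⊗[ℤ] ℤ_[q]` (e.g. to `K ⊗[ℚ] ℚ_[q]`). -/
theorem exists_pow_eq_map' {B : Type*} [CommRing B] (φ : Lam' q K →+* B) {p : ℕ} (hp : p.Prime)
    (hp2 : p ≠ 2) (z : Lam' q K)
    (hz : z - 1 ∈ Ideal.span {((q ^ nearExp q p : ℕ) : Lam' q K)}) :
    ∃ y : B, y ^ p = φ z := by
  obtain ⟨y, hy, -⟩ := exists_pow_eq_lam' q K hp hp2 z hz
  exact ⟨φ y, by rw [← map_pow, hy]⟩

/-- Variant of `exists_pow_eq_lam'` with the modulus written `(q : Λ') ^ k`, for any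
`k ≥ nearExp q p`. -/
theorem exists_pow_eq_lam'_of_le {p : ℕ} (hp : p.Prime) (hp2 : p ≠ 2) {k : ℕ}
    (hk : nearExp q p ≤ k) (z : Lam' q K)
    (hz : z - 1 ∈ Ideal.span {(q : Lam' q K) ^ k}) :
    ∃ y : Lam' q K, y ^ p = z ∧ y - 1 ∈ Ideal.span {(q : Lam' q K)} := by
  refine exists_pow_eq_lam' q K hp hp2 z ?_
  rw [Nat.cast_pow]
  refine Ideal.span_singleton_le_span_singleton.mpr ?_ hz
  exact pow_dvd_pow _ hk

/-- Same, after any ring homomorphism (e.g. `𝓞 K ⊗[ℤ] ℤ_[q] → K ⊗[ℚ] ℚ_[q]`). -/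
theorem exists_pow_eq_map'_of_le {B : Type*} [CommRing B] (φ : Lam' q K →+* B) {p : ℕ}
    (hp : p.Prime) (hp2 : p ≠ 2) {k : ℕ} (hk : nearExp q p ≤ k) (z : Lam' q K)
    (hz : z - 1 ∈ Ideal.span {(q : Lam' q K) ^ k}) :
    ∃ y : B, y ^ p = φ z := by
  obtain ⟨y, hy, -⟩ := exists_pow_eq_lam'_of_le q K hp hp2 hk z hz
  exact ⟨φ y, by rw [← map_pow, hy]⟩

theorem nearExp_le_two (p : ℕ) : nearExp q p ≤ 2 := by
  unfold nearExp
  split_ifs <;> omega

end Tensor

end

end Fermat.Agent.PT.GLOB.PowerNearOneGen16
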