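/-
Program F (S55), chapter GLOB, leaf (GLOB-LPI) local `p`-power index, abstract part (helper5).

* `index_range_eq`: for an endomorphism `f` of a commutative group `G`, injective on a subgroup `B`
  of finite index with `f B ≤ B`: `[G : f G] = [B : f B] * #ker f`.
* `index_powRange_of_exact`, `card_powKer_of_exact`: for `1 → B → A → Z → 1` with `Z` without
  `p`-torsion: `[A : A^p] = [B : B^p] * [Z : Z^p]`, `#A[p] = #B[p]`.
* `index_powRange_pi`: `[ℤ^ι : p ℤ^ι] = p ^ #ι`.
* `index_powRange_units`: `Λ` a `q`-adically complete ring, `q` regular, `Λ / q` finite, `p` an odd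
  prime: `[Λˣ : Λˣ^p] = (if q = p then #(Λ / q) else 1) * #Λˣ[p]`
  (`U_1 = 1 + q Λ` has finite index and no `p`-torsion, `U_1^p = U_1` for `q ≠ p`,
  `U_1^p = U_2` and `[U_1 : U_2] = #(Λ / q)` for `q = p`).
-/
import Mathlib
import Fermat.Agent.PT.GLOB.PowerNearOneGen16

set_option autoImplicit false
set_option linter.unusedSectionVars false

namespace Fermat.Agent.PT.GLOB.LocalPowerIndex5

open Fermat.Agent.PT.GLOB.PowerNearOne16 Fermat.Agent.PT.GLOB.PowerNearOneGen16

section Group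

variable {G : Type*} [CommGroup G]

/-- **Index formula.** If `f` is injective on a subgroup `B` of finite index with `f B ≤ B`, then
`[G : f G] = [B : f B] * #ker f`. -/
theorem index_range_eq (f : G →* G) (B : Subgroup G) [B.FiniteIndex] (hB : B.map f ≤ B)
    (hinj : B ⊓ f.ker = ⊥) :
    f.range.index = (B.map f).relIndex B * Nat.card f.ker := by
  have h1 : (B.map f).index = (B ⊔ f.ker).index * f.range.index := Subgroup.index_map B f
  have h2 : (B.map f).relIndex B * B.index = (B.map f).index := Subgroup.relIndex_mul_index hB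
  have h3 : B.relIndex (B ⊔ f.ker) * (B ⊔ f.ker).index = B.index :=
    Subgroup.relIndex_mul_index le_sup_left
  have h4 : B.relIndex (B ⊔ f.ker) = Nat.card f.ker := by
    rw [Subgroup.relIndex_sup_left, ← Subgroup.inf_relIndex_right, hinj,
      Subgroup.relIndex_bot_left]
  have h5 : (B ⊔ f.ker).index ≠ 0 := by
    intro h
    have h6 : B.index ≠ 0 := Subgroup.FiniteIndex.index_ne_zero
    rw [← h3, h, mul_zero] at h6
    exact h6 rfl
  rw [h4] at h3
  rw [← h3] at h2
  rw [h1] at h2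
  have h7 : (B ⊔ f.ker).index * ((B.map f).relIndex B * Nat.card f.ker) =
      (B ⊔ f.ker).index * f.range.index := by
    rw [← h2]; ring
  exact (Nat.eq_of_mul_eq_mul_left (Nat.pos_of_ne_zero h5) h7).symm

/-- In the situation of `index_range_eq` the kernel is finite. -/
theorem finite_ker (f : G →* G) (B : Subgroup G) [B.FiniteIndex] (hinj : B ⊓ f.ker = ⊥) :
    Finite f.ker := by
  have h3 : B.relIndex (B ⊔ f.ker) * (B ⊔ f.ker).index = B.index :=
    Subgroup.relIndex_mul_index le_sup_left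
  have h4 : B.relIndex (B ⊔ f.ker) = Nat.card f.ker := by
    rw [Subgroup.relIndex_sup_left, ← Subgroup.inf_relIndex_right, hinj,
      Subgroup.relIndex_bot_left]
  have h6 : B.index ≠ 0 := Subgroup.FiniteIndex.index_ne_zero
  rw [h4] at h3
  have h7 : Nat.card f.ker ≠ 0 := by
    intro h
    rw [h, zero_mul] at h3
    exact h6 h3.symm
  exact Nat.finite_of_card_ne_zero h7

end Group

section Exact

variable {A Z M N : Type*} [CommGroup A] [CommGroup Z] [CommGroup M] [CommGroup N]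

theorem powRange_congr (p : ℕ) (e : M ≃* N) :
    (powMonoidHom p : N →* N).range = (powMonoidHom p : M →* M).range.map e.toMonoidHom := by
  ext y
  constructor
  · rintro ⟨x, rfl⟩
    refine ⟨(e.symm x) ^ p, ⟨e.symm x, rfl⟩, ?_⟩
    simp
  · rintro ⟨_, ⟨x, rfl⟩, rfl⟩
    exact ⟨e x, by simp⟩

theorem index_powRange_congr (p : ℕ) (e : M ≃* N) :
    (powMonoidHom p : N →* N).range.index = (powMonoidHom p : M →* M).range.index := by
  rw [powRange_congr p e]
  exact Subgroup.index_map_of_bijective (f := e.toMonoidHom) e.bijective _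

theorem card_powKer_congr (p : ℕ) (e : M ≃* N) :
    Nat.card (powMonoidHom p : N →* N).ker = Nat.card (powMonoidHom p : M →* M).ker := by
  refine Nat.card_congr ⟨fun y => ⟨e.symm y.1, ?_⟩, fun x => ⟨e x.1, ?_⟩, ?_, ?_⟩
  · have := y.2
    rw [MonoidHom.mem_ker, powMonoidHom_apply] at this ⊢
    rw [← map_pow, this, map_one]
  · have := x.2
    rw [MonoidHom.mem_ker, powMonoidHom_apply] at this ⊢
    rw [← map_pow, this, map_one]
  · intro y; simp
  · intro x; simp

/-- **Exact-sequence form of the index of `p`-th powers.** -/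
theorem index_powRange_of_exact (p : ℕ) (v : A →* Z) (hv : Function.Surjective v)
    (htf : ∀ z : Z, z ^ p = 1 → z = 1) :
    (powMonoidHom p : A →* A).range.index =
      (powMonoidHom p : v.ker →* v.ker).range.index * (powMonoidHom p : Z →* Z).range.index := by
  set PA := (powMonoidHom p : A →* A).range with hPA
  set PZ := (powMonoidHom p : Z →* Z).range with hPZ
  have h1 : PZ.comap v = PA ⊔ v.ker := by
    ext x
    rw [Subgroup.mem_comap, Subgroup.mem_sup]
    constructor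
    · rintro ⟨z, hz⟩
      obtain ⟨a, rfl⟩ := hv z
      refine ⟨a ^ p, ⟨a, rfl⟩, x / a ^ p, ?_, by simp⟩
      rw [MonoidHom.mem_ker, map_div, map_pow]
      rw [powMonoidHom_apply] at hz
      rw [hz, div_self']
    · rintro ⟨y, ⟨a, rfl⟩, b, hb, rfl⟩
      refine ⟨v a, ?_⟩
      rw [map_mul, MonoidHom.mem_ker.mp hb, mul_one, powMonoidHom_apply, powMonoidHom_apply,
        map_pow]
  have h2 : (PA ⊔ v.ker).index = PZ.index := by
    rw [← h1]
    exact Subgroup.index_comap_of_surjective PZ hv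
  have h3 : PA.relIndex (PA ⊔ v.ker) * (PA ⊔ v.ker).index = PA.index :=
    Subgroup.relIndex_mul_index le_sup_left
  have h4 : PA.relIndex (PA ⊔ v.ker) = (powMonoidHom p : v.ker →* v.ker).range.index := by
    rw [Subgroup.relIndex_sup_left, Subgroup.relIndex]
    congr 1
    ext x
    rw [Subgroup.mem_subgroupOf]
    constructor
    · rintro ⟨a, ha⟩
      have hx := x.2
      rw [MonoidHom.mem_ker, ← ha, powMonoidHom_apply, map_pow] at hx
      have ha' : a ∈ v.ker := MonoidHom.mem_ker.mpr (htf _ hx)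
      exact ⟨⟨a, ha'⟩, Subtype.ext ha⟩
    · rintro ⟨b, rfl⟩
      exact ⟨(b : A), rfl⟩
  rw [← h3, h4, h2]

/-- The `p`-torsion of `A` lies in the kernel of `v`. -/
theorem card_powKer_of_exact (p : ℕ) (v : A →* Z) (htf : ∀ z : Z, z ^ p = 1 → z = 1) :
    Nat.card (powMonoidHom p : A →* A).ker = Nat.card (powMonoidHom p : v.ker →* v.ker).ker := by
  refine Nat.card_congr ⟨fun a => ⟨⟨a.1, ?_⟩, ?_⟩, fun b => ⟨b.1.1, ?_⟩, ?_, ?_⟩
  · have := a.2
    rw [MonoidHom.mem_ker, powMonoidHom_apply] at this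
    rw [MonoidHom.mem_ker]
    apply htf
    rw [← map_pow, this, map_one]
  · have := a.2
    rw [MonoidHom.mem_ker, powMonoidHom_apply] at this
    rw [MonoidHom.mem_ker, powMonoidHom_apply]
    exact Subtype.ext this
  · have := b.2
    rw [MonoidHom.mem_ker, powMonoidHom_apply] at this
    rw [MonoidHom.mem_ker, powMonoidHom_apply]
    exact congrArg Subtype.val this
  · intro a; rfl
  · intro b; rfl

end Exact

section Lattice

variable (ι : Type*) [Finite ι]

/-- reduction mod `p` on `ι → Multiplicative ℤ`. -/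
def redZ (p : ℕ) : (ι → Multiplicative ℤ) →* (ι → Multiplicative (ZMod p)) where
  toFun f i := Multiplicative.ofAdd ((Multiplicative.toAdd (f i) : ℤ) : ZMod p)
  map_one' := by
    funext i
    simp
  map_mul' f g := by
    funext i
    simp

theorem redZ_surjective (p : ℕ) [NeZero p] : Function.Surjective (redZ ι p) := by
  intro g
  refine ⟨fun i => Multiplicative.ofAdd ((Multiplicative.toAdd (g i)).val : ℤ), ?_⟩
  funext i
  change Multiplicative.ofAdd _ = _
  simp

theorem ker_redZ (p : ℕ) :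
    (redZ ι p).ker = (powMonoidHom p : (ι → Multiplicative ℤ) →* _).range := by
  ext f
  rw [MonoidHom.mem_ker]
  constructor
  · intro h
    have h1 : ∀ i, (p : ℤ) ∣ Multiplicative.toAdd (f i) := by
      intro i
      have := congrFun h i
      change Multiplicative.ofAdd _ = 1 at this
      rw [ofAdd_eq_one] at this
      exact (ZMod.intCast_zmod_eq_zero_iff_dvd _ _).mp this
    choose c hc using h1
    refine ⟨fun i => Multiplicative.ofAdd (c i), ?_⟩
    funext i
    rw [powMonoidHom_apply, Pi.pow_apply, ← ofAdd_nsmul, nsmul_eq_mul, ← hc i]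
    rfl
  · rintro ⟨g, rfl⟩
    funext i
    change Multiplicative.ofAdd _ = 1
    rw [ofAdd_eq_one, powMonoidHom_apply, Pi.pow_apply, toAdd_pow, nsmul_eq_mul]
    simp

/-- The `p`-th powers have index `p ^ #ι` in `ℤ ^ ι`. -/
theorem index_powRange_pi (p : ℕ) [NeZero p] :
    (powMonoidHom p : (ι → Multiplicative ℤ) →* _).range.index = p ^ Nat.card ι := by
  have := Fintype.ofFinite ι
  have hc : Nat.card (Multiplicative (ZMod p)) = p := by
    rw [Nat.card_congr (Multiplicative.toAdd (α := ZMod p)), Nat.card_zmod]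
  rw [← ker_redZ, Subgroup.index_ker, MonoidHom.range_eq_top.mpr (redZ_surjective ι p),
    Nat.card_congr (Subgroup.topEquiv (G := ι → Multiplicative (ZMod p))).toEquiv, Nat.card_pi,
    Finset.prod_congr rfl (fun i _ => hc), Finset.prod_const, Finset.card_univ,
    Nat.card_eq_fintype_card]

theorem pow_eq_one_pi (p : ℕ) (hp : p ≠ 0) (z : ι → Multiplicative ℤ) (hz : z ^ p = 1) :
    z = 1 := by
  funext i
  have := congrFun hz i
  rw [Pi.pow_apply, Pi.one_apply] at this
  have h2 : p • Multiplicative.toAdd (z i) = 0 := by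
    rw [← toAdd_pow, this]; rfl
  rw [nsmul_eq_mul] at h2
  have h3 : Multiplicative.toAdd (z i) = 0 := by
    rcases mul_eq_zero.mp h2 with h | h
    · exact absurd (by exact_mod_cast h) hp
    · exact h
  exact toAdd_eq_zero.mp h3

end Lattice

section Ring

variable {Λ : Type*} [CommRing Λ] (q : ℕ)

/-- The principal congruence subgroup `U_k = 1 + q ^ k Λ` of `Λˣ`. -/
def U (k : ℕ) : Subgroup Λˣ :=
  (Units.map
    ((Ideal.Quotient.mk (Ideal.span {(q : Λ) ^ k}) : Λ →+* Λ ⧸ Ideal.span {(q : Λ) ^ k}) :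
      Λ →* Λ ⧸ Ideal.span {(q : Λ) ^ k})).ker

theorem mem_U {k : ℕ} {u : Λˣ} : u ∈ U (Λ := Λ) q k ↔ (u : Λ) - 1 ∈ Ideal.span {(q : Λ) ^ k} := by
  rw [U, MonoidHom.mem_ker, Units.ext_iff, Units.coe_map, Units.val_one, MonoidHom.coe_coe,
    ← map_one (Ideal.Quotient.mk (Ideal.span {(q : Λ) ^ k})), Ideal.Quotient.eq]

theorem mem_U_one {u : Λˣ} : u ∈ U (Λ := Λ) q 1 ↔ (u : Λ) - 1 ∈ Ideal.span {(q : Λ)} := by
  rw [mem_U, pow_one]

theorem U_anti {k l : ℕ} (h : k ≤ l) : U (Λ := Λ) q l ≤ U (Λ := Λ) q k := by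
  intro u hu
  rw [mem_U] at hu ⊢
  exact Ideal.span_singleton_le_span_singleton.mpr (pow_dvd_pow _ h) hu

instance finiteIndex_U_one [Finite (Λ ⧸ Ideal.span {(q : Λ)})] :
    (U (Λ := Λ) q 1).FiniteIndex := by
  have : Finite (Λ ⧸ Ideal.span {(q : Λ) ^ 1}) := by rw [pow_one]; infer_instance
  constructor
  rw [U, Subgroup.index_ker]
  exact Nat.card_pos.ne'

/-- Units can be tested modulo `q` in a `q`-adically complete ring. -/
theorem isUnit_of_mk [IsAdicComplete (Ideal.span {(q : Λ)}) Λ] (x : Λ)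
    (h : IsUnit (Ideal.Quotient.mk (Ideal.span {(q : Λ)}) x)) : IsUnit x := by
  have := isLocalHom_of_le_jacobson_bot (Ideal.span {(q : Λ)})
    (IsAdicComplete.le_jacobson_bot _)
  exact IsUnit.of_map (Ideal.Quotient.mk (Ideal.span {(q : Λ)})) x h

theorem isUnit_one_add_mul [IsAdicComplete (Ideal.span {(q : Λ)}) Λ] (m : Λ) :
    IsUnit (1 + (q : Λ) * m) := by
  apply isUnit_of_mk q
  have : Ideal.Quotient.mk (Ideal.span {(q : Λ)}) (1 + (q : Λ) * m) = 1 := by
    rw [← map_one (Ideal.Quotient.mk (Ideal.span {(q : Λ)})), Ideal.Quotient.eq,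
      add_sub_cancel_left]
    exact natCast_mul_mem_span q m
  rw [this]
  exact isUnit_one

/-- A prime `p ≠ q` is a unit in a `q`-adically complete ring. -/
theorem isUnit_natCast_of_ne [IsAdicComplete (Ideal.span {(q : Λ)}) Λ] {p : ℕ} (hp : p.Prime)
    (hq : q.Prime) (hqp : q ≠ p) : IsUnit (p : Λ) := by
  have hcop : Nat.Coprime p q := (Nat.coprime_primes hp hq).mpr (Ne.symm hqp)
  have hb : IsCoprime (p : ℤ) (q : ℤ) := Nat.isCoprime_iff_coprime.mpr hcop
  obtain ⟨a, b, hab⟩ := hb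
  have h1 : (a : Λ) * (p : Λ) + (b : Λ) * (q : Λ) = 1 := by
    have := congrArg (Int.cast : ℤ → Λ) hab
    push_cast at this
    exact this
  apply isUnit_of_mk q
  refine IsUnit.of_mul_eq_one (Ideal.Quotient.mk _ (a : Λ)) ?_
  rw [← map_mul, ← map_one (Ideal.Quotient.mk (Ideal.span {(q : Λ)})), Ideal.Quotient.eq]
  have : (p : Λ) * (a : Λ) - 1 = (q : Λ) * (-(b : Λ)) := by
    rw [← h1]; ring
  rw [this]
  exact natCast_mul_mem_span q _

/-- The geometric sum `∑_{i<p} u ^ i` for `u = 1 + p z`, `p` odd: it is `p (1 + p m)`. -/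
theorem exists_geom_sum_eq {p : ℕ} (hodd : Odd p) (z : Λ) :
    ∃ m : Λ, ∑ i ∈ Finset.range p, (1 + (p : Λ) * z) ^ i = (p : Λ) * (1 + (p : Λ) * m) := by
  have h1 : ∀ i : ℕ, ∃ r : Λ, (1 + (p : Λ) * z) ^ i = 1 + (i : Λ) * ((p : Λ) * z) + (p : Λ) ^ 2 * r := by
    intro i
    induction i with
    | zero => exact ⟨0, by simp⟩
    | succ i ih =>
      obtain ⟨r, hr⟩ := ih
      refine ⟨r + (i : Λ) * z ^ 2 + (p : Λ) * z * r, ?_⟩
      rw [pow_succ, hr]
      push_cast
      ring
  choose r hr using h1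
  obtain ⟨k, hk⟩ := hodd
  have hsum : (∑ i ∈ Finset.range p, (i : Λ)) = (p : Λ) * (k : Λ) := by
    have h := Finset.sum_range_id_mul_two p
    have h2 : (∑ i ∈ Finset.range p, i) = p * k := by
      have h3 : p - 1 = 2 * k := by omega
      rw [h3] at h
      have : (∑ i ∈ Finset.range p, i) * 2 = (p * k) * 2 := by rw [h]; ring
      exact Nat.eq_of_mul_eq_mul_right (by norm_num) this
    have := congrArg (Nat.cast : ℕ → Λ) h2
    push_cast at this
    exact this
  refine ⟨(k : Λ) * z + ∑ i ∈ Finset.range p, r i, ?_⟩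
  rw [Finset.sum_congr rfl (fun i _ => hr i), Finset.sum_add_distrib, Finset.sum_add_distrib,
    Finset.sum_const, Finset.card_range, ← Finset.sum_mul, hsum, ← Finset.mul_sum]
  simp only [nsmul_eq_mul, mul_one]
  ring

/-- `U_1` has no `p`-torsion (`p` odd; `q` regular is only used when `q = p`). -/
theorem eq_one_of_pow_eq_one [IsAdicComplete (Ideal.span {(q : Λ)}) Λ] {p : ℕ} (hp : p.Prime)
    (hp2 : p ≠ 2) (hq : q.Prime) (hreg : ∀ x : Λ, (q : Λ) * x = 0 → x = 0) (u : Λˣ)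
    (hu : u ∈ U (Λ := Λ) q 1) (hup : u ^ p = 1) : u = 1 := by
  rw [mem_U_one] at hu
  obtain ⟨z, hz⟩ := Ideal.mem_span_singleton'.mp hu
  have hgeom : (∑ i ∈ Finset.range p, (u : Λ) ^ i) * ((u : Λ) - 1) = 0 := by
    rw [geom_sum_mul, ← Units.val_pow_eq_pow_val, hup, Units.val_one, sub_self]
  by_cases hqp : q = p
  · subst hqp
    have hu' : (u : Λ) = 1 + (q : Λ) * z := by rw [mul_comm, hz]; ring
    obtain ⟨m, hm⟩ := exists_geom_sum_eq (Λ := Λ) (hp.odd_of_ne_two hp2) z
    rw [hu', hm] at hgeom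
    have h1 : (q : Λ) * ((q : Λ) * ((1 + (q : Λ) * m) * z)) = 0 := by
      rw [← hgeom]; ring
    have h2 := hreg _ (hreg _ h1)
    have h3 : z = 0 := (isUnit_one_add_mul q m).mul_right_eq_zero.mp h2
    ext
    rw [hu', h3, mul_zero, add_zero, Units.val_one]
  · have hunit : IsUnit (∑ i ∈ Finset.range p, (u : Λ) ^ i) := by
      apply isUnit_of_mk q
      have h1 : Ideal.Quotient.mk (Ideal.span {(q : Λ)}) (u : Λ) = 1 := by
        rw [← map_one (Ideal.Quotient.mk _), Ideal.Quotient.eq]; exact hu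
      rw [map_sum]
      simp only [map_pow, h1, one_pow, Finset.sum_const, Finset.card_range, nsmul_eq_mul, mul_one]
      have := (isUnit_natCast_of_ne (Λ := Λ) q hp hq hqp).map
        (Ideal.Quotient.mk (Ideal.span {(q : Λ)}))
      rwa [map_natCast] at this
    have h2 := hunit.mul_right_eq_zero.mp hgeom
    ext
    rw [Units.val_one]
    exact sub_eq_zero.mp h2

theorem U_inf_ker_eq_bot [IsAdicComplete (Ideal.span {(q : Λ)}) Λ] {p : ℕ} (hp : p.Prime)
    (hp2 : p ≠ 2) (hq : q.Prime) (hreg : ∀ x : Λ, (q : Λ) * x = 0 → x = 0) :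
    U (Λ := Λ) q 1 ⊓ (powMonoidHom p : Λˣ →* Λˣ).ker = ⊥ := by
  rw [eq_bot_iff]
  rintro u ⟨hu1, hu2⟩
  rw [Subgroup.mem_bot]
  exact eq_one_of_pow_eq_one q hp hp2 hq hreg u hu1 hu2

/-- `U_1` is `p`-divisible for `p ≠ q`. -/
theorem map_pow_U_of_ne [IsAdicComplete (Ideal.span {(q : Λ)}) Λ] {p : ℕ} (hp : p.Prime)
    (hq : q.Prime) (hqp : q ≠ p) :
    (U (Λ := Λ) q 1).map (powMonoidHom p) = U (Λ := Λ) q 1 := by
  apply le_antisymm
  · rintro _ ⟨u, hu, rfl⟩
    exact Subgroup.pow_mem _ hu p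
  · intro z hz
    rw [mem_U_one] at hz
    obtain ⟨y, hy, hy1⟩ := exists_pow_eq_of_isUnit q p (isUnit_natCast_of_ne q hp hq hqp)
      (z : Λ) hz
    have hyu : IsUnit y := (isUnit_pow_iff hp.ne_zero).mp (hy ▸ z.isUnit)
    refine ⟨hyu.unit, ?_, ?_⟩
    · rw [SetLike.mem_coe, mem_U_one, IsUnit.unit_spec]
      exact hy1
    · ext
      rw [powMonoidHom_apply, Units.val_pow_eq_pow_val, IsUnit.unit_spec, hy]

/-- `U_1 ^ p = U_2` for `q = p` odd. -/
theorem map_pow_U_of_eq {p : ℕ} [IsAdicComplete (Ideal.span {(p : Λ)}) Λ] (hp : p.Prime)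
    (hp2 : p ≠ 2) :
    (U (Λ := Λ) p 1).map (powMonoidHom p) = U (Λ := Λ) p 2 := by
  apply le_antisymm
  · rintro _ ⟨u, hu, rfl⟩
    rw [SetLike.mem_coe, mem_U_one] at hu
    obtain ⟨z, hz⟩ := Ideal.mem_span_singleton'.mp hu
    obtain ⟨g, hg⟩ := exists_poly_one_add_mul_pow Λ hp hp2
    have hu' : (u : Λ) = 1 + (p : Λ) * z := by rw [mul_comm, hz]; ring
    rw [mem_U, powMonoidHom_apply, Units.val_pow_eq_pow_val, hu', hg z]
    apply Ideal.mem_span_singleton'.mpr
    exact ⟨z + (p : Λ) * g.eval z, by ring⟩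
  · intro z hz
    rw [mem_U] at hz
    have hz' : (z : Λ) - 1 ∈ Ideal.span {((p ^ 2 : ℕ) : Λ)} := by rwa [Nat.cast_pow]
    obtain ⟨y, hy, hy1⟩ := exists_pow_eq_of_sq hp hp2 (z : Λ) hz'
    have hyu : IsUnit y := (isUnit_pow_iff hp.ne_zero).mp (hy ▸ z.isUnit)
    refine ⟨hyu.unit, ?_, ?_⟩
    · rw [SetLike.mem_coe, mem_U_one, IsUnit.unit_spec]
      exact hy1
    · ext
      rw [powMonoidHom_apply, Units.val_pow_eq_pow_val, IsUnit.unit_spec, hy]

section Index

variable [IsAdicComplete (Ideal.span {(q : Λ)}) Λ]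

/-- The coordinate `z` of `u = 1 + q z ∈ U_1`. -/
noncomputable def zOf (u : U (Λ := Λ) q 1) : Λ :=
  Classical.choose (Ideal.mem_span_singleton'.mp ((mem_U_one q).mp u.2))

theorem zOf_spec (u : U (Λ := Λ) q 1) : ((u : Λˣ) : Λ) = 1 + (q : Λ) * zOf q u := by
  have h := Classical.choose_spec (Ideal.mem_span_singleton'.mp ((mem_U_one q).mp u.2))
  change zOf q u * (q : Λ) = _ at h
  rw [mul_comm, h]
  ring

theorem zOf_eq (hreg : ∀ x : Λ, (q : Λ) * x = 0 → x = 0) (u : U (Λ := Λ) q 1) (z : Λ)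
    (h : ((u : Λˣ) : Λ) = 1 + (q : Λ) * z) : zOf q u = z := by
  have h1 := zOf_spec q u
  rw [h] at h1
  have h2 : (q : Λ) * (zOf q u - z) = 0 := by
    have : (q : Λ) * z = (q : Λ) * zOf q u := add_left_cancel h1
    rw [mul_sub, this, sub_self]
  exact sub_eq_zero.mp (hreg _ h2)

/-- `U_1 → Λ / q Λ`, `1 + q z ↦ z mod q`. -/
noncomputable def psi (hreg : ∀ x : Λ, (q : Λ) * x = 0 → x = 0) :
    U (Λ := Λ) q 1 →* Multiplicative (Λ ⧸ Ideal.span {(q : Λ)}) where
  toFun u := Multiplicative.ofAdd (Ideal.Quotient.mk _ (zOf q u))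
  map_one' := by
    have : zOf q (1 : U (Λ := Λ) q 1) = 0 := zOf_eq q hreg 1 0 (by simp)
    rw [this, map_zero]
    rfl
  map_mul' u v := by
    have h : zOf q (u * v) = zOf q u + zOf q v + (q : Λ) * (zOf q u * zOf q v) := by
      apply zOf_eq q hreg
      rw [Subgroup.coe_mul, Units.val_mul, zOf_spec q u, zOf_spec q v]
      ring
    rw [h, ← ofAdd_add, ← map_add]
    congr 1
    rw [Ideal.Quotient.eq, add_sub_cancel_left]
    exact natCast_mul_mem_span q _

theorem psi_apply (hreg : ∀ x : Λ, (q : Λ) * x = 0 → x = 0) (u : U (Λ := Λ) q 1) :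
    psi q hreg u = Multiplicative.ofAdd (Ideal.Quotient.mk _ (zOf q u)) := rfl

theorem psi_surjective (hreg : ∀ x : Λ, (q : Λ) * x = 0 → x = 0) :
    Function.Surjective (psi (Λ := Λ) q hreg) := by
  intro y
  obtain ⟨z, hz⟩ := Ideal.Quotient.mk_surjective (Multiplicative.toAdd y)
  have hu : IsUnit (1 + (q : Λ) * z) := isUnit_one_add_mul q z
  have hmem : hu.unit ∈ U (Λ := Λ) q 1 := by
    rw [mem_U_one, IsUnit.unit_spec, add_sub_cancel_left]
    exact natCast_mul_mem_span q z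
  refine ⟨⟨hu.unit, hmem⟩, ?_⟩
  rw [psi_apply, zOf_eq q hreg ⟨hu.unit, hmem⟩ z (IsUnit.unit_spec hu), hz]
  rfl

theorem ker_psi (hreg : ∀ x : Λ, (q : Λ) * x = 0 → x = 0) :
    (psi (Λ := Λ) q hreg).ker = (U (Λ := Λ) q 2).subgroupOf (U (Λ := Λ) q 1) := by
  ext u
  rw [MonoidHom.mem_ker, Subgroup.mem_subgroupOf, mem_U, psi_apply, ofAdd_eq_one,
    Ideal.Quotient.eq_zero_iff_mem, zOf_spec q u, add_sub_cancel_left]
  constructor
  · intro h
    obtain ⟨w, hw⟩ := Ideal.mem_span_singleton'.mp h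
    apply Ideal.mem_span_singleton'.mpr
    exact ⟨w, by rw [← hw]; ring⟩
  · intro h
    obtain ⟨w, hw⟩ := Ideal.mem_span_singleton'.mp h
    apply Ideal.mem_span_singleton'.mpr
    refine ⟨w, ?_⟩
    apply sub_eq_zero.mp
    apply hreg
    rw [mul_sub, ← hw]
    ring

/-- `[U_1 : U_2] = #(Λ / q Λ)`. -/
theorem relIndex_U (hreg : ∀ x : Λ, (q : Λ) * x = 0 → x = 0) :
    (U (Λ := Λ) q 2).relIndex (U (Λ := Λ) q 1) = Nat.card (Λ ⧸ Ideal.span {(q : Λ)}) := by
  rw [Subgroup.relIndex, ← ker_psi q hreg, Subgroup.index_ker,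
    MonoidHom.range_eq_top.mpr (psi_surjective q hreg),
    Nat.card_congr (Subgroup.topEquiv
      (G := Multiplicative (Λ ⧸ Ideal.span {(q : Λ)}))).toEquiv]
  exact Nat.card_congr Multiplicative.toAdd

end Index

/-- **Index of the `p`-th powers in the unit group of a `q`-adically complete ring `Λ`** with
`Λ / q Λ` finite and `q` regular, `p` an odd prime. -/
theorem index_powRange_units [IsAdicComplete (Ideal.span {(q : Λ)}) Λ]
    [Finite (Λ ⧸ Ideal.span {(q : Λ)})] {p : ℕ} (hp : p.Prime) (hp2 : p ≠ 2) (hq : q.Prime)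
    (hreg : ∀ x : Λ, (q : Λ) * x = 0 → x = 0) :
    (powMonoidHom p : Λˣ →* Λˣ).range.index =
      (if q = p then Nat.card (Λ ⧸ Ideal.span {(q : Λ)}) else 1) *
        Nat.card (powMonoidHom p : Λˣ →* Λˣ).ker := by
  have hinj := U_inf_ker_eq_bot (Λ := Λ) q hp hp2 hq hreg
  by_cases hqp : q = p
  · subst hqp
    have hB : (U (Λ := Λ) q 1).map (powMonoidHom q) ≤ U (Λ := Λ) q 1 := by
      rw [map_pow_U_of_eq hp hp2]
      exact U_anti q (by norm_num)
    rw [index_range_eq _ (U (Λ := Λ) q 1) hB hinj, map_pow_U_of_eq hp hp2, relIndex_U q hreg,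
      if_pos rfl]
  · have hB : (U (Λ := Λ) q 1).map (powMonoidHom p) ≤ U (Λ := Λ) q 1 := by
      rw [map_pow_U_of_ne q hp hq hqp]
    rw [index_range_eq _ (U (Λ := Λ) q 1) hB hinj, map_pow_U_of_ne q hp hq hqp,
      Subgroup.relIndex_self, if_neg hqp]

theorem finite_powKer_units [IsAdicComplete (Ideal.span {(q : Λ)}) Λ]
    [Finite (Λ ⧸ Ideal.span {(q : Λ)})] {p : ℕ} (hp : p.Prime) (hp2 : p ≠ 2) (hq : q.Prime)
    (hreg : ∀ x : Λ, (q : Λ) * x = 0 → x = 0) :
    Finite (powMonoidHom p : Λˣ →* Λˣ).ker :=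
  finite_ker _ (U (Λ := Λ) q 1) (U_inf_ker_eq_bot (Λ := Λ) q hp hp2 hq hreg)

end Ring

end Fermat.Agent.PT.GLOB.LocalPowerIndex5
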