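/-
Program F (S55, Poitou–Tate), chapter GLOB, leaf (L1-FROB) (helper17).

**The decomposition group at an unramified prime is generated by a Frobenius element.**

* `exists_pow_sub_mem`, `stabilizer_eq_zpowers`, `card_stabilizer_eq_orderOf` : generic form
  (`G` finite acting on `B` with invariants `A`, `Q` a prime of `B` with finite residue field and
  trivial inertia, `τ` an arithmetic Frobenius at `Q`): `Stab_G(Q) = ⟨τ⟩`, `#Stab_G(Q) = ord τ`.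
* the cyclotomic `p`-layer `B = pLayer p r K M` of helper22 (`CycloPLayer22`): for a nonzero prime
  `𝔓 ∌ p` of `B`, `#D_𝔓 = ord (N(𝔓 ∩ K)^(p-1))` in `(ℤ/p^r)ˣ`; `card_stabilizer_pLayer_dvd`.
* `K = ℚ`: `absNorm_under_rat`; `card_stabilizer_pLayer_rat_dvd`: if `q ≠ p` and
  `q^((p-1)k) ≡ 1 mod p^r` then `#D_𝔓 ∣ k` for `𝔓 ∣ q`.
-/
import Mathlib
import Fermat.Agent.PT.GLOB.CycloPLayer22

set_option autoImplicit false
set_option linter.unusedSectionVars false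

namespace Fermat.Agent.PT.GLOB.DecompFrob17

open NumberField
open scoped Pointwise
open Fermat.Agent.PT.GLOB.CycloPLayer22

universe u v

section Generic

variable {A B : Type*} [CommRing A] [CommRing B] [Algebra A B] {G : Type*} [Group G] [Finite G]
  [MulSemiringAction G B] [SMulCommClass G A B] [Algebra.IsInvariant A B G]

attribute [local instance] Ideal.Quotient.field in
/-- Every element of the decomposition group of `Q` acts on `B ⧸ Q` as a power of a Frobenius. -/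
theorem exists_pow_sub_mem (Q : Ideal B) [Q.IsPrime] [Finite (B ⧸ Q)] {τ : G}
    (hτ : IsArithFrobAt A τ Q) {σ : G} (hσ : σ ∈ MulAction.stabilizer G Q) :
    ∃ n : ℕ, ∀ b : B, σ • b - (τ ^ n) • b ∈ Q := by
  have hint := Algebra.IsInvariant.isIntegral A B G
  have hQmax : Q.IsMaximal :=
    Ideal.Quotient.maximal_of_isField _ (Finite.isField_of_domain (B ⧸ Q))
  have hPmax : (Q.under A).IsMaximal := Ideal.IsMaximal.under A Q
  have : Finite (A ⧸ Q.under A) := .of_injective _ Ideal.algebraMap_quotient_injective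
  cases nonempty_fintype (A ⧸ Q.under A)
  have : Algebra.IsAlgebraic (A ⧸ Q.under A) (B ⧸ Q) := Algebra.IsAlgebraic.of_finite _ _
  set φ := Ideal.Quotient.stabilizerHom Q (Q.under A) G with hφ
  set Fr := FiniteField.frobeniusAlgEquivOfAlgebraic (A ⧸ Q.under A) (B ⧸ Q) with hFr
  have hτQ : τ ∈ MulAction.stabilizer G Q := hτ.mem_stabilizer
  have h1 : φ ⟨τ, hτQ⟩ = Fr := by
    ext x
    obtain ⟨b, rfl⟩ := Ideal.Quotient.mk_surjective x
    rw [hFr, FiniteField.coe_frobeniusAlgEquivOfAlgebraic]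
    change Ideal.Quotient.mk Q (τ • b) = (Ideal.Quotient.mk Q b) ^ _
    rw [← map_pow, Ideal.Quotient.eq, ← Nat.card_eq_fintype_card]
    exact hτ b
  obtain ⟨n, hn⟩ := (FiniteField.bijective_frobeniusAlgEquivOfAlgebraic_pow
    (A ⧸ Q.under A) (B ⧸ Q)).2 (φ ⟨σ, hσ⟩)
  refine ⟨n.1, fun b => ?_⟩
  have h2 : φ (⟨τ, hτQ⟩ ^ n.1) = φ ⟨σ, hσ⟩ := by
    rw [map_pow, h1]
    exact hn
  have h3 := DFunLike.congr_fun h2 (Ideal.Quotient.mk Q b)
  rw [← Ideal.Quotient.eq]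
  exact h3.symm

/-- **The decomposition group at an unramified prime is generated by a Frobenius.** -/
theorem stabilizer_eq_zpowers (Q : Ideal B) [Q.IsPrime] [Finite (B ⧸ Q)] {τ : G}
    (hτ : IsArithFrobAt A τ Q) (hI : Q.inertia G = ⊥) :
    MulAction.stabilizer G Q = Subgroup.zpowers τ := by
  apply le_antisymm
  · intro σ hσ
    obtain ⟨n, hn⟩ := exists_pow_sub_mem (A := A) Q hτ hσ
    have h1 : σ * (τ ^ n)⁻¹ ∈ Q.inertia G := by
      intro b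
      have h2 := hn ((τ ^ n)⁻¹ • b)
      rwa [smul_inv_smul, ← mul_smul] at h2
    rw [hI, Subgroup.mem_bot, mul_inv_eq_one] at h1
    rw [h1]
    exact Subgroup.pow_mem _ (Subgroup.mem_zpowers τ) n
  · rw [Subgroup.zpowers_le]
    exact hτ.mem_stabilizer

/-- The order of the decomposition group at an unramified prime is the order of a Frobenius. -/
theorem card_stabilizer_eq_orderOf (Q : Ideal B) [Q.IsPrime] [Finite (B ⧸ Q)] {τ : G}
    (hτ : IsArithFrobAt A τ Q) (hI : Q.inertia G = ⊥) :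
    Nat.card (MulAction.stabilizer G Q) = orderOf τ := by
  rw [stabilizer_eq_zpowers (A := A) Q hτ hI, Nat.card_zpowers]

end Generic

section Layer

variable (p : ℕ) [hp : Fact p.Prime] (r : ℕ) (K : Type u) (M : Type v) [Field K] [Field M]
  [Algebra K M] [IsCyclotomicExtension {p ^ r} K M] [NumberField K] [NumberField M]

/-- **Decomposition groups of the cyclotomic `p`-layer**: for a nonzero prime `𝔓 ∌ p`, the order of
`D_𝔓 ⊂ Gal(pLayer/K)` divides `k` as soon as `N(𝔓 ∩ K)^((p-1)k) = 1` in `ℤ/p^r`. -/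
theorem card_stabilizer_pLayer_dvd (𝔓 : Ideal (𝓞 (pLayer p r K M))) [h𝔓 : 𝔓.IsPrime] (h𝔓0 : 𝔓 ≠ ⊥)
    (hp𝔓 : (p : 𝓞 (pLayer p r K M)) ∉ 𝔓) (k : ℕ)
    (hk : ((Ideal.absNorm (𝔓.under (𝓞 K)) : ℕ) : ZMod (p ^ r)) ^ ((p - 1) * k) = 1) :
    Nat.card (MulAction.stabilizer (pLayer p r K M ≃ₐ[K] pLayer p r K M) 𝔓) ∣ k := by
  have := isGalois_pLayer p r K M
  have hfin : Finite (𝓞 (pLayer p r K M) ⧸ 𝔓) := Ideal.finiteQuotientOfFreeOfNeBot 𝔓 h𝔓0
  obtain ⟨τ, hτ⟩ := IsArithFrobAt.exists_of_isInvariant (𝓞 K)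
    (pLayer p r K M ≃ₐ[K] pLayer p r K M) 𝔓
  have hI := inertia_pLayer_eq_bot p r K M 𝔓 hp𝔓
  rw [card_stabilizer_eq_orderOf (A := 𝓞 K) 𝔓 hτ hI]
  apply orderOf_dvd_of_pow_eq_one
  apply psi_injective p r K M
  rw [map_pow, map_one]
  apply Units.ext
  rw [Units.val_pow_eq_pow_val, psi_of_isArithFrobAt p r K M 𝔓 h𝔓0 hp𝔓 τ hτ, ← pow_mul,
    Units.val_one]
  exact hk

/-- The exact order: `#D_𝔓 = ord (psi Frob)`, with `psi Frob = N(𝔓 ∩ K)^(p-1)`. -/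
theorem exists_card_stabilizer_pLayer_eq (𝔓 : Ideal (𝓞 (pLayer p r K M))) [h𝔓 : 𝔓.IsPrime]
    (h𝔓0 : 𝔓 ≠ ⊥) (hp𝔓 : (p : 𝓞 (pLayer p r K M)) ∉ 𝔓) :
    ∃ u : (ZMod (p ^ r))ˣ,
      (u : ZMod (p ^ r)) = ((Ideal.absNorm (𝔓.under (𝓞 K)) : ℕ) : ZMod (p ^ r)) ^ (p - 1) ∧
      Nat.card (MulAction.stabilizer (pLayer p r K M ≃ₐ[K] pLayer p r K M) 𝔓) = orderOf u := by
  have := isGalois_pLayer p r K M
  have hfin : Finite (𝓞 (pLayer p r K M) ⧸ 𝔓) := Ideal.finiteQuotientOfFreeOfNeBot 𝔓 h𝔓0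
  obtain ⟨τ, hτ⟩ := IsArithFrobAt.exists_of_isInvariant (𝓞 K)
    (pLayer p r K M ≃ₐ[K] pLayer p r K M) 𝔓
  have hI := inertia_pLayer_eq_bot p r K M 𝔓 hp𝔓
  refine ⟨psi p r K M τ, psi_of_isArithFrobAt p r K M 𝔓 h𝔓0 hp𝔓 τ hτ, ?_⟩
  rw [card_stabilizer_eq_orderOf (A := 𝓞 K) 𝔓 hτ hI]
  exact (orderOf_injective (psi p r K M) (psi_injective p r K M) τ).symm

end Layer

section Rat

/-- The norm of the prime of `𝓞 ℚ` below a prime containing the rational prime `q`. -/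
theorem absNorm_under_rat {L : Type v} [Field L] [NumberField L] (q : ℕ) (hq : q.Prime)
    (P : Ideal (𝓞 L)) [hP : P.IsPrime] (hqP : (q : 𝓞 L) ∈ P) :
    Ideal.absNorm (P.under (𝓞 ℚ)) = q := by
  have hle : Ideal.span {(q : 𝓞 ℚ)} ≤ P.under (𝓞 ℚ) := by
    rw [Ideal.span_singleton_le_iff_mem, Ideal.under_def, Ideal.mem_comap, map_natCast]
    exact hqP
  have h1 : Ideal.absNorm (Ideal.span {(q : 𝓞 ℚ)}) = q := by
    rw [Ideal.absNorm_span_singleton]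
    have : ((q : 𝓞 ℚ)) = algebraMap ℤ (𝓞 ℚ) (q : ℤ) := by
      rw [map_natCast]
    rw [this, Algebra.norm_algebraMap, RingOfIntegers.rank, Module.finrank_self, pow_one,
      Int.natAbs_natCast]
  have h2 : Ideal.absNorm (P.under (𝓞 ℚ)) ∣ q := by
    rw [← h1]
    exact Ideal.absNorm_dvd_absNorm_of_le hle
  have h3 : Ideal.absNorm (P.under (𝓞 ℚ)) ≠ 1 := by
    rw [Ne, Ideal.absNorm_eq_one_iff]
    exact (Ideal.IsPrime.under (𝓞 ℚ) P).ne_top
  exact ((Nat.dvd_prime hq).mp h2).resolve_left h3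

variable (p : ℕ) [hp : Fact p.Prime] (r : ℕ)

/-- A prime containing two distinct rational primes is impossible. -/
theorem natCast_notMem_of_ne {R : Type*} [CommRing R] (𝔓 : Ideal R) [h𝔓 : 𝔓.IsPrime] (q : ℕ)
    (hq : q.Prime) (hqp : q ≠ p) (hq𝔓 : (q : R) ∈ 𝔓) : (p : R) ∉ 𝔓 := by
  intro hmem
  have hcop : IsCoprime (q : ℤ) (p : ℤ) :=
    Nat.isCoprime_iff_coprime.mpr ((Nat.coprime_primes hq hp.out).mpr hqp)
  obtain ⟨a, b, hab⟩ := hcop.map (Int.castRingHom R)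
  rw [eq_intCast, eq_intCast, Int.cast_natCast, Int.cast_natCast] at hab
  apply h𝔓.ne_top
  rw [Ideal.eq_top_iff_one, ← hab]
  exact 𝔓.add_mem (𝔓.mul_mem_left _ hq𝔓) (𝔓.mul_mem_left _ hmem)

/-- **(L1-FROB)** over a base field `K` whose primes above `q` have norm `q` (e.g. `K = ℚ`): for a
prime `q ≠ p` and a prime `𝔓 ∣ q` of the `p`-layer `B` of `K(ζ_{p^r})`, the order of the
decomposition group `D_𝔓 ⊂ Gal(B/K)` divides `k` as soon as `q^((p-1)k) ≡ 1 mod p^r`. -/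
theorem card_stabilizer_pLayer_dvd_of_absNorm (K : Type u) (M : Type v) [Field K] [Field M]
    [Algebra K M] [IsCyclotomicExtension {p ^ r} K M] [NumberField K] [NumberField M]
    (q : ℕ) (hq : q.Prime) (hqp : q ≠ p)
    (𝔓 : Ideal (𝓞 (pLayer p r K M))) [h𝔓 : 𝔓.IsPrime] (hq𝔓 : (q : 𝓞 (pLayer p r K M)) ∈ 𝔓)
    (hN : Ideal.absNorm (𝔓.under (𝓞 K)) = q) (k : ℕ)
    (hk : (q : ZMod (p ^ r)) ^ ((p - 1) * k) = 1) :
    Nat.card (MulAction.stabilizer (pLayer p r K M ≃ₐ[K] pLayer p r K M) 𝔓) ∣ k := by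
  have h0 : 𝔓 ≠ ⊥ := by
    rintro rfl
    rw [Ideal.mem_bot, Nat.cast_eq_zero] at hq𝔓
    exact hq.ne_zero hq𝔓
  have hp𝔓 : (p : 𝓞 (pLayer p r K M)) ∉ 𝔓 := natCast_notMem_of_ne p 𝔓 q hq hqp hq𝔓
  apply card_stabilizer_pLayer_dvd p r K M 𝔓 h0 hp𝔓 k
  rw [hN]
  exact hk

variable (M : Type v) [Field M] [NumberField M] [IsCyclotomicExtension {p ^ r} ℚ M]

/-- **(L1-FROB)** over `ℚ` (canonical `ℚ`-algebra structures). -/
theorem card_stabilizer_pLayer_rat_dvd (q : ℕ) (hq : q.Prime) (hqp : q ≠ p)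
    (𝔓 : Ideal (𝓞 (pLayer p r ℚ M))) [h𝔓 : 𝔓.IsPrime] (hq𝔓 : (q : 𝓞 (pLayer p r ℚ M)) ∈ 𝔓) (k : ℕ)
    (hk : (q : ZMod (p ^ r)) ^ ((p - 1) * k) = 1) :
    Nat.card (MulAction.stabilizer (pLayer p r ℚ M ≃ₐ[ℚ] pLayer p r ℚ M) 𝔓) ∣ k :=
  card_stabilizer_pLayer_dvd_of_absNorm p r ℚ M q hq hqp 𝔓 hq𝔓
    (absNorm_under_rat q hq 𝔓 hq𝔓) k hk

end Rat

end Fermat.Agent.PT.GLOB.DecompFrob17
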