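/-
Program F (S55, Poitou–Tate), chapter GLOB, leaf (L1) input 1, helper5.

# Arithmetic of `(ℤ/p^r)ˣ` needed for the local non-norm classes

* `unitOfNat_pow_eq_one_iff` : for `q` prime to `p`, `(q mod p^r)^k = 1 ↔ p^r ∣ q^k - 1`;
* `exists_level_of_ne` : for primes `q ≠ p` there is `r ≥ 2` with `(q mod p^(r-1))^(p-1) = 1` but
  `(q mod p^r)^(p-1) ≠ 1` (namely `r = v_p(q^(p-1) - 1) + 1`);
* `unitOfNat_succ_pow_pred_ne_one` : `((1+p) mod p^2)^(p-1) ≠ 1`, and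
  `unitOfNat_succ_pow_prime : ((1+p) mod p^2)^p = 1`.
-/
import Mathlib
import Fermat.Agent.PT.GLOB.CycChar22

set_option autoImplicit false

namespace Fermat.Agent.PT.GLOB.CycArith5

open Fermat.Agent.PT.GLOB.CycChar22

theorem coprime_pow_of_coprime {p q : ℕ} (hq : Nat.Coprime q p) (r : ℕ) :
    Nat.Coprime q (p ^ r) := Nat.Coprime.pow_right r hq

/-- For `q` prime to `p`: `(q mod p^r)^k = 1 ↔ p^r ∣ q^k - 1`. -/
theorem unitOfNat_pow_eq_one_iff {p q : ℕ} (hq : Nat.Coprime q p) (hq0 : q ≠ 0) (r k : ℕ) :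
    unitOfNat (p ^ r) q ^ k = 1 ↔ p ^ r ∣ q ^ k - 1 := by
  have h1 : 1 ≤ q ^ k := Nat.one_le_pow _ _ (Nat.pos_of_ne_zero hq0)
  rw [← Units.val_inj, Units.val_pow_eq_pow_val, coe_unitOfNat (coprime_pow_of_coprime hq r),
    Units.val_one, ← Nat.cast_pow, ← (ZMod.natCast_eq_zero_iff (q ^ k - 1) (p ^ r)),
    Nat.cast_sub h1, Nat.cast_one, sub_eq_zero]

/-- Fermat: `p ∣ q^(p-1) - 1` for `q` prime to the prime `p`. -/
theorem prime_dvd_pow_pred_sub_one {p q : ℕ} (hp : p.Prime) (hq : Nat.Coprime q p) :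
    p ∣ q ^ (p - 1) - 1 := by
  have h := Nat.ModEq.pow_totient hq
  rw [Nat.totient_prime hp] at h
  exact (Nat.modEq_iff_dvd' (Nat.one_le_pow _ _ (Nat.pos_of_ne_zero (by
    rintro rfl
    rw [Nat.coprime_zero_left] at hq
    exact hp.one_lt.ne' hq)))).1 h.symm

/-- For primes `q ≠ p`: the exact level `r = v_p(q^(p-1) - 1) + 1 ≥ 2` at which `q^(p-1)` stops
being `1` modulo `p^r`. -/
theorem exists_level_of_ne {p q : ℕ} (hp : p.Prime) (hq : q.Prime) (hqp : q ≠ p) :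
    ∃ r : ℕ, 2 ≤ r ∧ unitOfNat (p ^ (r - 1)) q ^ (p - 1) = 1 ∧
      unitOfNat (p ^ r) q ^ (p - 1) ≠ 1 := by
  have : Fact p.Prime := ⟨hp⟩
  have hcop : Nat.Coprime q p := (Nat.coprime_primes hq hp).2 hqp
  have hm0 : q ^ (p - 1) - 1 ≠ 0 := by
    have h2 : 2 ≤ q ^ (p - 1) := by
      calc 2 ≤ q := hq.two_le
        _ = q ^ 1 := (pow_one q).symm
        _ ≤ q ^ (p - 1) := Nat.pow_le_pow_right hq.pos (by have := hp.two_le; omega)
    omega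
  have hv1 : 1 ≤ padicValNat p (q ^ (p - 1) - 1) := by
    rw [← padicValNat_dvd_iff_le hm0, pow_one]
    exact prime_dvd_pow_pred_sub_one hp hcop
  refine ⟨padicValNat p (q ^ (p - 1) - 1) + 1, by omega, ?_, ?_⟩
  · rw [Nat.add_sub_cancel, unitOfNat_pow_eq_one_iff hcop hq.ne_zero,
      padicValNat_dvd_iff_le hm0]
  · rw [Ne, unitOfNat_pow_eq_one_iff hcop hq.ne_zero, padicValNat_dvd_iff_le hm0]
    omega

theorem coprime_succ_self (p : ℕ) : Nat.Coprime (1 + p) p := by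
  rw [Nat.coprime_add_self_left]
  exact Nat.coprime_one_left p

/-- `(1 + p)^p ≡ 1 mod p^2`. -/
theorem unitOfNat_succ_pow_prime (p : ℕ) :
    unitOfNat (p ^ 2) (1 + p) ^ p = 1 := by
  rw [unitOfNat_pow_eq_one_iff (coprime_succ_self p) (by omega)]
  have h : ((p : ℤ) ^ (1 + 1)) ∣ ((1 + p : ℤ)) ^ p ^ 1 - 1 ^ p ^ 1 :=
    dvd_sub_pow_of_dvd_sub (R := ℤ) (p := p) (a := 1 + p) (b := 1) (by simp) 1
  rw [pow_one, one_pow] at h
  have h1 : 1 ≤ (1 + p) ^ p := Nat.one_le_pow _ _ (by omega)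
  have h2 : (((1 + p) ^ p - 1 : ℕ) : ℤ) = (1 + p : ℤ) ^ p - 1 := by
    rw [Nat.cast_sub h1]; push_cast; ring
  have h3 : ((p ^ 2 : ℕ) : ℤ) ∣ (((1 + p) ^ p - 1 : ℕ) : ℤ) := by
    rw [h2]; exact_mod_cast h
  exact Int.natCast_dvd_natCast.1 h3

/-- `(1 + p)^(p-1) ≢ 1 mod p^2`. -/
theorem unitOfNat_succ_pow_pred_ne_one {p : ℕ} (hp : p.Prime) :
    unitOfNat (p ^ 2) (1 + p) ^ (p - 1) ≠ 1 := by
  intro h
  have hp1 : p - 1 + 1 = p := Nat.sub_add_cancel hp.one_lt.le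
  have h1 : unitOfNat (p ^ 2) (1 + p) ^ p = unitOfNat (p ^ 2) (1 + p) := by
    have h0 : unitOfNat (p ^ 2) (1 + p) ^ (p - 1 + 1) = unitOfNat (p ^ 2) (1 + p) := by
      rw [pow_succ (unitOfNat (p ^ 2) (1 + p)) (p - 1), h, one_mul]
    rwa [hp1] at h0
  rw [unitOfNat_succ_pow_prime p] at h1
  have h2 : unitOfNat (p ^ 2) (1 + p) ^ 1 = 1 := by rw [pow_one]; exact h1.symm
  rw [unitOfNat_pow_eq_one_iff (coprime_succ_self p) (by omega), pow_one,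
    Nat.add_sub_cancel_left] at h2
  have h3 : p ^ 2 ≤ p := Nat.le_of_dvd hp.pos h2
  have h4 : p * 2 ≤ p * p := Nat.mul_le_mul_left p hp.two_le
  nlinarith [hp.two_le]

end Fermat.Agent.PT.GLOB.CycArith5
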