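/-
Program F (S55, Poitou–Tate), chapter GLOB, leaf C3 / CycRec, the COUNT (helper24).

Inside one Galois `Ω/F` with `ζ ∈ Ω` a primitive `p^r`-th root of unity, `χ := hζ.autToPow F`, and
`F ⊂ F₁ ⊂ Ω` a Galois `p`-power layer cut out by `χ` (`hcyc`), from
* (A1') `∀ j, ∃ τ : Ω ≃ₐ[F] Ω, χ τ ^ (p-1) = cyc j ^ (p-1)`,
* (A3'⇒) `toCT j ∈ normSubCT T F F₁ → ∃ τ : Ω ≃ₐ[F₁] Ω, χ (τ|F) ^ (p-1) = cyc j ^ (p-1)`,
* (SURJ) `∀ τ : Ω ≃ₐ[F] Ω, ∃ j, cyc j ^ (p-1) = χ τ ^ (p-1)`,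
* the index bound `(normSubCT T F F₁).index ≠ 0 ∧ index ≤ [F₁ : F]`
we get, by counting,
* `mem_normSubCT_iff` (A3', full iff);
* `recHom : JT T F →* Gal(F₁/F)` ("reciprocity map"), surjective, with kernel `toCT⁻¹ normSubCT`;
* `exists_pow_mem_normSubCT_iff` (A4'): for cyclic `Gal(F₁/F)` there is `a₀ : CT T F` with
  `a₀ ^ k ∈ normSubCT T F F₁ ↔ [F₁ : F] ∣ k`.
The group-theoretic core is `count_core` (no fields).
-/
import Fermat.Agent.PT.GLOB.FrameNorm23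

set_option autoImplicit false
set_option linter.unusedSectionVars false

namespace Fermat.Agent.PT.GLOB.CycRecCount24

/-! ### The abstract count -/

section Core

variable {J X G Q C : Type*} [Group J] [CommGroup X] [Group G] [Group Q] [Group C]
  (ψ : J →* X) (χ' : G →* X) (ρ : G →* Q) (π : J →* C) (Nsub : Subgroup C)

/-- The "reciprocity map" `J → Q`: `j ↦ ρ τ` for any `τ` with `χ' τ = ψ j`. -/
noncomputable def recCore (hA1 : ∀ j, ∃ τ, χ' τ = ψ j) (hker : ∀ τ, χ' τ = 1 → ρ τ = 1) :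
    J →* Q :=
  MonoidHom.mk' (fun j => ρ (Classical.choose (hA1 j))) (by
    intro j j'
    have h := Classical.choose_spec (hA1 (j * j'))
    have h1 := Classical.choose_spec (hA1 j)
    have h2 := Classical.choose_spec (hA1 j')
    set τ := Classical.choose (hA1 (j * j'))
    set τ₁ := Classical.choose (hA1 j)
    set τ₂ := Classical.choose (hA1 j')
    have h3 : χ' (τ * (τ₁ * τ₂)⁻¹) = 1 := by
      rw [map_mul, map_inv, map_mul, h, h1, h2, map_mul]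
      exact mul_inv_cancel _
    have h4 := hker _ h3
    rw [map_mul, map_inv, mul_inv_eq_one] at h4
    rw [h4, map_mul])

theorem recCore_eq (hA1 : ∀ j, ∃ τ, χ' τ = ψ j) (hker : ∀ τ, χ' τ = 1 → ρ τ = 1) (j : J) (τ : G)
    (h : χ' τ = ψ j) : recCore ψ χ' ρ hA1 hker j = ρ τ := by
  have h1 := Classical.choose_spec (hA1 j)
  change ρ (Classical.choose (hA1 j)) = ρ τ
  set τ₁ := Classical.choose (hA1 j)
  have h3 : χ' (τ₁ * τ⁻¹) = 1 := by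
    rw [map_mul, map_inv, h1, h]
    exact mul_inv_cancel _
  have h4 := hker _ h3
  rwa [map_mul, map_inv, mul_inv_eq_one] at h4

theorem recCore_surjective (hA1 : ∀ j, ∃ τ, χ' τ = ψ j) (hker : ∀ τ, χ' τ = 1 → ρ τ = 1)
    (hρ : Function.Surjective ρ) (hsurj : ∀ τ, ∃ j, ψ j = χ' τ) :
    Function.Surjective (recCore ψ χ' ρ hA1 hker) := by
  intro g
  obtain ⟨τ, rfl⟩ := hρ g
  obtain ⟨j, hj⟩ := hsurj τ
  exact ⟨j, recCore_eq ψ χ' ρ hA1 hker j τ hj.symm⟩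

theorem recCore_eq_one_iff (hA1 : ∀ j, ∃ τ, χ' τ = ψ j) (hker : ∀ τ, χ' τ = 1 → ρ τ = 1)
    (j : J) : recCore ψ χ' ρ hA1 hker j = 1 ↔ ∃ τ, ρ τ = 1 ∧ χ' τ = ψ j := by
  constructor
  · intro h
    obtain ⟨τ, hτ⟩ := hA1 j
    refine ⟨τ, ?_, hτ⟩
    rw [← recCore_eq ψ χ' ρ hA1 hker j τ hτ, h]
  · rintro ⟨τ, h1, h2⟩
    rw [recCore_eq ψ χ' ρ hA1 hker j τ h2, h1]

/-- **The count.** -/
theorem count_core [Finite Q] (hA1 : ∀ j, ∃ τ, χ' τ = ψ j) (hker : ∀ τ, χ' τ = 1 → ρ τ = 1)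
    (hπ : Function.Surjective π) (hρ : Function.Surjective ρ)
    (hsurj : ∀ τ, ∃ j, ψ j = χ' τ)
    (hA3 : ∀ j, π j ∈ Nsub → ∃ τ, ρ τ = 1 ∧ χ' τ = ψ j)
    (hidx : Nsub.index ≠ 0 ∧ Nsub.index ≤ Nat.card Q) (j : J) :
    π j ∈ Nsub ↔ recCore ψ χ' ρ hA1 hker j = 1 := by
  set Ψ := recCore ψ χ' ρ hA1 hker with hΨ
  have hΨs : Function.Surjective Ψ := recCore_surjective ψ χ' ρ hA1 hker hρ hsurj
  -- the two subgroups of `J`
  set R₀ : Subgroup J := Nsub.comap π with hR₀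
  have hle : R₀ ≤ Ψ.ker := by
    intro j hj
    rw [MonoidHom.mem_ker, hΨ, recCore_eq_one_iff]
    exact hA3 j hj
  have hi0 : R₀.index = Nsub.index := Subgroup.index_comap_of_surjective Nsub hπ
  have hi1 : Ψ.ker.index = Nat.card Q := by
    rw [Subgroup.index_ker, MonoidHom.range_eq_top.mpr hΨs]
    exact Nat.card_congr (Subgroup.topEquiv).toEquiv
  have hmul : R₀.relIndex Ψ.ker * Ψ.ker.index = R₀.index := Subgroup.relIndex_mul_index hle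
  have hQ : 0 < Nat.card Q := Nat.card_pos
  have hrel : R₀.relIndex Ψ.ker = 1 := by
    rw [hi0, hi1] at hmul
    have h1 : R₀.relIndex Ψ.ker ≠ 0 := by
      intro h0
      rw [h0, zero_mul] at hmul
      exact hidx.1 hmul.symm
    have h2 : R₀.relIndex Ψ.ker * Nat.card Q ≤ 1 * Nat.card Q := by
      rw [hmul, one_mul]
      exact hidx.2
    have h3 := Nat.le_of_mul_le_mul_right h2 hQ
    omega
  have hge : Ψ.ker ≤ R₀ := Subgroup.relIndex_eq_one.mp hrel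
  constructor
  · intro h
    exact hle h
  · intro h
    exact hge h

end Core

/-! ### The number field instantiation -/

open NumberField
open Fermat.Agent.PT.GLOB.Interface23 Fermat.Agent.PT.GLOB.ClassAction23
  Fermat.Agent.PT.GLOB.Tower23 Fermat.Agent.PT.GLOB.InterfaceCF23
  Fermat.Agent.PT.GLOB.NormSubCT23 Fermat.Agent.PT.GLOB.CycChar22
  Fermat.Agent.PT.GLOB.FrameNorm23

noncomputable section

section Fields

variable (T : Finset Nat.Primes) (p : Nat.Primes) (hpT : p ∈ T) (r : ℕ) [NeZero ((p : ℕ) ^ r)]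
variable (F F₁ Ω : Type) [Field F] [Field F₁] [Field Ω] [NumberField F] [NumberField F₁]
  [Algebra F F₁] [Algebra F₁ Ω] [Algebra F Ω] [IsScalarTower F F₁ Ω]
  [IsGalois F F₁] [Normal F Ω]
  {ζ : Ω} (hζ : IsPrimitiveRoot ζ ((p : ℕ) ^ r))

/-- `τ ↦ χ(τ)^(p-1)` as a homomorphism. -/
def chiPow : (Ω ≃ₐ[F] Ω) →* (ZMod ((p : ℕ) ^ r))ˣ :=
  (powMonoidHom ((p : ℕ) - 1)).comp (hζ.autToPow F)

theorem chiPow_apply (τ : Ω ≃ₐ[F] Ω) :
    chiPow p r F Ω hζ τ = hζ.autToPow F τ ^ ((p : ℕ) - 1) := rfl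

/-- `j ↦ cyc(j)^(p-1)` as a homomorphism. -/
def cycPow : JT T F →* (ZMod ((p : ℕ) ^ r))ˣ :=
  (powMonoidHom ((p : ℕ) - 1)).comp (cyc T F p r hpT)

theorem cycPow_apply (j : JT T F) :
    cycPow T p hpT r F j = cyc T F p r hpT j ^ ((p : ℕ) - 1) := rfl

/-- Restriction `Gal(Ω/F) → Gal(F₁/F)`. -/
def rho : (Ω ≃ₐ[F] Ω) →* (F₁ ≃ₐ[F] F₁) := AlgEquiv.restrictNormalHom (F := F) (K₁ := Ω) F₁

theorem rho_surjective : Function.Surjective (rho F F₁ Ω) :=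
  AlgEquiv.restrictNormalHom_surjective Ω

theorem rho_eq_one_iff (τ : Ω ≃ₐ[F] Ω) :
    rho F F₁ Ω τ = 1 ↔ ∀ x : F₁, τ (algebraMap F₁ Ω x) = algebraMap F₁ Ω x := by
  constructor
  · intro h x
    have h1 := AlgEquiv.restrictNormal_commutes τ F₁ x
    change algebraMap F₁ Ω ((rho F F₁ Ω τ) x) = _ at h1
    rw [h] at h1
    exact h1.symm
  · intro h
    ext x
    apply (algebraMap F₁ Ω).injective
    change algebraMap F₁ Ω (τ.restrictNormal F₁ x) = algebraMap F₁ Ω x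
    rw [AlgEquiv.restrictNormal_commutes, h]

/-- An automorphism over `F` fixing `F₁` comes from an automorphism over `F₁`. -/
theorem exists_restrictScalars_eq (τ : Ω ≃ₐ[F] Ω)
    (h : ∀ x : F₁, τ (algebraMap F₁ Ω x) = algebraMap F₁ Ω x) :
    ∃ τ' : Ω ≃ₐ[F₁] Ω, τ'.restrictScalars F = τ :=
  ⟨{ τ.toRingEquiv with commutes' := h }, by ext x; rfl⟩

theorem rho_eq_one_iff_exists (τ : Ω ≃ₐ[F] Ω) :
    rho F F₁ Ω τ = 1 ↔ ∃ τ' : Ω ≃ₐ[F₁] Ω, τ'.restrictScalars F = τ := by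
  rw [rho_eq_one_iff]
  constructor
  · exact exists_restrictScalars_eq F F₁ Ω τ
  · rintro ⟨τ', rfl⟩ x
    exact τ'.commutes x

include hζ in
/-- The kernel of `χ^(p-1)` fixes the `p`-power layer `F₁`. -/
theorem rho_eq_one_of_chiPow_eq_one
    (hcyc : ∀ τ : Ω ≃ₐ[F] Ω, hζ.autToPow F τ = 1 →
      ∀ x : F₁, τ (algebraMap F₁ Ω x) = algebraMap F₁ Ω x)
    (hdeg : ∃ m : ℕ, Module.finrank F F₁ = (p : ℕ) ^ m) (τ : Ω ≃ₐ[F] Ω)
    (h : chiPow p r F Ω hζ τ = 1) : rho F F₁ Ω τ = 1 := by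
  obtain ⟨m, hm⟩ := hdeg
  have hcard : Nat.card (F₁ ≃ₐ[F] F₁) = (p : ℕ) ^ m := by
    rw [IsGalois.card_aut_eq_finrank, hm]
  apply eq_one_of_pow_pred_eq_one p.2 hcard
  rw [← map_pow, rho_eq_one_iff]
  apply hcyc
  rw [map_pow]
  exact h

variable (hA1 : ∀ j : JT T F, ∃ τ : Ω ≃ₐ[F] Ω,
    hζ.autToPow F τ ^ ((p : ℕ) - 1) = cyc T F p r hpT j ^ ((p : ℕ) - 1))
  (hcyc : ∀ τ : Ω ≃ₐ[F] Ω, hζ.autToPow F τ = 1 →
    ∀ x : F₁, τ (algebraMap F₁ Ω x) = algebraMap F₁ Ω x)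
  (hdeg : ∃ m : ℕ, Module.finrank F F₁ = (p : ℕ) ^ m)

/-- **The reciprocity map** `JT T F →* Gal(F₁/F)`: `j ↦ τ|F₁` for any `τ ∈ Gal(Ω/F)` with
`χ(τ)^(p-1) = cyc(j)^(p-1)`. -/
def recHom : JT T F →* (F₁ ≃ₐ[F] F₁) :=
  recCore (cycPow T p hpT r F) (chiPow p r F Ω hζ) (rho F F₁ Ω) hA1
    (rho_eq_one_of_chiPow_eq_one p r F F₁ Ω hζ hcyc hdeg)

theorem recHom_eq (j : JT T F) (τ : Ω ≃ₐ[F] Ω)
    (h : hζ.autToPow F τ ^ ((p : ℕ) - 1) = cyc T F p r hpT j ^ ((p : ℕ) - 1)) :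
    recHom T p hpT r F F₁ Ω hζ hA1 hcyc hdeg j = AlgEquiv.restrictNormalHom (F := F) (K₁ := Ω) F₁ τ :=
  recCore_eq _ _ _ hA1 _ j τ h

theorem recHom_surjective
    (hsurj : ∀ τ : Ω ≃ₐ[F] Ω, ∃ j : JT T F,
      cyc T F p r hpT j ^ ((p : ℕ) - 1) = hζ.autToPow F τ ^ ((p : ℕ) - 1)) :
    Function.Surjective (recHom T p hpT r F F₁ Ω hζ hA1 hcyc hdeg) :=
  recCore_surjective _ _ _ hA1 _ (rho_surjective F F₁ Ω) hsurj

theorem recHom_eq_one_iff (j : JT T F) :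
    recHom T p hpT r F F₁ Ω hζ hA1 hcyc hdeg j = 1 ↔ ∃ τ : Ω ≃ₐ[F₁] Ω,
      hζ.autToPow F (τ.restrictScalars F) ^ ((p : ℕ) - 1) =
        cyc T F p r hpT j ^ ((p : ℕ) - 1) := by
  refine (recCore_eq_one_iff (cycPow T p hpT r F) (chiPow p r F Ω hζ) (rho F F₁ Ω) hA1
    (rho_eq_one_of_chiPow_eq_one p r F F₁ Ω hζ hcyc hdeg) j).trans ?_
  constructor
  · rintro ⟨τ, h1, h2⟩
    obtain ⟨τ', rfl⟩ := (rho_eq_one_iff_exists F F₁ Ω τ).mp h1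
    exact ⟨τ', h2⟩
  · rintro ⟨τ', h⟩
    exact ⟨τ'.restrictScalars F, (rho_eq_one_iff_exists F F₁ Ω _).mpr ⟨τ', rfl⟩, h⟩

variable (hA3 : ∀ j : JT T F, toCT T F j ∈ normSubCT T F F₁ → ∃ τ : Ω ≃ₐ[F₁] Ω,
    hζ.autToPow F (τ.restrictScalars F) ^ ((p : ℕ) - 1) = cyc T F p r hpT j ^ ((p : ℕ) - 1))
  (hsurj : ∀ τ : Ω ≃ₐ[F] Ω, ∃ j : JT T F,
    cyc T F p r hpT j ^ ((p : ℕ) - 1) = hζ.autToPow F τ ^ ((p : ℕ) - 1))
  (hidx : (normSubCT T F F₁).index ≠ 0 ∧ (normSubCT T F F₁).index ≤ Module.finrank F F₁)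

include hA3 hsurj hidx in
/-- The kernel of the reciprocity map is the norm subgroup. -/
theorem mem_normSubCT_iff_recHom (j : JT T F) :
    toCT T F j ∈ normSubCT T F F₁ ↔ recHom T p hpT r F F₁ Ω hζ hA1 hcyc hdeg j = 1 := by
  unfold recHom
  apply count_core (cycPow T p hpT r F) (chiPow p r F Ω hζ) (rho F F₁ Ω) (toCT T F)
    (normSubCT T F F₁) hA1 _ (QuotientGroup.mk'_surjective _) (rho_surjective F F₁ Ω) hsurj
  · intro j hj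
    obtain ⟨τ', h⟩ := hA3 j hj
    exact ⟨τ'.restrictScalars F, (rho_eq_one_iff_exists F F₁ Ω _).mpr ⟨τ', rfl⟩, h⟩
  · rw [IsGalois.card_aut_eq_finrank]
    exact hidx

include hA1 hcyc hdeg hA3 hsurj hidx in
/-- **(A3'), full iff**: the cyclotomic norm criterion. -/
theorem mem_normSubCT_iff (j : JT T F) :
    toCT T F j ∈ normSubCT T F F₁ ↔ ∃ τ : Ω ≃ₐ[F₁] Ω,
      hζ.autToPow F (τ.restrictScalars F) ^ ((p : ℕ) - 1) =
        cyc T F p r hpT j ^ ((p : ℕ) - 1) := by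
  rw [mem_normSubCT_iff_recHom T p hpT r F F₁ Ω hζ hA1 hcyc hdeg hA3 hsurj hidx,
    recHom_eq_one_iff]

include hA1 hcyc hdeg hA3 hsurj hidx in
/-- **(A4')**: for a generator `σ` of `Gal(F₁/F)` there is a class `a₀` with reciprocity image `σ`;
its powers are norms exactly for the multiples of the degree. -/
theorem exists_pow_mem_normSubCT_iff (σ : F₁ ≃ₐ[F] F₁) (hσ : ∀ τ, τ ∈ Subgroup.zpowers σ) :
    ∃ j₀ : JT T F, recHom T p hpT r F F₁ Ω hζ hA1 hcyc hdeg j₀ = σ ∧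
      ∀ k : ℕ, (toCT T F j₀) ^ k ∈ normSubCT T F F₁ ↔ Module.finrank F F₁ ∣ k := by
  obtain ⟨j₀, hj₀⟩ := recHom_surjective T p hpT r F F₁ Ω hζ hA1 hcyc hdeg hsurj σ
  refine ⟨j₀, hj₀, fun k => ?_⟩
  rw [← map_pow, mem_normSubCT_iff_recHom T p hpT r F F₁ Ω hζ hA1 hcyc hdeg hA3 hsurj hidx,
    map_pow, hj₀, ← orderOf_dvd_iff_pow_eq_one, orderOf_eq_card_of_forall_mem_zpowers hσ,
    IsGalois.card_aut_eq_finrank]

include hA1 hcyc hdeg hA3 hsurj hidx in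
/-- **(A4')**, class form. -/
theorem exists_class_pow_mem_normSubCT_iff [IsCyclic (F₁ ≃ₐ[F] F₁)] :
    ∃ a₀ : CT T F, ∀ k : ℕ, a₀ ^ k ∈ normSubCT T F F₁ ↔ Module.finrank F F₁ ∣ k := by
  obtain ⟨σ, hσ⟩ := IsCyclic.exists_generator (α := F₁ ≃ₐ[F] F₁)
  obtain ⟨j₀, -, h⟩ := exists_pow_mem_normSubCT_iff T p hpT r F F₁ Ω hζ hA1 hcyc hdeg hA3 hsurj
    hidx σ hσ
  exact ⟨toCT T F j₀, h⟩

end Fields

end

end Fermat.Agent.PT.GLOB.CycRecCount24
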