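/-
Program F (S55, Poitou–Tate), chapter GLOB, leaf C3-(SURJ) (helper19).

**Surjectivity of the explicit cyclotomic character onto the Galois character.**

`F ⊂ Ω` number fields, `Ω/F` Galois, `ζ ∈ Ω` a primitive `p^r`-th root of unity,
`χ = hζ.autToPow F : Gal(Ω/F) → (ℤ/p^r)ˣ`, `p ∈ T`.  Then every `χ(τ)` is a value of helper22's
explicit character `cyc T F p r hpT : JT T F → (ℤ/p^r)ˣ`:

* `eq_top_of_frobSet_subset` : a NORMAL subgroup of `Gal(L/K)` containing the Frobenius elements at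
  the unramified primes of prime norm not dividing `m` is everything (no commutativity needed);
* `autToPow_mem_range_cyc_of_mem_frobSet` : `χ(Frob_P) = absNorm (P ∩ F) = cyc (1, [P ∩ F])`;
* `exists_cyc_eq_autToPow` : `∀ τ, ∃ j, cyc j = χ τ`;
* `cycSurj : CycRecShape23.CycSurj T p hpT r` (the shape consumed by the assembly of (GCF')).
-/
import Mathlib
import Fermat.Agent.PT.GLOB.CycRecShape23
import Fermat.Agent.PT.GLOB.FrobGenerate19
import Fermat.Agent.CFT.CycloArtin

set_option autoImplicit false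
set_option linter.unusedSectionVars false
set_option linter.style.longLine false
set_option linter.style.haveILetI false

open NumberField IsDedekindDomain

namespace Fermat.Agent.PT.GLOB.CycSurj19

open Fermat.Agent.PT.GLOB.Interface23 Fermat.Agent.PT.GLOB.CycChar22
open Fermat.Agent.PT.GLOB.FrobGenerate19

section general

variable (K L : Type) [Field K] [Field L] [NumberField K] [NumberField L] [Algebra K L]
  [IsGalois K L]

/-- **Frobenius elements normally generate**: a normal subgroup of `Gal(L/K)` containing all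
Frobenius elements at unramified primes of prime absolute norm not dividing `m` is `⊤`. -/
theorem eq_top_of_frobSet_subset (H : Subgroup (L ≃ₐ[K] L)) [H.Normal] (m : ℕ) (hm : m ≠ 0)
    (hsub : frobSet K L m ⊆ (H : Set (L ≃ₐ[K] L))) : H = ⊤ := by
  classical
  by_contra hne
  set F' : IntermediateField K L := IntermediateField.fixedField H with hF'
  haveI : IsGalois K F' := IsGalois.of_fixedField_normal_subgroup H
  have hfix : F'.fixingSubgroup = H := IntermediateField.fixingSubgroup_fixedField H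
  have hdeg : Module.finrank K F' ≠ 1 := by
    intro h1
    apply hne
    have hbot : F' = ⊥ := IntermediateField.finrank_eq_one_iff.mp h1
    rw [← hfix, hbot, IntermediateField.fixingSubgroup_bot]
  have hdL : (discr L).natAbs ≠ 0 := Int.natAbs_ne_zero.mpr (discr_ne_zero L)
  have hm' : m * (discr L).natAbs ≠ 0 := Nat.mul_ne_zero hm hdL
  obtain ⟨q, P', σ', hq, hqn, hqm, hP', hP'q, hσ', hσ'1⟩ :=
    Fermat.Agent.CFT.NotAllSplit10.notAllSplitShape K F' hdeg (m * (discr L).natAbs) hm'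
  haveI := hP'
  -- a prime of `L` over `P'`
  obtain ⟨P, hPprime, hPP'⟩ : ∃ P : Ideal (𝓞 L), P.IsPrime ∧ P.under (𝓞 F') = P' := by
    obtain ⟨⟨P, hP1, hP2⟩⟩ := (inferInstance : Nonempty (P'.primesOver (𝓞 L)))
    exact ⟨P, hP1, hP2.over.symm⟩
  haveI := hPprime
  have hPq : P.under (𝓞 K) = q := by
    rw [← hP'q, ← hPP', Ideal.under_under]
  obtain ⟨σ, hσmem, hσ⟩ := arithFrobAt_mem_frobSet K L (m := m) P (by rw [hPq]; exact hqn)
    (by rw [hPq]; exact hqm)
  have hσH : σ ∈ H := hsub hσmem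
  -- the restriction of `σ` to `F'` is trivial
  have hres : σ.restrictNormal F' = 1 := by
    ext x
    have h1 : algebraMap F' L (σ.restrictNormal F' x) = σ (algebraMap F' L x) :=
      AlgEquiv.restrictNormal_commutes σ F' x
    have h2 : σ (algebraMap F' L x) = algebraMap F' L x := by
      have hx : (x : L) ∈ IntermediateField.fixedField H := x.2
      exact (IntermediateField.mem_fixedField_iff H (x : L)).mp hx σ hσH
    have h3 : algebraMap F' L (σ.restrictNormal F' x) = algebraMap F' L x := h1.trans h2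
    exact_mod_cast (algebraMap F' L).injective h3
  have hfrob1 : IsArithFrobAt (𝓞 K) (1 : F' ≃ₐ[K] F') P' := by
    have := Fermat.Agent.CFT.FrobFunct.isArithFrobAt_restrictNormal (K := K) (L := F') (M := L) hσ
    rwa [hres, hPP'] at this
  -- unramifiedness of `P'`
  have hℓP' : ((Ideal.absNorm q : ℕ) : 𝓞 F') ∈ P' := by
    have hℓq : ((Ideal.absNorm q : ℕ) : 𝓞 K) ∈ q := Ideal.absNorm_mem q
    have hmem : ((Ideal.absNorm q : ℕ) : 𝓞 K) ∈ P'.under (𝓞 K) := by
      rw [hP'q]; exact hℓq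
    have : algebraMap (𝓞 K) (𝓞 F') ((Ideal.absNorm q : ℕ) : 𝓞 K) ∈ P' := by
      rw [Ideal.under_def, Ideal.mem_comap] at hmem
      exact hmem
    simpa using this
  have hdF' : ¬ ((Ideal.absNorm q : ℕ) : ℤ) ∣ discr F' := by
    intro h
    apply hqm
    have h2 : ((Ideal.absNorm q : ℕ) : ℤ) ∣ discr L := h.trans (discr_dvd_discr F' L)
    have : Ideal.absNorm q ∣ (discr L).natAbs := by
      rw [← Int.natCast_dvd_natCast, Int.natCast_natAbs]
      exact (dvd_abs _ _).mpr h2
    exact this.mul_left m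
  have hin : P'.inertia (F' ≃ₐ[K] F') = ⊥ :=
    inertia_eq_bot_of_not_dvd_discr P' hqn hℓP' hdF'
  have := IsArithFrobAt.mul_inv_mem_inertia hσ' hfrob1
  rw [hin, Subgroup.mem_bot, inv_one, mul_one] at this
  exact hσ'1 this

end general

section surj

variable (T : Finset Nat.Primes) (p : Nat.Primes) (hpT : p ∈ T) (r : ℕ) [NeZero ((p : ℕ) ^ r)]
variable (F Ω : Type) [Field F] [Field Ω] [NumberField F] [NumberField Ω] [Algebra F Ω]
  [IsGalois F Ω] {ζ : Ω} (hζ : IsPrimitiveRoot ζ ((p : ℕ) ^ r))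

include hζ in
/-- The cyclotomic character of a Frobenius element (at an unramified prime of prime norm not
dividing `∏ T`) is a value of `cyc` on a prime divisor. -/
theorem autToPow_mem_range_cyc_of_mem_frobSet (σ : Ω ≃ₐ[F] Ω)
    (hσ : σ ∈ frobSet F Ω (∏ q ∈ T, (q : ℕ))) :
    hζ.autToPow F σ ∈ (cyc T F p r hpT).range := by
  obtain ⟨q, P, hq, hqn, hqm, hP, hPq, hin, hσP⟩ := hσ
  haveI := hP
  have hq0 : q ≠ ⊥ := by
    rintro rfl
    rw [Ideal.absNorm_bot] at hqn
    exact Nat.not_prime_zero hqn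
  set Q0 : HeightOneSpectrum (𝓞 F) := ⟨q, hq, hq0⟩ with hQ0
  have hres : resChar F Q0 = Ideal.absNorm q := by
    obtain ⟨f, hf⟩ := exists_absNorm_eq_pow F Q0
    exact eq_of_pow_prime hqn hf.symm
  have haway : ∀ q' ∈ T, ((((q' : Nat.Primes) : ℕ) : ℤ) : 𝓞 F) ∉ Q0.asIdeal := by
    intro q' hq' hmem
    rw [Int.cast_natCast] at hmem
    have h1 := (natCast_mem_iff F Q0 _ q'.2).mp hmem
    apply hqm
    rw [← hres, ← h1]
    exact Finset.dvd_prod_of_mem (fun q : Nat.Primes => (q : ℕ)) hq'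
  set Q : PrimeAway T F := ⟨Q0, haway⟩ with hQ
  have hpP : ((((p : ℕ) ^ r : ℕ)) : 𝓞 Ω) ∉ P := by
    intro hmem
    rw [Nat.cast_pow] at hmem
    have hmem' : (((p : ℕ) : ℕ) : 𝓞 Ω) ∈ P := hP.mem_of_pow_mem r hmem
    have h1 : (((p : ℕ) : ℕ) : 𝓞 F) ∈ P.under (𝓞 F) := by
      rw [Ideal.under_def, Ideal.mem_comap, map_natCast]
      exact hmem'
    rw [hPq] at h1
    have := haway p hpT
    rw [Int.cast_natCast] at this
    exact this h1
  have h4 := Fermat.Agent.CFT.CycloArtin.apply_root_of_isArithFrobAt' hσP hζ.pow_eq_one hpP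
  have h5 := Fermat.Agent.CFT.CycloRecip.autToPow_eq_of_apply_eq hζ σ _ h4
  rw [← Fermat.Agent.CFT.CycloRecip.absNorm_eq_natCard, hPq] at h5
  refine ⟨((1 : IT T F), DivT.ofFinsupp T F (Finsupp.single Q 1)), ?_⟩
  apply Units.ext
  rw [cyc_single, zpow_one, coe_primeUnit T F p r hpT Q.1 Q.2, h5]

include hζ in
/-- **(SURJ), exact form**: every value of the cyclotomic character of `Gal(Ω/F)` is a value of
the explicit character `cyc` on `T`-ideles. -/
theorem exists_cyc_eq_autToPow (τ : Ω ≃ₐ[F] Ω) :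
    ∃ j : JT T F, cyc T F p r hpT j = hζ.autToPow F τ := by
  set H : Subgroup (Ω ≃ₐ[F] Ω) := (cyc T F p r hpT).range.comap (hζ.autToPow F) with hH
  haveI : H.Normal := by
    haveI : ((cyc T F p r hpT).range).Normal := inferInstance
    exact Subgroup.Normal.comap inferInstance _
  have hm : (∏ q ∈ T, (q : ℕ)) ≠ 0 := Finset.prod_ne_zero_iff.mpr fun q _ => q.2.ne_zero
  have htop : H = ⊤ := by
    apply eq_top_of_frobSet_subset F Ω H _ hm
    intro σ hσ
    exact autToPow_mem_range_cyc_of_mem_frobSet T p hpT r F Ω hζ σ hσ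
  have hτ : τ ∈ H := htop ▸ Subgroup.mem_top τ
  exact hτ

/-- **(SURJ)** in the shape consumed by the assembly of (GCF'). -/
theorem cycSurj : Fermat.Agent.PT.GLOB.CycRecShape23.CycSurj T p hpT r := by
  intro F Ω _ _ _ _ _ _ ζ hζ τ
  obtain ⟨j, hj⟩ := exists_cyc_eq_autToPow T p hpT r F Ω hζ τ
  exact ⟨j, by rw [hj]⟩

end surj

end Fermat.Agent.PT.GLOB.CycSurj19
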