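/-
Program F (S55, Poitou–Tate), chapter GLOB, leaf C3 (helper23): **(GCF')**
`RecAssembly15.FundClassExists p S`: every Galois layer `L/K` of number fields unramified outside
`S ∋ p` (`p` odd) carries a class `u ∈ H²(Gal(L/K), C_S(L))` satisfying FG's `IsFundClass p`.

Instantiation of `FrameKit23` with `Ω := CyclotomicField (p^r) L`, `K₁ ⊂ Ω` the cyclic cyclotomic
layer of degree `p^a ∥ [L:K]` (`CycSubLayer23`), `N := L·K₁`, `K' := L^H`, `N' := K'·K₁`
(helper6's `GalLayers6.comp`), cyclotomic reciprocity from helper22/17/19.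
-/
import Fermat.Agent.PT.GLOB.FrameKit23
import Fermat.Agent.PT.GLOB.BridgeGen23
import Fermat.Agent.PT.GLOB.GalLayers6
import Fermat.Agent.PT.GLOB.OmegaField23
import Fermat.Agent.PT.GLOB.CycSubLayer23
import Fermat.Agent.PT.GLOB.CycRecShapes22
import Fermat.Agent.PT.GLOB.CycRecGen22
import Fermat.Agent.PT.GLOB.CycInclShape17
import Fermat.Agent.PT.GLOB.RecAssembly15

set_option autoImplicit false
set_option linter.unusedSectionVars false

open CategoryTheory groupCohomology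

namespace Fermat.Agent.PT.GLOB.GCFFinal23

open NumberField
open Fermat.Agent.PT.GLOB.Interface23 Fermat.Agent.PT.GLOB.ClassAction23
  Fermat.Agent.PT.GLOB.Tower23 Fermat.Agent.PT.GLOB.InterfaceCF23
  Fermat.Agent.PT.GLOB.TowerCohCT23 Fermat.Agent.PT.GLOB.NormSubCT23
  Fermat.Agent.PT.GLOB.CycChar22 Fermat.Agent.PT.GLOB.CycRecShape23
  Fermat.Agent.PT.GLOB.FundClassBridge6 Fermat.Agent.PT.GLOB.GalLayers6
open scoped Fermat.Agent.PT.GLOB.GalLayers6

noncomputable section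

section Range

variable (K L : Type) [Field K] [Field L] [NumberField K] [NumberField L] [Algebra K L]
  [IsGalois K L] (H : Subgroup (L ≃ₐ[K] L))

theorem range_galIncl_FH : (galIncl K (FH K L H) L).range = H := by
  ext g
  constructor
  · rintro ⟨τ, rfl⟩
    rw [← coe_eH]
    exact (eH K L H τ).2
  · intro hg
    refine ⟨(eH K L H).symm ⟨g, hg⟩, ?_⟩
    rw [← coe_eH, MulEquiv.apply_symm_apply]

end Range

/-! ### The theorem inside `Ω = L(ζ_{p^r})` -/

section Main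

variable (S : Finset Nat.Primes) (p : Nat.Primes) (hpS : p ∈ S) (r : ℕ) [NeZero ((p : ℕ) ^ r)]
variable (K L : Type) [Field K] [Field L] [NumberField K] [NumberField L] [Algebra K L]
  [IsGalois K L]

include hpS in
/-- (GCF') for the layer `L/K`, given the cyclic layer `K₁ ⊂ Ω = L(ζ_{p^r})` of degree `p^a`,
`p^a ∥ [L:K]`. -/
theorem exists_isFundClass_of_layer (hp2 : (p : ℕ) ≠ 2) (hun : IsUnramifiedOutside S K L)
    (K₁ : IntermediateField K (CyclotomicField ((p : ℕ) ^ r) L)) [IsGalois K K₁]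
    (a : ℕ) (ha : Module.finrank K K₁ = (p : ℕ) ^ a)
    (hdiv : (p : ℕ) ^ a ∣ Module.finrank K L) (hexact : ¬ (p : ℕ) ^ (a + 1) ∣ Module.finrank K L)
    (σ : K₁ ≃ₐ[K] K₁) (hσ : ∀ τ, τ ∈ Subgroup.zpowers σ)
    (hcyc₁ : ∀ τ : CyclotomicField ((p : ℕ) ^ r) L ≃ₐ[K] CyclotomicField ((p : ℕ) ^ r) L,
      (IsCyclotomicExtension.zeta_spec ((p : ℕ) ^ r) L
        (CyclotomicField ((p : ℕ) ^ r) L)).autToPow K τ = 1 →
      ∀ x : K₁, τ (algebraMap K₁ (CyclotomicField ((p : ℕ) ^ r) L) x) =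
        algebraMap K₁ (CyclotomicField ((p : ℕ) ^ r) L) x) :
    ∃ u : H2 (repCT S K L), Fermat.Agent.PT.FG.Interface8.IsFundClass p (repCT S K L) u := by
  have hodd : Odd (p : ℕ) := p.2.odd_of_ne_two hp2
  have hζ := IsCyclotomicExtension.zeta_spec ((p : ℕ) ^ r) L (CyclotomicField ((p : ℕ) ^ r) L)
  have hGK : IsGalois K (CyclotomicField ((p : ℕ) ^ r) L) :=
    OmegaField23.isGalois_cyclotomicField K L _
  have hGL : IsGalois L (CyclotomicField ((p : ℕ) ^ r) L) := OmegaField23.isGalois_top L _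
  have hunΩ : IsUnramifiedOutside S K (CyclotomicField ((p : ℕ) ^ r) L) :=
    OmegaField23.isUnramifiedOutside_cyclotomicField K L S p r hpS hun
  have hE : ∀ (τ : CyclotomicField ((p : ℕ) ^ r) L ≃ₐ[K] CyclotomicField ((p : ℕ) ^ r) L)
      (x : CyclotomicField ((p : ℕ) ^ r) L), x ∈ K₁ → τ x ∈ K₁ := stable_of_normal K₁
  have hCrit := CycRecShapes22.cycNormCrit S p hpS r hp2
  have hCont := CycRecShapes22.cycContain S p hpS r hp2
  have hIncl := CycInclShape17.cycIncl S p hpS r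
  have hGen := CycRecGen22.cycGen S p hpS r hp2
  -- the layer `N = L·K₁`
  have hGKN : IsGalois K (comp L K₁) := isGalois_comp K L K₁ hE
  have hGLN : IsGalois L (comp L K₁) := isGalois_comp L L K₁ hE
  have hunKN : IsUnramifiedOutside S K (comp L K₁) :=
    Devissage19.isUnramifiedOutside_bot S K (comp L K₁) (CyclotomicField ((p : ℕ) ^ r) L) hunΩ
  have hunKK₁ : IsUnramifiedOutside S K K₁ :=
    Devissage19.isUnramifiedOutside_bot S K K₁ (CyclotomicField ((p : ℕ) ^ r) L) hunΩ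
  have hcompL : ∀ τ : CyclotomicField ((p : ℕ) ^ r) L ≃ₐ[L] CyclotomicField ((p : ℕ) ^ r) L,
      (∀ x : K₁, τ (algebraMap K₁ (CyclotomicField ((p : ℕ) ^ r) L) x) =
        algebraMap K₁ (CyclotomicField ((p : ℕ) ^ r) L) x) →
      ∀ y : comp L K₁, τ (algebraMap (comp L K₁) (CyclotomicField ((p : ℕ) ^ r) L) y) =
        algebraMap (comp L K₁) (CyclotomicField ((p : ℕ) ^ r) L) y :=
    fun τ h y => fixes_comp L K₁ τ h y
  obtain ⟨j₀, hj₀⟩ := hGen K K₁ (CyclotomicField ((p : ℕ) ^ r) L) _ hζ hcyc₁ ⟨a, ha⟩ hunKK₁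
    (LayerFrame23.hidx_of_layer S p hpS K K₁ hodd hunKK₁ σ hσ ⟨a, ha⟩) σ hσ
  obtain ⟨u, hu⟩ := FrameKit23.exists_class' S p hpS r K L K₁ (comp L K₁)
    (CyclotomicField ((p : ℕ) ^ r) L) hodd hζ hCrit hCont hIncl hunKN σ hσ hcyc₁ ⟨a, ha⟩ hcompL
    j₀ hj₀ (by rw [ha]; exact hdiv)
  refine ⟨u, BridgeGen23.isFundClass_of_family (p : ℕ) S K L u ?_⟩
  intro H hH
  have hGK'Ω : IsGalois (FH K L H) (CyclotomicField ((p : ℕ) ^ r) L) :=
    IsGalois.tower_top_of_isGalois K (FH K L H) (CyclotomicField ((p : ℕ) ^ r) L)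
  have hGK'N' : IsGalois (FH K L H) (comp (FH K L H) K₁) :=
    isGalois_comp (FH K L H) (FH K L H) K₁ hE
  have hGK'N : IsGalois (FH K L H) (comp L K₁) := isGalois_comp (FH K L H) L K₁ hE
  have hGN'N : IsGalois (comp (FH K L H) K₁) (comp L K₁) :=
    IsGalois.tower_top_of_isGalois (FH K L H) (comp (FH K L H) K₁) (comp L K₁)
  have hunK'Ω : IsUnramifiedOutside S (FH K L H) (CyclotomicField ((p : ℕ) ^ r) L) :=
    Devissage19.isUnramifiedOutside_top S K (FH K L H) (CyclotomicField ((p : ℕ) ^ r) L) hunΩ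
  have hunK'N : IsUnramifiedOutside S (FH K L H) (comp L K₁) :=
    Devissage19.isUnramifiedOutside_bot S (FH K L H) (comp L K₁)
      (CyclotomicField ((p : ℕ) ^ r) L) hunK'Ω
  have hcomp : ∀ τ : CyclotomicField ((p : ℕ) ^ r) L ≃ₐ[FH K L H]
        CyclotomicField ((p : ℕ) ^ r) L,
      (∀ x : K₁, τ (algebraMap K₁ (CyclotomicField ((p : ℕ) ^ r) L) x) =
        algebraMap K₁ (CyclotomicField ((p : ℕ) ^ r) L) x) →
      ∀ y : comp (FH K L H) K₁,
        τ (algebraMap (comp (FH K L H) K₁) (CyclotomicField ((p : ℕ) ^ r) L) y) =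
          algebraMap (comp (FH K L H) K₁) (CyclotomicField ((p : ℕ) ^ r) L) y :=
    fun τ h y => fixes_comp (FH K L H) K₁ τ h y
  refine ⟨FH K L H, inferInstance, inferInstance, inferInstance, inferInstance, inferInstance, ?_⟩
  exact FrameKit23.family_entry S p hpS r K (FH K L H) L K₁ (comp (FH K L H) K₁) (comp L K₁)
    (CyclotomicField ((p : ℕ) ^ r) L) hodd hζ hCrit hCont hIncl hunKK₁ hunK'N σ hσ hcyc₁ a ha hdiv
    hexact hcomp hcompL j₀ hj₀ u hu H hH (range_galIncl_FH K L H)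

end Main

/-! ### (GCF') -/

/-- **(GCF')**: every Galois layer of number fields unramified outside `S ∋ p`, `p` odd, carries a
fundamental class at `p`. -/
theorem fundClassExists (p : ℕ) (S : Finset Nat.Primes) : RecAssembly15.FundClassExists p S := by
  intro hp hp2 hpS K L _ _ _ _ _ _ hun
  obtain ⟨q, hqS, rfl⟩ := hpS
  have : Fact (q : ℕ).Prime := ⟨q.2⟩
  have hn0 : Module.finrank K L ≠ 0 := Module.finrank_pos.ne'
  obtain ⟨r, -, hlevel⟩ := CycSubLayer23.exists_level (q : ℕ) K ((Module.finrank K L).factorization q)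
  have hne : NeZero ((q : ℕ) ^ r) := ⟨(pow_pos q.2.pos r).ne'⟩
  have hGK : IsGalois K (CyclotomicField ((q : ℕ) ^ r) L) :=
    OmegaField23.isGalois_cyclotomicField K L _
  have hζ := IsCyclotomicExtension.zeta_spec ((q : ℕ) ^ r) L (CyclotomicField ((q : ℕ) ^ r) L)
  obtain ⟨K₁, hK₁gal, hK₁deg, ⟨σ, hσ⟩, hcyc₁⟩ := CycSubLayer23.exists_cyclic_sublayer (q : ℕ) r K
    (CyclotomicField ((q : ℕ) ^ r) L) hζ hp2 _ (hlevel (CyclotomicField ((q : ℕ) ^ r) L) _ hζ)
  exact exists_isFundClass_of_layer S q hqS r K L hp2 hun K₁ _ hK₁deg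
    (Nat.ordProj_dvd _ _) (Nat.pow_succ_factorization_not_dvd hn0 q.2) σ hσ hcyc₁

end

end Fermat.Agent.PT.GLOB.GCFFinal23
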