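/-
Program F (S55, Poitou–Tate), chapter GLOB, leaf (GLOB-A1) — helper6.

**Galois-module structure of the `T`-idele class group `CT T L`** (objects of `Interface23`).

* `ordAt_smul : ordAt L (σ • P) (σ • x) = ordAt L P x` (and `valuation_smul`, `intValuation_smul`);
* `divT_smul`, `diagI_smul`, `diagJ_smul : diagJ T L (σ • x) = σ • diagJ T L x`;
* `instActionCT : MulDistribMulAction (L ≃ₐ[K] L) (CT T L)`, `toCT_smul`, `toCT_eq_one_iff`,
  `toCT_eq_iff`, `toCT_surjective`;
* `diagI_injective`, `diagJ_injective` (for `T ≠ ∅`);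
* `exists_fixed_mul_diagJ` (Hilbert 90 descent: an idele with invariant class is an invariant
  idele times a principal one), `exists_fixed_lift` (`(C_T)^G` is the image of `(J_T)^G`),
  `isFixedClass_iff`;
* `Rep ℤ (L ≃ₐ[K] L)`-structures `repUnits`, `repIT`, `repDivT`, `repJT`, `repCT`, morphisms
  `repDiagJ`, `repToCT`, the short complex `shortComplexCT` and `shortExact_shortComplexCT`;
  general tools `repHomOfEquivariant`, `shortExact_of_function`.
-/
import Fermat.Agent.PT.GLOB.Interface23
import Fermat.Agent.PT.GLOB.ClassKill15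

set_option autoImplicit false
set_option linter.unusedSectionVars false

namespace Fermat.Agent.PT.GLOB.GalIdele6

open NumberField IsDedekindDomain CategoryTheory
open scoped TensorProduct nonZeroDivisors Pointwise
open Fermat.Agent.PT.GLOB.Interface23

section Ord

variable (K L : Type*) [Field K] [Field L] [NumberField K] [NumberField L] [Algebra K L]

theorem algebraMap_smul_int (σ : L ≃ₐ[K] L) (r : 𝓞 L) :
    algebraMap (𝓞 L) L (σ • r) = σ (algebraMap (𝓞 L) L r) := rfl

theorem smul_span_singleton (σ : L ≃ₐ[K] L) (r : 𝓞 L) :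
    σ • (Ideal.span {r} : Ideal (𝓞 L)) = Ideal.span {σ • r} := by
  rw [Ideal.pointwise_smul_def, Ideal.map_span, Set.image_singleton]
  rfl

theorem intValuation_smul (σ : L ≃ₐ[K] L) (P : HeightOneSpectrum (𝓞 L)) (r : 𝓞 L) :
    (σ • P).intValuation (σ • r) = P.intValuation r := by
  by_cases hr : r = 0
  · subst hr
    rw [smul_zero, map_zero, map_zero]
  · have hr' : σ • r ≠ 0 := by
      rwa [Ne, smul_eq_zero_iff_eq]
    rw [HeightOneSpectrum.intValuation_eq_exp_neg_multiplicity _ hr,
      HeightOneSpectrum.intValuation_eq_exp_neg_multiplicity _ hr', smul_asIdeal,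
      ← smul_span_singleton]
    have := multiplicity_map_eq (MulSemiringAction.toRingEquiv (L ≃ₐ[K] L) (Ideal (𝓞 L)) σ)
      (a := P.asIdeal) (b := Ideal.span {r})
    rw [MulSemiringAction.toRingEquiv_apply_apply,
      MulSemiringAction.toRingEquiv_apply_apply] at this
    rw [this]

theorem valuation_smul (σ : L ≃ₐ[K] L) (P : HeightOneSpectrum (𝓞 L)) (x : L) :
    (σ • P).valuation L (σ x) = P.valuation L x := by
  obtain ⟨a, b, hb, rfl⟩ := IsFractionRing.div_surjective (A := 𝓞 L) x
  rw [map_div₀, ← algebraMap_smul_int, ← algebraMap_smul_int, map_div₀, map_div₀,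
    HeightOneSpectrum.valuation_of_algebraMap, HeightOneSpectrum.valuation_of_algebraMap,
    HeightOneSpectrum.valuation_of_algebraMap, HeightOneSpectrum.valuation_of_algebraMap,
    intValuation_smul, intValuation_smul]

/-- **(A1)** The order function is Galois-equivariant. -/
theorem ordAt_smul (σ : L ≃ₐ[K] L) (P : HeightOneSpectrum (𝓞 L)) (x : Lˣ) :
    ordAt L (σ • P) (σ • x) = ordAt L P x := by
  have h1 := ClassKill15.valuation_eq_exp_neg_count L (σ • P) ((σ • x : Lˣ) : L) (σ • x).ne_zero
  have h2 := ClassKill15.valuation_eq_exp_neg_count L P (x : L) x.ne_zero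
  rw [coe_smul_units, valuation_smul, h2, WithZero.exp_inj, neg_inj] at h1
  exact h1.symm

theorem ordAt_smul' (σ : L ≃ₐ[K] L) (P : HeightOneSpectrum (𝓞 L)) (x : Lˣ) :
    ordAt L P (σ • x) = ordAt L (σ⁻¹ • P) x := by
  rw [← ordAt_smul K L σ (σ⁻¹ • P) x, smul_inv_smul]

end Ord

section Action

variable (T : Finset Nat.Primes)
variable (K L : Type*) [Field K] [Field L] [NumberField K] [NumberField L] [Algebra K L]

theorem toFinsupp_smul_apply (σ : L ≃ₐ[K] L) (D : DivT T L) (P : PrimeAway T L) :
    DivT.toFinsupp T L (σ • D) P = DivT.toFinsupp T L D (σ⁻¹ • P) := by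
  change Finsupp.mapDomain (fun P => σ • P) (DivT.toFinsupp T L D) P = _
  have hinj : Function.Injective (fun P : PrimeAway T L => σ • P) := MulAction.injective σ
  conv_lhs => rw [← smul_inv_smul σ P]
  exact Finsupp.mapDomain_apply hinj _ _

theorem toFinsupp_smul_smul (σ : L ≃ₐ[K] L) (D : DivT T L) (P : PrimeAway T L) :
    DivT.toFinsupp T L (σ • D) (σ • P) = DivT.toFinsupp T L D P := by
  rw [toFinsupp_smul_apply, inv_smul_smul]

theorem DivT.ext {D E : DivT T L}
    (h : ∀ P, DivT.toFinsupp T L D P = DivT.toFinsupp T L E P) : D = E := by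
  have : DivT.toFinsupp T L D = DivT.toFinsupp T L E := Finsupp.ext h
  exact this

/-- The divisor map is Galois-equivariant. -/
theorem divT_smul (σ : L ≃ₐ[K] L) (x : Lˣ) : divT T L (σ • x) = σ • divT T L x := by
  apply DivT.ext
  intro P
  rw [toFinsupp_smul_apply, divT_apply, divT_apply, coe_smul_primeAway]
  exact ordAt_smul' K L σ P.1 x

/-- The diagonal embedding into `IT T L` is Galois-equivariant. -/
theorem diagI_smul (σ : L ≃ₐ[K] L) (x : Lˣ) : diagI T L (σ • x) = σ • diagI T L x := by
  funext q
  apply Units.ext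
  rfl

/-- **(A1)** The diagonal embedding `Lˣ → JT T L` is Galois-equivariant. -/
theorem diagJ_smul (σ : L ≃ₐ[K] L) (x : Lˣ) : diagJ T L (σ • x) = σ • diagJ T L x :=
  Prod.ext (diagI_smul T K L σ x) (divT_smul T K L σ x)

theorem smul_mem_range_diagJ (σ : L ≃ₐ[K] L) {j : JT T L} (hj : j ∈ (diagJ T L).range) :
    σ • j ∈ (diagJ T L).range := by
  obtain ⟨x, rfl⟩ := hj
  exact ⟨σ • x, diagJ_smul T K L σ x⟩

/-- The map induced by `σ` on the `T`-idele class group. -/
noncomputable def smulCT (σ : L ≃ₐ[K] L) : CT T L →* CT T L :=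
  QuotientGroup.map (diagJ T L).range (diagJ T L).range
    (MulDistribMulAction.toMonoidHom (JT T L) σ) (fun _ hj => smul_mem_range_diagJ T K L σ hj)

theorem smulCT_toCT (σ : L ≃ₐ[K] L) (j : JT T L) :
    smulCT T K L σ (toCT T L j) = toCT T L (σ • j) := rfl

/-- The Galois action on the `T`-idele class group. -/
noncomputable instance instActionCT : MulDistribMulAction (L ≃ₐ[K] L) (CT T L) where
  smul σ := smulCT T K L σ
  one_smul c := by
    obtain ⟨j, rfl⟩ := QuotientGroup.mk'_surjective _ c
    exact congrArg (toCT T L) (one_smul _ j)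
  mul_smul σ τ c := by
    obtain ⟨j, rfl⟩ := QuotientGroup.mk'_surjective _ c
    exact congrArg (toCT T L) (mul_smul σ τ j)
  smul_mul σ c d := map_mul (smulCT T K L σ) c d
  smul_one σ := map_one (smulCT T K L σ)

/-- **(A1)** The projection `JT T L → CT T L` is Galois-equivariant. -/
theorem toCT_smul (σ : L ≃ₐ[K] L) (j : JT T L) : toCT T L (σ • j) = σ • toCT T L j := rfl

theorem toCT_eq_one_iff (j : JT T L) : toCT T L j = 1 ↔ j ∈ (diagJ T L).range :=
  QuotientGroup.eq_one_iff j

theorem toCT_surjective : Function.Surjective (toCT T L) := QuotientGroup.mk'_surjective _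

theorem toCT_eq_iff (j j' : JT T L) : toCT T L j = toCT T L j' ↔ j / j' ∈ (diagJ T L).range := by
  rw [← toCT_eq_one_iff, map_div, div_eq_one]

end Action

section Injective

variable (T : Finset Nat.Primes)
variable (L : Type*) [Field L] [NumberField L]

theorem includeLeft_loc_injective (q : Nat.Primes) :
    Function.Injective (fun x : L => (x ⊗ₜ[ℚ] (1 : ℚ_[(q : ℕ)]) : Loc L q)) :=
  Algebra.TensorProduct.includeLeft_injective (R := ℚ) (S := ℚ) (A := L) (B := ℚ_[(q : ℕ)])
    (algebraMap ℚ ℚ_[(q : ℕ)]).injective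

/-- For `T ≠ ∅` the diagonal embedding `Lˣ → IT T L` is injective. -/
theorem diagI_injective (hT : T.Nonempty) : Function.Injective (diagI T L) := by
  obtain ⟨q, hq⟩ := hT
  intro x y hxy
  have h := congrFun hxy ⟨q, hq⟩
  have h' : ((x : L) ⊗ₜ[ℚ] (1 : ℚ_[(q : ℕ)]) : Loc L q) = (y : L) ⊗ₜ[ℚ] 1 :=
    congrArg Units.val h
  exact Units.ext (includeLeft_loc_injective L q h')

/-- For `T ≠ ∅` the diagonal embedding `Lˣ → JT T L` is injective. -/
theorem diagJ_injective (hT : T.Nonempty) : Function.Injective (diagJ T L) := by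
  intro x y hxy
  exact diagI_injective T L hT (congrArg Prod.fst hxy)

end Injective

section Fixed

variable (T : Finset Nat.Primes)
variable (K L : Type*) [Field K] [Field L] [NumberField K] [NumberField L] [Algebra K L]

/-- **Hilbert 90 descent on `T`-ideles.**  If the class of `j` is Galois-invariant
(i.e. `σ • j / j` is principal for all `σ`), then `j` is principal times a Galois-invariant
`T`-idele.  (`T ≠ ∅` is needed for `Lˣ → JT T L` to be injective.) -/
theorem exists_fixed_mul_diagJ (hT : T.Nonempty) (j : JT T L)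
    (hj : ∀ σ : L ≃ₐ[K] L, σ • j / j ∈ (diagJ T L).range) :
    ∃ (j' : JT T L) (y : Lˣ), (∀ σ : L ≃ₐ[K] L, σ • j' = j') ∧ j = j' * diagJ T L y := by
  choose x hx using hj
  have hcoc : groupCohomology.IsMulCocycle₁ x := by
    intro σ τ
    apply diagJ_injective T L hT
    rw [map_mul, diagJ_smul, hx, hx, hx, mul_smul, smul_div']
    rw [div_mul_div_cancel]
  obtain ⟨y, hy⟩ := groupCohomology.isMulCoboundary₁_of_isMulCocycle₁_of_aut_to_units x hcoc
  refine ⟨j / diagJ T L y, y, fun σ => ?_, (div_mul_cancel _ _).symm⟩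
  have h1 : σ • j = j * diagJ T L (x σ) := by rw [hx, mul_div_cancel]
  have h2 : σ • y = y * x σ := by
    rw [← hy σ, mul_div_cancel]
    rfl
  rw [smul_div', ← diagJ_smul, h1, h2, map_mul, mul_div_mul_right_eq_div]

/-- **`(C_T)^G` is the image of `(J_T)^G`** (for `T ≠ ∅`). -/
theorem exists_fixed_lift (hT : T.Nonempty) (c : CT T L) (hc : ∀ σ : L ≃ₐ[K] L, σ • c = c) :
    ∃ j : JT T L, (∀ σ : L ≃ₐ[K] L, σ • j = j) ∧ toCT T L j = c := by
  obtain ⟨j, rfl⟩ := toCT_surjective T L c
  have hj : ∀ σ : L ≃ₐ[K] L, σ • j / j ∈ (diagJ T L).range := by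
    intro σ
    rw [← toCT_eq_iff, toCT_smul, hc σ]
  obtain ⟨j', y, hj', rfl⟩ := exists_fixed_mul_diagJ T K L hT j hj
  refine ⟨j', hj', ?_⟩
  symm
  rw [toCT_eq_iff, mul_div_cancel_left]
  exact ⟨y, rfl⟩

end Fixed

section RepGeneral

universe u

variable {G : Type*} {A B : Type u} [Group G] [CommGroup A] [CommGroup B] [MulDistribMulAction G A]
  [MulDistribMulAction G B]

/-- An equivariant homomorphism of `G`-modules (written multiplicatively) as a morphism of
`Rep ℤ G`. -/
noncomputable def repHomOfEquivariant (f : A →* B) (hf : ∀ (g : G) (a : A), f (g • a) = g • f a) :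
    Rep.ofMulDistribMulAction G A ⟶ Rep.ofMulDistribMulAction G B :=
  Rep.ofHom
    (LinearMap.intertwiningMap_of_isIntertwiningMap
      (ρ := Representation.ofMulDistribMulAction G A) (σ := Representation.ofMulDistribMulAction G B)
      (f := (MonoidHom.toAdditive f).toIntLinearMap)
      (fun g a => congrArg Additive.ofMul (hf g a.toMul)))

theorem repHomOfEquivariant_apply (f : A →* B) (hf : ∀ (g : G) (a : A), f (g • a) = g • f a)
    (a : Additive A) :
    (repHomOfEquivariant f hf).hom a = Additive.ofMul (f a.toMul) := rfl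

end RepGeneral

section ShortExactGeneral

universe w u v

/-- A short complex of representations is short exact as soon as it is so on underlying
functions.  (Stated for a general coefficient ring: for the literal ring `ℤ` the functor
`forget₂ (Rep ℤ G) (ModuleCat ℤ)` does not elaborate directly.) -/
theorem shortExact_of_function {k : Type u} {G : Type v} [CommRing k] [Group G]
    (S : ShortComplex (Rep.{w} k G)) (hinj : Function.Injective S.f.hom)
    (hsurj : Function.Surjective S.g.hom)
    (hex : ∀ x, S.g.hom x = 0 → ∃ y, S.f.hom y = x) : S.ShortExact where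
  exact := by
    have h := ShortComplex.exact_map_iff_of_faithful S
      (forget₂ (Rep.{w} k G) (ModuleCat.{w} k))
    rw [← h, ShortComplex.moduleCat_exact_iff]
    intro j hj
    exact hex j hj
  mono_f := (Rep.mono_iff_injective _).2 hinj
  epi_g := (Rep.epi_iff_surjective _).2 hsurj

end ShortExactGeneral

section Reps

universe u v

variable (T : Finset Nat.Primes)
variable (K : Type v) (L : Type u) [Field K] [Field L] [NumberField K] [NumberField L] [Algebra K L]

/-- `Lˣ` as a `ℤ`-linear representation of `Gal(L/K)`. -/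
noncomputable abbrev repUnits : Rep ℤ (L ≃ₐ[K] L) := Rep.ofMulDistribMulAction (L ≃ₐ[K] L) Lˣ

/-- `IT T L` as a representation of `Gal(L/K)`. -/
noncomputable abbrev repIT : Rep ℤ (L ≃ₐ[K] L) := Rep.ofMulDistribMulAction (L ≃ₐ[K] L) (IT T L)

/-- `DivT T L` as a representation of `Gal(L/K)`. -/
noncomputable abbrev repDivT : Rep ℤ (L ≃ₐ[K] L) :=
  Rep.ofMulDistribMulAction (L ≃ₐ[K] L) (DivT T L)

/-- `JT T L` as a representation of `Gal(L/K)`. -/
noncomputable abbrev repJT : Rep ℤ (L ≃ₐ[K] L) := Rep.ofMulDistribMulAction (L ≃ₐ[K] L) (JT T L)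

/-- `CT T L` as a representation of `Gal(L/K)`. -/
noncomputable abbrev repCT : Rep ℤ (L ≃ₐ[K] L) := Rep.ofMulDistribMulAction (L ≃ₐ[K] L) (CT T L)

/-- The diagonal embedding as a morphism of representations. -/
noncomputable def repDiagJ : repUnits K L ⟶ repJT T K L :=
  repHomOfEquivariant (diagJ T L) (fun σ x => diagJ_smul T K L σ x)

/-- The projection to the class group as a morphism of representations. -/
noncomputable def repToCT : repJT T K L ⟶ repCT T K L :=
  repHomOfEquivariant (toCT T L) (fun σ j => toCT_smul T K L σ j)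

theorem repDiagJ_apply (x : Additive Lˣ) :
    (repDiagJ T K L).hom x = Additive.ofMul (diagJ T L x.toMul) := rfl

theorem repToCT_apply (j : Additive (JT T L)) :
    (repToCT T K L).hom j = Additive.ofMul (toCT T L j.toMul) := rfl

theorem repDiagJ_comp_repToCT : repDiagJ T K L ≫ repToCT T K L = 0 := by
  apply Rep.hom_ext
  apply Representation.IntertwiningMap.ext
  apply LinearMap.ext
  intro x
  change Additive.ofMul (toCT T L (diagJ T L x.toMul)) = 0
  exact congrArg Additive.ofMul ((toCT_eq_one_iff T L _).2 ⟨_, rfl⟩)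

theorem repDiagJ_injective (hT : T.Nonempty) : Function.Injective (repDiagJ T K L).hom := by
  intro x y hxy
  exact congrArg Additive.ofMul (diagJ_injective T L hT (congrArg Additive.toMul hxy))

theorem repToCT_surjective : Function.Surjective (repToCT T K L).hom := by
  intro c
  obtain ⟨j, hj⟩ := toCT_surjective T L c.toMul
  exact ⟨Additive.ofMul j, congrArg Additive.ofMul hj⟩

theorem repToCT_eq_zero_iff (j : Additive (JT T L)) :
    (repToCT T K L).hom j = 0 ↔ ∃ x, (repDiagJ T K L).hom x = j := by
  constructor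
  · intro h
    obtain ⟨x, hx⟩ := (toCT_eq_one_iff T L j.toMul).1 (congrArg Additive.toMul h)
    exact ⟨Additive.ofMul x, congrArg Additive.ofMul hx⟩
  · rintro ⟨x, rfl⟩
    exact congrArg Additive.ofMul ((toCT_eq_one_iff T L _).2 ⟨x.toMul, rfl⟩)

/-- The short complex `Lˣ → J_T(L) → C_T(L)` of representations of `Gal(L/K)`. -/
noncomputable def shortComplexCT : ShortComplex (Rep ℤ (L ≃ₐ[K] L)) :=
  ShortComplex.mk (repDiagJ T K L) (repToCT T K L) (repDiagJ_comp_repToCT T K L)

/-- `0 → Lˣ → J_T(L) → C_T(L) → 0` is a short exact sequence of representations (`T ≠ ∅`). -/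
theorem shortExact_shortComplexCT (hT : T.Nonempty) : (shortComplexCT T K L).ShortExact :=
  shortExact_of_function (shortComplexCT T K L) (repDiagJ_injective T K L hT)
    (repToCT_surjective T K L) (fun j hj => (repToCT_eq_zero_iff T K L j).1 hj)

end Reps


section FixedClass

variable (T : Finset Nat.Primes)
variable (K L : Type) [Field K] [Field L] [NumberField K] [NumberField L] [Algebra K L]
  [IsGalois K L]

/-- `Interface23.IsFixedClass` unfolded through Hilbert 90: the class of `j` is Galois-invariant iff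
`j` is an invariant `T`-idele times a principal one (`T ≠ ∅`). -/
theorem isFixedClass_iff (hT : T.Nonempty) (j : JT T L) :
    IsFixedClass T K L j ↔
      ∃ (j' : JT T L) (y : Lˣ), (∀ σ : L ≃ₐ[K] L, σ • j' = j') ∧ j = j' * diagJ T L y := by
  constructor
  · intro h
    exact exists_fixed_mul_diagJ T K L hT j h
  · rintro ⟨j', y, hj', rfl⟩ σ
    refine ⟨σ • y / y, ?_⟩
    rw [map_div, diagJ_smul, smul_mul', hj' σ, mul_div_mul_left_eq_div]

theorem isFixedClass_iff_toCT (j : JT T L) :
    IsFixedClass T K L j ↔ ∀ σ : L ≃ₐ[K] L, σ • toCT T L j = toCT T L j := by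
  constructor
  · intro h σ
    rw [← toCT_smul, toCT_eq_iff]
    exact h σ
  · intro h σ
    have := h σ
    rw [← toCT_smul, toCT_eq_iff] at this
    exact this

theorem mem_principalJ_iff (j : JT T L) : j ∈ principalJ T L ↔ toCT T L j = 1 :=
  (toCT_eq_one_iff T L j).symm

end FixedClass

end Fermat.Agent.PT.GLOB.GalIdele6
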