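/-
Program F (S55), chapter GLOB, leaf (GLOB-LPI) local `p`-power index, the integral semilocal ring
`Λ = 𝓞 K ⊗[ℤ] ℤ_[q]` (helper5).

* `coordEquiv`: coordinates `Λ ≃ₗ[ℤ] (ι →₀ ℤ_[q])` in the integral basis.
* `natCast_mul_eq_zero`: `q` is a non-zero-divisor of `Λ`.
* `card_quotient_lam`: `#(Λ / q Λ) = q ^ [K : ℚ]`.
* `index_powRange_lam`: `[Λˣ : Λˣ^p] = (if q = p then p ^ [K : ℚ] else 1) * #Λˣ[p]`, `p` odd prime.
-/
import Mathlib
import Fermat.Agent.PT.GLOB.LocalPowerIndex5

set_option autoImplicit false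
set_option linter.unusedSectionVars false

namespace Fermat.Agent.PT.GLOB.LamIndex5

open NumberField TensorProduct
open Fermat.Agent.PT.GLOB.PowerNearOneGen16 Fermat.Agent.PT.GLOB.LocalPowerIndex5

noncomputable section

variable (q : ℕ) [Fact q.Prime] (K : Type*) [Field K] [NumberField K]

/-- The index set of the chosen integral basis. -/
abbrev Idx : Type _ := Module.Free.ChooseBasisIndex ℤ (𝓞 K)

/-- Coordinates of `𝓞 K ⊗[ℤ] ℤ_[q]` in the integral basis. -/
def coordEquiv : Lam' q K ≃ₗ[ℤ] (Idx K →₀ ℤ_[q]) :=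
  (TensorProduct.congr (RingOfIntegers.basis K).repr (LinearEquiv.refl ℤ ℤ_[q])).trans
    (TensorProduct.finsuppScalarLeft ℤ ℤ_[q] (Idx K))

theorem natCast_mul_eq_nsmul (n : ℕ) (x : Lam' q K) : (n : Lam' q K) * x = n • x := by
  rw [nsmul_eq_mul]

theorem coordEquiv_natCast_mul (n : ℕ) (x : Lam' q K) :
    coordEquiv q K ((n : Lam' q K) * x) = n • coordEquiv q K x := by
  rw [natCast_mul_eq_nsmul, map_nsmul]

/-- `q` is a non-zero-divisor of `𝓞 K ⊗[ℤ] ℤ_[q]`. -/
theorem natCast_mul_eq_zero (x : Lam' q K) (h : (q : Lam' q K) * x = 0) : x = 0 := by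
  have h1 := congrArg (coordEquiv q K) h
  rw [coordEquiv_natCast_mul, map_zero] at h1
  have h2 : coordEquiv q K x = 0 := by
    ext i
    have h3 := DFunLike.congr_fun h1 i
    rw [Finsupp.smul_apply, Finsupp.zero_apply, nsmul_eq_mul] at h3
    rcases mul_eq_zero.mp h3 with h4 | h4
    · exact absurd (by exact_mod_cast h4) (Fact.out : q.Prime).ne_zero
    · exact h4
  exact (coordEquiv q K).map_eq_zero_iff.mp h2

/-- Reduction modulo `q` in coordinates. -/
def redLam : Lam' q K →+ (Idx K → ZMod q) where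
  toFun x i := PadicInt.toZMod (coordEquiv q K x i)
  map_zero' := by
    funext i
    simp
  map_add' x y := by
    funext i
    simp

theorem redLam_apply (x : Lam' q K) (i : Idx K) :
    redLam q K x i = PadicInt.toZMod (coordEquiv q K x i) := rfl

theorem redLam_surjective : Function.Surjective (redLam q K) := by
  intro g
  have hs : ∀ i, ∃ c : ℤ_[q], PadicInt.toZMod c = g i := fun i =>
    ZMod.ringHom_surjective PadicInt.toZMod (g i)
  choose c hc using hs
  refine ⟨(coordEquiv q K).symm (Finsupp.equivFunOnFinite.symm c), ?_⟩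
  funext i
  rw [redLam_apply, LinearEquiv.apply_symm_apply, Finsupp.coe_equivFunOnFinite_symm, hc]

theorem toZMod_eq_zero_iff (c : ℤ_[q]) : PadicInt.toZMod c = 0 ↔ ∃ w : ℤ_[q], c = (q : ℤ_[q]) * w := by
  rw [← RingHom.mem_ker, PadicInt.ker_toZMod, PadicInt.maximalIdeal_eq_span_p,
    Ideal.mem_span_singleton']
  constructor
  · rintro ⟨w, hw⟩
    exact ⟨w, by rw [← hw, mul_comm]⟩
  · rintro ⟨w, hw⟩
    exact ⟨w, by rw [hw, mul_comm]⟩

theorem ker_redLam :
    (redLam q K).ker = (Ideal.span {(q : Lam' q K)}).toAddSubgroup := by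
  ext x
  rw [AddMonoidHom.mem_ker, Submodule.mem_toAddSubgroup, Ideal.mem_span_singleton']
  constructor
  · intro h
    have h1 : ∀ i, ∃ w : ℤ_[q], coordEquiv q K x i = (q : ℤ_[q]) * w := fun i =>
      (toZMod_eq_zero_iff q _).mp (congrFun h i)
    choose w hw using h1
    refine ⟨(coordEquiv q K).symm (Finsupp.equivFunOnFinite.symm w), ?_⟩
    apply (coordEquiv q K).injective
    rw [mul_comm, coordEquiv_natCast_mul, LinearEquiv.apply_symm_apply]
    ext i
    rw [Finsupp.smul_apply, Finsupp.coe_equivFunOnFinite_symm, nsmul_eq_mul, hw i]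
  · rintro ⟨y, rfl⟩
    funext i
    rw [redLam_apply, mul_comm, coordEquiv_natCast_mul, Finsupp.smul_apply, nsmul_eq_mul, map_mul,
      map_natCast, ZMod.natCast_self, zero_mul]
    rfl

/-- `#(Λ / q Λ) = q ^ [K : ℚ]` for `Λ = 𝓞 K ⊗[ℤ] ℤ_[q]`. -/
theorem card_quotient_lam :
    Nat.card (Lam' q K ⧸ Ideal.span {(q : Lam' q K)}) = q ^ Module.finrank ℚ K := by
  have h1 : Nat.card (Lam' q K ⧸ Ideal.span {(q : Lam' q K)}) =
      (Ideal.span {(q : Lam' q K)}).toAddSubgroup.index := rfl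
  rw [h1, ← ker_redLam, AddSubgroup.index_ker,
    AddMonoidHom.range_eq_top.mpr (redLam_surjective q K),
    Nat.card_congr (AddSubgroup.topEquiv (G := Idx K → ZMod q)).toEquiv, Nat.card_pi]
  simp only [Nat.card_zmod, Finset.prod_const, Finset.card_univ]
  rw [← RingOfIntegers.rank K, Module.finrank_eq_card_chooseBasisIndex]

instance finite_quotient_lam : Finite (Lam' q K ⧸ Ideal.span {(q : Lam' q K)}) := by
  apply Nat.finite_of_card_ne_zero
  rw [card_quotient_lam]
  exact pow_ne_zero _ (Fact.out : q.Prime).ne_zero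

/-- **Index of `p`-th powers in `(𝓞 K ⊗[ℤ] ℤ_[q])ˣ`.** -/
theorem index_powRange_lam {p : ℕ} (hp : p.Prime) (hp2 : p ≠ 2) :
    (powMonoidHom (α := (Lam' q K)ˣ) p).range.index =
      (if q = p then p ^ Module.finrank ℚ K else 1) *
        Nat.card (powMonoidHom (α := (Lam' q K)ˣ) p).ker := by
  rw [index_powRange_units (Λ := Lam' q K) q hp hp2 Fact.out (natCast_mul_eq_zero q K),
    card_quotient_lam]
  by_cases h : q = p
  · rw [if_pos h, if_pos h, congrArg (fun n : ℕ => n ^ Module.finrank ℚ K) h]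
  · rw [if_neg h, if_neg h]

theorem finite_powKer_lam {p : ℕ} (hp : p.Prime) (hp2 : p ≠ 2) :
    Finite (powMonoidHom (α := (Lam' q K)ˣ) p).ker :=
  finite_powKer_units (Λ := Lam' q K) q hp hp2 Fact.out (natCast_mul_eq_zero q K)

end

end Fermat.Agent.PT.GLOB.LamIndex5
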