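/-
Program F (S55, Poitou–Tate), chapter GLOB, helper10: row 432 (GLOB-L1-H90).

`LocH90_10`: SEMILOCAL HILBERT 90.

* Abstract form (`exists_isUnit_of_cocycle`): `F` an infinite field, `R` a commutative Artinian
  `F`-algebra, `G` a finite group acting on `R` by `F`-algebra automorphisms such that modulo every
  maximal ideal `m` the characters `y ↦ (σ • y mod m)` (`σ ∈ G`) are pairwise distinct.  Then every
  1-cocycle `c : G → Rˣ` is a coboundary.  (Poincaré series `β y = ∑_σ c σ · σ y`; Dedekind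
  independence of characters modulo each maximal ideal; a vector space over an infinite field is
  not a finite union of proper subspaces.)
* `h1Vanishes_repLoc` : `InfResFlex19.H1Vanishes (InterfaceCF23.repLoc K L q)` for any
  extension `L/K` of number fields (`IsGalois K L` is not even needed):
  `H¹(Aut(L/K), (L ⊗_ℚ ℚ_q)ˣ) = 0`; `exists_unit_of_cocycle_Loc` is the multiplicative form.
-/
import Mathlib
import Fermat.Agent.PT.GLOB.InterfaceCF23
import Fermat.Agent.PT.GLOB.PlaceBridge24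
import Fermat.Agent.PT.FG.InfResFlex19

set_option autoImplicit false

namespace Fermat.Agent.PT.GLOB.LocH90_10

open Function

/-! ## Abstract semilocal Hilbert 90 -/

section Abstract

variable {F R G : Type*} [Field F] [CommRing R] [Algebra F R]
  [Group G] [Fintype G] [MulSemiringAction G R]

/-- The Poincaré series `β y = ∑_σ c σ · σ y`, as an `F`-linear map. -/
def poinc (c : G → R) (hF : ∀ (σ : G) (a : F) (y : R), σ • (a • y) = a • (σ • y)) :
    R →ₗ[F] R where
  toFun y := ∑ σ, c σ * σ • y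
  map_add' y z := by
    simp only [smul_add, mul_add, Finset.sum_add_distrib]
  map_smul' a y := by
    simp only [hF, RingHom.id_apply, Finset.smul_sum, mul_smul_comm]

lemma poinc_apply (c : G → R) (hF : ∀ (σ : G) (a : F) (y : R), σ • (a • y) = a • (σ • y))
    (y : R) : poinc c hF y = ∑ σ, c σ * σ • y := rfl

/-- The cocycle identity makes the Poincaré series semi-invariant: `c τ · τ (β y) = β y`. -/
lemma mul_smul_poinc (c : G → R) (hF : ∀ (σ : G) (a : F) (y : R), σ • (a • y) = a • (σ • y))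
    (hc : ∀ σ τ, c (σ * τ) = c σ * σ • c τ) (τ : G) (y : R) :
    c τ * τ • poinc c hF y = poinc c hF y := by
  rw [poinc_apply, Finset.smul_sum, Finset.mul_sum]
  rw [← Equiv.sum_comp (Equiv.mulLeft τ) (fun σ => c σ * σ • y)]
  refine Finset.sum_congr rfl (fun σ _ => ?_)
  rw [Equiv.coe_mulLeft, hc, smul_mul', mul_smul, mul_assoc]

/-- Modulo a maximal ideal the Poincaré series does not vanish identically. -/
lemma exists_poinc_notMem (c : G → R) (hu : ∀ σ, IsUnit (c σ))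
    (hF : ∀ (σ : G) (a : F) (y : R), σ • (a • y) = a • (σ • y))
    (m : Ideal R) [hm : m.IsMaximal]
    (hdist : ∀ σ τ : G, (∀ y : R, Ideal.Quotient.mk m (σ • y) = Ideal.Quotient.mk m (τ • y)) →
      σ = τ) :
    ∃ y : R, poinc c hF y ∉ m := by
  classical
  by_contra hcon0
  have hcon : ∀ y : R, poinc c hF y ∈ m := fun y => by_contra fun h => hcon0 ⟨y, h⟩
  let _ : Field (R ⧸ m) := Ideal.Quotient.field m
  -- the characters
  let χ : G → (R →* R ⧸ m) := fun σ =>
    ((Ideal.Quotient.mk m).comp (MulSemiringAction.toRingHom G R σ)).toMonoidHom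
  have hχ : ∀ σ y, χ σ y = Ideal.Quotient.mk m (σ • y) := fun σ y => rfl
  have hinj : Injective χ := by
    intro σ τ h
    apply hdist
    intro y
    rw [← hχ, ← hχ, h]
  have hli : LinearIndependent (R ⧸ m) (fun σ : G => (χ σ : R → R ⧸ m)) :=
    (linearIndependent_monoidHom R (R ⧸ m)).comp χ hinj
  have hsum : ∑ σ, Ideal.Quotient.mk m (c σ) • (χ σ : R → R ⧸ m) = 0 := by
    funext y
    rw [Finset.sum_apply, Pi.zero_apply]
    have h1 : Ideal.Quotient.mk m (poinc c hF y) = 0 :=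
      Ideal.Quotient.eq_zero_iff_mem.2 (hcon y)
    rw [poinc_apply, map_sum] at h1
    rw [← h1]
    refine Finset.sum_congr rfl (fun σ _ => ?_)
    rw [Pi.smul_apply, smul_eq_mul, hχ, map_mul]
  have h0 := Fintype.linearIndependent_iff.1 hli (fun σ => Ideal.Quotient.mk m (c σ)) hsum 1
  have hmem : c 1 ∈ m := Ideal.Quotient.eq_zero_iff_mem.1 h0
  exact hm.ne_top (Ideal.eq_top_of_isUnit_mem m hmem (hu 1))

variable [Infinite F] [IsArtinianRing R]

/-- **Abstract semilocal Hilbert 90.** -/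
theorem exists_isUnit_of_cocycle (c : G → R) (hu : ∀ σ, IsUnit (c σ))
    (hF : ∀ (σ : G) (a : F) (y : R), σ • (a • y) = a • (σ • y))
    (hdist : ∀ (m : Ideal R), m.IsMaximal → ∀ σ τ : G,
      (∀ y : R, Ideal.Quotient.mk m (σ • y) = Ideal.Quotient.mk m (τ • y)) → σ = τ)
    (hc : ∀ σ τ, c (σ * τ) = c σ * σ • c τ) :
    ∃ b : R, IsUnit b ∧ ∀ σ, c σ * b = σ • b := by
  classical
  -- the bad subspaces
  let V : MaximalSpectrum R → Subspace F R := fun m =>
    LinearMap.ker ((Ideal.Quotient.mkₐ F m.asIdeal).toLinearMap ∘ₗ poinc c hF)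
  have hV : ∀ m y, y ∈ V m ↔ poinc c hF y ∈ m.asIdeal := by
    intro m y
    rw [LinearMap.mem_ker, LinearMap.comp_apply]
    exact Ideal.Quotient.eq_zero_iff_mem
  have hne : ∀ m, V m ≠ ⊤ := by
    intro m htop
    have := m.isMaximal
    obtain ⟨y, hy⟩ := exists_poinc_notMem c hu hF m.asIdeal (hdist m.asIdeal m.isMaximal)
    exact hy ((hV m y).1 (htop ▸ Submodule.mem_top))
  have hcov : ⋃ m, (V m : Set R) ≠ Set.univ := by
    intro h
    obtain ⟨m, hm⟩ := Subspace.exists_eq_top_of_iUnion_eq_univ h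
    exact hne m hm
  obtain ⟨y, hy⟩ : ∃ y : R, y ∉ ⋃ m, (V m : Set R) := by
    by_contra hcon
    exact hcov (Set.eq_univ_of_forall fun y => by_contra fun h => hcon ⟨y, h⟩)
  have hunit : IsUnit (poinc c hF y) := by
    by_contra hnu
    obtain ⟨I, hI, hmem⟩ := exists_max_ideal_of_mem_nonunits (mem_nonunits_iff.2 hnu)
    exact hy (Set.mem_iUnion.2 ⟨⟨I, hI⟩, (hV ⟨I, hI⟩ y).2 hmem⟩)
  obtain ⟨u, hu'⟩ := hunit
  have key : ∀ τ, c τ * τ • (u : R) = (u : R) := fun τ => by
    rw [hu']; exact mul_smul_poinc c hF hc τ y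
  refine ⟨((u⁻¹ : Rˣ) : R), (u⁻¹).isUnit, fun τ => ?_⟩
  have hinv : τ • (u : R) * τ • ((u⁻¹ : Rˣ) : R) = 1 := by
    rw [← smul_mul', Units.mul_inv, smul_one]
  calc c τ * ((u⁻¹ : Rˣ) : R)
      = c τ * (τ • (u : R) * τ • ((u⁻¹ : Rˣ) : R)) * ((u⁻¹ : Rˣ) : R) := by rw [hinv, mul_one]
    _ = (c τ * τ • (u : R)) * ((u⁻¹ : Rˣ) : R) * τ • ((u⁻¹ : Rˣ) : R) := by ring
    _ = τ • ((u⁻¹ : Rˣ) : R) := by rw [key, Units.mul_inv, one_mul]

end Abstract

/-! ## The semilocal algebra `L ⊗_ℚ ℚ_q` -/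

section Concrete

open scoped TensorProduct
open groupCohomology
open Fermat.Agent.PT.GLOB.Interface23 Fermat.Agent.PT.GLOB.InterfaceCF23

attribute [local instance] Algebra.TensorProduct.rightAlgebra

variable (K L : Type) [Field K] [Field L] [NumberField K] [NumberField L] [Algebra K L]
  (q : Nat.Primes)

/-- The Galois action on `L ⊗ ℚ_q` is `ℚ_q`-linear. -/
lemma smul_rightSmul (σ : L ≃ₐ[K] L) (a : ℚ_[(q : ℕ)]) (y : Loc L q) :
    σ • (a • y) = a • (σ • y) := by
  rw [Algebra.smul_def, Algebra.smul_def]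
  change tensorAut K L ℚ_[(q : ℕ)] σ (algebraMap ℚ_[(q : ℕ)] (Loc L q) a * y) =
    algebraMap ℚ_[(q : ℕ)] (Loc L q) a * tensorAut K L ℚ_[(q : ℕ)] σ y
  rw [map_mul]
  congr 1
  change tensorAut K L ℚ_[(q : ℕ)] σ ((1 : L) ⊗ₜ[ℚ] a) = (1 : L) ⊗ₜ[ℚ] a
  rw [tensorAut_tmul, map_one]

/-- Modulo a maximal ideal of `L ⊗ ℚ_q` distinct elements of `Gal(L/K)` induce distinct
characters (they are already distinct on `L`, which embeds into the residue field). -/
lemma eq_of_forall_mk_smul_eq (m : Ideal (Loc L q)) (hm : m.IsMaximal) (σ τ : L ≃ₐ[K] L)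
    (h : ∀ y : Loc L q, Ideal.Quotient.mk m (σ • y) = Ideal.Quotient.mk m (τ • y)) : σ = τ := by
  have hnt : Nontrivial (Loc L q ⧸ m) := Ideal.Quotient.nontrivial_iff.2 hm.ne_top
  let ι : L →+* Loc L q ⧸ m :=
    (Ideal.Quotient.mk m).comp
      (Algebra.TensorProduct.includeLeft : L →ₐ[ℚ] Loc L q).toRingHom
  have hι : Injective ι := ι.injective
  apply AlgEquiv.ext
  intro x
  apply hι
  have := h ((x ⊗ₜ[ℚ] (1 : ℚ_[(q : ℕ)]) : Loc L q))
  rw [smul_tmul', smul_tmul'] at this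
  exact this

/-- **Semilocal Hilbert 90**, multiplicative form: every 1-cocycle of `Gal(L/K)` with values in
`(L ⊗_ℚ ℚ_q)ˣ` is a coboundary. -/
theorem exists_unit_of_cocycle_Loc (c : (L ≃ₐ[K] L) → (Loc L q)ˣ)
    (hc : ∀ σ τ, c (σ * τ) = c σ * σ • c τ) :
    ∃ b : (Loc L q)ˣ, ∀ σ, c σ * b = σ • b := by
  classical
  have : FiniteDimensional K L := Module.Finite.right ℚ K L
  let _ : Fintype (L ≃ₐ[K] L) := Fintype.ofFinite _
  have : IsArtinianRing (Loc L q) := PlaceBridge24.isArtinianRing_tensor L (q : ℕ)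
  obtain ⟨b, hb, h⟩ := exists_isUnit_of_cocycle (F := ℚ_[(q : ℕ)]) (R := Loc L q)
    (fun σ => ((c σ : (Loc L q)ˣ) : Loc L q)) (fun σ => (c σ).isUnit)
    (smul_rightSmul K L q) (eq_of_forall_mk_smul_eq K L q)
    (fun σ τ => by
      rw [hc]
      rfl)
  obtain ⟨u, rfl⟩ := hb
  refine ⟨u, fun σ => Units.ext ?_⟩
  rw [Units.val_mul, coe_smul_unitsTensor]
  exact h σ

/-- **Semilocal Hilbert 90** (row GLOB-L1-H90): `H¹(Gal(L/K), (L ⊗_ℚ ℚ_q)ˣ) = 0`, in the cocycle
form used by `InfResFlex19`. -/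
theorem h1Vanishes_repLoc :
    Fermat.Agent.PT.FG.InfResFlex19.H1Vanishes (repLoc K L q) := by
  intro f
  have hf : ∀ g h : L ≃ₐ[K] L, f (g * h) = (repLoc K L q).ρ g (f h) + f g :=
    (mem_cocycles₁_iff (f : (L ≃ₐ[K] L) → (repLoc K L q).V)).mp f.2
  let c : (L ≃ₐ[K] L) → (Loc L q)ˣ := fun σ => Additive.toMul (f σ)
  have hc : ∀ σ τ, c (σ * τ) = c σ * σ • c τ := by
    intro σ τ
    have := congrArg Additive.toMul (hf σ τ)
    rw [mul_comm]
    exact this
  obtain ⟨b, hb⟩ := exists_unit_of_cocycle_Loc K L q c hc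
  refine ⟨Additive.ofMul b, fun g => ?_⟩
  apply Additive.toMul.injective
  change c g = g • b / b
  rw [eq_div_iff_mul_eq']
  exact hb g

end Concrete

end Fermat.Agent.PT.GLOB.LocH90_10
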