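/-
Program F (S55), chapter GLOB, leaf (GLOB-LPI) local `p`-power index, the semilocal unit group
`(K ⊗[ℚ] ℚ_[q])ˣ` (helper5).

`Λ = 𝓞 K ⊗[ℤ] ℤ_[q]`, `R = K ⊗[ℚ] ℚ_[q]`, `Sq K q` = primes of `𝓞 K` above `q`.
* `jHom : Λˣ →* Rˣ` (injective), `dHom : Kˣ →* Rˣ` (diagonal), `ordQ : Kˣ →* (Sq K q → ℤ)`.
* `(W1)` `mem_range_of_ordAt_eq_zero`, `(W2)` `ordAt_eq_zero_of_mem_range`:
  `a ⊗ 1 ∈ Λˣ ↔ ord_P a = 0` for all `P ∣ q`;  `(W3)` `exists_eq_mul`: `Rˣ = Kˣ · Λˣ`;
  `(W4)` `ordQ_surjective`.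
* `exists_ordHom`: a surjective `v : Rˣ →* (Sq K q → ℤ)` with kernel `Λˣ` extending `ordQ`.
* `index_powRange_loc`: `[Rˣ : Rˣ^p] = p ^ #(Sq K q) * (p ^ [K:ℚ] if q = p) * #Rˣ[p]`, `p` odd.
-/
import Mathlib
import Fermat.Agent.PT.GLOB.LamIndex5
import Fermat.Agent.PT.GLOB.PlaceBridge24
import Fermat.Agent.PT.GLOB.UnitsBridge24

set_option autoImplicit false
set_option linter.unusedSectionVars false

namespace Fermat.Agent.PT.GLOB.LocUnits5

open NumberField IsDedekindDomain HeightOneSpectrum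
open scoped TensorProduct
open Fermat.Agent.PT.GLOB.Interface23 Fermat.Agent.PT.GLOB.WeakApprox17
open Fermat.Agent.PT.GLOB.PowerNearOneGen16 Fermat.Agent.PT.GLOB.LocalPowerIndex5
open Fermat.Agent.PT.GLOB.LamIndex5 Fermat.Agent.PT.GLOB.PlaceBridge24
open Fermat.Agent.PT.LOC.Structure14 Fermat.Agent.PT.LOC.Interface12

section Abstract

/-- If `A = d(D) · B` and `vD : D → Z` is surjective with kernel `d⁻¹(B)`, then `vD` extends to a
surjective homomorphism `A → Z` with kernel `B`. -/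
theorem exists_hom_of_cover {A D Z : Type*} [CommGroup A] [CommGroup D] [CommGroup Z]
    (B : Subgroup A) (d : D →* A) (hcov : ∀ a : A, ∃ x : D, ∃ b ∈ B, a = d x * b)
    (vD : D →* Z) (hvD : Function.Surjective vD) (hker : vD.ker = B.comap d) :
    ∃ v : A →* Z, Function.Surjective v ∧ v.ker = B ∧ ∀ x, v (d x) = vD x := by
  classical
  choose x b hb hab using hcov
  have hwd : ∀ (a : A) (x' : D) (b' : A), b' ∈ B → a = d x' * b' → vD (x a) = vD x' := by
    intro a x' b' hb' h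
    have h1 : d (x a / x') ∈ B := by
      have : d (x a / x') = b' / b a := by
        rw [map_div, div_eq_div_iff_mul_eq_mul, ← hab a, mul_comm, ← h]
      rw [this]
      exact B.div_mem hb' (hb a)
    have h2 : x a / x' ∈ vD.ker := by rw [hker]; exact h1
    rw [MonoidHom.mem_ker, map_div, div_eq_one] at h2
    exact h2
  let v : A →* Z :=
    { toFun := fun a => vD (x a)
      map_one' := by
        rw [hwd 1 1 1 B.one_mem (by simp), map_one]
      map_mul' := fun a₁ a₂ => by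
        rw [hwd (a₁ * a₂) (x a₁ * x a₂) (b a₁ * b a₂) (B.mul_mem (hb a₁) (hb a₂)) (by
          rw [map_mul]
          conv_lhs => rw [hab a₁, hab a₂]
          exact mul_mul_mul_comm _ _ _ _), map_mul] }
  have hvd : ∀ y, v (d y) = vD y := fun y => hwd (d y) y 1 B.one_mem (by simp)
  refine ⟨v, ?_, ?_, hvd⟩
  · intro z
    obtain ⟨y, rfl⟩ := hvD z
    exact ⟨d y, hvd y⟩
  · ext a
    rw [MonoidHom.mem_ker]
    change vD (x a) = 1 ↔ _
    rw [← MonoidHom.mem_ker, hker, Subgroup.mem_comap]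
    constructor
    · intro h
      rw [hab a]
      exact B.mul_mem h (hb a)
    · intro h
      have : d (x a) = a / b a := by
        rw [eq_div_iff_mul_eq']; exact (hab a).symm
      rw [this]
      exact B.div_mem h (hb a)

end Abstract

noncomputable section

variable (K : Type) [Field K] [NumberField K] (q : ℕ) [Fact q.Prime]

/-- `Λˣ → (K ⊗ ℚ_q)ˣ`. -/
def jHom : (Lam' q K)ˣ →* (K ⊗[ℚ] ℚ_[q])ˣ := Units.map (intToRat K q : Lam' q K →* K ⊗[ℚ] ℚ_[q])

theorem coe_jHom (u : (Lam' q K)ˣ) : ((jHom K q u : (K ⊗[ℚ] ℚ_[q])ˣ) : K ⊗[ℚ] ℚ_[q]) =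
    intToRat K q (u : Lam' q K) := rfl

theorem jHom_injective : Function.Injective (jHom K q) := by
  intro u v h
  apply Units.ext
  apply intToRat_injective K q
  rw [← coe_jHom, ← coe_jHom, h]

/-- The diagonal map `Kˣ → (K ⊗ ℚ_q)ˣ`. -/
def dHom : Kˣ →* (K ⊗[ℚ] ℚ_[q])ˣ :=
  Units.map ((Algebra.TensorProduct.includeLeft : K →ₐ[ℚ] K ⊗[ℚ] ℚ_[q]) : K →* K ⊗[ℚ] ℚ_[q])

theorem coe_dHom (a : Kˣ) : ((dHom K q a : (K ⊗[ℚ] ℚ_[q])ˣ) : K ⊗[ℚ] ℚ_[q]) =
    (a : K) ⊗ₜ[ℚ] (1 : ℚ_[q]) := rfl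

/-- The primes of `𝓞 K` above `q`. -/
abbrev Sq : Type := {P : HeightOneSpectrum (𝓞 K) // (q : 𝓞 K) ∈ P.asIdeal}

instance finite_Sq : Finite (Sq K q) := by
  have h : Set.Finite {P : HeightOneSpectrum (𝓞 K) | (q : 𝓞 K) ∈ P.asIdeal} := by
    rw [← range_placeOf]
    exact Set.finite_range _
  exact h.to_subtype

/-- `(W2)`: a global element which is a unit of `Λ` has order `0` at all primes above `q`. -/
theorem ordAt_eq_zero_of_mem_range (a : Kˣ) (h : dHom K q a ∈ (jHom K q).range) (P : Sq K q) :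
    ordAt K P.1 a = 0 := by
  obtain ⟨u, hu⟩ := h
  obtain ⟨m, hm⟩ := exists_placeOf_eq P.1 P.2
  rw [UnitsBridge24.ordAt_eq_zero_iff, ← hm, ← valE_eq_one_iff]
  have h1 : pt m (intToRat K q (u : Lam' q K)) ∈ intRing q (ResField m) :=
    psi_intToRat_mem (isPoint_pt m) _
  have h2 : pt m (intToRat K q ((u⁻¹ : (Lam' q K)ˣ) : Lam' q K)) ∈ intRing q (ResField m) :=
    psi_intToRat_mem (isPoint_pt m) _
  have e1 : intToRat K q (u : Lam' q K) = (a : K) ⊗ₜ[ℚ] (1 : ℚ_[q]) := by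
    rw [← coe_jHom, hu, coe_dHom]
  have e2 : intToRat K q ((u⁻¹ : (Lam' q K)ˣ) : Lam' q K) =
      ((a⁻¹ : Kˣ) : K) ⊗ₜ[ℚ] (1 : ℚ_[q]) := by
    rw [← coe_jHom, map_inv, hu, ← map_inv, coe_dHom]
  rw [e1] at h1
  rw [e2] at h2
  have v1 : valE q (ResField m) (pt m ((a : K) ⊗ₜ[ℚ] (1 : ℚ_[q]))) ≤ 1 :=
    (maxIdeal q (ResField m)).valuation_le_one ⟨_, h1⟩
  have v2 : valE q (ResField m) (pt m (((a⁻¹ : Kˣ) : K) ⊗ₜ[ℚ] (1 : ℚ_[q]))) ≤ 1 :=
    (maxIdeal q (ResField m)).valuation_le_one ⟨_, h2⟩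
  have hmul : valE q (ResField m) (pt m ((a : K) ⊗ₜ[ℚ] (1 : ℚ_[q]))) *
      valE q (ResField m) (pt m (((a⁻¹ : Kˣ) : K) ⊗ₜ[ℚ] (1 : ℚ_[q]))) = 1 := by
    rw [← map_mul, ← map_mul, Algebra.TensorProduct.tmul_mul_tmul, mul_one, Units.mul_inv,
      ← Algebra.TensorProduct.one_def, map_one, map_one]
  apply le_antisymm v1
  by_contra hlt
  rw [not_le] at hlt
  have : valE q (ResField m) (pt m ((a : K) ⊗ₜ[ℚ] (1 : ℚ_[q]))) *
      valE q (ResField m) (pt m (((a⁻¹ : Kˣ) : K) ⊗ₜ[ℚ] (1 : ℚ_[q]))) < 1 := by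
    calc _ ≤ valE q (ResField m) (pt m ((a : K) ⊗ₜ[ℚ] (1 : ℚ_[q]))) * 1 :=
          mul_le_mul' le_rfl v2
      _ < 1 := by rw [mul_one]; exact hlt
  rw [hmul] at this
  exact lt_irrefl _ this

/-- `(W1')`: a global element which is integral at all primes above `q` lies in `Λ`. -/
theorem exists_intToRat_eq (a : K) (h : ∀ P : Sq K q, P.1.valuation K a ≤ 1) :
    ∃ z : Lam' q K, intToRat K q z = a ⊗ₜ[ℚ] (1 : ℚ_[q]) := by
  -- the ideal of denominators
  let I : Ideal (𝓞 K) :=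
    { carrier := {x | ∃ y : 𝓞 K, a * (x : K) = (y : K)}
      add_mem' := by
        rintro x x' ⟨y, hy⟩ ⟨y', hy'⟩
        refine ⟨y + y', ?_⟩
        rw [coe_add', coe_add', mul_add, hy, hy']
      zero_mem' := ⟨0, by rw [coe_zero', mul_zero]⟩
      smul_mem' := by
        rintro c x ⟨y, hy⟩
        refine ⟨c * y, ?_⟩
        rw [smul_eq_mul, coe_mul', coe_mul', mul_left_comm, hy] }
  have hI : I ⊔ Ideal.span {(q : 𝓞 K)} = ⊤ := by
    by_contra hne
    obtain ⟨M, hM, hle⟩ := Ideal.exists_le_maximal _ hne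
    have hqM : (q : 𝓞 K) ∈ M := hle (Ideal.mem_sup_right (Ideal.mem_span_singleton_self _))
    have hM0 : M ≠ ⊥ := by
      rintro rfl
      exact (Nat.cast_ne_zero.mpr (Fact.out : q.Prime).ne_zero) ((Ideal.mem_bot).mp hqM)
    let P : HeightOneSpectrum (𝓞 K) := ⟨M, hM.isPrime, hM0⟩
    obtain ⟨n, d, hnd⟩ := P.exists_primeCompl_mul_eq_of_integer a (h ⟨P, hqM⟩)
    exact d.2 (hle (Ideal.mem_sup_left ⟨n, hnd⟩))
  have h1 : (1 : 𝓞 K) ∈ I ⊔ Ideal.span {(q : 𝓞 K)} := by rw [hI]; trivial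
  obtain ⟨c, ⟨b, hb⟩, t, ht, hct⟩ := Submodule.mem_sup.mp h1
  obtain ⟨y, rfl⟩ := Ideal.mem_span_singleton'.mp ht
  have hcu : IsUnit ((c ⊗ₜ[ℤ] (1 : ℤ_[q])) : Lam' q K) := by
    have hc : c = 1 + (q : 𝓞 K) * (-y) := by rw [← hct]; ring
    have : (c ⊗ₜ[ℤ] (1 : ℤ_[q]) : Lam' q K) = 1 + (q : Lam' q K) * ((-y) ⊗ₜ[ℤ] (1 : ℤ_[q])) := by
      rw [Algebra.TensorProduct.natCast_def, Algebra.TensorProduct.tmul_mul_tmul, mul_one,
        Algebra.TensorProduct.one_def, ← TensorProduct.add_tmul, ← hc]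
    rw [this]
    exact isUnit_one_add_mul q _
  obtain ⟨cu, hcu⟩ := hcu
  have key : intToRat K q (cu : Lam' q K) * (a ⊗ₜ[ℚ] (1 : ℚ_[q])) =
      intToRat K q (b ⊗ₜ[ℤ] (1 : ℤ_[q])) := by
    rw [hcu, intToRat_tmul, intToRat_tmul, Algebra.TensorProduct.tmul_mul_tmul, mul_one, ← hb,
      mul_comm]
  refine ⟨((cu⁻¹ : (Lam' q K)ˣ) : Lam' q K) * (b ⊗ₜ[ℤ] (1 : ℤ_[q])), ?_⟩
  rw [map_mul, ← key, ← mul_assoc, ← map_mul, Units.inv_mul, map_one, one_mul]

/-- `(W1)`: a global unit with order `0` at all primes above `q` is a unit of `Λ`. -/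
theorem mem_range_of_ordAt_eq_zero (a : Kˣ) (h : ∀ P : Sq K q, ordAt K P.1 a = 0) :
    dHom K q a ∈ (jHom K q).range := by
  have h1 : ∀ P : Sq K q, P.1.valuation K (a : K) ≤ 1 := fun P =>
    le_of_eq ((UnitsBridge24.ordAt_eq_zero_iff K P.1 a).mp (h P))
  have h2 : ∀ P : Sq K q, P.1.valuation K ((a⁻¹ : Kˣ) : K) ≤ 1 := fun P => by
    apply le_of_eq
    rw [← UnitsBridge24.ordAt_eq_zero_iff]
    have := ordAt_mul K P.1 a a⁻¹
    rw [mul_inv_cancel, ordAt_one, h P, zero_add] at this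
    exact this.symm
  obtain ⟨z, hz⟩ := exists_intToRat_eq K q (a : K) h1
  obtain ⟨z', hz'⟩ := exists_intToRat_eq K q ((a⁻¹ : Kˣ) : K) h2
  have hzz : z * z' = 1 := by
    apply intToRat_injective K q
    rw [map_mul, hz, hz', Algebra.TensorProduct.tmul_mul_tmul, mul_one, Units.mul_inv, map_one,
      Algebra.TensorProduct.one_def]
  refine ⟨⟨z, z', hzz, by rw [mul_comm]; exact hzz⟩, ?_⟩
  apply Units.ext
  rw [coe_jHom, coe_dHom]
  exact hz

/-- `(W3)`: weak approximation, `(K ⊗ ℚ_q)ˣ = Kˣ · Λˣ`. -/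
theorem exists_eq_mul (y : (K ⊗[ℚ] ℚ_[q])ˣ) :
    ∃ a : Kˣ, ∃ b ∈ (jHom K q).range, y = dHom K q a * b := by
  obtain ⟨a, ha⟩ := weak_approx K ({()} : Finset Unit) (fun _ => q)
    (hq := fun _ => inferInstance) (by simp) 1 (fun _ => y)
  obtain ⟨z, hz1, hz2⟩ := ha () (Finset.mem_singleton_self _)
  rw [pow_one] at hz1
  obtain ⟨m, hm⟩ := Ideal.mem_span_singleton'.mp hz1
  have hzu : IsUnit z := by
    have : z = 1 + (q : Lam' q K) * m := by rw [mul_comm, hm]; ring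
    rw [this]
    exact isUnit_one_add_mul q m
  obtain ⟨u, rfl⟩ := hzu
  refine ⟨a⁻¹, jHom K q u, ⟨u, rfl⟩, ?_⟩
  apply Units.ext
  rw [Units.val_mul, coe_jHom, hz2, ← mul_assoc, ← coe_dHom, ← Units.val_mul, ← map_mul,
    inv_mul_cancel, map_one, Units.val_one, one_mul]

/-- The order homomorphism at the primes above `q`. -/
def ordQ : Kˣ →* (Sq K q → Multiplicative ℤ) where
  toFun a P := Multiplicative.ofAdd (ordAt K P.1 a)
  map_one' := by
    funext P
    rw [ordAt_one]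
    rfl
  map_mul' a b := by
    funext P
    rw [ordAt_mul]
    rfl

theorem ordQ_apply (a : Kˣ) (P : Sq K q) : ordQ K q a P = Multiplicative.ofAdd (ordAt K P.1 a) :=
  rfl

theorem ordAt_eq_of_valuation (P : HeightOneSpectrum (𝓞 K)) (a : Kˣ) (n : ℤ)
    (h : P.valuation K (a : K) = WithZero.exp (-n)) : ordAt K P a = n := by
  rw [ClassKill15.valuation_eq_exp_neg_count K P (a : K) a.ne_zero] at h
  have := WithZero.exp_injective h
  unfold ordAt
  omega

/-- An element of `Kˣ` with order `1` at a given prime above `q` and `0` at the others. -/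
theorem exists_ordAt_eq_single (P₀ : Sq K q) :
    ∃ a : Kˣ, ordAt K P₀.1 a = 1 ∧ ∀ P : Sq K q, P ≠ P₀ → ordAt K P.1 a = 0 := by
  classical
  have := Fintype.ofFinite (Sq K q)
  obtain ⟨π, hπ⟩ := P₀.1.intValuation_exists_uniformizer
  obtain ⟨y, hy⟩ := IsDedekindDomain.exists_forall_sub_mem_ideal (s := Finset.univ)
    (fun P : Sq K q => P.1.asIdeal) (fun P => if P = P₀ then 2 else 1)
    (fun P _ => P.1.prime)
    (fun P _ P' _ hne h => hne (Subtype.ext (HeightOneSpectrum.ext h)))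
    (fun P => if P.1 = P₀ then π else 1)
  have h0 : P₀.1.intValuation y = WithZero.exp (-1 : ℤ) := by
    have h1 := hy P₀ (Finset.mem_univ _)
    simp only [if_true] at h1
    rw [← intValuation_le_pow_iff_mem] at h1
    have h2 : P₀.1.intValuation (y - π) < P₀.1.intValuation π := by
      rw [hπ]
      refine lt_of_le_of_lt h1 ?_
      rw [WithZero.exp_lt_exp]
      norm_num
    have h3 : y = π + (y - π) := by ring
    rw [h3, Valuation.map_add_eq_of_lt_left _ h2, hπ]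
  have h1 : ∀ P : Sq K q, P ≠ P₀ → P.1.intValuation y = 1 := by
    intro P hP
    have h1 := hy P (Finset.mem_univ _)
    simp only [if_neg hP, pow_one] at h1
    rw [← intValuation_lt_one_iff_mem] at h1
    have h3 : y = 1 + (y - 1) := by ring
    have h2 : P.1.intValuation (y - 1) < P.1.intValuation 1 := by rw [map_one]; exact h1
    rw [h3, Valuation.map_add_eq_of_lt_left _ h2, map_one]
  have hy0 : (y : K) ≠ 0 := by
    intro h
    have : y = 0 := RingOfIntegers.coe_eq_zero_iff.mp h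
    rw [this, map_zero] at h0
    exact WithZero.exp_ne_zero.symm h0
  refine ⟨Units.mk0 (y : K) hy0, ?_, fun P hP => ?_⟩
  · apply ordAt_eq_of_valuation
    rw [Units.val_mk0]
    exact (P₀.1.valuation_of_algebraMap (K := K) y).trans h0
  · rw [UnitsBridge24.ordAt_eq_zero_iff, Units.val_mk0]
    exact (P.1.valuation_of_algebraMap (K := K) y).trans (h1 P hP)

theorem ordQ_surjective : Function.Surjective (ordQ K q) := by
  classical
  have := Fintype.ofFinite (Sq K q)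
  intro f
  choose y hy using exists_ordAt_eq_single K q
  refine ⟨∏ P' : Sq K q, y P' ^ (Multiplicative.toAdd (f P')), ?_⟩
  funext P
  rw [map_prod, Finset.prod_apply]
  have : ∀ P' : Sq K q, (ordQ K q (y P' ^ (Multiplicative.toAdd (f P')))) P =
      if P = P' then f P' else 1 := by
    intro P'
    rw [map_zpow, Pi.pow_apply, ordQ_apply]
    by_cases h : P = P'
    · rw [if_pos h, h, (hy P').1, ← ofAdd_zsmul, smul_eq_mul, mul_one, ofAdd_toAdd]
    · rw [if_neg h, (hy P').2 P h, ofAdd_zero, one_zpow]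
  rw [Finset.prod_congr rfl (fun P' _ => this P'), Finset.prod_ite_eq]
  simp

/-- The kernel of `ordQ` is the preimage of `Λˣ`. -/
theorem ker_ordQ : (ordQ K q).ker = (jHom K q).range.comap (dHom K q) := by
  ext a
  rw [MonoidHom.mem_ker, Subgroup.mem_comap]
  constructor
  · intro h
    apply mem_range_of_ordAt_eq_zero
    intro P
    have := congrFun h P
    rw [ordQ_apply, Pi.one_apply, ofAdd_eq_one] at this
    exact this
  · intro h
    funext P
    rw [ordQ_apply, ordAt_eq_zero_of_mem_range K q a h P]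
    rfl

/-- **The order map on the semilocal units**: a surjective homomorphism
`(K ⊗ ℚ_q)ˣ → ℤ^{primes above q}` with kernel `Λˣ`, extending the orders of global elements. -/
theorem exists_ordHom :
    ∃ v : (K ⊗[ℚ] ℚ_[q])ˣ →* (Sq K q → Multiplicative ℤ), Function.Surjective v ∧
      v.ker = (jHom K q).range ∧ ∀ a : Kˣ, v (dHom K q a) = ordQ K q a :=
  exists_hom_of_cover (jHom K q).range (dHom K q) (exists_eq_mul K q) (ordQ K q)
    (ordQ_surjective K q) (ker_ordQ K q)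

/-- **Index of the `p`-th powers in `(K ⊗ ℚ_q)ˣ`** (`p` an odd prime), in terms of its
`p`-torsion: `[A : A^p] = p ^ #{P ∣ q} * (p ^ [K : ℚ] if q = p) * #A[p]`. -/
theorem index_powRange_loc {p : ℕ} (hp : p.Prime) (hp2 : p ≠ 2) :
    (powMonoidHom (α := (K ⊗[ℚ] ℚ_[q])ˣ) p).range.index =
      p ^ Nat.card (Sq K q) * (if q = p then p ^ Module.finrank ℚ K else 1) *
        Nat.card (powMonoidHom (α := (K ⊗[ℚ] ℚ_[q])ˣ) p).ker := by
  have : NeZero p := ⟨hp.ne_zero⟩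
  obtain ⟨v, hv, hker, -⟩ := exists_ordHom K q
  have htf : ∀ z : Sq K q → Multiplicative ℤ, z ^ p = 1 → z = 1 :=
    pow_eq_one_pi (Sq K q) p hp.ne_zero
  let e : (Lam' q K)ˣ ≃* v.ker :=
    (MonoidHom.ofInjective (jHom_injective K q)).trans (MulEquiv.subgroupCongr hker.symm)
  rw [index_powRange_of_exact p v hv htf, card_powKer_of_exact p v htf,
    index_powRange_congr (M := (Lam' q K)ˣ) (N := v.ker) p e,
    card_powKer_congr (M := (Lam' q K)ˣ) (N := v.ker) p e, index_powRange_pi,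
    index_powRange_lam q K hp hp2]
  ring

/-- The `p`-torsion of `(K ⊗ ℚ_q)ˣ` is that of `Λˣ`; in particular it is finite. -/
theorem card_powKer_loc {p : ℕ} (hp : p.Prime) :
    Nat.card (powMonoidHom (α := (K ⊗[ℚ] ℚ_[q])ˣ) p).ker =
      Nat.card (powMonoidHom (α := (Lam' q K)ˣ) p).ker := by
  obtain ⟨v, hv, hker, -⟩ := exists_ordHom K q
  have htf : ∀ z : Sq K q → Multiplicative ℤ, z ^ p = 1 → z = 1 :=
    pow_eq_one_pi (Sq K q) p hp.ne_zero
  let e : (Lam' q K)ˣ ≃* v.ker :=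
    (MonoidHom.ofInjective (jHom_injective K q)).trans (MulEquiv.subgroupCongr hker.symm)
  rw [card_powKer_of_exact p v htf, card_powKer_congr (M := (Lam' q K)ˣ) (N := v.ker) p e]

theorem finite_powKer_loc {p : ℕ} (hp : p.Prime) (hp2 : p ≠ 2) :
    Finite (powMonoidHom (α := (K ⊗[ℚ] ℚ_[q])ˣ) p).ker := by
  have := finite_powKer_lam q K hp hp2
  apply Nat.finite_of_card_ne_zero
  rw [card_powKer_loc K q hp]
  exact Nat.card_pos.ne'

end

end Fermat.Agent.PT.GLOB.LocUnits5
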