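/-
Program F (S55), chapter GLOB, leaf (GLOB-LPI) (helper5): `p`-th powers and `p`-torsion in a finite
product of commutative groups.

* `card_powKer_pi`: `#(∏ G_i)[p] = ∏ #G_i[p]`.
* `index_powRange_pi'`: `[∏ G_i : (∏ G_i)^p] = ∏ [G_i : G_i^p]`.
-/
import Mathlib

set_option autoImplicit false
set_option linter.unusedSectionVars false

namespace Fermat.Agent.PT.GLOB.PiPow5

variable {ι : Type*} [Fintype ι] (G : ι → Type*) [∀ i, CommGroup (G i)] (p : ℕ)

/-- The `p`-torsion of a product is the product of the `p`-torsions. -/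
def powKerPiEquiv :
    (powMonoidHom (α := ∀ i, G i) p).ker ≃ ∀ i, (powMonoidHom (α := G i) p).ker where
  toFun f i := ⟨f.1 i, by
    have := f.2
    rw [MonoidHom.mem_ker, powMonoidHom_apply] at this ⊢
    exact congrFun this i⟩
  invFun g := ⟨fun i => (g i).1, by
    rw [MonoidHom.mem_ker, powMonoidHom_apply]
    funext i
    have := (g i).2
    rw [MonoidHom.mem_ker, powMonoidHom_apply] at this
    exact this⟩
  left_inv f := rfl
  right_inv g := rfl

theorem card_powKer_pi :
    Nat.card (powMonoidHom (α := ∀ i, G i) p).ker =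
      ∏ i, Nat.card (powMonoidHom (α := G i) p).ker := by
  rw [Nat.card_congr (powKerPiEquiv G p), Nat.card_pi]

/-- The projection of a product to the product of the quotients modulo `p`-th powers. -/
def quotHom : (∀ i, G i) →* ∀ i, G i ⧸ (powMonoidHom (α := G i) p).range where
  toFun f i := QuotientGroup.mk (f i)
  map_one' := rfl
  map_mul' _ _ := rfl

theorem quotHom_surjective : Function.Surjective (quotHom G p) := by
  intro g
  choose f hf using fun i => QuotientGroup.mk_surjective (g i)
  exact ⟨f, funext hf⟩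

theorem ker_quotHom : (quotHom G p).ker = (powMonoidHom (α := ∀ i, G i) p).range := by
  ext f
  rw [MonoidHom.mem_ker]
  constructor
  · intro h
    have h1 : ∀ i, ∃ g : G i, g ^ p = f i := by
      intro i
      have := congrFun h i
      change (QuotientGroup.mk (f i) : G i ⧸ _) = 1 at this
      rw [QuotientGroup.eq_one_iff] at this
      obtain ⟨g, hg⟩ := this
      exact ⟨g, hg⟩
    choose g hg using h1
    exact ⟨g, funext hg⟩
  · rintro ⟨g, rfl⟩
    funext i
    change (QuotientGroup.mk ((g ^ p) i) : G i ⧸ _) = 1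
    rw [QuotientGroup.eq_one_iff]
    exact ⟨g i, rfl⟩

theorem index_powRange_pi' :
    (powMonoidHom (α := ∀ i, G i) p).range.index =
      ∏ i, (powMonoidHom (α := G i) p).range.index := by
  rw [← ker_quotHom, Subgroup.index_ker, MonoidHom.range_eq_top.mpr (quotHom_surjective G p),
    Nat.card_congr (Subgroup.topEquiv
      (G := ∀ i, G i ⧸ (powMonoidHom (α := G i) p).range)).toEquiv, Nat.card_pi]
  rfl

end Fermat.Agent.PT.GLOB.PiPow5
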