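/-
Program F (S55), chapter GLOB, leaf (GLOB-LPI) local `p`-power index, the `p`-torsion of
`(K ⊗[ℚ] ℚ_[q])ˣ` (helper5).

* `card_powKer_artinian`: for a reduced artinian ring whose residue fields contain a primitive
  `p`-th root of unity, `#Aˣ[p] = p ^ #MaxSpec A`.
* `maxSpecEquiv`: `MaxSpec (K ⊗ ℚ_q) ≃ {P ∣ q}` (from `PlaceBridge24`).
* `card_powKer_loc_eq`: `#(K ⊗ ℚ_q)ˣ[p] = p ^ #{P ∣ q}` if `ζ_p ∈ K`.
* `index_powRange_loc_eq`: `[(K ⊗ ℚ_q)ˣ : p-th powers] = p ^ (2 #{P ∣ q}) * (p ^ [K:ℚ] if q = p)`.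
-/
import Mathlib
import Fermat.Agent.PT.GLOB.PiPow5
import Fermat.Agent.PT.GLOB.LocUnits5

set_option autoImplicit false
set_option linter.unusedSectionVars false

namespace Fermat.Agent.PT.GLOB.LocTorsion5

open NumberField IsDedekindDomain HeightOneSpectrum
open scoped TensorProduct
open Fermat.Agent.PT.GLOB.LocalPowerIndex5 Fermat.Agent.PT.GLOB.PiPow5
open Fermat.Agent.PT.GLOB.LocUnits5 Fermat.Agent.PT.GLOB.PlaceBridge24

section Artinian

variable (A : Type*) [CommRing A] [IsArtinianRing A] [IsReduced A]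

theorem powKer_eq_rootsOfUnity (F : Type*) [CommRing F] (p : ℕ) :
    (powMonoidHom (α := Fˣ) p).ker = rootsOfUnity p F := by
  ext x
  rw [MonoidHom.mem_ker, powMonoidHom_apply, mem_rootsOfUnity]

/-- In a reduced artinian ring all of whose residue fields contain a primitive `p`-th root of
unity, the `p`-torsion of the unit group has order `p ^ #MaxSpec`. -/
theorem card_powKer_artinian (p : ℕ) [NeZero p]
    (h : ∀ m : MaximalSpectrum A, ∃ ζ : A ⧸ m.asIdeal, IsPrimitiveRoot ζ p) :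
    Nat.card (powMonoidHom (α := Aˣ) p).ker = p ^ Nat.card (MaximalSpectrum A) := by
  classical
  have := Fintype.ofFinite (MaximalSpectrum A)
  let e : Aˣ ≃* ∀ m : MaximalSpectrum A, (A ⧸ m.asIdeal)ˣ :=
    (Units.mapEquiv (IsArtinianRing.equivPi A).toMulEquiv).trans MulEquiv.piUnits
  rw [← card_powKer_congr (M := Aˣ) (N := ∀ m : MaximalSpectrum A, (A ⧸ m.asIdeal)ˣ) p e,
    card_powKer_pi]
  have h1 : ∀ m : MaximalSpectrum A,
      Nat.card (powMonoidHom (α := (A ⧸ m.asIdeal)ˣ) p).ker = p := by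
    intro m
    obtain ⟨ζ, hζ⟩ := h m
    rw [powKer_eq_rootsOfUnity]
    exact hζ.card_rootsOfUnity
  rw [Finset.prod_congr rfl (fun m _ => h1 m), Finset.prod_const, Finset.card_univ,
    Nat.card_eq_fintype_card]

end Artinian

noncomputable section

variable (K : Type) [Field K] [NumberField K] (q : ℕ) [Fact q.Prime]

instance isReduced_loc : IsReduced (K ⊗[ℚ] ℚ_[q]) := by
  have : Algebra.FormallyUnramified ℚ K := Algebra.FormallyUnramified.of_isSeparable ℚ K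
  have : Algebra.FormallyUnramified ℚ_[q] (ℚ_[q] ⊗[ℚ] K) := inferInstance
  have : IsReduced (ℚ_[q] ⊗[ℚ] K) :=
    Algebra.FormallyUnramified.isReduced_of_field ℚ_[q] (ℚ_[q] ⊗[ℚ] K)
  exact isReduced_of_injective (Algebra.TensorProduct.comm ℚ K ℚ_[q]).toRingEquiv.toRingHom
    (Algebra.TensorProduct.comm ℚ K ℚ_[q]).injective

/-- The maximal ideals of `K ⊗ ℚ_q` correspond to the primes of `𝓞 K` above `q`. -/
def maxSpecEquiv : MaximalSpectrum (K ⊗[ℚ] ℚ_[q]) ≃ Sq K q :=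
  (Equiv.ofInjective placeOf placeOf_injective).trans (Equiv.setCongr range_placeOf)

theorem card_maxSpec : Nat.card (MaximalSpectrum (K ⊗[ℚ] ℚ_[q])) = Nat.card (Sq K q) :=
  Nat.card_congr (maxSpecEquiv K q)

/-- `#(K ⊗ ℚ_q)ˣ[p] = p ^ #{P ∣ q}` if `ζ_p ∈ K`. -/
theorem card_powKer_loc_eq {p : ℕ} (hp : p.Prime) {ζ : K} (hζ : IsPrimitiveRoot ζ p) :
    Nat.card (powMonoidHom (α := (K ⊗[ℚ] ℚ_[q])ˣ) p).ker = p ^ Nat.card (Sq K q) := by
  have : NeZero p := ⟨hp.ne_zero⟩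
  rw [← card_maxSpec]
  apply card_powKer_artinian
  intro m
  let φ : K →+* (K ⊗[ℚ] ℚ_[q]) ⧸ m.asIdeal :=
    (Ideal.Quotient.mk m.asIdeal).comp
      (Algebra.TensorProduct.includeLeft : K →ₐ[ℚ] K ⊗[ℚ] ℚ_[q]).toRingHom
  exact ⟨φ ζ, hζ.map_of_injective φ.injective⟩

/-- **The local `p`-power index**: `[(K ⊗ ℚ_q)ˣ : p-th powers] = p ^ (2 #{P ∣ q}) * (p ^ [K:ℚ]` if
`q = p)` for an odd prime `p` with `ζ_p ∈ K`. -/
theorem index_powRange_loc_eq {p : ℕ} (hp : p.Prime) (hp2 : p ≠ 2) {ζ : K}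
    (hζ : IsPrimitiveRoot ζ p) :
    (powMonoidHom (α := (K ⊗[ℚ] ℚ_[q])ˣ) p).range.index =
      p ^ (2 * Nat.card (Sq K q)) * (if q = p then p ^ Module.finrank ℚ K else 1) := by
  rw [index_powRange_loc K q hp hp2, card_powKer_loc_eq K q hp hζ]
  ring

end

end Fermat.Agent.PT.GLOB.LocTorsion5
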