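/-
Program F (S55, Poitou–Tate), chapter GLOB, leaf (L1-KIT) (row 434), helper18.

Field kit for `LocalInjDefs14.localInjectivity_core` over `ℚ`: for a Galois number field `L/ℚ`
unramified outside `S ∋ p` and a cyclotomic field `Z = ℚ(ζ_{p^r})` (any model: a type with
`[Algebra ℚ Z] [IsCyclotomicExtension {p^r} ℚ Z]`), the field

  `N := L(ζ_{p^r}) = CyclotomicField (p^r) L`

is a number field, Galois over `ℚ`, unramified outside `S`, and receives `L` (canonically) and `Z`
(hence every subfield `B ⊆ Z`, e.g. the cyclic `p`-layer `CycloPLayer22.pLayer p r ℚ Z`).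

* `embZ` : `Z →+* N`, `algebraZ`, `algebraSub B` (for `B : IntermediateField ℚ Z`);
* `isGalois_rat_congr18`, `isUnramifiedOutside_rat_congr18` : the `ℚ`-algebra diamond
  (all `ℚ`-algebra structures on a ring agree);
* `isGalois_N`, `isUnramifiedOutside_N` (for the `Algebra ℚ N` found by instance search);
* `exists_kit` : the packaged existence statement (L1-KIT).
-/
import Fermat.Agent.PT.GLOB.OmegaField23
import Fermat.Agent.PT.GLOB.CycloPLayer22

set_option autoImplicit false
set_option linter.unusedSectionVars false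
set_option linter.style.haveILetI false

namespace Fermat.Agent.PT.GLOB.LocalInjKit18

open NumberField Polynomial
open Fermat.Agent.PT.GLOB.Interface23

noncomputable section

/-! ### The `ℚ`-algebra diamond -/

/-- All `ℚ`-algebra structures on a ring agree: transport of `IsGalois`. -/
theorem isGalois_rat_congr18 {F : Type*} [Field F] (a b : Algebra ℚ F)
    (h : @IsGalois ℚ _ F _ a) : @IsGalois ℚ _ F _ b := by
  have hab : a = b := Subsingleton.elim _ _
  subst hab
  exact h

/-- All `ℚ`-algebra structures on a ring agree: transport of `IsUnramifiedOutside`. -/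
theorem isUnramifiedOutside_rat_congr18 (S : Finset Nat.Primes) {F : Type} [Field F]
    (a b : Algebra ℚ F) (h : @IsUnramifiedOutside S ℚ F _ _ a) :
    @IsUnramifiedOutside S ℚ F _ _ b := by
  have hab : a = b := Subsingleton.elim _ _
  subst hab
  exact h

/-! ### The field `N = L(ζ_{p^r})` -/

section Kit

variable (S : Finset Nat.Primes) (p : Nat.Primes) (r : ℕ) [NeZero ((p : ℕ) ^ r)]
variable (L : Type) [Field L] [NumberField L]
variable (Z : Type) [Field Z] [Algebra ℚ Z] [IsCyclotomicExtension {(p : ℕ) ^ r} ℚ Z]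

/-- `N = L(ζ_{p^r})`. -/
abbrev NField : Type := CyclotomicField ((p : ℕ) ^ r) L

/-- `X^{p^r} - 1` splits in `N`. -/
theorem splits_N :
    ((X ^ ((p : ℕ) ^ r) - 1 : ℚ[X]).map (algebraMap ℚ (NField p r L))).Splits := by
  have h := IsCyclotomicExtension.splits_X_pow_sub_one (n := (p : ℕ) ^ r)
    (S := {(p : ℕ) ^ r}) L (NField p r L) (Set.mem_singleton _)
  have e1 : (X ^ ((p : ℕ) ^ r) - 1 : ℚ[X]).map (algebraMap ℚ (NField p r L)) =
      (X ^ ((p : ℕ) ^ r) - 1 : (NField p r L)[X]) := by
    rw [Polynomial.map_sub, Polynomial.map_pow, Polynomial.map_X, Polynomial.map_one]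
  have e2 : (X ^ ((p : ℕ) ^ r) - 1 : L[X]).map (algebraMap L (NField p r L)) =
      (X ^ ((p : ℕ) ^ r) - 1 : (NField p r L)[X]) := by
    rw [Polynomial.map_sub, Polynomial.map_pow, Polynomial.map_X, Polynomial.map_one]
  rw [e1, ← e2]
  exact h

/-- The embedding `Z = ℚ(ζ_{p^r}) → N = L(ζ_{p^r})`. -/
def embZ : Z →+* NField p r L :=
  haveI := IsCyclotomicExtension.isSplittingField_X_pow_sub_one ((p : ℕ) ^ r) ℚ Z
  (IsSplittingField.lift Z (X ^ ((p : ℕ) ^ r) - 1 : ℚ[X]) (splits_N p r L)).toRingHom

/-- `N` as a `Z`-algebra. -/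
@[instance_reducible] def algebraZ : Algebra Z (NField p r L) := (embZ p r L Z).toAlgebra

/-- `N` as an algebra over a subfield `B ⊆ Z`. -/
@[instance_reducible] def algebraSub (B : IntermediateField ℚ Z) : Algebra B (NField p r L) :=
  ((embZ p r L Z).comp (algebraMap B Z)).toAlgebra

theorem algebraMap_sub_apply (B : IntermediateField ℚ Z) (b : B) :
    @algebraMap B (NField p r L) _ _ (algebraSub p r L Z B) b = embZ p r L Z (b : Z) := rfl

variable [IsGalois ℚ L]

/-- `N/ℚ` is Galois (for the `ℚ`-algebra structure found by instance search). -/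
theorem isGalois_N : IsGalois ℚ (NField p r L) :=
  isGalois_rat_congr18 _ _ (OmegaField23.isGalois_cyclotomicField ℚ L ((p : ℕ) ^ r))

/-- `N/ℚ` is unramified outside `S ∋ p` if `L/ℚ` is. -/
theorem isUnramifiedOutside_N (hpS : p ∈ S) (hun : IsUnramifiedOutside S ℚ L) :
    IsUnramifiedOutside S ℚ (NField p r L) :=
  isUnramifiedOutside_rat_congr18 S _ _
    (OmegaField23.isUnramifiedOutside_cyclotomicField ℚ L S p r hpS hun)

include r in
/-- **(L1-KIT)**: a number field `N ⊇ L, B`, Galois over `ℚ`, unramified outside `S`. -/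
theorem exists_kit (hpS : p ∈ S) (hun : IsUnramifiedOutside S ℚ L) (B : IntermediateField ℚ Z) :
    ∃ (N : Type) (_ : Field N) (_ : NumberField N) (_ : Algebra L N) (_ : Algebra B N)
      (_ : IsGalois ℚ N), IsUnramifiedOutside S ℚ N :=
  ⟨NField p r L, inferInstance, inferInstance, inferInstance, algebraSub p r L Z B,
    isGalois_N p r L, isUnramifiedOutside_N S p r L hpS hun⟩

end Kit

end

end Fermat.Agent.PT.GLOB.LocalInjKit18
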