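/-
Program F (S55, Poitou–Tate), chapter GLOB, leaf L1-(2a) (helper19).

**Hilbert 90 for semilocal algebras** (abstract form, Mathlib only).

`E` a field, `N` a finite group acting faithfully on `E` by ring automorphisms, `A` a commutative
Artinian ring which is an algebra over an INFINITE field `R`, with an action of `N` by `R`-linear
ring automorphisms, and an `N`-equivariant ring homomorphism `ι : E → A`.  Then every 1-cocycle
`f : N → Aˣ` is a coboundary: there is a unit `b` with `σ • b = (f σ)⁻¹ * b`.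

(Application: `E = L'`, `N = Gal(L'/L)`, `A = L' ⊗_ℚ ℚ_q`, `R = ℚ_q`, `ι = (· ⊗ 1)`.)

Proof: Poincaré series `b(c) = ∑_τ f(τ) · τ(c)`; modulo each of the finitely many maximal ideals
`m` of `A` the `R`-linear map `c ↦ b(c) mod m` is non-zero by Dedekind's independence of the
characters `y ↦ ι(τ y) mod m` of `Eˣ`; a vector space over an infinite field is not a finite union
of proper subspaces, so some `b(c)` avoids all maximal ideals, i.e. is a unit.
-/
import Mathlib

set_option autoImplicit false
set_option linter.unusedSectionVars false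
set_option linter.style.longLine false
set_option linter.style.haveILetI false

namespace Fermat.Agent.PT.GLOB.SemilocalH90_19

open scoped BigOperators

variable {N E A R : Type*} [Group N] [Fintype N] [Field E] [CommRing A] [Field R] [Algebra R A]
  [MulSemiringAction N E] [MulSemiringAction N A]

/-- The action of `τ` as an `R`-linear map. -/
def smulLin (hlin : ∀ (τ : N) (r : R) (a : A), τ • (r • a) = r • (τ • a)) (τ : N) : A →ₗ[R] A where
  toFun a := τ • a
  map_add' := smul_add τ
  map_smul' r a := hlin τ r a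

/-- The Poincaré series `c ↦ ∑_τ f(τ) · τ(c)` as an `R`-linear map. -/
def poincare (hlin : ∀ (τ : N) (r : R) (a : A), τ • (r • a) = r • (τ • a)) (f : N → Aˣ) :
    A →ₗ[R] A :=
  ∑ τ : N, (LinearMap.mulLeft R ((f τ : Aˣ) : A)).comp (smulLin hlin τ)

theorem poincare_apply (hlin : ∀ (τ : N) (r : R) (a : A), τ • (r • a) = r • (τ • a))
    (f : N → Aˣ) (c : A) : poincare hlin f c = ∑ τ : N, ((f τ : Aˣ) : A) * τ • c := by
  rw [poincare, LinearMap.sum_apply]
  rfl

/-- The transformation rule of the Poincaré series under the action. -/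
theorem smul_poincare (hlin : ∀ (τ : N) (r : R) (a : A), τ • (r • a) = r • (τ • a))
    (f : N → Aˣ) (hf : ∀ σ τ : N, ((f (σ * τ) : Aˣ) : A) = (f σ : A) * σ • ((f τ : Aˣ) : A))
    (σ : N) (c : A) :
    σ • poincare hlin f c = (((f σ)⁻¹ : Aˣ) : A) * poincare hlin f c := by
  rw [poincare_apply, Finset.smul_sum, Finset.mul_sum]
  rw [← Equiv.sum_comp (Equiv.mulLeft σ) (fun τ => (((f σ)⁻¹ : Aˣ) : A) * (((f τ : Aˣ) : A) * τ • c))]
  refine Finset.sum_congr rfl fun τ _ => ?_
  rw [Equiv.coe_mulLeft, hf σ τ, smul_mul', mul_smul, ← mul_assoc, ← mul_assoc,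
    Units.inv_mul, one_mul]

/-- **Semilocal Hilbert 90** (abstract form). -/
theorem exists_unit_smul_eq [Infinite R] [IsArtinianRing A] [FaithfulSMul N E]
    (ι : E →+* A) (hι : ∀ (τ : N) (y : E), ι (τ • y) = τ • ι y)
    (hlin : ∀ (τ : N) (r : R) (a : A), τ • (r • a) = r • (τ • a))
    (f : N → Aˣ) (hf : ∀ σ τ : N, ((f (σ * τ) : Aˣ) : A) = (f σ : A) * σ • ((f τ : Aˣ) : A)) :
    ∃ b : Aˣ, ∀ σ : N, σ • (b : A) = (((f σ)⁻¹ : Aˣ) : A) * b := by
  classical
  -- the kernels of `c ↦ b(c) mod m`
  let V : MaximalSpectrum A → Subspace R A := fun m =>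
    { carrier := {c | poincare hlin f c ∈ m.asIdeal}
      add_mem' := by
        intro a b ha hb
        show poincare hlin f (a + b) ∈ m.asIdeal
        rw [map_add]
        exact m.asIdeal.add_mem ha hb
      zero_mem' := by
        show poincare hlin f 0 ∈ m.asIdeal
        rw [map_zero]
        exact m.asIdeal.zero_mem
      smul_mem' := by
        intro r a ha
        show poincare hlin f (r • a) ∈ m.asIdeal
        rw [map_smul, Algebra.smul_def]
        exact m.asIdeal.mul_mem_left _ ha }
  have hV : ∀ m, V m ≠ ⊤ := by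
    intro m htop
    haveI := m.isMaximal
    letI : Field (A ⧸ m.asIdeal) := Ideal.Quotient.field m.asIdeal
    let mk : A →+* A ⧸ m.asIdeal := Ideal.Quotient.mk m.asIdeal
    -- the characters
    let χ : N → (E →* A ⧸ m.asIdeal) := fun τ =>
      ((mk.comp ι).comp (MulSemiringAction.toRingHom N E τ) : E →+* A ⧸ m.asIdeal)
    have hχ : ∀ τ y, χ τ y = mk (ι (τ • y)) := fun τ y => rfl
    have hinj : Function.Injective (mk.comp ι) := RingHom.injective _
    have hχinj : Function.Injective χ := by
      intro τ τ' h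
      apply FaithfulSMul.eq_of_smul_eq_smul (α := E)
      intro y
      apply hinj
      have := DFunLike.congr_fun h y
      rw [hχ, hχ] at this
      exact this
    have hli : LinearIndependent (A ⧸ m.asIdeal)
        (fun τ : N => ((χ τ : E →* A ⧸ m.asIdeal) : E → A ⧸ m.asIdeal)) :=
      (linearIndependent_monoidHom E (A ⧸ m.asIdeal)).comp χ hχinj
    have hzero : ∑ τ : N, mk ((f τ : Aˣ) : A) • ((χ τ : E →* A ⧸ m.asIdeal) : E → A ⧸ m.asIdeal)
        = 0 := by
      funext y
      rw [Finset.sum_apply, Pi.zero_apply]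
      have hy : ι y ∈ V m := htop ▸ Submodule.mem_top
      have hy' : poincare hlin f (ι y) ∈ m.asIdeal := hy
      rw [poincare_apply] at hy'
      have := Ideal.Quotient.eq_zero_iff_mem.mpr hy'
      rw [map_sum] at this
      rw [← this]
      refine Finset.sum_congr rfl fun τ _ => ?_
      rw [Pi.smul_apply, smul_eq_mul, hχ, map_mul, hι]
    have h1 := Fintype.linearIndependent_iff.mp hli (fun τ => mk ((f τ : Aˣ) : A)) hzero 1
    have h2 : ((f 1 : Aˣ) : A) ∈ m.asIdeal := Ideal.Quotient.eq_zero_iff_mem.mp h1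
    exact m.isMaximal.ne_top (Ideal.eq_top_of_isUnit_mem _ h2 (f 1).isUnit)
  -- a point outside all the kernels
  obtain ⟨c, hc⟩ : ∃ c : A, ∀ m : MaximalSpectrum A, poincare hlin f c ∉ m.asIdeal := by
    by_contra hcon
    have hcon : ∀ c : A, ∃ m : MaximalSpectrum A, poincare hlin f c ∈ m.asIdeal := by
      intro c
      by_contra hc
      exact hcon ⟨c, fun m hm => hc ⟨m, hm⟩⟩
    have hcov : ⋃ m, ((V m : Subspace R A) : Set A) = Set.univ := by
      rw [Set.eq_univ_iff_forall]
      intro c
      obtain ⟨m, hm⟩ := hcon c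
      exact Set.mem_iUnion.mpr ⟨m, hm⟩
    obtain ⟨m, hm⟩ := Subspace.exists_eq_top_of_iUnion_eq_univ hcov
    exact hV m hm
  have hunit : IsUnit (poincare hlin f c) := by
    by_contra hnu
    obtain ⟨I, hI, hmem⟩ := exists_max_ideal_of_mem_nonunits hnu
    exact hc ⟨I, hI⟩ hmem
  refine ⟨hunit.unit, fun σ => ?_⟩
  rw [IsUnit.unit_spec]
  exact smul_poincare hlin f hf σ c

end Fermat.Agent.PT.GLOB.SemilocalH90_19
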