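/-
Program F (S55, Poitou–Tate), chapter GLOB, leaf L1-(2) (helper19): **tower reduction for the
local injectivity (L1)**.

* `exists_unit_of_cocycle`, `h1Vanishes_repLoc` : SEMILOCAL HILBERT 90:
  `H¹(Gal(L'/L), (L' ⊗ ℚ_q)ˣ) = 0` for arbitrary number fields `L ⊂ L'` (no Galois hypothesis);
* `infHomLoc`, `infH2Loc` : inflation `H²(Gal(L/K), (L ⊗ ℚ_q)ˣ) → H²(Gal(L'/K), (L' ⊗ ℚ_q)ˣ)`,
  `infH2Loc_injective`;
* `pushH_locToCTRep_infH2Loc` : the square with `InterfaceCF23.infH2CT` and the maps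
  `(j_q)_* = pushH 2 (locToCTRep S K · q)`;
* `localInj_of_tower` : (L1) for `L'` implies (L1) for `L ⊂ L'`.
-/
import Mathlib
import Fermat.Agent.PT.GLOB.SemilocalH90_19
import Fermat.Agent.PT.GLOB.InterfaceCF23
import Fermat.Agent.PT.GLOB.TowerMaps6
import Fermat.Agent.PT.GLOB.PlaceBridge24
import Fermat.Agent.PT.GLOB.Devissage19
import Fermat.Agent.PT.FG.InfResFlex19

set_option autoImplicit false
set_option linter.unusedSectionVars false
set_option linter.style.longLine false
set_option linter.style.haveILetI false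

open CategoryTheory groupCohomology NumberField
open scoped TensorProduct

namespace Fermat.Agent.PT.GLOB.LocalInjTower19

open Fermat.Agent.PT.FG.InfResFlex19 Fermat.Agent.PT.FG.Interface8
open Fermat.Agent.PT.GLOB.Interface23 Fermat.Agent.PT.GLOB.ClassAction23
  Fermat.Agent.PT.GLOB.Tower23 Fermat.Agent.PT.GLOB.InterfaceCF23
  Fermat.Agent.PT.GLOB.Devissage19 Fermat.Agent.PT.GLOB.TowerMaps6

noncomputable section

/-! ### Semilocal Hilbert 90 -/

section H90

variable (L L' : Type) [Field L] [Field L'] [NumberField L] [NumberField L'] [Algebra L L']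
  (q : Nat.Primes)

/-- **Semilocal Hilbert 90**, multiplicative form: every 1-cocycle of `Gal(L'/L)` with values in
`(L' ⊗ ℚ_q)ˣ` is a coboundary. -/
theorem exists_unit_of_cocycle (f : (L' ≃ₐ[L] L') → (Loc L' q)ˣ)
    (hf : ∀ σ τ : L' ≃ₐ[L] L', f (σ * τ) = f σ * σ • f τ) :
    ∃ a : (Loc L' q)ˣ, ∀ σ : L' ≃ₐ[L] L', f σ = σ • a / a := by
  letI : Algebra ℚ_[(q : ℕ)] (Loc L' q) :=
    Algebra.TensorProduct.rightAlgebra (R := ℚ) (A := L') (B := ℚ_[(q : ℕ)])
  have hlin : ∀ (τ : L' ≃ₐ[L] L') (r : ℚ_[(q : ℕ)]) (a : Loc L' q), τ • (r • a) = r • (τ • a) := by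
    intro τ r a
    have h1 : τ • ((1 : L') ⊗ₜ[ℚ] r : Loc L' q) = (1 : L') ⊗ₜ[ℚ] r := by
      rw [smul_tmul', map_one]
    calc τ • (r • a) = τ • (((1 : L') ⊗ₜ[ℚ] r : Loc L' q) * a) := rfl
      _ = τ • ((1 : L') ⊗ₜ[ℚ] r : Loc L' q) * τ • a := smul_mul' τ _ a
      _ = ((1 : L') ⊗ₜ[ℚ] r : Loc L' q) * τ • a := by rw [h1]
      _ = r • (τ • a) := rfl
  have hι : ∀ (τ : L' ≃ₐ[L] L') (y : L'),
      (Algebra.TensorProduct.includeLeft : L' →ₐ[ℚ] Loc L' q).toRingHom (τ • y) =
        τ • (Algebra.TensorProduct.includeLeft : L' →ₐ[ℚ] Loc L' q).toRingHom y := by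
    intro τ y
    change (τ y) ⊗ₜ[ℚ] (1 : ℚ_[(q : ℕ)]) = τ • (y ⊗ₜ[ℚ] (1 : ℚ_[(q : ℕ)]))
    rw [smul_tmul']
  have hf' : ∀ σ τ : L' ≃ₐ[L] L', ((f (σ * τ) : (Loc L' q)ˣ) : Loc L' q) =
      (f σ : Loc L' q) * σ • ((f τ : (Loc L' q)ˣ) : Loc L' q) := by
    intro σ τ
    rw [hf σ τ, Units.val_mul]
    rfl
  obtain ⟨b, hb⟩ := SemilocalH90_19.exists_unit_smul_eq (R := ℚ_[(q : ℕ)])
    (Algebra.TensorProduct.includeLeft : L' →ₐ[ℚ] Loc L' q).toRingHom hι hlin f hf'
  refine ⟨b⁻¹, fun σ => ?_⟩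
  have h1 : σ • b = (f σ)⁻¹ * b := Units.ext (hb σ)
  rw [smul_inv', h1, mul_inv, inv_inv, div_eq_mul_inv, inv_inv, mul_assoc, inv_mul_cancel, mul_one]

/-- **Semilocal Hilbert 90**: `H¹(Gal(L'/L), (L' ⊗ ℚ_q)ˣ) = 0`. -/
theorem h1Vanishes_repLoc : H1Vanishes (repLoc L L' q) := by
  intro f
  have hcoc := (mem_cocycles₁_iff (f : (L' ≃ₐ[L] L') → (repLoc L L' q).V)).mp f.2
  obtain ⟨a, ha⟩ := exists_unit_of_cocycle L L' q
    (fun σ => (Additive.toMul (f σ : Additive (Loc L' q)ˣ) : (Loc L' q)ˣ)) (by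
    intro σ τ
    have := hcoc σ τ
    change (Additive.toMul (f (σ * τ) : Additive (Loc L' q)ˣ) : (Loc L' q)ˣ) =
      (Additive.toMul (f σ : Additive (Loc L' q)ˣ) : (Loc L' q)ˣ) *
        σ • (Additive.toMul (f τ : Additive (Loc L' q)ˣ) : (Loc L' q)ˣ)
    rw [mul_comm]
    exact congrArg Additive.toMul this)
  refine ⟨Additive.ofMul a, fun σ => ?_⟩
  exact congrArg Additive.ofMul (ha σ)

theorem subsingleton_H1_repLoc : Subsingleton (H1 (repLoc L L' q)) :=
  (h1Vanishes_iff_subsingleton _).mp (h1Vanishes_repLoc L L' q)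

end H90

/-! ### Inflation for the semilocal units -/

section Inf

variable (S : Finset Nat.Primes)
variable (K L L' : Type) [Field K] [Field L] [Field L'] [NumberField K] [NumberField L]
  [NumberField L'] [Algebra K L] [Algebra L L'] [Algebra K L'] [IsScalarTower K L L']
  [IsGalois K L] [IsGalois K L'] (q : Nat.Primes)

/-- The tower map `(L ⊗ ℚ_q)ˣ → (L' ⊗ ℚ_q)ˣ`. -/
def locUp : (Loc L q)ˣ →* (Loc L' q)ˣ := Units.map (locMap L L' q).toMonoidHom

theorem coe_locUp (u : (Loc L q)ˣ) :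
    ((locUp L L' q u : (Loc L' q)ˣ) : Loc L' q) = locMap L L' q (u : Loc L q) := rfl

theorem locUp_injective : Function.Injective (locUp L L' q) := by
  intro u v h
  apply Units.ext
  apply locMap_injective L L' q
  exact congrArg Units.val h

theorem locUp_smul (σ : L' ≃ₐ[K] L') (u : (Loc L q)ˣ) :
    locUp L L' q ((σ.restrictNormal L) • u) = σ • locUp L L' q u := by
  apply Units.ext
  exact locMap_smul K L L' q σ (u : Loc L q)

/-- The morphism of representations underlying inflation for the semilocal units. -/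
def infHomLoc : Rep.res (AlgEquiv.restrictNormalHom (F := K) (K₁ := L') L) (repLoc K L q) ⟶
    repLoc K L' q :=
  Rep.ofHom ⟨(locUp L L' q).toAdditive.toIntLinearMap, fun σ =>
    LinearMap.ext fun u => congrArg Additive.ofMul (locUp_smul K L L' q σ (Additive.toMul u))⟩

theorem infHomLoc_hom_apply (u : repLoc K L q) :
    (infHomLoc K L L' q).hom u = Additive.ofMul (locUp L L' q (Additive.toMul u)) := rfl

/-- Inflation `H²(Gal(L/K), (L ⊗ ℚ_q)ˣ) → H²(Gal(L'/K), (L' ⊗ ℚ_q)ˣ)`. -/
def infH2Loc : H2 (repLoc K L q) ⟶ H2 (repLoc K L' q) :=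
  groupCohomology.map (AlgEquiv.restrictNormalHom (F := K) (K₁ := L') L) (infHomLoc K L L' q) 2

/-- The action of `Gal(L'/L)` on `(L' ⊗ ℚ_q)ˣ` is the restriction of the action of `Gal(L'/K)`. -/
theorem restrictScalars_smul_loc (τ : L' ≃ₐ[L] L') (u : (Loc L' q)ˣ) :
    (τ.restrictScalars K) • u = τ • u := by
  apply Units.ext
  change (τ.restrictScalars K) • (u : Loc L' q) = τ • (u : Loc L' q)
  generalize (u : Loc L' q) = z
  induction z using TensorProduct.induction_on with
  | zero => rw [smul_zero, smul_zero]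
  | tmul x r => rw [smul_tmul', smul_tmul']; rfl
  | add a b ha hb => rw [smul_add, smul_add, ha, hb]

/-- `ψ : res ι ((L' ⊗ ℚ_q)ˣ as Gal(L'/K)-module) ⟶ (L' ⊗ ℚ_q)ˣ as Gal(L'/L)-module`. -/
def psiHomLoc : Rep.res (iotaHom K L L') (repLoc K L' q) ⟶ repLoc L L' q :=
  Rep.ofHom (ρ := (repLoc K L' q).ρ.comp (iotaHom K L L')) (σ := (repLoc L L' q).ρ)
    ⟨LinearMap.id, fun τ => LinearMap.ext fun a =>
      congrArg Additive.ofMul (restrictScalars_smul_loc K L L' q τ (Additive.toMul a))⟩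

/-- **Inflation is injective on `H²` of the semilocal units** (semilocal Hilbert 90). -/
theorem infH2Loc_injective : Function.Injective (infH2Loc K L L' q) := by
  have hπ : Function.Surjective (piHom K L L') := AlgEquiv.restrictNormalHom_surjective L'
  have hex := range_iotaHom_eq_ker_piHom K L L'
  haveI : IsGalois L L' := IsGalois.tower_top_of_isGalois K L L'
  refine map_inf_injective (iotaHom K L L') (piHom K L L') hπ hex (repLoc K L q) (repLoc K L' q)
    (repLoc L L' q) (infHomLoc K L L' q) (psiHomLoc K L L' q) Function.bijective_id ?_ ?_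
    (h1Vanishes_repLoc L L' q)
  · intro u v h
    exact congrArg Additive.ofMul (locUp_injective L L' q (congrArg Additive.toMul h))
  · intro a ha
    obtain ⟨v, hv⟩ := exists_units_locMap_eq_of_fixed L L' q (Additive.toMul a) (fun τ => by
      rw [← restrictScalars_smul_loc K L L' q τ]
      exact congrArg Additive.toMul (ha τ))
    exact ⟨Additive.ofMul v, congrArg Additive.ofMul hv⟩

/-! ### The square with the idele class groups -/

variable [DecidableEq S]

theorem inclI_mulSingle (r : S) (u : (Loc L r.1)ˣ) :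
    inclI S L L' (Pi.mulSingle r u) = Pi.mulSingle r (locUp L L' r.1 u) := by
  funext t
  by_cases h : t = r
  · subst h
    rw [Pi.mulSingle_eq_same]
    apply Units.ext
    rw [inclI_apply, Pi.mulSingle_eq_same]
    rfl
  · rw [Pi.mulSingle_eq_of_ne h]
    apply Units.ext
    rw [inclI_apply, Pi.mulSingle_eq_of_ne h, Units.val_one, Units.val_one, map_one]

/-- The tower maps are compatible with the embeddings of the `q`-components. -/
theorem inclCT_locToCT (r : S) (u : (Loc L r.1)ˣ) :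
    inclCT S L L' (locToCT S r u) = locToCT S r (locUp L L' r.1 u) := by
  change inclCT S L L' (toCT S L (locToJT S r u)) = toCT S L' (locToJT S r (locUp L L' r.1 u))
  rw [inclCT_toCT]
  congr 1
  refine Prod.ext ?_ ?_
  · exact inclI_mulSingle S L L' r u
  · change inclDiv S L L' 1 = 1
    exact map_one _

/-- **The square**: inflation commutes with the maps `(j_q)_*`. -/
theorem pushH_locToCTRep_infH2Loc (r : S) (x : H2 (repLoc K L r.1)) :
    pushH 2 (locToCTRep S K L' r) (infH2Loc K L L' r.1 x) =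
      infH2CT S K L L' (pushH 2 (locToCTRep S K L r) x) := by
  induction x using H2_induction_on with
  | h x =>
    have h1 : infH2Loc K L L' r.1 (H2π _ x) =
        H2π _ (mapCocycles₂ (AlgEquiv.restrictNormalHom (F := K) (K₁ := L') L)
          (infHomLoc K L L' r.1) x) := H2π_comp_map_apply _ _ x
    have h2 : pushH 2 (locToCTRep S K L r) (H2π _ x) =
        H2π _ (mapCocycles₂ (MonoidHom.id _) (locToCTRep S K L r) x) := H2π_comp_map_apply _ _ x
    rw [h1, h2]
    have h3 : pushH 2 (locToCTRep S K L' r) (H2π _ (mapCocycles₂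
        (AlgEquiv.restrictNormalHom (F := K) (K₁ := L') L) (infHomLoc K L L' r.1) x)) =
        H2π _ (mapCocycles₂ (MonoidHom.id _) (locToCTRep S K L' r) (mapCocycles₂
          (AlgEquiv.restrictNormalHom (F := K) (K₁ := L') L) (infHomLoc K L L' r.1) x)) :=
      H2π_comp_map_apply _ _ _
    have h4 : infH2CT S K L L' (H2π _ (mapCocycles₂ (MonoidHom.id _) (locToCTRep S K L r) x)) =
        H2π _ (mapCocycles₂ (AlgEquiv.restrictNormalHom (F := K) (K₁ := L') L)
          (infHomCT S K L L') (mapCocycles₂ (MonoidHom.id _) (locToCTRep S K L r) x)) :=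
      H2π_comp_map_apply _ _ _
    rw [h3, h4]
    congr 1
    apply cocycles₂_ext
    intro σ τ
    exact congrArg Additive.ofMul (inclCT_locToCT S L L' r (Additive.toMul
      (x (AlgEquiv.restrictNormalHom L σ, AlgEquiv.restrictNormalHom L τ)))).symm

/-- **Tower reduction for (L1)**: local injectivity for `L'` implies local injectivity for
`L ⊂ L'`. -/
theorem localInj_of_tower (p : ℕ) (r : S)
    (h' : ∀ x' : H2 (repLoc K L' r.1), p • x' = 0 →
      pushH 2 (locToCTRep S K L' r) x' = 0 → x' = 0)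
    (x : H2 (repLoc K L r.1)) (hpx : p • x = 0)
    (hx : pushH 2 (locToCTRep S K L r) x = 0) : x = 0 := by
  apply infH2Loc_injective K L L' r.1
  rw [map_zero]
  apply h'
  · rw [← map_nsmul, hpx, map_zero]
  · rw [pushH_locToCTRep_infH2Loc, hx, map_zero]

end Inf

end

end Fermat.Agent.PT.GLOB.LocalInjTower19
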