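/-
Program F (S55, Poitou–Tate), chapter GLOB, leaf (L1) input 1 (helper22).

**The explicit non-norm class on a cyclic cyclotomic layer.**  For `p ∈ S` odd and `q ∈ S` there is
a cyclic `p`-layer `B/ℚ` of some `ℚ(ζ_{p^r})` and `a₀ ∈ (ℚ ⊗ ℚ_q)ˣ` whose `p`-th power is a local
norm from `(B ⊗ ℚ_q)ˣ` while the idele class `[a₀ at q]` is not a norm from `CT S B`:

* `cyc_locToJT_of_ne`, `cyc_locToJT_self` : the explicit cyclotomic character on an idele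
  concentrated at one component;
* `toCT_notMem_normSubCT` : `cyc(j)^(p-1) ≠ 1 mod p^r` ⇒ `[j]` is not a norm from the `p`-layer of
  `ℚ(ζ_{p^r})` (from `CycRecOmega22.comap_normSubCT_le`);
* `nonNorm_of_ne` (`q ≠ p`: `r = v_p(q^(p-1)-1)+1`, `a₀ = q`, local norm by helper17's
  `LocalPTorsion17`), `nonNorm_self` (`q = p`: `r = 2`, `a₀ = 1 + p`);
* `nonNormInput : LocalInjFinal14.NonNormInput p S` (helper14's literal shape).
-/
import Mathlib
import Fermat.Agent.PT.GLOB.CycRecOmega22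
import Fermat.Agent.PT.GLOB.LocalInjFinal14
import Fermat.Agent.PT.GLOB.LocalPTorsion17

set_option autoImplicit false
set_option linter.style.haveILetI false
set_option linter.unusedSectionVars false

open NumberField
open scoped TensorProduct

namespace Fermat.Agent.PT.GLOB.LocalNonNorm22

open Fermat.Agent.PT.GLOB.Interface23 Fermat.Agent.PT.GLOB.CycChar22
open Fermat.Agent.PT.GLOB.InterfaceCF23 Fermat.Agent.PT.GLOB.CycloPLayer22
open Fermat.Agent.PT.GLOB.NormSubCT23 Fermat.Agent.PT.GLOB.CycRecOmega22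
open Fermat.Agent.PT.GLOB.CycRec22 Fermat.Agent.PT.GLOB.LocalInjDefs14
open Fermat.Agent.PT.GLOB.Tower23

section CycLocal

variable (S : Finset Nat.Primes) [DecidableEq S] (K : Type*) [Field K] [NumberField K]
  (p : Nat.Primes) (r : ℕ)

/-- The idelic part of `cyc` on an idele concentrated at `q ≠ p`. -/
theorem cycI_mulSingle_of_ne (hpS : p ∈ S) (q : S) (hq : q.1 ≠ p) (u : (Loc K q.1)ˣ) :
    cycI S K p r hpS (Pi.mulSingle q u) = qPart K p r q.1 u := by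
  rw [cycI, MonoidHom.mul_apply, MonoidHom.inv_apply, MonoidHom.finsetProd_apply]
  have hne : (⟨p, hpS⟩ : S) ≠ q := fun h => hq (by rw [← h])
  have h1 : pPart S K p r hpS (Pi.mulSingle q u) = 1 := by
    show theta p r (locNorm K p ((Pi.mulSingle q u : IT S K) ⟨p, hpS⟩)) = 1
    rw [Pi.mulSingle_eq_of_ne hne, map_one, map_one]
  rw [h1, inv_one, one_mul, Finset.prod_eq_single q]
  · rw [if_neg hq]
    show qPart K p r q.1 ((Pi.mulSingle q u : IT S K) q) = _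
    rw [Pi.mulSingle_eq_same]
  · intro q' _ hq'
    split_ifs
    · rfl
    · show qPart K p r q'.1 ((Pi.mulSingle q u : IT S K) q') = 1
      rw [Pi.mulSingle_eq_of_ne hq', map_one]
  · intro h
    exact absurd (Finset.mem_univ q) h

/-- The idelic part of `cyc` on an idele concentrated at `p`. -/
theorem cycI_mulSingle_self (hpS : p ∈ S) (u : (Loc K p)ˣ) :
    cycI S K p r hpS (Pi.mulSingle (⟨p, hpS⟩ : S) u) = (theta p r (locNorm K p u))⁻¹ := by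
  rw [cycI, MonoidHom.mul_apply, MonoidHom.inv_apply, MonoidHom.finsetProd_apply]
  have h1 : pPart S K p r hpS (Pi.mulSingle (⟨p, hpS⟩ : S) u) = theta p r (locNorm K p u) := by
    show theta p r (locNorm K p ((Pi.mulSingle (⟨p, hpS⟩ : S) u : IT S K) ⟨p, hpS⟩)) = _
    rw [Pi.mulSingle_eq_same]
  rw [h1, Finset.prod_eq_one, mul_one]
  intro q' _
  split_ifs with h
  · rfl
  · have hne : q' ≠ (⟨p, hpS⟩ : S) := fun h' => h (by rw [h'])
    show qPart K p r q'.1 ((Pi.mulSingle (⟨p, hpS⟩ : S) u : IT S K) q') = 1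
    rw [Pi.mulSingle_eq_of_ne hne, map_one]

theorem locToJT_apply (q : S) (u : (Loc K q.1)ˣ) :
    locToJT S q u = ((Pi.mulSingle q u : IT S K), (1 : DivT S K)) := rfl

theorem cyc_locToJT_of_ne (hpS : p ∈ S) (q : S) (hq : q.1 ≠ p) (u : (Loc K q.1)ˣ) :
    cyc S K p r hpS (locToJT S q u) = qPart K p r q.1 u := by
  rw [locToJT_apply, cyc_apply, map_one, mul_one, cycI_mulSingle_of_ne S K p r hpS q hq u]

theorem cyc_locToJT_self (hpS : p ∈ S) (u : (Loc K p)ˣ) :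
    cyc S K p r hpS (locToJT S (⟨p, hpS⟩ : S) u) = (theta p r (locNorm K p u))⁻¹ := by
  rw [locToJT_apply, cyc_apply, map_one, mul_one, cycI_mulSingle_self S K p r hpS u]

end CycLocal

section NonNorm

variable (S : Finset Nat.Primes) (p : Nat.Primes) (r : ℕ) (M : Type) [Field M] [NumberField M]
  [IsCyclotomicExtension {(p : ℕ) ^ r} ℚ M]

/-- **Non-norm criterion**: a `S`-idele `j` of `ℚ` with `cyc(j)^(p-1) ≠ 1` modulo `p^r` is not a
norm from the cyclic `p`-layer of `ℚ(ζ_{p^r})`. -/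
theorem toCT_notMem_normSubCT (hp2 : (p : ℕ) ≠ 2) (hpS : p ∈ S)
    [IsGalois ℚ (pLayer (p : ℕ) r ℚ M)]
    (hun : IsUnramifiedOutside S ℚ (pLayer (p : ℕ) r ℚ M)) (j : JT S ℚ)
    (hj : cyc S ℚ p r hpS j ^ ((p : ℕ) - 1) ≠ 1) :
    toCT S ℚ j ∉ normSubCT S ℚ (pLayer (p : ℕ) r ℚ M) := by
  haveI : IsGalois ℚ M := IsCyclotomicExtension.isGalois {(p : ℕ) ^ r} ℚ M
  haveI : FiniteDimensional ℚ M := IsCyclotomicExtension.finiteDimensional {(p : ℕ) ^ r} ℚ M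
  haveI : IsScalarTower ℚ (pLayer (p : ℕ) r ℚ M) M :=
    IsScalarTower.of_algebraMap_eq' (Subsingleton.elim _ _)
  intro hmem
  have hζ := IsCyclotomicExtension.zeta_spec ((p : ℕ) ^ r) ℚ M
  have h1 := comap_normSubCT_le S p r ℚ (pLayer (p : ℕ) r ℚ M) M hζ hp2 hpS hun
    (show j ∈ (normSubCT S ℚ (pLayer (p : ℕ) r ℚ M)).comap (toCT S ℚ) from hmem)
  rw [Subgroup.mem_comap] at h1
  obtain ⟨τ, hτ, hτj⟩ := h1
  apply hj
  rw [recJ_apply] at hτj
  rw [← hτj, chiPow'_apply]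
  -- `τ` fixes the `p`-layer, hence is tame
  have hτ1 : AlgEquiv.restrictNormalHom (F := ℚ) (K₁ := M) (pLayer (p : ℕ) r ℚ M) τ = 1 := hτ
  have hfix : τ ∈ (pLayer (p : ℕ) r ℚ M).fixingSubgroup := by
    rw [IntermediateField.mem_fixingSubgroup_iff]
    intro x hx
    have h2 := AlgEquiv.restrictNormal_commutes τ (pLayer (p : ℕ) r ℚ M) ⟨x, hx⟩
    change algebraMap (pLayer (p : ℕ) r ℚ M) M
      ((AlgEquiv.restrictNormalHom (F := ℚ) (K₁ := M) (pLayer (p : ℕ) r ℚ M) τ) ⟨x, hx⟩) = _ at h2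
    rw [hτ1] at h2
    exact h2.symm
  have htame : τ ∈ tame (p : ℕ) r ℚ M := by
    have h3 : (pLayer (p : ℕ) r ℚ M).fixingSubgroup = tame (p : ℕ) r ℚ M :=
      IntermediateField.fixingSubgroup_fixedField (tame (p : ℕ) r ℚ M)
    rw [← h3]
    exact hfix
  exact htame

end NonNorm

section RatUnits

variable (S : Finset Nat.Primes) (K : Type*) [Field K] [NumberField K] (p : Nat.Primes) (r : ℕ)

theorem qPart_diagI (q : S) (a : Kˣ) :
    qPart K p r q.1 (diagI S K a q) = gammaQ p r q.1 (normU K a) := by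
  show (zpowersHom _ _) (padicVal q.1 (locNorm K q.1 (diagI S K a q))) = _
  rw [locNorm_diagI S K a q]
  rfl

theorem theta_locNorm_diagI (hpS : p ∈ S) (a : Kˣ) :
    theta p r (locNorm K p (diagI S K a ⟨p, hpS⟩)) = theta p r (ratTo p (normU K a)) := by
  rw [locNorm_diagI S K a ⟨p, hpS⟩]

theorem norm_rat_self (alg : Algebra ℚ ℚ) (x : ℚ) : @Algebra.norm ℚ ℚ _ _ alg x = x := by
  have h : alg = Algebra.id ℚ := Subsingleton.elim _ _
  subst h
  rw [Algebra.norm_self]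
  rfl

theorem normU_rat (a : ℚˣ) : normU ℚ a = a := by
  apply Units.ext
  rw [coe_normU]
  exact norm_rat_self _ _

end RatUnits

section Fixed

variable (S : Finset Nat.Primes) (B : Type) [Field B] [NumberField B]

/-- Units coming from `ℚ` are Galois-fixed in `B ⊗ ℚ_q`. -/
theorem smul_locUnitsMap_diagI (q : S) (a : ℚˣ) (σ : B ≃ₐ[ℚ] B) :
    σ • locUnitsMap ℚ B q.1 (diagI S ℚ a q) = locUnitsMap ℚ B q.1 (diagI S ℚ a q) := by
  apply Units.ext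
  rw [coe_smul_unitsTensor]
  show σ • (locMap ℚ B q.1 (((a : ℚ)) ⊗ₜ[ℚ] (1 : ℚ_[(q.1 : ℕ)]))) =
    locMap ℚ B q.1 (((a : ℚ)) ⊗ₜ[ℚ] (1 : ℚ_[(q.1 : ℕ)]))
  rw [locMap_tmul, smul_tmul', AlgEquiv.commutes]

end Fixed

section Ne

variable (S : Finset Nat.Primes) [DecidableEq S] (p : Nat.Primes)

/-- **Input 1 of (L1), case `q ≠ p`.** -/
theorem nonNorm_of_ne (hp2 : (p : ℕ) ≠ 2) (hpS : p ∈ S) (q : S) (hq : q.1 ≠ p) :
    ∃ (B : Type) (_ : Field B) (_ : NumberField B) (_ : IsGalois ℚ B)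
      (_ : IsUnramifiedOutside S ℚ B) (σ : B ≃ₐ[ℚ] B) (_ : ∀ τ, τ ∈ Subgroup.zpowers σ)
      (a₀ : (Loc ℚ q.1)ˣ) (z : (Loc B q.1)ˣ),
      (locUnitsMap ℚ B q.1 a₀) ^ (p : ℕ) = ∏ g : B ≃ₐ[ℚ] B, g • z ∧
        locToCT S q a₀ ∉ normSubCT S ℚ B := by
  have hqp : ((q.1 : Nat.Primes) : ℕ) ≠ (p : ℕ) := fun h => hq (Subtype.ext h)
  obtain ⟨r, hr2, hne, hk⟩ :=
    Fermat.Agent.PT.GLOB.LocalPTorsion17.exists_level_split (p : ℕ) (q.1 : ℕ) p.2 q.1.2 hqp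
  haveI : NeZero ((p : ℕ) ^ r) := ⟨(pow_pos p.2.pos r).ne'⟩
  haveI hcyc : IsCyclotomicExtension {(p : ℕ) ^ r} ℚ (CyclotomicField ((p : ℕ) ^ r) ℚ) :=
    CyclotomicField.isCyclotomicExtension ((p : ℕ) ^ r) ℚ
  set M : Type := CyclotomicField ((p : ℕ) ^ r) ℚ with hM
  haveI hGal : IsGalois ℚ (pLayer (p : ℕ) r ℚ M) :=
    Fermat.Agent.PT.GLOB.LocalPTorsion17.isGalois_pLayer_rat (p : ℕ) r M
  have hun : IsUnramifiedOutside S ℚ (pLayer (p : ℕ) r ℚ M) :=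
    isUnramifiedOutside_pLayer S p r ℚ M hpS
  have hcycG : IsCyclic (pLayer (p : ℕ) r ℚ M ≃ₐ[ℚ] pLayer (p : ℕ) r ℚ M) :=
    isCyclic_gal_pLayer (p : ℕ) r ℚ M hp2
  obtain ⟨σ, hσ⟩ := hcycG.exists_generator
  set a₀ : (Loc ℚ q.1)ˣ := diagI S ℚ (primeU (q.1 : ℕ) q.1.2) q with ha₀
  obtain ⟨z, hz⟩ := Fermat.Agent.PT.GLOB.LocalPTorsion17.exists_prod_smul_eq_pow_p (p : ℕ) r M q.1
    hqp hk (locUnitsMap ℚ (pLayer (p : ℕ) r ℚ M) q.1 a₀)
    (fun σ => smul_locUnitsMap_diagI S (pLayer (p : ℕ) r ℚ M) q _ σ)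
  refine ⟨pLayer (p : ℕ) r ℚ M, inferInstance, inferInstance, hGal, hun, σ, hσ, a₀, z, hz.symm, ?_⟩
  apply toCT_notMem_normSubCT S p r M hp2 hpS hun (locToJT S q a₀)
  rw [cyc_locToJT_of_ne S ℚ p r hpS q hq a₀, ha₀, qPart_diagI, normU_rat, gammaQ_primeU_self]
  intro h
  apply hne
  have hcop : Nat.Coprime (q.1 : ℕ) ((p : ℕ) ^ r) :=
    Nat.Coprime.pow_right r ((Nat.coprime_primes q.1.2 p.2).mpr hqp)
  have h2 := congrArg (fun u : (ZMod ((p : ℕ) ^ r))ˣ => (u : ZMod ((p : ℕ) ^ r))) h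
  simp only [Units.val_pow_eq_pow_val, Units.val_one] at h2
  rwa [coe_unitOfNat hcop] at h2

end Ne

section Order

variable (p : ℕ) [hp : Fact p.Prime] (r : ℕ) (K : Type) (M : Type) [Field K] [Field M]
  [Algebra K M] [IsCyclotomicExtension {p ^ r} K M]

/-- Every element of `Gal(pLayer/K)` is killed by `p ^ (r - 1)` (`r ≥ 1`). -/
theorem pow_pow_pred_eq_one (hr : 1 ≤ r) (g : pLayer p r K M ≃ₐ[K] pLayer p r K M) :
    g ^ (p ^ (r - 1)) = 1 := by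
  apply psi_injective p r K M
  rw [map_pow, map_one]
  obtain ⟨τ, hτ⟩ := QuotientGroup.mk_surjective ((galEquiv p r K M).symm g)
  have h1 : psi p r K M g = chi p r K M τ ^ (p - 1) := by
    show QuotientGroup.kerLift (chiPow p r K M) ((galEquiv p r K M).symm g) = _
    rw [← hτ]
    exact QuotientGroup.kerLift_mk (chiPow p r K M) τ
  rw [h1, ← pow_mul]
  have h2 : Fintype.card (ZMod (p ^ r))ˣ = (p - 1) * p ^ (r - 1) := by
    rw [ZMod.card_units_eq_totient, Nat.totient_prime_pow hp.out (by omega), mul_comm]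
  rw [← h2]
  exact pow_card_eq_one

/-- At level `r = 2` every element of `Gal(pLayer/K)` is killed by `p`. -/
theorem pow_eq_one_of_level_two (M' : Type) [Field M'] [Algebra K M']
    [IsCyclotomicExtension {p ^ 2} K M'] (g : pLayer p 2 K M' ≃ₐ[K] pLayer p 2 K M') :
    g ^ p = 1 := by
  simpa using pow_pow_pred_eq_one p 2 K M' (by norm_num) g

end Order

section FixedProd

variable (B : Type) [Field B] [NumberField B]

/-- The norm of a power of a Galois-fixed unit. -/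
theorem pow_eq_prod_smul_of_fixed (q : Nat.Primes) (x : (Loc B q)ˣ)
    (hx : ∀ g : B ≃ₐ[ℚ] B, g • x = x) (c n : ℕ) (hn : n = Nat.card (B ≃ₐ[ℚ] B) * c) :
    x ^ n = ∏ g : B ≃ₐ[ℚ] B, g • (x ^ c) := by
  have hfix : ∀ g : B ≃ₐ[ℚ] B, g • (x ^ c) = x ^ c := by
    intro g
    rw [smul_pow', hx g]
  rw [Finset.prod_congr rfl fun g _ => hfix g, Finset.prod_const, Finset.card_univ,
    ← Nat.card_eq_fintype_card, ← pow_mul, mul_comm, ← hn]

end FixedProd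

section Arith

/-- `(1 + p) ^ (p - 1) ≠ 1` modulo `p ^ 2`. -/
theorem one_add_pow_ne_one (p : ℕ) (hp : p.Prime) :
    (((1 + p : ℕ) : ZMod (p ^ 2))) ^ (p - 1) ≠ 1 := by
  have h1 : ∀ n : ℕ, (((1 + p : ℕ) : ZMod (p ^ 2))) ^ n = 1 + (n : ZMod (p ^ 2)) * p := by
    intro n
    induction n with
    | zero => simp
    | succ n ih =>
      rw [pow_succ (((1 + p : ℕ) : ZMod (p ^ 2))) n, ih]
      have h2 : ((p : ZMod (p ^ 2))) * p = 0 := by
        rw [← Nat.cast_mul, ← pow_two]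
        exact ZMod.natCast_self _
      push_cast
      linear_combination (n : ZMod (p ^ 2)) * h2
  rw [h1]
  intro h
  have h3 : (((p - 1 : ℕ) * p : ℕ) : ZMod (p ^ 2)) = 0 := by
    have : ((p - 1 : ℕ) : ZMod (p ^ 2)) * p = 0 := by
      have := h
      rwa [add_eq_left] at this
    rw [Nat.cast_mul]
    exact this
  rw [ZMod.natCast_eq_zero_iff, pow_two] at h3
  have h4 : p ∣ p - 1 := Nat.dvd_of_mul_dvd_mul_right hp.pos h3
  have h5 := Nat.le_of_dvd (by have := hp.two_le; omega) h4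
  have := hp.two_le
  omega

end Arith

section Self

variable (S : Finset Nat.Primes) [DecidableEq S] (p : Nat.Primes)

/-- **Input 1 of (L1), case `q = p`.** -/
theorem nonNorm_self (hp2 : (p : ℕ) ≠ 2) (hpS : p ∈ S) :
    ∃ (B : Type) (_ : Field B) (_ : NumberField B) (_ : IsGalois ℚ B)
      (_ : IsUnramifiedOutside S ℚ B) (σ : B ≃ₐ[ℚ] B) (_ : ∀ τ, τ ∈ Subgroup.zpowers σ)
      (a₀ : (Loc ℚ p)ˣ) (z : (Loc B p)ˣ),
      (locUnitsMap ℚ B p a₀) ^ (p : ℕ) = ∏ g : B ≃ₐ[ℚ] B, g • z ∧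
        locToCT S (⟨p, hpS⟩ : S) a₀ ∉ normSubCT S ℚ B := by
  haveI : NeZero ((p : ℕ) ^ 2) := ⟨(pow_pos p.2.pos 2).ne'⟩
  haveI hcyc : IsCyclotomicExtension {(p : ℕ) ^ 2} ℚ (CyclotomicField ((p : ℕ) ^ 2) ℚ) :=
    CyclotomicField.isCyclotomicExtension ((p : ℕ) ^ 2) ℚ
  set M : Type := CyclotomicField ((p : ℕ) ^ 2) ℚ with hM
  haveI hGal : IsGalois ℚ (pLayer (p : ℕ) 2 ℚ M) :=
    Fermat.Agent.PT.GLOB.LocalPTorsion17.isGalois_pLayer_rat (p : ℕ) 2 M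
  have hun : IsUnramifiedOutside S ℚ (pLayer (p : ℕ) 2 ℚ M) :=
    isUnramifiedOutside_pLayer S p 2 ℚ M hpS
  have hcycG : IsCyclic (pLayer (p : ℕ) 2 ℚ M ≃ₐ[ℚ] pLayer (p : ℕ) 2 ℚ M) :=
    isCyclic_gal_pLayer (p : ℕ) 2 ℚ M hp2
  obtain ⟨σ, hσ⟩ := hcycG.exists_generator
  -- the order of the group divides `p`
  have hσp : σ ^ (p : ℕ) = 1 := pow_eq_one_of_level_two (p : ℕ) ℚ M σ
  have hcard : Nat.card (pLayer (p : ℕ) 2 ℚ M ≃ₐ[ℚ] pLayer (p : ℕ) 2 ℚ M) ∣ (p : ℕ) := by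
    rw [← orderOf_eq_card_of_forall_mem_zpowers hσ]
    exact orderOf_dvd_of_pow_eq_one hσp
  obtain ⟨c, hc⟩ := hcard
  have h1p : (((1 + (p : ℕ) : ℕ) : ℚ)) ≠ 0 := by
    have : (1 + (p : ℕ)) ≠ 0 := by omega
    exact_mod_cast this
  set a : ℚˣ := Units.mk0 ((1 + (p : ℕ) : ℕ) : ℚ) h1p with ha
  set a₀ : (Loc ℚ p)ˣ := diagI S ℚ a (⟨p, hpS⟩ : S) with ha₀
  refine ⟨pLayer (p : ℕ) 2 ℚ M, inferInstance, inferInstance, hGal, hun, σ, hσ, a₀,
    (locUnitsMap ℚ (pLayer (p : ℕ) 2 ℚ M) p a₀) ^ c, ?_, ?_⟩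
  · exact pow_eq_prod_smul_of_fixed (pLayer (p : ℕ) 2 ℚ M) p _
      (fun g => smul_locUnitsMap_diagI S (pLayer (p : ℕ) 2 ℚ M) (⟨p, hpS⟩ : S) a g) c (p : ℕ) hc
  · apply toCT_notMem_normSubCT S p 2 M hp2 hpS hun (locToJT S (⟨p, hpS⟩ : S) a₀)
    rw [cyc_locToJT_self S ℚ p 2 hpS a₀, ha₀, theta_locNorm_diagI S ℚ p 2 hpS a, normU_rat]
    have hnd : ¬ (p : ℕ) ∣ 1 + (p : ℕ) := by
      intro h
      have h2 : (p : ℕ) ∣ 1 := (Nat.dvd_add_left (dvd_refl _)).mp h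
      exact p.2.one_lt.ne' (Nat.dvd_one.mp h2)
    have h0 : (((1 + (p : ℕ) : ℕ)) : ℚ_[(p : ℕ)]) ≠ 0 := by
      have : (1 + (p : ℕ)) ≠ 0 := by omega
      exact_mod_cast this
    have hrat : ratTo (p : ℕ) a = Units.mk0 (((1 + (p : ℕ) : ℕ)) : ℚ_[(p : ℕ)]) h0 := by
      apply Units.ext
      rw [coe_ratTo, ha]
      simp
    rw [hrat, theta_natCast (p : ℕ) 2 (1 + (p : ℕ)) hnd h0, inv_pow]
    intro h
    rw [inv_eq_one] at h
    apply one_add_pow_ne_one (p : ℕ) p.2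
    have hcop : Nat.Coprime (1 + (p : ℕ)) ((p : ℕ) ^ 2) :=
      Nat.Coprime.pow_right 2 ((Nat.Prime.coprime_iff_not_dvd p.2).mpr hnd).symm
    have h2 := congrArg (fun u : (ZMod ((p : ℕ) ^ 2))ˣ => (u : ZMod ((p : ℕ) ^ 2))) h
    simp only [Units.val_pow_eq_pow_val, Units.val_one] at h2
    rwa [coe_unitOfNat hcop] at h2

end Self

section Final

/-- **Input 1 of (L1)** in helper14's literal shape. -/
theorem nonNormInput (p : ℕ) (hp2 : p ≠ 2) (S : Finset Nat.Primes)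
    (hpS : ∃ q ∈ S, (q : ℕ) = p) [DecidableEq S] :
    Fermat.Agent.PT.GLOB.LocalInjFinal14.NonNormInput p S := by
  obtain ⟨P, hPS, rfl⟩ := hpS
  intro q
  by_cases h : q.1 = P
  · have hq : q = (⟨P, hPS⟩ : S) := Subtype.ext h
    subst hq
    exact nonNorm_self S P hp2 hPS
  · exact nonNorm_of_ne S P hp2 hPS q h

end Final

end Fermat.Agent.PT.GLOB.LocalNonNorm22
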