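/-
Program F (S55), chapter GLOB, leaf for (L1) (helper12): **the cyclic class `κ(σ, a)` is natural
in the coefficient module**, and the instance consumed by local injectivity:

  `(j_q)_* κ(σ, a₀ at q) = gkappa σ (locToCT q a₀)`   in `H²(Gal(K₁/K), CT S K₁)`,

for a cyclic layer `K₁/K` with generator `σ` and `a₀ ∈ (K ⊗ ℚ_q)ˣ`.
-/
import Mathlib
import Fermat.Agent.PT.LOC.CyclicH2_12
import Fermat.Agent.PT.GLOB.TowerCohCT23
import Fermat.Agent.PT.GLOB.NormSubCT23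
import Fermat.Agent.PT.GLOB.LocInfl17

set_option autoImplicit false

namespace Fermat.Agent.PT.GLOB.PushKappa12

open groupCohomology CategoryTheory
open Fermat.Agent.PT.LOC.CyclicH2_12
open Fermat.Agent.PT.FG.Interface8
open Fermat.Agent.PT.GLOB.Interface23 Fermat.Agent.PT.GLOB.InterfaceCF23
open Fermat.Agent.PT.GLOB.TowerCohCT23 Fermat.Agent.PT.GLOB.LocInfl17
open Fermat.Agent.PT.GLOB.NormSubCT23 Fermat.Agent.PT.GLOB.ClassAction23
  Fermat.Agent.PT.GLOB.TowerEquiv23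

section Generic

variable {G : Type} [Group G] [Finite G] (g : G) (hg : ∀ x : G, x ∈ Subgroup.zpowers g)
  {k : Type} [CommRing k] {A B : Rep k G} (j : A ⟶ B)

/-- **Naturality of the cyclic class in the coefficients.** -/
theorem pushH_kappa {a : A} (ha : A.ρ g a = a) (hb : B.ρ g (j.hom a) = j.hom a) :
    pushH 2 j (kappa g hg A ha) = kappa g hg B hb := by
  unfold kappa
  change groupCohomology.map (MonoidHom.id G) j 2 (H2π A _) = _
  rw [map_H2π_apply]
  congr 1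
  apply cocycles₂_ext
  intro x y
  rw [mapCocycles₂_apply, cyc_apply, cyc_apply]
  simp only [MonoidHom.id_apply]
  split_ifs
  · exact map_zero _
  · rfl

omit [Finite G] in
/-- The image of a `g`-fixed element is `g`-fixed. -/
theorem rho_hom_of_fixed {a : A} (ha : A.ρ g a = a) : B.ρ g (j.hom a) = j.hom a := by
  have h := Rep.hom_comm_apply j g a
  rw [ha] at h
  exact h.symm

end Generic

section Loc

variable (S : Finset Nat.Primes) [DecidableEq S]
variable {K K₁ : Type} [Field K] [Field K₁] [NumberField K] [NumberField K₁] [Algebra K K₁]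
  [Finite (K₁ ≃ₐ[K] K₁)]

omit [Finite (K₁ ≃ₐ[K] K₁)] in
/-- The image of `a₀ ∈ (K ⊗ ℚ_q)ˣ` in `(K₁ ⊗ ℚ_q)ˣ` is Galois-fixed. -/
theorem rho_locUp (q : Nat.Primes) (σ : K₁ ≃ₐ[K] K₁) (a₀ : (Loc K q)ˣ) :
    (repLoc K K₁ q).ρ σ (Additive.ofMul (locUp K K₁ q a₀)) =
      Additive.ofMul (locUp K K₁ q a₀) := by
  have h := locUp_smul K K K₁ q σ a₀
  have h1 : (rn σ : K ≃ₐ[K] K) = 1 := by
    ext x
    exact (rn σ : K ≃ₐ[K] K).commutes x
  rw [h1, one_smul] at h
  exact congrArg Additive.ofMul h.symm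

/-- **`(j_q)_* κ(σ, a₀) = gkappa σ (locToCT q a₀)`.** -/
theorem pushH_kappa_locUp (q : S) (σ : K₁ ≃ₐ[K] K₁) (hσ : ∀ τ, τ ∈ Subgroup.zpowers σ)
    (a₀ : (Loc K q.1)ˣ) :
    pushH 2 (locToCTRep S K K₁ q)
        (kappa σ hσ (repLoc K K₁ q.1) (rho_locUp q.1 σ a₀)) =
      gkappa S σ hσ (locToCT S q a₀) := by
  unfold gkappa
  rw [pushH_kappa σ hσ (locToCTRep S K K₁ q) (rho_locUp q.1 σ a₀)
    (rho_hom_of_fixed σ (locToCTRep S K K₁ q) (rho_locUp q.1 σ a₀))]
  refine kappa_congr σ hσ (repCT S K K₁) ?_ _ _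
  show Additive.ofMul (locToCT S q (locUp K K₁ q.1 a₀)) = baseCT S K K₁ (locToCT S q a₀)
  unfold baseCT
  exact congrArg Additive.ofMul (inclCT_locToCT S K K₁ q a₀).symm

/-- Consequently the push-forward vanishes iff `locToCT q a₀` is a norm class. -/
theorem pushH_kappa_locUp_eq_zero_iff (q : S) (σ : K₁ ≃ₐ[K] K₁)
    (hσ : ∀ τ, τ ∈ Subgroup.zpowers σ) (a₀ : (Loc K q.1)ˣ) :
    pushH 2 (locToCTRep S K K₁ q)
        (kappa σ hσ (repLoc K K₁ q.1) (rho_locUp q.1 σ a₀)) = 0 ↔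
      locToCT S q a₀ ∈ normSubCT S K K₁ := by
  rw [pushH_kappa_locUp]
  exact gkappa_eq_zero_iff_mem S K K₁ σ hσ _

end Loc

end Fermat.Agent.PT.GLOB.PushKappa12
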