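/-
Program F (S55), chapter GLOB, inequalities (helper5).

`RayAlg5`: the algebra behind the ray-class version of the analytic inequality.
`K` a number field, `m ≠ ⊥` an ideal of `𝓞 K`, `φ : (Ideal (𝓞 K))⁰ →* G` a monoid hom into a
commutative group which kills the principal ideals `(a)` with `a ≡ 1 mod m` (`IsRay φ m`).

* `pphi φ a`   : `φ (a)` for `a ≠ 0` (and `1` for `a = 0`)
* `pphi_congr` : `φ (a)` only depends on `a mod m` for `a` prime to `m`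
* `theta φ m h` : the induced hom `(𝓞 K ⧸ m)ˣ →* G`
* `chi_phi_eq_of_mk0_eq` : a character of `G` trivial on the image of `theta` takes the same value
  on two ideals prime to `m` in the same ideal class.
* `sum_inv_eq_zero` : the resulting orthogonality relation over the class group.
-/
import Mathlib
import Fermat.Agent.CFT.CoprimeRep

set_option autoImplicit false
set_option linter.unusedSectionVars false

open NumberField Ideal nonZeroDivisors

namespace Fermat.Agent.PT.GLOB.RayAlg5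

variable {K : Type*} [Field K] [NumberField K]
variable {G : Type*} [CommGroup G]

/-- the principal ideal `(a)` as a nonzero ideal -/
def spanI (a : 𝓞 K) (ha : a ≠ 0) : (Ideal (𝓞 K))⁰ :=
  ⟨Ideal.span {a}, mem_nonZeroDivisors_of_ne_zero (by
    rw [Ne, Ideal.zero_eq_bot, Ideal.span_singleton_eq_bot]; exact ha)⟩

@[simp] theorem coe_spanI (a : 𝓞 K) (ha : a ≠ 0) :
    ((spanI a ha : (Ideal (𝓞 K))⁰) : Ideal (𝓞 K)) = Ideal.span {a} := rfl

theorem spanI_mul (a b : 𝓞 K) (ha : a ≠ 0) (hb : b ≠ 0) :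
    spanI (a * b) (mul_ne_zero ha hb) = spanI a ha * spanI b hb := by
  apply Subtype.ext
  simp [Ideal.span_singleton_mul_span_singleton]

theorem spanI_unit (ε : (𝓞 K)ˣ) : spanI (ε : 𝓞 K) ε.ne_zero = 1 := by
  apply Subtype.ext
  simp [Ideal.span_singleton_eq_top.mpr ε.isUnit]

/-- the ray condition: `φ` kills `(a)` for `a ≡ 1 mod m` -/
def IsRay (φ : (Ideal (𝓞 K))⁰ →* G) (m : Ideal (𝓞 K)) : Prop :=
  ∀ (a : 𝓞 K) (ha : a ≠ 0), a - 1 ∈ m → φ (spanI a ha) = 1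

open scoped Classical in
/-- `φ (a)` as a function of the element `a` -/
noncomputable def pphi (φ : (Ideal (𝓞 K))⁰ →* G) (a : 𝓞 K) : G :=
  if ha : a ≠ 0 then φ (spanI a ha) else 1

theorem pphi_of_ne (φ : (Ideal (𝓞 K))⁰ →* G) {a : 𝓞 K} (ha : a ≠ 0) :
    pphi φ a = φ (spanI a ha) := by
  classical
  rw [pphi, dif_pos ha]

theorem pphi_mul (φ : (Ideal (𝓞 K))⁰ →* G) {a b : 𝓞 K} (ha : a ≠ 0) (hb : b ≠ 0) :
    pphi φ (a * b) = pphi φ a * pphi φ b := by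
  rw [pphi_of_ne φ ha, pphi_of_ne φ hb, pphi_of_ne φ (mul_ne_zero ha hb), spanI_mul, map_mul]

variable (φ : (Ideal (𝓞 K))⁰ →* G) (m : Ideal (𝓞 K))

theorem isUnit_mk_iff {a : 𝓞 K} :
    IsUnit (Ideal.Quotient.mk m a) ↔ Ideal.span {a} ⊔ m = ⊤ := by
  constructor
  · intro h
    obtain ⟨q, hq⟩ := h.exists_right_inv
    obtain ⟨c, rfl⟩ := Ideal.Quotient.mk_surjective q
    rw [← map_mul, ← map_one (Ideal.Quotient.mk m), Ideal.Quotient.eq] at hq
    rw [Ideal.eq_top_iff_one]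
    have h1 : (1 : 𝓞 K) = a * c - (a * c - 1) := by ring
    rw [h1]
    exact sub_mem (Submodule.mem_sup_left (Ideal.mem_span_singleton'.mpr ⟨c, by ring⟩))
      (Submodule.mem_sup_right hq)
  · intro h
    have h1 : (1 : 𝓞 K) ∈ Ideal.span {a} ⊔ m := by rw [h]; exact Submodule.mem_top
    obtain ⟨x, hx, y, hy, hxy⟩ := Submodule.mem_sup.mp h1
    obtain ⟨c, rfl⟩ := Ideal.mem_span_singleton'.mp hx
    refine IsUnit.of_mul_eq_one (Ideal.Quotient.mk m c) ?_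
    rw [← map_mul, ← map_one (Ideal.Quotient.mk m), Ideal.Quotient.eq]
    have : a * c - 1 = -y := by rw [← hxy]; ring
    rw [this]; exact neg_mem hy

variable {φ m}

/-- `φ (a)` depends only on `a mod m`, for `a` prime to `m`. -/
theorem pphi_congr (hφ : IsRay φ m) (hm : m ≠ ⊥) {a b : 𝓞 K} (ha : a ≠ 0) (hb : b ≠ 0)
    (hu : IsUnit (Ideal.Quotient.mk m a)) (hab : a - b ∈ m) : pphi φ a = pphi φ b := by
  obtain ⟨q, hq⟩ := hu.exists_right_inv
  obtain ⟨c0, rfl⟩ := Ideal.Quotient.mk_surjective q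
  -- a nonzero representative of the inverse
  obtain ⟨c, hc0, hc⟩ : ∃ c : 𝓞 K, c ≠ 0 ∧ a * c - 1 ∈ m := by
    rw [← map_mul, ← map_one (Ideal.Quotient.mk m), Ideal.Quotient.eq] at hq
    by_cases h0 : c0 = 0
    · obtain ⟨x, hx, hx0⟩ := Submodule.exists_mem_ne_zero_of_ne_bot hm
      refine ⟨x, hx0, ?_⟩
      rw [h0, mul_zero] at hq
      have : a * x - 1 = a * x + (0 - 1) := by ring
      rw [this]
      exact add_mem (Ideal.mul_mem_left _ _ hx) hq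
    · exact ⟨c0, h0, hq⟩
  have hbc : b * c - 1 ∈ m := by
    have : b * c - 1 = (a * c - 1) - (a - b) * c := by ring
    rw [this]
    exact sub_mem hc (Ideal.mul_mem_right _ _ hab)
  have h1 : pphi φ (a * c) = 1 := by
    rw [pphi_of_ne φ (mul_ne_zero ha hc0)]; exact hφ _ _ hc
  have h2 : pphi φ (b * c) = 1 := by
    rw [pphi_of_ne φ (mul_ne_zero hb hc0)]; exact hφ _ _ hbc
  rw [pphi_mul φ ha hc0] at h1
  rw [pphi_mul φ hb hc0] at h2
  exact mul_right_cancel (h1.trans h2.symm)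

/-- every residue class mod `m ≠ ⊥` has a nonzero representative -/
theorem exists_ne_zero_rep (hm : m ≠ ⊥) (q : 𝓞 K ⧸ m) :
    ∃ a : 𝓞 K, a ≠ 0 ∧ Ideal.Quotient.mk m a = q := by
  obtain ⟨a, rfl⟩ := Ideal.Quotient.mk_surjective q
  by_cases h0 : a = 0
  · obtain ⟨x, hx, hx0⟩ := Submodule.exists_mem_ne_zero_of_ne_bot hm
    refine ⟨x, hx0, ?_⟩
    rw [h0, map_zero]
    exact Ideal.Quotient.eq_zero_iff_mem.mpr hx
  · exact ⟨a, h0, rfl⟩

/-- a nonzero representative -/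
noncomputable def rep (hm : m ≠ ⊥) (q : 𝓞 K ⧸ m) : 𝓞 K := (exists_ne_zero_rep hm q).choose

theorem rep_ne_zero (hm : m ≠ ⊥) (q : 𝓞 K ⧸ m) : rep hm q ≠ 0 :=
  (exists_ne_zero_rep hm q).choose_spec.1

@[simp] theorem mk_rep (hm : m ≠ ⊥) (q : 𝓞 K ⧸ m) : Ideal.Quotient.mk m (rep hm q) = q :=
  (exists_ne_zero_rep hm q).choose_spec.2

variable (φ m)

/-- the function induced by `φ` on residues mod `m` -/
noncomputable def thetaFun (hm : m ≠ ⊥) (q : 𝓞 K ⧸ m) : G := pphi φ (rep hm q)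

variable {φ m}

theorem pphi_eq_thetaFun (hφ : IsRay φ m) (hm : m ≠ ⊥) {a : 𝓞 K} (ha : a ≠ 0)
    (hu : IsUnit (Ideal.Quotient.mk m a)) :
    pphi φ a = thetaFun φ m hm (Ideal.Quotient.mk m a) := by
  unfold thetaFun
  refine pphi_congr hφ hm ha (rep_ne_zero hm _) hu ?_
  rw [← Ideal.Quotient.eq, mk_rep]

/-- the hom `(𝓞 K ⧸ m)ˣ →* G` induced by `φ` -/
noncomputable def theta (hφ : IsRay φ m) (hm : m ≠ ⊥) : (𝓞 K ⧸ m)ˣ →* G where
  toFun u := thetaFun φ m hm (u : 𝓞 K ⧸ m)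
  map_one' := by
    have h1 : IsUnit (Ideal.Quotient.mk m (1 : 𝓞 K)) := by rw [map_one]; exact isUnit_one
    have := pphi_eq_thetaFun hφ hm one_ne_zero h1
    rw [map_one] at this
    rw [Units.val_one, ← this, pphi_of_ne φ one_ne_zero]
    exact hφ 1 one_ne_zero (by simp)
  map_mul' u v := by
    have hu : IsUnit (Ideal.Quotient.mk m (rep hm (u : 𝓞 K ⧸ m))) := by
      rw [mk_rep]; exact u.isUnit
    have hv : IsUnit (Ideal.Quotient.mk m (rep hm (v : 𝓞 K ⧸ m))) := by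
      rw [mk_rep]; exact v.isUnit
    have huv : IsUnit (Ideal.Quotient.mk m (rep hm (u : 𝓞 K ⧸ m) * rep hm (v : 𝓞 K ⧸ m))) := by
      rw [map_mul]; exact hu.mul hv
    have h := pphi_eq_thetaFun hφ hm (mul_ne_zero (rep_ne_zero hm _) (rep_ne_zero hm _)) huv
    rw [map_mul, mk_rep, mk_rep] at h
    rw [Units.val_mul, ← h, pphi_mul φ (rep_ne_zero hm _) (rep_ne_zero hm _)]
    rfl

theorem theta_apply (hφ : IsRay φ m) (hm : m ≠ ⊥) (u : (𝓞 K ⧸ m)ˣ) :
    theta hφ hm u = thetaFun φ m hm (u : 𝓞 K ⧸ m) := rfl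

/-- `φ (a) = θ (a mod m)` for `a` prime to `m`. -/
theorem pphi_eq_theta (hφ : IsRay φ m) (hm : m ≠ ⊥) {a : 𝓞 K} (ha : a ≠ 0)
    (hu : IsUnit (Ideal.Quotient.mk m a)) : pphi φ a = theta hφ hm hu.unit := by
  rw [theta_apply, IsUnit.unit_spec]
  exact pphi_eq_thetaFun hφ hm ha hu

/-- A character trivial on the image of `θ` takes the same value on two ideals prime to `m` in the
same ideal class. -/
theorem chi_phi_eq_of_mk0_eq (hφ : IsRay φ m) (hm : m ≠ ⊥) {H : Type*} [CommGroup H]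
    (χ : G →* H) (hχ : ∀ u, χ (theta hφ hm u) = 1)
    {A B : (Ideal (𝓞 K))⁰} (hA : (A : Ideal (𝓞 K)) ⊔ m = ⊤) (hB : (B : Ideal (𝓞 K)) ⊔ m = ⊤)
    (hAB : ClassGroup.mk0 A = ClassGroup.mk0 B) : χ (φ A) = χ (φ B) := by
  obtain ⟨D, hDm, hD⟩ := Fermat.Agent.CFT.CoprimeRep.exists_coprime_rep_classGroup m hm
    (ClassGroup.mk0 A)⁻¹
  have key : ∀ X : (Ideal (𝓞 K))⁰, (X : Ideal (𝓞 K)) ⊔ m = ⊤ →
      ClassGroup.mk0 X = ClassGroup.mk0 A → χ (φ X) * χ (φ D) = 1 := by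
    intro X hX hXA
    have h1 : ClassGroup.mk0 (X * D) = 1 := by rw [map_mul, hD, hXA]; simp
    have hp : ((X * D : (Ideal (𝓞 K))⁰) : Ideal (𝓞 K)).IsPrincipal :=
      (ClassGroup.mk0_eq_one_iff (X * D).2).mp h1
    obtain ⟨x, hx⟩ := hp.principal
    have hx' : ((X * D : (Ideal (𝓞 K))⁰) : Ideal (𝓞 K)) = Ideal.span {x} := by
      rw [hx]
    have hx0 : x ≠ 0 := by
      rintro rfl
      have := nonZeroDivisors.coe_ne_zero (X * D)
      rw [hx'] at this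
      exact this (by simp)
    have hXD : X * D = spanI x hx0 := Subtype.ext hx'
    have hcop : Ideal.span {x} ⊔ m = ⊤ := by
      rw [← hx']
      push_cast
      exact Fermat.Agent.CFT.CoprimeRep.mul_sup_eq_top hX hDm
    have hu : IsUnit (Ideal.Quotient.mk m x) := (isUnit_mk_iff m).mpr hcop
    rw [← map_mul, ← map_mul, hXD, ← pphi_of_ne φ hx0, pphi_eq_theta hφ hm hx0 hu]
    exact hχ _
  have h1 := key A hA rfl
  have h2 := key B hB hAB.symm
  exact mul_right_cancel (h1.trans h2.symm)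

/-- Orthogonality over the class group: if `χ` is trivial on the image of `θ` but nontrivial on
some ideal prime to `m`, then `∑_C χ (φ (J C))⁻¹ = 0` for any choice `J C` of ideals prime to `m`
in the classes `C⁻¹`. -/
theorem sum_chi_phi_inv_eq_zero (hφ : IsRay φ m) (hm : m ≠ ⊥)
    (χ : G →* ℂˣ) (hχ : ∀ u, χ (theta hφ hm u) = 1)
    (J : ClassGroup (𝓞 K) → (Ideal (𝓞 K))⁰) (hJm : ∀ C, (J C : Ideal (𝓞 K)) ⊔ m = ⊤)
    (hJ : ∀ C, ClassGroup.mk0 (J C) = C⁻¹)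
    {B : (Ideal (𝓞 K))⁰} (hB : (B : Ideal (𝓞 K)) ⊔ m = ⊤) (hne : χ (φ B) ≠ 1) :
    ∑ C : ClassGroup (𝓞 K), (((χ (φ (J C)))⁻¹ : ℂˣ) : ℂ) = 0 := by
  classical
  set β : ClassGroup (𝓞 K) := ClassGroup.mk0 B with hβ
  have hrel : ∀ C, χ (φ (J (C * β))) * χ (φ B) = χ (φ (J C)) := by
    intro C
    have h1 : ((J (C * β) * B : (Ideal (𝓞 K))⁰) : Ideal (𝓞 K)) ⊔ m = ⊤ := by
      push_cast
      exact Fermat.Agent.CFT.CoprimeRep.mul_sup_eq_top (hJm _) hB
    have h2 : ClassGroup.mk0 (J (C * β) * B) = ClassGroup.mk0 (J C) := by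
      rw [map_mul, hJ, hJ, ← hβ, mul_inv]
      simp
    have := chi_phi_eq_of_mk0_eq hφ hm χ hχ h1 (hJm C) h2
    rwa [map_mul, map_mul] at this
  set S : ℂ := ∑ C : ClassGroup (𝓞 K), (((χ (φ (J C)))⁻¹ : ℂˣ) : ℂ) with hS
  have h1 : S = ∑ C : ClassGroup (𝓞 K), (((χ (φ (J (C * β))))⁻¹ : ℂˣ) : ℂ) := by
    rw [hS]
    exact (Fintype.sum_equiv (Equiv.mulRight β) _ _ (fun C => rfl)).symm
  have h2 : ∀ C, (((χ (φ (J (C * β))))⁻¹ : ℂˣ) : ℂ) =
      ((χ (φ B) : ℂˣ) : ℂ) * (((χ (φ (J C)))⁻¹ : ℂˣ) : ℂ) := by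
    intro C
    rw [← Units.val_mul, ← hrel C]
    congr 1
    rw [mul_inv, mul_comm (χ (φ B)), mul_assoc]
    simp
  have h3 : S = ((χ (φ B) : ℂˣ) : ℂ) * S := by
    conv_lhs => rw [h1]
    rw [hS, Finset.mul_sum]
    exact Finset.sum_congr rfl (fun C _ => h2 C)
  have h4 : (1 - ((χ (φ B) : ℂˣ) : ℂ)) * S = 0 := by
    rw [sub_mul, one_mul, ← h3, sub_self]
  rcases mul_eq_zero.mp h4 with h5 | h5
  · exfalso
    apply hne
    have : ((χ (φ B) : ℂˣ) : ℂ) = 1 := (sub_eq_zero.mp h5).symm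
    exact Units.ext (by simpa using this)
  · exact h5

end Fermat.Agent.PT.GLOB.RayAlg5
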