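/-
Program F (S55), chapter GLOB, inequalities (helper5).

`RayFinite5`: a ray-class hom `φ` (trivial on `(a)`, `a ≡ 1 mod m`) which is surjective on the
ideals prime to `m` has a FINITE target; hence the finiteness hypothesis of
`RayZeta5.ray_norm_index_le` can be dropped: `ray_norm_index_le'`.
-/
import Mathlib
import Fermat.Agent.PT.GLOB.RayZeta5

set_option autoImplicit false
set_option linter.unusedSectionVars false
set_option linter.style.haveILetI false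

open NumberField nonZeroDivisors IsDedekindDomain
open Fermat.Agent.CFT.C1ClassDefs
open Fermat.Agent.PT.GLOB.RayAlg5

namespace Fermat.Agent.PT.GLOB.RayFinite5

variable {K : Type*} [Field K] [NumberField K]
variable {G : Type*} [CommGroup G]
variable {φ : (Ideal (𝓞 K))⁰ →* G} {m : Ideal (𝓞 K)}

/-- The value of `φ` on an ideal `I` prime to `m` is `θ(u) * φ(J)⁻¹` for a unit `u` mod `m`, where
`J` is any ideal prime to `m` in the inverse class. -/
theorem exists_phi_eq (hφ : IsRay φ m) (hm : m ≠ ⊥)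
    {I J : (Ideal (𝓞 K))⁰} (hI : (I : Ideal (𝓞 K)) ⊔ m = ⊤) (hJm : (J : Ideal (𝓞 K)) ⊔ m = ⊤)
    (hJ : ClassGroup.mk0 J = (ClassGroup.mk0 I)⁻¹) :
    ∃ u : (𝓞 K ⧸ m)ˣ, φ I = theta hφ hm u * (φ J)⁻¹ := by
  have h1 : ClassGroup.mk0 (I * J) = 1 := by rw [map_mul, hJ]; simp
  have hp : ((I * J : (Ideal (𝓞 K))⁰) : Ideal (𝓞 K)).IsPrincipal :=
    (ClassGroup.mk0_eq_one_iff (I * J).2).mp h1
  obtain ⟨x, hx⟩ := hp.principal
  have hx' : ((I * J : (Ideal (𝓞 K))⁰) : Ideal (𝓞 K)) = Ideal.span {x} := by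
    rw [hx]
  have hx0 : x ≠ 0 := by
    rintro rfl
    have := nonZeroDivisors.coe_ne_zero (I * J)
    rw [hx'] at this
    exact this (by simp)
  have hIJ : I * J = spanI x hx0 := Subtype.ext hx'
  have hcop : Ideal.span {x} ⊔ m = ⊤ := by
    rw [← hx']
    push_cast
    exact Fermat.Agent.CFT.CoprimeRep.mul_sup_eq_top hI hJm
  have hu : IsUnit (Ideal.Quotient.mk m x) := (isUnit_mk_iff m).mpr hcop
  refine ⟨hu.unit, ?_⟩
  rw [← pphi_eq_theta hφ hm hx0 hu, pphi_of_ne φ hx0, ← hIJ, map_mul]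
  simp

/-- **Finiteness of the target of a surjective ray-class hom.** -/
theorem finite_of_ray (hφ : IsRay φ m) (hm : m ≠ ⊥)
    (hsurj : ∀ g : G, ∃ I : (Ideal (𝓞 K))⁰, (I : Ideal (𝓞 K)) ⊔ m = ⊤ ∧ φ I = g) : Finite G := by
  classical
  haveI : Finite (𝓞 K ⧸ m) := Ideal.finiteQuotientOfFreeOfNeBot m hm
  choose J hJm hJ using fun C : ClassGroup (𝓞 K) =>
    Fermat.Agent.CFT.CoprimeRep.exists_coprime_rep_classGroup m hm C⁻¹
  let f : ClassGroup (𝓞 K) × (𝓞 K ⧸ m)ˣ → G := fun x => theta hφ hm x.2 * (φ (J x.1))⁻¹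
  refine Finite.of_surjective f (fun g => ?_)
  obtain ⟨I, hI, rfl⟩ := hsurj g
  obtain ⟨u, hu⟩ := exists_phi_eq hφ hm hI (hJm (ClassGroup.mk0 I)) (hJ (ClassGroup.mk0 I))
  exact ⟨(ClassGroup.mk0 I, u), hu.symm⟩

/-- **The analytic norm index inequality for ray-class homs**, with finiteness of the target as a
conclusion. -/
theorem ray_norm_index_le' (K L : Type*) [Field K] [NumberField K] [Field L] [NumberField L]
    [Algebra K L] {G : Type*} [CommGroup G]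
    (φ : (Ideal (𝓞 K))⁰ →* G) (m : Ideal (𝓞 K)) (hm : m ≠ ⊥)
    (hray : ∀ a : 𝓞 K, ∀ h : Ideal.span {a} ∈ (Ideal (𝓞 K))⁰, a - 1 ∈ m →
      φ ⟨Ideal.span {a}, h⟩ = 1)
    (hsurj : ∀ g : G, ∃ I : (Ideal (𝓞 K))⁰, (I : Ideal (𝓞 K)) ⊔ m = ⊤ ∧ φ I = g)
    (S : Finset (HeightOneSpectrum (𝓞 K)))
    (hsplit : ∀ p ∈ degOnePrimes K L, p ∉ S → φ (primeToIdeal0 p) = 1) :
    Finite G ∧ Nat.card G ≤ Module.finrank K L := by
  have hφ : IsRay φ m := fun a ha h => hray a (spanI a ha).2 h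
  haveI : Finite G := finite_of_ray hφ hm hsurj
  exact ⟨inferInstance,
    Fermat.Agent.PT.GLOB.RayZeta5.ray_norm_index_le K L φ m hm hray hsurj S hsplit⟩

end Fermat.Agent.PT.GLOB.RayFinite5
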