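/-
Program F (S55), chapter GLOB, leaf (REC) inputs (helper5): the two counting inputs of
`RecAssembly15.recNormForm_of`, VERBATIM in helper15's shapes.

* `localPowerIndex p S : RecAssembly15.LocalPowerIndex p S`   (from `ITPowerIndex5`)
* `sUnitIndex p S : RecAssembly15.SUnitIndex p S`             (from helper14's `SUnitIndex14`)
-/
import Mathlib
import Fermat.Agent.PT.GLOB.RecAssembly15
import Fermat.Agent.PT.GLOB.ITPowerIndex5
import Fermat.Agent.PT.GLOB.SUnitIndex14

set_option autoImplicit false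

namespace Fermat.Agent.PT.GLOB.RecInputs5

open Fermat.Agent.PT.GLOB.Interface23 Fermat.Agent.PT.GLOB.RecCount15
  Fermat.Agent.PT.GLOB.UnitsBridge24

/-- **(REC-LPI)** in the shape consumed by `RecAssembly15.recNormForm_of`. -/
theorem localPowerIndex (p : ℕ) (S : Finset Nat.Primes) : RecAssembly15.LocalPowerIndex p S := by
  intro hp hp2 hpS K _ _ ζ hζ
  exact ITPowerIndex5.index_powRange_IT S K hp hp2 hpS hζ

/-- **(REC-SU)** in the shape consumed by `RecAssembly15.recNormForm_of`. -/
theorem sUnitIndex (p : ℕ) (S : Finset Nat.Primes) : RecAssembly15.SUnitIndex p S := by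
  intro hp hp2 K _ _ ζ hζ
  have : Fact p.Prime := ⟨hp⟩
  have h2 : 2 < p := lt_of_le_of_ne hp.two_le (Ne.symm hp2)
  exact (SUnitIndex14.card_ker_divT_quot_pow S K p h2 hζ).2

end Fermat.Agent.PT.GLOB.RecInputs5
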