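/-
Program F (S55, Poitou–Tate), chapter GLOB (helper17): leaf (F2c'), the second inequality in the
shape consumed by `F2-d`: for `L/K` cyclic of odd prime degree `p` with generator `s`,

  `Nat.card (cyc (smulEnd (CT T L) s) p _).H ≤ p`,

where `(cyc σ p _).H = ker (σ - 1) / im (1 + σ + ⋯ + σ^(p-1))` on `Additive (CT T L)` is helper18's
model of `Ĥ⁰` (`FG/HerbrandQuot18`), `smulEnd` is helper16's endomorphism (`FirstIneq16`).
Deduced from the pigeonhole form `SecondIneqTower17.exists_div_eq_norm`.
-/
import Mathlib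
import Fermat.Agent.PT.GLOB.SecondIneqTower17
import Fermat.Agent.PT.GLOB.FirstIneq16

set_option autoImplicit false
set_option linter.unusedSectionVars false
set_option linter.style.haveILetI false

open scoped NumberField
open Module

namespace Fermat.Agent.PT.GLOB.SecondIneqCyc17

open Fermat.Agent.PT.GLOB.Interface23 Fermat.Agent.PT.GLOB.Tower23
  Fermat.Agent.PT.GLOB.ClassAction23 Fermat.Agent.PT.GLOB.FixedClass6
  Fermat.Agent.PT.GLOB.SecondIneqTower17 Fermat.Agent.PT.GLOB.FirstIneq16
  Fermat.Agent.PT.FG.HerbrandQuot18 Fermat.Agent.CFT.Herbrand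

/-- A type in which no `n + 1` elements are distinct is finite of cardinality at most `n`. -/
theorem finite_and_card_le_of_forall_not_injective {α : Type*} (n : ℕ)
    (h : ∀ f : Fin (n + 1) → α, ¬ Function.Injective f) : Finite α ∧ Nat.card α ≤ n := by
  classical
  have hfin : Finite α := by
    by_contra hinf
    rw [not_finite_iff_infinite] at hinf
    exact h (fun i => Infinite.natEmbedding α i.1)
      (fun i j hij => Fin.ext ((Infinite.natEmbedding α).injective hij))
  refine ⟨hfin, ?_⟩
  by_contra hlt
  rw [not_le] at hlt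
  haveI : Fintype α := Fintype.ofFinite α
  rw [Nat.card_eq_fintype_card] at hlt
  have hle : Fintype.card (Fin (n + 1)) ≤ Fintype.card α := by
    rw [Fintype.card_fin]; omega
  obtain ⟨e⟩ := Function.Embedding.nonempty_of_card_le hle
  exact h e e.injective

section Power

variable {G M : Type*} [Group G] [CommGroup M] [MulDistribMulAction G M]

theorem smulEnd_pow_apply (g : G) (i : ℕ) (x : M) :
    (smulEnd M g ^ i) (Additive.ofMul x) = Additive.ofMul (g ^ i • x) := by
  induction i generalizing x with
  | zero => simp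
  | succ i ih =>
    rw [pow_succ, Module.End.mul_apply, smulEnd_apply, ih, pow_succ, mul_smul]

/-- For a generator `s` of a finite group `G`, the norm element is `∑_{i < |G|} s ^ i`. -/
theorem prod_univ_smul_eq_prod_range [Fintype G] (s : G) (hs : ∀ τ : G, τ ∈ Subgroup.zpowers s)
    (x : M) : ∏ σ : G, σ • x = ∏ i ∈ Finset.range (Nat.card G), s ^ i • x := by
  classical
  have hord : orderOf s = Nat.card G := orderOf_eq_card_of_forall_mem_zpowers hs
  rw [← hord]
  symm
  apply Finset.prod_nbij (fun i => s ^ i)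
  · intro i _; exact Finset.mem_univ _
  · intro i hi j hj hij
    exact pow_injOn_Iio_orderOf (by simpa using hi) (by simpa using hj) hij
  · intro τ _
    have h1 := (mem_zpowers_iff_mem_range_orderOf (x := s) (y := τ)).mp (hs τ)
    rw [Finset.mem_image] at h1
    obtain ⟨i, hi, rfl⟩ := h1
    exact ⟨i, by simpa using hi, rfl⟩
  · intro i _; rfl

end Power

section Main

variable {T : Finset Nat.Primes} {K L : Type} [Field K] [Field L] [NumberField K] [NumberField L]
  [Algebra K L] [IsGalois K L]

/-- **Second inequality, Herbrand-pair form**: `#Ĥ⁰(G, C_T(L)) ≤ p` for `G = ⟨s⟩` of odd prime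
order `p`, in helper18's model `(cyc σ p _).H` with helper16's `σ = smulEnd (CT T L) s`. -/
theorem card_H_cyc_CT_le {p : ℕ} (hp : p.Prime) (hp2 : p ≠ 2) (hdeg : finrank K L = p)
    (D : NormData T K L p) (s : L ≃ₐ[K] L) (hs : ∀ τ : L ≃ₐ[K] L, τ ∈ Subgroup.zpowers s) :
    Finite (cyc (smulEnd (CT T L) s) p (smulEnd_CT_pow T K L p hdeg s)).H ∧
      Nat.card (cyc (smulEnd (CT T L) s) p (smulEnd_CT_pow T K L p hdeg s)).H ≤ p := by
  classical
  set P := cyc (smulEnd (CT T L) s) p (smulEnd_CT_pow T K L p hdeg s) with hP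
  apply finite_and_card_le_of_forall_not_injective
  intro f hf
  -- representatives
  choose x hx using fun i => P.cls_surjective (f i)
  have hfix : ∀ i (σ : L ≃ₐ[K] L), σ • (Additive.toMul (x i : Additive (CT T L))) =
      Additive.toMul (x i : Additive (CT T L)) := by
    intro i σ
    have h1 : smulEnd (CT T L) s (x i : Additive (CT T L)) = (x i : Additive (CT T L)) :=
      mem_ker_cyc_f.mp (x i).2
    have h2 : s • (Additive.toMul (x i : Additive (CT T L))) =
        Additive.toMul (x i : Additive (CT T L)) := congrArg Additive.toMul h1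
    have h3 : Subgroup.zpowers s ≤
        MulAction.stabilizer (L ≃ₐ[K] L) (Additive.toMul (x i : Additive (CT T L))) := by
      rw [Subgroup.zpowers_le]
      exact h2
    exact h3 (hs σ)
  obtain ⟨i, i', hne, y, hy⟩ := exists_div_eq_norm hp hp2 hdeg D
    (fun i => Additive.toMul (x i : Additive (CT T L))) hfix
  apply hne
  apply hf
  rw [← hx i, ← hx i']
  symm
  change (QuotientAddGroup.mk (x i') : P.H) = QuotientAddGroup.mk (x i)
  rw [QuotientAddGroup.eq]
  change (-(x i') + x i : P.f.ker) ∈ P.g.range.addSubgroupOf P.f.ker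
  rw [AddSubgroup.mem_addSubgroupOf]
  refine ⟨Additive.ofMul (toCT T L y), ?_⟩
  rw [cyc_g_apply]
  have hcard : Nat.card (L ≃ₐ[K] L) = p := by rw [IsGalois.card_aut_eq_finrank, hdeg]
  have h1 : ∀ k ∈ Finset.range p, (smulEnd (CT T L) s ^ k) (Additive.ofMul (toCT T L y)) =
      Additive.ofMul (toCT T L (s ^ k • y)) := by
    intro k _
    rw [smulEnd_pow_apply, smul_toCT]
  rw [Finset.sum_congr rfl h1]
  have h2 : (∑ k ∈ Finset.range p, Additive.ofMul (toCT T L (s ^ k • y)) : Additive (CT T L)) =
      Additive.ofMul (toCT T L (∏ k ∈ Finset.range p, s ^ k • y)) := by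
    rw [map_prod, ofMul_prod]
  rw [h2]
  have h3 : ∏ k ∈ Finset.range p, s ^ k • y = normJ T K L y := by
    unfold normJ
    rw [prod_univ_smul_eq_prod_range s hs y, hcard]
  rw [h3, ← hy]
  change Additive.ofMul (Additive.toMul (x i : Additive (CT T L)) /
    Additive.toMul (x i' : Additive (CT T L))) = _
  rw [ofMul_div, ofMul_toMul, ofMul_toMul, sub_eq_add_neg, add_comm]
  rfl

end Main

end Fermat.Agent.PT.GLOB.SecondIneqCyc17
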