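/-
Program F (S55), chapter GLOB, inequalities (helper5).

`SecondIneqIdelic5`: the second inequality of class field theory in the idelic model of
`Interface23`, core form (no tower maps).

`index_le` : let `K ⊆ L` be number fields, `T` a finite set of rational primes, `p` an odd prime and
`H ≤ JT T K` a subgroup containing the principal `T`-ideles, all `p`-th powers, and the `T`-ideles
`(1, [P])` for the primes `P` of `K` prime to `T` of relative degree one in `L` (outside a finite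
set).  Then `H` has finite index `≤ [L : K]`.

Proof: `φ(𝔞) := class of (1, prime-to-T divisor of 𝔞)` is a ray-class hom modulo
`m = ((∏_{q ∈ T} q)^2)` to `JT T K ⧸ H` (`PowerNearOneGen16`: elements `≡ 1 mod q^2` are `p`-th
powers in `K ⊗ ℚ_q`), surjective on ideals prime to `m` (`WeakApprox17`), killing the degree one
primes; apply `RayFinite5.ray_norm_index_le'`.
-/
import Mathlib
import Fermat.Agent.PT.GLOB.Interface23
import Fermat.Agent.PT.GLOB.WeakApprox17
import Fermat.Agent.PT.GLOB.PowerNearOneGen16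
import Fermat.Agent.PT.GLOB.RayFinite5

set_option autoImplicit false
set_option linter.unusedSectionVars false
set_option linter.style.haveILetI false

open NumberField IsDedekindDomain
open scoped TensorProduct nonZeroDivisors
open Fermat.Agent.PT.GLOB.Interface23
open Fermat.Agent.CFT.C1ClassDefs
open Fermat.Agent.PT.GLOB.RayAlg5

namespace Fermat.Agent.PT.GLOB.SecondIneqIdelic5

variable (T : Finset Nat.Primes)
variable (K : Type*) [Field K] [NumberField K]

/-! ### The prime-to-`T` divisor of an integral ideal -/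

/-- the multiplicity of `P` in the nonzero ideal `I` -/
noncomputable def idealOrd (P : HeightOneSpectrum (𝓞 K)) (I : (Ideal (𝓞 K))⁰) : ℤ :=
  FractionalIdeal.count K P ((I : Ideal (𝓞 K)) : FractionalIdeal (𝓞 K)⁰ K)

theorem coe_ne_zero (I : (Ideal (𝓞 K))⁰) :
    ((I : Ideal (𝓞 K)) : FractionalIdeal (𝓞 K)⁰ K) ≠ 0 :=
  FractionalIdeal.coeIdeal_ne_zero.mpr (nonZeroDivisors.coe_ne_zero I)

theorem idealOrd_mul (P : HeightOneSpectrum (𝓞 K)) (I J : (Ideal (𝓞 K))⁰) :
    idealOrd K P (I * J) = idealOrd K P I + idealOrd K P J := by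
  unfold idealOrd
  rw [Submonoid.coe_mul, FractionalIdeal.coeIdeal_mul,
    FractionalIdeal.count_mul K P (coe_ne_zero K I) (coe_ne_zero K J)]

theorem idealOrd_one (P : HeightOneSpectrum (𝓞 K)) : idealOrd K P 1 = 0 := by
  unfold idealOrd
  rw [Submonoid.coe_one, Ideal.one_eq_top, FractionalIdeal.coeIdeal_top,
    FractionalIdeal.count_one]

theorem finite_idealOrd_ne_zero (I : (Ideal (𝓞 K))⁰) :
    {P : PrimeAway T K | idealOrd K P.1 I ≠ 0}.Finite := by
  have h := FractionalIdeal.finite_factors (R := 𝓞 K) (K := K)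
    ((I : Ideal (𝓞 K)) : FractionalIdeal (𝓞 K)⁰ K)
  rw [Filter.eventually_cofinite] at h
  exact Set.Finite.preimage (Subtype.val_injective.injOn) h

/-- the prime-to-`T` divisor of a nonzero integral ideal -/
noncomputable def divIdeal : (Ideal (𝓞 K))⁰ →* DivT T K where
  toFun I := DivT.ofFinsupp T K
    (Finsupp.ofSupportFinite (fun P : PrimeAway T K => idealOrd K P.1 I)
      (finite_idealOrd_ne_zero T K I))
  map_one' := by
    apply congrArg (DivT.ofFinsupp T K)
    ext P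
    simp [Finsupp.ofSupportFinite_coe, idealOrd_one]
  map_mul' I J := by
    change _ = DivT.ofFinsupp T K
      (Finsupp.ofSupportFinite (fun P : PrimeAway T K => idealOrd K P.1 I)
          (finite_idealOrd_ne_zero T K I) +
        Finsupp.ofSupportFinite (fun P : PrimeAway T K => idealOrd K P.1 J)
          (finite_idealOrd_ne_zero T K J))
    apply congrArg (DivT.ofFinsupp T K)
    ext P
    rw [Finsupp.add_apply]
    exact idealOrd_mul K P.1 I J

theorem divIdeal_apply (I : (Ideal (𝓞 K))⁰) (P : PrimeAway T K) :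
    DivT.toFinsupp T K (divIdeal T K I) P = idealOrd K P.1 I := rfl

theorem divT_ext {D E : DivT T K}
    (h : ∀ P, DivT.toFinsupp T K D P = DivT.toFinsupp T K E P) : D = E := by
  have : DivT.toFinsupp T K D = DivT.toFinsupp T K E := Finsupp.ext h
  exact this

/-- the divisor of a principal ideal -/
theorem divIdeal_spanI (a : 𝓞 K) (ha : a ≠ 0) :
    divIdeal T K (spanI a ha) =
      divT T K (Units.mk0 (a : K) (by exact_mod_cast ha)) := by
  apply divT_ext
  intro P
  rw [divIdeal_apply, divT_apply]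
  unfold idealOrd ordAt
  rw [coe_spanI, FractionalIdeal.coeIdeal_span_singleton]
  rfl

open scoped Classical in
/-- the divisor of a prime ideal -/
theorem divIdeal_prime (P : HeightOneSpectrum (𝓞 K)) (Q : PrimeAway T K) :
    DivT.toFinsupp T K (divIdeal T K (primeToIdeal0 P)) Q = if P = Q.1 then 1 else 0 := by
  rw [divIdeal_apply]
  unfold idealOrd
  rw [coe_primeToIdeal0]
  exact FractionalIdeal.count_maximal K Q.1 P

/-! ### `p`-th powers in `IT T K` -/

open Fermat.Agent.PT.GLOB.WeakApprox17 Fermat.Agent.PT.GLOB.PowerNearOneGen16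

variable {T K}

/-- An element of `IT T K` all of whose components come from elements `≡ 1 mod q ^ 2` of
`𝓞 K ⊗ ℤ_q` is a `p`-th power (`p` an odd prime). -/
theorem exists_pow_eq_IT {p : ℕ} (hp : p.Prime) (hp2 : p ≠ 2) (x : IT T K)
    (hx : ∀ q : T, ∃ z : (𝓞 K) ⊗[ℤ] ℤ_[(q.1 : ℕ)],
      z - 1 ∈ Ideal.span {(((q.1 : ℕ) : ℕ) : (𝓞 K) ⊗[ℤ] ℤ_[(q.1 : ℕ)]) ^ 2} ∧
      intToRat K (q.1 : ℕ) z = ((x q : (Loc K q.1)ˣ) : Loc K q.1)) :
    ∃ Y : IT T K, Y ^ p = x := by
  choose z hz hzx using hx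
  have hy : ∀ q : T, ∃ y : Loc K q.1, y ^ p = ((x q : (Loc K q.1)ˣ) : Loc K q.1) := by
    intro q
    obtain ⟨y, hy⟩ := exists_pow_eq_map'_of_le (q.1 : ℕ) K (intToRat K (q.1 : ℕ)) hp hp2
      (nearExp_le_two (q.1 : ℕ) p) (z q) (hz q)
    exact ⟨y, hy.trans (hzx q)⟩
  choose y hy using hy
  have hu : ∀ q : T, IsUnit (y q) := by
    intro q
    have h1 : IsUnit ((y q) ^ p) := by rw [hy q]; exact (x q).isUnit
    exact (isUnit_pow_iff hp.ne_zero).mp h1
  refine ⟨fun q => (hu q).unit, ?_⟩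
  funext q
  apply Units.ext
  rw [Pi.pow_apply, Units.val_pow_eq_pow_val, IsUnit.unit_spec]
  exact hy q

variable (T K)

/-- `∏_{q ∈ T} q` -/
def prodT : ℕ := ∏ q ∈ T, (q : ℕ)

/-- the modulus `((∏_{q ∈ T} q)^2)` -/
def modulus : Ideal (𝓞 K) := Ideal.span {((prodT T ^ 2 : ℕ) : 𝓞 K)}

theorem prodT_ne_zero : prodT T ≠ 0 :=
  Finset.prod_ne_zero_iff.mpr (fun q _ => q.2.ne_zero)

theorem modulus_ne_bot : modulus T K ≠ ⊥ := by
  unfold modulus
  rw [Ne, Ideal.span_singleton_eq_bot, Nat.cast_eq_zero]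
  exact pow_ne_zero _ (prodT_ne_zero T)

/-- an element `≡ 1` modulo the modulus is `≡ 1 mod q ^ 2` in `𝓞 K ⊗ ℤ_q`, for `q ∈ T` -/
theorem tmul_sub_one_mem {a : 𝓞 K} (ha : a - 1 ∈ modulus T K) (q : T) :
    (a ⊗ₜ[ℤ] (1 : ℤ_[(q.1 : ℕ)]) : (𝓞 K) ⊗[ℤ] ℤ_[(q.1 : ℕ)]) - 1 ∈
      Ideal.span {(((q.1 : ℕ) : ℕ) : (𝓞 K) ⊗[ℤ] ℤ_[(q.1 : ℕ)]) ^ 2} := by
  unfold modulus at ha
  obtain ⟨b, hb⟩ := Ideal.mem_span_singleton'.mp ha
  obtain ⟨c, hc⟩ : ((q.1 : ℕ) : ℕ) ∣ prodT T := Finset.dvd_prod_of_mem _ q.2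
  rw [Ideal.mem_span_singleton']
  refine ⟨(((c ^ 2 : ℕ) : 𝓞 K) * b) ⊗ₜ[ℤ] (1 : ℤ_[(q.1 : ℕ)]), ?_⟩
  have h1 : (1 : (𝓞 K) ⊗[ℤ] ℤ_[(q.1 : ℕ)]) = (1 : 𝓞 K) ⊗ₜ[ℤ] (1 : ℤ_[(q.1 : ℕ)]) := rfl
  have h2 : (((q.1 : ℕ) : ℕ) : (𝓞 K) ⊗[ℤ] ℤ_[(q.1 : ℕ)]) =
      (((q.1 : ℕ) : ℕ) : 𝓞 K) ⊗ₜ[ℤ] (1 : ℤ_[(q.1 : ℕ)]) :=
    Algebra.TensorProduct.natCast_def _
  rw [h1, ← TensorProduct.sub_tmul, ← hb, h2, Algebra.TensorProduct.tmul_pow, one_pow,
    Algebra.TensorProduct.tmul_mul_tmul, one_mul, hc]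
  congr 1
  push_cast
  ring

/-! ### The ray-class hom attached to a subgroup of `JT T K` -/

section Hom

variable (H : Subgroup (JT T K))

/-- `𝔞 ↦ class of (1, prime-to-T divisor of 𝔞)` -/
noncomputable def phiH : (Ideal (𝓞 K))⁰ →* JT T K ⧸ H :=
  (QuotientGroup.mk' H).comp ((MonoidHom.inr (IT T K) (DivT T K)).comp (divIdeal T K))

theorem phiH_apply (I : (Ideal (𝓞 K))⁰) :
    phiH T K H I = QuotientGroup.mk' H ((1 : IT T K), divIdeal T K I) := rfl

/-- `D ↦ class of (1, D)` -/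
noncomputable def psiH : DivT T K →* JT T K ⧸ H :=
  (QuotientGroup.mk' H).comp (MonoidHom.inr (IT T K) (DivT T K))

theorem psiH_apply (D : DivT T K) :
    psiH T K H D = QuotientGroup.mk' H ((1 : IT T K), D) := rfl

variable {T K H}

theorem mk_eq_one_of_mem {j : JT T K} (hj : j ∈ H) : QuotientGroup.mk' H j = 1 :=
  (QuotientGroup.eq_one_iff j).mpr hj

/-- the diagonal image of `a ≡ 1 mod modulus` is a `p`-th power in `IT T K` -/
theorem exists_pow_eq_diagI {p : ℕ} (hp : p.Prime) (hp2 : p ≠ 2) {a : 𝓞 K} (ha0 : a ≠ 0)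
    (ha : a - 1 ∈ modulus T K) :
    ∃ Y : IT T K, Y ^ p = diagI T K (Units.mk0 (a : K) (by exact_mod_cast ha0)) := by
  refine exists_pow_eq_IT hp hp2 _ (fun q => ⟨a ⊗ₜ[ℤ] (1 : ℤ_[(q.1 : ℕ)]),
    tmul_sub_one_mem T K ha q, ?_⟩)
  rw [intToRat_tmul]
  simp only [PadicInt.coe_one]
  rfl

/-- **the ray condition** -/
theorem phiH_ray {p : ℕ} (hp : p.Prime) (hp2 : p ≠ 2) (h1 : (diagJ T K).range ≤ H)
    (hpow : ∀ j : JT T K, j ^ p ∈ H) :
    IsRay (G := JT T K ⧸ H) (phiH T K H) (modulus T K) := by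
  intro a ha0 ha
  obtain ⟨Y, hY⟩ := exists_pow_eq_diagI hp hp2 ha0 ha
  set u : Kˣ := Units.mk0 (a : K) (by exact_mod_cast ha0) with hu
  rw [phiH_apply, divIdeal_spanI T K a ha0]
  have h2 : ((1 : IT T K), divT T K u) = diagJ T K u * ((Y, (1 : DivT T K)) ^ p)⁻¹ := by
    rw [Prod.pow_mk, hY, one_pow]
    ext1
    · simp [diagJ]
    · simp [diagJ]
  rw [h2]
  refine mk_eq_one_of_mem (H.mul_mem (h1 ⟨u, rfl⟩) (H.inv_mem (hpow _)))

end Hom

/-! ### Surjectivity on the ideals prime to the modulus -/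

section Surj

variable {T K} {H : Subgroup (JT T K)}

theorem primeAway_sup_modulus (P : PrimeAway T K) : P.1.asIdeal ⊔ modulus T K = ⊤ := by
  by_contra hne
  have hmax : P.1.asIdeal.IsMaximal := P.1.isMaximal
  have h1 : P.1.asIdeal ⊔ modulus T K = P.1.asIdeal := (hmax.eq_of_le hne le_sup_left).symm
  have h2 : modulus T K ≤ P.1.asIdeal := by
    rw [← h1]; exact le_sup_right
  have h3 : ((prodT T ^ 2 : ℕ) : 𝓞 K) ∈ P.1.asIdeal :=
    h2 (Ideal.mem_span_singleton_self _)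
  rw [Nat.cast_pow] at h3
  have h4 : ((prodT T : ℕ) : 𝓞 K) ∈ P.1.asIdeal := P.1.isPrime.mem_of_pow_mem _ h3
  unfold prodT at h4
  rw [Nat.cast_prod] at h4
  obtain ⟨q, hq, hqP⟩ := (P.1.isPrime.prod_mem_iff).mp h4
  apply P.2 q hq
  rw [Int.cast_natCast]
  exact hqP

/-- the class of `(1, [P])` is the class of the prime ideal `P` -/
theorem psiH_single (P : PrimeAway T K) :
    psiH T K H (DivT.ofFinsupp T K (Finsupp.single P 1)) = phiH T K H (primeToIdeal0 P.1) := by
  classical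
  rw [psiH_apply, phiH_apply]
  congr 2
  apply divT_ext
  intro Q
  rw [divIdeal_prime]
  change (Finsupp.single P (1:ℤ)) Q = _
  rw [Finsupp.single_apply]
  by_cases h : P = Q
  · rw [if_pos h, if_pos (congrArg Subtype.val h)]
  · rw [if_neg h, if_neg (fun h' => h (Subtype.ext h'))]

variable (T K H)

/-- the classes of the ideals prime to the modulus -/
def idealClasses : Set (JT T K ⧸ H) :=
  {g | ∃ I : (Ideal (𝓞 K))⁰, (I : Ideal (𝓞 K)) ⊔ modulus T K = ⊤ ∧ phiH T K H I = g}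

variable {T K H}

theorem one_mem_idealClasses : (1 : JT T K ⧸ H) ∈ idealClasses T K H :=
  ⟨1, by rw [Submonoid.coe_one, Ideal.one_eq_top, top_sup_eq], map_one _⟩

theorem mul_mem_idealClasses {g h : JT T K ⧸ H} (hg : g ∈ idealClasses T K H)
    (hh : h ∈ idealClasses T K H) : g * h ∈ idealClasses T K H := by
  obtain ⟨I, hI, rfl⟩ := hg
  obtain ⟨J, hJ, rfl⟩ := hh
  refine ⟨I * J, ?_, map_mul _ _ _⟩
  rw [Submonoid.coe_mul]
  exact Fermat.Agent.CFT.CoprimeRep.mul_sup_eq_top hI hJ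

theorem pow_mem_idealClasses {g : JT T K ⧸ H} (hg : g ∈ idealClasses T K H) (n : ℕ) :
    g ^ n ∈ idealClasses T K H := by
  induction n with
  | zero => rw [pow_zero]; exact one_mem_idealClasses
  | succ n ih => rw [pow_succ]; exact mul_mem_idealClasses ih hg

theorem pow_eq_one_of_hpow {p : ℕ} (hpow : ∀ j : JT T K, j ^ p ∈ H) (g : JT T K ⧸ H) :
    g ^ p = 1 := by
  obtain ⟨j, rfl⟩ := QuotientGroup.mk'_surjective H g
  rw [← map_pow]
  exact mk_eq_one_of_mem (hpow j)

theorem inv_mem_idealClasses {p : ℕ} (hp : p.Prime) (hpow : ∀ j : JT T K, j ^ p ∈ H)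
    {g : JT T K ⧸ H} (hg : g ∈ idealClasses T K H) : g⁻¹ ∈ idealClasses T K H := by
  have h1 : g⁻¹ = g ^ (p - 1) := by
    rw [inv_eq_iff_mul_eq_one, ← pow_succ', Nat.sub_add_cancel hp.one_lt.le]
    exact pow_eq_one_of_hpow hpow g
  rw [h1]
  exact pow_mem_idealClasses hg _

theorem zpow_mem_idealClasses {p : ℕ} (hp : p.Prime) (hpow : ∀ j : JT T K, j ^ p ∈ H)
    {g : JT T K ⧸ H} (hg : g ∈ idealClasses T K H) (n : ℤ) : g ^ n ∈ idealClasses T K H := by
  cases n with
  | ofNat n => rw [Int.ofNat_eq_natCast, zpow_natCast]; exact pow_mem_idealClasses hg n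
  | negSucc n =>
    rw [zpow_negSucc]
    exact inv_mem_idealClasses hp hpow (pow_mem_idealClasses hg _)

/-- every class of the form `(1, D)` is the class of an ideal prime to the modulus -/
theorem psiH_mem_idealClasses {p : ℕ} (hp : p.Prime) (hpow : ∀ j : JT T K, j ^ p ∈ H)
    (D : DivT T K) : psiH T K H D ∈ idealClasses T K H := by
  have key : ∀ f : PrimeAway T K →₀ ℤ, psiH T K H (DivT.ofFinsupp T K f) ∈ idealClasses T K H := by
    intro f
    induction f using Finsupp.induction_linear with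
    | zero =>
      have : DivT.ofFinsupp T K (0 : PrimeAway T K →₀ ℤ) = 1 := rfl
      rw [this, map_one]; exact one_mem_idealClasses
    | add f g hf hg =>
      have : DivT.ofFinsupp T K (f + g) = DivT.ofFinsupp T K f * DivT.ofFinsupp T K g := rfl
      rw [this, map_mul]; exact mul_mem_idealClasses hf hg
    | single P n =>
      have : DivT.ofFinsupp T K (Finsupp.single P n) =
          (DivT.ofFinsupp T K (Finsupp.single P 1)) ^ n := by
        change Multiplicative.ofAdd (Finsupp.single P n) =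
          (Multiplicative.ofAdd (Finsupp.single P (1:ℤ))) ^ n
        rw [← ofAdd_zsmul, Finsupp.smul_single, smul_eq_mul, mul_one]
      rw [this, map_zpow, psiH_single]
      exact zpow_mem_idealClasses hp hpow
        ⟨primeToIdeal0 P.1, primeAway_sup_modulus P, rfl⟩ n
  exact key (DivT.toFinsupp T K D)

/-- **surjectivity** -/
theorem phiH_surj {p : ℕ} (hp : p.Prime) (hp2 : p ≠ 2) (h1 : (diagJ T K).range ≤ H)
    (hpow : ∀ j : JT T K, j ^ p ∈ H) (g : JT T K ⧸ H) :
    ∃ I : (Ideal (𝓞 K))⁰, (I : Ideal (𝓞 K)) ⊔ modulus T K = ⊤ ∧ phiH T K H I = g := by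
  obtain ⟨⟨x, D⟩, rfl⟩ := QuotientGroup.mk'_surjective H g
  -- weak approximation
  have hinj : Set.InjOn (fun i : T => ((i.1 : Nat.Primes) : ℕ))
      ((Finset.univ : Finset T) : Set T) := by
    intro i _ j _ hij
    exact Subtype.ext (Subtype.ext hij)
  obtain ⟨a, ha⟩ := weak_approx K (Finset.univ : Finset T)
    (fun i : T => ((i.1 : Nat.Primes) : ℕ)) (hq := fun i => instFactPrime i.1) hinj 2 x
  have hx : ∀ q : T, ∃ z : (𝓞 K) ⊗[ℤ] ℤ_[(q.1 : ℕ)],
      z - 1 ∈ Ideal.span {(((q.1 : ℕ) : ℕ) : (𝓞 K) ⊗[ℤ] ℤ_[(q.1 : ℕ)]) ^ 2} ∧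
      intToRat K (q.1 : ℕ) z = (((diagI T K a * x) q : (Loc K q.1)ˣ) : Loc K q.1) := by
    intro q
    obtain ⟨z, hz, hzx⟩ := ha q (Finset.mem_univ q)
    exact ⟨z, hz, hzx⟩
  obtain ⟨Y, hY⟩ := exists_pow_eq_IT hp hp2 (diagI T K a * x) hx
  have h2 : ((x, D) : JT T K) = (diagJ T K a)⁻¹ * ((Y, (1 : DivT T K)) ^ p *
      ((1 : IT T K), divT T K a * D)) := by
    rw [Prod.pow_mk, hY, one_pow]
    ext1
    · simp [diagJ]
    · simp [diagJ]
  have h3 : QuotientGroup.mk' H ((x, D) : JT T K) = psiH T K H (divT T K a * D) := by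
    have e1 := mk_eq_one_of_mem (H.inv_mem (h1 ⟨a, rfl⟩))
    have e2 := mk_eq_one_of_mem (hpow ((Y, (1 : DivT T K))))
    rw [h2, map_mul, map_mul, e1, e2]
    exact (one_mul ((1 : JT T K ⧸ H) * psiH T K H (divT T K a * D))).trans
      (one_mul (psiH T K H (divT T K a * D)))
  rw [h3]
  exact psiH_mem_idealClasses hp hpow _

end Surj

/-! ### The degree one primes and the main theorem -/

section Main

variable {T K} {H : Subgroup (JT T K)}
variable (L : Type*) [Field L] [NumberField L] [Algebra K L]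

theorem phiH_split (S : Finset (HeightOneSpectrum (𝓞 K)))
    (h3 : ∀ P : PrimeAway T K, P.1 ∈ degOnePrimes K L → P.1 ∉ S →
      ((1 : IT T K), DivT.ofFinsupp T K (Finsupp.single P 1)) ∈ H) :
    ∀ P ∈ degOnePrimes K L, P ∉ S → phiH T K H (primeToIdeal0 P) = 1 := by
  classical
  intro P hP hPS
  by_cases haway : ∀ q ∈ T, (((q : ℕ) : ℤ) : 𝓞 K) ∉ P.asIdeal
  · let P' : PrimeAway T K := ⟨P, haway⟩
    have h := psiH_single (H := H) P'
    rw [← h, psiH_apply]
    exact mk_eq_one_of_mem (h3 P' hP hPS)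
  · have hdiv : divIdeal T K (primeToIdeal0 P) = 1 := by
      apply divT_ext
      intro Q
      rw [divIdeal_prime, if_neg]
      · rfl
      · rintro rfl
        exact haway Q.2
    rw [phiH_apply, hdiv]
    exact mk_eq_one_of_mem H.one_mem

/-- **The second inequality, idelic core form.** `K ⊆ L` number fields (no Galois hypothesis), `T`
a finite set of rational primes, `p` an odd prime, `H ≤ JT T K` a subgroup containing the
principal `T`-ideles, the `p`-th powers, and `(1, [P])` for the primes `P` of `K` prime to `T`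
which have a prime of `L` above them with the same absolute norm (outside a finite set `S`).
Then `H` has finite index at most `[L : K]`. -/
theorem index_le (T : Finset Nat.Primes) (K L : Type*) [Field K] [NumberField K] [Field L]
    [NumberField L] [Algebra K L] {p : ℕ} (hp : p.Prime) (hp2 : p ≠ 2)
    (H : Subgroup (JT T K)) (h1 : (diagJ T K).range ≤ H) (hpow : ∀ j : JT T K, j ^ p ∈ H)
    (S : Finset (HeightOneSpectrum (𝓞 K)))
    (h3 : ∀ P : PrimeAway T K, P.1 ∈ degOnePrimes K L → P.1 ∉ S →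
      ((1 : IT T K), DivT.ofFinsupp T K (Finsupp.single P 1)) ∈ H) :
    H.FiniteIndex ∧ H.index ≤ Module.finrank K L := by
  have hray := phiH_ray hp hp2 h1 hpow
  obtain ⟨hfin, hcard⟩ := Fermat.Agent.PT.GLOB.RayFinite5.ray_norm_index_le' K L
    (G := JT T K ⧸ H) (phiH T K H) (modulus T K) (modulus_ne_bot T K)
    (fun a h ha => by
      have ha0 : a ≠ 0 := by
        rintro rfl
        exact (nonZeroDivisors.ne_zero h) (by simp)
      exact hray a ha0 ha)
    (phiH_surj hp hp2 h1 hpow) S (phiH_split L S h3)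
  haveI := hfin
  exact ⟨Subgroup.finiteIndex_of_finite_quotient, by rw [Subgroup.index_eq_card]; exact hcard⟩

end Main

end Fermat.Agent.PT.GLOB.SecondIneqIdelic5
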