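/-
Program F (S55, Poitou–Tate), chapter GLOB, leaf REC-SPLIT (helper16), abstract part.

`ι : A →+* B` commutative rings, `G` a finite group acting on `B` by ring automorphisms fixing
`ι(A)`, with `B^G = ι(A)` (Galois descent); `ζ ∈ A` with `ζ ^ p = 1` and `ζ ^ c - 1` invertible for
`p ∤ c` (`p` prime), all positive integers invertible in `A`.  Hypothesis `HasEigenUnits`: every
`g ≠ 1` moves an eigen-unit `v ∈ Bˣ` (`h • v = ζ^{j_h} v` for all `h`, `g • v = ζ^j v` with `p ∤ j`)
whose `p`-th power is `ι(c)^p` for a unit `c` of `A`.  Then (`exists_norm_eq`)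

    ∀ x : Aˣ, ∃ y : Bˣ, ∏ g : G, g • (y : B) = ι x .

(Model case: `A = K ⊗ ℚ_q`, `B = H ⊗ ℚ_q` for a Kummer extension `H = K(D^{1/p})` all of whose
radicands are local `p`-th powers: the places above `q` split completely and every local unit is a
norm.)  Proof: induction on `#Γ` over pairs (subgroup `Γ`, `Γ`-invariant idempotent `e`) with
`(eB)^Γ = e ι(A)`, peeling the averaging idempotent `avg u = (1/p) ∑ u^l` of the `p`-th root of
unity `u = v / ι(c)`; no choice of independent generators is needed.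
-/
import Mathlib

set_option autoImplicit false
set_option linter.unusedSectionVars false

namespace Fermat.Agent.PT.GLOB.SplitNormAbs16

open Finset

section Idempotents

variable {A B : Type*} [CommRing A] [CommRing B] (ι : A →+* B) (p : ℕ) (pinv : A)

/-- The averaging idempotent `(1/p) ∑_{l<p} w^l` of an element with `w ^ p = 1`. -/
def avg (w : B) : B := ι pinv * ∑ l ∈ range p, w ^ l

variable {ι p pinv}

theorem sum_pow_mul_self {w : B} (hw : w ^ p = 1) :
    (∑ l ∈ range p, w ^ l) * w = ∑ l ∈ range p, w ^ l := by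
  rcases Nat.eq_zero_or_pos p with rfl | hp
  · simp
  rw [Finset.sum_mul]
  have h1 : ∑ l ∈ range p, w ^ l * w = ∑ l ∈ range p, w ^ (l + 1) :=
    Finset.sum_congr rfl fun l _ => (pow_succ w l).symm
  rw [h1]
  obtain ⟨n, rfl⟩ : ∃ n, p = n + 1 := ⟨p - 1, by omega⟩
  rw [Finset.sum_range_succ, Finset.sum_range_succ', hw, pow_zero]

theorem avg_mul_self {w : B} (hw : w ^ p = 1) : avg ι p pinv w * w = avg ι p pinv w := by
  unfold avg
  rw [mul_assoc, sum_pow_mul_self hw]

theorem avg_mul_pow {w : B} (hw : w ^ p = 1) (l : ℕ) :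
    avg ι p pinv w * w ^ l = avg ι p pinv w := by
  induction l with
  | zero => rw [pow_zero, mul_one]
  | succ l ih => rw [pow_succ, ← mul_assoc, ih, avg_mul_self hw]

theorem avg_mul_avg (hpinv : (p : A) * pinv = 1) {w : B} (hw : w ^ p = 1) :
    avg ι p pinv w * avg ι p pinv w = avg ι p pinv w := by
  have h1 : avg ι p pinv w * avg ι p pinv w =
      ι pinv * ∑ l ∈ range p, avg ι p pinv w * w ^ l := by
    rw [← Finset.mul_sum, mul_left_comm]
    rfl
  rw [h1, Finset.sum_congr rfl fun l _ => avg_mul_pow hw l, Finset.sum_const, card_range,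
    nsmul_eq_mul, ← mul_assoc]
  have h2 : ι pinv * (p : B) = 1 := by
    rw [← map_natCast ι, ← map_mul, mul_comm, hpinv, map_one]
  rw [h2, one_mul]

/-- Orthogonality: `avg w * avg (η w) = 0` when `η - 1` is a unit. -/
theorem avg_mul_avg_eq_zero {w : B} (hw : w ^ p = 1) {η : A} (hη : η ^ p = 1)
    (hunit : IsUnit (η - 1)) : avg ι p pinv w * avg ι p pinv (ι η * w) = 0 := by
  set X := avg ι p pinv w * avg ι p pinv (ι η * w) with hX
  have hw' : (ι η * w) ^ p = 1 := by rw [mul_pow, ← map_pow, hη, map_one, hw, one_mul]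
  have h1 : X * w = X := by
    rw [hX, mul_right_comm, avg_mul_self hw]
  have h2 : X * (ι η * w) = X := by
    rw [hX, mul_assoc, avg_mul_self hw']
  have h3 : X * ι (η - 1) = 0 := by
    have : X * ι η = X := by
      calc X * ι η = (X * w) * ι η := by rw [h1]
        _ = X * (ι η * w) := by ring
        _ = X := h2
    rw [map_sub, map_one, mul_sub, this, mul_one, sub_self]
  have hu : IsUnit (ι (η - 1)) := hunit.map ι
  exact (hu.mul_left_eq_zero).mp h3

/-- The character sum: `∑_{t<p} avg (η^t w) = 1` when `η^l - 1` is a unit for `0 < l < p`. -/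
theorem sum_avg_eq_one (hpinv : (p : A) * pinv = 1) {w : B} {η : A} (hη : η ^ p = 1)
    (hunit : ∀ l, 0 < l → l < p → IsUnit (η ^ l - 1)) (hp : 0 < p) :
    ∑ t ∈ range p, avg ι p pinv (ι (η ^ t) * w) = 1 := by
  unfold avg
  rw [← Finset.mul_sum, Finset.sum_comm]
  have h1 : ∀ l ∈ range p, ∑ t ∈ range p, (ι (η ^ t) * w) ^ l =
      ι (∑ t ∈ range p, (η ^ l) ^ t) * w ^ l := by
    intro l _
    rw [map_sum, Finset.sum_mul]
    refine Finset.sum_congr rfl fun t _ => ?_
    rw [mul_pow, ← map_pow, ← pow_mul, ← pow_mul, mul_comm t l]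
  rw [Finset.sum_congr rfl h1]
  have h2 : ∀ l ∈ range p, l ≠ 0 → ι (∑ t ∈ range p, (η ^ l) ^ t) * w ^ l = 0 := by
    intro l hl hl0
    have hu := hunit l (Nat.pos_of_ne_zero hl0) (Finset.mem_range.mp hl)
    have h3 : (η ^ l - 1) * ∑ t ∈ range p, (η ^ l) ^ t = 0 := by
      rw [mul_geom_sum, ← pow_mul, mul_comm, pow_mul, hη, one_pow, sub_self]
    rw [(hu.mul_right_eq_zero).mp h3, map_zero, zero_mul]
  rw [Finset.sum_eq_single 0 h2 (fun h => absurd (Finset.mem_range.mpr hp) h)]
  simp only [pow_zero, one_pow, Finset.sum_const, card_range, nsmul_eq_mul, mul_one]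
  rw [← map_mul, mul_comm, hpinv, map_one]

end Idempotents

section Main

variable {A B G : Type*} [CommRing A] [CommRing B] [Group G] [Fintype G] [MulSemiringAction G B]
  (ι : A →+* B) (p : ℕ) (ζ : A)

/-- Every non-trivial element of `G` moves an eigen-unit whose `p`-th power is a `p`-th power
coming from `A`. -/
def HasEigenUnits : Prop :=
  ∀ g : G, g ≠ 1 → ∃ (v : Bˣ) (c : Aˣ), (v : B) ^ p = ι ((c : A) ^ p) ∧
    (∀ h : G, ∃ j : ℕ, h • (v : B) = ι (ζ ^ j) * v) ∧
    ∃ j : ℕ, ¬ p ∣ j ∧ g • (v : B) = ι (ζ ^ j) * v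

/-- A subgroup `Γ` together with a `Γ`-invariant idempotent `e` such that the `Γ`-invariants of
`e B` are `e ι(A)`. -/
structure Good (Γ : Subgroup G) (e : B) : Prop where
  idem : e * e = e
  fixed : ∀ g ∈ Γ, g • e = e
  descent : ∀ b : B, e * b = b → (∀ g ∈ Γ, g • b = b) → ∃ a : A, b = e * ι a

variable {ι p ζ}

theorem smul_avg (hfix : ∀ (g : G) (a : A), g • ι a = ι a) (pinv : A) (g : G) (w : B) :
    g • avg ι p pinv w = avg ι p pinv (g • w) := by
  unfold avg
  rw [smul_mul', hfix, Finset.smul_sum]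
  congr 1
  exact Finset.sum_congr rfl fun l _ => smul_pow' g w l

theorem zeta_pow_eq_one_of_dvd (hζ : ζ ^ p = 1) {j : ℕ} (hj : p ∣ j) : ζ ^ j = 1 := by
  obtain ⟨k, rfl⟩ := hj
  rw [pow_mul, hζ, one_pow]

open scoped Classical in
theorem exists_norm_eq_aux (hfix : ∀ (g : G) (a : A), g • ι a = ι a) (hp : p.Prime)
    (hζ : ζ ^ p = 1) (hunit : ∀ c : ℕ, ¬ p ∣ c → IsUnit (ζ ^ c - 1))
    (hnat : ∀ n : ℕ, 0 < n → IsUnit ((n : ℕ) : A)) (hE : HasEigenUnits (G := G) ι p ζ) :
    ∀ (n : ℕ) (Γ : Subgroup G) (e : B), (univ.filter (· ∈ Γ)).card = n → Good ι Γ e →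
      ∀ x : Aˣ, ∃ y y' : B, e * y = y ∧ e * y' = y' ∧ y * y' = e ∧
        ∏ g ∈ univ.filter (· ∈ Γ), g • y = e * ι x := by
  obtain ⟨pinv, hpinv⟩ : ∃ pinv : A, (p : A) * pinv = 1 := by
    obtain ⟨w, hw⟩ := hnat p hp.pos
    exact ⟨↑w⁻¹, by rw [← hw, Units.mul_inv]⟩
  intro n
  induction n using Nat.strong_induction_on with
  | _ n ih =>
  intro Γ e hn hgood x
  by_cases htriv : ∀ g ∈ Γ, g = 1
  · have hΓ : univ.filter (· ∈ Γ) = {1} := by
      ext g
      simp only [mem_filter, mem_univ, true_and, mem_singleton]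
      exact ⟨htriv g, fun h => h ▸ Γ.one_mem⟩
    refine ⟨e * ι x, e * ι ↑x⁻¹, by rw [← mul_assoc, hgood.idem],
      by rw [← mul_assoc, hgood.idem], ?_, ?_⟩
    · calc e * ι x * (e * ι ↑x⁻¹) = (e * e) * ι (x * ↑x⁻¹) := by rw [map_mul]; ring
        _ = e := by rw [hgood.idem, Units.mul_inv, map_one, mul_one]
    · rw [hΓ, prod_singleton, one_smul]
  · push Not at htriv
    obtain ⟨g, hgΓ, hg1⟩ := htriv
    by_cases he0 : e = 0
    · subst he0
      refine ⟨0, 0, by simp, by simp, by simp, ?_⟩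
      rw [zero_mul]
      apply Finset.prod_eq_zero (i := 1) (by simp [Γ.one_mem])
      simp
    obtain ⟨v, c, hvp, hveig, j0, hj0, hgv⟩ := hE g hg1
    set u : B := v * ι ↑c⁻¹ with hu
    have hup : u ^ p = 1 := by
      rw [hu, mul_pow, hvp, ← map_pow, ← map_mul, ← mul_pow, Units.mul_inv, one_pow, map_one]
    have hueig : ∀ h : G, ∃ j : ℕ, h • u = ι (ζ ^ j) * u := by
      intro h
      obtain ⟨j, hj⟩ := hveig h
      exact ⟨j, by rw [hu, smul_mul', hj, hfix, mul_assoc]⟩
    have hgu : g • u = ι (ζ ^ j0) * u := by rw [hu, smul_mul', hgv, hfix, mul_assoc]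
    have hu_unit : IsUnit u := v.isUnit.mul ((c⁻¹).isUnit.map ι)
    have hBnt : Nontrivial B := ⟨⟨e, 0, he0⟩⟩
    -- eigenvalue one
    have hne : ∀ j : ℕ, ¬ p ∣ j → ι (ζ ^ j) * u ≠ u := by
      intro j hj h
      have h1 : ι (ζ ^ j - 1) * u = 0 := by rw [map_sub, map_one, sub_mul, one_mul, h, sub_self]
      have h2 : ι (ζ ^ j - 1) = 0 := (hu_unit.mul_left_eq_zero).mp h1
      have h3 : IsUnit (ι (ζ ^ j - 1)) := (hunit j hj).map ι
      rw [h2] at h3
      exact not_isUnit_zero h3
    -- the smaller subgroup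
    let Γ' : Subgroup G := Γ ⊓ MulAction.stabilizer G u
    have hΓ'mem : ∀ h : G, h ∈ Γ' ↔ h ∈ Γ ∧ h • u = u := fun h => Iff.rfl
    have hΓ'le : Γ' ≤ Γ := inf_le_left
    have hgΓ' : g ∉ Γ' := by
      intro h
      exact hne j0 hj0 (hgu ▸ ((hΓ'mem g).mp h).2)
    set E : B := avg ι p pinv u with hEdef
    set e' : B := e * E with he'
    have hEE : E * E = E := avg_mul_avg hpinv hup
    have he'idem : e' * e' = e' := by
      rw [he', mul_mul_mul_comm, hgood.idem, hEE]
    have hee' : e * e' = e' := by rw [he', ← mul_assoc, hgood.idem]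
    -- translates of `E` by elements outside `Γ'`
    have horth : ∀ h ∈ Γ, h ∉ Γ' → E * (h • E) = 0 := by
      intro h hh hh'
      obtain ⟨j, hj⟩ := hueig h
      have hpj : ¬ p ∣ j := by
        intro hdvd
        apply hh'
        refine (hΓ'mem h).mpr ⟨hh, ?_⟩
        rw [hj, zeta_pow_eq_one_of_dvd hζ hdvd, map_one, one_mul]
      rw [hEdef, smul_avg hfix, hj]
      exact avg_mul_avg_eq_zero hup (by rw [← pow_mul, mul_comm, pow_mul, hζ, one_pow])
        (hunit j hpj)
    have hfixE : ∀ h ∈ Γ', h • E = E := by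
      intro h hh
      rw [hEdef, smul_avg hfix, ((hΓ'mem h).mp hh).2]
    have hfixe' : ∀ h ∈ Γ', h • e' = e' := by
      intro h hh
      rw [he', smul_mul', hgood.fixed h (hΓ'le hh), hfixE h hh]
    have horth' : ∀ h ∈ Γ, h ∉ Γ' → e' * (h • e') = 0 := by
      intro h hh hh'
      rw [he', smul_mul', hgood.fixed h hh, mul_mul_mul_comm, horth h hh hh', mul_zero]
    -- the descent property for `(Γ', e')`
    have hcardΓ' : 0 < (univ.filter (· ∈ Γ')).card :=
      Finset.card_pos.mpr ⟨1, by simp [Γ'.one_mem]⟩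
    have hgood' : Good ι Γ' e' := by
      refine ⟨he'idem, hfixe', ?_⟩
      intro b hb hbfix
      set Tb : B := ∑ h ∈ univ.filter (· ∈ Γ), h • b with hTb
      have hTfix : ∀ k ∈ Γ, k • Tb = Tb := by
        intro k hk
        rw [hTb, Finset.smul_sum]
        refine Finset.sum_equiv (Equiv.mulLeft k) ?_ ?_
        · intro i
          simp only [mem_filter, mem_univ, true_and, Equiv.coe_mulLeft]
          exact (Subgroup.mul_mem_cancel_left Γ hk).symm
        · intro i _
          rw [Equiv.coe_mulLeft, mul_smul]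
      have heb : e * b = b := by rw [← hb, ← mul_assoc, hee']
      have heT : e * Tb = Tb := by
        rw [hTb, Finset.mul_sum]
        refine Finset.sum_congr rfl fun h hh => ?_
        have hh' : h ∈ Γ := (mem_filter.mp hh).2
        rw [← hgood.fixed h hh', ← smul_mul', heb]
      obtain ⟨a, ha⟩ := hgood.descent Tb heT hTfix
      have he'T : e' * Tb = ((univ.filter (· ∈ Γ')).card : B) * b := by
        rw [hTb, Finset.mul_sum, ← Finset.sum_filter_add_sum_filter_not _ (· ∈ Γ')]
        have h1 : ∀ h ∈ (univ.filter (· ∈ Γ)).filter (· ∈ Γ'), e' * h • b = b := by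
          intro h hh
          have hh' : h ∈ Γ' := (mem_filter.mp hh).2
          rw [hbfix h hh', hb]
        have h2 : ∀ h ∈ (univ.filter (· ∈ Γ)).filter (fun h => ¬ h ∈ Γ'), e' * h • b = 0 := by
          intro h hh
          have hh1 : h ∈ Γ := (mem_filter.mp (mem_filter.mp hh).1).2
          have hh2 : h ∉ Γ' := (mem_filter.mp hh).2
          have : h • b = (h • e') * (h • b) := by rw [← smul_mul', hb]
          rw [this, ← mul_assoc, horth' h hh1 hh2, zero_mul]
        have hfil : (univ.filter (· ∈ Γ)).filter (· ∈ Γ') = univ.filter (· ∈ Γ') := by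
          ext h
          simp only [mem_filter, mem_univ, true_and]
          exact ⟨fun h' => h'.2, fun h' => ⟨hΓ'le h', h'⟩⟩
        rw [Finset.sum_congr rfl h1, Finset.sum_congr rfl h2, Finset.sum_const_zero, add_zero,
          Finset.sum_const, nsmul_eq_mul, hfil]
      obtain ⟨m, hm⟩ := hnat _ hcardΓ'
      refine ⟨↑m⁻¹ * a, ?_⟩
      have h3 : ι ((univ.filter (· ∈ Γ')).card : A) * b = e' * ι a := by
        rw [map_natCast, ← he'T, ha, ← mul_assoc, mul_comm e' e, hee']
      calc b = ι (↑m⁻¹ * ((univ.filter (· ∈ Γ')).card : A)) * b := by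
              rw [← hm, Units.inv_mul, map_one, one_mul]
        _ = ι ↑m⁻¹ * (ι ((univ.filter (· ∈ Γ')).card : A) * b) := by rw [map_mul, mul_assoc]
        _ = e' * ι (↑m⁻¹ * a) := by rw [h3, map_mul]; ring
    -- cardinality drops
    have hlt : (univ.filter (· ∈ Γ')).card < n := by
      rw [← hn]
      apply Finset.card_lt_card
      rw [Finset.ssubset_iff_of_subset]
      · exact ⟨g, by simp [hgΓ], by simp [hgΓ']⟩
      · intro h hh
        simp only [mem_filter, mem_univ, true_and] at hh ⊢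
        exact hΓ'le hh
    obtain ⟨y₁, y₁', hy₁, hy₁', hyy₁, hprod₁⟩ := ih _ hlt Γ' e' rfl hgood' x
    have he'e : e' * e = e' := by rw [mul_comm, hee']
    have he'comp : e' * (e - e') = 0 := by rw [mul_sub, he'e, he'idem, sub_self]
    have hc1 : y₁ * (e - e') = 0 := by
      calc y₁ * (e - e') = (e' * y₁) * (e - e') := by rw [hy₁]
        _ = y₁ * (e' * (e - e')) := by ring
        _ = 0 := by rw [he'comp, mul_zero]
    have hc1' : y₁' * (e - e') = 0 := by
      calc y₁' * (e - e') = (e' * y₁') * (e - e') := by rw [hy₁']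
        _ = y₁' * (e' * (e - e')) := by ring
        _ = 0 := by rw [he'comp, mul_zero]
    have hcc : (e - e') * (e - e') = e - e' := by
      have : (e - e') * (e - e') = e * e - e * e' - e' * e + e' * e' := by ring
      rw [this, hgood.idem, hee', he'e, he'idem]
      ring
    have hey₁ : e * y₁ = y₁ := by
      calc e * y₁ = e * (e' * y₁) := by rw [hy₁]
        _ = (e * e') * y₁ := by ring
        _ = y₁ := by rw [hee', hy₁]
    have hey₁' : e * y₁' = y₁' := by
      calc e * y₁' = e * (e' * y₁') := by rw [hy₁']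
        _ = (e * e') * y₁' := by ring
        _ = y₁' := by rw [hee', hy₁']
    have hecomp : e * (e - e') = e - e' := by rw [mul_sub, hgood.idem, hee']
    refine ⟨y₁ + (e - e'), y₁' + (e - e'), by rw [mul_add, hey₁, hecomp],
      by rw [mul_add, hey₁', hecomp], ?_, ?_⟩
    · calc (y₁ + (e - e')) * (y₁' + (e - e'))
          = y₁ * y₁' + y₁ * (e - e') + y₁' * (e - e') + (e - e') * (e - e') := by ring
        _ = e := by rw [hyy₁, hc1, hc1', hcc]; ring
    set y : B := y₁ + (e - e') with hy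
    set P : B := ∏ h ∈ univ.filter (· ∈ Γ), h • y with hP
    have hey : e * y = y := by rw [hy, mul_add, hey₁, hecomp]
    have he'y : e' * y = y₁ := by rw [hy, mul_add, hy₁, he'comp, add_zero]
    have hPfix : ∀ k ∈ Γ, k • P = P := by
      intro k hk
      rw [hP, Finset.smul_prod']
      refine Finset.prod_equiv (Equiv.mulLeft k) ?_ ?_
      · intro i
        simp only [mem_filter, mem_univ, true_and, Equiv.coe_mulLeft]
        exact (Subgroup.mul_mem_cancel_left Γ hk).symm
      · intro i _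
        rw [Equiv.coe_mulLeft, mul_smul]
    have h1mem : (1 : G) ∈ univ.filter (· ∈ Γ) := by simp [Γ.one_mem]
    have heP : e * P = P := by
      rw [hP, ← Finset.mul_prod_erase _ _ h1mem, ← mul_assoc, one_smul, hey]
    obtain ⟨a, ha⟩ := hgood.descent P heP hPfix
    -- idempotents and nonempty products
    have hidem_pow : ∀ m : ℕ, 0 < m → e' ^ m = e' := by
      intro m hm
      induction m with
      | zero => exact absurd hm (lt_irrefl 0)
      | succ m ihm =>
        rcases Nat.eq_zero_or_pos m with rfl | hm'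
        · rw [pow_one]
        · rw [pow_succ, ihm hm', he'idem]
    have he'P : e' * P = e' * ι x := by
      have h1 : e' * P = ∏ h ∈ univ.filter (· ∈ Γ), e' * h • y := by
        rw [Finset.prod_mul_distrib, Finset.prod_const, hidem_pow _ (Finset.card_pos.mpr ⟨1, h1mem⟩)]
      rw [h1, ← Finset.prod_filter_mul_prod_filter_not _ (· ∈ Γ')]
      have hfil : (univ.filter (· ∈ Γ)).filter (· ∈ Γ') = univ.filter (· ∈ Γ') := by
        ext h
        simp only [mem_filter, mem_univ, true_and]
        exact ⟨fun h' => h'.2, fun h' => ⟨hΓ'le h', h'⟩⟩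
      have h2 : ∀ h ∈ (univ.filter (· ∈ Γ)).filter (· ∈ Γ'), e' * h • y = h • y₁ := by
        intro h hh
        have hh' : h ∈ Γ' := (mem_filter.mp hh).2
        rw [← he'y, smul_mul', hfixe' h hh']
      have h3 : ∀ h ∈ (univ.filter (· ∈ Γ)).filter (fun h => ¬ h ∈ Γ'), e' * h • y = e' := by
        intro h hh
        have hh1 : h ∈ Γ := (mem_filter.mp (mem_filter.mp hh).1).2
        have hh2 : h ∉ Γ' := (mem_filter.mp hh).2
        have hy1 : h • y₁ = (h • e') * (h • y₁) := by rw [← smul_mul', hy₁]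
        rw [hy, smul_add, smul_sub, hgood.fixed h hh1, mul_add, mul_sub, hy1, ← mul_assoc,
          horth' h hh1 hh2, zero_mul, zero_add, he'e, sub_zero]
      rw [Finset.prod_congr rfl h2, Finset.prod_congr rfl h3, hfil, hprod₁, Finset.prod_const,
        hidem_pow]
      · rw [mul_right_comm, he'idem]
      · exact Finset.card_pos.mpr ⟨g, by simp [hgΓ, hgΓ']⟩
    have hzero : e' * ι (a - x) = 0 := by
      rw [map_sub, mul_sub, ← he'P, ha, ← mul_assoc, he'e, sub_self]
    -- the translates of `e'` by the powers of `g` sum to `e`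
    have hgpow : ∀ t : ℕ, (g ^ t) • u = ι ((ζ ^ j0) ^ t) * u := by
      intro t
      induction t with
      | zero => simp
      | succ t iht =>
        rw [pow_succ', mul_smul, iht, smul_mul', hfix, hgu, pow_succ, map_mul]
        ring
    have hsum : ∑ t ∈ range p, (g ^ t) • e' = e := by
      have h1 : ∀ t ∈ range p, (g ^ t) • e' = e * avg ι p pinv (ι ((ζ ^ j0) ^ t) * u) := by
        intro t _
        rw [he', smul_mul', hgood.fixed _ (Γ.pow_mem hgΓ t), hEdef, smul_avg hfix, hgpow]
      rw [Finset.sum_congr rfl h1, ← Finset.mul_sum, sum_avg_eq_one hpinv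
        (by rw [← pow_mul, mul_comm, pow_mul, hζ, one_pow]) ?_ hp.pos, mul_one]
      intro l hl0 hlp
      rw [← pow_mul]
      apply hunit
      intro hdvd
      rcases (Nat.Prime.dvd_mul hp).mp hdvd with h | h
      · exact hj0 h
      · exact Nat.not_dvd_of_pos_of_lt hl0 hlp h
    have hfinal : e * ι (a - x) = 0 := by
      rw [← hsum, Finset.sum_mul]
      apply Finset.sum_eq_zero
      intro t _
      have : (g ^ t) • e' * ι (a - x) = (g ^ t) • (e' * ι (a - x)) := by
        rw [smul_mul' (g ^ t) e' (ι (a - x)), hfix]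
      rw [this, hzero, smul_zero]
    rw [ha]
    rw [map_sub, mul_sub, sub_eq_zero] at hfinal
    exact hfinal

/-- **Split norm, abstract form.**  `ι : A → B` rings, `G` a finite group acting on `B` by ring
automorphisms fixing `ι(A)`, with `B^G = ι(A)`; `ζ ∈ A` a `p`-th root of unity with `ζ^c - 1`
invertible for `p ∤ c`, all positive integers invertible in `A`.  If every non-trivial element of
`G` moves an eigen-unit `v ∈ Bˣ` with `v^p ∈ ι(Aˣ)^p`, then every unit of `A` is a norm from
`Bˣ`. -/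
theorem exists_norm_eq (hfix : ∀ (g : G) (a : A), g • ι a = ι a) (hp : p.Prime)
    (hζ : ζ ^ p = 1) (hunit : ∀ c : ℕ, ¬ p ∣ c → IsUnit (ζ ^ c - 1))
    (hnat : ∀ n : ℕ, 0 < n → IsUnit ((n : ℕ) : A)) (hE : HasEigenUnits (G := G) ι p ζ)
    (hD : ∀ b : B, (∀ g : G, g • b = b) → ∃ a : A, ι a = b) (x : Aˣ) :
    ∃ y : Bˣ, ∏ g : G, g • (y : B) = ι x := by
  classical
  have hgood : Good ι (⊤ : Subgroup G) (1 : B) := by
    refine ⟨mul_one 1, fun g _ => smul_one g, ?_⟩
    intro b _ hb
    obtain ⟨a, ha⟩ := hD b fun g => hb g (Subgroup.mem_top g)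
    exact ⟨a, by rw [one_mul, ha]⟩
  obtain ⟨y, y', _, _, hyy', hprod⟩ :=
    exists_norm_eq_aux hfix hp hζ hunit hnat hE _ ⊤ 1 rfl hgood x
  refine ⟨⟨y, y', hyy', by rw [mul_comm, hyy']⟩, ?_⟩
  have huniv : (univ.filter (· ∈ (⊤ : Subgroup G))) = univ := by
    ext g
    simp
  rw [huniv, one_mul] at hprod
  exact hprod

end Main

end Fermat.Agent.PT.GLOB.SplitNormAbs16
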