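import Fermat.Agent.PT.GLOB.SplitNorm16
import Fermat.Agent.PT.GLOB.InterfaceCF23

set_option autoImplicit false
set_option linter.unusedSectionVars false
set_option linter.unusedVariables false

namespace Fermat.Agent.PT.GLOB.SplitNormCT16

open NumberField IsDedekindDomain
open scoped TensorProduct
open Fermat.Agent.PT.GLOB.Interface23 Fermat.Agent.PT.GLOB.Tower23
  Fermat.Agent.PT.GLOB.ClassAction23

variable (S : Finset Nat.Primes) (K H : Type) [Field K] [Field H] [NumberField K]
  [NumberField H] [Algebra K H] [IsGalois K H]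

/-- The class of the idele `(x, 1)`. -/
noncomputable def toCTI (L : Type) [Field L] [NumberField L] : IT S L →* CT S L :=
  (toCT S L).comp (MonoidHom.inl (IT S L) (DivT S L))

theorem toCTI_apply (L : Type) [Field L] [NumberField L] (x : IT S L) :
    toCTI S L x = toCT S L (x, 1) := rfl

theorem inclCT_toCTI (x : IT S K) :
    inclCT S K H (toCTI S K x) = toCTI S H (inclI S K H x) := by
  rw [toCTI_apply, inclCT_toCT, toCTI_apply]
  congr 1
  exact Prod.ext rfl (map_one (inclDiv S K H))

theorem smul_toCTI (g : H ≃ₐ[K] H) (y : IT S H) : g • toCTI S H y = toCTI S H (g • y) := by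
  rw [toCTI_apply, smul_toCT, toCTI_apply]
  congr 1

theorem normCT_toCTI (y : IT S H) :
    InterfaceCF23.normCT S K H (toCTI S H y) = toCTI S H (∏ g : H ≃ₐ[K] H, g • y) := by
  unfold InterfaceCF23.normCT
  rw [map_prod]
  exact Finset.prod_congr rfl fun g _ => smul_toCTI S K H g y

/-- **(REC-SPLIT), class form.**  Under the hypotheses of
`SplitNorm16.exists_prod_smul_eq_inclI`, the class of every idele `(x, 1)`, `x ∈ IT S K`, becomes
a norm in `CT S H`. -/
theorem exists_normCT_eq_inclCT (p : ℕ) (hp : p.Prime) (ζ : K) (hζ : IsPrimitiveRoot ζ p)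
    (D : Subgroup Kˣ)
    (hroot : ∀ d ∈ D, ∃ x : H, x ^ p = algebraMap K H d)
    (hgen : IntermediateField.adjoin K {x : H | ∃ d ∈ D, x ^ p = algebraMap K H d} = ⊤)
    (hloc : ∀ d ∈ D, ∃ a : IT S K, diagI S K d = a ^ p) (x : IT S K) :
    ∃ y : IT S H, InterfaceCF23.normCT S K H (toCT S H (y, 1)) =
      inclCT S K H (toCT S K (x, 1)) := by
  obtain ⟨y, hy⟩ := SplitNorm16.exists_prod_smul_eq_inclI S K H p hp ζ hζ D hroot hgen hloc x
  refine ⟨y, ?_⟩
  have h1 := normCT_toCTI S K H y
  rw [hy, ← inclCT_toCTI] at h1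
  exact h1

end Fermat.Agent.PT.GLOB.SplitNormCT16
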