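/-
# (REC-SPLIT) in the exact shape consumed by `RecAssembly15.recNormForm_of`
-/
import Fermat.Agent.PT.GLOB.SplitNorm16
import Fermat.Agent.PT.GLOB.RecAssembly15

set_option autoImplicit false

namespace Fermat.Agent.PT.GLOB.SplitNormProp16

/-- **(REC-SPLIT)**, unconditional: the input `SplitNorm p S` of `RecAssembly15.recNormForm_of`. -/
theorem splitNorm (p : ℕ) (S : Finset Nat.Primes) : RecAssembly15.SplitNorm p S :=
  fun hp K H _ _ _ _ _ _ ζ hζ D hroot hgen hloc =>
    SplitNorm16.exists_prod_smul_eq_inclI S K H p hp ζ hζ D hroot hgen hloc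

end Fermat.Agent.PT.GLOB.SplitNormProp16
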